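import Fermat.Agent.Lifting.BLinear
import Fermat.Agent.Galois.TameInertia
import Fermat.Agent.Reducible.Places
import Fermat.Agent.EC.Torsion
import Fermat.Agent.Mult.Main
import Fermat.Agent.ECRed.Rat
import Fermat.Agent.AtP.Main
import Fermat.Agent.AtP.Inertia
import Fermat.Prelude.Def_FLTPrelim_ModularRep
import Mathlib.RingTheory.RootsOfUnity.Lemmas
import Mathlib.RingTheory.RootsOfUnity.CyclotomicUnits
import Mathlib.GroupTheory.Nilpotent
import Mathlib.Algebra.Group.Subgroup.Order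
import Mathlib.LinearAlgebra.PID
import Mathlib.LinearAlgebra.Matrix.GeneralLinearGroup.Card

/-!
# `E[p]` of a semistable curve does not become reducible on a subgroup of index two

For an odd prime `p` with `E[p]` irreducible, no subgroup `G` of index two has all elements
outside it of trace zero on `E[p]`.
-/

set_option autoImplicit false

open scoped WeierstrassCurve.Affine
open Module

namespace Fermat.Agent.Lifting

local notation "Γℚ" => AlgebraicClosure ℚ ≃ₐ[ℚ] AlgebraicClosure ℚ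

/-- The `p`-torsion over `ℚ̄`. -/
abbrev Tors (W : WeierstrassCurve ℤ) (p : ℕ) : Type :=
  Submodule.torsionBy ℤ ((W.map (Int.castRingHom ℚ))⁄(AlgebraicClosure ℚ)).Point p

/-- The Galois representation on the `p`-torsion. -/
noncomputable abbrev torsRep (W : WeierstrassCurve ℤ) (p : ℕ) :
    Γℚ →* Module.End (ZMod p) (Tors W p) :=
  WeierstrassCurve.Affine.Point.galoisRepModuleEnd (K := AlgebraicClosure ℚ) ℚ
    (W.map (Int.castRingHom ℚ)) p

/-- Inertia at a place over `p` cannot send every `p`-th root of unity `ζ` into `{ζ, ζ⁻¹}` unless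
`p = 3`. -/
theorem eq_three_of_inertia_sign {p : ℕ} (hp : p.Prime) (hp2 : p ≠ 2)
    {A : ValuationSubring (AlgebraicClosure ℚ)} (hA : A.LiesOverPrime p)
    (h : ∀ σ ∈ A.inertiaSubgroupIn ℚ, ∀ ζ : AlgebraicClosure ℚ, ζ ^ p = 1 →
      σ ζ = ζ ∨ σ ζ = ζ⁻¹) : p = 3 := by
  have : NeZero p := ⟨hp.ne_zero⟩
  obtain ⟨ζ, hζ⟩ := HasEnoughRootsOfUnity.exists_primitiveRoot (AlgebraicClosure ℚ) p
  have hζ0 : ζ ≠ 0 := hζ.ne_zero hp.ne_zero
  have hζA : ζ ∈ A :=
    Galois.mem_valuationSubring_of_isIntegral A (hζ.isIntegral hp.pos)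
  let z : A := ⟨ζ, hζA⟩
  have hz : IsPrimitiveRoot z p := hζ.of_map_of_injective (f := A.subtype) Subtype.val_injective
  have hvals : ∀ j : ℕ, j.Coprime p → A.valuation (ζ ^ j - 1) = A.valuation (ζ - 1) := by
    intro j hj
    obtain ⟨u, hu⟩ := hz.associated_sub_one_pow_sub_one_of_coprime hj
    have h1 := congrArg (fun a : A => A.valuation (a : AlgebraicClosure ℚ)) hu
    simp only [MulMemClass.coe_mul, map_mul, A.valuation_unit, mul_one] at h1
    exact h1.symm
  obtain ⟨n, rfl⟩ : ∃ n, p = n + 1 := ⟨p - 1, by have := hp.pos; omega⟩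
  have hvp : A.valuation ((n + 1 : ℕ) : AlgebraicClosure ℚ) = A.valuation (ζ - 1) ^ n := by
    have hprod := congrArg A.valuation hζ.prod_one_sub_pow_eq_order
    rw [map_prod, Finset.prod_congr rfl (g := fun _ => A.valuation (ζ - 1)) (fun k hk => ?_),
      Finset.prod_const, Finset.card_range] at hprod
    · rw [hprod]
      push_cast
      rfl
    · rw [← Valuation.map_neg, neg_sub]
      refine hvals _ ((Nat.Prime.coprime_iff_not_dvd hp).2 ?_).symm
      intro hd
      have := Nat.le_of_dvd (Nat.succ_pos k) hd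
      have := Finset.mem_range.1 hk
      omega
  have hp0 : A.valuation ((n + 1 : ℕ) : AlgebraicClosure ℚ) ≠ 0 :=
    (map_ne_zero _).2 (Nat.cast_ne_zero.2 hp.ne_zero)
  have hlt : A.valuation ((n + 1 : ℕ) : AlgebraicClosure ℚ) < 1 :=
    (ValuationSubring.mem_nonunits_iff A).1 hA
  set v := A.valuation (ζ - 1) with hv
  have hζ1 : A.valuation ζ = 1 := by
    have := congrArg A.valuation hζ.pow_eq_one
    rw [map_pow, map_one] at this
    exact (pow_eq_one_iff.1 this).resolve_right (Nat.succ_ne_zero n)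
  set c := 2 - ζ - ζ⁻¹ with hc
  have hcv : c * ζ = -((ζ - 1) * (ζ - 1)) := by rw [hc]; field_simp; ring
  have hvc : A.valuation c = v ^ 2 := by
    have := congrArg A.valuation hcv
    rw [map_mul, hζ1, mul_one, Valuation.map_neg, map_mul, ← pow_two] at this
    exact this
  have hc0 : c ≠ 0 := by
    intro h0
    rw [h0, zero_mul, zero_eq_neg, mul_self_eq_zero, sub_eq_zero] at hcv
    exact hp.ne_one (hζ.unique (hcv ▸ IsPrimitiveRoot.one))
  obtain ⟨m, hm⟩ := AtP.exists_zpow_valuation_eq hp hA hc0 fun σ hσ => by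
    rcases h σ hσ ζ hζ.pow_eq_one with h' | h' <;>
      rw [hc, map_sub, map_sub, map_inv₀, map_ofNat, h'] <;> simp [sub_right_comm]
  rw [hvc, hvp, ← zpow_natCast v 2, ← zpow_natCast v n, ← zpow_mul] at hm
  have hv0 : 0 < v := zero_lt_iff.2 fun h0 => hp0 (by
    rw [hvp, h0, zero_pow]; intro hn; subst hn; exact absurd hp Nat.not_prime_one)
  have hv1 : v ≠ 1 := fun h1 => hlt.ne (by rw [hvp, h1, one_pow])
  have heq := zpow_right_injective₀ hv0 hv1 hm
  have hdvd : n ∣ 2 := Int.natCast_dvd_natCast.1 ⟨m, heq⟩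
  have := Nat.le_of_dvd two_pos hdvd
  have := hp.two_le
  omega

/-- The `p`-torsion over `ℚ̄` lives on an elliptic curve. -/
theorem isElliptic_tors {W : WeierstrassCurve ℤ} (hΔ : W.Δ ≠ 0) :
    ((W.map (Int.castRingHom ℚ))⁄(AlgebraicClosure ℚ)).IsElliptic := by
  refine ⟨?_⟩
  change IsUnit ((W.map (Int.castRingHom ℚ)).map (algebraMap ℚ (AlgebraicClosure ℚ))).Δ
  rw [WeierstrassCurve.map_Δ, WeierstrassCurve.map_Δ, isUnit_iff_ne_zero]
  simpa using hΔ

theorem finrank_tors {W : WeierstrassCurve ℤ} {p : ℕ} [Fact p.Prime] (hΔ : W.Δ ≠ 0) :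
    Module.finrank (ZMod p) (Tors W p) = 2 :=
  have := isElliptic_tors hΔ
  EC.finrank_torsionBy (Nat.cast_ne_zero.2 (Fact.out : p.Prime).ne_zero)

/-- A normal subgroup containing one inertia group over `q` contains all of them. -/
theorem inertia_le_of_conj {H : Subgroup Γℚ} [hH : H.Normal] {q : ℕ} (hq : q.Prime)
    {A A' : ValuationSubring (AlgebraicClosure ℚ)} (hA : A.LiesOverPrime q)
    (hA' : A'.LiesOverPrime q) (h : A.inertiaSubgroupIn ℚ ≤ H) :
    A'.inertiaSubgroupIn ℚ ≤ H := by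
  obtain ⟨g, hg⟩ := Galois.exists_smul_eq_of_liesOverPrime hq hA' hA
  intro σ hσ
  have h1 := h (hg ▸ Reducible.conj_mem_inertia (g := g) hσ)
  have h2 := hH.conj_mem _ h1 g⁻¹
  simpa [mul_assoc] using h2

theorem isOpen_of_level {H : Subgroup Γℚ} (L : IntermediateField ℚ (AlgebraicClosure ℚ))
    [FiniteDimensional ℚ L] (hle : ∀ σ : Γℚ, (∀ x ∈ L, σ x = x) → σ ∈ H) :
    IsOpen (H : Set Γℚ) :=
  Subgroup.isOpen_mono (fun σ hσ => hle σ fun x hx =>
    (IntermediateField.mem_fixingSubgroup_iff L σ).mp hσ x hx) L.fixingSubgroup_isOpen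

/-- A finite `2`-group generated by the conjugates of `s` is generated by `s`. -/
theorem zpowers_eq_top_of_normalClosure {H : Type*} [Group H] [Finite H] (hH : IsPGroup 2 H)
    {s : H} (hs : Subgroup.normalClosure {s} = ⊤) : Subgroup.zpowers s = ⊤ := by
  rcases eq_top_or_exists_le_coatom (Subgroup.zpowers s) with h | ⟨M, hM, hle⟩
  · exact h
  · have : Fact (Nat.Prime 2) := ⟨Nat.prime_two⟩
    have : Group.IsNilpotent H := hH.isNilpotent
    have hn : M.Normal := Subgroup.NormalizerCondition.normal_of_coatom M normalizerCondition_of_isNilpotent hM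
    refine absurd (top_le_iff.1 (hs ▸ ?_)) hM.1
    exact Subgroup.normalClosure_le_normal (Set.singleton_subset_iff.2
      (hle (Subgroup.mem_zpowers s)))

variable {W : WeierstrassCurve ℤ} {p : ℕ} [Fact p.Prime]

theorem two_ne_zero_zmod (hp2 : p ≠ 2) : (2 : ZMod p) ≠ 0 := by
  intro h
  have h' : ((2 : ℕ) : ZMod p) = 0 := h
  rw [ZMod.natCast_eq_zero_iff] at h'
  exact hp2 ((Nat.prime_dvd_prime_iff_eq Fact.out Nat.prime_two).1 h')

/-- On a line modulo which it is trivial, an automorphism acting as `a` has trace `a + 1`. -/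
theorem trace_eq_of_line {k V : Type*} [Field k] [AddCommGroup V] [Module k V]
    (hV : finrank k V = 2) {N : Submodule k V} (hN : finrank k N = 1) {A : Module.End k V} {a : k}
    (hA : ∀ x, A x - x ∈ N) (ha : ∀ x ∈ N, A x = a • x) : LinearMap.trace k V A = a + 1 := by
  have : Module.Finite k V := Module.finite_of_finrank_eq_succ hV
  have hr : ((A - 1).restrict (p := N) (q := N) (fun x _ => hA x)) =
      (a - 1) • (LinearMap.id : N →ₗ[k] N) := by
    refine LinearMap.ext fun x => Subtype.ext ?_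
    change A x - x = (a - 1) • (x : V)
    rw [ha x x.2, sub_smul, one_smul]
  have h := LinearMap.trace_restrict_eq_of_forall_mem N (A - 1) hA
  rw [hr, map_smul, LinearMap.trace_id, hN, map_sub, LinearMap.trace_one, hV] at h
  simp only [Nat.cast_one, smul_eq_mul, mul_one, Nat.cast_ofNat] at h
  linear_combination -h

section

variable {G : Subgroup Γℚ}

/-- In a representation with trace zero outside `G`, inertia away from `p` is trivial. -/
theorem inertia_eq_one_away (hΔ : W.Δ ≠ 0) (hW : W.IsSemistableModel) (hp2 : p ≠ 2)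
    (hirr : W.ModRepIsIrreducible p) (hG : G.index = 2)
    (htr : ∀ g ∉ G, LinearMap.trace (ZMod p) (Tors W p) (torsRep W p g) = 0)
    {q : ℕ} (hq : q.Prime) (hqp : q ≠ p) {A : ValuationSubring (AlgebraicClosure ℚ)}
    (hA : A.LiesOverPrime q) {σ : Γℚ} (hσ : σ ∈ A.inertiaSubgroupIn ℚ) : torsRep W p σ = 1 := by
  have hp : p.Prime := Fact.out
  have hqn : ¬ q ∣ p := fun h => hqp ((Nat.prime_dvd_prime_iff_eq hq hp).1 h)
  by_cases hbad : (q : ℤ) ∣ W.Δ
  · refine eq_one_of_isNilpotent _ (finrank_tors hΔ) htr (two_ne_zero_zmod hp2)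
      hirr.2 hG ⟨2, ?_⟩
    rw [pow_two]
    exact Mult.inertia_sub_one_mul_sub_one (Mult.IsMultPlace.of_semistable hΔ hW hq hbad hA)
      hp.ne_zero hqn hσ
  · exact LinearMap.ext fun x =>
      ECRed.galoisRepUnramifiedAt_of_isGoodPrimeFor W hq hbad hqn A hA σ hσ x

/-- The product of the images of two inertia elements at `p` does not depend on their order. -/
theorem inertia_commute (hΔ : W.Δ ≠ 0) (hp2 : p ≠ 2)
    (hirr : W.ModRepIsIrreducible p) (hG : G.index = 2)
    (htr : ∀ g ∉ G, LinearMap.trace (ZMod p) (Tors W p) (torsRep W p g) = 0)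
    {A : ValuationSubring (AlgebraicClosure ℚ)} (hA : A.LiesOverPrime p) {σ τ : Γℚ}
    (hσ : σ ∈ A.inertiaSubgroupIn ℚ) (hτ : τ ∈ A.inertiaSubgroupIn ℚ) :
    torsRep W p σ * torsRep W p τ = torsRep W p τ * torsRep W p σ := by
  have hp : p.Prime := Fact.out
  have hE := isElliptic_tors hΔ
  have hV := finrank_tors (p := p) hΔ
  obtain ⟨m, hm⟩ := Galois.inertia_commutator_pow_eq_one (torsRep W p)
    (EC.galoisFactorsThroughFiniteLevel (W.map (Int.castRingHom ℚ)) hp.ne_zero) hp hA hσ hτ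
  have : CharP (Module.End (ZMod p) (Tors W p)) p := by
    have : Nontrivial (Tors W p) := hirr.1
    exact charP_of_injective_algebraMap
      (R := ZMod p) (A := Module.End (ZMod p) (Tors W p)) (RingHom.injective _) p
  have hnil : IsNilpotent (torsRep W p (σ * τ * σ⁻¹ * τ⁻¹) - 1) := by
    refine ⟨p ^ m, ?_⟩
    rw [sub_pow_char_pow_of_commute p m (Commute.one_right _), one_pow, ← map_pow, hm, sub_self]
  have h1 := eq_one_of_isNilpotent _ hV htr (two_ne_zero_zmod hp2) hirr.2 hG hnil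
  calc torsRep W p σ * torsRep W p τ = torsRep W p ((σ * τ * σ⁻¹ * τ⁻¹) * (τ * σ)) := by
        rw [← map_mul]; congr 1; group
    _ = torsRep W p τ * torsRep W p σ := by rw [map_mul, h1, one_mul, map_mul]

/-- Inertia at `p` cannot be transitive if some inertia element lies outside `G`. -/
theorem not_isInertiaTransitive (hΔ : W.Δ ≠ 0) (hp2 : p ≠ 2)
    (hirr : W.ModRepIsIrreducible p) (hG : G.index = 2)
    (htr : ∀ g ∉ G, LinearMap.trace (ZMod p) (Tors W p) (torsRep W p g) = 0)
    {A : ValuationSubring (AlgebraicClosure ℚ)} (hA : A.LiesOverPrime p) {τ : Γℚ}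
    (hτ : τ ∈ A.inertiaSubgroupIn ℚ) (hτG : τ ∉ G) : ¬ AtP.IsInertiaTransitive W p A := by
  intro htrans
  have hV := finrank_tors (p := p) hΔ
  have : Module.Finite (ZMod p) (Tors W p) := Module.finite_of_finrank_eq_succ hV
  set t := torsRep W p τ with ht
  have hscal : ∀ σ ∈ A.inertiaSubgroupIn ℚ, σ ∈ G → ∃ c : ZMod p,
      torsRep W p σ = c • 1 := by
    intro σ hσ hσG
    refine ⟨(2 : ZMod p)⁻¹ * LinearMap.trace _ _ (torsRep W p σ), ?_⟩
    have e := mul_eq_adjEnd_mul_of_mem (torsRep W p) hV htr hτG hσG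
    rw [inertia_commute hΔ hp2 hirr hG htr hA hτ hσ] at e
    have e' := congrArg (· * torsRep W p τ⁻¹) e
    simp only [mul_assoc, ← map_mul, mul_inv_cancel, map_one, mul_one] at e'
    rw [adjEnd, eq_sub_iff_add_eq] at e'
    rw [mul_smul, ← e', ← two_smul (ZMod p), smul_smul, inv_mul_cancel₀ (two_ne_zero_zmod hp2),
      one_smul]
  have : Nontrivial (Tors W p) := hirr.1
  obtain ⟨x, hx⟩ := exists_ne (0 : Tors W p)
  have hcover : ∀ y : Tors W p,
      y ∈ Submodule.span (ZMod p) {x} ∨ y ∈ Submodule.span (ZMod p) {t x} := by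
    intro y
    by_cases hy : y = 0
    · exact Or.inl (hy ▸ zero_mem _)
    obtain ⟨σ, hσ, rfl⟩ := htrans x y hx hy
    change torsRep W p σ x ∈ _ ∨ torsRep W p σ x ∈ _
    by_cases hσG : σ ∈ G
    · obtain ⟨c, hc⟩ := hscal σ hσ hσG
      refine Or.inl (Submodule.mem_span_singleton.2 ⟨c, ?_⟩)
      rw [hc, LinearMap.smul_apply, Module.End.one_apply]
    · obtain ⟨c, hc⟩ := hscal (τ⁻¹ * σ) (mul_mem (inv_mem hτ) hσ)
        ((Subgroup.mul_mem_iff_of_index_two hG).2
          (iff_of_false (fun h => hτG (by simpa using inv_mem h)) hσG))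
      refine Or.inr (Submodule.mem_span_singleton.2 ⟨c, ?_⟩)
      conv_rhs => rw [← mul_inv_cancel_left τ σ, map_mul, hc]
      simp [ht]
  have hne : ∀ z : Tors W p, Submodule.span (ZMod p) {z} ≠ ⊤ := fun z hz => by
    have h1 := finrank_span_le_card (R := ZMod p) ({z} : Set (Tors W p))
    rw [hz, finrank_top, hV] at h1
    simp at h1
  obtain ⟨u, hu⟩ : ∃ u, u ∉ Submodule.span (ZMod p) {x} := by
    by_contra hall
    push Not at hall
    exact hne x (Submodule.eq_top_iff'.2 hall)
  have hu' := (hcover u).resolve_left hu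
  by_cases hxt : x ∈ Submodule.span (ZMod p) {t x}
  · exact hne (t x) (Submodule.eq_top_iff'.2 fun y => (hcover y).elim
      (fun h => (Submodule.span_singleton_le_iff_mem _ _).2 hxt h) id)
  rcases hcover (x + u) with h | h
  · exact hu (by simpa using sub_mem h (Submodule.mem_span_singleton_self x))
  · exact hxt (by simpa using sub_mem h hu')

/-- `τ ∉ G` in inertia with a stable line on which inertia is cyclotomic forces `p = 3` and
`inertia ↦ {1, τ}`. -/
theorem eq_three_and_inertia_image (hΔ : W.Δ ≠ 0) (hp2 : p ≠ 2)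
    (hirr : W.ModRepIsIrreducible p) (hG : G.index = 2)
    (htr : ∀ g ∉ G, LinearMap.trace (ZMod p) (Tors W p) (torsRep W p g) = 0)
    {A : ValuationSubring (AlgebraicClosure ℚ)} (hA : A.LiesOverPrime p) {τ : Γℚ}
    (hτ : τ ∈ A.inertiaSubgroupIn ℚ) (hτG : τ ∉ G)
    {N : Submodule (ZMod p) (Tors W p)} (hN : finrank (ZMod p) N = 1)
    (hsub : ∀ σ ∈ A.inertiaSubgroupIn ℚ, ∀ x : Tors W p, σ • x - x ∈ N)
    (hcyc : ∀ σ ∈ A.inertiaSubgroupIn ℚ, ∀ a : ℕ,
      (∀ μ : AlgebraicClosure ℚ, μ ^ p = 1 → σ μ = μ ^ a) → ∀ x ∈ N, σ • x = (a : ZMod p) • x) :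
    p = 3 ∧ ∀ σ ∈ A.inertiaSubgroupIn ℚ, torsRep W p σ = 1 ∨ torsRep W p σ = torsRep W p τ := by
  have hp : p.Prime := Fact.out
  have : NeZero p := ⟨hp.ne_zero⟩
  have hV := finrank_tors (p := p) hΔ
  have hexp : ∀ σ : Γℚ, ∃ a : ℕ, ∀ μ : AlgebraicClosure ℚ, μ ^ p = 1 → σ μ = μ ^ a := by
    intro σ
    obtain ⟨ζ, hζ⟩ := HasEnoughRootsOfUnity.exists_primitiveRoot (AlgebraicClosure ℚ) p
    obtain ⟨a, -, ha⟩ := hζ.eq_pow_of_pow_eq_one (ξ := σ ζ)
      (by rw [← map_pow, hζ.pow_eq_one, map_one])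
    refine ⟨a, fun μ hμ => ?_⟩
    obtain ⟨i, -, rfl⟩ := hζ.eq_pow_of_pow_eq_one hμ
    rw [map_pow, ← ha, ← pow_mul, ← pow_mul, mul_comm]
  have htrace : ∀ σ ∈ A.inertiaSubgroupIn ℚ, ∀ a : ℕ,
      (∀ μ : AlgebraicClosure ℚ, μ ^ p = 1 → σ μ = μ ^ a) →
      LinearMap.trace (ZMod p) (Tors W p) (torsRep W p σ) = (a : ZMod p) + 1 := fun σ hσ a ha =>
    trace_eq_of_line hV hN (hsub σ hσ) (hcyc σ hσ a ha)
  obtain ⟨a₀, ha₀⟩ := hexp τ
  have ha₀' : (a₀ : ZMod p) = -1 := by
    have := htr τ hτG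
    rw [htrace τ hτ a₀ ha₀] at this
    linear_combination this
  have hG1 : ∀ σ ∈ A.inertiaSubgroupIn ℚ, σ ∈ G → ∀ a : ℕ,
      (∀ μ : AlgebraicClosure ℚ, μ ^ p = 1 → σ μ = μ ^ a) →
        (a : ZMod p) = 1 ∧ torsRep W p σ = 1 := by
    intro σ hσ hσG a ha
    have hτσ : τ * σ ∉ G := fun h => hτG (((Subgroup.mul_mem_iff_of_index_two hG).1 h).2 hσG)
    have hmul : ∀ μ : AlgebraicClosure ℚ, μ ^ p = 1 → (τ * σ) μ = μ ^ (a₀ * a) := fun μ hμ => by
      rw [AlgEquiv.mul_apply, ha μ hμ, map_pow, ha₀ μ hμ, ← pow_mul]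
    have h := htr _ hτσ
    rw [htrace _ (mul_mem hτ hσ) _ hmul, Nat.cast_mul, ha₀'] at h
    have ha1 : (a : ZMod p) = 1 := by linear_combination -h
    refine ⟨ha1, eq_one_of_isNilpotent _ hV htr (two_ne_zero_zmod hp2) hirr.2 hG
      ⟨2, LinearMap.ext fun x => ?_⟩⟩
    rw [pow_two]
    change σ • (σ • x - x) - (σ • x - x) = 0
    rw [hcyc σ hσ a ha _ (hsub σ hσ x), ha1, one_smul, sub_self]
  refine ⟨eq_three_of_inertia_sign hp hp2 hA fun σ hσ ζ hζ => ?_, fun σ hσ => ?_⟩
  · obtain ⟨a, ha⟩ := hexp σ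
    rw [ha ζ hζ]
    have key : ∀ b : ℕ, (a : ZMod p) = b → ζ ^ a = ζ ^ b := fun b hab =>
      pow_eq_pow_of_modEq ((ZMod.natCast_eq_natCast_iff _ _ _).1 hab) hζ
    by_cases hσG : σ ∈ G
    · exact Or.inl ((key 1 (by rw [(hG1 σ hσ hσG a ha).1, Nat.cast_one])).trans (pow_one ζ))
    · right
      have h := htr σ hσG
      rw [htrace σ hσ a ha] at h
      rw [key (p - 1) (by
        rw [Nat.cast_sub hp.one_le, ZMod.natCast_self, Nat.cast_one]
        linear_combination h)]
      refine eq_inv_of_mul_eq_one_left ?_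
      rw [← pow_succ, Nat.sub_add_cancel hp.one_le, hζ]
  · by_cases hσG : σ ∈ G
    · obtain ⟨a, ha⟩ := hexp σ
      exact Or.inl (hG1 σ hσ hσG a ha).2
    · obtain ⟨a, ha⟩ := hexp (τ⁻¹ * σ)
      have h1 := (hG1 _ (mul_mem (inv_mem hτ) hσ) ((Subgroup.mul_mem_iff_of_index_two hG).2
        (iff_of_false (fun h => hτG (by simpa using inv_mem h)) hσG)) a ha).2
      right
      conv_lhs => rw [← mul_inv_cancel_left τ σ, map_mul, h1, mul_one]

end

/-- The main result: some element outside `G` has non-zero trace. -/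
theorem exists_trace_ne_zero (hΔ : W.Δ ≠ 0) (hW : W.IsSemistableModel) (hp2 : p ≠ 2)
    (hirr : W.ModRepIsIrreducible p) (G : Subgroup Γℚ) (hG : G.index = 2) :
    ∃ g ∉ G, LinearMap.trace (ZMod p) (Tors W p) (torsRep W p g) ≠ 0 := by
  by_contra htr
  push Not at htr
  have hp : p.Prime := Fact.out
  have hV := finrank_tors (p := p) hΔ
  have hE := isElliptic_tors hΔ
  have : Module.Finite (ZMod p) (Tors W p) := Module.finite_of_finrank_eq_succ hV
  have : Finite (Tors W p) := Module.finite_of_finite (ZMod p)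
  have : Finite (Module.End (ZMod p) (Tors W p)) := Module.finite_of_finite (ZMod p)
  let f : Γℚ →* (Module.End (ZMod p) (Tors W p))ˣ := (torsRep W p).toHomUnits
  have hkerG : f.ker ≤ G := fun g hg => by
    by_contra hgG
    have h0 := htr g hgG
    have h1 : torsRep W p g = 1 := congrArg Units.val (MonoidHom.mem_ker.1 hg)
    rw [h1, LinearMap.trace_one, hV] at h0
    exact two_ne_zero_zmod hp2 (by simpa using h0)
  obtain ⟨L, hL, hfix⟩ :=
    EC.galoisFactorsThroughFiniteLevel (W.map (Int.castRingHom ℚ)) hp.ne_zero (n := p)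
  have hopen : ∀ {H : Subgroup Γℚ}, f.ker ≤ H → IsOpen (H : Set Γℚ) := fun {H} hle =>
    isOpen_of_level L fun σ hσ => hle (MonoidHom.mem_ker.2
      (Units.ext (hfix σ hσ)))
  have hGn : G.Normal := Subgroup.normal_of_index_eq_two hG
  obtain ⟨A, hA⟩ := Galois.exists_liesOverPrime hp
  obtain ⟨τ, hτ, hτG⟩ : ∃ τ ∈ A.inertiaSubgroupIn ℚ, τ ∉ G := by
    by_contra hall
    push Not at hall
    have htop := Reducible.eq_top_of_inertia_le G (hopen hkerG) fun q hq B hB => by
      by_cases hqp : q = p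
      · subst hqp
        exact inertia_le_of_conj hq hA hB hall
      · intro σ hσ
        exact hkerG (MonoidHom.mem_ker.2
          (Units.ext (inertia_eq_one_away hΔ hW hp2 hirr hG htr hq hqp hB hσ)))
    rw [htop, Subgroup.index_top] at hG
    omega
  obtain ⟨h3, himg⟩ : p = 3 ∧
      ∀ σ ∈ A.inertiaSubgroupIn ℚ, torsRep W p σ = 1 ∨ torsRep W p σ = torsRep W p τ := by
    by_cases hbad : (p : ℤ) ∣ W.Δ
    · have hm := Mult.IsMultPlace.of_semistable hΔ hW hp hbad hA
      obtain ⟨hb, ht⟩ := Mult.tateLine_ne_bot_and_ne_top hm hp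
      refine eq_three_and_inertia_image hΔ hp2 hirr hG htr hA hτ hτG (N := Mult.tateLine W A p)
        (by
          have h1 := Submodule.finrank_lt ht
          have h3 : Module.finrank (ZMod p) (Mult.Tors W p) = 2 := hV
          have h2 : Module.finrank (ZMod p) (Mult.tateLine W A p) ≠ 0 :=
            mt Submodule.finrank_eq_zero.1 hb
          exact le_antisymm (Nat.lt_succ_iff.1 (h1.trans_le h3.le)) (Nat.pos_of_ne_zero h2))
        (fun σ hσ => Mult.inertia_smul_sub_mem hm hp.ne_zero hσ) fun σ hσ a ha x hx => ?_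
      rw [Mult.smul_tateLine hm hp.ne_zero (Mult.mem_decomposition_of_mem_inertia hσ) ha hx,
        Mult.tateSign_eq_one_of_mem_inertia hm hσ, one_mul, natCast_zsmul,
        Nat.cast_smul_eq_nsmul]
    · rcases AtP.inertia_dichotomy hp2 hbad hA with h | ⟨N, hN⟩
      · exact absurd h (not_isInertiaTransitive hΔ hp2 hirr hG htr hA hτ hτG)
      · exact eq_three_and_inertia_image hΔ hp2 hirr hG htr hA hτ hτG hN.finrank_eq
          hN.inertia_sub_mem fun σ hσ a ha x hx => by
            rw [Nat.cast_smul_eq_nsmul]; exact hN.inertia_cyclotomic σ hσ a ha x hx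
  subst h3
  -- the image is a `2`-group generated by the conjugates of `s`
  let H := f.range
  let r : Γℚ →* H := f.rangeRestrict
  let s : H := r τ
  have hcardGL : ∀ u : (Module.End (ZMod 3) (Tors W 3))ˣ, u ^ 48 = 1 := by
    intro u
    obtain ⟨b⟩ := exists_basis_two hV
    let e := Units.mapEquiv (LinearMap.toMatrixAlgEquiv b).toMulEquiv
    apply e.injective
    have hcard : Nat.card (GL (Fin 2) (ZMod 3)) = 48 := by
      rw [Matrix.card_GL_field, Fin.prod_univ_two, ZMod.card]; rfl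
    rw [map_pow, map_one, ← hcard]
    exact pow_card_eq_one'
  have h2grp : IsPGroup 2 H := by
    intro h
    obtain ⟨g, rfl⟩ := f.rangeRestrict_surjective h
    refine ⟨4, Subtype.ext (Units.ext ?_)⟩
    change torsRep W 3 g ^ (2 ^ 4) = 1
    rw [← map_pow]
    refine eq_one_of_isNilpotent _ hV htr (two_ne_zero_zmod hp2) hirr.2 hG ⟨3, ?_⟩
    have : CharP (Module.End (ZMod 3) (Tors W 3)) 3 := by
      have : Nontrivial (Tors W 3) := hirr.1
      exact charP_of_injective_algebraMap
        (R := ZMod 3) (A := Module.End (ZMod 3) (Tors W 3)) (RingHom.injective _) 3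
    rw [sub_pow_char_of_commute 3 (Commute.one_right _), one_pow, sub_eq_zero, map_pow, ← pow_mul,
      show (2 : ℕ) ^ 4 * 3 = 48 by norm_num, ← MonoidHom.coe_toHomUnits, ← Units.val_pow_eq_pow_val,
      hcardGL, Units.val_one]
  have hnc : Subgroup.normalClosure {s} = ⊤ := by
    have htop := Reducible.eq_top_of_inertia_le ((Subgroup.normalClosure {s}).comap r)
      (hopen fun g hg => Subgroup.mem_comap.2 (by
        have : r g = 1 := Subtype.ext (MonoidHom.mem_ker.1 hg)
        rw [this]; exact one_mem _)) fun q hq B hB => by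
        by_cases hqp : q = 3
        · subst hqp
          refine inertia_le_of_conj hq hA hB fun σ hσ => Subgroup.mem_comap.2 ?_
          rcases himg σ hσ with h | h
          · rw [show r σ = 1 from Subtype.ext (Units.ext h)]; exact one_mem _
          · rw [show r σ = s from Subtype.ext (Units.ext h)]
            exact Subgroup.subset_normalClosure rfl
        · intro σ hσ
          rw [Subgroup.mem_comap, show r σ = 1 from Subtype.ext (Units.ext
            (inertia_eq_one_away hΔ hW hp2 hirr hG htr hq hqp hB hσ))]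
          exact one_mem _
    rw [eq_top_iff]
    intro h _
    obtain ⟨g, rfl⟩ := f.rangeRestrict_surjective h
    exact Subgroup.mem_comap.1 (htop ▸ Subgroup.mem_top g)
  have hcyc := zpowers_eq_top_of_normalClosure h2grp hnc
  have hcomm : ∀ g, torsRep W 3 g * torsRep W 3 τ = torsRep W 3 τ * torsRep W 3 g := by
    intro g
    obtain ⟨k, hk⟩ := Subgroup.mem_zpowers_iff.1 (hcyc ▸ Subgroup.mem_top (r g))
    have h : r g * s = s * r g := by rw [← hk]; exact (Commute.zpow_self s k).eq
    exact congrArg (fun u : H => ((u : (Module.End (ZMod 3) (Tors W 3))ˣ) :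
      Module.End (ZMod 3) (Tors W 3))) h
  set t := torsRep W 3 τ
  have ht2 : t * t = 1 := by
    rcases himg (τ * τ) (mul_mem hτ hτ) with h | h
    · rwa [map_mul] at h
    · exfalso
      have h' : t * t = t := by rwa [map_mul] at h
      have := congrArg (fun X => torsRep W 3 τ⁻¹ * X) h'
      simp only [t, ← mul_assoc, ← map_mul, inv_mul_cancel, map_one, one_mul] at this
      have h0 := htr τ hτG
      rw [this, LinearMap.trace_one, hV] at h0
      exact two_ne_zero_zmod hp2 (by simpa using h0)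
  have hker : ∀ σ : Γℚ, ∀ x ∈ LinearMap.ker (t - 1), σ • x ∈ LinearMap.ker (t - 1) := by
    intro σ x hx
    rw [LinearMap.mem_ker, LinearMap.sub_apply, Module.End.one_apply, sub_eq_zero] at hx ⊢
    change t (torsRep W 3 σ x) = torsRep W 3 σ x
    rw [← Module.End.mul_apply, ← hcomm, Module.End.mul_apply, hx]
  have htt : ∀ x, t (t x) = x := fun x => LinearMap.congr_fun ht2 x
  rcases hirr.2 _ hker with h | h
  · -- then `t = -1`, whose trace is not zero
    have hneg : t = -1 := by
      refine LinearMap.ext fun x => ?_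
      have hx : t x + x ∈ LinearMap.ker (t - 1) := by
        rw [LinearMap.mem_ker, LinearMap.sub_apply, Module.End.one_apply, map_add, htt]; abel
      rw [h, Submodule.mem_bot] at hx
      exact eq_neg_of_add_eq_zero_left hx
    have h0 := htr τ hτG
    rw [show torsRep W 3 τ = -1 from hneg, map_neg, LinearMap.trace_one, hV] at h0
    exact two_ne_zero_zmod hp2 (by simpa using h0)
  · rw [LinearMap.ker_eq_top, sub_eq_zero] at h
    have h0 := htr τ hτG
    rw [show torsRep W 3 τ = 1 from h, LinearMap.trace_one, hV] at h0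
    exact two_ne_zero_zmod hp2 (by simpa using h0)

end Fermat.Agent.Lifting
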