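import Fermat.Prelude.Def_GaloisRep_Residual
import Fermat.Prelude.Def_GaloisRep_ResidualEquiv
import Fermat.Prelude.Def_GaloisRep_Adic
import Fermat.Prelude.Def_FLTPrelim_ModularRep
import Fermat.Agent.Lifting.BTorsion
import Fermat.Agent.CondLevel.Curve

/-!
# The mod `p` representation of a semistable curve has big image

For a semistable integral model and an odd prime `p` with `E[p]` irreducible, the representation
is odd, absolutely irreducible, and stays irreducible over every extension field on every subgroup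
of index two (the Taylor–Wiles hypothesis of `S56`).
-/

set_option autoImplicit false

open scoped WeierstrassCurve.Affine

namespace Fermat.Agent.Lifting

local notation "Γℚ" => AlgebraicClosure ℚ ≃ₐ[ℚ] AlgebraicClosure ℚ

/-- The Taylor–Wiles irreducibility hypothesis (`hTW` of `S56`). -/
def IsIrreducibleOnIndexTwo {k : Type} [Field k] (ρbar : ResidualGaloisRep k) : Prop :=
  ∀ (K : Type) [Field K] [Algebra k K] (G : Subgroup Γℚ), G.index = 2 →
    ∀ V : Submodule K (ρbar.baseChange K).V,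
      (∀ σ ∈ G, ∀ x ∈ V, (ρbar.baseChange K).ρ σ x ∈ V) → V = ⊥ ∨ V = ⊤

variable {W : WeierstrassCurve ℤ} {p : ℕ} [Fact p.Prime]
  (hcard : Nat.card (Submodule.torsionBy ℤ
    ((W.map (Int.castRingHom ℚ))⁄(AlgebraicClosure ℚ)).Point p) = p ^ 2)
  (hker : GaloisFactorsThroughFiniteLevel
    (WeierstrassCurve.Affine.Point.galoisRepModuleEnd (K := AlgebraicClosure ℚ) ℚ
      (W.map (Int.castRingHom ℚ)) p))

section TraceDet

variable {k : Type} [Field k] (φ : ZMod p →+* k) (ρbar : ResidualGaloisRep k)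

theorem baseChange_trace_det (K : Type) [Field K] [Algebra k K]
    (htr : ∀ σ : Γℚ, LinearMap.trace k ρbar.V (ρbar.ρ σ) =
      φ (LinearMap.trace (ZMod p) (Tors W p) (torsRep W p σ)))
    (hdet : ∀ σ : Γℚ, LinearMap.det (ρbar.ρ σ) = φ (LinearMap.det (torsRep W p σ))) (σ : Γℚ) :
    LinearMap.trace K _ ((ρbar.baseChange K).ρ σ) =
        ((algebraMap k K).comp φ) (LinearMap.trace (ZMod p) (Tors W p) (torsRep W p σ)) ∧
      LinearMap.det ((ρbar.baseChange K).ρ σ) =
        ((algebraMap k K).comp φ) (LinearMap.det (torsRep W p σ)) := by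
  constructor
  · exact (LinearMap.trace_baseChange (ρbar.ρ σ) K).trans (congrArg _ (htr σ))
  · exact (LinearMap.det_baseChange (ρbar.ρ σ)).trans (congrArg _ (hdet σ))

/-- A representation with the traces and determinants of `E[p]` stays irreducible over every
extension field. -/
theorem irreducible_baseChange (hΔ : W.Δ ≠ 0) (hp2 : p ≠ 2) (hirr : W.ModRepIsIrreducible p)
    (htr : ∀ σ : Γℚ, LinearMap.trace k ρbar.V (ρbar.ρ σ) =
      φ (LinearMap.trace (ZMod p) (Tors W p) (torsRep W p σ)))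
    (hdet : ∀ σ : Γℚ, LinearMap.det (ρbar.ρ σ) = φ (LinearMap.det (torsRep W p σ)))
    (K : Type) [Field K] [Algebra k K] : (ρbar.baseChange K).IsIrreducible := by
  obtain ⟨c, hcc, hc⟩ := CondLevel.exists_involution
  have hV := finrank_tors (p := p) hΔ
  obtain ⟨σ, τ, hne⟩ := CondLevel.exists_oddOffDiag_ne_zero (two_ne_zero_zmod hp2) hV
    (torsRep W p) hcc (CondLevel.det_torsRep_involution hΔ hp2 c hcc hc) hirr.2
  set ψ : ZMod p →+* K := (algebraMap k K).comp φ
  intro U hU
  refine CondLevel.irreducible_of_oddOffDiag_ne_zero (σ := σ) (τ := τ) (c := c) ?_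
    (ρbar.baseChange K).finrank_eq ((ρbar.baseChange K).ρ) hcc ?_ ?_ U hU
  · exact (map_ofNat ψ 2) ▸ (map_ne_zero ψ).2 (two_ne_zero_zmod hp2)
  · rw [(baseChange_trace_det φ ρbar K htr hdet c).2,
      show LinearMap.det (torsRep W p c) = -1 from CondLevel.det_torsRep_involution hΔ hp2 c hcc hc,
      map_neg, map_one]
  · simp only [fun g => (baseChange_trace_det φ ρbar K htr hdet g).1]
    rw [← CondLevel.map_oddOffDiag ψ]
    exact (map_ne_zero_iff ψ ψ.injective).mpr hne

/-- The three properties from the traces and determinants. -/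
theorem bigImage_aux (hΔ : W.Δ ≠ 0) (hp2 : p ≠ 2) (hirr : W.ModRepIsIrreducible p)
    (htr : ∀ σ : Γℚ, LinearMap.trace k ρbar.V (ρbar.ρ σ) =
      φ (LinearMap.trace (ZMod p) (Tors W p) (torsRep W p σ)))
    (hdet : ∀ σ : Γℚ, LinearMap.det (ρbar.ρ σ) = φ (LinearMap.det (torsRep W p σ))) :
    ρbar.IsAbsolutelyIrreducible ∧ ρbar.IsOdd ∧
      (W.IsSemistableModel → IsIrreducibleOnIndexTwo ρbar) := by
  refine ⟨irreducible_baseChange φ ρbar hΔ hp2 hirr htr hdet _, fun c hcc hc => ?_, ?_⟩
  · rw [hdet c, show LinearMap.det (torsRep W p c) = -1 from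
      CondLevel.det_torsRep_involution hΔ hp2 c hcc hc, map_neg, map_one]
  · intro hW K _ _ G hG V hV
    by_contra hcon
    push Not at hcon
    obtain ⟨g, hg, hne⟩ := exists_trace_ne_zero hΔ hW hp2 hirr G hG
    refine hne ((map_eq_zero ((algebraMap k K).comp φ)).1 ?_)
    rw [← (baseChange_trace_det φ ρbar K htr hdet g).1]
    exact trace_eq_zero_of_reducible _ (ρbar.baseChange K).finrank_eq
      (irreducible_baseChange φ ρbar hΔ hp2 hirr htr hdet K) hG hcon.1 hcon.2 hV hg

include hcard hker in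
/-- An equivalence with extension of scalars of `E[p]` transports traces and determinants. -/
theorem trace_det_of_isEquiv
    (he : ρbar.IsEquiv (((W.map (Int.castRingHom ℚ)).residualGaloisRepOf p hcard
      hker).baseChangeAlong φ)) :
    (∀ σ : Γℚ, LinearMap.trace k ρbar.V (ρbar.ρ σ) =
      φ (LinearMap.trace (ZMod p) (Tors W p) (torsRep W p σ))) ∧
    (∀ σ : Γℚ, LinearMap.det (ρbar.ρ σ) = φ (LinearMap.det (torsRep W p σ))) := by
  obtain ⟨e⟩ := he
  letI : Algebra (ZMod p) k := φ.toAlgebra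
  set E := (W.map (Int.castRingHom ℚ)).residualGaloisRepOf p hcard hker with hE
  have hconj : ∀ σ : Γℚ, e.toLinearEquiv.conj (ρbar.ρ σ) = (E.baseChangeAlong φ).ρ σ := by
    intro σ
    refine LinearMap.ext fun x => ?_
    rw [LinearEquiv.conj_apply_apply]
    exact (e.map_apply σ _).trans (congrArg _ (e.toLinearEquiv.apply_symm_apply x))
  refine ⟨fun σ => ?_, fun σ => ?_⟩
  · rw [← LinearMap.trace_conj' (ρbar.ρ σ) e.toLinearEquiv, hconj]
    exact LinearMap.trace_baseChange (E.ρ σ) k
  · rw [← LinearMap.det_conj (ρbar.ρ σ) e.toLinearEquiv]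
    change LinearMap.det (e.toLinearEquiv.conj (ρbar.ρ σ)) = _
    rw [hconj]
    exact LinearMap.det_baseChange (E.ρ σ)

end TraceDet

/-- Every extension of scalars of an irreducible `E[p]` (semistable, `p` odd) is odd. -/
theorem isOdd_of_isEquiv (hΔ : W.Δ ≠ 0) (hp2 : p ≠ 2) {k : Type} [Field k] (φ : ZMod p →+* k)
    (ρbar : ResidualGaloisRep k)
    (he : ρbar.IsEquiv (((W.map (Int.castRingHom ℚ)).residualGaloisRepOf p hcard
      hker).baseChangeAlong φ)) :
    ρbar.IsOdd := fun c hcc hc => by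
  rw [(trace_det_of_isEquiv hcard hker φ ρbar he).2 c, show LinearMap.det (torsRep W p c) = -1 from
    CondLevel.det_torsRep_involution hΔ hp2 c hcc hc, map_neg, map_one]

/-- Every extension of scalars of an irreducible `E[p]` is absolutely irreducible. -/
theorem isAbsolutelyIrreducible_of_isEquiv (hΔ : W.Δ ≠ 0) (hp2 : p ≠ 2)
    (hirr : W.ModRepIsIrreducible p) {k : Type} [Field k] (φ : ZMod p →+* k)
    (ρbar : ResidualGaloisRep k)
    (he : ρbar.IsEquiv (((W.map (Int.castRingHom ℚ)).residualGaloisRepOf p hcard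
      hker).baseChangeAlong φ)) :
    ρbar.IsAbsolutelyIrreducible :=
  (bigImage_aux φ ρbar hΔ hp2 hirr (trace_det_of_isEquiv hcard hker φ ρbar he).1
    (trace_det_of_isEquiv hcard hker φ ρbar he).2).1

/-- Every extension of scalars of an irreducible `E[p]` of a semistable curve stays irreducible
on subgroups of index two. -/
theorem isIrreducibleOnIndexTwo_of_isEquiv (hΔ : W.Δ ≠ 0) (hW : W.IsSemistableModel) (hp2 : p ≠ 2)
    (hirr : W.ModRepIsIrreducible p) {k : Type} [Field k] (φ : ZMod p →+* k)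
    (ρbar : ResidualGaloisRep k)
    (he : ρbar.IsEquiv (((W.map (Int.castRingHom ℚ)).residualGaloisRepOf p hcard
      hker).baseChangeAlong φ)) :
    IsIrreducibleOnIndexTwo ρbar :=
  (bigImage_aux φ ρbar hΔ hp2 hirr (trace_det_of_isEquiv hcard hker φ ρbar he).1
    (trace_det_of_isEquiv hcard hker φ ρbar he).2).2.2 hW

/-- All three properties, for a representation with the traces and determinants of `E[p]`. -/
theorem bigImage_of_trace_det_eq (hΔ : W.Δ ≠ 0) (hW : W.IsSemistableModel) (hp2 : p ≠ 2)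
    (hirr : W.ModRepIsIrreducible p) {k : Type} [Field k] (φ : ZMod p →+* k)
    (ρbar : ResidualGaloisRep k)
    (htr : ∀ σ : Γℚ, LinearMap.trace k ρbar.V (ρbar.ρ σ) =
      φ (WeierstrassCurve.Affine.Point.galoisTrace (K := AlgebraicClosure ℚ) ℚ
        (W.map (Int.castRingHom ℚ)) p σ))
    (hdet : ∀ σ : Γℚ, LinearMap.det (ρbar.ρ σ) =
      φ (LinearMap.det (WeierstrassCurve.Affine.Point.galoisRepModuleEnd (K := AlgebraicClosure ℚ) ℚ
        (W.map (Int.castRingHom ℚ)) p σ))) :
    ρbar.IsAbsolutelyIrreducible ∧ ρbar.IsOdd ∧ IsIrreducibleOnIndexTwo ρbar := by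
  obtain ⟨h1, h2, h3⟩ := bigImage_aux φ ρbar hΔ hp2 hirr htr hdet
  exact ⟨h1, h2, h3 hW⟩

end Fermat.Agent.Lifting
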