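/-
Transport of local conditions of Galois representations along equivalences and along surjective
changes of coefficients.
-/
import Fermat.Prelude.Def_GaloisRep_LocalConditions
import Fermat.Prelude.Def_GaloisRep_Flat
import Fermat.Prelude.Def_GaloisRep_StrictOrdinary

set_option autoImplicit false

noncomputable section

namespace Fermat.Agent.Lifting.ETransfer

open IsLocalRing GaloisRepAdic
open scoped TensorProduct

local notation "ℚbar" => AlgebraicClosure ℚ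
local notation "Γℚ" => AlgebraicClosure ℚ ≃ₐ[ℚ] AlgebraicClosure ℚ

section Equivalence

variable {A : Type} [CommRing A] [IsLocalRing A] {ρ₁ ρ₂ : GaloisRepAdic A}

theorem conj_of_equiv (e : GaloisRepAdic.Equiv ρ₁ ρ₂) (σ : Γℚ) :
    e.toLinearEquiv.conj (ρ₁.ρ σ) = ρ₂.ρ σ := by
  refine LinearMap.ext fun x => ?_
  rw [LinearEquiv.conj_apply_apply, e.map_apply, LinearEquiv.apply_symm_apply]

theorem charpoly_of_equiv (e : GaloisRepAdic.Equiv ρ₁ ρ₂) (σ : Γℚ) :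
    LinearMap.charpoly (ρ₂.ρ σ) = LinearMap.charpoly (ρ₁.ρ σ) := by
  rw [← conj_of_equiv e, LinearEquiv.charpoly_conj]

theorem det_of_equiv (e : GaloisRepAdic.Equiv ρ₁ ρ₂) (σ : Γℚ) :
    LinearMap.det (ρ₂.ρ σ) = LinearMap.det (ρ₁.ρ σ) := by
  rw [← conj_of_equiv e]
  exact LinearMap.det_conj (ρ₁.ρ σ) e.toLinearEquiv

theorem trace_of_equiv (e : GaloisRepAdic.Equiv ρ₁ ρ₂) (σ : Γℚ) :
    LinearMap.trace A ρ₂.V (ρ₂.ρ σ) = LinearMap.trace A ρ₁.V (ρ₁.ρ σ) := by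
  rw [← conj_of_equiv e, LinearMap.trace_conj']

theorem isUnramifiedAt_of_equiv (e : GaloisRepAdic.Equiv ρ₁ ρ₂) {q : ℕ}
    (h : ρ₁.IsUnramifiedAt q) : ρ₂.IsUnramifiedAt q := fun P hP σ hσ => by
  rw [← conj_of_equiv e, h P hP σ hσ]
  exact LinearEquiv.conj_id _

theorem isUnipotentOnInertiaAt_of_equiv (e : GaloisRepAdic.Equiv ρ₁ ρ₂) {q : ℕ}
    (h : ρ₁.IsUnipotentOnInertiaAt q) : ρ₂.IsUnipotentOnInertiaAt q := fun P hP σ hσ => by
  rw [charpoly_of_equiv e, h P hP σ hσ]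

theorem detIsCyclotomic_of_equiv (e : GaloisRepAdic.Equiv ρ₁ ρ₂) {p : ℕ}
    (h : ρ₁.DetIsCyclotomic p) : ρ₂.DetIsCyclotomic p :=
  ⟨h.1, fun n σ a ha => by rw [det_of_equiv e]; exact h.2 n σ a ha⟩

theorem mem_map_iff_of_equiv (e : GaloisRepAdic.Equiv ρ₁ ρ₂) (L : Submodule A ρ₁.V) (v : ρ₂.V) :
    v ∈ L.map e.toLinearEquiv.toLinearMap ↔ e.toLinearEquiv.symm v ∈ L :=
  Submodule.mem_map_equiv L

theorem map_span_basis (e : GaloisRepAdic.Equiv ρ₁ ρ₂) {L : Submodule A ρ₁.V}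
    (hb : ∃ b : Module.Basis (Fin 2) A ρ₁.V, L = A ∙ b 0) :
    ∃ b : Module.Basis (Fin 2) A ρ₂.V, L.map e.toLinearEquiv.toLinearMap = A ∙ b 0 := by
  obtain ⟨b, rfl⟩ := hb
  refine ⟨b.map e.toLinearEquiv, ?_⟩
  rw [Submodule.map_span, Set.image_singleton]
  rfl

theorem symm_rho (e : GaloisRepAdic.Equiv ρ₁ ρ₂) (σ : Γℚ) (v : ρ₂.V) :
    e.toLinearEquiv.symm (ρ₂.ρ σ v) = ρ₁.ρ σ (e.toLinearEquiv.symm v) :=
  e.symm.map_apply σ v

theorem isOrdinaryAt_of_equiv (e : GaloisRepAdic.Equiv ρ₁ ρ₂) {p : ℕ}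
    (h : ρ₁.IsOrdinaryAt p) : ρ₂.IsOrdinaryAt p := fun P hP => by
  obtain ⟨L, hb, hD, hI⟩ := h P hP
  refine ⟨L.map e.toLinearEquiv.toLinearMap, map_span_basis e hb, fun σ hσ v hv => ?_,
    fun σ hσ v => ?_⟩
  · rw [mem_map_iff_of_equiv] at hv ⊢
    rw [symm_rho]
    exact hD σ hσ _ hv
  · rw [mem_map_iff_of_equiv, map_sub, symm_rho]
    exact hI σ hσ _

theorem isStrictOrdinaryAt_of_equiv (e : GaloisRepAdic.Equiv ρ₁ ρ₂) {p : ℕ}
    (h : ρ₁.IsStrictOrdinaryAt p) : ρ₂.IsStrictOrdinaryAt p := ⟨h.1, fun P hP => by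
  obtain ⟨L, hb, hD, hI, hx⟩ := h.2 P hP
  refine ⟨L.map e.toLinearEquiv.toLinearMap, map_span_basis e hb, fun σ hσ v hv => ?_,
    fun σ hσ v => ?_, fun σ hσ => ?_⟩
  · rw [mem_map_iff_of_equiv] at hv ⊢
    rw [symm_rho]
    exact hD σ hσ _ hv
  · rw [mem_map_iff_of_equiv, map_sub, symm_rho]
    exact hI σ hσ _
  · obtain ⟨x, z, hx1, hx2, hx3⟩ := hx σ hσ
    refine ⟨x, z, fun w hw => ?_, fun v => ?_, hx3⟩
    · rw [mem_map_iff_of_equiv] at hw
      apply e.toLinearEquiv.symm.injective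
      rw [symm_rho, hx1 _ hw, map_smul]
    · rw [mem_map_iff_of_equiv, map_sub, map_smul, symm_rho]
      exact hx2 _⟩

theorem isFlatAt_of_equiv (e : GaloisRepAdic.Equiv ρ₁ ρ₂) {p : ℕ}
    (h : ρ₁.IsFlatAt p) : ρ₂.IsFlatAt p := by
  refine ⟨h.1, fun I hI => ?_⟩
  obtain ⟨H, i1, i2, h1, h2, h3, f, hf1, hf2⟩ := h.2 I hI
  have hmap : (I • (⊤ : Submodule A ρ₁.V)).map e.toLinearEquiv.toLinearMap = I • ⊤ := by
    rw [Submodule.map_smul'', Submodule.map_top, LinearEquiv.range]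
  let g : (ρ₁.V ⧸ I • (⊤ : Submodule A ρ₁.V)) ≃ₗ[A] ρ₂.V ⧸ I • (⊤ : Submodule A ρ₂.V) :=
    Submodule.Quotient.equiv _ _ e.toLinearEquiv hmap
  refine ⟨H, i1, i2, h1, h2, h3, f.trans g.toEquiv, fun x y => ?_, fun σ x y hxy => ?_⟩
  · show g (f (x * y)) = g (f x) + g (f y)
    rw [hf1, map_add]
  · show g (f y) = ρ₂.levelAction I σ (g (f x))
    rw [hf2 σ x y hxy]
    obtain ⟨v, hv⟩ := Submodule.Quotient.mk_surjective _ (f x)
    rw [← hv]
    show Submodule.Quotient.mk (e.toLinearEquiv (ρ₁.ρ σ v)) =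
      Submodule.Quotient.mk (ρ₂.ρ σ (e.toLinearEquiv v))
    rw [e.map_apply]

end Equivalence

section BaseChange

variable {A B : Type} [CommRing A] [IsLocalRing A] [CommRing B] [IsLocalRing B]
  (φ : A →+* B) (hφ : IsLocalHom φ) (ρ : GaloisRepAdic A)

theorem charpoly_baseChangeAlong (σ : Γℚ) :
    LinearMap.charpoly ((ρ.baseChangeAlong φ hφ).ρ σ) = (LinearMap.charpoly (ρ.ρ σ)).map φ :=
  letI : Algebra A B := φ.toAlgebra
  LinearMap.charpoly_baseChange (ρ.ρ σ) B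

theorem det_baseChangeAlong (σ : Γℚ) :
    LinearMap.det ((ρ.baseChangeAlong φ hφ).ρ σ) = φ (LinearMap.det (ρ.ρ σ)) :=
  letI : Algebra A B := φ.toAlgebra
  LinearMap.det_baseChange (ρ.ρ σ)

theorem trace_baseChangeAlong (σ : Γℚ) :
    LinearMap.trace B _ ((ρ.baseChangeAlong φ hφ).ρ σ) = φ (LinearMap.trace A ρ.V (ρ.ρ σ)) :=
  letI : Algebra A B := φ.toAlgebra
  LinearMap.trace_baseChange (ρ.ρ σ) B

theorem isUnramifiedAt_baseChangeAlong {q : ℕ} (h : ρ.IsUnramifiedAt q) :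
    (ρ.baseChangeAlong φ hφ).IsUnramifiedAt q := fun P hP σ hσ => by
  letI : Algebra A B := φ.toAlgebra
  show (ρ.ρ σ).baseChange B = 1
  rw [h P hP σ hσ]
  exact LinearMap.baseChange_one A ρ.V

theorem isUnipotentOnInertiaAt_baseChangeAlong {q : ℕ} (h : ρ.IsUnipotentOnInertiaAt q) :
    (ρ.baseChangeAlong φ hφ).IsUnipotentOnInertiaAt q := fun P hP σ hσ => by
  rw [charpoly_baseChangeAlong, h P hP σ hσ]
  simp

theorem natCast_mem_maximalIdeal {p : ℕ} (hφ : IsLocalHom φ) (hp : (p : A) ∈ maximalIdeal A) :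
    (p : B) ∈ maximalIdeal B := by
  rw [← map_natCast φ]
  exact map_nonunit φ (p : A) hp

theorem detIsCyclotomic_baseChangeAlong {p : ℕ} (h : ρ.DetIsCyclotomic p) :
    (ρ.baseChangeAlong φ hφ).DetIsCyclotomic p := by
  refine ⟨natCast_mem_maximalIdeal φ hφ h.1, fun n σ a ha => ?_⟩
  obtain ⟨c, hc⟩ := Ideal.mem_span_singleton'.1 (h.2 n σ a ha)
  refine Ideal.mem_span_singleton'.2 ⟨φ c, ?_⟩
  rw [det_baseChangeAlong, ← map_natCast φ a, ← map_sub, ← hc, map_mul, map_natCast]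

omit [IsLocalRing A] [IsLocalRing B] in
theorem exists_line_baseChange [Algebra A B] {V : Type} [AddCommGroup V] [Module A V]
    (b : Module.Basis (Fin 2) A V) :
    ∃ L' : Submodule B (B ⊗[A] V),
      (∃ b' : Module.Basis (Fin 2) B (B ⊗[A] V), L' = B ∙ b' 0) ∧
      ∀ (T : Module.End A V), (∀ v ∈ A ∙ b 0, T v ∈ A ∙ b 0) →
        (∀ v ∈ L', T.baseChange B v ∈ L') ∧
        (∀ x : A, (∀ v ∈ A ∙ b 0, T v = x • v) →
          ∀ v ∈ L', T.baseChange B v = algebraMap A B x • v) ∧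
        (∀ z : A, (∀ v, T v - z • v ∈ A ∙ b 0) →
          ∀ v, T.baseChange B v - algebraMap A B z • v ∈ L') := by
  refine ⟨B ∙ (1 ⊗ₜ[A] b 0), ⟨b.baseChange B, by rw [Module.Basis.baseChange_apply]⟩,
    fun T hT => ?_⟩
  have hmem : ∀ v ∈ A ∙ b 0, ∀ c : B,
      (c ⊗ₜ[A] v : B ⊗[A] V) ∈ B ∙ (1 ⊗ₜ[A] b 0 : B ⊗[A] V) := by
    intro v hv c
    obtain ⟨x, rfl⟩ := Submodule.mem_span_singleton.1 hv
    refine Submodule.mem_span_singleton.2 ⟨c * algebraMap A B x, ?_⟩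
    rw [TensorProduct.smul_tmul', smul_eq_mul, mul_one, TensorProduct.tmul_smul,
      TensorProduct.smul_tmul', Algebra.smul_def, mul_comm]
  have hb0 : b 0 ∈ A ∙ b 0 := Submodule.mem_span_singleton_self _
  refine ⟨fun v hv => ?_, fun x hx v hv => ?_, fun z hz v => ?_⟩
  · obtain ⟨c, rfl⟩ := Submodule.mem_span_singleton.1 hv
    rw [map_smul, LinearMap.baseChange_tmul]
    exact Submodule.smul_mem _ _ (hmem _ (hT _ hb0) 1)
  · obtain ⟨c, rfl⟩ := Submodule.mem_span_singleton.1 hv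
    rw [map_smul, LinearMap.baseChange_tmul, hx _ hb0, TensorProduct.tmul_smul,
      ← algebraMap_smul B x (1 ⊗ₜ[A] b 0 : B ⊗[A] V), smul_comm]
  · induction v using TensorProduct.induction_on with
    | zero => simp
    | tmul c w =>
      rw [LinearMap.baseChange_tmul, algebraMap_smul, ← TensorProduct.tmul_smul,
        ← TensorProduct.tmul_sub]
      exact hmem _ (hz w) c
    | add x y hx hy =>
      rw [map_add, smul_add, add_sub_add_comm]
      exact add_mem hx hy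

theorem exists_line_baseChangeAlong {L : Submodule A ρ.V}
    (hb : ∃ b : Module.Basis (Fin 2) A ρ.V, L = A ∙ b 0) :
    ∃ L' : Submodule B (ρ.baseChangeAlong φ hφ).V,
      (∃ b : Module.Basis (Fin 2) B (ρ.baseChangeAlong φ hφ).V, L' = B ∙ b 0) ∧
      ∀ σ : Γℚ, (∀ v ∈ L, ρ.ρ σ v ∈ L) →
        (∀ v ∈ L', (ρ.baseChangeAlong φ hφ).ρ σ v ∈ L') ∧
        (∀ x : A, (∀ v ∈ L, ρ.ρ σ v = x • v) →
          ∀ v ∈ L', (ρ.baseChangeAlong φ hφ).ρ σ v = φ x • v) ∧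
        (∀ z : A, (∀ v, ρ.ρ σ v - z • v ∈ L) →
          ∀ v, (ρ.baseChangeAlong φ hφ).ρ σ v - φ z • v ∈ L') := by
  letI : Algebra A B := φ.toAlgebra
  obtain ⟨b, rfl⟩ := hb
  obtain ⟨L', hb', hT⟩ := exists_line_baseChange (B := B) b
  exact ⟨L', hb', fun σ hσ => hT (ρ.ρ σ) hσ⟩

theorem isOrdinaryAt_baseChangeAlong {p : ℕ} (h : ρ.IsOrdinaryAt p) :
    (ρ.baseChangeAlong φ hφ).IsOrdinaryAt p := fun P hP => by
  letI : Algebra A B := φ.toAlgebra
  obtain ⟨L, hb, hD, hI⟩ := h P hP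
  obtain ⟨L', hb', hT⟩ := exists_line_baseChangeAlong φ hφ ρ hb
  refine ⟨L', hb', fun σ hσ => (hT σ (hD σ hσ)).1, fun σ hσ v => ?_⟩
  have hd : σ ∈ P.decompositionSubgroup ℚ := by
    obtain ⟨τ, -, rfl⟩ := hσ
    exact τ.2
  have := (hT σ (hD σ hd)).2.2 1 (fun w => by rw [one_smul]; exact hI σ hσ w) v
  rwa [map_one, one_smul] at this

theorem isStrictOrdinaryAt_baseChangeAlong {p : ℕ} (h : ρ.IsStrictOrdinaryAt p) :
    (ρ.baseChangeAlong φ hφ).IsStrictOrdinaryAt p :=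
  ⟨natCast_mem_maximalIdeal φ hφ h.1, fun P hP => by
  letI : Algebra A B := φ.toAlgebra
  obtain ⟨L, hb, hD, hI, hx⟩ := h.2 P hP
  obtain ⟨L', hb', hT⟩ := exists_line_baseChangeAlong φ hφ ρ hb
  refine ⟨L', hb', fun σ hσ => (hT σ (hD σ hσ)).1, fun σ hσ v => ?_, fun σ hσ => ?_⟩
  · have hd : σ ∈ P.decompositionSubgroup ℚ := by
      obtain ⟨τ, -, rfl⟩ := hσ
      exact τ.2
    have := (hT σ (hD σ hd)).2.2 1 (fun w => by rw [one_smul]; exact hI σ hσ w) v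
    rwa [map_one, one_smul] at this
  · obtain ⟨x, z, hx1, hx2, hx3⟩ := hx σ hσ
    refine ⟨φ x, φ z, (hT σ (hD σ hσ)).2.1 x hx1, (hT σ (hD σ hσ)).2.2 z hx2,
      fun n a ha => ?_⟩
    obtain ⟨c, hc⟩ := Ideal.mem_span_singleton'.1 (hx3 n a ha)
    refine Ideal.mem_span_singleton'.2 ⟨φ c, ?_⟩
    rw [← map_natCast φ a, ← map_mul, ← map_sub, ← hc, map_mul, map_natCast]⟩

theorem isFlatAt_baseChangeAlong (hsurj : Function.Surjective φ) {p : ℕ} (h : ρ.IsFlatAt p) :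
    (ρ.baseChangeAlong φ hφ).IsFlatAt p := by
  letI : Algebra A B := φ.toAlgebra
  haveI := hφ
  refine ⟨?_, fun I hI => ?_⟩
  · haveI := h.1
    refine Finite.of_surjective (ResidueField.map φ) fun x => ?_
    obtain ⟨y, rfl⟩ := residue_surjective x
    obtain ⟨z, rfl⟩ := hsurj y
    exact ⟨residue A z, rfl⟩
  let J : Ideal A := I.comap φ
  haveI : Finite (A ⧸ J) :=
    Finite.of_injective (Ideal.quotientMap I φ le_rfl) Ideal.quotientMap_injective
  obtain ⟨H, i1, i2, h1, h2, h3, f, hf1, hf2⟩ := h.2 J inferInstance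
  let W := B ⊗[A] ρ.V
  let b : Module.Basis (Fin 2) A ρ.V := Module.finBasisOfFinrankEq A ρ.V ρ.finrank_eq
  let mk₁ : ρ.V →ₗ[A] W := TensorProduct.mk A B ρ.V 1
  let g₀ : ρ.V →+ W ⧸ I • (⊤ : Submodule B W) :=
    (Submodule.mkQ (I • (⊤ : Submodule B W))).toAddMonoidHom.comp mk₁.toAddMonoidHom
  have hker : (J • (⊤ : Submodule A ρ.V)).toAddSubgroup = g₀.ker := by
    ext v
    show v ∈ J • (⊤ : Submodule A ρ.V) ↔ Submodule.Quotient.mk (1 ⊗ₜ[A] v : W) = 0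
    rw [Submodule.Quotient.mk_eq_zero]
    constructor
    · intro hv
      refine Submodule.smul_induction_on (p := fun v => (1 ⊗ₜ[A] v : W) ∈ I • ⊤) hv
        (fun a ha w _ => ?_) fun x y hx hy => ?_
      · rw [TensorProduct.tmul_smul, ← algebraMap_smul B a (1 ⊗ₜ[A] w : W)]
        exact Submodule.smul_mem_smul ha Submodule.mem_top
      · rw [TensorProduct.tmul_add]
        exact add_mem hx hy
    · intro hv
      rw [← b.sum_repr v]
      refine Submodule.sum_mem _ fun i _ => Submodule.smul_mem_smul (?_ : b.repr v i ∈ J)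
        Submodule.mem_top
      have hc : (b.baseChange B).repr (1 ⊗ₜ[A] v : W) i ∈ I := by
        refine Submodule.smul_induction_on (p := fun w => (b.baseChange B).repr w i ∈ I) hv
          (fun r hr w _ => ?_) fun x y hx hy => ?_
        · rw [map_smul, Finsupp.smul_apply, smul_eq_mul]
          exact I.mul_mem_right _ hr
        · rw [map_add, Finsupp.add_apply]
          exact add_mem hx hy
      rw [Module.Basis.baseChange_repr_tmul, Algebra.smul_def, mul_one] at hc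
      exact hc
  have hg₀ : Function.Surjective g₀ := by
    intro w
    obtain ⟨w, rfl⟩ := Submodule.Quotient.mk_surjective _ w
    induction w using TensorProduct.induction_on with
    | zero => exact ⟨0, map_zero _⟩
    | tmul c v =>
      obtain ⟨a, rfl⟩ := hsurj c
      refine ⟨a • v, ?_⟩
      show Submodule.Quotient.mk (1 ⊗ₜ[A] (a • v) : W) = _
      rw [TensorProduct.tmul_smul, TensorProduct.smul_tmul', Algebra.smul_def, mul_one]
      rfl
    | add x y hx hy =>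
      obtain ⟨x', hx⟩ := hx
      obtain ⟨y', hy⟩ := hy
      exact ⟨x' + y', by rw [map_add, hx, hy]; rfl⟩
  let g : (ρ.V ⧸ J • (⊤ : Submodule A ρ.V)) ≃+ W ⧸ I • (⊤ : Submodule B W) :=
    AddEquiv.ofBijective
      (QuotientAddGroup.lift (J • (⊤ : Submodule A ρ.V)).toAddSubgroup g₀ hker.le) ⟨by
        refine (injective_iff_map_eq_zero
          (QuotientAddGroup.lift (J • (⊤ : Submodule A ρ.V)).toAddSubgroup g₀ hker.le)).2
          fun x hx => ?_
        obtain ⟨v, rfl⟩ := QuotientAddGroup.mk_surjective x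
        exact (QuotientAddGroup.eq_zero_iff v).2 (hker.ge hx), fun w => by
        obtain ⟨v, hv⟩ := hg₀ w
        exact ⟨Submodule.Quotient.mk v, hv⟩⟩
  refine ⟨H, i1, i2, h1, h2, h3, f.trans g.toEquiv, fun x y => ?_, fun σ x y hxy => ?_⟩
  · show g (f (x * y)) = g (f x) + g (f y)
    rw [hf1, map_add]
  · show g (f y) = (ρ.baseChangeAlong φ hφ).levelAction I σ (g (f x))
    rw [hf2 σ x y hxy]
    obtain ⟨v, hv⟩ := Submodule.Quotient.mk_surjective _ (f x)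
    rw [← hv]
    show Submodule.Quotient.mk (1 ⊗ₜ[A] ρ.ρ σ v : W) =
      Submodule.Quotient.mk ((ρ.ρ σ).baseChange B (1 ⊗ₜ[A] v : W))
    rw [LinearMap.baseChange_tmul]

end BaseChange

end Fermat.Agent.Lifting.ETransfer
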