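import Fermat.Agent.Lifting.CMod
import Fermat.Agent.Ribet.Twisted.Twist
import Fermat.Agent.CondLevel.Main
import Fermat.Agent.Eigen.EigenHom
import Fermat.Agent.Integral.Main
import Fermat.Prelude.Def_WeierstrassCurve_Mlc1RowStatement
import Mathlib.NumberTheory.LSeries.PrimesInAP

/-!
# From an eigenclass on the bottom module to modularity at the conductor level

The output of the support engine is an eigenvector of the good Hecke operators with eigenvalues
`a_ℓ (W)` on the part of `H¹(Γ₀(L), O)` at the residual system, `L` squarefree.  It is turned into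
an eigenclass, a character of the Hecke algebra of level `L`, a newform of level dividing `L`, and
finally into modularity of exact conductor level.
-/

set_option autoImplicit false

noncomputable section

namespace Fermat.Agent.Lifting

open CongruenceSubgroup ModularFormClass
open Fermat.Agent.Ribet.Twisted (Coh CohL chr heckeT' HasSystem)

universe u

/-- An eigenvector over the field of fractions gives one with integral entries. -/
theorem exists_integral_eigenvector {O : Type*} [CommRing O] [IsDomain O] {ι L : Type*} [Fintype ι]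
    (T : L → Matrix ι ι O) (c : L → O) {v : ι → FractionRing O} (hv : v ≠ 0)
    (h : ∀ l, ((T l).map (algebraMap O (FractionRing O))).mulVec v =
      algebraMap O (FractionRing O) (c l) • v) :
    ∃ w : ι → O, w ≠ 0 ∧ ∀ l, (T l).mulVec w = c l • w := by
  obtain ⟨d, hd⟩ := IsLocalization.exist_integer_multiples_of_finite (nonZeroDivisors O) v
  choose w hw using hd
  have hd0 : algebraMap O (FractionRing O) d ≠ 0 :=
    IsFractionRing.to_map_ne_zero_of_mem_nonZeroDivisors d.2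
  have hwv : (fun i => algebraMap O (FractionRing O) (w i)) =
      algebraMap O (FractionRing O) d • v := funext fun i => by
    rw [hw i, Algebra.smul_def, Pi.smul_apply, smul_eq_mul]
  refine ⟨w, fun h0 => hv ?_, fun l => funext fun i => ?_⟩
  · refine (smul_eq_zero.1 (hwv.symm.trans ?_)).resolve_left hd0
    funext i
    simp [h0]
  · apply IsFractionRing.injective O (FractionRing O)
    rw [RingHom.map_mulVec,
      show algebraMap O (FractionRing O) ∘ w = algebraMap O (FractionRing O) d • v from hwv,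
      Matrix.mulVec_smul, h l, Pi.smul_apply, Pi.smul_apply,
      Pi.smul_apply, smul_eq_mul, smul_eq_mul, smul_eq_mul, map_mul,
      show algebraMap O (FractionRing O) (w i) = _ from congrFun hwv i, Pi.smul_apply, smul_eq_mul]
    ring

/-- An eigenvector of the matrices in a basis gives an eigenvector of the operators. -/
theorem exists_eigen_of_matrix {O M : Type*} [CommRing O] [AddCommGroup M] [Module O M]
    {ι L : Type*} [Fintype ι] [DecidableEq ι] (b : Module.Basis ι O M) (T : L → Module.End O M)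
    (c : L → O) {w : ι → O} (hw : w ≠ 0)
    (h : ∀ l, (LinearMap.toMatrix b b (T l)).mulVec w = c l • w) :
    ∃ x : M, x ≠ 0 ∧ ∀ l, T l x = c l • x := by
  refine ⟨b.equivFun.symm w, fun h0 => hw (b.equivFun.symm.map_eq_zero_iff.1 h0), fun l => ?_⟩
  apply b.equivFun.injective
  rw [map_smul, LinearEquiv.apply_symm_apply, ← h l]
  show (b.repr _ : ι → O) = _
  rw [← LinearMap.toMatrix_mulVec_repr b b (T l)]
  congr 1
  exact b.equivFun.apply_symm_apply w

section Class

variable {A : Type u} [CommRing A] {L D : ℕ} [NeZero L] (hD : D ∣ L) (ψ : DirichletCharacter A D)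
  {S : Finset ℕ} {k : Type*} [Field k] (res : A →+* k) (a : GoodIdx S → k)

/-- An eigenvector in the part at the system comes from an eigenclass. -/
theorem exists_eigenclass_of_mPart [IsNoetherianRing A] {x : MPart hD ψ res a A} (hx : x ≠ 0)
    (P : ℕ → Prop) (c : ℕ → A)
    (h : ∀ ℓ : ℕ, P ℓ → partT hD ψ res a A ℓ x = c ℓ • x) :
    ∃ y : CohL hD ψ A, y ≠ 0 ∧
      ∀ ℓ : ℕ, P ℓ → heckeT' hD ψ A ℓ y = c ℓ • y := by
  classical
  haveI : Module.Finite A (CohL hD ψ A) := Ribet.Twisted.finite_cohL hD ψ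
  haveI : IsNoetherian A (CohL hD ψ A) := isNoetherian_of_isNoetherianRing_of_finite A _
  obtain ⟨s, hs⟩ : (cohKer hD ψ res a A).FG := IsNoetherian.noetherian _
  have hmem : ∀ z : s, ∃ t, sysEval res a t ≠ 0 ∧ cohAct hD ψ S A t z = 0 := fun z =>
    (hs ▸ Submodule.subset_span z.2 : (z : CohL hD ψ A) ∈ cohKer hD ψ res a A)
  choose t ht0 htz using hmem
  set t₀ := ∏ z, t z
  have ht₀ : sysEval res a t₀ ≠ 0 := by
    rw [map_prod]
    exact Finset.prod_ne_zero_iff.2 fun z _ => ht0 z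
  have hkill : ∀ z ∈ cohKer hD ψ res a A, cohAct hD ψ S A t₀ z = 0 := by
    intro z hz
    rw [← hs] at hz
    induction hz using Submodule.span_induction with
    | mem z hz =>
      rw [show t₀ = (∏ z' ∈ Finset.univ.erase (⟨z, hz⟩ : s), t z') * t ⟨z, hz⟩ from
        (Finset.prod_erase_mul _ _ (Finset.mem_univ _)).symm, map_mul, Module.End.mul_apply,
        htz ⟨z, hz⟩, map_zero]
    | zero => rw [map_zero]
    | add u v _ _ hu hv => rw [map_add, hu, hv, add_zero]
    | smul r u _ hu => rw [map_smul, hu, smul_zero]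
  obtain ⟨x, rfl⟩ := toPart_surjective hD ψ res a A x
  refine ⟨cohAct hD ψ S A t₀ x, fun h0 => hx ?_, fun ℓ hℓP => ?_⟩
  · rw [toPart_eq_zero]
    exact ⟨t₀, ht₀, h0⟩
  · have hk := h ℓ hℓP
    rw [partT_toPart, ← map_smul, ← sub_eq_zero, ← map_sub, toPart, Submodule.mkQ_apply,
      Submodule.Quotient.mk_eq_zero] at hk
    have hk' := hkill _ hk
    rw [map_sub, map_smul, sub_eq_zero] at hk'
    rw [← Module.End.mul_apply, (cohAct_comm hD ψ S A ℓ t₀).eq, Module.End.mul_apply, hk']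

end Class

/-- With trivial nebentype, extending the coefficients is injective on classes. -/
theorem cohMap_injective {A K : Type u} [CommRing A] [Field K] (φ : A →+* K)
    (hφ : Function.Injective φ) {L : ℕ} [NeZero L] (ψ : DirichletCharacter A 1)
    {y : CohL (one_dvd L) ψ A} (h0 : cohMap (one_dvd L) ψ φ y = 0) : y = 0 := by
  obtain ⟨z, rfl⟩ := Ribet.Twisted.Coh.mk_surjective y
  rw [cohMap, Ribet.Twisted.Coh.map_mk, Ribet.Twisted.Coh.mk_eq_zero] at h0
  obtain ⟨b, hb⟩ := h0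
  refine Ribet.Twisted.Coh.mk_eq_zero.2 ⟨0, ?_⟩
  rw [map_zero]
  refine Subtype.ext (funext fun g => hφ ?_)
  have h1 := congrFun (congrArg Subtype.val hb) g
  rw [Ribet.Twisted.coboundary_apply, Ribet.Twisted.chr_apply,
    Subsingleton.elim ((((g : Matrix.SpecialLinearGroup (Fin 2) ℤ)) 1 1 : ℤ) : ZMod 1) 1,
    map_one, one_pow, one_smul, sub_self] at h1
  simpa [Ribet.Twisted.cocyclesMap] using h1

/-- An eigenclass with trivial nebentype gives a system over a field containing the coefficients. -/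
theorem hasSystem_of_eigenclass {A K : Type u} [CommRing A] [Field K] (φ : A →+* K)
    (hφ : Function.Injective φ) {L : ℕ} [NeZero L] (ψ : DirichletCharacter A 1) (T : Finset ℕ)
    (c : ℕ → A) {y : CohL (one_dvd L) ψ A} (hy : y ≠ 0)
    (h : ∀ ℓ : ℕ, ℓ.Prime → ℓ ∉ T → heckeT' (one_dvd L) ψ A ℓ y = c ℓ • y) :
    HasSystem (one_dvd L) (ψ.ringHomComp φ) T fun ℓ => φ (c ℓ) := by
  refine ⟨cohMap (one_dvd L) ψ φ y, fun h0 => hy (cohMap_injective φ hφ ψ h0),
    fun ℓ hℓ hℓT => ?_⟩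
  rw [← cohMap_heckeT', h ℓ hℓ hℓT, LinearMap.map_smulₛₗ]

/-- A system with the eigenvalues of a curve is the system of an eigenform of that level. -/
theorem exists_eigenform_of_hasSystem (W : WeierstrassCurve ℤ) {L : ℕ} [NeZero L] {K : Type*}
    [Field K] [CharZero K] (ψ : DirichletCharacter K 1) (T : Finset ℕ) (a : ℕ → K)
    (ha : HasSystem (one_dvd L) ψ T a)
    (haW : ∀ ℓ : ℕ, ℓ.Prime → ℓ ∉ T → a ℓ = (W.apOfModel ℓ : K)) :
    ∃ f : CuspForm (Gamma0 L) 2, f.IsNormalizedEigenform ∧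
      ∀ ℓ : ℕ, ℓ.Prime → ¬ ℓ ∣ L → ℓ ∉ T → qCoeff f ℓ = (W.apOfModel ℓ : ℂ) := by
  classical
  suffices hgoal : ∃ f : CuspForm (Gamma0 (L * 1)) 2, f.IsNormalizedEigenform ∧
      ∀ ℓ : ℕ, ℓ.Prime → ¬ ℓ ∣ L * 1 → ℓ ∉ T → qCoeff f ℓ = (W.apOfModel ℓ : ℂ) by
    rw [mul_one] at hgoal
    exact hgoal
  haveI : NeZero (L * 1) := ⟨by simpa using NeZero.ne L⟩
  set T' := T ∪ (L * 1).primeFactors with hT'
  have hT'sub : ∀ ℓ : ℕ, ℓ ∉ T' → ℓ ∉ T := fun ℓ h h' => h (Finset.mem_union_left _ h')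
  obtain ⟨ℓ₀, hgt, hℓ₀, hℓ₀1⟩ :=
    Nat.forall_exists_prime_gt_and_eq_mod (q := L * 1) (a := 1) isUnit_one (T'.sup id)
  have hℓ₀T : ℓ₀ ∉ T' := fun hm =>
    absurd (Finset.le_sup (f := id) hm) (not_le.2 hgt)
  have hne : ∃ ℓ : ℕ, ℓ.Prime ∧ ℓ ∉ T' ∧ (ℓ : ZMod (L * 1)) = 1 ∧ a ℓ ≠ (ℓ : K) + 1 := by
    refine ⟨ℓ₀, hℓ₀, hℓ₀T, hℓ₀1, ?_⟩
    rw [haW ℓ₀ hℓ₀ (hT'sub _ hℓ₀T)]
    intro h
    exact (CondLevel.apOfModel_ne_add_one W hℓ₀).1 (by exact_mod_cast h)
  obtain ⟨x, hx0, hx⟩ := ha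
  obtain ⟨χ, hχT, -⟩ := Ribet.Twisted.exists_hom_of_hasSystem (one_dvd L) squarefree_one
    (Nat.coprime_one_left _) ψ (fun q hq h1 => absurd (Nat.dvd_one.1 h1) hq.ne_one) T'
    (fun q hq h1 => absurd (Nat.dvd_one.1 h1) hq.ne_one) a
    ⟨x, hx0, fun ℓ hℓ hℓS => hx ℓ hℓ (hT'sub ℓ hℓS)⟩ hne
  have hint : ∀ t, χ t ∈ (Int.castRingHom K).range := by
    rintro ⟨t, ht⟩
    induction ht using Algebra.adjoin_induction with
    | mem t ht =>
      rcases ht with ⟨ℓ, hℓ, hℓN, hℓS, rfl⟩ | ⟨q, hqN, hq, hqS, rfl⟩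
      · refine ⟨W.apOfModel ℓ, ?_⟩
        rw [eq_intCast]
        exact ((hχT ℓ hℓ hℓN hℓS).trans
          (haW ℓ hℓ (hT'sub ℓ (fun h => hℓS (Finset.mem_coe.2 h))))).symm
      · exact absurd (Finset.mem_coe.2 (Finset.mem_union_right _
          (Nat.mem_primeFactors.2 ⟨hq, hqN, NeZero.ne _⟩))) hqS
    | algebraMap n => exact ⟨n, (map_intCast χ n).symm⟩
    | add t s ht hs iht ihs =>
      have := add_mem iht ihs
      rwa [← map_add] at this
    | mul t s ht hs iht ihs =>
      have := mul_mem iht ihs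
      rwa [← map_mul] at this
  choose v hv using hint
  have hinj : Function.Injective (Int.castRingHom K) := Int.cast_injective
  let χ' : CuspForm.heckeAlgebra (L * 1) 2 (↑T' : Set ℕ) →+* ℤ :=
    { toFun := v
      map_one' := hinj (by rw [hv, map_one, map_one])
      map_mul' := fun s t => hinj (by rw [map_mul, hv, hv, hv, map_mul])
      map_zero' := hinj (by rw [hv, map_zero, map_zero])
      map_add' := fun s t => hinj (by rw [map_add, hv, hv, hv, map_add]) }
  obtain ⟨f, hf, hfT⟩ := Eigen.exists_eigenform_qCoeff_of_ringHom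
    (Integral.hasIntegralStructure (L * 1) 2) ((Int.castRingHom ℂ).comp χ')
  refine ⟨f, hf, fun ℓ hℓ hℓL hℓT => ?_⟩
  have hℓT' : ℓ ∉ (↑T' : Set ℕ) := by
    rw [hT', Finset.mem_coe, Finset.mem_union, Nat.mem_primeFactors]
    tauto
  have hvℓ : v (CuspForm.heckeAlgebra.T hℓ hℓL hℓT') = W.apOfModel ℓ :=
    hinj (by rw [hv, hχT ℓ hℓ hℓL hℓT', haW ℓ hℓ hℓT]; rfl)
  rw [hfT.1 ℓ hℓ hℓL hℓT']
  show ((v _ : ℤ) : ℂ) = _
  rw [hvℓ]

/-- An eigenform of squarefree level with almost all eigenvalues those of a semistable curve gives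
modularity of exact conductor level. -/
theorem exact_of_eigenform (h35 : CondLevel.S35Statement) {W : WeierstrassCurve ℤ} (hΔ : W.Δ ≠ 0)
    {L : ℕ} [NeZero L] (hL : Squarefree L) {f : CuspForm (Gamma0 L) 2}
    (hf : f.IsNormalizedEigenform) (T : Finset ℕ)
    (hfW : ∀ ℓ : ℕ, ℓ.Prime → ¬ ℓ ∣ L → ℓ ∉ T → qCoeff f ℓ = (W.apOfModel ℓ : ℂ)) :
    Mlc1IsModularModelOfExactConductorLevel W := by
  classical
  obtain ⟨M, hML, hM0, g, hg, hgf⟩ := Newform.exists_newform_of_eigenform hf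
  haveI : NeZero M := ⟨hM0.ne'⟩
  set T' := T.filter Nat.Prime
  set N := L * ∏ q ∈ T', q with hN
  have hN0 : N ≠ 0 := mul_ne_zero (NeZero.ne L)
    (Finset.prod_ne_zero_iff.2 fun q hq => (Finset.mem_filter.1 hq).2.ne_zero)
  have hMN : M ∣ N := hML.trans (dvd_mul_right _ _)
  have hgW : ∀ ℓ : ℕ, ℓ.Prime → ¬ ℓ ∣ N → qCoeff g ℓ = (W.apOfModel ℓ : ℂ) := by
    intro ℓ hℓ hℓN
    have hℓL : ¬ ℓ ∣ L := fun h => hℓN (h.trans (dvd_mul_right _ _))
    refine (hgf ℓ hℓ hℓL).trans (hfW ℓ hℓ hℓL fun hT => hℓN ?_)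
    exact (Finset.dvd_prod_of_mem (fun q => q) (Finset.mem_filter.2 ⟨hT, hℓ⟩)).trans
      (dvd_mul_left _ _)
  have hfin : CondLevel.HeckeFiniteStatement := fun n _ S =>
    Eigen.heckeAlgebra_moduleFinite (Integral.hasIntegralStructure n 2) S
  have hMsq : Squarefree M := hL.squarefree_of_dvd hML
  have hMbad : ∀ ℓ : ℕ, ℓ.Prime → ℓ ∣ M → (ℓ : ℤ) ∣ W.Δ := by
    intro ℓ hℓ hℓM
    by_contra h
    have h2 := (CondLevel.good_prime_step h35 hfin hΔ hMN hN0 hg hgW hℓ h).1 hℓM
    exact Nat.squarefree_iff_prime_squarefree.1 hMsq ℓ hℓ (by rwa [pow_two] at h2)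
  have hdvd : M ∣ W.conductorLevel := by
    rw [← Nat.prod_primeFactors_of_squarefree hMsq,
      ← Nat.prod_primeFactors_of_squarefree W.squarefree_conductorLevel]
    refine Finset.prod_dvd_prod_of_subset _ _ _ fun q hq => ?_
    obtain ⟨hqp, hqM, -⟩ := Nat.mem_primeFactors.mp hq
    exact Nat.mem_primeFactors.mpr
      ⟨hqp, (W.prime_dvd_conductorLevel_iff hΔ hqp).mpr (hMbad q hqp hqM),
        W.conductorLevel_pos.ne'⟩
  obtain ⟨f', hf', hfg⟩ := CondLevel.exists_eigenform_of_dvd hdvd hg.1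
  refine ⟨W.conductorLevel, W.conductorLevel_pos, W.squarefree_conductorLevel,
    fun q hq => W.prime_dvd_conductorLevel_iff hΔ hq, f', hf', fun ℓ hℓ hgood hℓR => ?_⟩
  rw [hfg ℓ hℓ hℓR]
  exact (CondLevel.good_prime_step h35 hfin hΔ hMN hN0 hg hgW hℓ hgood).2
    fun h => hℓR (h.trans hdvd)

/-- **The back end of modularity lifting**: a system with the eigenvalues of `W` in the cohomology
of `Γ₀(L)`, `L` squarefree. -/
theorem exactConductorLevel_of_hasSystem (h35 : CondLevel.S35Statement) {W : WeierstrassCurve ℤ}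
    (hΔ : W.Δ ≠ 0) {L : ℕ} [NeZero L] (hL : Squarefree L) {K : Type*} [Field K] [CharZero K]
    (ψ : DirichletCharacter K 1) (T : Finset ℕ) (a : ℕ → K)
    (ha : HasSystem (one_dvd L) ψ T a)
    (haW : ∀ ℓ : ℕ, ℓ.Prime → ℓ ∉ T → a ℓ = (W.apOfModel ℓ : K)) :
    Mlc1IsModularModelOfExactConductorLevel W := by
  obtain ⟨f, hf, hfW⟩ := exists_eigenform_of_hasSystem W ψ T a ha haW
  exact exact_of_eigenform h35 hΔ hL hf T hfW

/-- Eigenvectors for all finite sets of operators give one for all of them. -/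
theorem exists_common_eigenvector {K V I : Type*} [Field K] [AddCommGroup V] [Module K V]
    [FiniteDimensional K V] (f : I → Module.End K V) (c : I → K)
    (h : ∀ F : Finset I, ∃ v : V, v ≠ 0 ∧ ∀ i ∈ F, f i v = c i • v) :
    ∃ v : V, v ≠ 0 ∧ ∀ i, f i v = c i • v := by
  classical
  let E : Finset I → Submodule K V := fun F => ⨅ i ∈ F, (f i).eigenspace (c i)
  have hE : ∀ F v, v ∈ E F ↔ ∀ i ∈ F, f i v = c i • v := fun F v => by
    simp [E, Submodule.mem_iInf, Module.End.mem_eigenspace_iff]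
  obtain ⟨F₀, hF₀⟩ : ∃ F₀, ∀ F, Module.finrank K (E F₀) ≤ Module.finrank K (E F) :=
    ⟨Function.argmin fun F => Module.finrank K (E F),
      fun F => Function.argmin_le (fun F => Module.finrank K (E F)) F⟩
  obtain ⟨v, hv, hv'⟩ := h F₀
  refine ⟨v, hv, fun i => ?_⟩
  have hle : E (insert i F₀) ≤ E F₀ := fun x hx =>
    (hE _ _).2 fun j hj => (hE _ _).1 hx j (Finset.mem_insert_of_mem hj)
  have heq := Submodule.eq_of_le_of_finrank_le hle (hF₀ _)
  exact (hE _ _).1 (heq ▸ (hE _ _).2 hv') i (Finset.mem_insert_self _ _)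

/-- The back end in the matrix form given by the support engine, run once for each finite set
`F` of indices: the `idx i` cover the primes outside `T`. -/
theorem exact_of_engine (h35 : CondLevel.S35Statement) {W : WeierstrassCurve ℤ} (hΔ : W.Δ ≠ 0)
    {O : Type u} [CommRing O] [IsDomain O] [IsNoetherianRing O] [CharZero O] {L : ℕ} [NeZero L]
    (hL : Squarefree L) (ψ : DirichletCharacter O 1) {S : Finset ℕ} {k : Type*} [Field k]
    (res : O →+* k) (a : GoodIdx S → k) (T : Finset ℕ) {ι I : Type*} [Fintype ι] [DecidableEq ι]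
    (b : Module.Basis ι O (MPart (one_dvd L) ψ res a O)) (idx : I → ℕ)
    (hidx : ∀ ℓ : ℕ, ℓ.Prime → ℓ ∉ T → ∃ i, idx i = ℓ)
    (h : ∀ F : Finset I, ∃ v : ι → FractionRing O, v ≠ 0 ∧ ∀ i ∈ F,
      ((LinearMap.toMatrix b b (partT (one_dvd L) ψ res a O (idx i))).map
        (algebraMap O (FractionRing O))).mulVec v =
      algebraMap O (FractionRing O) (W.apOfModel (idx i) : O) • v) :
    Mlc1IsModularModelOfExactConductorLevel W := by
  classical
  set φ := algebraMap O (FractionRing O)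
  haveI : CharZero (FractionRing O) := charZero_of_injective_algebraMap
    (IsFractionRing.injective O (FractionRing O))
  haveI : FiniteDimensional (FractionRing O) (CohL (one_dvd L) (ψ.ringHomComp φ) (FractionRing O)) :=
    Ribet.Twisted.finite_cohL (one_dvd L) _
  obtain ⟨y, hy, hy'⟩ := exists_common_eigenvector
    (fun i => heckeT' (one_dvd L) (ψ.ringHomComp φ) (FractionRing O) (idx i))
    (fun i => ((W.apOfModel (idx i) : ℤ) : FractionRing O)) fun F => by
      obtain ⟨v, hv, hv'⟩ := h F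
      obtain ⟨w, hw, hw'⟩ := exists_integral_eigenvector
        (fun i : F => LinearMap.toMatrix b b (partT (one_dvd L) ψ res a O (idx i)))
        (fun i : F => (W.apOfModel (idx i) : O)) hv fun i => hv' i i.2
      obtain ⟨x, hx, hx'⟩ := exists_eigen_of_matrix b _ _ hw hw'
      obtain ⟨y, hy, hy'⟩ := exists_eigenclass_of_mPart (one_dvd L) ψ res a hx
        (fun ℓ => ∃ i ∈ F, idx i = ℓ) (fun ℓ => (W.apOfModel ℓ : O))
        (by rintro _ ⟨i, hi, rfl⟩; exact hx' ⟨i, hi⟩)
      refine ⟨cohMap (one_dvd L) ψ φ y, fun h0 =>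
        hy (cohMap_injective φ (IsFractionRing.injective _ _) ψ h0), fun i hi => ?_⟩
      rw [← cohMap_heckeT', hy' _ ⟨i, hi, rfl⟩, LinearMap.map_smulₛₗ, map_intCast]
  refine exactConductorLevel_of_hasSystem h35 hΔ hL (ψ.ringHomComp φ) T
    (fun ℓ => ((W.apOfModel ℓ : ℤ) : FractionRing O)) ⟨y, hy, fun ℓ hℓ hℓT => ?_⟩
    fun _ _ _ => rfl
  obtain ⟨i, rfl⟩ := hidx ℓ hℓ hℓT
  exact hy' i

end Fermat.Agent.Lifting

end
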