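import Fermat.Agent.Lifting.AParams

/-!
# Points of the big ring and the two worlds
-/

set_option autoImplicit false

noncomputable section

namespace Fermat.Agent.Lifting

open MvPowerSeries IsLocalRing

namespace Places

variable {O : Type} [CommRing O] {σ : Shape} (P : Places O σ) (st : Fin σ.k → Bool)
  {B : Type} [CommRing B] [Algebra O B] (φ : σ.Big O →ₐ[O] B)

lemma frobAt_comp (a : Fin σ.k) :
    P.frobAt (fun v => φ (X (σ.mainVar v))) a = (P.frob a).map φ := by
  ext i j
  rw [frobAt, frob, Matrix.add_apply, Matrix.map_apply, Matrix.map_apply, Matrix.of_apply,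
    Matrix.of_apply, map_add]
  congr 1
  exact (φ.commutes _).symm

lemma monoAt_comp (a : Fin σ.k) :
    P.monoAt (fun v => φ (X (σ.mainVar v))) a = (P.mono a).map φ := rfl

/-- A homomorphism killing the relations of the places is a point. -/
lemma isPoint_of_rels (hloc : ∀ a, ∀ f ∈ P.localRels a, φ f = 0)
    (hst : ∀ a, st a = true → φ ((P.frob a).trace - C (P.eps a * ((P.q a : O) + 1))) = 0)
    (hunr : ∀ a, st a = false → ∀ f ∈ P.unrRels a, φ f = 0) :
    P.IsPoint st fun v => φ (X (σ.mainVar v)) := by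
  have hC : ∀ x : O, φ (C x) = algebraMap O B x := fun x => φ.commutes x
  intro a
  rw [frobAt_comp, monoAt_comp]
  refine ⟨?_, fun ha => ⟨?_, ?_⟩, fun ha => ?_⟩
  · have h := hloc a _ (Or.inl (Or.inl rfl))
    rw [map_sub, hC, map_natCast, sub_eq_zero, AlgHom.map_det] at h
    exact h
  · have h := hst a ha
    rw [map_sub, hC, sub_eq_zero, map_mul, map_add, map_natCast, map_one] at h
    rw [← h, Matrix.trace_fin_two, Matrix.trace_fin_two, map_add]
    rfl
  · ext i j
    have h := hloc a _ (Or.inr ⟨(i, j), rfl⟩)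
    dsimp only at h
    rw [Matrix.sub_apply, map_sub, sub_eq_zero, Matrix.smul_apply, smul_eq_mul, map_mul, hC,
      map_natCast] at h
    rw [← Matrix.map_mul, ← Matrix.map_mul, Matrix.map_apply, Matrix.smul_apply, smul_eq_mul,
      Matrix.map_apply]
    exact h
  · ext i j
    exact hunr a ha _ ⟨(i, j), rfl⟩

/-- A prime element of the local conditions: if the monodromy is non-zero, the trace of Frobenius
squares to `(q + 1) ^ 2`. -/
lemma trace_sq_eq [IsDomain B] {Φ N : Matrix (Fin 2) (Fin 2) B} {q : B} (hd : Φ.det = q)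
    (hN : Φ * N = q • (N * Φ)) (hq0 : q ≠ 0) (hq1 : q ≠ 1) (hne : N ≠ 0) :
    Φ.trace ^ 2 = (q + 1) ^ 2 := by
  set t := Φ.trace
  have hCH : Φ * Φ = t • Φ - q • 1 := by
    ext i j
    rw [Matrix.det_fin_two] at hd
    simp only [t, Matrix.trace_fin_two]
    fin_cases i <;> fin_cases j <;>
      simp [Matrix.mul_apply, Fin.sum_univ_two] <;> grobner
  have h2 : Φ * Φ * N = q ^ 2 • (N * (Φ * Φ)) := by
    rw [Matrix.mul_assoc, hN, Matrix.mul_smul, ← Matrix.mul_assoc, hN, Matrix.smul_mul, smul_smul,
      Matrix.mul_assoc, sq]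
  rw [hCH, Matrix.sub_mul, Matrix.smul_mul, Matrix.smul_mul, Matrix.one_mul, hN, Matrix.mul_sub,
    Matrix.mul_smul, Matrix.mul_smul, Matrix.mul_one, smul_sub, smul_smul, smul_smul,
    smul_smul] at h2
  have h3 : (q * (1 - q)) • (t • (N * Φ) - (1 + q) • N) = 0 := by
    rw [smul_sub, smul_smul, smul_smul]
    linear_combination (norm := module) h2
  have h4 : t • (N * Φ) = (1 + q) • N := sub_eq_zero.mp ((smul_eq_zero.mp h3).resolve_left
    (mul_ne_zero hq0 (sub_ne_zero.mpr (Ne.symm hq1))))
  have h5 : (t * t) • N = ((1 + q) * (1 + q)) • N := by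
    have h6 : N * (Φ * Φ) = N := by
      rw [hCH, Matrix.mul_sub, Matrix.mul_smul, Matrix.mul_smul, Matrix.mul_one, h4, add_smul,
        one_smul, add_sub_cancel_right]
    have h7 : t • N = (1 + q) • (N * Φ) := by
      have h := congrArg (· * Φ) h4
      simpa [Matrix.smul_mul, Matrix.mul_assoc, h6] using h
    rw [mul_smul, h7, smul_comm, h4, smul_smul]
  have h10 : (t * t - (1 + q) * (1 + q)) • N = 0 := by rw [sub_smul, h5, sub_self]
  linear_combination (smul_eq_zero.mp h10).resolve_right hne

end Places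

namespace Worlds

variable {O : Type} [CommRing O] [IsDomain O] [IsDiscreteValuationRing O]
  [IsAdicComplete (maximalIdeal O) O] {σ : Shape} (w : Worlds O σ) (P : Places O σ) (st : Fin σ.k → Bool)

/-- **Point theorem in the big ring**. -/
theorem chartIdeal_le_ker [CharZero O] (h2 : IsUnit (2 : O)) {B : Type} [CommRing B] [IsDomain B]
    [IsLocalRing B] [IsNoetherianRing B] [IsAdicComplete (maximalIdeal B) B] [Algebra O B]
    (φ : σ.Big O →ₐ[O] B) (hinj : Function.Injective (algebraMap O B))
    (hloc : ∀ x ∈ maximalIdeal O, algebraMap O B x ∈ maximalIdeal B)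
    (hX : ∀ v, φ (X v) ∈ maximalIdeal B) (hmain : ∀ v, φ (w.mainGen v) = 0)
    (hpt : P.IsPoint st fun v => φ (X (σ.mainVar v))) :
    w.chartIdeal P st ≤ RingHom.ker φ := by
  intro f hf
  have h0 := P.pev_eq_zero_of_chartHom st h2 hinj hloc (fun v => hX (σ.mainVar v)) hpt
    (w.substMain f) hf
  have e1 : φ.comp σ.mainIncl =
      Deform.pev (maximalIdeal B) (fun v => φ (X (σ.mainVar v))) (fun v => hX _) :=
    Deform.algHom_ext_of_X (maximalIdeal B) _ _ (fun v => by simp [Shape.mainIncl_X, hX])
      fun v => by simp [Shape.mainIncl_X, Deform.pev_X]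
  have e2 : φ = (φ.comp σ.mainIncl).comp w.substMain := by
    refine Deform.algHom_ext_of_X (maximalIdeal B) _ _ hX fun v => ?_
    rcases v with v | j | v
    · simp [substMain_X, substVal, Shape.mainIncl_X, Shape.mainVar]
    · simp [substMain_X, substVal, Shape.mainIncl_X, Shape.mainVar]
    · have h := hmain v
      rw [mainGen, map_sub, sub_eq_zero] at h
      simpa [substMain_X, substVal] using h
  rw [RingHom.mem_ker, e2, e1]
  exact h0

/-- Projection of the charts onto the free global variables. -/
def globalProj : σ.ChartRing O →ₐ[O] MvPowerSeries (Fin σ.r) O :=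
  Deform.pev (Deform.varIdeal (Fin σ.r) O) (Sum.elim (fun _ => 0) X) fun v => by
    rcases v with v | v
    · exact zero_mem _
    · exact Shape.X_mem_varIdeal' _

/-- **Exclusion of the other world**: some relation of the other world is non-zero in the chart,
even on the global variables only. -/
theorem exists_othGen_proj_ne_zero (hcount : σ.flat = true → σ.r' + 1 ≤ σ.r) :
    ∃ g ∈ w.othGen, globalProj (w.bigChart P st g) ≠ 0 := by
  unfold othGen
  split
  next hflat =>
    by_contra! h
    set Ψ : σ.Big O →ₐ[O] MvPowerSeries (Fin σ.r) O := (globalProj).comp (w.bigChart P st)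
    have hG : ∀ v, globalProj (O := O) (σ := σ) (X v) =
        Sum.elim (fun _ => 0) X v := fun v => Deform.pev_X _ _ _ _
    have hvar : ∀ f : σ.ChartRing O, constantCoeff f = 0 →
        globalProj f ∈ Deform.varIdeal (Fin σ.r) O := by
      intro f hf
      have hle : Deform.varIdeal σ.ChartVar O ≤
          (Deform.varIdeal (Fin σ.r) O).comap globalProj := by
        rw [Deform.varIdeal, Ideal.span_le]
        rintro _ ⟨v | v, rfl⟩ <;> simp [hG, Shape.X_mem_varIdeal']
      exact hle ((mem_varIdeal_iff _).mpr hf)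
    -- values of the variables of the other world
    have hloc : ∀ a b i j, Ψ (X (Sum.inl (a, b, i, j))) = 0 := by
      intro a b i j
      show globalProj (w.bigChart P st _) = 0
      rw [bigChart_locVar, P.map_locMatIn st globalProj a b (y := fun _ => 0)
        (fun l => by simp [hG])
        (by simpa [MvPowerSeries.algebraMap_apply] using P.isUnit_unrDen a (Sum.inl (a, 0)))]
      cases hs : st a <;> cases b <;> fin_cases i <;> fin_cases j <;>
        simp [Places.locMatIn, hs, Frame.stFrob, Frame.unrFrob, Frame.nilLine]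
      rw [show (P.q a : MvPowerSeries (Fin σ.r) O) = algebraMap O _ (P.q a : O) by simp,
        ← map_mul, ← Frame.map_inverse (algebraMap O (MvPowerSeries (Fin σ.r) O))
          ((P.isUnit_eps a).mul (P.isUnit_q a)), ← map_mul, P.inverse_centre a, sub_self]
    have hvar' : ∀ f : σ.MainRing O, constantCoeff f ∈ maximalIdeal O →
        globalProj (P.chartHom st f) ∈ maximalIdeal (MvPowerSeries (Fin σ.r) O) := by
      intro f hf
      have hle : Deform.varIdeal (σ.LocVar ⊕ Fin σ.r) O ≤
          (Deform.varIdeal σ.ChartVar O).comap (P.chartHom st) := by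
        rw [Deform.varIdeal, Ideal.span_le]
        rintro _ ⟨v, rfl⟩
        simpa [Places.chartHom_X] using P.chartVal_mem st v
      have h1 := Ribet.varIdeal_le_maximalIdeal
        (hvar _ ((mem_varIdeal_iff _).mp (hle (Deform.sub_C_constantCoeff_mem f))))
      have h2 := Ideal.add_mem _ h1 (Ribet.C_mem_maximalIdeal hf)
      rwa [map_sub, map_sub, show P.chartHom st (C (constantCoeff f)) = C (constantCoeff f) from
        (P.chartHom st).commutes _, show globalProj (σ := σ) (C (constantCoeff f)) =
          C (constantCoeff f) from (globalProj (σ := σ)).commutes _, sub_add_cancel] at h2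
    let G : Fin σ.r' → MvPowerSeries (Fin σ.r) O := fun i =>
      globalProj (P.chartHom st (w.psi (Sum.inl (Sum.inl i))))
    have hG' : ∀ i, G i ∈ maximalIdeal (MvPowerSeries (Fin σ.r) O) :=
      fun i => hvar' _ (w.psi_mem _)
    let γ : MvPowerSeries (Fin σ.r') O →ₐ[O] MvPowerSeries (Fin σ.r) O :=
      Deform.pev (maximalIdeal (MvPowerSeries (Fin σ.r) O)) G hG'
    let ζv : σ.LocVar ⊕ σ.FVar → MvPowerSeries (Fin σ.r') O :=
      Sum.elim (fun _ => 0) (Sum.elim X fun _ => 0)
    have hζv : ∀ v, ζv v ∈ Deform.varIdeal (Fin σ.r') O := by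
      rintro (v | v | v) <;> simp [ζv, Shape.X_mem_varIdeal']
    let ζ : σ.OthRing O →ₐ[O] MvPowerSeries (Fin σ.r') O :=
      Deform.pev (Deform.varIdeal (Fin σ.r') O) ζv hζv
    have hoth : ∀ v, σ.othIncl (X v : σ.OthRing O) = X (σ.othVar v) := fun v => Deform.pev_X _ _ _ _
    have e1 : Ψ.comp σ.othIncl = γ.comp ζ := by
      have hval : ∀ v, Ψ (X (σ.othVar v)) = γ (ζv v) := by
        rintro (⟨a, b, i, j⟩ | i | ⟨⟩)
        · simp [ζv, Shape.othVar, hloc]
        · simp [ζv, γ, Deform.pev_X, G, Ψ, bigChart, Shape.othVar, substMain_X, substVal]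
        · simp [ζv, Ψ, bigChart, Shape.othVar, substMain_X, substVal, w.psi_u]
      refine Deform.algHom_ext_of_X (maximalIdeal (MvPowerSeries (Fin σ.r) O)) _ _
        (fun v => ?_) (fun v => ?_)
      · rw [AlgHom.comp_apply, hoth, hval]
        rcases v with v | i | v <;> simp [ζv, γ, Deform.pev_X, hG']
      · simp only [AlgHom.comp_apply, hoth, hval, ζ, Deform.pev_X]
    let H : Fin σ.r → MvPowerSeries (Fin σ.r') O := fun j => ζ (w.phi (Sum.inl j))
    have hH : ∀ j, γ (H j) = X j := by
      intro j
      have h1 : Ψ (X (Sum.inr (Sum.map id Sum.inr (Sum.inl j))) - σ.othIncl (w.phi (Sum.inl j))) =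
          0 := h _ ⟨Sum.inl j, rfl⟩
      have h2 := DFunLike.congr_fun e1 (w.phi (Sum.inl j))
      rw [map_sub, sub_eq_zero] at h1
      rw [show γ (H j) = Ψ (σ.othIncl (w.phi (Sum.inl j))) from h2.symm, ← h1]
      simp [Ψ, bigChart, substMain_X, substVal, Places.chartHom_X, Places.chartVal, hG]
    have hH0 : ∀ j, H j ∈ maximalIdeal (MvPowerSeries (Fin σ.r') O) := by
      intro j
      have hle : Deform.varIdeal (σ.LocVar ⊕ σ.FVar) O ≤
          (Deform.varIdeal (Fin σ.r') O).comap ζ := by
        rw [Deform.varIdeal, Ideal.span_le]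
        rintro _ ⟨v, rfl⟩
        simpa [ζ, Deform.pev_X] using hζv v
      have h2 := Ideal.add_mem _
        (Ribet.varIdeal_le_maximalIdeal (hle (Deform.sub_C_constantCoeff_mem (w.phi (Sum.inl j)))))
        (Ribet.C_mem_maximalIdeal
          (show constantCoeff (w.phi (Sum.inl j)) ∈ maximalIdeal O from w.phi_mem _))
      rwa [map_sub, show ζ (C (constantCoeff (w.phi (Sum.inl j)))) =
        C (constantCoeff (w.phi (Sum.inl j))) from ζ.commutes _, sub_add_cancel] at h2
    have hsurj : Function.Surjective γ := by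
      intro f
      refine ⟨Deform.pev (maximalIdeal (MvPowerSeries (Fin σ.r') O)) H hH0 f, ?_⟩
      have e : γ.comp (Deform.pev (maximalIdeal (MvPowerSeries (Fin σ.r') O)) H hH0) =
          AlgHom.id O _ :=
        Deform.algHom_ext_of_X (maximalIdeal (MvPowerSeries (Fin σ.r) O)) _ _
          (fun v => by
            rw [AlgHom.comp_apply, Deform.pev_X, hH]
            exact Ribet.X_mem_maximalIdeal v)
          fun v => by simp [Deform.pev_X, hH]
      exact DFunLike.congr_fun e f
    have hd := ((Dim.le_ringKrullDim_mvPowerSeries O (Fin σ.r)).trans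
      (ringKrullDim_le_of_surjective γ.toRingHom hsurj)).trans
      (Dim.ringKrullDim_mvPowerSeries_le O (Fin σ.r'))
    simp only [Fintype.card_fin] at hd
    norm_cast at hd
    have := hcount hflat
    omega
  next => exact ⟨1, rfl, by simp⟩

end Worlds

end Fermat.Agent.Lifting
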