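import Fermat.Agent.Ribet.ThirdLimit
import Fermat.Agent.Ribet.ThirdComplete

/-!
# Dimensions

Upper bounds by parameters, and the dimension of power series rings over a discrete valuation
ring.
-/

set_option autoImplicit false

noncomputable section

namespace Fermat.Agent.Lifting.Dim

open IsLocalRing MvPowerSeries

/-- If a finite set `s` has the maximal ideal as only prime above it, `dim ≤ #s`. -/
lemma ringKrullDim_le_card {R : Type} [CommRing R] [IsLocalRing R] [IsNoetherianRing R]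
    (s : Finset R) (hs : ∀ x ∈ s, x ∈ maximalIdeal R)
    (h : ∀ P : Ideal R, P.IsPrime → (∀ x ∈ s, x ∈ P) → maximalIdeal R ≤ P) :
    ringKrullDim R ≤ (s.card : ℕ) := by
  have hmin : maximalIdeal R ∈ (Ideal.span (s : Set R)).minimalPrimes :=
    ⟨⟨inferInstance, Ideal.span_le.mpr hs⟩, fun P hP _ =>
      h P hP.1 fun x hx => hP.2 (Ideal.subset_span hx)⟩
  rw [← IsLocalRing.maximalIdeal_height_eq_ringKrullDim]
  exact WithBot.coe_le_coe.mpr (Ideal.height_le_card_of_mem_minimalPrimes_span_finset hmin)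

/-- `dim (R / c) ≤ #s` if every prime containing `c` and `s` contains the maximal ideal. -/
lemma ringKrullDim_quotient_le_card {R : Type} [CommRing R] [IsLocalRing R] [IsNoetherianRing R]
    (c : Ideal R) [c.IsPrime] {ι : Type} [Fintype ι] (f : ι → R)
    (hf : ∀ i, f i ∈ maximalIdeal R)
    (h : ∀ P : Ideal R, P.IsPrime → c ≤ P → (∀ i, f i ∈ P) → maximalIdeal R ≤ P) :
    ringKrullDim (R ⧸ c) ≤ (Fintype.card ι : ℕ) := by
  classical
  have : IsLocalRing (R ⧸ c) := .of_surjective' _ Ideal.Quotient.mk_surjective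
  have hmap : maximalIdeal (R ⧸ c) = (maximalIdeal R).map (Ideal.Quotient.mk c) :=
    (IsLocalRing.map_maximalIdeal_of_surjective _ Ideal.Quotient.mk_surjective).symm
  refine (ringKrullDim_le_card (Finset.univ.image fun i => Ideal.Quotient.mk c (f i))
    ?_ ?_).trans (Nat.cast_le.mpr Finset.card_image_le)
  · intro x hx
    simp only [Finset.mem_image] at hx
    obtain ⟨i, -, rfl⟩ := hx
    rw [hmap]
    exact Ideal.mem_map_of_mem _ (hf i)
  · intro P hP hs
    rw [hmap, Ideal.map_le_iff_le_comap]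
    refine h _ (Ideal.comap_isPrime _ _) ?_ fun i => hs _ (by simp)
    intro x hx
    rw [Ideal.mem_comap, Ideal.Quotient.eq_zero_iff_mem.mpr hx]
    exact zero_mem _

/-- A prime above `c` with no smaller dimension is `c`. -/
lemma eq_of_le_of_dim {R : Type} [CommRing R] {c q : Ideal R} [c.IsPrime] [q.IsPrime] {D : ℕ}
    (hcq : c ≤ q) (hc : ringKrullDim (R ⧸ c) ≤ (D : ℕ))
    (hq : (D : WithBot ℕ∞) ≤ ringKrullDim (R ⧸ q)) : c = q := by
  by_contra hne
  obtain ⟨x, hxq, hxc⟩ := SetLike.exists_of_lt (lt_of_le_of_ne hcq hne)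
  have h0 : Ideal.Quotient.mk c x ∈ nonZeroDivisors (R ⧸ c) :=
    mem_nonZeroDivisors_of_ne_zero fun h => hxc (Ideal.Quotient.eq_zero_iff_mem.mp h)
  have h1 := ringKrullDim_quotient_succ_le_of_nonZeroDivisor h0
  have h2 : ringKrullDim (R ⧸ q) ≤
      ringKrullDim ((R ⧸ c) ⧸ Ideal.span {Ideal.Quotient.mk c x}) :=
    ringKrullDim_le_of_surjective
      (Ideal.Quotient.lift _ (Ideal.Quotient.factor hcq) fun y hy => by
        obtain ⟨z, rfl⟩ := Ideal.mem_span_singleton'.mp hy
        rw [map_mul, Ideal.Quotient.factor_mk, Ideal.Quotient.eq_zero_iff_mem.mpr hxq, mul_zero])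
      fun y => by
        obtain ⟨z, rfl⟩ := Ideal.Quotient.mk_surjective y
        exact ⟨Ideal.Quotient.mk _ (Ideal.Quotient.mk c z), by simp⟩
  have h3 : (D : WithBot ℕ∞) + 1 ≤ (D : ℕ) :=
    ((add_le_add_left (hq.trans h2) 1).trans h1).trans hc
  norm_cast at h3
  have h4 : ((D + 1 : ℕ) : ℕ∞) ≤ (D : ℕ∞) := by exact_mod_cast h3
  have := ENat.natCast_le_natCast.mp h4
  omega

variable (O : Type) [CommRing O] [IsDomain O] [IsDiscreteValuationRing O]

/-- `1 + #σ ≤ dim O[[σ]]`. -/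
lemma le_ringKrullDim_mvPowerSeries (ι : Type) [Fintype ι] :
    ((1 + Fintype.card ι : ℕ) : WithBot ℕ∞) ≤ ringKrullDim (MvPowerSeries ι O) := by
  have h := Ribet.ringKrullDim_add_le_mvPowerSeries (R := O) (Fintype.card ι)
  rw [IsDiscreteValuationRing.ringKrullDim_eq_one] at h
  rw [ringKrullDim_eq_of_ringEquiv
    (MvPowerSeries.renameEquiv (R := O) (Fintype.equivFin ι)).toRingEquiv, Nat.cast_add,
    Nat.cast_one]
  exact h

/-- `dim O[[σ]] ≤ 1 + #σ`. -/
lemma ringKrullDim_mvPowerSeries_le (ι : Type) [Fintype ι] :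
    ringKrullDim (MvPowerSeries ι O) ≤ (1 + Fintype.card ι : ℕ) := by
  classical
  obtain ⟨ϖ, hϖ⟩ := IsDiscreteValuationRing.exists_irreducible O
  let f : Option ι → MvPowerSeries ι O := fun o => o.elim (C ϖ) X
  refine (ringKrullDim_le_card (Finset.univ.image f) ?_ ?_).trans (Nat.cast_le.mpr ?_)
  · intro x hx
    simp only [Finset.mem_image] at hx
    obtain ⟨_ | i, -, rfl⟩ := hx
    · exact Ribet.C_mem_maximalIdeal ((IsLocalRing.mem_maximalIdeal _).mpr hϖ.not_isUnit)
    · exact Ribet.X_mem_maximalIdeal i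
  · intro P _ hs
    rw [Ribet.maximalIdeal_mvPowerSeries, hϖ.maximalIdeal_eq, sup_le_iff, Ideal.map_span,
      Set.image_singleton, Ideal.span_singleton_le_iff_mem, Deform.varIdeal, Ideal.span_le]
    refine ⟨hs _ (Finset.mem_image.mpr ⟨none, Finset.mem_univ _, rfl⟩), ?_⟩
    rintro _ ⟨i, rfl⟩
    exact hs _ (Finset.mem_image.mpr ⟨some i, Finset.mem_univ _, rfl⟩)
  · refine Finset.card_image_le.trans ?_
    simp [add_comm]

end Fermat.Agent.Lifting.Dim
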