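import Fermat.Agent.Lifting.AEngineStep

/-!
# The eigenvector at the bottom of the last module
-/

set_option autoImplicit false

noncomputable section

namespace Fermat.Agent.Lifting

open MvPowerSeries IsLocalRing
open scoped IsMulCommutative

namespace Engine

variable {O : Type} [CommRing O] [IsDomain O] [IsDiscreteValuationRing O]
  [IsAdicComplete (maximalIdeal O) O] [Finite (ResidueField O)] [CharZero O]
  {σ : Shape} {F : PatchFixed O σ} (L : PatchLimit F)

/-- Coordinates of the target in the main world. -/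
def wMain : σ.LocVar ⊕ Fin σ.r → O := Sum.elim F.wLoc L.wGlob

/-- The point of the target in the big ring. -/
def wHom (hF : F.Valid) : σ.Big O →ₐ[O] O :=
  (Deform.pev (maximalIdeal O) (wMain L) (fun v => by
    rcases v with v | v
    · exact hF.wLoc_mem v
    · exact L.wGlob_mem v)).comp L.worlds.substMain

lemma wHom_mainVar (hF : F.Valid) (v : σ.LocVar ⊕ Fin σ.r) :
    wHom L hF (X (σ.mainVar v)) = wMain L v := by
  rcases v with v | v <;>
    simp [wHom, Shape.mainVar, Worlds.substMain_X, Worlds.substVal, Deform.pev_X]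

/-- The chart of all places contains the target. -/
lemma chartIdeal_le_wHom (h2 : IsUnit (2 : O)) (hF : F.Valid) :
    L.worlds.chartIdeal F.places (stUpto (Fin.last σ.k)) ≤ RingHom.ker (wHom L hF) := by
  refine L.worlds.chartIdeal_le_ker F.places _ h2 (wHom L hF) (fun x y h => h)
    (fun x hx => hx) (fun v => DLimit.algHom_mem_maximalIdeal
      (DLimit.residue_comp_self_surjective O) (wHom L hF) (Ribet.X_mem_maximalIdeal v))
    (fun v => by simp [wHom, Worlds.substMain_mainGen]) fun a => ?_
  have hΦ : F.places.frobAt (fun v => wHom L hF (X (σ.mainVar v))) a =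
      F.places.centre a + Matrix.of fun i j => F.wLoc (a, true, i, j) := by
    ext i j
    simp [Places.frobAt, wHom_mainVar, wMain]
  have hN : F.places.monoAt (fun v => wHom L hF (X (σ.mainVar v))) a =
      Matrix.of fun i j => F.wLoc (a, false, i, j) := by
    ext i j
    simp [Places.monoAt, wHom_mainVar, wMain]
  rw [hΦ, hN]
  refine ⟨hF.wLoc_det a, fun _ => ⟨hF.wLoc_trace a, ?_⟩, fun h => ?_⟩
  · obtain ⟨-, h1, h3⟩ := hF.wLoc_mono a
    rw [h1, h3, smul_smul, mul_comm]
  · have hlt : (a : ℕ) < σ.k := a.isLt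
    simp [stUpto, hlt] at h

include L in
/-- The support argument over `S`. -/
theorem exists_eigenvector (h2 : IsUnit (2 : O)) (hF : F.Valid) :
    ∃ v : Fin (F.rank (Fin.last σ.k)) → O, v ≠ 0 ∧
      ∀ l, (F.hecke0 l).mulVec v = F.eigen l • v := by
  classical
  set i := Fin.last σ.k with hi
  set n := Fin (F.rank i)
  set w := L.worlds
  set c := w.chartIdeal F.places (stUpto i)
  set A : Subalgebra (σ.Sring O) (Matrix n n (σ.Sring O)) :=
    Algebra.adjoin (σ.Sring O) (Set.range (L.act i) ∪ Set.range L.hecke) with hA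
  have hAc : IsMulCommutative A := Algebra.isMulCommutative_adjoin _ (by
    rintro _ (⟨f, rfl⟩ | ⟨l, rfl⟩) _ (⟨g, rfl⟩ | ⟨m, rfl⟩)
    · rw [← map_mul, ← map_mul, mul_comm]
    · exact ((L.hecke_act m f).symm).eq
    · exact (L.hecke_act l g).eq
    · exact (L.hecke_comm l m).eq)
  let ι : σ.Big O →+* A := (L.act i).toRingHom.codRestrict A.toSubsemiring
    fun f => Algebra.subset_adjoin (Or.inl ⟨f, rfl⟩)
  let _ : Algebra (σ.Big O) A := ι.toAlgebra
  let T : F.L → A := fun l => ⟨L.hecke l, Algebra.subset_adjoin (Or.inr ⟨l, rfl⟩)⟩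
  have : Module.Finite (σ.Big O) A :=
    DFinite.finite_patchAlgebra L i A.val.toRingHom Subtype.val_injective fun f => rfl
  have : Algebra.IsIntegral (σ.Big O) A := Algebra.IsIntegral.of_finite _ _
  -- a prime over the chart
  obtain ⟨Qc, -, hQcp, hQc⟩ := Ideal.exists_ideal_over_prime_of_isIntegral c (⊥ : Ideal A)
    (fun f hf => ker_act_le L i h2 hF
      (RingHom.mem_ker.mpr (congrArg Subtype.val (Ideal.mem_bot.mp (Ideal.mem_comap.mp hf)))))
  -- a prime over the target
  set φW := wHom L hF with hφW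
  have : (RingHom.ker φW).IsPrime := RingHom.ker_isPrime _
  obtain ⟨Q, hQcQ, hQp, hQ⟩ := Ideal.exists_ideal_over_prime_of_isIntegral (RingHom.ker φW) Qc
    (hQc.trans_le (chartIdeal_le_wHom L h2 hF))
  have hQiff : ∀ f, ι f ∈ Q ↔ φW f = 0 := fun f => by
    show f ∈ Q.comap (algebraMap (σ.Big O) A) ↔ _
    rw [hQ, RingHom.mem_ker]
  have hQciff : ∀ f, ι f ∈ Qc ↔ f ∈ c := fun f => by
    show f ∈ Qc.comap (algebraMap (σ.Big O) A) ↔ _
    rw [hQc]
  have hιC : ∀ x : O, ι (C x) = algebraMap (σ.Sring O) A (C x) := fun x => by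
    refine Subtype.ext ?_
    show L.act i (algebraMap O (σ.Big O) x) = algebraMap (σ.Sring O) _ (algebraMap O (σ.Sring O) x)
    rw [AlgHom.commutes]
    exact IsScalarTower.algebraMap_apply O (σ.Sring O) _ x
  have hm : ∀ v, wMain L v ∈ maximalIdeal O := fun v => by
    rcases v with v | v
    · exact hF.wLoc_mem v
    · exact L.wGlob_mem v
  obtain ⟨hpsi, htrace⟩ := L.wPoint hm
  -- the variables of `S` are in the prime
  have hcopy : ∀ j : σ.SVar, ι (X (Sum.inr (Sum.inr (Sum.inr j)))) ∈ Q := fun j => by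
    rw [hQiff]
    have h := Ideal.mem_bot.mp (hpsi j)
    simpa [hφW, wHom, Worlds.substMain_X, Worlds.substVal, wMain] using h
  have hX : ∀ j : σ.SVar, algebraMap (σ.Sring O) A (X j) ∈ Q := by
    rintro (j | v)
    · set y : A := algebraMap (σ.Sring O) A (X (Sum.inl j))
      set t : A := ι (X (Sum.inr (Sum.inr (Sum.inr (Sum.inl j)))))
      have h : ((1 + y) ^ 2 - (1 + 1 + t) * (1 + y) + 1) ^ F.E = 0 := by
        refine Subtype.ext ?_
        have h := L.diamond_rel i j
        simp only [← one_add_one_eq_two, RingHom.id_apply, map_add, map_one] at h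
        simpa [y, t, ι, -one_add_one_eq_two] using h
      have h' := hQp.mem_of_pow_mem F.E (h.symm ▸ Q.zero_mem)
      have hy2 : y * y ∈ Q := by
        have h'' := Q.add_mem h' (Q.mul_mem_right (1 + y) (hcopy (Sum.inl j)))
        convert h'' using 1
        ring
      exact (hQp.mem_or_mem hy2).elim id id
    · set y : A := algebraMap (σ.Sring O) A (X (Sum.inr v))
      set t : A := ι (X (Sum.inr (Sum.inr (Sum.inr (Sum.inr v)))))
      have h : (t - y) ^ F.E = 0 := by
        refine Subtype.ext ?_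
        simpa [y, t, ι] using L.gauge_rel i v
      have h' := hQp.mem_of_pow_mem F.E (h.symm ▸ Q.zero_mem)
      have h'' := Q.sub_mem (hcopy (Sum.inr v)) h'
      simpa [y, t] using h''
  have hS : ∀ s : σ.Sring O, constantCoeff s = 0 → algebraMap (σ.Sring O) A s ∈ Q := by
    intro s hs
    have hle : Deform.varIdeal σ.SVar O ≤ Q.comap (algebraMap (σ.Sring O) A) := by
      rw [Deform.varIdeal, Ideal.span_le]
      rintro _ ⟨j, rfl⟩
      exact hX j
    exact hle ((mem_varIdeal_iff _).mpr hs)
  -- reduction to the bottom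
  let cc : σ.Sring O →ₐ[O] O :=
    { (constantCoeff : σ.Sring O →+* O) with
      commutes' := fun x => by simp [MvPowerSeries.algebraMap_apply] }
  let ψ : A →ₐ[O] Matrix n n O := (cc.mapMatrix).comp (A.val.restrictScalars O)
  have hkerψ : RingHom.ker ψ ≤ Q := by
    intro a ha
    set χ := (a : Matrix n n (σ.Sring O)).charpoly with hχ
    have h0 : Polynomial.aeval a χ = 0 := by
      refine Subtype.ext ?_
      rw [← Subalgebra.val_apply, ← Polynomial.aeval_algHom_apply]
      exact Matrix.aeval_self_charpoly _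
    have hdeg : χ.natDegree = F.rank i := by
      rw [hχ, Matrix.charpoly_natDegree_eq_dim, Fintype.card_fin]
    have hmap : χ.map constantCoeff = Polynomial.X ^ F.rank i := by
      rw [hχ, ← Matrix.charpoly_map,
        show (a : Matrix n n (σ.Sring O)).map (constantCoeff) = 0 from ha,
        Matrix.charpoly_zero, Fintype.card_fin]
    rw [Polynomial.aeval_eq_sum_range, Finset.sum_range_succ, hdeg] at h0
    refine hQp.mem_of_pow_mem (F.rank i) ?_
    have hlead : χ.coeff (F.rank i) = 1 := by
      rw [← hdeg]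
      exact (Matrix.charpoly_monic _).coeff_natDegree
    rw [hlead, one_smul] at h0
    rw [eq_neg_of_add_eq_zero_right h0]
    refine Q.neg_mem (Q.sum_mem fun j hj => ?_)
    rw [Algebra.smul_def]
    refine Q.mul_mem_right _ (hS _ ?_)
    have h := congrArg (fun p => Polynomial.coeff p j) hmap
    simpa [Polynomial.coeff_map, Polynomial.coeff_X_pow,
      (Finset.mem_range.mp hj).ne] using h
  set A0 := ψ.range
  have : IsMulCommutative A0 := ⟨⟨by
    rintro ⟨_, a, rfl⟩ ⟨_, b, rfl⟩
    refine Subtype.ext ?_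
    show ψ a * ψ b = ψ b * ψ a
    rw [← map_mul, ← map_mul, mul_comm]⟩⟩
  set p₀ : Ideal A0 := Q.map ψ.rangeRestrict.toRingHom
  have hsurj : Function.Surjective ψ.rangeRestrict.toRingHom := ψ.rangeRestrict_surjective
  have hker' : RingHom.ker ψ.rangeRestrict.toRingHom ≤ Q := fun a ha =>
    hkerψ (congrArg Subtype.val (RingHom.mem_ker.mp ha))
  have : p₀.IsPrime := Ideal.map_isPrime_of_surjective hsurj hker'
  have hp₀ : ∀ a, ψ.rangeRestrict a ∈ p₀ ↔ a ∈ Q := fun a => by
    refine ⟨fun h => ?_, fun h => Ideal.mem_map_of_mem _ h⟩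
    obtain ⟨b, hb, hab⟩ := (Ideal.mem_map_iff_of_surjective _ hsurj).mp h
    have := Q.add_mem hb (hker' (show a - b ∈ RingHom.ker ψ.rangeRestrict.toRingHom by
      rw [RingHom.mem_ker, map_sub, sub_eq_zero]; exact hab.symm))
    rwa [add_sub_cancel] at this
  have hp₀O : p₀.comap (algebraMap O A0) = ⊥ := by
    refine le_bot_iff.mp fun x hx => ?_
    rw [Ideal.mem_comap, ← ψ.rangeRestrict.commutes, hp₀,
      IsScalarTower.algebraMap_apply O (σ.Sring O) A] at hx
    change algebraMap (σ.Sring O) A (C x) ∈ Q at hx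
    rw [← hιC, hQiff] at hx
    rw [Ideal.mem_bot, ← hx]
    exact (φW.commutes x).symm
  obtain ⟨v, hv, hann⟩ := Support.exists_vector_of_prime A0 p₀ hp₀O
  refine ⟨v, hv, fun l => ?_⟩
  -- the eigenvalue
  obtain ⟨g, hg, hgc⟩ : ∃ g ∈ w.othGen, g ∉ c := by
    obtain ⟨g, hg, hg0⟩ := w.exists_othGen_proj_ne_zero F.places (stUpto i) hF.count
    refine ⟨g, hg, fun h => hg0 ?_⟩
    rw [show w.bigChart F.places (stUpto i) g = 0 from h, map_zero]
  have h1 : ι (L.trace l) - T l ∈ Q := by
    refine hQcQ ?_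
    have h : ((ι (L.trace l) - T l) * ι g) ^ F.E = 0 := by
      refine Subtype.ext ?_
      simpa [ι, T] using L.trace_rel l g hg
    have h' := hQcp.mem_of_pow_mem F.E (h.symm ▸ Qc.zero_mem)
    exact (hQcp.mem_or_mem h').resolve_right fun h => hgc ((hQciff g).mp h)
  have h2' : ι (L.trace l - C (F.eigen l)) ∈ Q := by
    rw [hQiff]
    obtain ⟨f, hf, hfe⟩ := htrace l
    have hle : Ideal.span (Set.range w.mainGen) ≤ RingHom.ker φW := by
      rw [Ideal.span_le]
      rintro _ ⟨u, rfl⟩
      simp [hφW, wHom, show L.worlds.substMain (w.mainGen u) = 0 from w.substMain_mainGen u]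
    have hf' := hle hf
    rw [RingHom.mem_ker, map_sub, sub_eq_zero] at hf'
    rw [map_sub, hf', show φW (C (F.eigen l)) = F.eigen l from φW.commutes _]
    have : φW (σ.mainIncl f) = Deform.pev (maximalIdeal O) (wMain L) hm f := by
      show Deform.pev (maximalIdeal O) (wMain L) hm (w.substMain (σ.mainIncl f)) = _
      rw [w.substMain_mainIncl]
    rw [this]
    exact Ideal.mem_bot.mp hfe
  have h3 : T l - algebraMap O A (F.eigen l) ∈ Q := by
    have h := Q.sub_mem h2' h1
    rw [map_sub, hιC, show (C (F.eigen l) : σ.Sring O) = algebraMap O _ (F.eigen l) from rfl,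
      ← IsScalarTower.algebraMap_apply O (σ.Sring O) A] at h
    convert h using 1
    ring
  have hψT : ψ (T l) = F.hecke0 l := by
    refine Matrix.ext fun a b => ?_
    obtain ⟨s, hs, hs0⟩ := L.hecke_aug l a b
    show constantCoeff (L.hecke l a b) = _
    rw [← hs]
    exact sub_eq_zero.mp (Ideal.mem_bot.mp hs0)
  have h4 := hann _ ((hp₀ _).mpr h3)
  simp only [map_sub, AlgHom.commutes, Subalgebra.coe_sub, show ∀ b, ((ψ.rangeRestrict b : A0) : Matrix n n O) = ψ b from fun b => rfl,
    Subalgebra.coe_algebraMap, hψT, Matrix.sub_mulVec] at h4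
  rw [sub_eq_zero] at h4
  rw [h4, Algebra.algebraMap_eq_smul_one, Matrix.smul_mulVec, Matrix.one_mulVec]

end Engine

end Fermat.Agent.Lifting
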