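import Fermat.Agent.Lifting.DLimit
import Fermat.Agent.Ribet.ThirdComplete

/-!
# Patching over power series rings, and alignment of ranks
-/

set_option autoImplicit false

noncomputable section

namespace Fermat.Agent.Lifting.DLimit

open IsLocalRing Filter MvPowerSeries

/-- Power series rings over a local ring with finite residue field have finite residue field. -/
theorem finite_residueField_mvPowerSeries (σ : Type) [Finite σ] (O : Type) [CommRing O]
    [IsLocalRing O] [Finite (ResidueField O)] : Finite (ResidueField (MvPowerSeries σ O)) := by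
  have : Finite (O ⧸ maximalIdeal O) := ‹Finite (ResidueField O)›
  refine Finite.of_surjective
    (Ideal.Quotient.lift (maximalIdeal O) ((residue (MvPowerSeries σ O)).comp C) fun b hb ↦
      Ideal.Quotient.eq_zero_iff_mem.mpr (Ribet.C_mem_maximalIdeal hb) :
      ResidueField O →+* ResidueField (MvPowerSeries σ O)) ?_
  intro x
  obtain ⟨f, rfl⟩ := residue_surjective x
  refine ⟨residue O (constantCoeff f), ?_⟩
  refine Ideal.Quotient.eq.mpr ?_
  simp [isUnit_iff_constantCoeff]

variable {S : Type*} [CommRing S] [IsLocalRing S]

/-- Re-index a matrix of variable size into one of size `a × b`, or `0` if the sizes differ. -/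
def resize {a' b' : ℕ} (a b : ℕ) {T : Type*} [Zero T] (A : Matrix (Fin a') (Fin b') T) :
    Matrix (Fin a) (Fin b) T :=
  if h : a' = a ∧ b' = b then A.submatrix (Fin.cast h.1.symm) (Fin.cast h.2.symm) else 0

@[simp] theorem resize_self {a b : ℕ} {T : Type*} [Zero T] (A : Matrix (Fin a) (Fin b) T) :
    resize a b A = A := by
  rw [resize, dif_pos ⟨rfl, rfl⟩]
  rfl

/-- The ring homomorphism re-indexing square matrices along an equality of sizes. -/
def resizeHom {a' a : ℕ} (h : a' = a) (T : Type*) [Semiring T] :
    Matrix (Fin a') (Fin a') T →+* Matrix (Fin a) (Fin a) T :=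
  (Matrix.reindexRingEquiv T (finCongr h)).toRingHom

theorem resizeHom_apply {a' a : ℕ} (h : a' = a) (T : Type*) [Semiring T]
    (A : Matrix (Fin a') (Fin a') T) : resizeHom h T A = resize a a A := by
  subst h
  rw [resize_self]
  rfl

theorem resize_mul {a' b' c' a b c : ℕ} {T : Type*} [Semiring T] (ha : a' = a) (hb : b' = b)
    (hc : c' = c) (A : Matrix (Fin a') (Fin b') T) (B : Matrix (Fin b') (Fin c') T) :
    resize a c (A * B) = resize a b A * resize b c B := by
  subst ha hb hc
  simp

theorem resize_one {a' a : ℕ} {T : Type*} [Semiring T] (ha : a' = a) :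
    resize a a (1 : Matrix (Fin a') (Fin a') T) = 1 := by
  subst ha
  simp

section Instances

variable (O : Type) [CommRing O] [IsDomain O] [IsDiscreteValuationRing O]
  [IsAdicComplete (maximalIdeal O) O] [Finite (ResidueField O)] (r : ℕ)

example (U : Ultrafilter ℕ) (hU : (U : Filter ℕ) ≤ atTop) :
    (∀ n, Lvl (MvPowerSeries (Fin r) O) n) →+* MvPowerSeries (Fin r) O :=
  have := finite_residueField_mvPowerSeries (Fin r) O
  patchLim U hU

end Instances

end Fermat.Agent.Lifting.DLimit
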