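import Fermat.Agent.Lifting.DLimit
import Fermat.Agent.Lifting.DPowerSeries

/-!
# Tools for patching limits: limits of sequences, local homomorphisms, uniform continuity
-/

set_option autoImplicit false

noncomputable section

namespace Fermat.Agent.Lifting.DLimit

open IsLocalRing Filter

section Seq

variable {S : Type*} [CommRing S] [IsLocalRing S] [IsNoetherianRing S]
  [IsAdicComplete (maximalIdeal S) S] [Finite (ResidueField S)]
variable (U : Ultrafilter ℕ)

theorem seqLim_congr {y y' : ℕ → S}
    (h : ∀ k, ∀ᶠ n in (U : Filter ℕ), y n - y' n ∈ maximalIdeal S ^ k) :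
    seqLim U y = seqLim U y' :=
  seqLim_eq U fun k ↦ by
    filter_upwards [h k, seqLim_spec U y' k] with n h1 h2
    simpa using Ideal.add_mem _ h1 h2

/-- Limits along `U` in `S`, as a ring homomorphism. -/
def seqLimHom : (ℕ → S) →+* S where
  toFun := seqLim U
  map_one' := seqLim_eq U fun k ↦ .of_forall fun _ ↦ by simp
  map_zero' := seqLim_eq U fun k ↦ .of_forall fun _ ↦ by simp
  map_add' a b := seqLim_eq U fun k ↦ by
    filter_upwards [seqLim_spec U a k, seqLim_spec U b k] with n ha hb
    simpa [sub_add_sub_comm] using Ideal.add_mem _ ha hb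
  map_mul' a b := seqLim_eq U fun k ↦ by
    filter_upwards [seqLim_spec U a k, seqLim_spec U b k] with n ha hb
    have := Ideal.add_mem _ (Ideal.mul_mem_right (b n) _ ha) (Ideal.mul_mem_left _ (seqLim U a) hb)
    convert! this using 1
    simp only [Pi.mul_apply]
    ring

@[simp] theorem seqLimHom_apply (y : ℕ → S) : seqLimHom U y = seqLim U y := rfl

theorem seqLim_const (s : S) : seqLim U (fun _ ↦ s) = s :=
  seqLim_eq U fun k ↦ .of_forall fun _ ↦ by simp

theorem seqLim_sub (a b : ℕ → S) :
    seqLim U (fun n ↦ a n - b n) = seqLim U a - seqLim U b :=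
  map_sub (seqLimHom U) a b

/-- Limits commute with homomorphisms compatible with the maximal ideals. -/
theorem seqLim_map {S' : Type*} [CommRing S'] [IsLocalRing S'] [IsNoetherianRing S']
    [IsAdicComplete (maximalIdeal S') S'] [Finite (ResidueField S')]
    {Φ : Type*} [FunLike Φ S S'] [RingHomClass Φ S S'] (f : Φ)
    (hf : ∀ s ∈ maximalIdeal S, f s ∈ maximalIdeal S') (y : ℕ → S) :
    seqLim U (fun n ↦ f (y n)) = f (seqLim U y) := by
  refine seqLim_eq U fun k ↦ (seqLim_spec U y k).mono fun n hn ↦ ?_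
  have h1 : (maximalIdeal S).map f ≤ maximalIdeal S' := Ideal.map_le_iff_le_comap.mpr hf
  have h2 := Ideal.mem_map_of_mem f hn
  rw [Ideal.map_pow, map_sub] at h2
  exact Ideal.pow_right_mono h1 k h2

theorem seqLim_mem_maximalIdeal {y : ℕ → S}
    (h : ∀ᶠ n in (U : Filter ℕ), y n ∈ maximalIdeal S) : seqLim U y ∈ maximalIdeal S := by
  obtain ⟨n, h1, h2⟩ := (h.and (seqLim_spec U y 1)).exists
  rw [pow_one] at h2
  simpa using Ideal.sub_mem _ h1 h2

variable (hU : (U : Filter ℕ) ≤ atTop)

include hU in
theorem seqLim_eq_of_sub_mem_pow {y : ℕ → S} {L : S}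
    (h : ∀ᶠ n in (U : Filter ℕ), y n - L ∈ maximalIdeal S ^ n) : seqLim U y = L :=
  seqLim_eq U fun k ↦ by
    filter_upwards [h, hU (eventually_ge_atTop k)] with n hn hk
    exact Ideal.pow_le_pow_right hk hn

theorem isUnit_patchLim {x : ∀ n, Lvl S n}
    (h : ∀ᶠ n in (U : Filter ℕ), IsUnit (x n)) : IsUnit (patchLim U hU x) := by
  classical
  let y : ∀ n, Lvl S n := fun n ↦ if hn : IsUnit (x n) then ↑hn.unit⁻¹ else 0
  refine IsUnit.of_mul_eq_one (patchLim U hU y) ?_
  rw [← map_mul, ← map_one (patchLim (S := S) U hU)]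
  refine patchLim_congr U hU (h.mono fun n hn ↦ ?_)
  simp [y, dif_pos hn, IsUnit.mul_val_inv]

end Seq

/-- An algebra map between local `O`-algebras maps the maximal ideal into the maximal ideal, if
`O` surjects onto the residue field of the target. -/
theorem algHom_mem_maximalIdeal {O A B : Type*} [CommRing O] [CommRing A] [IsLocalRing A]
    [CommRing B] [IsLocalRing B] [Algebra O A] [Algebra O B]
    (hB : Function.Surjective ((residue B).comp (algebraMap O B))) (f : A →ₐ[O] B)
    {a : A} (ha : a ∈ maximalIdeal A) : f a ∈ maximalIdeal B := by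
  let g : A →+* ResidueField B := (residue B).comp f.toRingHom
  have hsurj : Function.Surjective g := fun x ↦ by
    obtain ⟨o, rfl⟩ := hB x
    exact ⟨algebraMap O A o, by simp [g]⟩
  have hker : RingHom.ker g = maximalIdeal A :=
    IsLocalRing.eq_maximalIdeal (RingHom.ker_isMaximal_of_surjective g hsurj)
  rw [← hker, RingHom.mem_ker] at ha
  exact Ideal.Quotient.eq_zero_iff_mem.mp ha

/-- An ideal with finite quotient contains the power of the maximal ideal given by the size of
the quotient. -/
theorem pow_card_le {R : Type*} [CommRing R] [IsLocalRing R] [IsNoetherianRing R] (I : Ideal R)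
    [Finite (R ⧸ I)] {C : ℕ} (hC : Nat.card (R ⧸ I) ≤ C) : maximalIdeal R ^ C ≤ I := by
  by_contra hcon
  let T : ℕ → Set (R ⧸ I) := fun j ↦ Ideal.Quotient.mk I '' ((maximalIdeal R ^ j : Ideal R) : Set R)
  have hstep : ∀ j ≤ C, (T (j + 1)).ncard < (T j).ncard := by
    intro j hj
    refine Set.ncard_lt_ncard ⟨Set.image_mono (Ideal.pow_le_pow_right j.le_succ), fun heq ↦ ?_⟩
      (Set.toFinite _)
    refine hcon ((Ideal.pow_le_pow_right hj).trans ?_)
    refine Submodule.le_of_le_smul_of_le_jacobson_bot (I := maximalIdeal R)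
      (IsNoetherian.noetherian _) (IsLocalRing.jacobson_eq_maximalIdeal ⊥ bot_ne_top).ge ?_
    intro a ha
    obtain ⟨b, hb, hba⟩ := heq ⟨a, ha, rfl⟩
    rw [SetLike.mem_coe, pow_succ'] at hb
    exact Submodule.mem_sup.mpr ⟨a - b, Ideal.Quotient.eq.mp hba.symm, b, hb, sub_add_cancel a b⟩
  have hbound : ∀ j ≤ C + 1, (T j).ncard + j ≤ C := by
    intro j hj
    induction j with
    | zero => exact ((Set.ncard_le_card _).trans hC)
    | succ j ih =>
      have := hstep j (by omega)
      have := ih (by omega)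
      omega
  have := hbound (C + 1) le_rfl
  omega

section Uniform

variable {S : Type*} [CommRing S] [IsLocalRing S] [IsNoetherianRing S] [Finite (ResidueField S)]
variable {R : Type*} [CommRing R] [IsLocalRing R] [IsNoetherianRing R]
variable {ι : Type*} [Fintype ι] [DecidableEq ι]

/-- Actions on matrices of fixed size are uniformly continuous. -/
theorem exists_continuity_exponent (U : Ultrafilter ℕ) (hU : (U : Filter ℕ) ≤ atTop)
    (ρ : ∀ n, R →+* Matrix ι ι (Lvl S n)) :
    ∃ e, ∀ᶠ n in (U : Filter ℕ), ∀ r ∈ maximalIdeal R ^ e, ∀ i j,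
      ρ n r i j ∈ (maximalIdeal S).map (Ideal.Quotient.mk _) := by
  refine ⟨Nat.card (Matrix ι ι (ResidueField S)), ?_⟩
  filter_upwards [hU (eventually_ge_atTop 1)] with n hn r hr i j
  let π : Lvl S n →+* ResidueField S :=
    Ideal.Quotient.factor (Ideal.pow_le_self (Nat.one_le_iff_ne_zero.mp hn))
  let φ : R →+* Matrix ι ι (ResidueField S) := π.mapMatrix.comp (ρ n)
  have hfin : Finite (Matrix ι ι (ResidueField S)) :=
    inferInstanceAs (Finite (ι → ι → ResidueField S))
  have : Finite (R ⧸ RingHom.ker φ) := .of_injective _ (RingHom.kerLift_injective φ)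
  have hle := pow_card_le (RingHom.ker φ)
    (Nat.card_le_card_of_injective _ (RingHom.kerLift_injective φ)) hr
  have hij : π (ρ n r i j) = 0 := congrFun₂ hle i j
  obtain ⟨s, hs⟩ := Ideal.Quotient.mk_surjective (ρ n r i j)
  rw [← hs] at hij ⊢
  exact Ideal.mem_map_of_mem _ (Ideal.Quotient.eq_zero_iff_mem.mp hij)

end Uniform

end Fermat.Agent.Lifting.DLimit
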