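import Fermat.Agent.Lifting.APatchDefs
import Fermat.Agent.Lifting.DLimitTools
import Fermat.Prelude.Thm_IsAdicComplete_of_module_finite

/-!
# The patched modules are finite over the big ring
-/

set_option autoImplicit false

noncomputable section

namespace Fermat.Agent.Lifting.DFinite

open IsLocalRing MvPowerSeries

section General

variable {R S : Type} [CommRing R] [IsLocalRing R] [IsNoetherianRing R]
  [IsAdicComplete (maximalIdeal R) R] [Finite (ResidueField R)]
  [CommRing S] [IsLocalRing S] [IsNoetherianRing S]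
  [IsAdicComplete (maximalIdeal S) S] [Finite (ResidueField S)]
variable {ι : Type} [Fintype ι] [DecidableEq ι]

omit [IsLocalRing R] [IsNoetherianRing R] [IsAdicComplete (maximalIdeal R) R]
  [Finite (ResidueField R)] [IsLocalRing S] [IsNoetherianRing S]
  [IsAdicComplete (maximalIdeal S) S] [Finite (ResidueField S)] in
theorem entries_mem_pow' (ρ : R →+* Matrix ι ι S) (M : Ideal R) (I : Ideal S)
    (h : ∀ r ∈ M, ∀ i j, ρ r i j ∈ I) (k : ℕ) : ∀ r ∈ M ^ k, ∀ i j, ρ r i j ∈ I ^ k := by
  induction k with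
  | zero => simp
  | succ k ih =>
    intro r hr
    rw [pow_succ] at hr
    refine Submodule.mul_induction_on hr (fun a ha b hb i j ↦ ?_) (fun a b ha hb i j ↦ ?_)
    · rw [map_mul, Matrix.mul_apply, pow_succ]
      exact Ideal.sum_mem _ fun l _ ↦ Ideal.mul_mem_mul (ih a ha i l) (h b hb l j)
    · rw [map_add, Matrix.add_apply]
      exact Ideal.add_mem _ (ha i j) (hb i j)

variable (ρ : R →+* Matrix ι ι S)

/-- `ι → S` as a module over `R` through `ρ`. -/
abbrev actModule : Module R (ι → S) :=
  Module.compHom (ι → S)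
    ((Matrix.toLinAlgEquiv' : Matrix ι ι S ≃ₐ[S] Module.End S (ι → S)).toRingEquiv.toRingHom.comp ρ)

omit [Finite (ResidueField R)] in
/-- **Complete Nakayama**: if the maximal ideal of `S` is nilpotent modulo the image of the
maximal ideal of `R`, then `S ^ ι` is a finite `R`-module. -/
theorem finite_actModule (gens : Set S) (hgens : maximalIdeal S ≤ Ideal.span gens)
    (hnil : ∀ s ∈ gens, ∃ N : ℕ, ∃ r ∈ maximalIdeal R, ∃ C : Matrix ι ι S,
      algebraMap S (Matrix ι ι S) (s ^ N) = ρ r * C) :
    letI := actModule ρ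
    Module.Finite R (ι → S) := by
  classical
  let _ := actModule ρ
  have hsmul : ∀ (r : R) (x : ι → S), r • x = (ρ r).mulVec x := fun r x ↦ rfl
  let W : Submodule R (ι → S) := maximalIdeal R • ⊤
  let K : Ideal S :=
    { carrier := {s | ∀ x : ι → S, s • x ∈ W}
      zero_mem' := fun x ↦ by simp
      add_mem' := fun {a b} ha hb x ↦ by rw [add_smul]; exact W.add_mem (ha x) (hb x)
      smul_mem' := fun t s hs x ↦ by
        rw [smul_eq_mul, mul_comm, mul_smul]; exact hs (t • x) }
  have hrad : maximalIdeal S ≤ K.radical := by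
    refine hgens.trans (Ideal.span_le.mpr fun s hs ↦ ?_)
    obtain ⟨N, r, hr, C, hC⟩ := hnil s hs
    refine ⟨N, fun x ↦ ?_⟩
    have : s ^ N • x = r • C.mulVec x := by
      rw [hsmul, Matrix.mulVec_mulVec, ← hC, Algebra.algebraMap_eq_smul_one, Matrix.smul_mulVec,
        Matrix.one_mulVec]
    rw [this]
    exact Submodule.smul_mem_smul hr Submodule.mem_top
  obtain ⟨N, hN⟩ := Ideal.exists_pow_le_of_le_radical_of_fg hrad (IsNoetherian.noetherian _)
  have : Finite (S ⧸ K) := IsLocalRing.finite_quotient_iff.mpr ⟨N, hN⟩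
  have : Fintype (ι → S ⧸ K) := Fintype.ofFinite _
  let t : (ι → S ⧸ K) → ι → S := fun q c ↦ Quotient.out (q c)
  let f : ((ι → S ⧸ K) → R) →ₗ[R] (ι → S) := Fintype.linearCombination R t
  have hmod : ∀ x : ι → S, x - t (fun c ↦ Ideal.Quotient.mk K (x c)) ∈ W := by
    intro x
    rw [pi_eq_sum_univ' (x - t fun c ↦ Ideal.Quotient.mk K (x c))]
    refine Submodule.sum_mem _ fun c _ ↦ ?_
    have hc : x c - t (fun c ↦ Ideal.Quotient.mk K (x c)) c ∈ K :=
      Ideal.Quotient.eq.mp (Quotient.out_eq (Ideal.Quotient.mk K (x c))).symm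
    exact hc _
  -- the filtration is separated
  let φ : R →+* Matrix ι ι (ResidueField S) := (residue S).mapMatrix.comp ρ
  have : Finite (Matrix ι ι (ResidueField S)) :=
    inferInstanceAs (Finite (ι → ι → ResidueField S))
  have : Finite (R ⧸ RingHom.ker φ) := .of_injective _ (RingHom.kerLift_injective φ)
  obtain ⟨e, he⟩ : ∃ e, maximalIdeal R ^ e ≤ RingHom.ker φ := ⟨_, DLimit.pow_card_le _ le_rfl⟩
  have hent : ∀ r ∈ maximalIdeal R ^ e, ∀ i j, ρ r i j ∈ maximalIdeal S := fun r hr i j ↦
    Ideal.Quotient.eq_zero_iff_mem.mp (congrFun₂ (he hr) i j)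
  have : IsHausdorff (maximalIdeal R) (ι → S) := by
    refine ⟨fun x hx ↦ funext fun c ↦ DLimit.eq_of_forall_sub_mem fun k ↦ ?_⟩
    rw [Pi.zero_apply, sub_zero]
    have hxk : x ∈ (maximalIdeal R ^ (e * k) • ⊤ : Submodule R (ι → S)) := by
      simpa [SModEq.zero] using hx (e * k)
    rw [pow_mul] at hxk
    suffices ∀ c, x c ∈ maximalIdeal S ^ k from this c
    clear c hx
    refine Submodule.smul_induction_on hxk (fun r hr y _ c ↦ ?_)
      (fun a b ha hb c ↦ Ideal.add_mem _ (ha c) (hb c))
    rw [hsmul, Matrix.mulVec, dotProduct]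
    exact Ideal.sum_mem _ fun l _ ↦ Ideal.mul_mem_right _ _ (entries_mem_pow' ρ _ _ hent k r hr c l)
  have : IsAdicComplete (maximalIdeal R) ((ι → S ⧸ K) → R) :=
    IsAdicComplete.of_module_finite _ _
  refine Module.Finite.of_surjective f (surjective_of_mkQ_comp_surjective (I := maximalIdeal R) ?_)
  intro z
  obtain ⟨x, rfl⟩ := Submodule.mkQ_surjective _ z
  refine ⟨Pi.single (fun c ↦ Ideal.Quotient.mk K (x c)) 1, ?_⟩
  rw [LinearMap.comp_apply, Fintype.linearCombination_apply_single, one_smul,
    Submodule.mkQ_apply, Submodule.mkQ_apply, Submodule.Quotient.eq, ← neg_mem_iff, neg_sub]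
  exact hmod x

omit [IsLocalRing R] [IsAdicComplete (maximalIdeal R) R] [Finite (ResidueField R)]
  [IsLocalRing S] [IsNoetherianRing S] [IsAdicComplete (maximalIdeal S) S]
  [Finite (ResidueField S)] in
/-- A commutative ring acting faithfully, compatibly with `R`, is finite over `R`. -/
theorem finite_of_injective {B : Type} [CommRing B] [Algebra R B]
    (hM : letI := actModule ρ; Module.Finite R (ι → S))
    (g : B →+* Matrix ι ι S) (hg : Function.Injective g)
    (hcomp : ∀ r, g (algebraMap R B r) = ρ r) : Module.Finite R B := by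
  letI := actModule ρ
  let G : B →ₗ[R] (ι → ι → S) :=
    { toFun := fun b c l ↦ g b l c
      map_add' := fun a b ↦ by ext c l; simp
      map_smul' := fun r b ↦ by
        ext c l
        change g (r • b) l c = ((ρ r).mulVec fun l ↦ g b l c) l
        rw [Algebra.smul_def, map_mul, hcomp]
        rfl }
  refine Module.Finite.of_injective G fun a b hab ↦ hg ?_
  ext l c
  exact congrFun₂ hab c l

omit [IsLocalRing R] [IsNoetherianRing R] [IsAdicComplete (maximalIdeal R) R]
  [Finite (ResidueField R)] [IsLocalRing S] [IsNoetherianRing S]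
  [IsAdicComplete (maximalIdeal S) S] [Finite (ResidueField S)] in
/-- If `(w - a * c) ^ E = 0` then `w ^ E` is a multiple of `a`. -/
theorem exists_pow_eq_mul {w a c : Matrix ι ι S} (hwc : Commute w (a * c)) {E : ℕ}
    (h : (w - a * c) ^ E = 0) : ∃ C, w ^ E = a * C := by
  refine ⟨c * ∑ k ∈ Finset.range E, w ^ k * (w - a * c) ^ (E - 1 - k), ?_⟩
  have hcomm : Commute w (w - a * c) := (Commute.refl w).sub_right hwc
  have := hcomm.mul_geom_sum₂ E
  rw [sub_sub_cancel, h, sub_zero] at this
  rw [← mul_assoc]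
  exact this.symm

end General

variable {O : Type} [CommRing O] [IsDomain O] [IsDiscreteValuationRing O]
  [IsAdicComplete (maximalIdeal O) O] [Finite (ResidueField O)]
variable {σ : Shape} {F : PatchFixed O σ}

/-- The patched modules are finite over the big ring. -/
theorem finite_patchModule (L : PatchLimit F) (i : Fin (σ.k + 1)) :
    letI := actModule (L.act i).toRingHom
    Module.Finite (σ.Big O) (Fin (F.rank i) → σ.Sring O) := by
  have : Finite (ResidueField (σ.Sring O)) := DLimit.finite_residueField_mvPowerSeries _ _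
  have : Finite (ResidueField (σ.Big O)) := DLimit.finite_residueField_mvPowerSeries _ _
  refine finite_actModule (L.act i).toRingHom
    ((C '' (maximalIdeal O : Set O)) ∪ Set.range X) ?_ ?_
  · rw [Ribet.maximalIdeal_mvPowerSeries, Ideal.span_union, Deform.varIdeal]
    exact sup_le_sup_right (le_of_eq rfl) _
  rintro s (⟨o, ho, rfl⟩ | ⟨v, rfl⟩)
  · refine ⟨1, C o, Ribet.C_mem_maximalIdeal ho, 1, ?_⟩
    rw [pow_one, mul_one, AlgHom.toRingHom_eq_coe, RingHom.coe_coe]
    have h : (C o : σ.Big O) = algebraMap O _ o := by simp [MvPowerSeries.algebraMap_apply]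
    rw [h, AlgHom.commutes, IsScalarTower.algebraMap_apply O (σ.Sring O)
      (Matrix (Fin (F.rank i)) (Fin (F.rank i)) (σ.Sring O))]
    congr 1
  rcases v with j | v
  · have h := L.diamond_rel i j
    simp only [RingHom.id_apply, map_add, map_one, map_ofNat] at h
    set y : Matrix (Fin (F.rank i)) (Fin (F.rank i)) (σ.Sring O) :=
      algebraMap (σ.Sring O) _ (X (Sum.inl j))
    set z := L.act i (X (Sum.inr (Sum.inr (Sum.inr (Sum.inl j)))))
    have hyz : Commute y z := Algebra.commute_algebraMap_left _ z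
    have hQ : (y ^ 2 - z * (1 + y)) ^ F.E = 0 := by
      rw [← h]
      congr 1
      rw [sq (1 + y), sq y, ← one_add_one_eq_two]
      simp only [add_mul, mul_add, mul_one, one_mul]
      abel
    obtain ⟨D, hD⟩ := exists_pow_eq_mul
      ((hyz.pow_left 2).mul_right ((Commute.one_right _).add_right ((Commute.refl y).pow_left 2)))
      hQ
    refine ⟨2 * F.E, X (Sum.inr (Sum.inr (Sum.inr (Sum.inl j)))), Ribet.X_mem_maximalIdeal _, D, ?_⟩
    rw [map_pow, pow_mul]
    exact hD
  · have h := L.gauge_rel i v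
    simp only [RingHom.id_apply] at h
    set y : Matrix (Fin (F.rank i)) (Fin (F.rank i)) (σ.Sring O) :=
      algebraMap (σ.Sring O) _ (X (Sum.inr v))
    set z := L.act i (X (Sum.inr (Sum.inr (Sum.inr (Sum.inr v)))))
    have hQ : (y - z * 1) ^ F.E = 0 := by
      rw [mul_one, show y - z = -(z - y) by abel, neg_pow, h, mul_zero]
    obtain ⟨D, hD⟩ := exists_pow_eq_mul
      ((Algebra.commute_algebraMap_left _ z).mul_right (Commute.one_right _)) hQ
    refine ⟨F.E, X (Sum.inr (Sum.inr (Sum.inr (Sum.inr v)))), Ribet.X_mem_maximalIdeal _, D, ?_⟩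
    rw [map_pow]
    exact hD

/-- A commutative ring acting faithfully on a patched module compatibly with the big ring is
finite over it. -/
theorem finite_patchAlgebra (L : PatchLimit F) (i : Fin (σ.k + 1)) {B : Type} [CommRing B]
    [Algebra (σ.Big O) B]
    (g : B →+* Matrix (Fin (F.rank i)) (Fin (F.rank i)) (σ.Sring O)) (hg : Function.Injective g)
    (hcomp : ∀ f, g (algebraMap (σ.Big O) B f) = L.act i f) : Module.Finite (σ.Big O) B :=
  finite_of_injective (L.act i).toRingHom (finite_patchModule L i) g hg hcomp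

end Fermat.Agent.Lifting.DFinite
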