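import Fermat.Agent.Lifting.ADim
import Fermat.Agent.Lifting.DFinite

/-!
# Supports of modules which are free over a regular base

A commutative ring `R` acts through matrices over a domain `S`.  Minimal primes of annihilators
have the dimension of `S`; and a prime of the support containing the determinant of `tra * deg`
is in the support of the kernel of `tra`.
-/

set_option autoImplicit false

noncomputable section

namespace Fermat.Agent.Lifting.Support

open IsLocalRing
open scoped IsMulCommutative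

section Basic

variable {R S : Type} [CommRing R] [CommRing S] {n m : Type} [Fintype n] [DecidableEq n]
  (ρ : R →+* Matrix n n S)

/-- The elements killing `x`. -/
def annIdeal (x : Matrix n m S) : Ideal R where
  carrier := {f | ρ f * x = 0}
  zero_mem' := by simp
  add_mem' {a b} ha hb := by
    simp only [Set.mem_setOf_eq] at ha hb ⊢
    rw [map_add, Matrix.add_mul, ha, hb, add_zero]
  smul_mem' c f hf := by
    simp only [Set.mem_setOf_eq] at hf ⊢
    rw [smul_eq_mul, map_mul, Matrix.mul_assoc, hf, Matrix.mul_zero]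

lemma mem_annIdeal (x : Matrix n m S) (f : R) : f ∈ annIdeal ρ x ↔ ρ f * x = 0 := Iff.rfl

lemma ker_le_annIdeal (x : Matrix n m S) : RingHom.ker ρ ≤ annIdeal ρ x := fun f hf => by
  rw [mem_annIdeal, (RingHom.mem_ker).mp hf, Matrix.zero_mul]

/-- The commutative algebra generated over `S` by the action. -/
def actAlgebra : Subalgebra S (Matrix n n S) := Algebra.adjoin S (Set.range ρ)

instance commRing_actAlgebra : CommRing (actAlgebra ρ) :=
  have : IsMulCommutative (Algebra.adjoin S (Set.range ρ)) :=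
    Algebra.isMulCommutative_adjoin S (by
      rintro _ ⟨a, rfl⟩ _ ⟨b, rfl⟩
      rw [← map_mul, ← map_mul, mul_comm])
  inferInstanceAs (CommRing (Algebra.adjoin S (Set.range ρ)))

/-- The action, into the algebra it generates. -/
def toActAlgebra : R →+* actAlgebra ρ :=
  ρ.codRestrict (actAlgebra ρ).toSubsemiring fun f => Algebra.subset_adjoin ⟨f, rfl⟩

/-- The ideal of the algebra killing `x`. -/
def algIdeal (x : Matrix n m S) : Ideal (actAlgebra ρ) where
  carrier := {a | (a : Matrix n n S) * x = 0}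
  zero_mem' := by simp
  add_mem' {a b} ha hb := by
    simp only [Set.mem_setOf_eq] at ha hb ⊢
    rw [Subalgebra.coe_add, Matrix.add_mul, ha, hb, add_zero]
  smul_mem' c a ha := by
    simp only [Set.mem_setOf_eq] at ha ⊢
    rw [smul_eq_mul, Subalgebra.coe_mul, Matrix.mul_assoc, ha, Matrix.mul_zero]

end Basic

/-- Minimal primes of the kernel of a map to a torsion free algebra, integral over both rings. -/
lemma exists_over_minimalPrime {R S B : Type} [CommRing R] [CommRing S] [CommRing B] [Algebra R B]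
    [Algebra S B] [Algebra.IsIntegral R B] [Algebra.IsIntegral S B]
    (htf : ∀ s : S, s ≠ 0 → algebraMap S B s ∈ nonZeroDivisors B) {q : Ideal R}
    (hq : q ∈ (RingHom.ker (algebraMap R B)).minimalPrimes) :
    ∃ Q : Ideal B, Q.IsPrime ∧ Q.comap (algebraMap R B) = q ∧
      Q.comap (algebraMap S B) = ⊥ ∧ ringKrullDim S ≤ ringKrullDim (R ⧸ q) := by
  rw [RingHom.ker_eq_comap_bot] at hq
  obtain ⟨Q, hQ, hQq⟩ := Ideal.exists_minimalPrimes_comap_eq (algebraMap R B) q hq
  have hQp : Q.IsPrime := hQ.1.1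
  have hQS : Q.comap (algebraMap S B) = ⊥ := by
    refine le_bot_iff.mp fun s hs => ?_
    by_contra h
    exact Set.disjoint_left.mp (Ideal.disjoint_nonZeroDivisors_of_mem_minimalPrimes hQ) hs
      (htf s h)
  refine ⟨Q, hQp, hQq, hQS, ?_⟩
  subst hQq
  have hi : Algebra.IsIntegral (R ⧸ Q.comap (algebraMap R B)) (B ⧸ Q) := inferInstance
  have : Algebra.IsIntegral S (B ⧸ Q) := inferInstance
  refine (Ribet.ringKrullDim_le_of_injective (R := S) (B := B ⧸ Q) ?_).trans
    (Ribet.ringKrullDim_le_of_isIntegral (R := R ⧸ Q.comap (algebraMap R B)) (B := B ⧸ Q))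
  rw [RingHom.injective_iff_ker_eq_bot, ← hQS]
  ext s
  rw [RingHom.mem_ker, Ideal.mem_comap, ← Ideal.Quotient.mk_algebraMap,
    Ideal.Quotient.eq_zero_iff_mem]

section MinimalPrime

variable {R S : Type} [CommRing R] [CommRing S] [IsDomain S] [IsNoetherianRing S]
  {n m : Type} [Fintype n] [DecidableEq n] (ρ : R →+* Matrix n n S)

/-- **Minimal primes of annihilators** have the dimension of `S`, and the scalars of `S` which
are images of `R` are not in them. -/
theorem dim_of_minimalPrime
    (hfin : ∀ {B : Type} [CommRing B] [Algebra R B] (g : B →+* Matrix n n S),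
      Function.Injective g → (∀ f, g (algebraMap R B f) = ρ f) → Module.Finite R B)
    (x : Matrix n m S) {q : Ideal R} (hq : q ∈ (annIdeal ρ x).minimalPrimes) :
    ringKrullDim S ≤ ringKrullDim (R ⧸ q) ∧
      ∀ (f : R) (s : S), ρ f = algebraMap S (Matrix n n S) s → s ≠ 0 → f ∉ q := by
  set A := actAlgebra ρ
  let _ : Algebra R A := (toActAlgebra ρ).toAlgebra
  have : Module.Finite R A :=
    hfin (A.val.toRingHom) Subtype.val_injective fun f => rfl
  have : Module.Finite S (Matrix n n S) := inferInstance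
  have : IsNoetherian S (Matrix n n S) := isNoetherian_of_isNoetherianRing_of_finite S _
  have : Module.Finite S A := Module.IsNoetherian.finite S A.toSubmodule
  set J := algIdeal ρ x with hJ
  have hker : RingHom.ker (algebraMap R (A ⧸ J)) = annIdeal ρ x := by
    ext f
    rw [RingHom.mem_ker, ← Ideal.Quotient.mk_algebraMap, Ideal.Quotient.eq_zero_iff_mem]
    rfl
  have htf : ∀ s : S, s ≠ 0 → algebraMap S (A ⧸ J) s ∈ nonZeroDivisors (A ⧸ J) := by
    intro s hs
    rw [mem_nonZeroDivisors_iff_left]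
    intro b hb
    obtain ⟨a, rfl⟩ := Ideal.Quotient.mk_surjective b
    rw [← Ideal.Quotient.mk_algebraMap, ← map_mul, Ideal.Quotient.eq_zero_iff_mem] at hb
    rw [Ideal.Quotient.eq_zero_iff_mem]
    change ((algebraMap S A s * a : A) : Matrix n n S) * x = 0 at hb
    change (a : Matrix n n S) * x = 0
    rw [Subalgebra.coe_mul, Subalgebra.coe_algebraMap, Matrix.mul_assoc,
      Algebra.algebraMap_eq_smul_one, Matrix.smul_mul, Matrix.one_mul] at hb
    refine Matrix.ext fun i j => ?_
    have h := congrFun (congrFun hb i) j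
    rw [Matrix.smul_apply, Matrix.zero_apply, smul_eq_mul] at h
    rw [Matrix.zero_apply]
    exact (mul_eq_zero.mp h).resolve_left hs
  have : Algebra.IsIntegral R (A ⧸ J) := Algebra.IsIntegral.of_finite R _
  have : Algebra.IsIntegral S (A ⧸ J) := Algebra.IsIntegral.of_finite S _
  rw [← hker] at hq
  obtain ⟨Q, hQp, hQq, hQS, hdim⟩ := exists_over_minimalPrime (R := R) (S := S) htf hq
  refine ⟨hdim, fun f s hfs hs hf => hs ?_⟩
  rw [← hQq, Ideal.mem_comap] at hf
  have he : algebraMap R (A ⧸ J) f = algebraMap S (A ⧸ J) s := by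
    rw [← Ideal.Quotient.mk_algebraMap, ← Ideal.Quotient.mk_algebraMap]
    exact congrArg _ (Subtype.ext hfs)
  rw [he, ← Ideal.mem_comap, hQS] at hf
  exact hf

end MinimalPrime

section Kernel

variable {R S : Type} [CommRing R] [CommRing S] [IsDomain S]
  {n n' : Type} [Fintype n] [DecidableEq n] [Fintype n'] [DecidableEq n']
  (ρ : R →+* Matrix n n S) (ρ' : R →+* Matrix n' n' S)

lemma rank_pow_succ_eq {E : Type} [Field E] (M : Matrix n n E) :
    (M ^ (Fintype.card n + 1)).rank = (M ^ Fintype.card n).rank := by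
  have hk : LinearMap.ker (Matrix.toLinAlgEquiv' M ^ (Fintype.card n + 1)) =
      LinearMap.ker (Matrix.toLinAlgEquiv' M ^ Fintype.card n) := by
    have h := Module.finrank_pi (R := E) (ι := n)
    rw [Module.End.ker_pow_eq_ker_pow_finrank_of_le (by omega),
      Module.End.ker_pow_eq_ker_pow_finrank_of_le (m := Fintype.card n) (by omega)]
  have hr : ∀ j, (M ^ j).rank = Module.finrank E (LinearMap.range (Matrix.toLinAlgEquiv' M ^ j)) :=
    fun j => by rw [← map_pow]; rfl
  rw [hr, hr]
  have h1 := (Matrix.toLinAlgEquiv' M ^ (Fintype.card n + 1)).finrank_range_add_finrank_ker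
  have h2 := (Matrix.toLinAlgEquiv' M ^ Fintype.card n).finrank_range_add_finrank_ker
  rw [hk] at h1
  omega

variable (deg : Matrix n' (n ⊕ n) S) (tra : Matrix (n ⊕ n) n' S)
  (retr : Matrix (n ⊕ n) n' S) (sect : Matrix n' (n ⊕ n) S)

/-- If `s` kills the kernel of `tra`, a power of `s` factors through `tra * deg`. -/
lemma exists_factor (hrd : retr * deg = 1) (hts : tra * sect = 1)
    (hdeg : ∀ f, deg * Matrix.fromBlocks (ρ f) 0 0 (ρ f) = ρ' f * deg)
    (htra : ∀ f, Matrix.fromBlocks (ρ f) 0 0 (ρ f) * tra = tra * ρ' f)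
    {s : R} (hs : ρ' s * (1 - sect * tra) = 0) :
    ∃ (N : ℕ) (ψ : Matrix (n ⊕ n) (n ⊕ n) S),
      Matrix.fromBlocks (ρ (s ^ N)) 0 0 (ρ (s ^ N)) = tra * deg * ψ := by
  set E := FractionRing S
  set φ := algebraMap S E
  set σ := ρ' s
  set τ := Matrix.fromBlocks (ρ s) 0 0 (ρ s) with hτdef
  have hσ : σ = σ * sect * tra := by
    rwa [Matrix.mul_sub, Matrix.mul_one, sub_eq_zero, ← Matrix.mul_assoc] at hs
  have hτp : ∀ j, Matrix.fromBlocks (ρ (s ^ j)) 0 0 (ρ (s ^ j)) = τ ^ j := by
    intro j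
    rw [Matrix.fromBlocks_diagonal_pow, map_pow]
  have hts' : ∀ j, τ ^ j * tra = tra * σ ^ j := fun j => by
    rw [← hτp, htra, map_pow]
  have hds : ∀ j, deg * τ ^ j = σ ^ j * deg := fun j => by
    rw [← hτp, hdeg, map_pow]
  have hσj : ∀ j, σ ^ (j + 1) = σ * sect * τ ^ j * tra := fun j => by
    rw [Matrix.mul_assoc, hts', ← Matrix.mul_assoc, ← hσ, pow_succ']
  set c := Fintype.card (n ⊕ n)
  -- ranks over the field of fractions
  have hle : ((σ ^ (c + 1)).map φ).rank ≤ ((τ ^ (c + 1)).map φ).rank := by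
    rw [hσj, Matrix.map_mul, Matrix.map_mul]
    refine (Matrix.rank_mul_le_left _ _).trans ((Matrix.rank_mul_le_right _ _).trans ?_)
    have h := rank_pow_succ_eq (τ.map φ)
    rw [← Matrix.map_pow, ← Matrix.map_pow] at h
    exact h.ge
  have hdegrank : ((τ ^ (c + 1)).map φ).rank ≤ ((deg * τ ^ (c + 1)).map φ).rank := by
    have h : (τ ^ (c + 1)).map φ = retr.map φ * (deg * τ ^ (c + 1)).map φ := by
      rw [← Matrix.map_mul, ← Matrix.mul_assoc, hrd, Matrix.one_mul]
    conv_lhs => rw [h]
    exact Matrix.rank_mul_le_right _ _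
  set L := ((σ ^ (c + 1)).map φ).mulVecLin
  set L' := ((deg * τ ^ (c + 1)).map φ).mulVecLin
  have hsub : LinearMap.range L' ≤ LinearMap.range L := by
    simp only [L, L', hds, Matrix.map_mul, Matrix.mulVecLin_mul]
    exact LinearMap.range_comp_le_range _ _
  have heq : LinearMap.range L' = LinearMap.range L :=
    Submodule.eq_of_le_of_finrank_le hsub (hle.trans hdegrank)
  have hfix : (σ ^ (c + 1)).map φ = (deg * retr * σ ^ (c + 1)).map φ := by
    apply Matrix.ext_of_mulVec_single
    intro i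
    obtain ⟨y, hy⟩ : L (Pi.single i 1) ∈ LinearMap.range L' := heq ▸ LinearMap.mem_range_self L _
    simp only [L, L', Matrix.mulVecLin_apply] at hy
    rw [Matrix.map_mul (L := deg * retr), ← Matrix.mulVec_mulVec, ← hy, Matrix.mulVec_mulVec,
      ← Matrix.map_mul]
    congr 2
    rw [Matrix.mul_assoc deg retr, ← Matrix.mul_assoc retr, hrd, Matrix.one_mul]
  have hfix' : σ ^ (c + 1) = deg * retr * σ ^ (c + 1) :=
    Matrix.map_injective (IsFractionRing.injective S E) hfix
  refine ⟨c + 1, retr * σ ^ (c + 1) * sect, ?_⟩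
  rw [hτp]
  calc τ ^ (c + 1) = τ ^ (c + 1) * (tra * sect) := by rw [hts, Matrix.mul_one]
    _ = tra * σ ^ (c + 1) * sect := by rw [← Matrix.mul_assoc, hts']
    _ = tra * (deg * retr * σ ^ (c + 1)) * sect := by rw [← hfix']
    _ = _ := by simp only [Matrix.mul_assoc]

omit [IsDomain S] in
/-- With commuting blocks, a factor of `U` through `tra * deg` gives `U * U = (a d - b c) * C`. -/
lemma exists_sq_eq {a b c d U : Matrix n n S} {ψ : Matrix (n ⊕ n) (n ⊕ n) S}
    (hab : Commute a b) (hac : Commute a c) (hbd : Commute b d) (hcd : Commute c d)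
    (had : Commute a d) (hbc : Commute b c) (hUa : Commute U a) (hUb : Commute U b)
    (h : Matrix.fromBlocks U 0 0 U = Matrix.fromBlocks a b c d * ψ) :
    ∃ C, U * U = (a * d - b * c) * C := by
  set Δ := a * d - b * c
  have hadj : Matrix.fromBlocks d (-b) (-c) a * Matrix.fromBlocks a b c d =
      Matrix.fromBlocks Δ 0 0 Δ := by
    rw [Matrix.fromBlocks_multiply]
    congr 1
    · rw [neg_mul, ← sub_eq_add_neg, ← had.eq]
    · rw [neg_mul, ← sub_eq_add_neg, hbd.eq, sub_self]
    · rw [neg_mul, hac.eq, neg_add_cancel]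
    · rw [neg_mul, ← hbc.eq, neg_add_eq_sub]
  have h1 : Matrix.fromBlocks d (-b) (-c) a * Matrix.fromBlocks U 0 0 U =
      Matrix.fromBlocks Δ 0 0 Δ * ψ := by
    rw [h, ← Matrix.mul_assoc, hadj]
  rw [← Matrix.fromBlocks_toBlocks ψ] at h h1
  rw [Matrix.fromBlocks_multiply, Matrix.fromBlocks_multiply, Matrix.fromBlocks_inj] at h1
  rw [Matrix.fromBlocks_multiply, Matrix.fromBlocks_inj] at h
  obtain ⟨hU, -, -, -⟩ := h
  obtain ⟨-, h12, -, h22⟩ := h1
  simp only [Matrix.mul_zero, Matrix.zero_mul, zero_add, add_zero] at h12 h22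
  refine ⟨ψ.toBlocks₂₂ * ψ.toBlocks₁₁ - ψ.toBlocks₁₂ * ψ.toBlocks₂₁, ?_⟩
  calc U * U = U * a * ψ.toBlocks₁₁ + U * b * ψ.toBlocks₂₁ := by
        conv_lhs => arg 2; rw [hU]
        rw [Matrix.mul_add, Matrix.mul_assoc, Matrix.mul_assoc]
    _ = a * U * ψ.toBlocks₁₁ + b * U * ψ.toBlocks₂₁ := by rw [hUa.eq, hUb.eq]
    _ = Δ * ψ.toBlocks₂₂ * ψ.toBlocks₁₁ - Δ * ψ.toBlocks₁₂ * ψ.toBlocks₂₁ := by
        rw [h22, ← h12, neg_mul, neg_mul, sub_neg_eq_add]
    _ = _ := by rw [Matrix.mul_sub, Matrix.mul_assoc, Matrix.mul_assoc]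

omit [IsDomain S] in
lemma exists_pow_two_mul_eq {U Δ : Matrix n n S} (hc : Commute U Δ) {C : Matrix n n S}
    (h : U * U = Δ * C) (j : ℕ) : ∃ C', U ^ (2 * j) = Δ ^ j * C' := by
  induction j with
  | zero => exact ⟨1, by simp⟩
  | succ j ih =>
    obtain ⟨C', hC'⟩ := ih
    refine ⟨C * C', ?_⟩
    rw [show 2 * (j + 1) = 1 + 1 + 2 * j by ring, pow_add, pow_add, pow_one, hC',
      ← Matrix.mul_assoc, ← Matrix.mul_assoc,
      ((hc.mul_left hc).pow_right j).eq, h, pow_succ]
    simp only [Matrix.mul_assoc]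

/-- **The kernel of `tra` at a prime containing the determinant**. -/
theorem annIdeal_ker_le
    (hfin : letI := DFinite.actModule ρ; Module.Finite R (n → S))
    {P : Ideal R} [P.IsPrime] (hP : RingHom.ker ρ ≤ P) {disc : R} (hdisc : disc ∈ P)
    (hrd : retr * deg = 1) (hts : tra * sect = 1)
    (hdeg : ∀ f, deg * Matrix.fromBlocks (ρ f) 0 0 (ρ f) = ρ' f * deg)
    (htra : ∀ f, Matrix.fromBlocks (ρ f) 0 0 (ρ f) * tra = tra * ρ' f)
    {a b c d : Matrix n n S} (htd : tra * deg = Matrix.fromBlocks a b c d)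
    (hab : Commute a b) (hac : Commute a c) (had : Commute a d) (hbc : Commute b c)
    (hbd : Commute b d) (hcd : Commute c d)
    (hcomm : ∀ f, Commute (ρ f) a ∧ Commute (ρ f) b ∧ Commute (ρ f) c ∧ Commute (ρ f) d)
    {e : ℕ} (hnil : (a * d - b * c - ρ disc) ^ e = 0) :
    annIdeal ρ' (1 - sect * tra) ≤ P := by
  intro s hs
  obtain ⟨N, ψ, hψ⟩ := exists_factor ρ ρ' deg tra retr sect hrd hts hdeg htra hs
  rw [htd] at hψ
  by_contra hsP
  set U := ρ (s ^ N)
  set Δ := a * d - b * c
  obtain ⟨C, hC⟩ := exists_sq_eq hab hac hbd hcd had hbc (hcomm _).1 (hcomm _).2.1 hψ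
  have hUΔ : ∀ f, Commute (ρ f) Δ := fun f =>
    ((hcomm f).1.mul_right (hcomm f).2.2.2).sub_right ((hcomm f).2.1.mul_right (hcomm f).2.2.1)
  obtain ⟨C', hC'⟩ := exists_pow_two_mul_eq (hUΔ _) hC (e + 1)
  -- `Δ ^ (e + 1)` is a multiple of `ρ disc`
  have hη : (Δ - ρ disc) ^ (e + 1) = 0 := by rw [pow_succ, hnil, zero_mul]
  have hcΔ : Commute Δ (Δ - ρ disc) := (Commute.refl Δ).sub_right (hUΔ disc).symm
  have hgeom := hcΔ.mul_geom_sum₂ (e + 1)
  rw [sub_sub_cancel, hη, sub_zero] at hgeom
  set W := (∑ i ∈ Finset.range (e + 1), Δ ^ i * (Δ - ρ disc) ^ (e + 1 - 1 - i)) * C'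
  have hu : ρ ((s ^ N) ^ (2 * (e + 1))) = ρ disc * W := by
    rw [map_pow, hC', ← hgeom, Matrix.mul_assoc]
  set u := (s ^ N) ^ (2 * (e + 1)) with hudef
  have huP : u ∉ P := fun h => hsP (Ideal.IsPrime.mem_of_pow_mem ‹_› _
    (Ideal.IsPrime.mem_of_pow_mem ‹_› _ h))
  let _ := DFinite.actModule ρ
  have hsmul : ∀ (r : R) (x : n → S), r • x = (ρ r).mulVec x := fun r x => rfl
  obtain ⟨p, hp, -, hcoef, hev⟩ :=
    LinearMap.exists_monic_and_natDegree_eq_and_coeff_mem_pow_and_aeval_eq_zero R
      (algebraMap R (Module.End R (n → S)) u) (Ideal.span {disc}) (by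
        rintro _ ⟨x, rfl⟩
        rw [Module.algebraMap_end_apply, hsmul, hu, ← Matrix.mulVec_mulVec, ← hsmul]
        exact Submodule.smul_mem_smul (Ideal.mem_span_singleton_self disc) Submodule.mem_top)
  rw [Polynomial.aeval_algebraMap_apply] at hev
  have h0 : Polynomial.aeval u p ∈ P := hP <| RingHom.mem_ker.mpr <|
    Matrix.ext_of_mulVec_single fun i => by
      have := DFunLike.congr_fun hev (Pi.single i 1)
      rw [Module.algebraMap_end_apply, hsmul] at this
      rw [Matrix.zero_mulVec]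
      simpa [-Matrix.mulVec_single_one] using this
  rw [Polynomial.aeval_eq_sum_range, Finset.sum_range_succ, hp.coeff_natDegree, one_smul] at h0
  refine huP (Ideal.IsPrime.mem_of_pow_mem ‹_› p.natDegree ?_)
  refine (P.add_mem_iff_right (P.sum_mem fun i hi => ?_)).mp h0
  rw [smul_eq_mul]
  refine P.mul_mem_right _ ((Ideal.span_singleton_le_iff_mem P).mpr hdisc ?_)
  refine Ideal.pow_le_self ?_ (hcoef i)
  have := Finset.mem_range.mp hi
  omega

end Kernel

/-- **Eigenvectors**: a prime without scalars of a commutative algebra of matrices over a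
principal ideal domain kills a non-zero vector. -/
theorem exists_vector_of_prime {O : Type} [CommRing O] [IsDomain O] [IsNoetherianRing O] {n : Type}
    [Fintype n] [DecidableEq n] (A : Subalgebra O (Matrix n n O)) [IsMulCommutative A]
    (p₀ : Ideal A) [p₀.IsPrime] (h : p₀.comap (algebraMap O A) = ⊥) :
    ∃ v : n → O, v ≠ 0 ∧ ∀ a ∈ p₀, (a : Matrix n n O).mulVec v = 0 := by
  have hsmul : ∀ (a : A) (x : n → O), a • x = (a : Matrix n n O).mulVec x := fun a x => rfl
  have : IsScalarTower O A (n → O) := ⟨fun o a x => by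
    rw [hsmul, hsmul, Subalgebra.coe_smul, Matrix.smul_mulVec]⟩
  have : Module.Finite A (n → O) := Module.Finite.of_restrictScalars_finite O A _
  have : IsNoetherian O (Matrix n n O) := isNoetherian_of_isNoetherianRing_of_finite O _
  have : Module.Finite O A := Module.IsNoetherian.finite O A.toSubmodule
  have : IsNoetherian O A := inferInstance
  have : IsNoetherianRing A := isNoetherian_of_tower O inferInstance
  have : Algebra.IsIntegral O A := Algebra.IsIntegral.of_finite O A
  have hann : Module.annihilator A (n → O) = ⊥ := by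
    refine le_bot_iff.mp fun a ha => ?_
    rw [Module.mem_annihilator] at ha
    exact Subtype.ext (Matrix.ext_of_mulVec_single fun i => by
      rw [← hsmul, ha]; exact (Matrix.zero_mulVec _).symm)
  have hmin : p₀ ∈ (Module.annihilator A (n → O)).minimalPrimes := by
    refine ⟨⟨inferInstance, hann ▸ bot_le⟩, fun p hp hle => ?_⟩
    by_contra hne
    have := hp.1
    have hlt := Ideal.IsIntegral.comap_lt_comap (R := O) (lt_of_le_not_ge hle hne)
    rw [h] at hlt
    exact not_lt_bot hlt
  have hass := Module.associatedPrimes.minimalPrimes_annihilator_subset_associatedPrimes A (n → O) hmin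
  obtain ⟨-, v, hv⟩ := Submodule.isAssociatedPrime_iff.mp hass
  refine ⟨v, fun h0 => ?_, fun a ha => ?_⟩
  · have : p₀ = ⊤ := by
      rw [hv, h0]
      ext a
      simp [Submodule.mem_colon_singleton]
    exact Ideal.IsPrime.ne_top inferInstance this
  · rw [hv, Submodule.mem_colon_singleton, Submodule.mem_bot, hsmul] at ha
    exact ha

end Fermat.Agent.Lifting.Support
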