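import Fermat.Agent.Lifting.APatchDefs
import Fermat.Agent.Lifting.DLimitTools

/-!
# Patching data at every level give patching data over `S`
-/

set_option autoImplicit false

noncomputable section

namespace Fermat.Agent.Lifting.DLimit

open IsLocalRing Filter MvPowerSeries

section Generic

variable {S : Type*} [CommRing S] [IsLocalRing S] [IsNoetherianRing S]
  [IsAdicComplete (maximalIdeal S) S] [Finite (ResidueField S)]
variable (U : Ultrafilter ℕ) (hU : (U : Filter ℕ) ≤ atTop)

theorem patchMat_fromBlocks {l m o q : Type*} (A : ∀ n, Matrix o l (Lvl S n))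
    (B : ∀ n, Matrix o m (Lvl S n)) (C : ∀ n, Matrix q l (Lvl S n))
    (D : ∀ n, Matrix q m (Lvl S n)) :
    patchMat U hU (fun n ↦ Matrix.fromBlocks (A n) (B n) (C n) (D n)) =
      Matrix.fromBlocks (patchMat U hU A) (patchMat U hU B) (patchMat U hU C)
        (patchMat U hU D) := by
  ext (i | i) (j | j) <;> rfl

theorem patchMat_zero' {ι κ : Type*} :
    patchMat U hU (fun n ↦ (0 : Matrix ι κ (Lvl S n))) = 0 :=
  patchMat_zero U hU

theorem patchMat_algebraMap {ι : Type*} [Fintype ι] [DecidableEq ι] (s : S) :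
    patchMat U hU (fun n ↦ algebraMap (Lvl S n) (Matrix ι ι (Lvl S n))
      (Ideal.Quotient.mk (maximalIdeal S ^ n) s)) = algebraMap S (Matrix ι ι S) s := by
  ext i j
  rcases eq_or_ne i j with rfl | h
  · simp only [patchMat_apply, Matrix.algebraMap_matrix_apply, if_pos, Algebra.algebraMap_self,
      RingHom.id_apply]
    exact patchLim_const U hU s
  · simp only [patchMat_apply, Matrix.algebraMap_matrix_apply, if_neg h]
    exact map_zero (patchLim (S := S) U hU)

theorem patchMat_mulVec {ι κ : Type*} [Fintype κ] (A : ∀ n, Matrix ι κ (Lvl S n))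
    (v : ∀ n, κ → Lvl S n) (i : ι) :
    (patchMat U hU A).mulVec (fun c ↦ patchLim U hU fun n ↦ v n c) i =
      patchLim U hU fun n ↦ (A n).mulVec (v n) i := by
  simp only [Matrix.mulVec, dotProduct, patchMat_apply]
  rw [← Finset.sum_congr rfl fun l _ ↦ (map_mul (patchLim U hU) (fun n ↦ A n i l) fun n ↦ v n l),
    ← map_sum]
  congr 1
  funext n
  simp [Finset.sum_apply]

end Generic

section Pev

theorem residue_comp_algebraMap_surjective (τ : Type) [Finite τ] (O : Type) [CommRing O]
    [IsLocalRing O] : Function.Surjective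
      ((residue (MvPowerSeries τ O)).comp (algebraMap O (MvPowerSeries τ O))) := by
  intro x
  obtain ⟨f, rfl⟩ := residue_surjective x
  refine ⟨constantCoeff f, Ideal.Quotient.eq.mpr ?_⟩
  rw [Ribet.mem_maximalIdeal_iff_constantCoeff]
  simp [MvPowerSeries.algebraMap_apply]

theorem residue_comp_self_surjective (O : Type) [CommRing O] [IsLocalRing O] :
    Function.Surjective ((residue O).comp (algebraMap O O)) := by
  simpa using residue_surjective (R := O)

/-- Evaluation of power series is continuous in the point. -/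
theorem pev_sub_pev_mem {𝒪 : Type} [CommRing 𝒪] {τ : Type} [Finite τ] {A : Type} [CommRing A]
    [Algebra 𝒪 A] (I : Ideal A) [IsAdicComplete I A] {a b : τ → A} (ha : ∀ s, a s ∈ I)
    (hb : ∀ s, b s ∈ I) {k : ℕ} (hab : ∀ s, a s - b s ∈ I ^ k) (p : MvPowerSeries τ 𝒪) :
    Deform.pev I a ha p - Deform.pev I b hb p ∈ I ^ k := by
  rw [← Ideal.Quotient.mk_eq_mk_iff_sub_mem, Deform.mk_pev, Deform.mk_pev]
  have h : (Ideal.Quotient.mkₐ 𝒪 (I ^ k)).comp (MvPolynomial.aeval a) =
      (Ideal.Quotient.mkₐ 𝒪 (I ^ k)).comp (MvPolynomial.aeval b) := by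
    refine MvPolynomial.algHom_ext fun s ↦ ?_
    simpa [Ideal.Quotient.mk_eq_mk_iff_sub_mem] using hab s
  exact DFunLike.congr_fun h _

end Pev

/-- **Compactness**: patching data at every level give patching data over `S`. -/
theorem nonempty_patchLimit {O : Type} [CommRing O] [IsDomain O]
    [IsDiscreteValuationRing O] [IsAdicComplete (maximalIdeal O) O] [Finite (ResidueField O)]
    {σ : Shape} (F : PatchFixed O σ) (hF : F.Valid) (h : ∀ n, Nonempty (PatchLevel F n)) :
    Nonempty (PatchLimit F) := by
  classical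
  have : Finite (ResidueField (σ.Sring O)) := finite_residueField_mvPowerSeries _ _
  have : Finite (ResidueField (σ.Big O)) := finite_residueField_mvPowerSeries _ _
  have : Finite (ResidueField (σ.MainRing O)) := finite_residueField_mvPowerSeries _ _
  have : Finite (ResidueField (σ.OthRing O)) := finite_residueField_mvPowerSeries _ _
  let d : ∀ n, PatchLevel F n := fun n ↦ (h n).some
  let U : Ultrafilter ℕ := someUltrafilter
  have hU : (U : Filter ℕ) ≤ atTop := someUltrafilter_le
  -- the worlds
  have hcc : ∀ {τ : Type} [Finite τ] [Finite (ResidueField (MvPowerSeries τ O))]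
      (y : ℕ → MvPowerSeries τ O), constantCoeff (seqLim U y) =
        seqLim U fun n ↦ constantCoeff (y n) := fun {τ} _ _ y ↦
    (seqLim_map U (constantCoeff (σ := τ) (R := O))
      (fun f hf ↦ (Ribet.mem_maximalIdeal_iff_constantCoeff f).mp hf) y).symm
  let wL : Worlds O σ :=
    { psi := fun v ↦ seqLim U fun n ↦ (d n).worlds.psi v
      phi := fun v ↦ seqLim U fun n ↦ (d n).worlds.phi v
      psi_mem := fun v ↦ by
        rw [hcc, ← mem_maximalIdeal]
        exact seqLim_mem_maximalIdeal U (.of_forall fun n ↦ (d n).worlds.psi_mem v)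
      phi_mem := fun v ↦ by
        rw [hcc, ← mem_maximalIdeal]
        exact seqLim_mem_maximalIdeal U (.of_forall fun n ↦ (d n).worlds.phi_mem v)
      psi_u := by simp only [Worlds.psi_u, seqLim_const] }
  have hmain : ∀ y : ℕ → σ.MainRing O,
      seqLim U (fun n ↦ σ.mainIncl (y n)) = σ.mainIncl (seqLim U y) := seqLim_map U _ fun _ ↦
    algHom_mem_maximalIdeal (residue_comp_algebraMap_surjective _ O) σ.mainIncl
  have hoth : ∀ y : ℕ → σ.OthRing O,
      seqLim U (fun n ↦ σ.othIncl (y n)) = σ.othIncl (seqLim U y) := seqLim_map U _ fun _ ↦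
    algHom_mem_maximalIdeal (residue_comp_algebraMap_surjective _ O) σ.othIncl
  have hgen : ∀ v, seqLim U (fun n ↦ (d n).worlds.mainGen v) = wL.mainGen v := fun v ↦ by
    simp only [Worlds.mainGen, seqLim_sub, seqLim_const, hmain]
    rfl
  have hothGen : ∀ g ∈ wL.othGen, ∃ y : ℕ → σ.Big O,
      (∀ n, y n ∈ (d n).worlds.othGen) ∧ seqLim U y = g := by
    intro g hg
    simp only [Worlds.othGen] at hg ⊢
    by_cases hflat : σ.flat = true
    · rw [if_pos hflat] at hg
      obtain ⟨v, rfl⟩ := hg
      refine ⟨fun n ↦ X (Sum.inr (Sum.map id Sum.inr v)) - σ.othIncl ((d n).worlds.phi v),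
        fun n ↦ (if_pos hflat).symm ▸ ⟨v, rfl⟩, ?_⟩
      simp only [seqLim_sub, seqLim_const, hoth]
      rfl
    · rw [if_neg hflat, Set.mem_singleton_iff] at hg
      refine ⟨fun _ ↦ 1, fun n ↦ ?_, by rw [hg, seqLim_const]⟩
      rw [if_neg hflat]
      exact Set.mem_singleton 1
  -- the action
  let actR : ∀ i, σ.Big O →+* Matrix (Fin (F.rank i)) (Fin (F.rank i)) (σ.Sring O) :=
    fun i ↦ patchAction U hU fun n ↦ ((d n).act i).toRingHom
  let actL : ∀ i, σ.Big O →ₐ[O] Matrix (Fin (F.rank i)) (Fin (F.rank i)) (σ.Sring O) := fun i ↦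
    { actR i with
      commutes' := fun o ↦ by
        change patchMat U hU (fun n ↦ (d n).act i (algebraMap O (σ.Big O) o)) = _
        simp only [AlgHom.commutes]
        refine Eq.trans ?_ ((patchMat_algebraMap U hU (algebraMap O (σ.Sring O) o)).trans
          (IsScalarTower.algebraMap_apply O (σ.Sring O)
            (Matrix (Fin (F.rank i)) (Fin (F.rank i)) (σ.Sring O)) o).symm)
        refine patchMat_congr U hU (.of_forall fun n ↦ ?_)
        rw [IsScalarTower.algebraMap_apply O (σ.SLvl O n)
          (Matrix (Fin (F.rank i)) (Fin (F.rank i)) (σ.SLvl O n))]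
        rfl }
  have hact : ∀ i (y : ℕ → σ.Big O),
      actL i (seqLim U y) = patchMat U hU fun n ↦ (d n).act i (y n) := fun i y ↦ by
    obtain ⟨e, he⟩ := exists_continuity_exponent U hU fun n ↦ ((d n).act i).toRingHom
    exact patchAction_seqLim U hU _ he y
  have hactc : ∀ i (f : σ.Big O), actL i f = patchMat U hU fun n ↦ (d n).act i f := fun i f ↦ rfl
  -- the point of the target
  let wG : Fin σ.r → O := fun j ↦ seqLim U fun n ↦ (d n).wGlob j
  choose a b c e hblock hab hac had hbc hbd hcd hfab hdet using fun (i : Fin σ.k) n ↦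
    (d n).comp_det i
  choose s hs hsmem using fun l x y n ↦ (d n).hecke_aug l x y
  have hbase : ∃ j, ∀ᶠ n in (U : Filter ℕ), IsUnit ((d n).base j) :=
    Ultrafilter.eventually_exists_iff.mp (Eventually.of_forall fun n ↦ (d n).base_unit)
  refine ⟨{
    worlds := wL
    wGlob := wG
    trace := fun l ↦ seqLim U fun n ↦ (d n).trace l
    act := actL
    hecke := fun l ↦ patchMat U hU fun n ↦ (d n).hecke l
    deg := fun i ↦ patchMat U hU fun n ↦ (d n).deg i
    tra := fun i ↦ patchMat U hU fun n ↦ (d n).tra i
    retr := fun i ↦ patchMat U hU fun n ↦ (d n).retr i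
    sect := fun i ↦ patchMat U hU fun n ↦ (d n).sect i
    wit := fun i ↦ patchMat U hU fun n ↦ (d n).wit i
    base := fun j ↦ patchLim U hU fun n ↦ (d n).base j
    base_unit := hbase.imp fun j hj ↦ isUnit_patchLim U hU hj
    base_rel := fun v ↦ ?_
    retr_deg := fun i ↦ by simp only [← patchMat_mul, PatchData.retr_deg, patchMat_one]
    tra_sect := fun i ↦ by simp only [← patchMat_mul, PatchData.tra_sect, patchMat_one]
    deg_act := fun i f ↦ by
      simp only [hactc, ← patchMat_zero' U hU, ← patchMat_fromBlocks, ← patchMat_mul,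
        PatchData.deg_act]
    tra_act := fun i f ↦ by
      simp only [hactc, ← patchMat_zero' U hU, ← patchMat_fromBlocks, ← patchMat_mul,
        PatchData.tra_act]
    comp_det := fun i ↦ ?_
    disc_kernel := fun i ↦ by
      simp only [hactc, ← patchMat_mul, ← patchMatHom_apply, ← map_pow]
      simp only [patchMatHom_apply]
      exact patchMat_congr U hU (.of_forall fun n ↦ (d n).disc_kernel i)
    local_rel := fun i a f hf ↦ ?_
    unr_rel := fun i a hia f hf ↦ ?_
    world_rel := fun i v g hg ↦ ?_
    diamond_rel := fun i j ↦ ?_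
    gauge_rel := fun i v ↦ ?_
    hecke_comm := fun l l' ↦ by
      simp only [Commute, SemiconjBy, ← patchMat_mul]
      exact patchMat_congr U hU (.of_forall fun n ↦ (d n).hecke_comm l l')
    hecke_act := fun l f ↦ by
      simp only [hactc, Commute, SemiconjBy, ← patchMat_mul]
      exact patchMat_congr U hU (.of_forall fun n ↦ (d n).hecke_act l f)
    trace_rel := fun l g hg ↦ ?_
    hecke_aug := fun l x y ↦ ?_
    wGlob_mem := fun j ↦ seqLim_mem_maximalIdeal U (.of_forall fun n ↦ (d n).wGlob_mem j)
    wPoint := ?_ }⟩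
  · -- base_rel
    funext x
    rw [← hgen, hact]
    simp only [← patchMatHom_apply, ← map_pow]
    rw [patchMatHom_apply, patchMat_mulVec]
    refine (patchLim_congr U hU (x' := 0) (.of_forall fun n ↦ ?_)).trans (map_zero _)
    exact congrFun ((d n).base_rel v) x
  · -- comp_det
    refine ⟨patchMat U hU (a i), patchMat U hU (b i), patchMat U hU (c i), patchMat U hU (e i),
      ?_, ?_, ?_, ?_, ?_, ?_, ?_, fun f ↦ ⟨?_, ?_, ?_, ?_⟩, ?_⟩
    · rw [← patchMat_mul, ← patchMat_fromBlocks]
      exact patchMat_congr U hU (.of_forall fun n ↦ hblock i n)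
    iterate 6
      · simp only [Commute, SemiconjBy, ← patchMat_mul]
        refine patchMat_congr U hU (.of_forall fun n ↦ ?_)
        first
          | exact hab i n
          | exact hac i n
          | exact had i n
          | exact hbc i n
          | exact hbd i n
          | exact hcd i n
    iterate 4
      · simp only [hactc, Commute, SemiconjBy, ← patchMat_mul]
        refine patchMat_congr U hU (.of_forall fun n ↦ ?_)
        first
          | exact (hfab i n f).1
          | exact (hfab i n f).2.1
          | exact (hfab i n f).2.2.1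
          | exact (hfab i n f).2.2.2
    rw [hactc]
    simp only [← patchMatHom_apply, ← map_mul, ← map_sub, ← map_pow]
    exact (patchMat_congr U hU (.of_forall fun n ↦ hdet i n)).trans (patchMat_zero' U hU)
  · -- local_rel
    rw [hactc]
    simp only [← patchMatHom_apply, ← map_pow]
    exact (patchMat_congr U hU (.of_forall fun n ↦ (d n).local_rel i a f hf)).trans
      (patchMat_zero' U hU)
  · -- unr_rel
    rw [hactc]
    simp only [← patchMatHom_apply, ← map_pow]
    exact (patchMat_congr U hU (.of_forall fun n ↦ (d n).unr_rel i a hia f hf)).trans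
      (patchMat_zero' U hU)
  · -- world_rel
    obtain ⟨y, hy, rfl⟩ := hothGen g hg
    rw [← hgen, ← seqLimHom_apply, ← seqLimHom_apply, ← map_mul, seqLimHom_apply, hact]
    simp only [← patchMatHom_apply, ← map_pow]
    exact (patchMat_congr U hU (.of_forall fun n ↦ (d n).world_rel i v _ (hy n))).trans
      (patchMat_zero' U hU)
  · -- diamond_rel
    simp only [RingHom.id_apply, hactc, ← patchMat_algebraMap U hU]
    simp only [← patchMatHom_apply, ← map_mul, ← map_sub, ← map_pow]
    rw [← map_one (patchMatHom (S := σ.Sring O) (ι := Fin (F.rank i)) U hU), ← map_add, ← map_pow]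
    exact (patchMat_congr U hU (.of_forall fun n ↦ (d n).diamond_rel i j)).trans
      (patchMat_zero' U hU)
  · -- gauge_rel
    simp only [RingHom.id_apply, hactc, ← patchMat_algebraMap U hU]
    simp only [← patchMatHom_apply, ← map_sub, ← map_pow]
    exact (patchMat_congr U hU (.of_forall fun n ↦ (d n).gauge_rel i v)).trans
      (patchMat_zero' U hU)
  · -- trace_rel
    obtain ⟨y, hy, rfl⟩ := hothGen g hg
    rw [hact, hact]
    simp only [← patchMatHom_apply, ← map_mul, ← map_sub, ← map_pow]
    exact (patchMat_congr U hU (.of_forall fun n ↦ (d n).trace_rel l _ (hy n))).trans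
      (patchMat_zero' U hU)
  · -- hecke_aug
    refine ⟨seqLim U (s l x y), ?_, ?_⟩
    · simp only [RingHom.id_apply, patchMat_apply]
      exact (patchLim_eq_of_lift U hU (.of_forall fun n ↦ hs l x y n) (seqLim_spec U _)).symm
    · rw [Ideal.mem_bot, sub_eq_zero, hcc]
      exact seqLim_eq_of_sub_mem_pow U hU (.of_forall fun n ↦ hsmem l x y n)
  · -- wPoint
    intro hm _
    have hmn : ∀ n v, Sum.elim F.wLoc (d n).wGlob v ∈ maximalIdeal O := by
      rintro n (v | j)
      exacts [hF.wLoc_mem v, (d n).wGlob_mem j]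
    have hpev : ∀ y : ℕ → σ.MainRing O,
        seqLim U (fun n ↦ Deform.pev (maximalIdeal O) _ (hmn n) (y n)) =
          Deform.pev (maximalIdeal O) (Sum.elim F.wLoc wG) hm (seqLim U y) := by
      intro y
      refine seqLim_eq U fun k ↦ ?_
      have hw : ∀ᶠ n in (U : Filter ℕ), ∀ j, (d n).wGlob j - wG j ∈ maximalIdeal O ^ k :=
        eventually_all.mpr fun j ↦ seqLim_spec U _ k
      filter_upwards [hw, seqLim_spec U y k] with n hn hy
      have h1 := pev_sub_pev_mem (maximalIdeal O) (hmn n) hm (k := k) (by
        rintro (v | j)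
        · simp
        · exact hn j) (y n)
      have h2 : (maximalIdeal (σ.MainRing O)).map
          (Deform.pev (𝒪 := O) (maximalIdeal O) (Sum.elim F.wLoc wG) hm) ≤ maximalIdeal O :=
        Ideal.map_le_iff_le_comap.mpr fun _ ↦
          algHom_mem_maximalIdeal (residue_comp_self_surjective O) _
      have h3 := Ideal.mem_map_of_mem
        (Deform.pev (𝒪 := O) (maximalIdeal O) (Sum.elim F.wLoc wG) hm) hy
      rw [Ideal.map_pow, map_sub] at h3
      simpa using Ideal.add_mem _ h1 (Ideal.pow_right_mono h2 k h3)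
    refine ⟨fun j ↦ ?_, fun l ↦ ?_⟩
    · rw [Ideal.mem_bot, ← hpev]
      exact seqLim_eq_of_sub_mem_pow U hU (.of_forall fun n ↦ by
        simpa using ((d n).wPoint (hmn n)).1 j)
    · choose f hf hfe using fun n ↦ ((d n).wPoint (hmn n)).2 l
      refine ⟨seqLim U f, ?_, ?_⟩
      · choose co hco using fun n ↦ Ideal.mem_span_range_iff_exists_fun.mp (hf n)
        refine Ideal.mem_span_range_iff_exists_fun.mpr ⟨fun v ↦ seqLim U fun n ↦ co n v, ?_⟩
        rw [← hmain, ← seqLim_sub]
        simp only [← seqLimHom_apply, ← hgen, ← map_mul, ← map_sum]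
        congr 1
        funext n
        simpa [Finset.sum_apply] using hco n
      · rw [Ideal.mem_bot, sub_eq_zero, ← hpev]
        exact seqLim_eq_of_sub_mem_pow U hU (.of_forall hfe)

end Fermat.Agent.Lifting.DLimit
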