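import Fermat.Agent.Lifting.AChartPoint
import Fermat.Agent.Lifting.ASupport
import Fermat.Agent.Lifting.DLimitMain

/-!
# The support induction

The patched module with the first `i` places in the level is supported on the whole chart of the
main world which is Steinberg at these places and unramified at the others.
-/

set_option autoImplicit false

noncomputable section

namespace Fermat.Agent.Lifting

open MvPowerSeries IsLocalRing

namespace Engine

instance isDomain_powerSeries {ι O : Type} [CommRing O] [IsDomain O] :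
    IsDomain (MvPowerSeries ι O) := NoZeroDivisors.to_isDomain _

variable {O : Type} [CommRing O] [IsDomain O] [IsDiscreteValuationRing O]
  [IsAdicComplete (maximalIdeal O) O] [Finite (ResidueField O)] [CharZero O]
  {σ : Shape} {F : PatchFixed O σ} (L : PatchLimit F)

omit [IsAdicComplete (maximalIdeal O) O] [Finite (ResidueField O)] [CharZero O] in
/-- Homomorphisms from the big ring are local. -/
lemma map_X_mem {ι : Type} [Finite ι] (φ : σ.Big O →ₐ[O] MvPowerSeries ι O) (v : σ.Var) :
    φ (X v) ∈ maximalIdeal (MvPowerSeries ι O) :=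
  DLimit.algHom_mem_maximalIdeal (DLimit.residue_comp_algebraMap_surjective _ O) φ
    (Ribet.X_mem_maximalIdeal v)

/-- The types at the places when the first `i` are in the level. -/
def stUpto (i : Fin (σ.k + 1)) (a : Fin σ.k) : Bool := decide ((a : ℕ) < (i : ℕ))

omit [CharZero O] in
/-- Quotients of the big ring are complete. -/
lemma isAdicComplete_quotient (q : Ideal (σ.Big O)) [q.IsPrime]
    [IsLocalRing (σ.Big O ⧸ q)] :
    IsAdicComplete (maximalIdeal (σ.Big O ⧸ q)) (σ.Big O ⧸ q) := by
  have : IsPrecomplete (maximalIdeal (σ.Big O ⧸ q)) (σ.Big O ⧸ q) := by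
    rw [← IsLocalRing.map_maximalIdeal_of_surjective _ (Ideal.Quotient.mk_surjective (I := q))]
    exact Deform.isPrecomplete_map_of_surjective _ Ideal.Quotient.mk_surjective _
  exact { }

variable (i : Fin (σ.k + 1))

omit [CharZero O] in
/-- A minimal prime of an annihilator has dimension at least `D` and contains no scalar. -/
lemma minimalPrime_facts {m : Type} (x : Matrix (Fin (F.rank i)) m (σ.Sring O))
    {q : Ideal (σ.Big O)} (hq : q ∈ (Support.annIdeal (L.act i).toRingHom x).minimalPrimes) :
    ((σ.dimD : ℕ) : WithBot ℕ∞) ≤ ringKrullDim (σ.Big O ⧸ q) ∧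
      ∀ c : O, c ≠ 0 → (C c : σ.Big O) ∉ q := by
  obtain ⟨hdim, hsc⟩ := Support.dim_of_minimalPrime (L.act i).toRingHom
    (fun g hg hc => DFinite.finite_patchAlgebra L i g hg hc) x hq
  refine ⟨(Dim.le_ringKrullDim_mvPowerSeries O σ.SVar).trans hdim, fun c hc => ?_⟩
  refine hsc _ (C c) ?_ fun h => hc (C_injective (σ := σ.SVar) (h.trans (map_zero C).symm))
  show L.act i (algebraMap O (σ.Big O) c) = algebraMap (σ.Sring O) _ (algebraMap O (σ.Sring O) c)
  rw [AlgHom.commutes]
  exact IsScalarTower.algebraMap_apply O (σ.Sring O) _ c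

/-- A prime with the relations of a chart contains the chart. -/
lemma chartIdeal_le (h2 : IsUnit (2 : O)) (w : Worlds O σ) (P : Places O σ) (st : Fin σ.k → Bool)
    (q : Ideal (σ.Big O)) [q.IsPrime] (hO : ∀ c : O, c ≠ 0 → (C c : σ.Big O) ∉ q)
    (hmain : ∀ v, w.mainGen v ∈ q) (hloc : ∀ a, ∀ f ∈ P.localRels a, f ∈ q)
    (hst : ∀ a, st a = true → (P.frob a).trace - C (P.eps a * ((P.q a : O) + 1)) ∈ q)
    (hunr : ∀ a, st a = false → ∀ f ∈ P.unrRels a, f ∈ q) :
    w.chartIdeal P st ≤ q := by
  have : IsLocalRing (σ.Big O ⧸ q) := .of_surjective' _ Ideal.Quotient.mk_surjective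
  have := isAdicComplete_quotient (O := O) q
  have hmax : ∀ {f : σ.Big O}, f ∈ maximalIdeal (σ.Big O) →
      Ideal.Quotient.mk q f ∈ maximalIdeal (σ.Big O ⧸ q) := fun hf => by
    rw [← IsLocalRing.map_maximalIdeal_of_surjective _ (Ideal.Quotient.mk_surjective (I := q))]
    exact Ideal.mem_map_of_mem _ hf
  have hzero : ∀ {f : σ.Big O}, f ∈ q → Ideal.Quotient.mkₐ O q f = 0 := fun hf =>
    Ideal.Quotient.eq_zero_iff_mem.mpr hf
  have h := w.chartIdeal_le_ker P st h2 (Ideal.Quotient.mkₐ O q) ?_ ?_
    (fun v => hmax (Ribet.X_mem_maximalIdeal v)) (fun v => hzero (hmain v))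
    (P.isPoint_of_rels st _ (fun a f hf => hzero (hloc a f hf))
      (fun a ha => hzero (hst a ha)) fun a ha f hf => hzero (hunr a ha f hf))
  · exact h.trans fun f hf => Ideal.Quotient.eq_zero_iff_mem.mp hf
  · rw [injective_iff_map_eq_zero]
    intro c hc
    by_contra h
    exact hO c h (Ideal.Quotient.eq_zero_iff_mem.mp hc)
  · intro c hc
    exact hmax (Ribet.C_mem_maximalIdeal hc)

/-- The module with no place in the level is supported on the unramified chart. -/
theorem ker_act_zero_le (h2 : IsUnit (2 : O)) :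
    RingHom.ker (L.act 0) ≤ L.worlds.chartIdeal F.places (stUpto (σ := σ) 0) := by
  classical
  set x : Matrix (Fin (F.rank 0)) Unit (σ.Sring O) := Matrix.of fun c _ => L.base c
  set I := Support.annIdeal (L.act 0).toRingHom x
  have hne : I ≠ ⊤ := by
    intro h
    have h1 : (1 : σ.Big O) ∈ I := h ▸ Submodule.mem_top
    rw [Support.mem_annIdeal, map_one, Matrix.one_mul] at h1
    obtain ⟨c, hc⟩ := L.base_unit
    exact hc.ne_zero (congrFun (congrFun h1 c) ())
  obtain ⟨M, hM, hIM⟩ := Ideal.exists_le_maximal I hne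
  have := hM.isPrime
  obtain ⟨q, hq, -⟩ := Ideal.exists_minimalPrimes_le hIM
  have hqp : q.IsPrime := hq.1.1
  obtain ⟨hdim, hO⟩ := minimalPrime_facts L 0 x hq
  have hIq : I ≤ q := hq.1.2
  have hmem : ∀ {f}, L.act 0 f = 0 → f ∈ q := fun hf =>
    hIq (Support.ker_le_annIdeal _ _ hf)
  have hle := chartIdeal_le h2 L.worlds F.places (stUpto (σ := σ) 0) q hO (fun v => ?_)
    (fun a f hf => ?_) (fun a ha => by simp [stUpto] at ha) (fun a _ f hf => ?_)
  · have heq := Dim.eq_of_le_of_dim hle (L.worlds.ringKrullDim_chartIdeal_le F.places _) hdim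
    exact fun f hf => heq ▸ hmem hf
  · refine hqp.mem_of_pow_mem F.E (hIq ?_)
    rw [Support.mem_annIdeal, map_pow]
    refine Matrix.ext fun c u => ?_
    exact congrFun (L.base_rel v) c
  · exact hqp.mem_of_pow_mem F.E (hmem (by rw [map_pow]; exact L.local_rel 0 a f hf))
  · exact hqp.mem_of_pow_mem F.E (hmem (by rw [map_pow]; exact L.unr_rel 0 a (Nat.zero_le _) f hf))

/-- Setting the monodromy parameter of one place to zero. -/
def forget (a : Fin σ.k) : σ.ChartRing O →ₐ[O] σ.ChartRing O :=
  Deform.pev (Deform.varIdeal σ.ChartVar O)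
    (fun v => if v = Sum.inl (a, 2) then 0 else X v) fun v => by
      split_ifs
      · exact zero_mem _
      · exact Shape.X_mem_varIdeal' v

/-- **The inductive step**. -/
theorem ker_act_succ_le (h2 : IsUnit (2 : O)) (hF : F.Valid) (a : Fin σ.k)
    (hprev : RingHom.ker (L.act a.castSucc) ≤
      L.worlds.chartIdeal F.places (stUpto a.castSucc)) :
    RingHom.ker (L.act a.succ) ≤ L.worlds.chartIdeal F.places (stUpto a.succ) := by
  classical
  set P := F.places
  set w := L.worlds
  set st := stUpto (σ := σ) a.castSucc with hstdef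
  set st' := stUpto (σ := σ) a.succ with hst'def
  have hst'a : st' a = true := by simp [hst'def, stUpto]
  have hsta : st a = false := by simp [hstdef, stUpto]
  have hstlt : ∀ b, st b = true → st' b = true := by
    intro b hb
    simp [hstdef, hst'def, stUpto] at hb ⊢
    omega
  have hsteq : ∀ b, st' b = true → st b = false → b = a := by
    intro b hb hb'
    simp [hstdef, hst'def, stUpto] at hb hb'
    exact Fin.ext (by omega)
  -- the test prime
  set κ := forget (O := O) a
  have hκ : ∀ v, κ (X v) = if v = Sum.inl (a, 2) then 0 else X v := fun v => Deform.pev_X _ _ _ _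
  set ψ : σ.Big O →ₐ[O] σ.ChartRing O := κ.comp (w.bigChart P st') with hψ
  have : IsDomain (σ.ChartRing O) := NoZeroDivisors.to_isDomain _
  have hP : (RingHom.ker ψ).IsPrime := RingHom.ker_isPrime _
  have hκC : ∀ x : O, κ (C x) = C x := fun x => κ.commutes x
  have hψC : ∀ x : O, ψ (C x) = C x := fun x => ψ.commutes x
  have hψloc : ∀ b, ∀ f ∈ P.localRels b, ψ f = 0 := fun b f hf => by
    simp [hψ, P.bigChart_localRels w st' b f hf]
  have hψtr : ∀ b, st' b = true → ψ ((P.frob b).trace - C (P.eps b * ((P.q b : O) + 1))) = 0 :=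
    fun b hb => by rw [hψ, AlgHom.comp_apply, P.bigChart_trace w st' b hb, map_zero]
  have hψN : ∀ b i j, ψ (P.mono b i j) =
      κ (P.locMatIn st' b false (fun l => X (Sum.inl (b, l))) i j) := fun b i j => by
    rw [hψ, AlgHom.comp_apply, P.bigChart_mono]
  have hψunr : ∀ b, st b = false → ∀ f ∈ P.unrRels b, ψ f = 0 := by
    rintro b hb _ ⟨⟨i, j⟩, rfl⟩
    cases hb' : st' b
    · simp [hψN, Places.locMatIn, hb']
    · obtain rfl := hsteq b hb' hb
      simp [hψN, Places.locMatIn, hb', hκ]
  have hcP : w.chartIdeal P st ≤ RingHom.ker ψ :=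
    w.chartIdeal_le_ker P st h2 ψ (fun x y h => C_injective (σ := σ.ChartVar) h)
      (fun x hx => Ribet.C_mem_maximalIdeal hx) (fun v => map_X_mem ψ v)
      (fun v => by simp [hψ, w.bigChart_mainGen])
      (P.isPoint_of_rels st ψ hψloc (fun b hb => hψtr b (hstlt b hb)) hψunr)
  have hCC : ∀ x : O, (C x : σ.ChartRing O) = 0 → x = 0 := fun x hx =>
    C_injective (σ := σ.ChartVar) (hx.trans (map_zero C).symm)
  have hdiff : ∀ b, st' b = true →
      (P.frob b).trace + C (P.eps b * ((P.q b : O) + 1)) ∉ RingHom.ker ψ := by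
    intro b hb h
    rw [RingHom.mem_ker, map_add, hψC] at h
    have h1 := hψtr b hb
    rw [map_sub, hψC] at h1
    have h3 : (C (2 * (P.eps b * ((P.q b : O) + 1))) : σ.ChartRing O) = 0 := by
      rw [map_mul, map_ofNat]
      linear_combination h - h1
    have hq : ((P.q b + 1 : ℕ) : O) ≠ 0 := Nat.cast_ne_zero.mpr (by omega)
    push_cast at hq
    exact mul_ne_zero h2.ne_zero (mul_ne_zero (P.isUnit_eps b).ne_zero hq) (hCC _ h3)
  have hfac : ∀ b, P.disc b = (C (P.eps b * ((P.q b : O) + 1)) - (P.frob b).trace) *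
      (C (P.eps b * ((P.q b : O) + 1)) + (P.frob b).trace) := by
    intro b
    have hε : (C (P.eps b) : σ.Big O) ^ 2 = 1 := by rw [← map_pow, P.eps_sq, map_one]
    rw [Places.disc, map_mul]
    linear_combination (-(C ((P.q b : O) + 1) : σ.Big O) ^ 2) * hε
  have hdisc : P.disc a ∈ RingHom.ker ψ := by
    rw [hfac]
    refine Ideal.mul_mem_right _ _ (RingHom.mem_ker.mpr ?_)
    rw [← neg_sub, map_neg, hψtr a hst'a, neg_zero]
  -- the kernel of `tra` lives at the test prime
  set x := (1 : Matrix (Fin (F.rank a.succ)) (Fin (F.rank a.succ)) (σ.Sring O)) -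
    L.sect a * L.tra a
  obtain ⟨A, B, C', D', htd, hab, hac, had, hbc, hbd, hcd, hcomm, hnil⟩ := L.comp_det a
  have hann : Support.annIdeal (L.act a.succ).toRingHom x ≤ RingHom.ker ψ :=
    Support.annIdeal_ker_le (L.act a.castSucc).toRingHom (L.act a.succ).toRingHom (L.deg a) (L.tra a)
      (L.retr a) (L.sect a) (DFinite.finite_patchModule L a.castSucc)
      (fun f hf => hcP (hprev hf)) hdisc (L.retr_deg a) (L.tra_sect a)
      (fun f => L.deg_act a f) (fun f => L.tra_act a f) htd hab hac had hbc hbd hcd hcomm hnil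
  obtain ⟨q, hq, hqP⟩ := Ideal.exists_minimalPrimes_le hann
  have hqp : q.IsPrime := hq.1.1
  obtain ⟨hdim, hO⟩ := minimalPrime_facts L a.succ x hq
  have hmem : ∀ {f}, L.act a.succ f = 0 → f ∈ q := fun hf =>
    hq.1.2 (Support.ker_le_annIdeal _ _ hf)
  have hloc : ∀ b, ∀ f ∈ P.localRels b, f ∈ q := fun b f hf =>
    hqp.mem_of_pow_mem F.E (hmem (by rw [map_pow]; exact L.local_rel _ b f hf))
  have hdiscq : P.disc a ∈ q := by
    refine hqp.mem_of_pow_mem F.E (hq.1.2 ?_)
    rw [Support.mem_annIdeal, map_pow]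
    show L.act a.succ (F.places.disc a) ^ F.E * x = 0
    rw [L.disc_kernel a, Matrix.mul_assoc, Matrix.mul_sub, Matrix.mul_one, ← Matrix.mul_assoc (L.tra a),
      L.tra_sect, Matrix.one_mul, sub_self, Matrix.mul_zero]
  have hmain : ∀ v, w.mainGen v ∈ q := by
    intro v
    obtain ⟨g, hg, hg0⟩ := w.exists_othGen_proj_ne_zero P st' hF.count
    have hgP : g ∉ RingHom.ker ψ := by
      intro h
      apply hg0
      have e : (Worlds.globalProj (O := O) (σ := σ)).comp κ = Worlds.globalProj := by
        have hG : ∀ u, Worlds.globalProj (O := O) (σ := σ) (X u) =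
            Sum.elim (fun _ => 0) X u := fun u => Deform.pev_X _ _ _ _
        have hval : ∀ u, Worlds.globalProj (κ (X u : σ.ChartRing O)) =
            Sum.elim (fun _ => (0 : MvPowerSeries (Fin σ.r) O)) X u := by
          intro u
          rw [hκ]
          split_ifs with hu
          · simp [hu]
          · exact hG u
        exact Deform.algHom_ext_of_X (maximalIdeal (MvPowerSeries (Fin σ.r) O)) _ _
          (fun u => by
            rw [AlgHom.comp_apply, hval]
            rcases u with u | u
            · exact zero_mem _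
            · exact Ribet.X_mem_maximalIdeal u)
          fun u => by rw [AlgHom.comp_apply, hval, hG]
      rw [RingHom.mem_ker, hψ, AlgHom.comp_apply] at h
      rw [← e, AlgHom.comp_apply, h, map_zero]
    have h : w.mainGen v * g ∈ q :=
      hqp.mem_of_pow_mem F.E (hmem (by rw [map_pow]; exact L.world_rel _ v g hg))
    exact (hqp.mem_or_mem h).resolve_right fun h => hgP (hqP h)
  have hsq : ∀ b, st' b = true → P.disc b ∈ q := by
    intro b hb
    rcases eq_or_ne b a with rfl | hba
    · exact hdiscq
    have hN0 : P.mono b 0 1 ∉ q := by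
      intro h
      have h' := hqP h
      rw [RingHom.mem_ker, hψN] at h'
      simp [Places.locMatIn, hb, Frame.nilLine, hκ, hba] at h'
      have h'' := congrArg (coeff (Finsupp.single (Sum.inl (b, (2 : Fin 3)) : σ.ChartVar) 1)) h'
      simp at h''
    have hmk : ∀ {f}, f ∈ q → Ideal.Quotient.mk q f = 0 := fun hf =>
      Ideal.Quotient.eq_zero_iff_mem.mpr hf
    set π := Ideal.Quotient.mk q
    have hq0 : ∀ n : ℕ, n ≠ 0 → (n : σ.Big O ⧸ q) ≠ 0 := by
      intro n hn h
      rw [← map_natCast π, ← map_natCast (C : O →+* σ.Big O)] at h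
      exact hO _ (Nat.cast_ne_zero.mpr hn) (Ideal.Quotient.eq_zero_iff_mem.mp h)
    have hd : ((P.frob b).map π).det = (P.q b : σ.Big O ⧸ q) := by
      have h := hmk (hloc b _ (Or.inl (Or.inl rfl)))
      rw [map_sub, sub_eq_zero, map_natCast, map_natCast, RingHom.map_det] at h
      exact h
    have hN : (P.frob b).map π * (P.mono b).map π =
        (P.q b : σ.Big O ⧸ q) • ((P.mono b).map π * (P.frob b).map π) := by
      ext i j
      have h := hmk (hloc b _ (Or.inr ⟨(i, j), rfl⟩))
      dsimp only at h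
      rw [Matrix.sub_apply, map_sub, sub_eq_zero, Matrix.smul_apply, smul_eq_mul, map_mul,
        map_natCast, map_natCast] at h
      rw [← Matrix.map_mul, ← Matrix.map_mul, Matrix.map_apply, Matrix.smul_apply, smul_eq_mul,
        Matrix.map_apply]
      exact h
    have hne : (P.mono b).map π ≠ 0 := fun h =>
      hN0 (Ideal.Quotient.eq_zero_iff_mem.mp (congrFun (congrFun h 0) 1))
    have h2' := P.two_le b
    have hsq := Places.trace_sq_eq hd hN (hq0 _ (by omega)) (fun h => by
      have h' : ((P.q b - 1 : ℕ) : σ.Big O ⧸ q) = 0 := by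
        rw [Nat.cast_sub (by omega), Nat.cast_one, h, sub_self]
      exact hq0 _ (by omega) h') hne
    rw [Matrix.trace_fin_two, Matrix.map_apply, Matrix.map_apply, ← map_add,
      ← Matrix.trace_fin_two] at hsq
    refine Ideal.Quotient.eq_zero_iff_mem.mp ?_
    rw [Places.disc, map_sub, map_pow, map_pow, hsq, sub_eq_zero, map_add, map_one, map_natCast,
      map_add, map_natCast, map_one]
  have hle := chartIdeal_le h2 w P st' q hO hmain hloc
    (fun b hb => ?_) fun b hb f hf => ?_
  · have heq := Dim.eq_of_le_of_dim hle (w.ringKrullDim_chartIdeal_le P _) hdim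
    exact fun f hf => heq ▸ hmem hf
  · have h := hsq b hb
    rw [hfac] at h
    rcases hqp.mem_or_mem h with h | h
    · exact (Submodule.neg_mem_iff _).mp (by rwa [neg_sub])
    · exact absurd (hqP (by rwa [add_comm] at h)) (hdiff b hb)
  · refine hqp.mem_of_pow_mem F.E (hmem ?_)
    rw [map_pow]
    refine L.unr_rel a.succ b ?_ f hf
    simpa [hst'def, stUpto] using hb

/-- **The induction**. -/
theorem ker_act_le (h2 : IsUnit (2 : O)) (hF : F.Valid) :
    RingHom.ker (L.act i) ≤ L.worlds.chartIdeal F.places (stUpto i) := by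
  induction i using Fin.induction with
  | zero => exact ker_act_zero_le L h2
  | succ a ih => exact ker_act_succ_le L h2 hF a ih

end Engine

end Fermat.Agent.Lifting
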