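import Mathlib

/-!
# Two by two matrices with eigenvalues `ε q` and `ε`

Elementary identities used for the charts of the local conditions at the places where the level
is raised.
-/

set_option autoImplicit false

noncomputable section

namespace Fermat.Agent.Lifting.Frame

variable {R : Type} [CommRing R]

/-- `Φ - e`. -/
def shift (Φ : Matrix (Fin 2) (Fin 2) R) (e : R) : Matrix (Fin 2) (Fin 2) R := Φ - e • 1

/-- The rank one nilpotent matrix with kernel and image spanned by `(1, s)`. -/
def nilLine (s : R) : Matrix (Fin 2) (Fin 2) R := !![-s, 1; -s ^ 2, s]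

/-- `Φ - ε` in the chart. -/
def leftFac (d b s : R) : Matrix (Fin 2) (Fin 2) R := !![d - b * s, b; s * (d - b * s), b * s]

/-- `Φ - ε q` in the chart. -/
def rightFac (d b s : R) : Matrix (Fin 2) (Fin 2) R :=
  !![-(b * s), b; s * (d - b * s), b * s - d]

lemma sandwich_apply (A X D : Matrix (Fin 2) (Fin 2) R) (i j : Fin 2) :
    (A * X * D) i j = ∑ a, ∑ b, A i a * X a b * D b j := by
  simp only [Matrix.mul_apply, Finset.sum_mul]
  exact Finset.sum_comm

lemma sandwich_chart (d b s : R) (X : Matrix (Fin 2) (Fin 2) R) :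
    leftFac d b s * X * rightFac d b s =
      (leftFac d b s * X * rightFac d b s) 0 1 • nilLine s := by
  ext i j
  simp only [Matrix.smul_apply, smul_eq_mul, sandwich_apply, Fin.sum_univ_two]
  fin_cases i <;> fin_cases j <;> simp [leftFac, rightFac, nilLine] <;> ring

lemma det_mul_swap {M : Matrix (Fin 2) (Fin 2) R} (h : M.det = 0) (i j k l : Fin 2) :
    M i j * M k l = M i l * M k j := by
  rw [Matrix.det_fin_two] at h
  fin_cases i <;> fin_cases j <;> fin_cases k <;> fin_cases l <;>
    simp only [Fin.zero_eta, Fin.mk_one, Fin.isValue] <;>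
    first | ring | linear_combination h | linear_combination -h

lemma sandwich_swap {A D : Matrix (Fin 2) (Fin 2) R} (hA : A.det = 0) (hD : D.det = 0)
    (X Y : Matrix (Fin 2) (Fin 2) R) (k l : Fin 2) :
    (A * X * D) k l • (A * Y * D) = (A * Y * D) k l • (A * X * D) := by
  ext i j
  simp only [Matrix.smul_apply, smul_eq_mul, sandwich_apply, Finset.sum_mul_sum]
  conv_rhs => rw [Finset.sum_comm]; enter [2, a, 2, c]; rw [Finset.sum_comm]
  refine Finset.sum_congr rfl fun a _ => Finset.sum_congr rfl fun c _ =>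
    Finset.sum_congr rfl fun b _ => Finset.sum_congr rfl fun e _ => ?_
  linear_combination (X a b * Y c e) *
    ((D b l * D e j) * det_mul_swap hA k a i c + (A k c * A i a) * det_mul_swap hD b l e j)

variable {Φ N : Matrix (Fin 2) (Fin 2) R} {ε q : R}

lemma shift_mul_shift (hε : ε ^ 2 = 1) (ht : Φ.trace = ε * (q + 1)) (hd : Φ.det = q) :
    shift Φ ε * shift Φ (ε * q) = 0 ∧ shift Φ (ε * q) * shift Φ ε = 0 ∧
      (shift Φ ε).det = 0 ∧ (shift Φ (ε * q)).det = 0 := by
  rw [Matrix.trace_fin_two] at ht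
  rw [Matrix.det_fin_two] at hd
  refine ⟨?_, ?_, ?_, ?_⟩
  · ext i j
    fin_cases i <;> fin_cases j <;>
      simp [shift, Matrix.mul_apply, Fin.sum_univ_two, Matrix.sub_apply] <;> grobner
  · ext i j
    fin_cases i <;> fin_cases j <;>
      simp [shift, Matrix.mul_apply, Fin.sum_univ_two, Matrix.sub_apply] <;> grobner
  · simp [shift, Matrix.det_fin_two]; grobner
  · simp [shift, Matrix.det_fin_two]; grobner

/-- The monodromy relation forces the monodromy to be `Φ - ε`, `N`, `Φ - ε q` up to a scalar. -/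
lemma rels_of_comm [IsDomain R] (hε : ε ^ 2 = 1) (ht : Φ.trace = ε * (q + 1))
    (hd : Φ.det = q) (hqz : q ≠ 0) (hq : q ^ 2 ≠ 1) (hN : Φ * N = q • (N * Φ)) :
    Φ * N = (ε * q) • N ∧ N * Φ = ε • N ∧
      shift Φ ε * N * shift Φ (ε * q) = -((ε * (q - 1)) ^ 2 • N) := by
  obtain ⟨hAC, hCA, -, -⟩ := shift_mul_shift hε ht hd
  set A := shift Φ ε with hA
  set D := shift Φ (ε * q) with hD
  set d := ε * (q - 1) with hdd
  have hsub : D = A - d • 1 := by
    rw [hA, hD, hdd, shift, shift, mul_sub, mul_one, sub_smul]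
    abel
  have hΦ : Φ = A + ε • 1 := by rw [hA, shift]; abel
  have hAA : A * A = d • A := by
    rw [hsub, Matrix.mul_sub, Matrix.mul_smul, Matrix.mul_one, sub_eq_zero] at hAC
    exact hAC
  have hAN : A * N = d • N + q • (N * A) := by
    rw [hΦ, Matrix.add_mul, Matrix.mul_add, Matrix.smul_mul, Matrix.mul_smul, Matrix.one_mul,
      Matrix.mul_one, smul_add, smul_smul, ← eq_sub_iff_add_eq] at hN
    rw [hN, hdd]
    module
  have hq1 : (1 + q) ≠ 0 := fun h => hq (by linear_combination (q - 1) * h)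
  have hd0 : d ≠ 0 := by
    rw [hdd]
    refine mul_ne_zero (fun h => ?_) (fun h => hq (by linear_combination (q + 1) * h))
    rw [h] at hε
    simp at hε
  have hq0 : q • (A * N * A) = 0 := by
    have h1 : A * (A * N) = A * (d • N + q • (N * A)) := by rw [hAN]
    rw [← Matrix.mul_assoc, hAA, Matrix.smul_mul, Matrix.mul_add, Matrix.mul_smul, Matrix.mul_smul,
      ← Matrix.mul_assoc, left_eq_add] at h1
    exact h1
  have hNA : N * A = 0 := by
    have h1 : A * N * A = d • (N * A) + (q * d) • (N * A) := by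
      rw [hAN, Matrix.add_mul, Matrix.smul_mul, Matrix.smul_mul, Matrix.mul_assoc N, hAA,
        Matrix.mul_smul, smul_smul]
    rw [h1, smul_add, smul_smul, smul_smul, ← add_smul] at hq0
    refine (smul_eq_zero.mp hq0).resolve_left ?_
    have : q * d + q * (q * d) = q * d * (1 + q) := by ring
    rw [this]
    exact mul_ne_zero (mul_ne_zero hqz hd0) hq1
  rw [hNA, smul_zero, add_zero] at hAN
  refine ⟨?_, ?_, ?_⟩
  · rw [hΦ, Matrix.add_mul, hAN, Matrix.smul_mul, Matrix.one_mul, ← add_smul, hdd]
    congr 1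
    ring
  · rw [hΦ, Matrix.mul_add, hNA, zero_add, Matrix.mul_smul, Matrix.mul_one]
  · rw [hsub, hAN, Matrix.smul_mul, Matrix.mul_sub, hNA, Matrix.mul_smul, Matrix.mul_one,
      zero_sub, smul_neg, smul_smul, sq]

end Fermat.Agent.Lifting.Frame
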