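import Fermat.Agent.Lifting.APoint

/-!
# The kernel of the chart vanishes at points with the local conditions
-/

set_option autoImplicit false

noncomputable section

namespace Fermat.Agent.Lifting

open MvPowerSeries IsLocalRing

lemma isUnit_add_mem {B : Type} [CommRing B] [IsLocalRing B] {u x : B} (hu : IsUnit u)
    (hx : x ∈ maximalIdeal B) : IsUnit (u + x) := by
  by_contra h
  have h' := (maximalIdeal B).sub_mem ((IsLocalRing.mem_maximalIdeal _).mpr h) hx
  rw [add_sub_cancel_right] at h'
  exact (IsLocalRing.mem_maximalIdeal _).mp h' hu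

namespace Places

variable {O : Type} [CommRing O] [IsDomain O] [IsDiscreteValuationRing O] [CharZero O]
  {σ : Shape} (P : Places O σ) (st : Fin σ.k → Bool)
  {B : Type} [CommRing B] [IsDomain B] [IsLocalRing B] [Algebra O B]
  {pt : σ.LocVar ⊕ Fin σ.r → B}

/-- What is needed at one place to lift a point to the intermediate ring. -/
def PlaceData (pt : σ.LocVar ⊕ Fin σ.r → B) (a : Fin σ.k) (X0 : Matrix (Fin 2) (Fin 2) O)
    (κ n : B) (x : Fin 3 → B) : Prop :=
  κ ≠ 0 ∧ n ∈ maximalIdeal B ∧ (∀ j, x j ∈ maximalIdeal B) ∧
    (P.scalarB st a = true →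
      (∀ i j, pt (Sum.inl (a, true, i, j)) = !![x 2, x 0; x 1, -x 2] i j) ∧
      (Frame.quadLeft (algebraMap O B (P.gap a)) (x 0) (x 1) (x 2)).det = 0 ∧
      n • (Frame.quadLeft (algebraMap O B (P.gap a)) (x 0) (x 1) (x 2) *
        X0.map (algebraMap O B) * Frame.quadRight (algebraMap O B (P.gap a)) (x 0) (x 1) (x 2)) =
          κ • P.monoAt pt a) ∧
    (P.scalarB st a = false → κ = 1 ∧
      (∀ i j, pt (Sum.inl (a, true, i, j)) = P.locMatIn st a true x i j) ∧
      (st a = true → n • Frame.nilLine (x 1) = P.monoAt pt a))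

lemma frame_of_isPoint (hinj : Function.Injective (algebraMap O B)) (hpt : P.IsPoint st pt)
    {a : Fin σ.k} (ha : st a = true) :
    let Φ := P.frobAt pt a
    let ε := algebraMap O B (P.eps a)
    let A := Frame.shift Φ ε
    let D := Frame.shift Φ (ε * (P.q a : B))
    A.det = 0 ∧ D.det = 0 ∧ algebraMap O B (P.gap a) ≠ 0 ∧
      A * P.monoAt pt a * D = -((algebraMap O B (P.gap a)) ^ 2 • P.monoAt pt a) ∧
      A = Frame.quadLeft (algebraMap O B (P.gap a))
        (algebraMap O B (P.beta a) + pt (Sum.inl (a, true, 0, 1))) (pt (Sum.inl (a, true, 1, 0)))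
        (pt (Sum.inl (a, true, 0, 0))) ∧
      D = Frame.quadRight (algebraMap O B (P.gap a))
        (algebraMap O B (P.beta a) + pt (Sum.inl (a, true, 0, 1))) (pt (Sum.inl (a, true, 1, 0)))
        (pt (Sum.inl (a, true, 0, 0))) ∧
      pt (Sum.inl (a, true, 1, 1)) = -pt (Sum.inl (a, true, 0, 0)) := by
  intro Φ ε A D
  obtain ⟨hd, hst, -⟩ := hpt a
  obtain ⟨ht, hN⟩ := hst ha
  have hε : ε ^ 2 = 1 := by rw [← map_pow, P.eps_sq, map_one]
  have hq1 : (P.q a : O) ≠ 1 := by
    rw [← Nat.cast_one, Ne, Nat.cast_inj]
    have := P.two_le a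
    omega
  have hqB : ∀ m : ℕ, (P.q a) ^ m ≠ 1 → (P.q a : B) ^ m ≠ 1 := by
    intro m hm h
    apply hm
    rw [← map_natCast (algebraMap O B), ← map_pow, ← map_one (algebraMap O B)] at h
    exact_mod_cast hinj h
  have hq2 : (P.q a : B) ^ 2 ≠ 1 := hqB 2 (by have := P.two_le a; nlinarith)
  have hq0 : (P.q a : B) ≠ 0 := by
    rw [← map_natCast (algebraMap O B), Ne, ← map_zero (algebraMap O B)]
    intro h
    have := hinj h
    rw [Nat.cast_eq_zero] at this
    have := P.two_le a
    omega
  obtain ⟨-, -, hA, hD⟩ := Frame.shift_mul_shift hε ht hd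
  have hgap : algebraMap O B (P.gap a) = ε * ((P.q a : B) - 1) := by simp [gap, ε]
  have hg0 : algebraMap O B (P.gap a) ≠ 0 := by
    rw [← map_zero (algebraMap O B)]
    intro h
    refine mul_ne_zero (P.isUnit_eps a).ne_zero ?_ (hinj h)
    exact sub_ne_zero.mpr hq1
  have e11 : pt (Sum.inl (a, true, 1, 1)) = -pt (Sum.inl (a, true, 0, 0)) := by
    rw [Matrix.trace_fin_two] at ht
    simp [Φ, frobAt, centre, ε] at ht
    linear_combination ht
  refine ⟨hA, hD, hg0, ?_, ?_, ?_, e11⟩
  · rw [hgap]
    exact (Frame.rels_of_comm hε ht hd hq0 hq2 hN).2.2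
  · rw [hgap]
    ext i j
    fin_cases i <;> fin_cases j <;>
      simp [A, Φ, Frame.shift, Frame.quadLeft, frobAt, centre, ε, e11, -algebraMap_smul] <;> ring
  · rw [hgap]
    ext i j
    fin_cases i <;> fin_cases j <;>
      simp [D, Φ, Frame.shift, Frame.quadRight, frobAt, centre, ε, e11, -algebraMap_smul] <;> ring

lemma exists_placeData (hinj : Function.Injective (algebraMap O B))
    (hloc : ∀ x ∈ maximalIdeal O, algebraMap O B x ∈ maximalIdeal B)
    (hP : ∀ v, pt v ∈ maximalIdeal B) (hpt : P.IsPoint st pt) (a : Fin σ.k) :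
    ∃ X0 κ n x, P.PlaceData st pt a X0 κ n x := by
  classical
  set z := pt (Sum.inl (a, true, 0, 1)) with hz
  set c := pt (Sum.inl (a, true, 1, 0)) with hc
  set e := pt (Sum.inl (a, true, 0, 0)) with he
  cases hst : st a
  · -- an unramified place
    have hns : P.scalarB st a = false := by simp [scalarB, hst]
    refine ⟨0, 1, 0, ![e, z, c], one_ne_zero, zero_mem _, fun j => by
      fin_cases j <;> simp [he, hz, hc, hP], by simp [hns], fun _ => ⟨rfl, fun i j => ?_,
        by simp [hst]⟩⟩
    have hd := (hpt a).1
    have hu : IsUnit (algebraMap O B (P.eps a) * (P.q a : B) + e) := by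
      have h1 : IsUnit (algebraMap O B (P.eps a) * (P.q a : B)) := by
        simpa using ((P.isUnit_eps a).mul (P.isUnit_q a)).map (algebraMap O B)
      exact isUnit_add_mem h1 (hP _)
    have hi := Ring.mul_inverse_cancel _ hu
    rw [Matrix.det_fin_two] at hd
    simp [frobAt, centre, ← he, ← hz, ← hc] at hd
    fin_cases i <;> fin_cases j <;> simp [locMatIn, hst, Frame.unrFrob, he, hz, hc]
    rw [← he, ← hz, ← hc]
    linear_combination Ring.inverse (algebraMap O B (P.eps a) * (P.q a : B) + e) * hd -
      (algebraMap O B (P.eps a) + pt (Sum.inl (a, true, 1, 1))) * hi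
  obtain ⟨hA, hD, hg0, hAND, hAe, hDe, e11⟩ := P.frame_of_isPoint st hinj hpt hst
  set A := Frame.shift (P.frobAt pt a) (algebraMap O B (P.eps a)) with hAdef
  set D := Frame.shift (P.frobAt pt a) (algebraMap O B (P.eps a) * (P.q a : B)) with hDdef
  set d := algebraMap O B (P.gap a) with hdd
  set N := P.monoAt pt a with hNdef
  cases hsc : P.scalarB st a
  · -- direct coordinates
    set b := algebraMap O B (P.beta a) + z with hb
    have hquad : e * (d + e) + b * c = 0 := by
      rw [hAe, Matrix.det_fin_two] at hA
      simp [Frame.quadLeft] at hA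
      linear_combination -hA
    obtain ⟨s, hsm, hes, hcs⟩ : ∃ s, s ∈ maximalIdeal B ∧ e = -(b * s) ∧
        c = s * (d - b * s) := by
      rcases P.beta_spec a with ⟨h1, -⟩ | h0
      · have hbu : IsUnit b := by
          rw [hb, h1, map_one]
          exact isUnit_add_mem isUnit_one (hP _)
        have hi := Ring.mul_inverse_cancel _ hbu
        refine ⟨-(e * Ring.inverse b), Submodule.neg_mem _ (Ideal.mul_mem_right _ _ (hP _)), ?_, ?_⟩
        · linear_combination (-e) * hi
        · linear_combination Ring.inverse b * hquad - (c - e * e * Ring.inverse b) * hi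
      · have hgu : IsUnit (P.gap a) := by simpa [scalarB, hst, h0] using hsc
        have hdu : IsUnit (d + e) := isUnit_add_mem (hgu.map (algebraMap O B)) (hP _)
        have hi := Ring.mul_inverse_cancel _ hdu
        have h1 : e = -(b * (c * Ring.inverse (d + e))) := by
          linear_combination Ring.inverse (d + e) * hquad - e * hi
        refine ⟨c * Ring.inverse (d + e), Ideal.mul_mem_right _ _ (hP _), h1, ?_⟩
        linear_combination (-c) * hi + (c * Ring.inverse (d + e)) * h1
    have hAl : A = Frame.leftFac d b s := by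
      rw [hAe]
      ext i j
      fin_cases i <;> fin_cases j <;> simp [Frame.quadLeft, Frame.leftFac, ← hb, ← he, ← hc]
      · linear_combination hes
      · exact hcs
      · linear_combination -hes
    have hDl : D = Frame.rightFac d b s := by
      rw [hDe]
      ext i j
      fin_cases i <;> fin_cases j <;> simp [Frame.quadRight, Frame.rightFac, ← hb, ← he, ← hc]
      · exact hes
      · exact hcs
      · linear_combination -hes
    refine ⟨0, 1, N 0 1, ![z, s, N 0 1], one_ne_zero, hP _, fun j => by
      fin_cases j <;> simp [hz, hsm, hP, N, monoAt], by simp [hsc],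
      fun _ => ⟨rfl, fun i j => ?_, fun _ => ?_⟩⟩
    · fin_cases i <;> fin_cases j <;>
        simp [locMatIn, hst, Frame.stFrob, ← hdd, ← hb, ← he, ← hc, ← hz, e11]
      · exact hes
      · exact hcs
      · linear_combination -hes
    · have h := Frame.sandwich_chart d b s N
      rw [← hAl, ← hDl, hAND] at h
      simp only [Matrix.neg_apply, Matrix.smul_apply, smul_eq_mul, neg_smul, neg_inj,
        mul_smul] at h
      exact (smul_right_injective _ (pow_ne_zero 2 hg0) h).symm
  · -- scalar centre
    have hb0 : P.beta a = 0 := by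
      have h : st a = true ∧ P.beta a = 0 ∧ ¬ IsUnit (P.gap a) := by simpa [scalarB] using hsc
      exact h.2.1
    have hA0 : A ≠ 0 := by
      intro h
      rw [hAe] at h
      have h00 := congrFun (congrFun h 0) 0
      have h11 := congrFun (congrFun h 1) 1
      simp [Frame.quadLeft] at h00 h11
      exact hg0 (by linear_combination h00 - h11)
    have hD0 : D ≠ 0 := by
      intro h
      rw [hDe] at h
      have h00 := congrFun (congrFun h 0) 0
      have h11 := congrFun (congrFun h 1) 1
      simp [Frame.quadRight] at h00 h11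
      exact hg0 (by linear_combination (-1 : B) * h11 - h00)
    obtain ⟨k, i, hki⟩ : ∃ k i, A k i ≠ 0 := by
      by_contra! h
      exact hA0 (Matrix.ext h)
    obtain ⟨j, l, hjl⟩ : ∃ j l, D j l ≠ 0 := by
      by_contra! h
      exact hD0 (Matrix.ext h)
    have hX : (A * (Matrix.single i j (1 : O)).map (algebraMap O B) * D) k l = A k i * D j l := by
      rw [Frame.sandwich_apply, Finset.sum_eq_single i, Finset.sum_eq_single j] <;>
        simp +contextual [Matrix.single, eq_comm]
    have hsw := Frame.sandwich_swap hA hD ((Matrix.single i j (1 : O)).map (algebraMap O B)) N k l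
    rw [hAND, hX] at hsw
    simp only [Matrix.neg_apply, Matrix.smul_apply, smul_eq_mul, smul_neg, neg_smul, neg_inj,
      mul_smul, smul_comm (A k i * D j l) (d ^ 2)] at hsw
    refine ⟨Matrix.single i j 1, A k i * D j l, N k l, ![z, c, e], mul_ne_zero hki hjl, hP _,
      fun m => by fin_cases m <;> simp [hz, hc, he, hP],
      fun _ => ⟨fun i' j' => ?_, ?_, ?_⟩, by simp [hsc]⟩
    · fin_cases i' <;> fin_cases j' <;> simp [he, hz, hc, e11]
    · rw [hAe, hb0, map_zero, zero_add] at hA
      exact hA
    · rw [hb0, map_zero, zero_add] at hAe hDe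
      simp only [Matrix.cons_val_zero, Matrix.cons_val_one, Matrix.cons_val]
      rw [← hAe, ← hDe, mul_smul]
      exact (smul_right_injective _ (pow_ne_zero 2 hg0) hsw).symm

variable [IsNoetherianRing B] [IsAdicComplete (maximalIdeal B) B]

/-- **Point theorem**: a series killed by the chart vanishes at every point with the local
conditions. -/
theorem pev_eq_zero_of_chartHom (h2 : IsUnit (2 : O))
    (hinj : Function.Injective (algebraMap O B))
    (hloc : ∀ x ∈ maximalIdeal O, algebraMap O B x ∈ maximalIdeal B)
    (hP : ∀ v, pt v ∈ maximalIdeal B) (hpt : P.IsPoint st pt)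
    (f : σ.MainRing O) (hf : P.chartHom st f = 0) :
    Deform.pev (maximalIdeal B) pt hP f = 0 := by
  classical
  choose X0 κ n x hκ hn hx hsca hfree using P.exists_placeData st hinj hloc hP hpt
  obtain ⟨ϖ, hϖ⟩ := IsDiscreteValuationRing.exists_irreducible O
  have : IsDomain (MvPowerSeries Unit B) := NoZeroDivisors.to_isDomain _
  set M := maximalIdeal (MvPowerSeries Unit B)
  have halg : ∀ t : O, algebraMap O (MvPowerSeries Unit B) t = C (algebraMap O B t) := fun t =>
    MvPowerSeries.algebraMap_apply
  set K := ∏ a, κ a with hK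
  set K' : Fin σ.k → B := fun a => ∏ b ∈ Finset.univ.erase a, κ b with hK'
  have hKK : ∀ a, κ a * K' a = K := fun a => Finset.mul_prod_erase _ κ (Finset.mem_univ a)
  set T : MvPowerSeries Unit B := X ()
  -- the point of the intermediate ring
  let pt' : MidVar σ → MvPowerSeries Unit B :=
    Sum.elim (fun v => if P.scalarB st v.1 then C (x v.1 v.2) else 0)
      (Sum.elim (fun v => if v.2 = 2 ∧ st v.1 = true then C (K' v.1 * n v.1) * T
        else C (x v.1 v.2)) fun v => C (pt (Sum.inr v)))
  have hpt' : ∀ v, pt' v ∈ M := by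
    rintro (⟨a, j⟩ | ⟨a, j⟩ | v) <;> simp only [pt', Sum.elim_inl, Sum.elim_inr]
    · split_ifs
      · exact Ribet.C_mem_maximalIdeal (hx _ _)
      · exact zero_mem _
    · split_ifs
      · exact Ideal.mul_mem_left _ _ (Ribet.X_mem_maximalIdeal _)
      · exact Ribet.C_mem_maximalIdeal (hx _ _)
    · exact Ribet.C_mem_maximalIdeal (hP _)
  let w : σ.LocVar ⊕ Fin σ.r → Unit →₀ ℕ :=
    Sum.elim (fun v => cond v.2.1 0 (Finsupp.single () 1)) fun _ => 0
  let Q : σ.LocVar ⊕ Fin σ.r → MvPowerSeries Unit B := fun v => monomial (w v) (pt v)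
  have hQ : ∀ v, Q v ∈ M := fun v => Ribet.monomial_mem_maximalIdeal (w v) (hP v)
  set φ : MvPowerSeries (MidVar σ) O →ₐ[O] MvPowerSeries Unit B := Deform.pev M pt' hpt' with hφ
  set res := Ribet.rescaleHom (O := O) fun _ : Unit => K with hres
  -- the values of the two sides on the variables
  have hval : ∀ v, res (Q v) = φ (P.midVal st X0 v) := by
    rintro (⟨a, b, i, j⟩ | v)
    · have eQt : Q (Sum.inl (a, true, i, j)) = C (pt (Sum.inl (a, true, i, j))) :=
        monomial_zero_eq_C_apply _
      have eQf : Q (Sum.inl (a, false, i, j)) = C (P.monoAt pt a i j) * T := by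
        rw [← monomial_zero_eq_C_apply, show T = monomial (Finsupp.single () 1) 1 from rfl,
          monomial_mul_monomial, zero_add, mul_one]
        rfl
      simp only [midVal, Sum.elim_inl]
      cases hsc : P.scalarB st a
      · obtain ⟨hκ1, htrue, hfalse⟩ := hfree a hsc
        simp only [midMat, hsc, cond_false]
        rw [P.map_locMatIn st φ a b (y := fun l => pt' (Sum.inr (Sum.inl (a, l))))
          (fun l => by simp [hφ, Deform.pev_X])
          (by simpa [MvPowerSeries.algebraMap_apply] using
            P.isUnit_unrDen a (Sum.inr (Sum.inl (a, 0)) : MidVar σ))]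
        have hK1 : K' a = K := by rw [← hKK a, hκ1, one_mul]
        cases b
        · rw [eQf, hres, Ribet.rescaleHom_apply, map_mul, Ribet.rescale_C, Ribet.rescale_X]
          cases hst : st a
          · simp [locMatIn, hst, pt', (hpt a).2.2 hst]
          · rw [← hfalse hst]
            simp [locMatIn, hst, pt', hK1, halg, ← Frame.map_nilLine (C : B →+* MvPowerSeries Unit B)]
            ring
        · rw [eQt, hres, Ribet.rescaleHom_apply, Ribet.rescale_C, htrue]
          cases hst : st a
          · simp only [locMatIn, hst, cond_true, cond_false]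
            rw [Frame.map_unrFrob (C : B →+* MvPowerSeries Unit B)]
            · simp [pt', hst, halg]
            · have h1 : IsUnit (algebraMap O B (P.eps a) * (P.q a : B)) := by
                simpa using ((P.isUnit_eps a).mul (P.isUnit_q a)).map (algebraMap O B)
              exact isUnit_add_mem h1 (hx a 0)
          · simp [locMatIn, hst, pt', halg, Frame.map_stFrob (C : B →+* MvPowerSeries Unit B)]
      · obtain ⟨htrue, -, hfalse⟩ := hsca a hsc
        have hst : st a = true := by
          have h : st a = true ∧ P.beta a = 0 ∧ ¬ IsUnit (P.gap a) := by simpa [scalarB] using hsc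
          exact h.1
        simp only [midMat, hsc, cond_true]
        have v0 : ∀ l, φ (X (Sum.inl (a, l))) = C (x a l) := fun l => by
          simp [hφ, Deform.pev_X, pt', hsc]
        cases b
        · rw [eQf, hres, Ribet.rescaleHom_apply, map_mul, Ribet.rescale_C, Ribet.rescale_X]
          simp only [cond_false, Matrix.smul_apply, smul_eq_mul, map_mul]
          rw [← Matrix.map_apply (f := φ) (M := Frame.quadLeft _ _ _ _ * _ * Frame.quadRight _ _ _ _),
            Matrix.map_mul, Matrix.map_mul,
            show (Frame.quadLeft (C (P.gap a)) (X (Sum.inl (a, 0))) (X (Sum.inl (a, 1)))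
              (X (Sum.inl (a, 2)))).map φ =
              (Frame.quadLeft (algebraMap O B (P.gap a)) (x a 0) (x a 1) (x a 2)).map
                (C : B →+* MvPowerSeries Unit B) from Matrix.ext fun i j => by
              fin_cases i <;> fin_cases j <;>
                simp [Frame.quadLeft, v0, Ribet.algHom_C, halg],
            show (Frame.quadRight (C (P.gap a)) (X (Sum.inl (a, 0))) (X (Sum.inl (a, 1)))
              (X (Sum.inl (a, 2)))).map φ =
              (Frame.quadRight (algebraMap O B (P.gap a)) (x a 0) (x a 1) (x a 2)).map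
                (C : B →+* MvPowerSeries Unit B) from Matrix.ext fun i j => by
              fin_cases i <;> fin_cases j <;>
                simp [Frame.quadRight, v0, Ribet.algHom_C, halg],
            show ((X0 a).map (C : O → MvPowerSeries (MidVar σ) O)).map φ =
              ((X0 a).map (algebraMap O B)).map (C : B →+* MvPowerSeries Unit B) from
                Matrix.ext fun i j => by simp [Ribet.algHom_C, halg],
            ← Matrix.map_mul, ← Matrix.map_mul, Matrix.map_apply,
            show φ (X (Sum.inr (Sum.inl (a, 2)))) = C (K' a * n a) * T by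
              simp [hφ, Deform.pev_X, pt', hst]]
          have h := congrFun (congrFun hfalse i) j
          simp only [Matrix.smul_apply, smul_eq_mul] at h
          rw [mul_right_comm (C (K' a * n a)), ← map_mul, mul_assoc (K' a), h, ← hKK a]
          simp only [map_mul]
          ring
        · rw [eQt, hres, Ribet.rescaleHom_apply, Ribet.rescale_C, htrue]
          fin_cases i <;> fin_cases j <;> simp [v0]
    · rw [show Q (Sum.inr v) = C (pt (Sum.inr v)) from monomial_zero_eq_C_apply _, hres,
        Ribet.rescaleHom_apply, Ribet.rescale_C]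
      simp [midVal, hφ, Deform.pev_X, pt']
  have key : res.comp (Deform.pev M Q hQ) = φ.comp (P.midHom st X0) := by
    refine Deform.algHom_ext_of_X M _ _ (fun v => ?_) (fun v => ?_)
    · simp only [AlgHom.comp_apply, Deform.pev_X, hres, Ribet.rescaleHom_apply]
      rw [Ribet.mem_maximalIdeal_iff_constantCoeff, ← coeff_zero_eq_constantCoeff, coeff_rescale,
        coeff_zero_eq_constantCoeff]
      exact Ideal.mul_mem_left _ _ ((Ribet.mem_maximalIdeal_iff_constantCoeff _).mp (hQ v))
    · simp only [AlgHom.comp_apply, Deform.pev_X, midHom_X, hval]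
  have hδ : ∀ a, P.delta st a ∈ maximalIdeal O := by
    intro a
    rw [delta]
    split_ifs with h
    · refine Ideal.mul_mem_left _ _ ((IsLocalRing.mem_maximalIdeal _).mpr ?_)
      have h' : st a = true ∧ P.beta a = 0 ∧ ¬ IsUnit (P.gap a) := by simpa [scalarB] using h
      exact h'.2.2
    · exact zero_mem _
  have hmid : φ (P.midHom st X0 f) = 0 := by
    refine Quadric.pev_eq_zero_of_chartHom (P.delta st) (ϖ := ϖ) (fun a => ?_) hϖ.ne_zero ?_ pt'
      hpt' (fun a => ?_) _ ?_
    · rw [← Ideal.mem_span_singleton, ← hϖ.maximalIdeal_eq]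
      exact hδ a
    · rw [halg]
      exact Ribet.C_mem_maximalIdeal (hloc _ ((IsLocalRing.mem_maximalIdeal _).mpr hϖ.not_isUnit))
    · cases hsc : P.scalarB st a
      · simp [pt', hsc, Ribet.qd, Ribet.unshift, delta]
      · obtain ⟨-, hdet, -⟩ := hsca a hsc
        have hd2 := congrArg (algebraMap O B) (P.delta_add_self st h2 hsc)
        rw [map_mul, map_ofNat] at hd2
        rw [halg, show (fun l => pt' (Sum.inl (a, l))) =
          fun l => (C (x a l) : MvPowerSeries Unit B) by simp [pt', hsc]]
        have e : Ribet.qd (Ribet.unshift (algebraMap O B (P.delta st a)) (x a)) =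
            algebraMap O B (P.delta st a) ^ 2 := by
          rw [Matrix.det_fin_two] at hdet
          simp [Frame.quadLeft] at hdet
          simp [Ribet.qd, Ribet.unshift]
          linear_combination x a 2 * hd2 - hdet
        rw [← map_pow, ← e, Ribet.map_qd]
        congr 1
        funext l
        rw [Ribet.map_unshift]
    · rw [chartHom_midHom P st X0 h2, hf, map_zero]
  have h0 : res (Deform.pev M Q hQ f) = 0 := (DFunLike.congr_fun key f).trans hmid
  refine Ribet.pev_eq_zero_of_graded pt hP w (fun v => ?_) f ?_
  · rcases v with ⟨a, b, i, j⟩ | v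
    · cases b <;> simp [w]
    · simp [w]
  · refine MvPowerSeries.ext fun d => ?_
    have := congrArg (coeff d) h0
    rw [hres, Ribet.rescaleHom_apply, coeff_rescale, map_zero, mul_eq_zero] at this
    rcases this with h | h
    · rw [Finsupp.prod, Finset.prod_eq_zero_iff] at h
      obtain ⟨u, -, hu⟩ := h
      exact absurd (pow_eq_zero_iff'.mp hu).1 (Finset.prod_ne_zero_iff.mpr fun a _ => hκ a)
    · rw [map_zero]
      exact h

end Places

end Fermat.Agent.Lifting
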