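import Fermat.Agent.Lifting.ADim
import Fermat.Agent.Lifting.APointMain

/-!
# The dimension of the charts
-/

set_option autoImplicit false

noncomputable section

namespace Fermat.Agent.Lifting

open MvPowerSeries IsLocalRing

namespace Shape

variable (σ : Shape)

/-- The common dimension of the charts and of the patched modules. -/
abbrev dimD : ℕ := 1 + Fintype.card σ.SVar

variable {σ} {O : Type} [CommRing O]

/-- The variables of a place in the big ring. -/
abbrev lx (a : Fin σ.k) (b : Bool) (i j : Fin 2) : σ.Big O := X (Sum.inl (a, b, i, j))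

lemma mainIncl_X (v : σ.LocVar ⊕ Fin σ.r) :
    σ.mainIncl (X v : σ.MainRing O) = X (σ.mainVar v) :=
  Deform.pev_X _ _ _ _

lemma mainIncl_mem {I : Ideal (σ.Big O)} (h : ∀ v, (X (σ.mainVar v) : σ.Big O) ∈ I)
    {g : σ.MainRing O} (hg : (C (constantCoeff g) : σ.Big O) ∈ I) : σ.mainIncl g ∈ I := by
  have hle : Deform.varIdeal (σ.LocVar ⊕ Fin σ.r) O ≤ I.comap σ.mainIncl := by
    rw [Deform.varIdeal, Ideal.span_le]
    rintro _ ⟨v, rfl⟩
    rw [SetLike.mem_coe, Ideal.mem_comap, mainIncl_X]
    exact h v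
  have h' := I.add_mem (hle ((Deform.sub_C_constantCoeff_mem g))) hg
  rwa [map_sub, show σ.mainIncl (C (constantCoeff g) : σ.MainRing O) =
    (C (constantCoeff g) : σ.Big O) from σ.mainIncl.commutes _, sub_add_cancel] at h' 

end Shape

namespace Worlds

variable {O : Type} [CommRing O] [IsLocalRing O] [IsNoetherianRing O]
  [IsAdicComplete (maximalIdeal O) O] {σ : Shape} (w : Worlds O σ) (P : Places O σ)
  (st : Fin σ.k → Bool)

/-- The prime of the main world with the given types at the places. -/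
def chartIdeal : Ideal (σ.Big O) := RingHom.ker (w.bigChart P st)

instance chartIdeal_isPrime [IsDomain O] : (w.chartIdeal P st).IsPrime :=
  have : IsDomain (σ.ChartRing O) := NoZeroDivisors.to_isDomain _
  RingHom.ker_isPrime _

open Classical in
/-- Parameters of a chart. -/
def param (ϖ : O) : Unit ⊕ σ.SVar → σ.Big O :=
  Sum.elim (fun _ => C ϖ) (Sum.elim (fun j => X (σ.mainVar (Sum.inr j))) fun v =>
    if st v.1 then
      if IsUnit (P.beta v.1) then
        ![Shape.lx v.1 true 0 0, Shape.lx v.1 true 0 1, Shape.lx v.1 false 0 1] v.2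
      else if IsUnit (P.gap v.1) then
        ![Shape.lx v.1 true 0 1, Shape.lx v.1 true 1 0, Shape.lx v.1 false 0 1] v.2
      else
        ![Shape.lx v.1 false 0 1 - Shape.lx v.1 true 1 0,
          Shape.lx v.1 false 1 0 - Shape.lx v.1 true 0 1, Shape.lx v.1 false 0 0] v.2
    else ![Shape.lx v.1 true 0 0, Shape.lx v.1 true 0 1, Shape.lx v.1 true 1 0] v.2)

lemma param_mem {ϖ : O} (hϖ : ϖ ∈ maximalIdeal O) (v : Unit ⊕ σ.SVar) :
    param P st ϖ v ∈ maximalIdeal (σ.Big O) := by
  have hX : ∀ u : σ.Var, (X u : σ.Big O) ∈ maximalIdeal (σ.Big O) := Ribet.X_mem_maximalIdeal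
  rcases v with _ | j | ⟨a, j⟩
  · exact Ribet.C_mem_maximalIdeal hϖ
  · exact hX _
  · simp only [param, Sum.elim_inr]
    split_ifs <;> fin_cases j <;>
      first | exact hX _ | exact sub_mem (hX _) (hX _)

/-- Elements of the kernel of a chart at a Steinberg place. -/
lemma chart_st_rels {a : Fin σ.k} (ha : st a = true) :
    let Φ := Shape.lx (O := O) a true
    let N := Shape.lx (O := O) a false
    let b : σ.Big O := C (P.beta a) + Φ 0 1
    let d : σ.Big O := C (P.gap a)
    Φ 1 1 + Φ 0 0 ∈ w.chartIdeal P st ∧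
      N 1 1 + N 0 0 ∈ w.chartIdeal P st ∧
      Φ 0 0 * (d + Φ 0 0) + b * Φ 1 0 ∈ w.chartIdeal P st ∧
      b * N 0 0 - Φ 0 0 * N 0 1 ∈ w.chartIdeal P st ∧
      b * b * N 1 0 + Φ 0 0 * Φ 0 0 * N 0 1 ∈ w.chartIdeal P st ∧
      (d + Φ 0 0) * N 0 0 + Φ 1 0 * N 0 1 ∈ w.chartIdeal P st ∧
      (d + Φ 0 0) * (d + Φ 0 0) * N 1 0 + Φ 1 0 * Φ 1 0 * N 0 1 ∈ w.chartIdeal P st ∧
      (P.beta a = 0 → Φ 0 1 * N 1 0 - Φ 1 0 * N 0 1 - d * N 0 0 ∈ w.chartIdeal P st ∧
        Φ 1 0 * N 0 0 - Φ 0 0 * N 1 0 - d * N 1 0 ∈ w.chartIdeal P st) := by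
  intro Φ N b d
  have hC : ∀ x : O, w.bigChart P st (C x) = C x := fun x => (w.bigChart P st).commutes x
  refine ⟨?_, ?_, ?_, ?_, ?_, ?_, ?_, fun hb => ⟨?_, ?_⟩⟩ <;>
    simp only [chartIdeal, RingHom.mem_ker, map_add, map_sub, map_mul, b, d, Φ, N, Shape.lx,
      bigChart_locVar, hC] <;>
    simp [Places.locMatIn, ha, Frame.stFrob, Frame.nilLine, MvPowerSeries.algebraMap_apply, *] <;>
    ring

variable [IsDomain O] [IsDiscreteValuationRing O]

/-- A prime above a chart containing its parameters contains all variables. -/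
lemma X_mem_of_param {ϖ : O} (hϖ : Irreducible ϖ) {Q : Ideal (σ.Big O)} [hQ : Q.IsPrime]
    (hc : w.chartIdeal P st ≤ Q) (hpar : ∀ v, param P st ϖ v ∈ Q) (a : Fin σ.k) (b : Bool)
    (i j : Fin 2) : Shape.lx a b i j ∈ Q := by
  set π := Ideal.Quotient.mk Q
  have h0 : ∀ {x}, x ∈ Q → π x = 0 := fun hx => Ideal.Quotient.eq_zero_iff_mem.mpr hx
  have hker : ∀ {x}, x ∈ w.chartIdeal P st → π x = 0 := fun hx => h0 (hc hx)
  have hm : ∀ {x : O}, ¬ IsUnit x → π (C x) = 0 := by
    intro x hx
    have hx' : x ∈ maximalIdeal O := (IsLocalRing.mem_maximalIdeal _).mpr hx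
    rw [hϖ.maximalIdeal_eq, Ideal.mem_span_singleton] at hx'
    obtain ⟨y, rfl⟩ := hx'
    rw [map_mul, map_mul, show π (C ϖ) = 0 from h0 (hpar (Sum.inl ())), zero_mul]
  have hp : ∀ l, π (param P st ϖ (Sum.inr (Sum.inr (a, l)))) = 0 := fun l => h0 (hpar _)
  suffices h : ∀ b i j, π (Shape.lx a b i j) = 0 from Ideal.Quotient.eq_zero_iff_mem.mp (h b i j)
  set x : Bool → Fin 2 → Fin 2 → σ.Big O ⧸ Q := fun b i j => π (Shape.lx a b i j) with hx
  suffices h : x true 0 0 = 0 ∧ x true 0 1 = 0 ∧ x true 1 0 = 0 ∧ x true 1 1 = 0 ∧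
      x false 0 0 = 0 ∧ x false 0 1 = 0 ∧ x false 1 0 = 0 ∧ x false 1 1 = 0 by
    intro b i j
    cases b <;> fin_cases i <;> fin_cases j <;> simp_all [hx]
  cases hst : st a
  · have e0 := hp 0; have e1 := hp 1; have e2 := hp 2
    simp [param, hst] at e0 e1 e2
    have hN : ∀ i j, x false i j = 0 := fun i j => hker <| by
      show w.bigChart P st _ = 0
      simp [bigChart_locVar, Places.locMatIn, hst]
    have hd := hker (x := (P.frob a).det - C (P.q a : O))
      (P.bigChart_localRels w st a _ (Or.inl (Or.inl rfl)))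
    simp [Matrix.det_fin_two, Places.frob, Places.centre, e0, e1, e2] at hd
    refine ⟨e0, e1, e2, ?_, hN _ _, hN _ _, hN _ _, hN _ _⟩
    have hu : IsUnit (π (C (P.eps a)) * (P.q a : σ.Big O ⧸ Q)) := by
      have h := ((P.isUnit_eps a).mul (P.isUnit_q a)).map (π.comp C)
      simpa using h
    refine hu.mul_right_eq_zero.mp ?_
    have hee : π (C (P.eps a)) ^ 2 = 1 := by rw [← map_pow, ← map_pow, P.eps_sq, map_one, map_one]
    linear_combination hd - (P.q a : σ.Big O ⧸ Q) * hee
  · obtain ⟨r1, r2, r3, r4, r5, r6, r7, r8⟩ := w.chart_st_rels P st hst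
    replace r1 := hker r1; replace r2 := hker r2; replace r3 := hker r3; replace r4 := hker r4
    replace r5 := hker r5; replace r6 := hker r6; replace r7 := hker r7
    simp only [map_add, map_sub, map_mul] at r1 r2 r3 r4 r5 r6 r7
    have e0 := hp 0; have e1 := hp 1; have e2 := hp 2
    have t11 : x true 0 0 = 0 → x true 1 1 = 0 := fun h => by linear_combination r1 - h
    have n11 : x false 0 0 = 0 → x false 1 1 = 0 := fun h => by linear_combination r2 - h
    by_cases hb : IsUnit (P.beta a)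
    · simp [param, hst, hb] at e0 e1 e2
      rw [e1, add_zero] at r3 r4 r5
      have hu : IsUnit (π (C (P.beta a))) := (hb.map (C : O →+* σ.Big O)).map π
      have c0 : x true 1 0 = 0 := by
        refine hu.mul_right_eq_zero.mp ?_
        simpa [e0] using r3
      have a0 : x false 0 0 = 0 := by
        refine hu.mul_right_eq_zero.mp ?_
        simpa [e0, e2] using r4
      have b0 : x false 1 0 = 0 := by
        refine (hu.mul hu).mul_right_eq_zero.mp ?_
        simpa [e0, e2] using r5
      exact ⟨e0, e1, c0, t11 e0, a0, e2, b0, n11 a0⟩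
    · have hb0 : P.beta a = 0 := (P.beta_spec a).resolve_left fun h => hb (h.1 ▸ isUnit_one)
      by_cases hg : IsUnit (P.gap a)
      · simp [param, hst, hb, hg] at e0 e1 e2
        have hu : IsUnit (π (C (P.gap a)) + x true 0 0) := by
          have h := (isUnit_add_mem (hg.map (C : O →+* σ.Big O))
            (Ribet.X_mem_maximalIdeal (Sum.inl (a, true, (0 : Fin 2), (0 : Fin 2))))).map π
          rw [map_add] at h
          exact h
        have t0 : x true 0 0 = 0 := by
          refine hu.mul_left_eq_zero.mp ?_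
          simpa [e0, e1, hb0, mul_comm] using r3
        have a0 : x false 0 0 = 0 := by
          refine hu.mul_right_eq_zero.mp ?_
          simpa [e1, e2] using r6
        have b0 : x false 1 0 = 0 := by
          refine (hu.mul hu).mul_right_eq_zero.mp ?_
          simpa [e1, e2] using r7
        exact ⟨t0, e0, e1, t11 t0, a0, e2, b0, n11 a0⟩
      · obtain ⟨r8, r9⟩ := r8 hb0
        replace r8 := hker r8; replace r9 := hker r9
        simp only [map_add, map_sub, map_mul, hm hg, zero_mul, sub_zero] at r3 r4 r8 r9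
        simp only [hb0, map_zero, zero_add] at r3 r4
        simp [param, hst, hb, hg, sub_eq_zero] at e0 e1 e2
        -- `x false 0 1 = x true 1 0`, `x false 1 0 = x true 0 1`, `x false 0 0 = 0`
        change x true 0 0 * x true 0 0 + x true 0 1 * x true 1 0 = 0 at r3
        change x true 0 1 * x false 0 0 - x true 0 0 * x false 0 1 = 0 at r4
        change x true 0 1 * x false 1 0 - x true 1 0 * x false 0 1 = 0 at r8
        rw [show x false 0 1 = x true 1 0 from e0, show x false 0 0 = 0 from e2] at r4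
        rw [show x false 0 1 = x true 1 0 from e0, show x false 1 0 = x true 0 1 from e1] at r8
        have t0 : x true 0 0 = 0 :=
          eq_zero_of_pow_eq_zero (n := 3) (by linear_combination x true 0 0 * r3 + x true 0 1 * r4)
        have z0 : x true 0 1 = 0 := by
          refine eq_zero_of_pow_eq_zero (n := 3) ?_
          rw [t0] at r3
          linear_combination x true 0 1 * r8 + x true 1 0 * r3
        have c0 : x true 1 0 = 0 := by
          refine eq_zero_of_pow_eq_zero (n := 2) ?_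
          rw [z0] at r8
          linear_combination -r8
        exact ⟨t0, z0, c0, t11 t0, e2, e0.trans c0, e1.trans z0, n11 e2⟩

/-- **The dimension of a chart**. -/
theorem ringKrullDim_chartIdeal_le :
    ringKrullDim (σ.Big O ⧸ w.chartIdeal P st) ≤ (σ.dimD : ℕ) := by
  classical
  obtain ⟨ϖ, hϖ⟩ := IsDiscreteValuationRing.exists_irreducible O
  refine (Dim.ringKrullDim_quotient_le_card (w.chartIdeal P st) (param P st ϖ)
    (param_mem P st ((IsLocalRing.mem_maximalIdeal _).mpr hϖ.not_isUnit)) ?_).trans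
      (Nat.cast_le.mpr (by simp [Shape.dimD, add_comm]))
  intro Q hQ hc hpar
  rw [Ribet.maximalIdeal_mvPowerSeries, hϖ.maximalIdeal_eq, sup_le_iff, Ideal.map_span,
    Set.image_singleton, Ideal.span_singleton_le_iff_mem, Deform.varIdeal, Ideal.span_le]
  refine ⟨hpar (Sum.inl ()), ?_⟩
  have hloc : ∀ v : σ.LocVar, (X (Sum.inl v) : σ.Big O) ∈ Q := fun ⟨a, b, i, j⟩ =>
    w.X_mem_of_param P st hϖ hc hpar a b i j
  have hmain : ∀ v, (X (σ.mainVar v) : σ.Big O) ∈ Q := by
    rintro (v | j)
    · exact hloc v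
    · exact hpar (Sum.inr (Sum.inl j))
  rintro _ ⟨v | j | v, rfl⟩
  · exact hloc v
  · exact hpar (Sum.inr (Sum.inl j))
  · have h := Q.add_mem (hc (w.bigChart_mainGen P st v : w.mainGen v ∈ w.chartIdeal P st))
      (Shape.mainIncl_mem hmain (g := w.psi v) (by
        have hc0 : constantCoeff (w.psi v) ∈ maximalIdeal O := w.psi_mem v
        rw [hϖ.maximalIdeal_eq, Ideal.mem_span_singleton] at hc0
        obtain ⟨y, hy⟩ := hc0
        rw [hy, map_mul]
        exact Q.mul_mem_right _ (hpar (Sum.inl ()))))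
    rwa [mainGen, sub_add_cancel] at h

end Worlds

end Fermat.Agent.Lifting
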