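import Fermat.Agent.Deform.PowerSeries

/-!
# Patching data for modularity lifting: definitions

Variables of the big power series ring: for each place of `Σ` the entries of the Frobenius and
of the logarithm of the inertia generator, then the global variables.  A level `n` of patching
data is a chain of free modules over `O[[y, Y]] / 𝔪 ^ n` (adding the places one at a time) with
degeneracy maps, and relations which hold up to a fixed nilpotency exponent.
-/

set_option autoImplicit false

noncomputable section

namespace Fermat.Agent.Lifting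

open MvPowerSeries IsLocalRing

/-- The numerical shape of a patching situation. -/
structure Shape where
  /-- number of places where the level is raised -/
  k : ℕ
  /-- number of Taylor-Wiles primes, and of the global variables of the main world -/
  r : ℕ
  /-- number of variables of the other world, besides `u` -/
  r' : ℕ
  /-- the other world occurs -/
  flat : Bool

namespace Shape

variable (σ : Shape)

/-- Local variables: place, `true` for Frobenius and `false` for monodromy, entry. -/
abbrev LocVar : Type := Fin σ.k × Bool × Fin 2 × Fin 2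

/-- The gauge and diamond variables. -/
abbrev SVar : Type := Fin σ.r ⊕ (Fin σ.k × Fin 3)

/-- Variables generating the other world besides the local ones: `g''` and `u`. -/
abbrev FVar : Type := Fin σ.r' ⊕ Unit

/-- Dependent variables of the main world: `g''`, `u`, and one for each variable of `S`. -/
abbrev DVar : Type := σ.FVar ⊕ σ.SVar

/-- All variables. -/
abbrev Var : Type := σ.LocVar ⊕ (Fin σ.r ⊕ σ.DVar)

variable (O : Type) [CommRing O]

/-- The big ring. -/
abbrev Big : Type := MvPowerSeries σ.Var O

/-- The ring of the diamond and gauge variables. -/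
abbrev Sring : Type := MvPowerSeries σ.SVar O

/-- The ring of the variables of the main world. -/
abbrev MainRing : Type := MvPowerSeries (σ.LocVar ⊕ Fin σ.r) O

/-- The ring of the variables of the other world. -/
abbrev OthRing : Type := MvPowerSeries (σ.LocVar ⊕ σ.FVar) O

/-- Inclusion of the main variables. -/
def mainVar : σ.LocVar ⊕ Fin σ.r → σ.Var :=
  Sum.elim Sum.inl fun v => Sum.inr (Sum.inl v)

/-- Inclusion of the variables of the other world. -/
def othVar : σ.LocVar ⊕ σ.FVar → σ.Var :=
  Sum.elim Sum.inl fun v => Sum.inr (Sum.inr (Sum.inl v))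

variable {O}

lemma X_mem_varIdeal' {ι : Type} (v : ι) :
    (X v : MvPowerSeries ι O) ∈ Deform.varIdeal ι O :=
  Ideal.subset_span ⟨v, rfl⟩

instance isAdicComplete_big :
    IsAdicComplete (Deform.varIdeal σ.Var O) (σ.Big O) :=
  inferInstanceAs (IsAdicComplete (Ideal.span (Set.range (X : σ.Var → σ.Big O))) _)

/-- A series in the main variables, in the big ring. -/
def mainIncl : σ.MainRing O →ₐ[O] σ.Big O :=
  Deform.pev (Deform.varIdeal σ.Var O) (fun v => X (σ.mainVar v)) fun _ => X_mem_varIdeal' _

/-- A series in the variables of the other world, in the big ring. -/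
def othIncl : σ.OthRing O →ₐ[O] σ.Big O :=
  Deform.pev (Deform.varIdeal σ.Var O) (fun v => X (σ.othVar v)) fun _ => X_mem_varIdeal' _

end Shape

/-- The fixed numerical data at the places of `Σ`. -/
structure Places (O : Type) [CommRing O] (σ : Shape) where
  /-- the primes -/
  q : Fin σ.k → ℕ
  /-- the signs of the target representation -/
  eps : Fin σ.k → O
  /-- upper right entry of the centre of Frobenius -/
  beta : Fin σ.k → O
  eps_sq : ∀ a, eps a ^ 2 = 1
  two_le : ∀ a, 2 ≤ q a
  isUnit_q : ∀ a, IsUnit (q a : O)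
  beta_spec : ∀ a, (beta a = 1 ∧ ¬ IsUnit ((q a : O) - 1)) ∨ beta a = 0

namespace Places

variable {O : Type} [CommRing O] {σ : Shape} (P : Places O σ)

/-- The centre of Frobenius. -/
def centre (a : Fin σ.k) : Matrix (Fin 2) (Fin 2) O :=
  !![P.eps a * (P.q a : O), P.beta a; 0, P.eps a]

/-- The universal Frobenius matrix. -/
def frob (a : Fin σ.k) : Matrix (Fin 2) (Fin 2) (σ.Big O) :=
  Matrix.of fun i j => C (P.centre a i j) + X (Sum.inl (a, true, i, j))

/-- The universal monodromy matrix. -/
def mono (_P : Places O σ) (a : Fin σ.k) : Matrix (Fin 2) (Fin 2) (σ.Big O) :=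
  Matrix.of fun i j => X (Sum.inl (a, false, i, j))

/-- The equations of a place where the inertia is unipotent. -/
def localRels (a : Fin σ.k) : Set (σ.Big O) :=
  {(P.frob a).det - C (P.q a : O), (P.mono a).trace, (P.mono a).det} ∪
    Set.range fun ij : Fin 2 × Fin 2 =>
      (P.frob a * P.mono a -
        (C (P.q a : O) : σ.Big O) • (P.mono a * P.frob a)) ij.1 ij.2

/-- The equations of a place where the representation is unramified. -/
def unrRels (a : Fin σ.k) : Set (σ.Big O) :=
  Set.range fun ij : Fin 2 × Fin 2 => P.mono a ij.1 ij.2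

/-- The discriminant `(q + 1)² - t²`. -/
def disc (a : Fin σ.k) : σ.Big O :=
  C ((P.q a : O) + 1) ^ 2 - (P.frob a).trace ^ 2

end Places

/-- The generators of the relations of the two worlds. -/
structure Worlds (O : Type) [CommRing O] (σ : Shape) where
  /-- values of the dependent variables in the main world -/
  psi : σ.DVar → σ.MainRing O
  /-- values of `g_main` and of the `SVar` copies in the other world -/
  phi : Fin σ.r ⊕ σ.SVar → σ.OthRing O
  psi_mem : ∀ v, constantCoeff (psi v) ∈ nonunits O
  phi_mem : ∀ v, constantCoeff (phi v) ∈ nonunits O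
  psi_u : psi (Sum.inl (Sum.inr ())) = 0

namespace Worlds

variable {O : Type} [CommRing O] {σ : Shape} (w : Worlds O σ)

/-- Generators of the relations of the main world. -/
def mainGen (v : σ.DVar) : σ.Big O :=
  X (Sum.inr (Sum.inr v)) - σ.mainIncl (w.psi v)

/-- Generators of the relations of the other world (the unit ideal if it does not occur). -/
def othGen : Set (σ.Big O) :=
  if σ.flat then Set.range fun v : Fin σ.r ⊕ σ.SVar =>
    X (Sum.inr (Sum.map id Sum.inr v)) - σ.othIncl (w.phi v)
  else {1}

end Worlds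

/-- `S / 𝔪 ^ n`. -/
abbrev Shape.SLvl (σ : Shape) (O : Type) [CommRing O] [IsLocalRing O] (n : ℕ) : Type :=
  σ.Sring O ⧸ maximalIdeal (σ.Sring O) ^ n

/-- What does not depend on the level `n`. -/
structure PatchFixed (O : Type) [CommRing O] (σ : Shape) where
  /-- the places -/
  places : Places O σ
  /-- ranks of the modules: in the `i`-th one the first `i` places are in the level -/
  rank : Fin (σ.k + 1) → ℕ
  /-- nilpotency exponent -/
  E : ℕ
  /-- local coordinates of the target representation -/
  wLoc : σ.LocVar → O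
  /-- indices of the good primes -/
  L : Type
  /-- eigenvalues of the target representation -/
  eigen : L → O
  /-- Hecke operators on the bottom of the last module -/
  hecke0 : L → Matrix (Fin (rank (Fin.last σ.k))) (Fin (rank (Fin.last σ.k))) O

variable {O : Type} [CommRing O] [IsLocalRing O] {σ : Shape}

/-- Patching data over a quotient `π : S → Λ`, with errors of the target in the ideal `err`. -/
structure PatchData (F : PatchFixed O σ) (Λ : Type) [CommRing Λ] [Algebra O Λ]
    (π : σ.Sring O →+* Λ) (err : Ideal O) where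
  /-- relations of the worlds -/
  worlds : Worlds O σ
  /-- coordinates of the target in the global main variables -/
  wGlob : Fin σ.r → O
  /-- series giving the traces -/
  trace : F.L → σ.Big O
  /-- the action of the big ring -/
  act : ∀ i, σ.Big O →ₐ[O] Matrix (Fin (F.rank i)) (Fin (F.rank i)) Λ
  /-- Hecke operators on the last module -/
  hecke : F.L →
    Matrix (Fin (F.rank (Fin.last σ.k))) (Fin (F.rank (Fin.last σ.k))) Λ
  /-- degeneracy map -/
  deg : ∀ i : Fin σ.k, Matrix (Fin (F.rank i.succ))
    (Fin (F.rank i.castSucc) ⊕ Fin (F.rank i.castSucc)) Λ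
  /-- transfer map -/
  tra : ∀ i : Fin σ.k, Matrix (Fin (F.rank i.castSucc) ⊕ Fin (F.rank i.castSucc))
    (Fin (F.rank i.succ)) Λ
  /-- a left inverse of `deg` -/
  retr : ∀ i : Fin σ.k, Matrix (Fin (F.rank i.castSucc) ⊕ Fin (F.rank i.castSucc))
    (Fin (F.rank i.succ)) Λ
  /-- a right inverse of `tra` -/
  sect : ∀ i : Fin σ.k, Matrix (Fin (F.rank i.succ))
    (Fin (F.rank i.castSucc) ⊕ Fin (F.rank i.castSucc)) Λ
  /-- witness that the discriminant kills the kernel of `tra` -/
  wit : ∀ i : Fin σ.k, Matrix (Fin (F.rank i.succ))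
    (Fin (F.rank i.castSucc) ⊕ Fin (F.rank i.castSucc)) Λ
  /-- a unimodular vector of the first module on which the main relations hold -/
  base : Fin (F.rank 0) → Λ
  base_unit : ∃ c, IsUnit (base c)
  base_rel : ∀ v, (act 0 (worlds.mainGen v) ^ F.E).mulVec base = 0
  retr_deg : ∀ i, retr i * deg i = 1
  tra_sect : ∀ i, tra i * sect i = 1
  deg_act : ∀ i f, deg i * Matrix.fromBlocks (act i.castSucc f) 0 0 (act i.castSucc f) =
    act i.succ f * deg i
  tra_act : ∀ i f, Matrix.fromBlocks (act i.castSucc f) 0 0 (act i.castSucc f) * tra i =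
    tra i * act i.succ f
  comp_det : ∀ i : Fin σ.k, ∃ a b c d : Matrix (Fin (F.rank i.castSucc))
      (Fin (F.rank i.castSucc)) Λ,
    tra i * deg i = Matrix.fromBlocks a b c d ∧
    Commute a b ∧ Commute a c ∧ Commute a d ∧ Commute b c ∧ Commute b d ∧ Commute c d ∧
    (∀ f, Commute (act i.castSucc f) a ∧ Commute (act i.castSucc f) b ∧
      Commute (act i.castSucc f) c ∧ Commute (act i.castSucc f) d) ∧
    (a * d - b * c - act i.castSucc (F.places.disc i)) ^ F.E = 0
  disc_kernel : ∀ i : Fin σ.k, act i.succ (F.places.disc i) ^ F.E = wit i * tra i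
  local_rel : ∀ i (a : Fin σ.k), ∀ f ∈ F.places.localRels a, act i f ^ F.E = 0
  unr_rel : ∀ (i : Fin (σ.k + 1)) (a : Fin σ.k), (i : ℕ) ≤ a →
    ∀ f ∈ F.places.unrRels a, act i f ^ F.E = 0
  world_rel : ∀ i v, ∀ g ∈ worlds.othGen, act i (worlds.mainGen v * g) ^ F.E = 0
  diamond_rel : ∀ i (j : Fin σ.r),
    let y : Matrix (Fin (F.rank i)) (Fin (F.rank i)) Λ :=
      algebraMap Λ _ (π (1 + X (Sum.inl j)))
    (y ^ 2 - act i (2 + X (Sum.inr (Sum.inr (Sum.inr (Sum.inl j))))) * y + 1) ^ F.E = 0
  gauge_rel : ∀ i (v : Fin σ.k × Fin 3),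
    (act i (X (Sum.inr (Sum.inr (Sum.inr (Sum.inr v))))) -
      algebraMap Λ _ (π (X (Sum.inr v)))) ^ F.E = 0
  hecke_comm : ∀ l l', Commute (hecke l) (hecke l')
  hecke_act : ∀ l f, Commute (hecke l) (act (Fin.last σ.k) f)
  trace_rel : ∀ l, ∀ g ∈ worlds.othGen,
    ((act (Fin.last σ.k) (trace l) - hecke l) * act (Fin.last σ.k) g) ^ F.E = 0
  hecke_aug : ∀ l a b, ∃ s : σ.Sring O,
    π s = hecke l a b ∧
      constantCoeff s - F.hecke0 l a b ∈ err
  wGlob_mem : ∀ j, wGlob j ∈ maximalIdeal O
  wPoint : ∀ (hm : ∀ v, Sum.elim F.wLoc wGlob v ∈ maximalIdeal O)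
    [IsAdicComplete (maximalIdeal O) O],
    (∀ j : σ.SVar, Deform.pev (maximalIdeal O) (Sum.elim F.wLoc wGlob) hm
        (worlds.psi (Sum.inr j)) ∈ err) ∧
      ∀ l, ∃ f : σ.MainRing O,
        (trace l - σ.mainIncl f) ∈ Ideal.span (Set.range worlds.mainGen) ∧
        Deform.pev (maximalIdeal O) (Sum.elim F.wLoc wGlob) hm f - F.eigen l ∈
          err

/-- One level of patching data. -/
abbrev PatchLevel (F : PatchFixed O σ) (n : ℕ) : Type :=
  PatchData F (σ.SLvl O n) (Ideal.Quotient.mk _) (maximalIdeal O ^ n)

/-- Patching data over `S` itself. -/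
abbrev PatchLimit (F : PatchFixed O σ) : Type :=
  PatchData F (σ.Sring O) (RingHom.id _) ⊥

/-- The conditions on what does not depend on the level. -/
structure PatchFixed.Valid (F : PatchFixed O σ) : Prop where
  count : σ.flat = true → σ.r' + 1 ≤ σ.r
  rank_pos : ∀ i, 0 < F.rank i
  wLoc_mem : ∀ v, F.wLoc v ∈ maximalIdeal O
  wLoc_det : ∀ a, (F.places.centre a + Matrix.of fun i j => F.wLoc (a, true, i, j)).det =
    (F.places.q a : O)
  wLoc_trace : ∀ a, (F.places.centre a + Matrix.of fun i j => F.wLoc (a, true, i, j)).trace =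
    F.places.eps a * ((F.places.q a : O) + 1)
  wLoc_mono : ∀ a : Fin σ.k,
    let Φ : Matrix (Fin 2) (Fin 2) O :=
      F.places.centre a + Matrix.of fun i j => F.wLoc (a, true, i, j)
    let N : Matrix (Fin 2) (Fin 2) O := Matrix.of fun i j => F.wLoc (a, false, i, j)
    N.trace = 0 ∧ Φ * N = (F.places.eps a * (F.places.q a : O)) • N ∧
      N * Φ = F.places.eps a • N
  hecke0_comm : ∀ l l', Commute (F.hecke0 l) (F.hecke0 l')

end Fermat.Agent.Lifting
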