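import Fermat.Agent.Lifting.AEngineEnd

/-!
# The engine of modularity lifting
-/

set_option autoImplicit false

noncomputable section

namespace Fermat.Agent.Lifting

open IsLocalRing

/-- **Compactness**: patching data at every level give patching data over `S`. -/
theorem nonempty_patchLimit {O : Type} [CommRing O] [IsDomain O]
    [IsDiscreteValuationRing O] [IsAdicComplete (maximalIdeal O) O] [Finite (ResidueField O)]
    {σ : Shape} (F : PatchFixed O σ) (hF : F.Valid) (h : ∀ n, Nonempty (PatchLevel F n)) :
    Nonempty (PatchLimit F) :=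
  DLimit.nonempty_patchLimit F hF h

/-- The support argument over `S`. -/
theorem exists_eigenvector_of_patchLimit {O : Type} [CommRing O] [IsDomain O]
    [IsDiscreteValuationRing O] [IsAdicComplete (maximalIdeal O) O] [Finite (ResidueField O)]
    [CharZero O] {p : ℕ} (hp : p.Prime) (hp2 : p ≠ 2) (hpO : (p : O) ∈ maximalIdeal O)
    {σ : Shape} (F : PatchFixed O σ) (hF : F.Valid) (L : PatchLimit F) :
    ∃ v : Fin (F.rank (Fin.last σ.k)) → FractionRing O, v ≠ 0 ∧
      ∀ l, ((F.hecke0 l).map (algebraMap O (FractionRing O))).mulVec v =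
        algebraMap O (FractionRing O) (F.eigen l) • v := by
  have h2 : IsUnit (2 : O) := by
    by_contra h
    obtain ⟨k, hk⟩ := hp.odd_of_ne_two hp2
    have h2m : (2 : O) ∈ maximalIdeal O := (mem_maximalIdeal _).mpr h
    apply (maximalIdeal.isMaximal O).ne_top
    rw [Ideal.eq_top_iff_one]
    have h1 := (maximalIdeal O).sub_mem hpO ((maximalIdeal O).mul_mem_right (k : O) h2m)
    rwa [hk, Nat.cast_add, Nat.cast_mul, Nat.cast_two, Nat.cast_one, add_sub_cancel_left] at h1
  obtain ⟨v, hv, hev⟩ := Engine.exists_eigenvector L h2 hF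
  refine ⟨fun c => algebraMap O (FractionRing O) (v c), fun h => hv ?_, fun l => ?_⟩
  · funext c
    exact IsFractionRing.injective O (FractionRing O) ((congrFun h c).trans (map_zero _).symm)
  · funext c
    have h := RingHom.map_mulVec (algebraMap O (FractionRing O)) (F.hecke0 l) v c
    rw [hev l] at h
    simpa [Function.comp_def] using h.symm

/-- **Support engine**: patching data at every level force the eigensystem of the target on the
bottom of the last module. -/
theorem exists_eigenvector_of_patchData {O : Type} [CommRing O] [IsDomain O]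
    [IsDiscreteValuationRing O] [IsAdicComplete (maximalIdeal O) O] [Finite (ResidueField O)]
    [CharZero O] {p : ℕ} (hp : p.Prime) (hp2 : p ≠ 2) (hpO : (p : O) ∈ maximalIdeal O)
    {σ : Shape} (F : PatchFixed O σ) (hF : F.Valid) (h : ∀ n, Nonempty (PatchLevel F n)) :
    ∃ v : Fin (F.rank (Fin.last σ.k)) → FractionRing O, v ≠ 0 ∧
      ∀ l, ((F.hecke0 l).map (algebraMap O (FractionRing O))).mulVec v =
        algebraMap O (FractionRing O) (F.eigen l) • v := by
  obtain ⟨L⟩ := nonempty_patchLimit F hF h
  exact exists_eigenvector_of_patchLimit hp hp2 hpO F hF L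

end Fermat.Agent.Lifting
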