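import Fermat.Agent.Lifting.APatchDefs
import Fermat.Agent.Lifting.AFrame
import Fermat.Agent.Ribet.ThirdComplete

/-!
# Charts of the local conditions at the places where the level is raised

For a choice `st` of Steinberg or unramified places, the chart is a homomorphism from the ring of
the main world to a power series ring with three variables for each place.
-/

set_option autoImplicit false

noncomputable section

namespace Fermat.Agent.Lifting

open MvPowerSeries IsLocalRing

namespace Frame

variable {R S : Type} [CommRing R] [CommRing S]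

/-- Frobenius of a Steinberg place in the chart, minus its centre. -/
def stFrob (β d z s : R) : Matrix (Fin 2) (Fin 2) R :=
  !![-((β + z) * s), z; s * (d - (β + z) * s), (β + z) * s]

/-- Frobenius of an unramified place in the chart, minus its centre. -/
def unrFrob (ε q β x z w : R) : Matrix (Fin 2) (Fin 2) R :=
  !![x, z; w, (q + (β + z) * w) * Ring.inverse (ε * q + x) - ε]

lemma map_stFrob {F : Type} [FunLike F R S] [RingHomClass F R S] (φ : F) (β d z s : R)
    (i j : Fin 2) : φ (stFrob β d z s i j) = stFrob (φ β) (φ d) (φ z) (φ s) i j := by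
  fin_cases i <;> fin_cases j <;> simp [stFrob]

lemma map_inverse {F : Type} [FunLike F R S] [RingHomClass F R S] (φ : F) {x : R}
    (hx : IsUnit x) : φ (Ring.inverse x) = Ring.inverse (φ x) := by
  have h : φ x * φ (Ring.inverse x) = 1 := by rw [← map_mul, Ring.mul_inverse_cancel _ hx, map_one]
  rw [← (hx.map φ).mul_right_inj, h, Ring.mul_inverse_cancel _ (hx.map φ)]

lemma map_unrFrob {F : Type} [FunLike F R S] [RingHomClass F R S] (φ : F) {ε q β x z w : R}
    (hu : IsUnit (ε * q + x)) (i j : Fin 2) :
    φ (unrFrob ε q β x z w i j) = unrFrob (φ ε) (φ q) (φ β) (φ x) (φ z) (φ w) i j := by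
  fin_cases i <;> fin_cases j <;> simp [unrFrob, map_inverse φ hu]

lemma map_nilLine {F : Type} [FunLike F R S] [RingHomClass F R S] (φ : F) (s : R)
    (i j : Fin 2) : φ (nilLine s i j) = nilLine (φ s) i j := by
  fin_cases i <;> fin_cases j <;> simp [nilLine]

end Frame

lemma mem_varIdeal_iff {ι A : Type} [Finite ι] [CommRing A] (f : MvPowerSeries ι A) :
    f ∈ Deform.varIdeal ι A ↔ constantCoeff f = 0 := by
  refine ⟨fun h => ?_, fun h => by simpa [h] using Deform.sub_C_constantCoeff_mem f⟩
  have hle : Deform.varIdeal ι A ≤ RingHom.ker (constantCoeff (σ := ι) (R := A)) := by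
    rw [Deform.varIdeal, Ideal.span_le]
    rintro _ ⟨s, rfl⟩
    simp
  exact hle h

/-- Variables of the charts. -/
abbrev Shape.ChartVar (σ : Shape) : Type := (Fin σ.k × Fin 3) ⊕ Fin σ.r

/-- The ring of the charts. -/
abbrev Shape.ChartRing (σ : Shape) (O : Type) [CommRing O] : Type := MvPowerSeries σ.ChartVar O

namespace Places

variable {O : Type} [CommRing O] {σ : Shape} (P : Places O σ)

/-- `ε (q - 1)`. -/
def gap (a : Fin σ.k) : O := P.eps a * ((P.q a : O) - 1)

lemma isUnit_eps (a : Fin σ.k) : IsUnit (P.eps a) :=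
  IsUnit.of_mul_eq_one (P.eps a) (by rw [← sq, P.eps_sq])

variable (st : Fin σ.k → Bool) {R : Type} [CommRing R] [Algebra O R]

/-- The matrices of a place as functions of three parameters. -/
def locMatIn (a : Fin σ.k) (b : Bool) (x : Fin 3 → R) : Matrix (Fin 2) (Fin 2) R :=
  cond (st a)
    (cond b (Frame.stFrob (algebraMap O R (P.beta a)) (algebraMap O R (P.gap a)) (x 0) (x 1))
      (x 2 • Frame.nilLine (x 1)))
    (cond b (Frame.unrFrob (algebraMap O R (P.eps a)) ((P.q a : ℕ) : R)
      (algebraMap O R (P.beta a)) (x 0) (x 1) (x 2)) 0)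

lemma map_locMatIn {S : Type} [CommRing S] [Algebra O S] (φ : R →ₐ[O] S) (a : Fin σ.k) (b : Bool)
    {x : Fin 3 → R} {y : Fin 3 → S} (hy : ∀ j, φ (x j) = y j)
    (hu : IsUnit (algebraMap O R (P.eps a) * ((P.q a : ℕ) : R) + x 0)) (i j : Fin 2) :
    φ (P.locMatIn st a b x i j) = P.locMatIn st a b y i j := by
  cases h : st a <;> cases b <;>
    simp [locMatIn, h, Frame.map_stFrob, Frame.map_unrFrob φ hu, Frame.map_nilLine, hy,
      Matrix.smul_apply]

lemma isUnit_unrDen {ι : Type} [Finite ι] [IsLocalRing O] (a : Fin σ.k) (v : ι) :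
    IsUnit (C (P.eps a) * (P.q a : MvPowerSeries ι O) + X v) := by
  rw [MvPowerSeries.isUnit_iff_constantCoeff]
  simp [(P.isUnit_eps a).mul (P.isUnit_q a)]

/-- Values of the main variables in the chart. -/
def chartVal : σ.LocVar ⊕ Fin σ.r → σ.ChartRing O :=
  Sum.elim (fun v => P.locMatIn st v.1 v.2.1 (fun j => X (Sum.inl (v.1, j))) v.2.2.1 v.2.2.2)
    fun v => X (Sum.inr v)

variable [IsLocalRing O]

lemma inverse_centre (a : Fin σ.k) :
    (P.q a : O) * Ring.inverse (P.eps a * (P.q a : O)) = P.eps a := by
  have h := Ring.mul_inverse_cancel _ ((P.isUnit_eps a).mul (P.isUnit_q a))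
  linear_combination P.eps a * h - (P.q a : O) * Ring.inverse (P.eps a * (P.q a : O)) * P.eps_sq a

lemma constantCoeff_chartVal (v : σ.LocVar ⊕ Fin σ.r) :
    constantCoeff (P.chartVal st v) = 0 := by
  rcases v with ⟨a, b, i, j⟩ | v
  · simp only [chartVal, Sum.elim_inl, locMatIn]
    cases st a <;> cases b <;> simp only [cond_true, cond_false]
    · simp
    · rw [Frame.map_unrFrob constantCoeff (by
        simpa [MvPowerSeries.algebraMap_apply] using P.isUnit_unrDen a (Sum.inl (a, 0)))]
      fin_cases i <;> fin_cases j <;>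
        simp [Frame.unrFrob, MvPowerSeries.algebraMap_apply, P.inverse_centre a]
    · simp
    · rw [Frame.map_stFrob constantCoeff]
      fin_cases i <;> fin_cases j <;> simp [Frame.stFrob]
  · simp [chartVal]

lemma chartVal_mem (v : σ.LocVar ⊕ Fin σ.r) :
    P.chartVal st v ∈ Deform.varIdeal σ.ChartVar O :=
  (mem_varIdeal_iff _).mpr (P.constantCoeff_chartVal st v)

instance isAdicComplete_chartRing :
    IsAdicComplete (Deform.varIdeal σ.ChartVar O) (σ.ChartRing O) :=
  inferInstanceAs (IsAdicComplete
    (Ideal.span (Set.range (X : σ.ChartVar → σ.ChartRing O))) _)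

/-- The chart. -/
def chartHom : σ.MainRing O →ₐ[O] σ.ChartRing O :=
  Deform.pev (Deform.varIdeal σ.ChartVar O) (P.chartVal st) (P.chartVal_mem st)

lemma chartHom_X (v : σ.LocVar ⊕ Fin σ.r) :
    P.chartHom st (X v) = P.chartVal st v :=
  Deform.pev_X _ _ _ _

end Places

namespace Worlds

variable {O : Type} [CommRing O] [IsLocalRing O] {σ : Shape} (w : Worlds O σ)

/-- Values of all variables in the main world. -/
def substVal : σ.Var → σ.MainRing O :=
  Sum.elim (fun v => X (Sum.inl v)) (Sum.elim (fun v => X (Sum.inr v)) w.psi)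

lemma substVal_mem (v : σ.Var) : w.substVal v ∈ maximalIdeal (σ.MainRing O) := by
  rcases v with v | v | v
  · exact Ribet.X_mem_maximalIdeal _
  · exact Ribet.X_mem_maximalIdeal _
  · exact (Ribet.mem_maximalIdeal_iff_constantCoeff _).mpr (w.psi_mem v)

variable [IsNoetherianRing O] [IsAdicComplete (maximalIdeal O) O]

/-- The substitution of the dependent variables in the main world. -/
def substMain : σ.Big O →ₐ[O] σ.MainRing O :=
  Deform.pev (maximalIdeal (σ.MainRing O)) w.substVal w.substVal_mem

lemma substMain_X (v : σ.Var) : w.substMain (X v) = w.substVal v :=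
  Deform.pev_X _ _ _ _

lemma substMain_mainIncl (f : σ.MainRing O) : w.substMain (σ.mainIncl f) = f := by
  have h : w.substMain.comp σ.mainIncl = AlgHom.id O _ := by
    have hX : ∀ v, w.substMain (σ.mainIncl (X v : σ.MainRing O)) = X v := by
      rintro (v | v) <;>
        simp [Shape.mainIncl, Deform.pev_X, substMain_X, Shape.mainVar, substVal]
    exact Deform.algHom_ext_of_X (maximalIdeal (σ.MainRing O)) _ _
      (fun v => (hX v).symm ▸ Ribet.X_mem_maximalIdeal v) fun v => hX v
  exact DFunLike.congr_fun h f

lemma substMain_mainGen (v : σ.DVar) : w.substMain (w.mainGen v) = 0 := by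
  rw [mainGen, map_sub, substMain_mainIncl, substMain_X]
  simp [substVal]

variable (P : Places O σ) (st : Fin σ.k → Bool)

/-- The chart on the big ring: the main world with the given types at the places. -/
def bigChart : σ.Big O →ₐ[O] σ.ChartRing O :=
  (P.chartHom st).comp w.substMain

lemma bigChart_mainGen (v : σ.DVar) : w.bigChart P st (w.mainGen v) = 0 := by
  simp [bigChart, substMain_mainGen]

lemma bigChart_locVar (a : Fin σ.k) (b : Bool) (i j : Fin 2) :
    w.bigChart P st (X (Sum.inl (a, b, i, j))) =
      P.locMatIn st a b (fun l => X (Sum.inl (a, l))) i j := by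
  simp [bigChart, substMain_X, substVal, Places.chartHom_X, Places.chartVal]

end Worlds

/-! ## The relations of a place hold in the chart -/

namespace Places

variable {O : Type} [CommRing O] [IsLocalRing O] [IsNoetherianRing O]
  [IsAdicComplete (maximalIdeal O) O] {σ : Shape} (P : Places O σ) (w : Worlds O σ)
  (st : Fin σ.k → Bool) (a : Fin σ.k)

local notation "Θ" => w.bigChart P st

lemma bigChart_frob (i j : Fin 2) :
    Θ (P.frob a i j) = C (P.centre a i j) +
      P.locMatIn st a true (fun l => X (Sum.inl (a, l))) i j := by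
  rw [frob, Matrix.of_apply, map_add, w.bigChart_locVar]
  congr 1
  exact (Θ).commutes _

lemma bigChart_mono (i j : Fin 2) :
    Θ (P.mono a i j) = P.locMatIn st a false (fun l => X (Sum.inl (a, l))) i j := by
  rw [mono, Matrix.of_apply, w.bigChart_locVar]

lemma bigChart_unrRels (ha : st a = false) : ∀ f ∈ P.unrRels a, Θ f = 0 := by
  rintro _ ⟨⟨i, j⟩, rfl⟩
  simp [bigChart_mono, locMatIn, ha]

lemma bigChart_localRels : ∀ f ∈ P.localRels a, Θ f = 0 := by
  have hC : ∀ x : O, Θ (C x) = C x := fun x => (Θ).commutes x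
  have hε : (C (P.eps a) : σ.ChartRing O) ^ 2 = 1 := by rw [← map_pow, P.eps_sq, map_one]
  have hq : (C (P.q a : O) : σ.ChartRing O) = (P.q a : σ.ChartRing O) := map_natCast _ _
  have hu := Ring.mul_inverse_cancel _ (P.isUnit_unrDen (ι := σ.ChartVar) a (Sum.inl (a, 0)))
  rintro f ((rfl | rfl | rfl) | ⟨⟨i, j⟩, rfl⟩)
  · simp only [Matrix.det_fin_two, map_sub, map_mul, hC, bigChart_frob]
    cases h : st a
    · simp [locMatIn, h, Frame.unrFrob, centre, MvPowerSeries.algebraMap_apply]
      linear_combination ((P.q a : σ.ChartRing O) +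
        (C (P.beta a) + X (Sum.inl (a, 1))) * X (Sum.inl (a, 2))) * hu
    · simp [locMatIn, h, Frame.stFrob, centre, gap, MvPowerSeries.algebraMap_apply]
      linear_combination (P.q a : σ.ChartRing O) * hε
  · simp only [Matrix.trace_fin_two, map_add, bigChart_mono]
    cases h : st a <;> simp [locMatIn, h, Frame.nilLine]
  · simp only [Matrix.det_fin_two, map_sub, map_mul, bigChart_mono]
    cases h : st a <;> simp [locMatIn, h, Frame.nilLine]
    ring
  · simp only [Matrix.sub_apply, Matrix.smul_apply, smul_eq_mul, Matrix.mul_apply,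
      Fin.sum_univ_two, map_sub, map_add, map_mul, hC, bigChart_frob, bigChart_mono]
    cases h : st a
    · simp [locMatIn, h]
    · fin_cases i <;> fin_cases j <;>
        simp [locMatIn, h, Frame.stFrob, Frame.nilLine, centre, gap,
          MvPowerSeries.algebraMap_apply] <;> grobner

lemma bigChart_trace (ha : st a = true) :
    Θ ((P.frob a).trace - C (P.eps a * ((P.q a : O) + 1))) = 0 := by
  rw [map_sub, Matrix.trace_fin_two, map_add, bigChart_frob, bigChart_frob,
    show Θ (C (P.eps a * ((P.q a : O) + 1))) = C (P.eps a * ((P.q a : O) + 1)) from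
      (Θ).commutes _]
  simp [locMatIn, ha, Frame.stFrob, centre]
  ring

end Places

end Fermat.Agent.Lifting
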