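import Fermat.Agent.Ribet.ThirdRing

/-!
# The quadric chart with varying constants

Variant of `Ribet.pev_eq_zero_of_chartHom` in which the constant `δ` of the quadric depends on the
place; all the constants are divisible by one non-zero element `ϖ`.
-/

set_option autoImplicit false

noncomputable section

namespace Fermat.Agent.Lifting

open MvPowerSeries IsLocalRing
open Fermat.Agent.Ribet (chartVec unshift qd qd_chartVec map_unshift map_qd quad0 exists_division
  chartExp chartSign weight_chartExp_injOn algHom_C algebraMap_eq_C X_mem_varIdeal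
  coeff_eq_zero_of_mem_varIdeal_pow)

namespace Quadric

variable {ι τ : Type} {O : Type} [CommRing O] (δ : ι → O)

/-- The equation of the quadric at `i` in shifted coordinates. -/
def quad (i : ι) : MvPowerSeries (Ribet.SVar ι τ) O :=
  qd (unshift (C (δ i)) fun k => X (Sum.inl (i, k))) - C (δ i) ^ 2

lemma quad_eq (i : ι) :
    (quad δ i : MvPowerSeries (Ribet.SVar ι τ) O) =
      quad0 i + C (δ i) * (2 * X (Sum.inl (i, 2))) := by
  simp [quad, quad0, qd, unshift]
  ring

/-- Values of the variables in the chart. -/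
def chartS : Ribet.SVar ι τ → MvPowerSeries (Ribet.CVar ι τ) O :=
  Sum.elim
    (fun v => chartVec (C (δ v.1)) (X (Sum.inl (v.1, 0))) (X (Sum.inl (v.1, 1))) v.2)
    fun t => X (Sum.inr t)

lemma chartS_mem (v : Ribet.SVar ι τ) : chartS δ v ∈ Deform.varIdeal (Ribet.CVar ι τ) O := by
  rcases v with ⟨i, k⟩ | t
  · fin_cases k <;> simp only [chartS, chartVec, Sum.elim_inl] <;>
      simp only [Matrix.cons_val_zero, Matrix.cons_val_one, Matrix.cons_val,
        Fin.zero_eta, Fin.mk_one, Fin.reduceFinMk]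
    · exact X_mem_varIdeal _
    · exact Ideal.sub_mem _ (Ideal.mul_mem_left _ _ (X_mem_varIdeal _))
        (Ideal.mul_mem_right _ _ (X_mem_varIdeal _))
    · exact Submodule.neg_mem _ (Ideal.mul_mem_left _ _ (X_mem_varIdeal _))
  · exact X_mem_varIdeal _

variable [Finite ι] [Finite τ]

/-- The chart, as a ring homomorphism. -/
def chartHom : MvPowerSeries (Ribet.SVar ι τ) O →ₐ[O] MvPowerSeries (Ribet.CVar ι τ) O :=
  Deform.pev (Deform.varIdeal (Ribet.CVar ι τ) O) (chartS δ) (chartS_mem δ)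

@[simp] lemma chartHom_X (v : Ribet.SVar ι τ) :
    chartHom δ (X v : MvPowerSeries (Ribet.SVar ι τ) O) = chartS δ v :=
  Deform.pev_X _ _ _ _

lemma chartHom_quad (i : ι) : chartHom (τ := τ) δ (quad δ i) = 0 := by
  rw [quad, map_sub, map_pow, map_qd, sub_eq_zero, algHom_C, algebraMap_eq_C]
  conv_lhs => arg 1; ext l; rw [map_unshift, algHom_C, algebraMap_eq_C]
  rw [show (fun l => chartHom δ (X (Sum.inl (i, l)) : MvPowerSeries (Ribet.SVar ι τ) O)) =
    chartVec (C (δ i)) (X (Sum.inl (i, 0))) (X (Sum.inl (i, 1))) from funext fun l => by simp [chartS]]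
  exact qd_chartVec _ _ _

lemma map_chartS {ϖ : O} (hϖ : ∀ i, ϖ ∣ δ i) (v : Ribet.SVar ι τ) :
    MvPowerSeries.map (Ideal.Quotient.mk (Ideal.span {ϖ})) (chartS δ v) =
      monomial (chartExp v) (chartSign v) := by
  have hδ : ∀ i, (MvPowerSeries.map (Ideal.Quotient.mk (Ideal.span {ϖ})))
      (C (δ i) : MvPowerSeries (Ribet.CVar ι τ) O) = 0 := by
    intro i
    rw [map_C, Ideal.Quotient.eq_zero_iff_mem.mpr (Ideal.mem_span_singleton.mpr (hϖ i)), map_zero]
  rcases v with ⟨i, k⟩ | t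
  · fin_cases k <;>
      simp [chartS, chartVec, chartExp, chartSign, hδ, X_def, monomial_pow,
        monomial_mul_monomial]
  · simp [chartS, chartExp, chartSign, X_def]

lemma dvd_coeff_of_chartHom {ϖ : O} (hϖ : ∀ i, ϖ ∣ δ i) {r : MvPowerSeries (Ribet.SVar ι τ) O}
    (hr : ∀ i (d : Ribet.SVar ι τ →₀ ℕ), 2 ≤ d (Sum.inl (i, 2)) → coeff d r = 0)
    (h : MvPowerSeries.map (Ideal.Quotient.mk (Ideal.span {ϖ})) (chartHom δ r) = 0)
    (d : Ribet.SVar ι τ →₀ ℕ) : ϖ ∣ coeff d r := by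
  classical
  cases nonempty_fintype ι
  cases nonempty_fintype τ
  by_cases hd : ∃ i, 2 ≤ d (Sum.inl (i, 2))
  · obtain ⟨i, hi⟩ := hd
    simp [hr i d hi]
  push Not at hd
  set q := Ideal.Quotient.mk (Ideal.span {ϖ})
  set e : (Ribet.SVar ι τ →₀ ℕ) → (Ribet.CVar ι τ →₀ ℕ) := fun d => d.sum fun v m => m • chartExp v
  set n := (e d).degree + d.degree + 1 with hn
  have h1 : coeff (e d) (chartHom δ r) =
      coeff (e d) (MvPolynomial.aeval (chartS δ) (truncTotal n r)) := by
    rw [← sub_eq_zero, ← map_sub]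
    refine coeff_eq_zero_of_mem_varIdeal_pow (n := n) ?_ (by omega)
    rw [← Ideal.Quotient.mk_eq_mk_iff_sub_mem]
    exact Deform.mk_pev _ _ _ n r
  have h2 : q (coeff (e d) (chartHom δ r)) = 0 := by
    rw [← coeff_map, h, map_zero]
  rw [h1, MvPolynomial.as_sum (truncTotal n r), map_sum, map_sum, map_sum,
    Finset.sum_eq_single d] at h2
  · rw [coeff_truncTotal _ (by omega)] at h2
    rw [MvPolynomial.aeval_monomial, algebraMap_eq_C, ← coeff_map, map_mul, map_C,
      map_finsuppProd] at h2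
    simp only [map_pow, q, map_chartS δ hϖ, monomial_pow] at h2
    rw [Finsupp.prod, prod_monomial, coeff_C_mul,
      show (∑ v ∈ d.support, d v • chartExp v) = e d from rfl, coeff_monomial, if_pos rfl] at h2
    have hu : IsUnit (∏ v ∈ d.support, (chartSign v : O ⧸ Ideal.span {ϖ}) ^ d v) := by
      refine IsUnit.prod_iff.mpr fun v _ => IsUnit.pow _ ?_
      rcases v with ⟨i, k⟩ | t
      · fin_cases k <;> simp [chartSign]
      · simp [chartSign]
    rwa [hu.mul_left_eq_zero, Ideal.Quotient.eq_zero_iff_mem, Ideal.mem_span_singleton] at h2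
  · intro d' hd' hne
    rw [coeff_truncTotal r (by
      by_contra hc
      exact (MvPolynomial.mem_support_iff.mp hd') (coeff_truncTotal_eq_zero _ (by omega)))]
    by_cases hd2 : ∃ i, 2 ≤ d' (Sum.inl (i, 2))
    · obtain ⟨i, hi⟩ := hd2
      simp [hr i d' hi]
    push Not at hd2
    rw [MvPolynomial.aeval_monomial, algebraMap_eq_C, ← coeff_map, map_mul, map_C,
      map_finsuppProd]
    simp only [map_pow, q, map_chartS δ hϖ, monomial_pow]
    rw [Finsupp.prod, prod_monomial, coeff_C_mul, coeff_monomial,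
      if_neg (show e d ≠ ∑ v ∈ d'.support, d' v • chartExp v from
        fun he => hne (weight_chartExp_injOn hd2 hd he.symm)), mul_zero]
  · intro hd'
    rw [MvPolynomial.notMem_support_iff.mp hd']
    simp

variable [IsDomain O] {ϖ : O}

lemma exists_step (hϖ : ∀ i, ϖ ∣ δ i) (hϖ0 : ϖ ≠ 0) (f : MvPowerSeries (Ribet.SVar ι τ) O)
    (hf : chartHom δ f = 0) :
    ∃ f₁, f - C ϖ * f₁ ∈ Ideal.span (Set.range (quad (τ := τ) δ)) ∧ chartHom δ f₁ = 0 := by
  classical
  cases nonempty_fintype ι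
  choose δ' hδ' using hϖ
  obtain ⟨g, r, hfr, hr⟩ := exists_division f
  set e : MvPowerSeries (Ribet.SVar ι τ) O :=
    ∑ i, C (δ' i) * (2 * X (Sum.inl (i, 2)) * g i)
  have hf2 : f = (∑ i, quad δ i * g i) + (r - C ϖ * e) := by
    rw [hfr, Finset.mul_sum]
    have : ∀ i : ι, quad δ i * g i =
        quad0 i * g i + C ϖ * (C (δ' i) * (2 * X (Sum.inl (i, 2)) * g i)) := fun i => by
      rw [quad_eq, hδ' i, map_mul]; ring
    rw [Finset.sum_congr rfl fun i _ => this i, Finset.sum_add_distrib]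
    ring
  have hc : chartHom δ (r - C ϖ * e) = 0 := by
    have := hf
    rw [hf2, map_add, map_sum] at this
    simpa [chartHom_quad] using this
  have hdvd : ∀ d, ϖ ∣ coeff d r := by
    refine dvd_coeff_of_chartHom δ (fun i => ⟨δ' i, hδ' i⟩) hr ?_
    rw [map_sub, map_mul, sub_eq_zero] at hc
    rw [hc, map_mul, algHom_C, algebraMap_eq_C, map_C,
      Ideal.Quotient.eq_zero_iff_mem.mpr (Ideal.mem_span_singleton_self ϖ), map_zero, zero_mul]
  choose r₁ hr₁ using hdvd
  let r' : MvPowerSeries (Ribet.SVar ι τ) O := fun d => r₁ d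
  have hr' : r = C ϖ * r' := by
    ext d
    rw [coeff_C_mul]
    exact hr₁ d
  refine ⟨r' - e, ?_, ?_⟩
  · have : f - C ϖ * (r' - e) = ∑ i, quad δ i * g i := by
      rw [hf2, hr']
      ring
    rw [this]
    exact Ideal.sum_mem _ fun i _ => Ideal.mul_mem_right _ _ (Ideal.subset_span ⟨i, rfl⟩)
  · have h0 : (algebraMap O (MvPowerSeries (Ribet.CVar ι τ) O) ϖ) * chartHom δ (r' - e) = 0 := by
      rw [← algHom_C (chartHom δ), ← map_mul]
      convert hc using 2
      rw [hr']
      ring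
    refine (mul_eq_zero.mp h0).resolve_left fun h => hϖ0 ?_
    rw [algebraMap_eq_C] at h
    exact C_injective (σ := Ribet.CVar ι τ) (by rw [h, map_zero])

lemma exists_iterate (hϖ : ∀ i, ϖ ∣ δ i) (hϖ0 : ϖ ≠ 0) (n : ℕ)
    (f : MvPowerSeries (Ribet.SVar ι τ) O) (hf : chartHom δ f = 0) :
    ∃ f₁, f - C ϖ ^ n * f₁ ∈ Ideal.span (Set.range (quad (τ := τ) δ)) ∧ chartHom δ f₁ = 0 := by
  induction n with
  | zero => exact ⟨f, by simp, hf⟩
  | succ n ih =>
    obtain ⟨f₁, h₁, hf₁⟩ := ih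
    obtain ⟨f₂, h₂, hf₂⟩ := exists_step δ hϖ hϖ0 f₁ hf₁
    refine ⟨f₂, ?_, hf₂⟩
    have := Ideal.add_mem _ h₁ (Ideal.mul_mem_left _ (C ϖ ^ n) h₂)
    convert this using 1
    ring

/-- A power series killed by the chart vanishes at every point of the quadrics. -/
theorem pev_eq_zero_of_chartHom {B : Type} [CommRing B] [IsLocalRing B]
    [IsAdicComplete (maximalIdeal B) B] [Algebra O B] (hϖ : ∀ i, ϖ ∣ δ i) (hϖ0 : ϖ ≠ 0)
    (hϖB : algebraMap O B ϖ ∈ maximalIdeal B)
    (P : Ribet.SVar ι τ → B) (hP : ∀ v, P v ∈ maximalIdeal B)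
    (hq : ∀ i, qd (unshift (algebraMap O B (δ i)) fun k => P (Sum.inl (i, k))) =
      algebraMap O B (δ i) ^ 2)
    (f : MvPowerSeries (Ribet.SVar ι τ) O) (hf : chartHom δ f = 0) :
    Deform.pev (maximalIdeal B) P hP f = 0 := by
  set φ : MvPowerSeries (Ribet.SVar ι τ) O →ₐ[O] B := Deform.pev (maximalIdeal B) P hP with hφ
  refine Deform.eq_of_forall_sub_mem_pow (maximalIdeal B) fun n => ?_
  obtain ⟨f₁, h₁, -⟩ := exists_iterate δ hϖ hϖ0 n f hf
  have hker : Ideal.span (Set.range (quad (τ := τ) δ)) ≤ RingHom.ker φ := by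
    rw [Ideal.span_le]
    rintro _ ⟨i, rfl⟩
    rw [SetLike.mem_coe, RingHom.mem_ker, quad, map_sub, map_pow, map_qd, sub_eq_zero, algHom_C]
    conv_lhs => arg 1; ext l; rw [map_unshift, algHom_C]
    simp only [hφ, Deform.pev_X]
    exact hq i
  have h2 := hker h₁
  rw [RingHom.mem_ker, map_sub, map_mul, map_pow, algHom_C, sub_eq_zero] at h2
  rw [sub_zero, h2]
  exact Ideal.mul_mem_right _ _ (Ideal.pow_mem_pow hϖB n)

end Quadric

end Fermat.Agent.Lifting
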