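import Fermat.Agent.Lifting.APlace
import Fermat.Agent.Lifting.AQuadric

/-!
# Power series killed by the chart vanish at every point with the local conditions
-/

set_option autoImplicit false

noncomputable section

namespace Fermat.Agent.Lifting

open MvPowerSeries IsLocalRing

/-- `(d, z, c, e) ↦ Φ - ε` at a place with scalar centre. -/
def Frame.quadLeft {R : Type} [CommRing R] (d z c e : R) : Matrix (Fin 2) (Fin 2) R :=
  !![d + e, z; c, -e]

/-- `(d, z, c, e) ↦ Φ - ε q` at a place with scalar centre. -/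
def Frame.quadRight {R : Type} [CommRing R] (d z c e : R) : Matrix (Fin 2) (Fin 2) R :=
  !![e, z; c, -e - d]

namespace Places

variable {O : Type} [CommRing O] {σ : Shape} (P : Places O σ) (st : Fin σ.k → Bool)

open Classical in
/-- A Steinberg place with scalar centre. -/
def scalarB (a : Fin σ.k) : Bool :=
  decide (st a = true ∧ P.beta a = 0 ∧ ¬ IsUnit (P.gap a))

/-- The constant of the quadric. -/
def delta (a : Fin σ.k) : O :=
  if P.scalarB st a then Ring.inverse (2 : O) * P.gap a else 0

section Value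

variable {B : Type} [CommRing B] [Algebra O B] (pt : σ.LocVar ⊕ Fin σ.r → B)

/-- Frobenius at a point. -/
def frobAt (a : Fin σ.k) : Matrix (Fin 2) (Fin 2) B :=
  (P.centre a).map (algebraMap O B) + Matrix.of fun i j => pt (Sum.inl (a, true, i, j))

/-- Monodromy at a point. -/
def monoAt (_P : Places O σ) (a : Fin σ.k) : Matrix (Fin 2) (Fin 2) B :=
  Matrix.of fun i j => pt (Sum.inl (a, false, i, j))

/-- The local conditions at a point: Steinberg where `st` holds, unramified elsewhere. -/
def IsPoint : Prop :=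
  ∀ a, (P.frobAt pt a).det = (P.q a : B) ∧
    (st a = true → (P.frobAt pt a).trace = algebraMap O B (P.eps a) * ((P.q a : B) + 1) ∧
      P.frobAt pt a * P.monoAt pt a = (P.q a : B) • (P.monoAt pt a * P.frobAt pt a)) ∧
    (st a = false → P.monoAt pt a = 0)

end Value

/-- The variables of the intermediate ring. -/
abbrev MidVar (σ : Shape) : Type := Ribet.SVar (Fin σ.k) σ.ChartVar

/-- The variables of the chart of the intermediate ring. -/
abbrev TopVar (σ : Shape) : Type := Ribet.CVar (Fin σ.k) σ.ChartVar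

variable (X0 : Fin σ.k → Matrix (Fin 2) (Fin 2) O)

/-- The matrices of a place in the intermediate ring. -/
def midMat (a : Fin σ.k) (b : Bool) : Matrix (Fin 2) (Fin 2) (MvPowerSeries (MidVar σ) O) :=
  let v : Fin 3 → MvPowerSeries (MidVar σ) O := fun j => X (Sum.inl (a, j))
  cond (P.scalarB st a)
    (cond b !![v 2, v 0; v 1, -v 2]
      ((X (Sum.inr (Sum.inl (a, 2))) : MvPowerSeries (MidVar σ) O) •
        (Frame.quadLeft (C (P.gap a)) (v 0) (v 1) (v 2) *
          (X0 a).map (C : O → MvPowerSeries (MidVar σ) O) *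
          Frame.quadRight (C (P.gap a)) (v 0) (v 1) (v 2))))
    (P.locMatIn st a b fun j => X (Sum.inr (Sum.inl (a, j))))

/-- Values of the main variables in the intermediate ring. -/
def midVal : σ.LocVar ⊕ Fin σ.r → MvPowerSeries (MidVar σ) O :=
  Sum.elim (fun v => P.midMat st X0 v.1 v.2.1 v.2.2.1 v.2.2.2)
    fun v => X (Sum.inr (Sum.inr v))

/-- Values of the chart variables in the chart of the intermediate ring. -/
def thetaVal : σ.ChartVar → MvPowerSeries (TopVar σ) O :=
  Sum.elim (fun v =>
      let z : MvPowerSeries (TopVar σ) O := X (Sum.inl (v.1, 1))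
      let y : MvPowerSeries (TopVar σ) O := X (Sum.inl (v.1, 0))
      cond (P.scalarB st v.1)
        (![z, y, X (Sum.inr (Sum.inl (v.1, 2))) *
          (Frame.leftFac (C (P.gap v.1)) z y *
            (X0 v.1).map (C : O → MvPowerSeries (TopVar σ) O) *
            Frame.rightFac (C (P.gap v.1)) z y) 0 1] v.2)
        (X (Sum.inr (Sum.inl v))))
    fun v => X (Sum.inr (Sum.inr v))

lemma thetaVal_mem (v : σ.ChartVar) :
    P.thetaVal st X0 v ∈ Deform.varIdeal (TopVar σ) O := by
  refine (mem_varIdeal_iff _).mpr ?_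
  rcases v with ⟨a, j⟩ | v
  · cases h : P.scalarB st a <;> fin_cases j <;> simp [thetaVal, h]
  · simp [thetaVal]

variable [IsLocalRing O]

lemma constantCoeff_locMatIn {ι : Type} [Finite ι] (a : Fin σ.k) (b : Bool) (f : Fin 3 → ι)
    (i j : Fin 2) :
    constantCoeff (P.locMatIn st a b (fun l => (X (f l) : MvPowerSeries ι O)) i j) = 0 := by
  simp only [locMatIn]
  cases st a <;> cases b <;> simp only [cond_true, cond_false]
  · simp
  · rw [Frame.map_unrFrob constantCoeff (by
      simpa [MvPowerSeries.algebraMap_apply] using P.isUnit_unrDen a (f 0))]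
    fin_cases i <;> fin_cases j <;>
      simp [Frame.unrFrob, MvPowerSeries.algebraMap_apply, P.inverse_centre a]
  · simp
  · rw [Frame.map_stFrob constantCoeff]
    fin_cases i <;> fin_cases j <;> simp [Frame.stFrob]

lemma midVal_mem (v : σ.LocVar ⊕ Fin σ.r) :
    P.midVal st X0 v ∈ Deform.varIdeal (MidVar σ) O := by
  refine (mem_varIdeal_iff _).mpr ?_
  rcases v with ⟨a, b, i, j⟩ | v
  · cases h : P.scalarB st a
    · simpa [midVal, midMat, h] using P.constantCoeff_locMatIn st a b _ i j
    · cases b <;> fin_cases i <;> fin_cases j <;> simp [midVal, midMat, h]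
  · simp [midVal]

lemma delta_add_self (h2 : IsUnit (2 : O)) {a : Fin σ.k} (h : P.scalarB st a = true) :
    2 * P.delta st a = P.gap a := by
  rw [delta, if_pos h, ← mul_assoc, Ring.mul_inverse_cancel _ h2, one_mul]

/-- The substitution into the intermediate ring. -/
def midHom : σ.MainRing O →ₐ[O] MvPowerSeries (MidVar σ) O :=
  haveI : IsAdicComplete (Deform.varIdeal (MidVar σ) O) (MvPowerSeries (MidVar σ) O) :=
    Ribet.isAdicComplete_varIdeal
  Deform.pev (Deform.varIdeal (MidVar σ) O) (P.midVal st X0) (P.midVal_mem st X0)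

omit [IsLocalRing O] in
lemma apply_cases {R : Type} (M : Fin 2 → Fin 2 → R) {p : R → Prop} (h00 : p (M 0 0))
    (h01 : p (M 0 1)) (h10 : p (M 1 0)) (h11 : p (M 1 1)) (i j : Fin 2) : p (M i j) := by
  fin_cases i <;> fin_cases j <;> assumption

/-- The substitution from the chart into the chart of the intermediate ring. -/
def thetaHom : σ.ChartRing O →ₐ[O] MvPowerSeries (TopVar σ) O :=
  haveI : IsAdicComplete (Deform.varIdeal (TopVar σ) O) (MvPowerSeries (TopVar σ) O) :=
    Ribet.isAdicComplete_varIdeal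
  Deform.pev (Deform.varIdeal (TopVar σ) O) (P.thetaVal st X0) (P.thetaVal_mem st X0)

omit [IsLocalRing O] in
lemma thetaHom_X (v : σ.ChartVar) : P.thetaHom st X0 (X v) = P.thetaVal st X0 v :=
  Deform.pev_X _ _ _ _

lemma midHom_X (v : σ.LocVar ⊕ Fin σ.r) : P.midHom st X0 (X v) = P.midVal st X0 v :=
  Deform.pev_X _ _ _ _

lemma chartS_quad (h2 : IsUnit (2 : O)) {a : Fin σ.k} (h : P.scalarB st a = true) (l : Fin 3) :
    Quadric.chartHom (τ := σ.ChartVar) (P.delta st) (X (Sum.inl (a, l))) =
      ![(X (Sum.inl (a, 1)) : MvPowerSeries (TopVar σ) O),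
        X (Sum.inl (a, 0)) * (C (P.gap a) - X (Sum.inl (a, 1)) * X (Sum.inl (a, 0))),
        -(X (Sum.inl (a, 1)) * X (Sum.inl (a, 0)))] l := by
  have hd : (2 : MvPowerSeries (TopVar σ) O) * C (P.delta st a) = C (P.gap a) := by
    rw [← P.delta_add_self st h2 h, map_mul, map_ofNat]
  rw [Quadric.chartHom_X, ← hd]
  fin_cases l <;> simp [Quadric.chartS, Ribet.chartVec]
  ring

lemma hval_free {a : Fin σ.k} (h : P.scalarB st a = false) (b : Bool) (i j : Fin 2) :
    Quadric.chartHom (P.delta st) (P.midVal st X0 (Sum.inl (a, b, i, j))) =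
      P.thetaHom st X0 (P.chartVal st (Sum.inl (a, b, i, j))) := by
  simp only [midVal, chartVal, Sum.elim_inl, midMat, h, cond_false]
  rw [P.map_locMatIn st (Quadric.chartHom (P.delta st)) a b
      (x := fun l => (X (Sum.inr (Sum.inl (a, l))) : MvPowerSeries (MidVar σ) O))
      (y := fun l => (X (Sum.inr (Sum.inl (a, l))) : MvPowerSeries (TopVar σ) O))
      (fun l => by simp [Quadric.chartS])
      (by simpa [MvPowerSeries.algebraMap_apply] using
        P.isUnit_unrDen a (Sum.inr (Sum.inl (a, 0)) : MidVar σ)),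
    P.map_locMatIn st (P.thetaHom st X0) a b
      (x := fun l => (X (Sum.inl (a, l)) : σ.ChartRing O))
      (y := fun l => (X (Sum.inr (Sum.inl (a, l))) : MvPowerSeries (TopVar σ) O))
      (fun l => by simp [thetaHom_X, thetaVal, h])
      (by simpa [MvPowerSeries.algebraMap_apply] using
        P.isUnit_unrDen a (Sum.inl (a, 0) : σ.ChartVar))]

lemma thetaHom_chartVal_scalar {a : Fin σ.k} (h : P.scalarB st a = true) (b : Bool)
    (i j : Fin 2) :
    P.thetaHom st X0 (P.chartVal st (Sum.inl (a, b, i, j))) =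
      P.locMatIn st a b ![(X (Sum.inl (a, 1)) : MvPowerSeries (TopVar σ) O), X (Sum.inl (a, 0)),
        X (Sum.inr (Sum.inl (a, 2))) * ((Frame.leftFac (C (P.gap a)) (X (Sum.inl (a, 1)))
          (X (Sum.inl (a, 0))) * (X0 a).map (C : O → MvPowerSeries (TopVar σ) O) *
          Frame.rightFac (C (P.gap a)) (X (Sum.inl (a, 1))) (X (Sum.inl (a, 0))) :
            Matrix (Fin 2) (Fin 2) (MvPowerSeries (TopVar σ) O)) 0 1)] i j := by
  simp only [chartVal, Sum.elim_inl]
  refine P.map_locMatIn st (P.thetaHom st X0) a b (fun l => ?_) ?_ i j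
  · fin_cases l <;> simp [thetaHom_X, thetaVal, h]
  · simpa [MvPowerSeries.algebraMap_apply] using P.isUnit_unrDen a (Sum.inl (a, 0) : σ.ChartVar)

lemma hval_scalar_frob (h2 : IsUnit (2 : O)) {a : Fin σ.k} (h : P.scalarB st a = true)
    (i j : Fin 2) :
    Quadric.chartHom (P.delta st) (P.midVal st X0 (Sum.inl (a, true, i, j))) =
      P.thetaHom st X0 (P.chartVal st (Sum.inl (a, true, i, j))) := by
  have hs : st a = true ∧ P.beta a = 0 ∧ ¬ IsUnit (P.gap a) := by simpa [scalarB] using h
  rw [thetaHom_chartVal_scalar P st X0 h]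
  simp only [midVal, Sum.elim_inl, midMat, h, cond_true, locMatIn, hs.1]
  fin_cases i <;> fin_cases j <;>
    simp [Frame.stFrob, hs.2.1, P.chartS_quad st h2 h, MvPowerSeries.algebraMap_apply,
      -Quadric.chartHom_X]

lemma map_quadFac (h2 : IsUnit (2 : O)) {a : Fin σ.k} (h : P.scalarB st a = true) (i j : Fin 2) :
    Quadric.chartHom (τ := σ.ChartVar) (P.delta st) (Frame.quadLeft (C (P.gap a))
        (X (Sum.inl (a, 0))) (X (Sum.inl (a, 1))) (X (Sum.inl (a, 2))) i j) =
      Frame.leftFac (C (P.gap a)) (X (Sum.inl (a, 1)) : MvPowerSeries (TopVar σ) O)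
        (X (Sum.inl (a, 0))) i j ∧
    Quadric.chartHom (τ := σ.ChartVar) (P.delta st) (Frame.quadRight (C (P.gap a))
        (X (Sum.inl (a, 0))) (X (Sum.inl (a, 1))) (X (Sum.inl (a, 2))) i j) =
      Frame.rightFac (C (P.gap a)) (X (Sum.inl (a, 1)) : MvPowerSeries (TopVar σ) O)
        (X (Sum.inl (a, 0))) i j := by
  fin_cases i <;> fin_cases j <;>
    simp [Frame.quadLeft, Frame.quadRight, Frame.leftFac, Frame.rightFac,
      P.chartS_quad st h2 h, -Quadric.chartHom_X, Ribet.algHom_C,
      MvPowerSeries.algebraMap_apply] <;>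
    ring

lemma hval_scalar_mono (h2 : IsUnit (2 : O)) {a : Fin σ.k} (h : P.scalarB st a = true)
    (i j : Fin 2) :
    Quadric.chartHom (P.delta st) (P.midVal st X0 (Sum.inl (a, false, i, j))) =
      P.thetaHom st X0 (P.chartVal st (Sum.inl (a, false, i, j))) := by
  have hs : st a = true ∧ P.beta a = 0 ∧ ¬ IsUnit (P.gap a) := by simpa [scalarB] using h
  rw [thetaHom_chartVal_scalar P st X0 h]
  set Q := Quadric.chartHom (τ := σ.ChartVar) (P.delta st) with hQ
  simp only [midVal, Sum.elim_inl, midMat, h, cond_true, cond_false, Matrix.smul_apply,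
    smul_eq_mul, map_mul, locMatIn, hs.1]
  rw [← Matrix.map_apply (f := Q) (M := Frame.quadLeft _ _ _ _ * _ * Frame.quadRight _ _ _ _),
    Matrix.map_mul, Matrix.map_mul,
    show (Frame.quadLeft (C (P.gap a)) (X (Sum.inl (a, 0))) (X (Sum.inl (a, 1)))
      (X (Sum.inl (a, 2)))).map Q = _ from Matrix.ext fun i j => (P.map_quadFac st h2 h i j).1,
    show (Frame.quadRight (C (P.gap a)) (X (Sum.inl (a, 0))) (X (Sum.inl (a, 1)))
      (X (Sum.inl (a, 2)))).map Q = _ from Matrix.ext fun i j => (P.map_quadFac st h2 h i j).2,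
    show ((X0 a).map (C : O → MvPowerSeries (MidVar σ) O)).map Q =
      (X0 a).map (C : O → MvPowerSeries (TopVar σ) O) from
        Matrix.ext fun i j => Q.commutes (X0 a i j),
    show Q (X (Sum.inr (Sum.inl (a, 2))) : MvPowerSeries (MidVar σ) O) =
      X (Sum.inr (Sum.inl (a, 2))) by simp [hQ, Quadric.chartS],
    Frame.sandwich_chart]
  simp [mul_assoc, Frame.nilLine]

lemma thetaHom_mem {g : σ.ChartRing O} (hg : g ∈ Deform.varIdeal σ.ChartVar O) :
    P.thetaHom st X0 g ∈ Deform.varIdeal (TopVar σ) O := by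
  have h : Deform.varIdeal σ.ChartVar O ≤
      (Deform.varIdeal (TopVar σ) O).comap (P.thetaHom st X0) := by
    rw [Deform.varIdeal, Ideal.span_le]
    rintro _ ⟨u, rfl⟩
    simpa [thetaHom_X] using P.thetaVal_mem st X0 u
  exact h hg

lemma chartHom_midHom (h2 : IsUnit (2 : O)) (f : σ.MainRing O) :
    Quadric.chartHom (P.delta st) (P.midHom st X0 f) =
      P.thetaHom st X0 (P.chartHom st f) := by
  have hval : ∀ v, Quadric.chartHom (P.delta st) (P.midVal st X0 v) =
      P.thetaHom st X0 (P.chartVal st v) := by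
    rintro (⟨a, b, i, j⟩ | v)
    · cases h : P.scalarB st a
      · exact P.hval_free st X0 h b i j
      · cases b
        · exact P.hval_scalar_mono st X0 h2 h i j
        · exact P.hval_scalar_frob st X0 h2 h i j
    · simp [midVal, chartVal, Quadric.chartS, thetaHom_X, thetaVal]
  have key : (Quadric.chartHom (P.delta st)).comp (P.midHom st X0) =
      (P.thetaHom st X0).comp (P.chartHom st) := by
    refine Deform.algHom_ext_of_X (Deform.varIdeal (TopVar σ) O) _ _ (fun v => ?_) (fun v => ?_)
    · simp only [AlgHom.comp_apply, midHom_X, hval]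
      exact P.thetaHom_mem st X0 (P.chartVal_mem st v)
    · simp only [AlgHom.comp_apply, midHom_X, hval, chartHom_X]
  exact DFunLike.congr_fun key f

end Places

end Fermat.Agent.Lifting
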