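import Fermat.Agent.Lifting.BGaugeDefs
import Mathlib.RingTheory.AdicCompletion.Functoriality
import Mathlib.RingTheory.Nakayama
import Mathlib.LinearAlgebra.Dual.Lemmas
import Mathlib.LinearAlgebra.Dual.Basis
import Mathlib.LinearAlgebra.FreeModule.Finite.Matrix

/-!
# Tangent vectors and surjectivity out of power series rings
-/

set_option autoImplicit false

noncomputable section

namespace Fermat.Agent.Lifting

open IsLocalRing MvPowerSeries Module

variable {O : Type} [CommRing O] [IsLocalRing O]

section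

variable {A : Type} [CommRing A] [Algebra O A] (χ : A →ₐ[O] ResidueField O)

/-- The tangent space at `χ`. -/
def tangentSpace : Submodule (ResidueField O) (A →ₗ[O] ResidueField O) where
  carrier := {f | IsTangent χ f}
  add_mem' {f f'} hf hf' :=
    ⟨fun t => by simp [hf.map_algebraMap t, hf'.map_algebraMap t],
      fun a b => by simp only [LinearMap.add_apply, hf.map_mul, hf'.map_mul]; ring⟩
  zero_mem' := ⟨fun t => by simp, fun a b => by simp⟩
  smul_mem' c f hf :=
    ⟨fun t => by simp [hf.map_algebraMap t],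
      fun a b => by simp only [LinearMap.smul_apply, smul_eq_mul, hf.map_mul]; ring⟩

theorem mem_tangentSpace (f : A →ₗ[O] ResidueField O) :
    f ∈ tangentSpace χ ↔ IsTangent χ f := Iff.rfl

theorem algHom_algebraMap_eq_residue (t : O) : χ (algebraMap O A t) = residue O t := by
  rw [AlgHom.commutes, ResidueField.algebraMap_eq]

theorem algHom_residue_surjective : Function.Surjective χ := fun x => by
  obtain ⟨t, rfl⟩ := residue_surjective x
  exact ⟨algebraMap O A t, algHom_algebraMap_eq_residue χ t⟩

variable {χ}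

theorem IsTangent.map_one {f : A →ₗ[O] ResidueField O} (hf : IsTangent χ f) : f 1 = 0 := by
  simpa using hf.map_algebraMap 1

variable [IsLocalRing A]

theorem mem_maximalIdeal_iff_algHom (χ : A →ₐ[O] ResidueField O) (a : A) :
    a ∈ maximalIdeal A ↔ χ a = 0 := by
  have h := IsLocalRing.eq_maximalIdeal
    (RingHom.ker_isMaximal_of_surjective (χ : A →+* ResidueField O)
      (algHom_residue_surjective χ))
  rw [← h, RingHom.mem_ker]
  rfl

theorem algebraMap_mem_of_mem (χ : A →ₐ[O] ResidueField O) {t : O} (ht : t ∈ maximalIdeal O) :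
    algebraMap O A t ∈ maximalIdeal A := by
  rw [mem_maximalIdeal_iff_algHom χ, algHom_algebraMap_eq_residue, residue_eq_zero_iff]
  exact ht

theorem mem_of_algebraMap_mem (χ : A →ₐ[O] ResidueField O) {t : O}
    (ht : algebraMap O A t ∈ maximalIdeal A) : t ∈ maximalIdeal O := by
  rwa [mem_maximalIdeal_iff_algHom χ, algHom_algebraMap_eq_residue, residue_eq_zero_iff] at ht

theorem exists_sub_algebraMap_mem (χ : A →ₐ[O] ResidueField O) (a : A) :
    ∃ t : O, a - algebraMap O A t ∈ maximalIdeal A := by
  obtain ⟨t, ht⟩ := residue_surjective (χ a)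
  refine ⟨t, ?_⟩
  rw [mem_maximalIdeal_iff_algHom χ, map_sub, algHom_algebraMap_eq_residue, ht, sub_self]

theorem IsTangent.map_sq {f : A →ₗ[O] ResidueField O} (hf : IsTangent χ f) {a : A}
    (ha : a ∈ maximalIdeal A ^ 2) : f a = 0 := by
  rw [pow_two] at ha
  refine Submodule.mul_induction_on ha (fun x hx y hy => ?_) fun x y hx hy => by simp [hx, hy]
  rw [hf.map_mul, (mem_maximalIdeal_iff_algHom χ x).mp hx,
    (mem_maximalIdeal_iff_algHom χ y).mp hy, zero_mul, zero_mul, add_zero]

/-- A tangent vector vanishing on the maximal ideal vanishes. -/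
theorem IsTangent.eq_zero_of_maximalIdeal {f : A →ₗ[O] ResidueField O} (hf : IsTangent χ f)
    (h : ∀ a ∈ maximalIdeal A, f a = 0) : f = 0 := by
  refine LinearMap.ext fun a => ?_
  obtain ⟨t, ht⟩ := exists_sub_algebraMap_mem χ a
  have := h _ ht
  rwa [map_sub, hf.map_algebraMap, sub_zero] at this

theorem finiteDimensional_tangentSpace [IsNoetherianRing A] :
    FiniteDimensional (ResidueField O) (tangentSpace χ) := by
  obtain ⟨S, hS⟩ := (maximalIdeal A).fg_of_isNoetherianRing
  let ev : tangentSpace χ →ₗ[ResidueField O] ({x // x ∈ S} → ResidueField O) :=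
    { toFun := fun f x => f.1 x.1
      map_add' := fun f f' => rfl
      map_smul' := fun c f => rfl }
  refine FiniteDimensional.of_injective ev fun f f' h => ?_
  apply Subtype.ext
  rw [← sub_eq_zero]
  have hd : IsTangent χ (f.1 - f'.1) := (tangentSpace χ).sub_mem f.2 f'.2
  refine hd.eq_zero_of_maximalIdeal fun a ha => ?_
  have hS' : ∀ x ∈ S, (f.1 - f'.1) x = 0 := fun x hx =>
    sub_eq_zero.mpr (congrFun h ⟨x, hx⟩)
  have hmem : ∀ x ∈ S, χ x = 0 := fun x hx =>
    (mem_maximalIdeal_iff_algHom χ x).mp (hS ▸ Ideal.subset_span hx)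
  rw [← hS] at ha
  refine Submodule.span_induction (p := fun a _ => (f.1 - f'.1) a = 0) (fun x hx => hS' x hx)
    (map_zero _) (fun x y _ _ hx hy => by rw [map_add, hx, hy, add_zero]) (fun r x hx' hx => ?_) ha
  rw [smul_eq_mul, hd.map_mul, hx, mul_zero, zero_add]
  have : χ x = 0 := (mem_maximalIdeal_iff_algHom χ x).mp (hS ▸ hx')
  rw [this, zero_mul]

/-- The tangent vectors killing a family. -/
def tangentAnn (χ : A →ₐ[O] ResidueField O) {ι : Type} (a : ι → A) :
    Submodule (ResidueField O) (A →ₗ[O] ResidueField O) where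
  carrier := {f | IsTangent χ f ∧ ∀ i, f (a i) = 0}
  add_mem' {f f'} hf hf' := ⟨(tangentSpace χ).add_mem hf.1 hf'.1,
    fun i => by simp [hf.2 i, hf'.2 i]⟩
  zero_mem' := ⟨(tangentSpace χ).zero_mem, fun i => rfl⟩
  smul_mem' c f hf := ⟨(tangentSpace χ).smul_mem c hf.1, fun i => by simp [hf.2 i]⟩

/-- Elements of the maximal ideal which separate a small space of tangent vectors. -/
theorem exists_separating_elements [IsNoetherianRing A] {ι : Type} (a : ι → A) (g : ℕ)
    (hg : finrank (ResidueField O) (tangentAnn χ a) ≤ g) :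
    ∃ x : Fin g → A, (∀ i, x i ∈ maximalIdeal A) ∧
      ∀ f : A →ₗ[O] ResidueField O, IsTangent χ f → (∀ i, f (a i) = 0) →
        (∀ i, f (x i) = 0) → f = 0 := by
  classical
  have := finiteDimensional_tangentSpace (χ := χ)
  have hle : tangentAnn χ a ≤ tangentSpace χ := fun f hf => hf.1
  have : FiniteDimensional (ResidueField O) (tangentAnn χ a) :=
    Submodule.finiteDimensional_of_le hle
  haveI : Module.Free (ResidueField O) (tangentAnn χ a) :=
    @Module.Free.of_divisionRing (ResidueField O) (tangentAnn χ a) _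
      (tangentAnn χ a).addCommGroup (tangentAnn χ a).module
  let ev : maximalIdeal A → Module.Dual (ResidueField O) (tangentAnn χ a) := fun x =>
    { toFun := fun f => f.1 x.1
      map_add' := fun f f' => rfl
      map_smul' := fun c f => rfl }
  obtain ⟨b, hbsub, hbspan, hbli⟩ :=
    exists_linearIndependent (ResidueField O) (Set.range ev)
  haveI : Finite b := Set.finite_coe_iff.mpr hbli.setFinite
  haveI := Fintype.ofFinite b
  have hcard : Fintype.card b ≤ g :=
    (hbli.fintype_card_le_finrank).trans ((Module.finrank_linearMap_self (ResidueField O) (ResidueField O) (tangentAnn χ a)).trans_le hg)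
  choose xb hxb using fun z : b => hbsub z.2
  obtain ⟨e⟩ := Function.Embedding.nonempty_of_card_le
    (α := b) (β := Fin g) (by simpa using hcard)
  let x : Fin g → A := fun i =>
    if h : ∃ z, e z = i then (xb h.choose : A) else 0
  refine ⟨x, fun i => ?_, fun f hf hfa hfx => hf.eq_zero_of_maximalIdeal fun m hm => ?_⟩
  · simp only [x]
    split_ifs
    · exact Subtype.coe_prop _
    · exact Submodule.zero_mem _
  · have hz : ∀ z ∈ b, (z : Module.Dual _ _) ⟨f, hf, hfa⟩ = 0 := by
      intro z hz
      have hx : x (e ⟨z, hz⟩) = (xb ⟨z, hz⟩ : A) := by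
        have h : ∃ w, e w = e ⟨z, hz⟩ := ⟨_, rfl⟩
        simp only [x, dif_pos h]
        rw [e.injective h.choose_spec]
      have h1 := hfx (e ⟨z, hz⟩)
      rw [hx] at h1
      have h2 : ev (xb ⟨z, hz⟩) = z := hxb ⟨z, hz⟩
      rw [← h2]
      exact h1
    have hm' : ev ⟨m, hm⟩ ∈ Submodule.span (ResidueField O) b :=
      hbspan ▸ Submodule.subset_span ⟨_, rfl⟩
    have key : ∀ z ∈ Submodule.span (ResidueField O) b,
        (z : Module.Dual _ _) ⟨f, hf, hfa⟩ = 0 := fun z hz' =>
      Submodule.span_induction (p := fun z _ => (z : Module.Dual _ _) ⟨f, hf, hfa⟩ = 0)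
        (fun z h => hz z h) rfl (fun x y _ _ hx hy => by simp [hx, hy])
        (fun c x _ hx => by simp [hx]) hz'
    exact key _ hm'

/-- A family generates a complete noetherian local algebra topologically as soon as no nonzero
tangent vector kills it. -/
theorem surjective_pev_of_tangent [IsAdicComplete (maximalIdeal O) O] [IsNoetherianRing A]
    [IsAdicComplete (maximalIdeal A) A] (χ : A →ₐ[O] ResidueField O) {ι : Type} [Finite ι]
    (a : ι → A) (ha : ∀ i, a i ∈ maximalIdeal A)
    (h : ∀ f : A →ₗ[O] ResidueField O, IsTangent χ f → (∀ i, f (a i) = 0) → f = 0) :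
    Function.Surjective (Deform.pev (maximalIdeal A) a ha : MvPowerSeries ι O →ₐ[O] A) := by
  classical
  set F : MvPowerSeries ι O →ₐ[O] A := Deform.pev (maximalIdeal A) a ha with hF
  set I : Ideal (MvPowerSeries ι O) := maximalIdeal (MvPowerSeries ι O) with hI
  have hC : ∀ t : O, F (C t) = algebraMap O A t := fun t => by
    rw [← F.commutes t]
    rfl
  have hXI : ∀ i, a i ∈ I.map (F : MvPowerSeries ι O →+* A) := fun i => by
    have h2 := Ideal.mem_map_of_mem (F : MvPowerSeries ι O →+* A)
      (Ribet.X_mem_maximalIdeal (B := O) i)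
    simpa [hF, Deform.pev_X] using h2
  have hCI : ∀ t ∈ maximalIdeal O, algebraMap O A t ∈ I.map (F : MvPowerSeries ι O →+* A) :=
    fun t ht => by
      rw [← hC]
      exact Ideal.mem_map_of_mem _ (Ribet.C_mem_maximalIdeal ht)
  have hle : I.map (F : MvPowerSeries ι O →+* A) ≤ maximalIdeal A := by
    rw [hI, Ribet.maximalIdeal_mvPowerSeries, Ideal.map_sup, Ideal.map_map, sup_le_iff]
    refine ⟨Ideal.map_le_iff_le_comap.mpr fun t ht => ?_, ?_⟩
    · show F (C t) ∈ maximalIdeal A
      rw [hC]
      exact algebraMap_mem_of_mem χ ht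
    · rw [Deform.varIdeal, Ideal.map_span, Ideal.span_le]
      rintro _ ⟨_, ⟨i, rfl⟩, rfl⟩
      show F (X i) ∈ maximalIdeal A
      rw [hF, Deform.pev_X]
      exact ha i
  set J : Ideal A := I.map (F : MvPowerSeries ι O →+* A) ⊔ maximalIdeal A ^ 2 with hJ
  have hJeq : maximalIdeal A ≤ J := by
    intro x hx
    by_contra hxJ
    let N : Submodule O A := LinearMap.range (Algebra.linearMap O A) ⊔ J.restrictScalars O
    have hxN : x ∉ N := by
      intro hmem
      obtain ⟨_, ⟨t, rfl⟩, j, hj, hsum⟩ := Submodule.mem_sup.mp hmem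
      have hjm : j ∈ maximalIdeal A := sup_le hle (Ideal.pow_le_self two_ne_zero) hj
      have ht : algebraMap O A t ∈ maximalIdeal A := by
        have h2 := Ideal.sub_mem _ hx hjm
        rwa [← hsum, Algebra.linearMap_apply, add_sub_cancel_right] at h2
      apply hxJ
      rw [← hsum]
      exact J.add_mem (Ideal.mem_sup_left (hCI t (mem_of_algebraMap_mem χ ht))) hj
    have htor : Module.IsTorsionBySet O (A ⧸ N) (maximalIdeal O : Set O) := by
      rintro z ⟨t, ht⟩
      obtain ⟨y, rfl⟩ := Submodule.Quotient.mk_surjective _ z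
      rw [← Submodule.Quotient.mk_smul, Submodule.Quotient.mk_eq_zero]
      refine Submodule.mem_sup_right ?_
      show t • y ∈ J
      rw [Algebra.smul_def]
      exact Ideal.mul_mem_right _ _ (Ideal.mem_sup_left (hCI t ht))
    letI : Module (ResidueField O) (A ⧸ N) := htor.module
    haveI : IsScalarTower O (ResidueField O) (A ⧸ N) := htor.isScalarTower
    have hne : (Submodule.Quotient.mk x : A ⧸ N) ≠ 0 := by
      rwa [Ne, Submodule.Quotient.mk_eq_zero]
    obtain ⟨d, hd⟩ : ∃ d : Module.Dual (ResidueField O) (A ⧸ N),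
        d (Submodule.Quotient.mk x) ≠ 0 := by
      by_contra hc
      push Not at hc
      exact hne ((Module.forall_dual_apply_eq_zero_iff _ _).mp hc)
    let f : A →ₗ[O] ResidueField O := (d.restrictScalars O).comp N.mkQ
    have hfN : ∀ y ∈ N, f y = 0 := fun y hy => by
      show d (N.mkQ y) = 0
      rw [Submodule.mkQ_apply, (Submodule.Quotient.mk_eq_zero N).mpr hy, map_zero]
    have hfalg : ∀ t, f (algebraMap O A t) = 0 := fun t =>
      hfN _ (Submodule.mem_sup_left ⟨t, rfl⟩)
    have hfJ : ∀ y ∈ J, f y = 0 := fun y hy => hfN _ (Submodule.mem_sup_right hy)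
    have hf : IsTangent χ f := by
      refine ⟨hfalg, fun b c => ?_⟩
      obtain ⟨t, ht⟩ := exists_sub_algebraMap_mem χ b
      obtain ⟨u, hu⟩ := exists_sub_algebraMap_mem χ c
      have h3 := hfJ _ (Ideal.mem_sup_right (pow_two (maximalIdeal A) ▸ Ideal.mul_mem_mul ht hu))
      have hb : χ b = residue O t := by
        have := (mem_maximalIdeal_iff_algHom χ _).mp ht
        rwa [map_sub, algHom_algebraMap_eq_residue, sub_eq_zero] at this
      have hc : χ c = residue O u := by
        have := (mem_maximalIdeal_iff_algHom χ _).mp hu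
        rwa [map_sub, algHom_algebraMap_eq_residue, sub_eq_zero] at this
      have hexp : b * c = (b - algebraMap O A t) * (c - algebraMap O A u) + t • c + u • b -
          algebraMap O A (t * u) := by
        simp only [Algebra.smul_def, _root_.map_mul]; ring
      rw [hexp, map_sub, map_add, map_add, h3, hfalg, map_smul, map_smul, Algebra.smul_def,
        Algebra.smul_def, ResidueField.algebraMap_eq, hb, hc]
      ring
    have hzero := h f hf fun i => hfJ _ (Ideal.mem_sup_left (hXI i))
    exact hd (DFunLike.congr_fun hzero x)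
  have heq : I.map (F : MvPowerSeries ι O →+* A) = maximalIdeal A := by
    refine le_antisymm hle (Submodule.le_of_le_smul_of_le_jacobson_bot (I := maximalIdeal A)
      (maximalIdeal A).fg_of_isNoetherianRing (IsLocalRing.maximalIdeal_le_jacobson _) ?_)
    rw [smul_eq_mul, ← pow_two]
    exact hJeq
  haveI : IsHausdorff (I.map (F : MvPowerSeries ι O →+* A)) A := by
    rw [heq]; infer_instance
  refine surjective_of_mk_map_comp_surjective (I := I) (F : MvPowerSeries ι O →+* A) fun y => ?_
  obtain ⟨y, rfl⟩ := Ideal.Quotient.mk_surjective y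
  obtain ⟨t, ht⟩ := exists_sub_algebraMap_mem χ y
  refine ⟨C t, ?_⟩
  rw [RingHom.comp_apply, Ideal.Quotient.mk_eq_mk_iff_sub_mem]
  show F (C t) - y ∈ _
  rw [hC, heq, ← Ideal.neg_mem_iff, neg_sub]
  exact ht

/-- Conversely a tangent vector vanishing on a topologically generating family vanishes. -/
theorem tangent_eq_zero_of_surjective_pev [IsAdicComplete (maximalIdeal O) O]
    [IsAdicComplete (maximalIdeal A) A] (χ : A →ₐ[O] ResidueField O) {ι : Type} [Finite ι]
    {a : ι → A} {ha : ∀ i, a i ∈ maximalIdeal A}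
    (hs : Function.Surjective (Deform.pev (maximalIdeal A) a ha : MvPowerSeries ι O →ₐ[O] A))
    {f : A →ₗ[O] ResidueField O} (hf : IsTangent χ f) (h : ∀ i, f (a i) = 0) : f = 0 := by
  refine hf.eq_zero_of_maximalIdeal fun x hx => ?_
  obtain ⟨p, rfl⟩ := hs x
  set F : MvPowerSeries ι O →ₐ[O] A := Deform.pev (maximalIdeal A) a ha with hF
  have hv : ∀ q ∈ Deform.varIdeal ι O, f (F q) = 0 ∧ χ (F q) = 0 := by
    intro q hq
    refine Submodule.span_induction (p := fun q _ => f (F q) = 0 ∧ χ (F q) = 0) ?_ ?_ ?_ ?_ hq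
    · rintro _ ⟨v, rfl⟩
      rw [hF, Deform.pev_X]
      exact ⟨h v, (mem_maximalIdeal_iff_algHom χ _).mp (ha v)⟩
    · simp
    · rintro b c _ _ ⟨hb, hb'⟩ ⟨hc, hc'⟩
      simp [hb, hb', hc, hc']
    · rintro r b _ ⟨hb, hb'⟩
      rw [smul_eq_mul, _root_.map_mul, hf.map_mul, hb, hb', mul_zero, zero_mul, add_zero,
        _root_.map_mul, hb', mul_zero]
      exact ⟨rfl, rfl⟩
  have h1 := (hv _ (Deform.sub_C_constantCoeff_mem p)).1
  have hC : F (C (constantCoeff p)) = algebraMap O A (constantCoeff p) := by
    rw [← F.commutes]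
    rfl
  rwa [map_sub, map_sub, hC, hf.map_algebraMap, sub_zero] at h1

end

end Fermat.Agent.Lifting
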