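import Fermat.Agent.Lifting.BTateFrame
import Fermat.Agent.Lifting.BResidual
import Fermat.Agent.GaloisAdic.PadicHom
import Fermat.Agent.GaloisAdic.Lattice
import Fermat.Agent.Mult.Main
import Fermat.Agent.ECRed.Good
import Fermat.Agent.Weil.DetCyclotomic
import Fermat.Prelude.Def_GaloisRep_LocalConditions
import Fermat.Prelude.Def_GaloisRep_StrictOrdinary
import Mathlib.FieldTheory.Finite.GaloisField

/-!
# The `λ`-adic representation of an elliptic curve

Its determinant is cyclotomic, it is unramified at good primes, and at a prime of multiplicative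
reduction it is upper triangular in a suitable frame.
-/

set_option autoImplicit false

noncomputable section

open scoped WeierstrassCurve.Affine Matrix
open Module IsLocalRing Polynomial

namespace Fermat.Agent.Lifting

open CondLevel (FrobMatches isElliptic_baseChange frobenius_tors)

local notation "Γℚ" => AlgebraicClosure ℚ ≃ₐ[ℚ] AlgebraicClosure ℚ
local notation "ℚbar" => AlgebraicClosure ℚ

variable {W : WeierstrassCurve ℤ} {p : ℕ} [Fact p.Prime]

namespace TateFrame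

variable (F : TateFrame W p)

theorem det_matrix (hΔ : W.Δ ≠ 0) (σ : Γℚ) : (F.matrix σ).det = GaloisAdic.padicCyclo p σ := by
  refine PadicInt.ext_of_toZModPow.1 fun n => ?_
  rw [RingHom.map_det, RingHom.mapMatrix_apply, F.map_matrix, TateFrame.matrixMod_apply,
    LinearMap.det_toMatrix]
  refine (Weil.det_galoisRepModuleEnd_model W hΔ (Fact.out : p.Prime) n σ).trans ?_
  haveI : NeZero (p ^ n) := ⟨pow_ne_zero _ (Fact.out : p.Prime).ne_zero⟩
  rw [Datum.chiMod_eq_natCast (p ^ n) σ fun μ hμ => GaloisAdic.apply_rootOfUnity p σ hμ,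
    ZMod.natCast_zmod_val]

/-- The line of a multiplicative place, in `p`-adic coordinates. -/
theorem exists_lineVector {q : ℕ} {A : ValuationSubring ℚbar} (h : Mult.IsMultPlace W q A) :
    ∃ v : Fin 2 → ℤ_[p], (∃ i, IsUnit (v i)) ∧
      ∀ n, ∃ x : CondLevel.Tors W (p ^ n), x ∈ Mult.tateLine W A (p ^ n) ∧
        (⇑((F.basis n).repr x) = fun i => PadicInt.toZModPow n (v i)) ∧
        ∀ y ∈ Mult.tateLine W A (p ^ n), ∃ c : ZMod (p ^ n), y = c • x := by
  classical
  have hp : p.Prime := Fact.out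
  have hn0 : ∀ n, p ^ n ≠ 0 := fun n => pow_ne_zero n hp.ne_zero
  let C : ℕ → Type := fun n =>
    {x : CondLevel.Tors W (p ^ n) // x ∈ Mult.tateLine W A (p ^ n) ∧ addOrderOf x = p ^ n}
  have hord : ∀ n, addOrderOf (Mult.tors₁ (h.basis (hn0 n))) = p ^ n := by
    intro n
    refine Nat.dvd_antisymm ?_ ?_
    · refine addOrderOf_dvd_iff_nsmul_eq_zero.2 ?_
      rw [← natCast_zsmul]
      exact Mult.zsmul_eq_zero_of_dvd _ dvd_rfl
    · have h0 := addOrderOf_nsmul_eq_zero (Mult.tors₁ (h.basis (hn0 n)))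
      rw [← natCast_zsmul] at h0
      exact Int.natCast_dvd_natCast.1 (Mult.dvd_of_comb_tors_eq_zero (h.basis (hn0 n))
        (b := 0) (by rw [h0, zero_zsmul, add_zero])).1
  have hne : ∀ n, Nonempty (C n) := fun n =>
    ⟨⟨Mult.tors₁ (h.basis (hn0 n)),
      (Mult.mem_tateLine_iff_exists (h.basis (hn0 n)) _).2 ⟨1, (one_zsmul _).symm⟩, hord n⟩⟩
  have hfin : ∀ n, Finite (C n) := fun n => by
    haveI : NeZero (p ^ n) := ⟨hn0 n⟩
    haveI : Finite (CondLevel.Tors W (p ^ n)) := Finite.of_equiv _ (F.basis n).equivFun.symm.toEquiv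
    exact Subtype.finite
  have hdown : ∀ n, ∀ x : C (n + 1), torsDown W p n x.1 ∈ Mult.tateLine W A (p ^ n) ∧
      addOrderOf (torsDown W p n x.1) = p ^ n := by
    rintro n ⟨x, hx, hxo⟩
    refine ⟨(Mult.mem_tateLine_iff h (hn0 n) _).2 ?_, ?_⟩
    · have hpx : p • x ∈ Mult.tateLine W A (p ^ (n + 1)) := nsmul_mem hx p
      exact (Mult.mem_tateLine_iff h (hn0 (n + 1)) _).1 hpx
    · refine Nat.dvd_antisymm (addOrderOf_dvd_iff_nsmul_eq_zero.2
        (Subtype.ext (nsmul_tors_val_eq_zero _))) ?_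
      refine Nat.dvd_of_mul_dvd_mul_left hp.pos ?_
      refine (dvd_of_eq ((pow_succ' p n).symm.trans hxo.symm)).trans ?_
      refine addOrderOf_dvd_iff_nsmul_eq_zero.2 (Subtype.ext ?_)
      show (p * addOrderOf (torsDown W p n x)) • (x : CurvePt W) = 0
      rw [mul_comm, mul_smul]
      exact congrArg Subtype.val (addOrderOf_nsmul_eq_zero (torsDown W p n x))
  let red : ∀ n, C (n + 1) ⟶ C n := fun n =>
    TypeCat.ofHom fun x => ⟨torsDown W p n x.1, hdown n x⟩
  let G : CategoryTheory.Functor ℕᵒᵖ Type := CategoryTheory.Functor.ofOpSequence red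
  have : ∀ j : ℕᵒᵖ, Finite (G.obj j) := fun j => hfin j.unop
  have : ∀ j : ℕᵒᵖ, Nonempty (G.obj j) := fun j => hne j.unop
  obtain ⟨s, hs⟩ := nonempty_sections_of_finite_inverse_system G
  let x : ∀ n, CondLevel.Tors W (p ^ n) := fun n => (s (Opposite.op n)).1
  have hx : ∀ n, torsDown W p n (x (n + 1)) = x n := fun n => by
    have h1 := hs (CategoryTheory.homOfLE n.le_succ).op
    have h2 : red n (s (Opposite.op (n + 1))) = s (Opposite.op n) := by
      rw [← h1]; simp only [G, CategoryTheory.Functor.ofOpSequence_map_homOfLE_succ]; rfl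
    exact congrArg Subtype.val h2
  have hrepr : ∀ n i, ZMod.castHom (pow_dvd_pow p n.le_succ) (ZMod (p ^ n))
      ((F.basis (n + 1)).repr (x (n + 1)) i) = (F.basis n).repr (x n) i := by
    intro n i
    conv_rhs => rw [← hx n, ← (F.basis (n + 1)).sum_repr (x (n + 1))]
    rw [map_sum, map_sum, Finsupp.finset_sum_apply]
    simp only [torsDown_smul, F.compat, map_smul, Finsupp.smul_apply, Basis.repr_self,
      Finsupp.single_apply, smul_eq_mul, mul_ite, mul_one, mul_zero]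
    rw [Finset.sum_ite_eq' Finset.univ i fun j =>
      ZMod.castHom (pow_dvd_pow p n.le_succ) (ZMod (p ^ n))
        ((F.basis (n + 1)).repr (x (n + 1)) j), if_pos (Finset.mem_univ i)]
  have hcompat : ∀ i m n (hmn : m ≤ n), ZMod.castHom (pow_dvd_pow p hmn) (ZMod (p ^ m))
      ((F.basis n).repr (x n) i) = (F.basis m).repr (x m) i := by
    intro i m n hmn
    induction n, hmn using Nat.le_induction with
    | base => exact DFunLike.congr_fun (RingHom.ext_zmod _ (RingHom.id _)) _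
    | succ n hn ih =>
      rw [← ih, ← hrepr n i]
      exact (DFunLike.congr_fun (RingHom.ext_zmod
        ((ZMod.castHom (pow_dvd_pow p hn) (ZMod (p ^ m))).comp
          (ZMod.castHom (pow_dvd_pow p n.le_succ) (ZMod (p ^ n)))) _) _).symm
  choose v hv using fun i => GaloisAdic.exists_padicInt_of_compatible
    (fun n => (F.basis n).repr (x n) i) (hcompat i)
  refine ⟨v, ?_, fun n => ⟨x n, (s (Opposite.op n)).2.1, (funext fun i => (hv i n).symm), ?_⟩⟩
  · by_contra hc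
    push Not at hc
    have h1 : x 1 = 0 := by
      refine (F.basis 1).ext_elem fun i => ?_
      rw [map_zero, Finsupp.zero_apply, ← hv i 1]
      have hm : v i ∈ RingHom.ker (PadicInt.toZModPow 1 : ℤ_[p] →+* ZMod (p ^ 1)) := by
        rw [PadicInt.ker_toZModPow, pow_one, ← PadicInt.maximalIdeal_eq_span_p]
        exact hc i
      exact RingHom.mem_ker.1 hm
    have h2 : addOrderOf (x 1) = p ^ 1 := (s (Opposite.op 1)).2.2
    rw [h1, addOrderOf_zero, pow_one] at h2
    exact hp.ne_one h2.symm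
  · intro y hy
    haveI : NeZero (p ^ n) := ⟨hn0 n⟩
    haveI : Finite (CondLevel.Tors W (p ^ n)) := Finite.of_equiv _ (F.basis n).equivFun.symm.toEquiv
    have hsub : AddSubgroup.zmultiples (x n) ≤ (Mult.tateLine W A (p ^ n)).toAddSubgroup :=
      AddSubgroup.zmultiples_le_of_mem (s (Opposite.op n)).2.1
    have heq : AddSubgroup.zmultiples (x n) = (Mult.tateLine W A (p ^ n)).toAddSubgroup := by
      refine AddSubgroup.eq_of_le_of_card_ge hsub ?_
      rw [Nat.card_zmultiples, (s (Opposite.op n)).2.2]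
      exact (Mult.natCard_tateLine h (hn0 n)).le
    obtain ⟨c, hc⟩ := AddSubgroup.mem_zmultiples_iff.1
      (heq.symm ▸ hy : y ∈ AddSubgroup.zmultiples (x n))
    exact ⟨(c : ZMod (p ^ n)), by rw [Int.cast_smul_eq_zsmul, hc]⟩

/-- At a multiplicative place the `p`-adic matrices are upper triangular in a suitable frame. -/
theorem exists_tateColumn {q : ℕ} {A : ValuationSubring ℚbar} (h : Mult.IsMultPlace W q A) :
    ∃ P : GL (Fin 2) ℤ_[p], ∀ σ ∈ A.decompositionSubgroup ℚ,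
      ((P⁻¹).val * F.matrix σ * P.val) 1 0 = 0 ∧
      ((P⁻¹).val * F.matrix σ * P.val) 0 0 =
        (Mult.tateSign W A σ : ℤ_[p]) * GaloisAdic.padicCyclo p σ ∧
      ((P⁻¹).val * F.matrix σ * P.val) 1 1 = (Mult.tateSign W A σ : ℤ_[p]) := by
  classical
  have hp : p.Prime := Fact.out
  obtain ⟨v, ⟨i₀, hi₀⟩, hv⟩ := F.exists_lineVector h
  obtain ⟨P, hP⟩ : ∃ P : GL (Fin 2) ℤ_[p], ∀ i, P.val i 0 = v i := by
    fin_cases i₀
    · have hd : IsUnit (!![v 0, 0; v 1, 1] : Matrix (Fin 2) (Fin 2) ℤ_[p]) := by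
        rw [Matrix.isUnit_iff_isUnit_det]; simpa [Matrix.det_fin_two] using hi₀
      exact ⟨hd.unit, fun i => by fin_cases i <;> simp⟩
    · have hd : IsUnit (!![v 0, 1; v 1, 0] : Matrix (Fin 2) (Fin 2) ℤ_[p]) := by
        rw [Matrix.isUnit_iff_isUnit_det]; simpa [Matrix.det_fin_two] using hi₀
      exact ⟨hd.unit, fun i => by fin_cases i <;> simp⟩
  refine ⟨P, fun σ hσ => ?_⟩
  set ε : ℤ_[p] := (Mult.tateSign W A σ : ℤ_[p])
  set χ : ℤ_[p] := GaloisAdic.padicCyclo p σ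
  have hcolP : ∀ w : Fin 2 → ℤ_[p], ∀ j, ((P⁻¹).val *ᵥ (P.val *ᵥ w)) j = w j := fun w j => by
    rw [Matrix.mulVec_mulVec, Units.inv_mul, Matrix.one_mulVec]
  have hv0 : P.val *ᵥ Pi.single 0 1 = v := by
    funext i
    rw [Matrix.mulVec_single_one, Matrix.col_apply]
    exact hP i
  have hPv : ∀ j, ((P⁻¹).val *ᵥ v) j = (Pi.single 0 1 : Fin 2 → ℤ_[p]) j := fun j => by
    rw [← hv0]; exact hcolP _ j
  -- the line
  have hline : F.matrix σ *ᵥ v = (ε * χ) • v := by
    funext i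
    refine PadicInt.ext_of_toZModPow.1 fun n => ?_
    obtain ⟨x, hx, hxv, -⟩ := hv n
    haveI : NeZero (p ^ n) := ⟨pow_ne_zero _ hp.ne_zero⟩
    have hact := Mult.smul_tateLine h (pow_ne_zero n hp.ne_zero) hσ
      (fun μ hμ => GaloisAdic.apply_rootOfUnity p σ hμ) hx
    have h1 : F.matrixMod n σ *ᵥ ⇑((F.basis n).repr x) =
        ⇑((F.basis n).repr (CondLevel.torsRep W (p ^ n) σ x)) := by
      rw [F.matrixMod_apply]
      exact LinearMap.toMatrix_mulVec_repr _ _ _ _
    have h2 : CondLevel.torsRep W (p ^ n) σ x =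
        (((Mult.tateSign W A σ * ((PadicInt.toZModPow n χ).val : ℤ)) : ℤ) : ZMod (p ^ n)) • x := by
      rw [Int.cast_smul_eq_zsmul]
      exact hact
    rw [hxv, h2, map_smul, Finsupp.coe_smul, hxv, ← F.map_matrix σ n] at h1
    have h3 := congrFun h1 i
    rw [RingHom.map_mulVec]
    refine h3.trans ?_
    rw [Pi.smul_apply, smul_eq_mul, Pi.smul_apply, smul_eq_mul, map_mul, map_mul, map_intCast,
      Int.cast_mul, Int.cast_natCast, ZMod.natCast_zmod_val]
  -- the quotient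
  have hquot : ∀ w : Fin 2 → ℤ_[p],
      ((P⁻¹).val *ᵥ (F.matrix σ *ᵥ w - ε • w)) 1 = 0 := by
    intro w
    refine PadicInt.ext_of_toZModPow.1 fun n => ?_
    rw [map_zero]
    obtain ⟨x, -, hxv, hgen⟩ := hv n
    haveI : NeZero (p ^ n) := ⟨pow_ne_zero _ hp.ne_zero⟩
    let wn : Fin 2 → ZMod (p ^ n) := fun i => PadicInt.toZModPow n (w i)
    let y := (F.basis n).equivFun.symm wn
    obtain ⟨c, hc⟩ := hgen _ (Mult.smul_sub_tateSign_smul_mem h (pow_ne_zero n hp.ne_zero) hσ y)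
    have hy : ⇑((F.basis n).repr y) = wn := (F.basis n).equivFun.apply_symm_apply wn
    have h1 : F.matrixMod n σ *ᵥ wn = ⇑((F.basis n).repr (CondLevel.torsRep W (p ^ n) σ y)) := by
      rw [F.matrixMod_apply, ← hy]
      exact LinearMap.toMatrix_mulVec_repr _ _ _ _
    have h2 : CondLevel.torsRep W (p ^ n) σ y =
        ((Mult.tateSign W A σ : ℤ) : ZMod (p ^ n)) • y + c • x := by
      rw [Int.cast_smul_eq_zsmul, ← hc]
      show σ • y = _
      abel
    rw [h2, map_add, map_smul, map_smul, Finsupp.coe_add, Finsupp.coe_smul, Finsupp.coe_smul, hy,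
      hxv, ← F.map_matrix σ n] at h1
    have hsplit : ∀ i, PadicInt.toZModPow n ((F.matrix σ *ᵥ w - ε • w) i) =
        c * PadicInt.toZModPow n (v i) := fun i => by
      rw [Pi.sub_apply, map_sub, Pi.smul_apply, smul_eq_mul, map_mul, map_intCast, RingHom.map_mulVec]
      have h3 := congrFun h1 i
      rw [Pi.add_apply, Pi.smul_apply, Pi.smul_apply, smul_eq_mul, smul_eq_mul] at h3
      refine (congrArg (· - _) h3).trans ?_
      ring
    rw [RingHom.map_mulVec]
    have h4 : (PadicInt.toZModPow n ∘ (F.matrix σ *ᵥ w - ε • w)) =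
        c • (PadicInt.toZModPow n ∘ v) := funext hsplit
    rw [h4, Matrix.mulVec_smul, Pi.smul_apply, ← RingHom.map_mulVec, hPv]
    simp
  have hcol : ∀ j, ((P⁻¹).val * F.matrix σ * P.val) j 0 =
      ((P⁻¹).val *ᵥ (F.matrix σ *ᵥ v)) j := fun j => by
    rw [← hv0, Matrix.mulVec_mulVec, Matrix.mulVec_mulVec, Matrix.mulVec_single_one,
      Matrix.col_apply]
  refine ⟨?_, ?_, ?_⟩
  · rw [hcol, hline, Matrix.mulVec_smul, Pi.smul_apply, hPv]
    simp
  · rw [hcol, hline, Matrix.mulVec_smul, Pi.smul_apply, hPv]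
    simp
  · have h1 : ((P⁻¹).val * F.matrix σ * P.val) 1 1 =
        ((P⁻¹).val *ᵥ (F.matrix σ *ᵥ (P.val *ᵥ Pi.single 1 1))) 1 := by
      rw [Matrix.mulVec_mulVec, Matrix.mulVec_mulVec, Matrix.mulVec_single_one,
        Matrix.col_apply]
    have h2 := hquot (P.val *ᵥ Pi.single 1 1)
    rw [Matrix.mulVec_sub, Pi.sub_apply, Matrix.mulVec_smul, Pi.smul_apply, hcolP, sub_eq_zero]
      at h2
    rw [h1, h2]
    simp

variable (O : Type) [CommRing O] [IsLocalRing O] [IsAdicComplete (maximalIdeal O) O]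
  (hpO : (p : O) ∈ maximalIdeal O)

/-- The matrices over `O`. -/
def rep : Γℚ →* Matrix (Fin 2) (Fin 2) O :=
  ((GaloisAdic.padicIntHom O hpO).mapMatrix : Matrix (Fin 2) (Fin 2) ℤ_[p] →+*
    Matrix (Fin 2) (Fin 2) O).toMonoidHom.comp F.matrix

theorem rep_apply (σ : Γℚ) :
    F.rep O hpO σ = (F.matrix σ).map (GaloisAdic.padicIntHom O hpO) := rfl

theorem mk_padicIntHom (n : ℕ) (x : ℤ_[p]) :
    Ideal.Quotient.mk (maximalIdeal O ^ n) (GaloisAdic.padicIntHom O hpO x) =
      GaloisAdic.zmodPowHom O hpO n (PadicInt.toZModPow n x) := by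
  rw [GaloisAdic.padicIntHom, IsAdicComplete.mk_liftRingHom]
  rfl

theorem mk_rep (n : ℕ) (σ : Γℚ) :
    (F.rep O hpO σ).map (Ideal.Quotient.mk (maximalIdeal O ^ n)) =
      (F.matrixMod n σ).map (GaloisAdic.zmodPowHom O hpO n) := by
  ext i j
  rw [Matrix.map_apply, Matrix.map_apply, rep_apply, Matrix.map_apply, mk_padicIntHom,
    ← F.map_matrix σ n, Matrix.map_apply]

theorem rep_continuous (hΔ : W.Δ ≠ 0) (n : ℕ) :
    ∃ L : IntermediateField ℚ ℚbar, FiniteDimensional ℚ L ∧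
      ∀ σ : Γℚ, (∀ x ∈ L, σ x = x) → ∀ i j,
        (F.rep O hpO σ - 1) i j ∈ maximalIdeal O ^ n := by
  haveI := CondLevel.isElliptic_baseChange hΔ
  obtain ⟨L, hL, h⟩ := EC.galoisFactorsThroughFiniteLevel (W.map (Int.castRingHom ℚ))
    (pow_ne_zero n (Fact.out : p.Prime).ne_zero)
  refine ⟨L, hL, fun σ hσ i j => ?_⟩
  have h1 : F.matrixMod n σ = 1 := by
    rw [F.matrixMod_apply, show CondLevel.torsRep W (p ^ n) σ = 1 from h σ hσ,
      LinearMap.toMatrix_one]
  have h2 := congrFun (congrFun (F.mk_rep O hpO n σ) i) j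
  rw [h1, Matrix.map_one _ (map_zero _) (map_one _), Matrix.map_apply] at h2
  rw [← Ideal.Quotient.eq_zero_iff_mem, Matrix.sub_apply, map_sub, h2]
  rcases eq_or_ne i j with rfl | hij
  · simp
  · simp [Matrix.one_apply_ne hij]

/-- The `λ`-adic representation of the curve. -/
def galoisRep (hΔ : W.Δ ≠ 0) : GaloisRepAdic O :=
  GaloisAdic.repOfMatrix (F.rep O hpO) (F.rep_continuous O hpO hΔ)

variable (hΔ : W.Δ ≠ 0)

theorem det_rep (hΔ : W.Δ ≠ 0) (σ : Γℚ) :
    (F.rep O hpO σ).det = GaloisAdic.padicIntHom O hpO (GaloisAdic.padicCyclo p σ) := by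
  rw [rep_apply, ← F.det_matrix hΔ σ, RingHom.map_det, RingHom.mapMatrix_apply]

theorem padicIntHom_sub_natCast_mem {n a : ℕ} {σ : Γℚ}
    (ha : ∀ μ : ℚbar, μ ^ p ^ n = 1 → σ μ = μ ^ a) :
    GaloisAdic.padicIntHom O hpO (GaloisAdic.padicCyclo p σ) - (a : O) ∈
      Ideal.span {((p ^ n : ℕ) : O)} := by
  have hx : GaloisAdic.padicCyclo p σ - (a : ℤ_[p]) ∈
      RingHom.ker (PadicInt.toZModPow n : ℤ_[p] →+* ZMod (p ^ n)) := by
    rw [RingHom.mem_ker, map_sub, map_natCast, GaloisAdic.toZModPow_padicCyclo_eq p σ ha, sub_self]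
  rw [PadicInt.ker_toZModPow, Ideal.mem_span_singleton] at hx
  obtain ⟨c, hc⟩ := hx
  rw [Ideal.mem_span_singleton]
  refine ⟨GaloisAdic.padicIntHom O hpO c, ?_⟩
  rw [← map_natCast (GaloisAdic.padicIntHom O hpO) a, ← map_sub, hc, map_mul, map_pow, map_natCast,
    Nat.cast_pow]

theorem detIsCyclotomic : (F.galoisRep O hpO hΔ).DetIsCyclotomic p := by
  refine ⟨hpO, fun n σ a ha => ?_⟩
  rw [show LinearMap.det ((F.galoisRep O hpO hΔ).ρ σ) = (F.rep O hpO σ).det from
    GaloisAdic.det_repOfMatrix (F.rep O hpO) (F.rep_continuous O hpO hΔ) σ, F.det_rep O hpO hΔ σ]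
  exact padicIntHom_sub_natCast_mem O hpO ha

variable [IsDomain O] [IsDiscreteValuationRing O]

theorem trace_galoisRep (σ : Γℚ) :
    (F.galoisRep O hpO hΔ).trace σ = (F.rep O hpO σ).trace :=
  Matrix.trace_toLin'_eq (F.rep O hpO σ)

theorem frobMatches : FrobMatches W (F.galoisRep O hpO hΔ) (W.Δ.natAbs.primeFactors ∪ {p}) := by
  intro ℓ hℓ hS A hA σ hσ
  simp only [Finset.mem_union, Finset.mem_singleton, not_or] at hS
  have hp : p.Prime := Fact.out
  have hg : W.IsGoodPrimeFor ℓ := fun hdvd => hS.1 <| Nat.mem_primeFactors.mpr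
    ⟨hℓ, Int.natCast_dvd.mp hdvd, Int.natAbs_ne_zero.mpr hΔ⟩
  rw [F.trace_galoisRep O hpO hΔ, show LinearMap.det ((F.galoisRep O hpO hΔ).ρ σ) =
    (F.rep O hpO σ).det from GaloisAdic.det_repOfMatrix (F.rep O hpO) (F.rep_continuous O hpO hΔ) σ]
  refine ⟨CondLevel.eq_of_forall_quotient_mk_eq fun n => ?_,
    CondLevel.eq_of_forall_quotient_mk_eq fun n => ?_⟩
  · obtain ⟨ht, -⟩ := frobenius_tors (M := p ^ n) rfl hp hℓ (Ne.symm hS.2) hg hA hσ
    rw [AddMonoidHom.map_trace, F.mk_rep O hpO n σ, ← AddMonoidHom.map_trace, F.matrixMod_apply,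
      ← LinearMap.trace_eq_matrix_trace, ht, map_intCast, map_intCast]
  · obtain ⟨-, hd⟩ := frobenius_tors (M := p ^ n) rfl hp hℓ (Ne.symm hS.2) hg hA hσ
    rw [RingHom.map_det, RingHom.mapMatrix_apply, F.mk_rep O hpO n σ, ← RingHom.mapMatrix_apply,
      ← RingHom.map_det, F.matrixMod_apply, LinearMap.det_toMatrix, hd, map_natCast, map_natCast]

theorem isUnramifiedAt {ℓ : ℕ} (hℓ : ℓ.Prime) (hg : W.IsGoodPrimeFor ℓ) (hℓp : ℓ ≠ p) :
    (F.galoisRep O hpO hΔ).IsUnramifiedAt ℓ := by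
  intro A hA σ hσ
  refine GaloisAdic.repOfMatrix_eq_one (F.rep O hpO) (F.rep_continuous O hpO hΔ) ?_
  ext i j
  refine CondLevel.eq_of_forall_quotient_mk_eq fun n => ?_
  have hnd : ¬ ℓ ∣ p ^ n := fun h => hℓp ((Nat.prime_dvd_prime_iff_eq hℓ Fact.out).1
    (hℓ.dvd_of_dvd_pow h))
  have h1 : CondLevel.torsRep W (p ^ n) σ = 1 := LinearMap.ext fun x =>
    Subtype.ext (ECRed.smul_eq_self_of_mem_inertia hℓ hA hg hnd hσ (nsmul_tors_val_eq_zero x))
  have h2 := congrFun (congrFun (F.mk_rep O hpO n σ) i) j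
  rw [F.matrixMod_apply, h1, LinearMap.toMatrix_one, Matrix.map_one _ (map_zero _) (map_one _),
    Matrix.map_apply] at h2
  rw [h2]
  rcases eq_or_ne i j with rfl | hij
  · simp
  · simp [Matrix.one_apply_ne hij]

/-- At a multiplicative place the representation over `O` is upper triangular in a frame. -/
theorem exists_triangular {q : ℕ} {A : ValuationSubring ℚbar} (h : Mult.IsMultPlace W q A) :
    ∃ P : GL (Fin 2) O, ∀ σ ∈ A.decompositionSubgroup ℚ, ∃ b : O,
      (P⁻¹).val * F.rep O hpO σ * P.val =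
        !![(Mult.tateSign W A σ : O) * GaloisAdic.padicIntHom O hpO (GaloisAdic.padicCyclo p σ), b;
          0, (Mult.tateSign W A σ : O)] := by
  obtain ⟨P, hP⟩ := F.exists_tateColumn h
  set f := GaloisAdic.padicIntHom O hpO
  refine ⟨Units.map (f.mapMatrix : Matrix (Fin 2) (Fin 2) ℤ_[p] →+*
    Matrix (Fin 2) (Fin 2) O).toMonoidHom P, fun σ hσ => ?_⟩
  obtain ⟨h10, h00, h11⟩ := hP σ hσ
  refine ⟨f (((P⁻¹).val * F.matrix σ * P.val) 0 1), ?_⟩
  have hmap : ((P⁻¹).val * F.matrix σ * P.val).map f =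
      (P⁻¹).val.map f * F.rep O hpO σ * P.val.map f := by
    rw [Matrix.map_mul, Matrix.map_mul]
    rfl
  show (P⁻¹).val.map f * F.rep O hpO σ * P.val.map f = _
  rw [← hmap]
  ext i j
  fin_cases i <;> fin_cases j <;>
    simp [Matrix.map_apply, -Matrix.map_mul, -Matrix.coe_units_inv, h10, h00, h11, f]

theorem isUnipotentOnInertiaAt (hW : W.IsSemistableModel) {q : ℕ} (hq : q.Prime)
    (hqΔ : (q : ℤ) ∣ W.Δ) (hqp : q ≠ p) :
    (F.galoisRep O hpO hΔ).IsUnipotentOnInertiaAt q := by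
  intro A hA σ hσ
  have h := Mult.IsMultPlace.of_semistable hΔ hW hq hqΔ hA
  obtain ⟨P, hP⟩ := F.exists_triangular O hpO h
  obtain ⟨b, hb⟩ := hP σ (Mult.mem_decomposition_of_mem_inertia hσ)
  rw [Mult.tateSign_eq_one_of_mem_inertia h hσ,
    GaloisAdic.padicCyclo_inertia p hq hqp hA hσ, map_one, Int.cast_one, one_mul] at hb
  have hc : (F.galoisRep O hpO hΔ).ρ σ = Matrix.toLin' (F.rep O hpO σ) := rfl
  rw [show LinearMap.charpoly ((F.galoisRep O hpO hΔ).ρ σ) = (F.rep O hpO σ).charpoly from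
    Matrix.charpoly_toLin' _, ← Matrix.charpoly_units_conj' P, ← Matrix.coe_units_inv, hb,
    Matrix.charpoly_fin_two]
  simp only [Matrix.trace_fin_two_of, Matrix.det_fin_two_of, mul_one, mul_zero, sub_zero]
  rw [map_add, map_one]
  ring

theorem isStrictOrdinaryAt (hW : W.IsSemistableModel) (hpΔ : (p : ℤ) ∣ W.Δ) :
    (F.galoisRep O hpO hΔ).IsStrictOrdinaryAt p := by
  refine ⟨hpO, fun A hA => ?_⟩
  have h := Mult.IsMultPlace.of_semistable hΔ hW (Fact.out : p.Prime) hpΔ hA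
  obtain ⟨P, hP⟩ := F.exists_triangular O hpO h
  let e : (Fin 2 → O) ≃ₗ[O] (Fin 2 → O) :=
    LinearEquiv.ofLinearMap (Matrix.toLin' P.val) (Matrix.toLin' (P⁻¹).val)
      (by rw [← Matrix.toLin'_mul, Units.mul_inv, Matrix.toLin'_one])
      (by rw [← Matrix.toLin'_mul, Units.inv_mul, Matrix.toLin'_one])
  let b : Basis (Fin 2) O (Fin 2 → O) := (Pi.basisFun O (Fin 2)).map e
  have hb : ∀ i, b i = P.val *ᵥ Pi.single i 1 := fun i => by
    simp [b, e, Basis.map_apply]
  let L : Submodule O (Fin 2 → O) := O ∙ b 0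
  have hcoord : ∀ v : Fin 2 → O, P.val *ᵥ ((P⁻¹).val *ᵥ v) = v := fun v => by
    rw [Matrix.mulVec_mulVec, Units.mul_inv, Matrix.one_mulVec]
  have hmem : ∀ u : Fin 2 → O, u 1 = 0 → P.val *ᵥ u ∈ L := fun u hu => by
    refine Submodule.mem_span_singleton.2 ⟨u 0, ?_⟩
    rw [hb, ← Matrix.mulVec_smul]
    congr 1
    ext i
    fin_cases i <;> simp [hu]
  have hmem' : ∀ v ∈ L, ((P⁻¹).val *ᵥ v) 1 = 0 := fun v hv => by
    obtain ⟨c, rfl⟩ := Submodule.mem_span_singleton.1 hv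
    rw [Matrix.mulVec_smul, hb, Matrix.mulVec_mulVec, Units.inv_mul, Matrix.one_mulVec]
    simp
  have hact : ∀ (σ : Γℚ) (v : Fin 2 → O), F.rep O hpO σ *ᵥ v =
      P.val *ᵥ (((P⁻¹).val * F.rep O hpO σ * P.val) *ᵥ ((P⁻¹).val *ᵥ v)) := fun σ v => by
    rw [Matrix.mulVec_mulVec, Matrix.mulVec_mulVec]
    simp only [← mul_assoc, Units.mul_inv, one_mul]
    simp only [mul_assoc, Units.mul_inv, mul_one]
  have hρ : ∀ (σ : Γℚ) (v : Fin 2 → O),
      (F.galoisRep O hpO hΔ).ρ σ v = F.rep O hpO σ *ᵥ v := fun σ v =>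
    GaloisAdic.repOfMatrix_apply (F.rep O hpO) (F.rep_continuous O hpO hΔ) σ v
  have hU : ∀ (x y z : O) (u : Fin 2 → O),
      !![x, y; 0, z] *ᵥ u = ![x * u 0 + y * u 1, z * u 1] := fun x y z u => by
    ext i
    fin_cases i <;> simp [Matrix.mulVec, dotProduct]
  refine ⟨L, ⟨b, rfl⟩, ?_, ?_, ?_⟩
  · intro σ hσ (v : Fin 2 → O) hv
    obtain ⟨β, hβ⟩ := hP σ hσ
    refine (hρ σ v).symm ▸ ?_
    rw [hact σ v, hβ]
    exact hmem _ (by rw [hU, hmem' v hv]; simp [-Matrix.coe_units_inv])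
  · intro σ hσ (v : Fin 2 → O)
    obtain ⟨β, hβ⟩ := hP σ (Mult.mem_decomposition_of_mem_inertia hσ)
    have e : F.rep O hpO σ *ᵥ v - v ∈ L := by
      nth_rewrite 2 [← hcoord v]
      rw [hact σ v, hβ, ← Matrix.mulVec_sub, Mult.tateSign_eq_one_of_mem_inertia h hσ]
      exact hmem _ (by simp [-Matrix.coe_units_inv, hU])
    exact (hρ σ v).symm ▸ e
  · intro σ hσ
    obtain ⟨β, hβ⟩ := hP σ hσ
    refine ⟨(Mult.tateSign W A σ : O) *
      GaloisAdic.padicIntHom O hpO (GaloisAdic.padicCyclo p σ), (Mult.tateSign W A σ : O), ?_, ?_, ?_⟩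
    · intro (w : Fin 2 → O) hw
      have e : F.rep O hpO σ *ᵥ w = ((Mult.tateSign W A σ : O) *
          GaloisAdic.padicIntHom O hpO (GaloisAdic.padicCyclo p σ)) • (w : Fin 2 → O) := by
        conv_rhs => rw [← hcoord w]
        rw [hact σ w, hβ, ← Matrix.mulVec_smul]
        congr 1
        rw [hU, hmem' w hw]
        ext i
        fin_cases i <;> simp [-Matrix.coe_units_inv]
        exact Or.inr (by simpa [-Matrix.coe_units_inv, Matrix.mulVec, dotProduct] using hmem' w hw)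
      exact (hρ σ w).trans e
    · intro (v : Fin 2 → O)
      have e : F.rep O hpO σ *ᵥ v - (Mult.tateSign W A σ : O) • (v : Fin 2 → O) ∈ L := by
        nth_rewrite 2 [← hcoord v]
        rw [hact σ v, hβ, ← Matrix.mulVec_smul, ← Matrix.mulVec_sub]
        exact hmem _ (by simp [-Matrix.coe_units_inv, hU])
      exact (hρ σ v).symm ▸ e
    · intro n a ha
      rw [mul_comm (a : O), ← mul_sub]
      exact Ideal.mul_mem_left _ _ (padicIntHom_sub_natCast_mem O hpO ha)

include hΔ in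
/-- The residual representation is absolutely irreducible, odd, and irreducible on every subgroup
of index two. -/
theorem residual_bigImage (hW : W.IsSemistableModel) (hp2 : p ≠ 2)
    (hirr : W.ModRepIsIrreducible p) :
    (F.galoisRep O hpO hΔ).residual.IsAbsolutelyIrreducible ∧
      (F.galoisRep O hpO hΔ).residual.IsOdd ∧
      IsIrreducibleOnIndexTwo (F.galoisRep O hpO hΔ).residual := by
  have hp : p.Prime := Fact.out
  obtain ⟨b⟩ := CondLevel.exists_torsBasis hΔ hp.ne_zero (W := W)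
  have hM : ((p : ℕ) : O ⧸ maximalIdeal O ^ 1) = 0 := by
    simpa using CondLevel.natCast_pow_mem hpO 1
  set φ := CondLevel.zmodHom p hM
  set π : O ⧸ maximalIdeal O ^ 1 →+* ResidueField O :=
    Ideal.Quotient.factor (pow_one (maximalIdeal O)).le
  refine bigImage_of_trace_det_eq hΔ hW hp2 hirr (π.comp φ) _ (fun σ => ?_) (fun σ => ?_)
  · obtain ⟨e₁, -⟩ := CondLevel.adicMatrixRep_congr hΔ _ (F.frobMatches O hpO hΔ) hp
      (pow_one p).symm b φ σ
    rw [CondLevel.trace_adicMatrixRep, (CondLevel.trace_det_torsMatrixRep b φ σ).1] at e₁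
    rw [RingHom.comp_apply]
    refine (LinearMap.trace_baseChange ((F.galoisRep O hpO hΔ).ρ σ) (ResidueField O)).trans ?_
    exact congrArg π e₁
  · obtain ⟨-, e₂⟩ := CondLevel.adicMatrixRep_congr hΔ _ (F.frobMatches O hpO hΔ) hp
      (pow_one p).symm b φ σ
    rw [CondLevel.det_adicMatrixRep, (CondLevel.trace_det_torsMatrixRep b φ σ).2] at e₂
    rw [RingHom.comp_apply]
    refine (LinearMap.det_baseChange ((F.galoisRep O hpO hΔ).ρ σ)).trans ?_
    exact congrArg π e₂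

end TateFrame

end Fermat.Agent.Lifting
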