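import Fermat.Agent.Lifting.BGaugeDefs
import Fermat.Agent.Ribet.Local
import Mathlib.Algebra.CharP.Lemmas
import Mathlib.Data.Matrix.Block

/-!
# Places where the residual representation is unramified

A Frobenius and an inertia generator in the decomposition group of the chosen place over `q`; a
cocycle of finite level which is a coboundary on both of them is a coboundary on the whole local
Galois group.
-/

set_option autoImplicit false

noncomputable section

namespace Fermat.Agent.Lifting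

open Fermat.Agent

local notation "ℚbar" => AlgebraicClosure ℚ
local notation "Γℚ" => AlgebraicClosure ℚ ≃ₐ[ℚ] AlgebraicClosure ℚ

theorem padicPlace_liesOverPrime (q : ℕ) [hq : Fact q.Prime] :
    (padicPlace q).LiesOverPrime q := by
  show (q : ℚbar) ∈ (padicPlace q).nonunits
  rw [ValuationSubring.mem_nonunits_iff_or]
  refine Or.inr fun h => ?_
  rw [mem_padicPlace_iff, map_inv₀, map_natCast,
    ← map_natCast (algebraMap ℚ_[q] (PadicAlgCl q)), nnnorm_inv, nnnorm_algebraMap',
    ← NNReal.coe_le_coe, NNReal.coe_inv, coe_nnnorm, Padic.norm_p, inv_inv, NNReal.coe_one] at h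
  exact absurd h (not_le.mpr (by exact_mod_cast hq.out.one_lt))

/-- Tame generators at the chosen place over `q`, in every finite quotient in which inertia is a
`p`-group. -/
structure IsPlaceGenerators (p q : ℕ) [Fact q.Prime] (φ τ : Γℚ) : Prop where
  frob : (padicPlace q).IsFrobeniusAt φ q
  frob_mem : φ ∈ (padicPlace q).decompositionSubgroup ℚ
  tau_mem : τ ∈ (padicPlace q).inertiaSubgroupIn ℚ
  relation : ∀ (H : Type) [Group H] [Finite H] (f : Γℚ →* H),
    (∃ E : IntermediateField ℚ ℚbar, FiniteDimensional ℚ E ∧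
      ∀ g : Γℚ, (∀ x ∈ E, g x = x) → f g = 1) →
    (∀ g ∈ (padicPlace q).inertiaSubgroupIn ℚ, ∃ n : ℕ, f g ^ p ^ n = 1) →
    f φ * f τ * (f φ)⁻¹ = f τ ^ q ∧
      (∀ g ∈ (padicPlace q).inertiaSubgroupIn ℚ, f g ∈ Subgroup.zpowers (f τ)) ∧
      ∀ g ∈ (padicPlace q).decompositionSubgroup ℚ, f g ∈ Subgroup.closure {f φ, f τ}

theorem exists_placeGenerators {p : ℕ} (hp : p.Prime) (q : ℕ) [hq : Fact q.Prime] (hqp : q ≠ p) :
    ∃ φ τ : Γℚ, IsPlaceGenerators p q φ τ := by
  obtain ⟨φ, τ, h1, h2, h3, -, h5⟩ :=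
    Ribet.exists_tame_generators hp hq.out hqp (padicPlace q) (padicPlace_liesOverPrime q)
  exact ⟨φ, τ, h1, h2, h3, h5⟩

variable {k : Type} [Field k] [Finite k] {p q : ℕ} [Fact q.Prime]

/-- The first order lift `(1 + ε c) r` as a group homomorphism into block triangular matrices. -/
def firstOrderHom (r : Γℚ →* Matrix (Fin 2) (Fin 2) k) (c : Γℚ → Matrix (Fin 2) (Fin 2) k)
    (hc : c ∈ TW.adCocycles r) : Γℚ →* (Matrix (Fin 2 ⊕ Fin 2) (Fin 2 ⊕ Fin 2) k)ˣ :=
  MonoidHom.toHomUnits
    { toFun := fun g => Matrix.fromBlocks (r g) (c g * r g) 0 (r g)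
      map_one' := by
        have h := ((TW.mem_adCocycles_iff r c).mp hc).2 1 1
        rw [mul_one, map_one, one_mul, inv_one, map_one, mul_one] at h
        rw [left_eq_add.mp h, zero_mul, map_one, Matrix.fromBlocks_one]
      map_mul' := fun g h => by
        have e := ((TW.mem_adCocycles_iff r c).mp hc).2 g h
        have e1 : r g⁻¹ * r g = 1 := by rw [← map_mul, inv_mul_cancel, map_one]
        rw [Matrix.fromBlocks_multiply, map_mul, e]
        simp only [zero_mul, mul_zero, add_zero, zero_add, add_mul]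
        congr 1
        rw [add_comm]
        congr 1
        · calc r g * c h * r g⁻¹ * (r g * r h)
              = r g * c h * (r g⁻¹ * r g) * r h := by simp only [mul_assoc]
            _ = r g * (c h * r h) := by rw [e1, mul_one, mul_assoc]
        · rw [mul_assoc] }

theorem firstOrderHom_val (r : Γℚ →* Matrix (Fin 2) (Fin 2) k)
    (c : Γℚ → Matrix (Fin 2) (Fin 2) k) (hc : c ∈ TW.adCocycles r) (g : Γℚ) :
    ((firstOrderHom r c hc g : (Matrix (Fin 2 ⊕ Fin 2) (Fin 2 ⊕ Fin 2) k)ˣ) :
      Matrix (Fin 2 ⊕ Fin 2) (Fin 2 ⊕ Fin 2) k) =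
      Matrix.fromBlocks (r g) (c g * r g) 0 (r g) := rfl

theorem cocycle_pow_of_eq_one {r : Γℚ →* Matrix (Fin 2) (Fin 2) k}
    {c : Γℚ → Matrix (Fin 2) (Fin 2) k} (hc : c ∈ TW.adCocycles r) {g : Γℚ} (hg : r g = 1)
    (n : ℕ) : c (g ^ n) = n • c g := by
  have hg' : r g⁻¹ = 1 := by
    have h : r g⁻¹ * r g = 1 := by rw [← map_mul, inv_mul_cancel, map_one]
    rwa [hg, mul_one] at h
  induction n with
  | zero =>
    have h := ((TW.mem_adCocycles_iff r c).mp hc).2 1 1
    rw [mul_one, map_one, one_mul, inv_one, map_one, mul_one] at h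
    simp [left_eq_add.mp h]
  | succ n ih =>
    rw [pow_succ', ((TW.mem_adCocycles_iff r c).mp hc).2 g (g ^ n), hg, hg', one_mul, mul_one, ih,
      succ_nsmul']

/-- The bridge: vanishing at the two generators gives vanishing on the decomposition group. -/
theorem cocycle_eq_zero_of_placeGenerators [CharP k p] {φ τ : Γℚ}
    (hgen : IsPlaceGenerators p q φ τ) (ρbar : ResidualGaloisRep k)
    (hunr : ∀ g ∈ (padicPlace q).inertiaSubgroupIn ℚ, TW.matRep ρbar g = 1)
    {c : Γℚ → Matrix (Fin 2) (Fin 2) k}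
    (hc : c ∈ TW.adCocycles (TW.matRep ρbar) ⊓ TW.globalFiniteLevel k)
    (hφ : c φ = 0) (hτ : c τ = 0) :
    ∀ g ∈ (padicPlace q).decompositionSubgroup ℚ, c g = 0 := by
  classical
  obtain ⟨hco, E, hE, hlev⟩ := hc
  set r := TW.matRep ρbar
  have hc' : ∀ g h, c (g * h) = c g + r g * c h * r g⁻¹ := ((TW.mem_adCocycles_iff r c).mp hco).2
  have h1 : c 1 = 0 := by
    have h := hc' 1 1
    rw [mul_one, map_one, one_mul, inv_one, map_one, mul_one] at h
    exact left_eq_add.mp h
  have hinv : ∀ g, c g = 0 → c g⁻¹ = 0 := fun g hg => by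
    have h := hc' g⁻¹ g
    rw [inv_mul_cancel, h1, hg, mul_zero, zero_mul, add_zero] at h
    exact h.symm
  let Z : Subgroup Γℚ :=
    { carrier := {g | c g = 0}
      mul_mem' := fun {a b} ha hb => by
        show c (a * b) = 0
        rw [hc', show c a = 0 from ha, show c b = 0 from hb, mul_zero, zero_mul, add_zero]
      one_mem' := h1
      inv_mem' := fun {a} ha => hinv a ha }
  set f := firstOrderHom r c hco
  obtain ⟨L, hL, hLr⟩ := TW.matRep_factorsThroughFiniteLevel ρbar
  have hfin : ∃ E : IntermediateField ℚ ℚbar, FiniteDimensional ℚ E ∧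
      ∀ g : Γℚ, (∀ x ∈ E, g x = x) → f g = 1 := by
    haveI := hL
    haveI := hE
    refine ⟨L ⊔ E, IntermediateField.finiteDimensional_sup L E, fun g hg => Units.ext ?_⟩
    have hr : r g = 1 := hLr g fun x hx => hg x ((le_sup_left : L ≤ L ⊔ E) hx)
    have hcg : c g = 0 := by
      have := hlev 1 g fun x hx => hg x ((le_sup_right : E ≤ L ⊔ E) hx)
      rwa [one_mul, h1] at this
    rw [firstOrderHom_val, hr, hcg, zero_mul, Matrix.fromBlocks_one, Units.val_one]
  have hp : ∀ g ∈ (padicPlace q).inertiaSubgroupIn ℚ, ∃ n : ℕ, f g ^ p ^ n = 1 := by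
    refine fun g hg => ⟨1, ?_⟩
    rw [pow_one, ← map_pow]
    refine Units.ext ?_
    rw [firstOrderHom_val, map_pow, hunr g hg, one_pow, cocycle_pow_of_eq_one hco (hunr g hg) p,
      ← Nat.cast_smul_eq_nsmul k p (c g), CharP.cast_eq_zero k p, zero_smul, zero_mul,
      Matrix.fromBlocks_one, Units.val_one]
  obtain ⟨-, -, hD⟩ := hgen.relation _ f hfin hp
  intro g hg
  have hle : Subgroup.closure {f φ, f τ} ≤ Z.map f := by
    rw [Subgroup.closure_le]
    rintro _ (rfl | rfl)
    · exact ⟨φ, hφ, rfl⟩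
    · exact ⟨τ, hτ, rfl⟩
  obtain ⟨s, hs, hfs⟩ := hle (hD g hg)
  have h := congrArg Units.val hfs
  rw [firstOrderHom_val, firstOrderHom_val, Matrix.fromBlocks_inj] at h
  obtain ⟨hr, hcr, -, -⟩ := h
  rw [show c s = 0 from hs, zero_mul] at hcr
  calc c g = c g * r g * r g⁻¹ := by rw [mul_assoc, ← map_mul, mul_inv_cancel, map_one, mul_one]
    _ = 0 := by rw [← hcr, zero_mul]

/-- A class which is a coboundary at the two generators is a local coboundary. -/
theorem resLoc_mem_adCoboundaries [CharP k p] {φ τ : Γℚ} (hgen : IsPlaceGenerators p q φ τ)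
    (ρbar : ResidualGaloisRep k)
    (hunr : ∀ g ∈ (padicPlace q).inertiaSubgroupIn ℚ, TW.matRep ρbar g = 1)
    {c : Γℚ → Matrix (Fin 2) (Fin 2) k}
    (hc : c ∈ TW.adCocycles (TW.matRep ρbar) ⊓ TW.globalFiniteLevel k)
    {η : Matrix (Fin 2) (Fin 2) k} (hη : η.trace = 0)
    (hφ : c φ = TW.adD (TW.matRep ρbar) η φ) (hτ : c τ = TW.adD (TW.matRep ρbar) η τ) :
    TW.resLoc q c ∈ TW.adCoboundaries (TW.locRep ρbar q) := by
  set r := TW.matRep ρbar
  have hb : TW.adD r η ∈ TW.adCocycles r ⊓ TW.globalFiniteLevel k := by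
    refine ⟨(TW.mem_adCocycles_iff r _).mpr ⟨fun g => ?_, fun g h => ?_⟩, ?_⟩
    · rw [TW.adD_apply, Matrix.trace_sub, Matrix.trace_mul_comm, ← mul_assoc, ← map_mul,
        inv_mul_cancel, map_one, one_mul, hη, sub_zero]
    · simp only [TW.adD_apply, map_mul, mul_inv_rev, mul_sub, sub_mul, mul_assoc]
      abel
    · obtain ⟨L, hL, hLr⟩ := TW.matRep_factorsThroughFiniteLevel ρbar
      haveI := hL
      refine ⟨L, hL, fun g s hs => ?_⟩
      have hs1 : r s = 1 := hLr s hs
      have hs2 : r s⁻¹ = 1 := by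
        have h : r s⁻¹ * r s = 1 := by rw [← map_mul, inv_mul_cancel, map_one]
        rwa [hs1, mul_one] at h
      simp only [TW.adD_apply, map_mul, mul_inv_rev, hs1, hs2, mul_one, one_mul]
  have key := cocycle_eq_zero_of_placeGenerators hgen ρbar hunr
    (Submodule.sub_mem _ hc hb) (sub_eq_zero.mpr hφ) (sub_eq_zero.mpr hτ)
  refine ⟨η, by simpa using hη, funext fun g => ?_⟩
  have h := key _ (localGaloisToGlobal_mem_decompositionSubgroup q g)
  rw [Pi.sub_apply, sub_eq_zero] at h
  show TW.adD (TW.locRep ρbar q) η g = c (localGaloisToGlobal q g)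
  rw [h]
  simp [TW.locRep, r, map_inv]

/-- Matrices commuting with Frobenius are invariant under the local Galois group. -/
theorem centralTrZero_le_adInvariants [CharP k p] {φ τ : Γℚ} (hgen : IsPlaceGenerators p q φ τ)
    (ρbar : ResidualGaloisRep k)
    (hunr : ∀ g ∈ (padicPlace q).inertiaSubgroupIn ℚ, TW.matRep ρbar g = 1) :
    centralTrZero (TW.matRep ρbar φ) ≤ TW.adInvariants (TW.locRep ρbar q) := by
  classical
  intro X hX
  have hX1 : X.trace = 0 := hX.1
  have hX2 : TW.matRep ρbar φ * X = X * TW.matRep ρbar φ := sub_eq_zero.mp hX.2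
  refine ⟨hX1, fun g => ?_⟩
  set f : Γℚ →* (Matrix (Fin 2) (Fin 2) k)ˣ := MonoidHom.toHomUnits (TW.matRep ρbar)
  have hf : ∀ x, ((f x : (Matrix (Fin 2) (Fin 2) k)ˣ) : Matrix (Fin 2) (Fin 2) k) =
      TW.matRep ρbar x := fun x => rfl
  obtain ⟨L, hL, hLr⟩ := TW.matRep_factorsThroughFiniteLevel ρbar
  obtain ⟨-, -, hD⟩ := hgen.relation _ f ⟨L, hL, fun x hx => Units.ext (hLr x hx)⟩
    fun x hx => ⟨0, by rw [pow_zero, pow_one]; exact Units.ext (hunr x hx)⟩
  have key : ∀ u ∈ Subgroup.closure {f φ, f τ}, Commute (u : Matrix (Fin 2) (Fin 2) k) X := by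
    intro u hu
    induction hu using Subgroup.closure_induction with
    | mem x hx =>
      rcases hx with rfl | rfl
      · rw [hf]; exact hX2
      · rw [hf, hunr τ hgen.tau_mem]; exact Commute.one_left X
    | one => exact Commute.one_left X
    | mul a b _ _ ha hb => rw [Units.val_mul]; exact ha.mul_left hb
    | inv a _ ha => exact ha.units_inv_left
  exact key _ (hD _ (localGaloisToGlobal_mem_decompositionSubgroup q g))

end Fermat.Agent.Lifting
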