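import Fermat.Agent.Lifting.BCurveRep
import Fermat.Agent.Lifting.BPlaces

/-!
# Frames of the representation of a curve at the places of multiplicative reduction

At a prime `q ≠ p` of multiplicative reduction a Frobenius element and a tame generator act by
`!![ε q, β; 0, ε]` (modulo the maximal ideal, with `β = 1` or `β = 0`) and by a matrix `1 + N`
with `N` killed by the trace and an eigenvector for both sides.  At `p` a Frobenius element and an
inertia element detect the sign.
-/

set_option autoImplicit false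

noncomputable section

open scoped Matrix
open IsLocalRing

namespace Fermat.Agent.Lifting

local notation "Γℚ" => AlgebraicClosure ℚ ≃ₐ[ℚ] AlgebraicClosure ℚ
local notation "ℚbar" => AlgebraicClosure ℚ

/-- Conjugating an upper triangular matrix by `!![d, t; 0, 1]`. -/
theorem upperTri_conj {O : Type*} [CommRing O] (d : Oˣ) (t a b c : O) :
    !![(↑d⁻¹ : O), -(↑d⁻¹ * t); 0, 1] * !![a, b; 0, c] * !![(d : O), t; 0, 1] =
      !![a, ↑d⁻¹ * (a * t + b - c * t); 0, c] := by
  ext i j
  fin_cases i <;> fin_cases j <;> simp [Matrix.mul_apply, Fin.sum_univ_two]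
  · rw [mul_right_comm, Units.inv_mul, one_mul]
  all_goals ring

/-- The unit `!![d, t; 0, 1]`. -/
def upperUnit {O : Type*} [CommRing O] (d : Oˣ) (t : O) : GL (Fin 2) O :=
  ⟨!![(d : O), t; 0, 1], !![(↑d⁻¹ : O), -(↑d⁻¹ * t); 0, 1],
    by rw [Matrix.mul_fin_two, Matrix.one_fin_two]
       simp only [mul_zero, zero_mul, mul_one, add_zero, zero_add, Units.mul_inv]
       congr 1
       simp,
    by rw [Matrix.mul_fin_two, Matrix.one_fin_two]
       simp only [mul_zero, zero_mul, mul_one, add_zero, zero_add, Units.inv_mul]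
       congr 1
       ring_nf⟩

namespace TateFrame

variable {W : WeierstrassCurve ℤ} {p : ℕ} [Fact p.Prime] (F : TateFrame W p)
  (O : Type) [CommRing O] [IsDomain O] [IsDiscreteValuationRing O]
  [IsAdicComplete (maximalIdeal O) O] (hpO : (p : O) ∈ maximalIdeal O)

/-- The representation in the basis given by the columns of `G`. -/
def repConj (G : GL (Fin 2) O) : Γℚ →* Matrix (Fin 2) (Fin 2) O where
  toFun g := (G⁻¹).val * F.rep O hpO g * G.val
  map_one' := by rw [map_one, mul_one, Units.inv_mul]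
  map_mul' g h := by
    rw [map_mul]
    simp only [mul_assoc]
    rw [← mul_assoc G.val, Units.mul_inv, one_mul]

theorem repConj_apply (G : GL (Fin 2) O) (g : Γℚ) :
    F.repConj O hpO G g = (G⁻¹).val * F.rep O hpO g * G.val := rfl

theorem trace_repConj (G : GL (Fin 2) O) (g : Γℚ) :
    (F.repConj O hpO G g).trace = (F.rep O hpO g).trace :=
  Matrix.trace_units_conj' G _

theorem det_repConj (hΔ : W.Δ ≠ 0) (G : GL (Fin 2) O) (g : Γℚ) :
    (F.repConj O hpO G g).det =
      GaloisAdic.padicIntHom O hpO (GaloisAdic.padicCyclo p g) := by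
  rw [repConj_apply, ← F.det_rep O hpO hΔ g]
  exact Matrix.det_units_conj' G _

/-- A frame at a prime of multiplicative reduction different from `p`. -/
theorem exists_siteFrame (hΔ : W.Δ ≠ 0) (hW : W.IsSemistableModel) (G : GL (Fin 2) O) (q : ℕ)
    [Fact q.Prime] (hqp : q ≠ p) (hqΔ : (q : ℤ) ∣ W.Δ) :
    ∃ (eps beta : O) (frame : GL (Fin 2) O) (φ τ : Γℚ),
      IsPlaceGenerators p q φ τ ∧ eps ^ 2 = 1 ∧
      ((beta = 1 ∧ ¬ IsUnit ((q : O) - 1)) ∨ beta = 0) ∧
      (F.repConj O hpO G φ).map (residue O) =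
        (frame.val * !![eps * (q : O), beta; 0, eps] * (frame⁻¹).val).map (residue O) ∧
      (F.repConj O hpO G φ).trace = eps * ((q : O) + 1) ∧
      (let Φ : Matrix (Fin 2) (Fin 2) O := (frame⁻¹).val * F.repConj O hpO G φ * frame.val
       let Nm : Matrix (Fin 2) (Fin 2) O := (frame⁻¹).val * F.repConj O hpO G τ * frame.val - 1
       Nm.trace = 0 ∧ Φ * Nm = (eps * (q : O)) • Nm ∧ Nm * Φ = eps • Nm) := by
  have hq : q.Prime := Fact.out
  have hA : (padicPlace q).LiesOverPrime q := padicPlace_liesOverPrime q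
  have h := Mult.IsMultPlace.of_semistable hΔ hW hq hqΔ hA
  obtain ⟨φ, τ, hgen⟩ := exists_placeGenerators (Fact.out : p.Prime) q hqp
  obtain ⟨P, hP⟩ := F.exists_triangular O hpO h
  obtain ⟨b, hb⟩ := hP φ hgen.frob_mem
  obtain ⟨ν, hν⟩ := hP τ (Mult.mem_decomposition_of_mem_inertia hgen.tau_mem)
  rw [GaloisAdic.padicCyclo_frobenius p hq hqp hA hgen.frob, map_natCast] at hb
  rw [Mult.tateSign_eq_one_of_mem_inertia h hgen.tau_mem,
    GaloisAdic.padicCyclo_inertia p hq hqp hA hgen.tau_mem, map_one, Int.cast_one, one_mul] at hν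
  set ε : O := (Mult.tateSign W (padicPlace q) φ : O) with hε
  have hε2 : ε ^ 2 = 1 := by
    rcases Mult.tateSign_eq_one_or_neg_one W (padicPlace q) φ with e | e <;> simp [hε, e]
  -- the upper triangular change of basis
  obtain ⟨d, t, β, hβ, hres⟩ : ∃ (d : Oˣ) (t β : O),
      ((β = 1 ∧ ¬ IsUnit ((q : O) - 1)) ∨ β = 0) ∧
      residue O (↑d⁻¹ * (ε * (q : O) * t + b - ε * t)) = residue O β := by
    by_cases hu : IsUnit ((q : O) - 1)
    · obtain ⟨u, hu⟩ := hu
      refine ⟨1, -(ε * b * ↑u⁻¹), 0, Or.inr rfl, congrArg (residue O) ?_⟩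
      have e : ε * (q : O) * -(ε * b * ↑u⁻¹) + b - ε * -(ε * b * ↑u⁻¹) =
          b - ε ^ 2 * b * (↑u⁻¹ * ((q : O) - 1)) := by ring
      rw [e, ← hu, Units.inv_mul, hε2]
      simp
    · by_cases hbu : IsUnit b
      · refine ⟨hbu.unit, 0, 1, Or.inl ⟨rfl, hu⟩, congrArg (residue O) ?_⟩
        simp
      · refine ⟨1, 0, 0, Or.inr rfl, ?_⟩
        simp only [inv_one, Units.val_one, one_mul, mul_zero, zero_add, sub_zero, map_zero]
        exact residue_eq_zero_iff _ |>.2 ((IsLocalRing.mem_maximalIdeal _).2 hbu)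
  set frame : GL (Fin 2) O := G⁻¹ * (P * upperUnit d t) with hframe
  have hconj : ∀ g : Γℚ, (frame⁻¹).val * F.repConj O hpO G g * frame.val =
      !![(↑d⁻¹ : O), -(↑d⁻¹ * t); 0, 1] * ((P⁻¹).val * F.rep O hpO g * P.val) *
        !![(d : O), t; 0, 1] := by
    intro g
    rw [repConj_apply, hframe]
    simp only [mul_inv_rev, inv_inv, Units.val_mul]
    simp only [mul_assoc]
    rw [← mul_assoc G.val, Units.mul_inv, one_mul, ← mul_assoc G.val, Units.mul_inv, one_mul]
    rfl
  have hΦ : (frame⁻¹).val * F.repConj O hpO G φ * frame.val =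
      !![ε * (q : O), ↑d⁻¹ * (ε * (q : O) * t + b - ε * t); 0, ε] := by
    rw [hconj, hb, upperTri_conj]
  have hT : (frame⁻¹).val * F.repConj O hpO G τ * frame.val - 1 = !![0, ↑d⁻¹ * ν; 0, 0] := by
    rw [hconj, hν, upperTri_conj, Matrix.one_fin_two]
    ext i j
    fin_cases i <;> fin_cases j <;> simp
  refine ⟨ε, β, frame, φ, τ, hgen, hε2, hβ, ?_, ?_, ?_⟩
  · have e : F.repConj O hpO G φ =
        frame.val * ((frame⁻¹).val * F.repConj O hpO G φ * frame.val) * (frame⁻¹).val := by
      simp only [← mul_assoc, Units.mul_inv, one_mul]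
      rw [mul_assoc, Units.mul_inv, mul_one]
    rw [e, hΦ, Matrix.map_mul, Matrix.map_mul, Matrix.map_mul, Matrix.map_mul]
    congr 2
    ext i j
    fin_cases i <;> fin_cases j <;> simp [hres]
  · rw [trace_repConj, ← Matrix.trace_units_conj' P (F.rep O hpO φ)]
    rw [hb, Matrix.trace_fin_two_of]
    ring
  · simp only []
    rw [hT, hΦ]
    refine ⟨by simp [Matrix.trace_fin_two], ?_, ?_⟩ <;>
    · ext i j
      fin_cases i <;> fin_cases j <;> simp [Matrix.mul_apply, Fin.sum_univ_two]
      all_goals ring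

/-- A Frobenius element and an inertia element at `p`, with the sign of the curve at `p`. -/
theorem exists_pPlace (hΔ : W.Δ ≠ 0) (hW : W.IsSemistableModel) (hp2 : p ≠ 2)
    (G : GL (Fin 2) O) :
    ∃ (epsP : O) (frobP tauP : Γℚ), epsP ^ 2 = 1 ∧
      (padicPlace p).IsFrobeniusAt frobP p ∧
      tauP ∈ (padicPlace p).inertiaSubgroupIn ℚ ∧
      IsUnit (1 - (F.repConj O hpO G tauP).det) ∧
      ((p : ℤ) ∣ W.Δ → (F.repConj O hpO G (frobP * tauP)).trace -
        (F.repConj O hpO G tauP).det * (F.repConj O hpO G frobP).trace =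
          (1 - (F.repConj O hpO G tauP).det) * epsP) := by
  have hp : p.Prime := Fact.out
  have hA : (padicPlace p).LiesOverPrime p := padicPlace_liesOverPrime p
  obtain ⟨σ, hσ⟩ := Galois.exists_isFrobeniusAt hp hA
  obtain ⟨τ, hτI, hτ⟩ := Galois.exists_generatesLayer hp hA
  obtain ⟨c, hc, hord⟩ := Galois.exists_primitiveRoot_of_generatesLayer hp hA hτ
  set f := GaloisAdic.padicIntHom O hpO
  refine ⟨(Mult.tateSign W (padicPlace p) σ : O), σ, τ, ?_, hσ, hτI, ?_, ?_⟩
  · rcases Mult.tateSign_eq_one_or_neg_one W (padicPlace p) σ with e | e <;> simp [e]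
  · rw [det_repConj F O hpO hΔ, ← map_one f, ← map_sub]
    refine IsUnit.map f (PadicInt.isUnit_iff.2 ?_)
    by_contra hne
    have hlt : ‖1 - GaloisAdic.padicCyclo p τ‖ < 1 :=
      lt_of_le_of_ne (PadicInt.norm_le_one _) hne
    have h0 : PadicInt.toZModPow 1 (1 - GaloisAdic.padicCyclo p τ) = 0 := by
      rw [← RingHom.mem_ker, PadicInt.ker_toZModPow, pow_one, ← PadicInt.maximalIdeal_eq_span_p]
      exact (PadicInt.mem_nonunits).2 hlt
    have hc' : ∀ μ : ℚbar, μ ^ p ^ 1 = 1 → τ μ = μ ^ c := fun μ hμ => hc μ (by rwa [pow_one] at hμ)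
    rw [map_sub, map_one, GaloisAdic.toZModPow_padicCyclo_eq p τ hc', sub_eq_zero] at h0
    have h1 : (c : ZMod p) = 1 := by
      have e := congrArg (ZMod.castHom (dvd_of_eq (pow_one p).symm) (ZMod p)) h0
      rw [map_one, map_natCast] at e
      exact e.symm
    rw [h1, orderOf_one] at hord
    have := hp.two_le
    omega
  · intro hpΔ
    have h := Mult.IsMultPlace.of_semistable hΔ hW hp hpΔ hA
    have hσD := hσ.mem_decompositionSubgroup
    have hτD := Mult.mem_decomposition_of_mem_inertia hτI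
    obtain ⟨P, hP⟩ := F.exists_triangular O hpO h
    have htr : ∀ g ∈ (padicPlace p).decompositionSubgroup ℚ, (F.repConj O hpO G g).trace =
        (Mult.tateSign W (padicPlace p) g : O) * (f (GaloisAdic.padicCyclo p g) + 1) := by
      intro g hg
      obtain ⟨b, hb⟩ := hP g hg
      rw [trace_repConj, ← Matrix.trace_units_conj' P (F.rep O hpO g)]
      rw [hb, Matrix.trace_fin_two_of]
      ring
    rw [htr _ (mul_mem hσD hτD), htr _ hσD, det_repConj F O hpO hΔ,
      Mult.tateSign_mul h σ τ, Mult.tateSign_eq_one_of_mem_inertia h hτI, mul_one, map_mul,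
      map_mul]
    ring

end TateFrame

end Fermat.Agent.Lifting
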