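import Fermat.Agent.Lifting.BFlatModel
import Fermat.Agent.Lifting.BSites
import Fermat.Agent.Lifting.ETransfer
import Fermat.Agent.Deform.MatrixRep

/-!
# Flatness of the representation of a curve, and its conjugates

The representation attached to a curve with good reduction at `p ≠ 2` is flat at `p`; its
conjugate by a matrix is equivalent to it.
-/

set_option autoImplicit false

noncomputable section

open scoped WeierstrassCurve.Affine Matrix
open IsLocalRing

namespace Fermat.Agent.Lifting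

local notation "Γℚ" => AlgebraicClosure ℚ ≃ₐ[ℚ] AlgebraicClosure ℚ
local notation "ℚbar" => AlgebraicClosure ℚ

namespace TateFrame

variable {W : WeierstrassCurve ℤ} {p : ℕ} [Fact p.Prime] (F : TateFrame W p)
  (O : Type) [CommRing O] [IsDomain O] [IsDiscreteValuationRing O]
  [IsAdicComplete (maximalIdeal O) O] (hpO : (p : O) ∈ maximalIdeal O)

/-- Continuity of the conjugated matrices. -/
theorem mcont_repConj (hΔ : W.Δ ≠ 0) (G : GL (Fin 2) O) :
    Deform.MCont (F.repConj O hpO G) := by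
  intro n
  obtain ⟨L, hL, h⟩ := F.rep_continuous O hpO hΔ n
  refine ⟨L, hL, fun σ hσ i j => ?_⟩
  have e : F.repConj O hpO G σ - 1 = (G⁻¹).val * (F.rep O hpO σ - 1) * G.val := by
    rw [repConj_apply, mul_sub, sub_mul, mul_one, Units.inv_mul]
  rw [← Matrix.sub_apply, e, Matrix.mul_apply]
  refine Ideal.sum_mem _ fun k _ => Ideal.mul_mem_right _ _ ?_
  rw [Matrix.mul_apply]
  exact Ideal.sum_mem _ fun l _ => Ideal.mul_mem_left _ _ (h σ hσ l k)

/-- Conjugation does not change the class of the representation. -/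
theorem isEquiv_repConj (hΔ : W.Δ ≠ 0) (G : GL (Fin 2) O) :
    (F.galoisRep O hpO hΔ).IsEquiv
      (Deform.toRep (F.repConj O hpO G) (F.mcont_repConj O hpO hΔ G)) := by
  let e : (Fin 2 → O) ≃ₗ[O] (Fin 2 → O) :=
    LinearEquiv.ofLinearMap (Matrix.toLin' (G⁻¹).val) (Matrix.toLin' G.val)
      (by rw [← Matrix.toLin'_mul, Units.inv_mul, Matrix.toLin'_one])
      (by rw [← Matrix.toLin'_mul, Units.mul_inv, Matrix.toLin'_one])
  refine ⟨⟨e, fun σ (v : Fin 2 → O) => ?_⟩⟩
  have h1 : (G⁻¹).val *ᵥ (F.rep O hpO σ *ᵥ v) =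
      F.repConj O hpO G σ *ᵥ ((G⁻¹).val *ᵥ v) := by
    rw [Matrix.mulVec_mulVec, Matrix.mulVec_mulVec, repConj_apply, mul_assoc ((G⁻¹).val * _),
      Units.mul_inv, mul_one]
  exact h1

/-- A curve with good reduction at `p ≠ 2` gives a representation which is flat at `p`. -/
theorem isFlatAt [Finite (ResidueField O)] [CharZero O] (hΔ : W.Δ ≠ 0) (hp2 : p ≠ 2)
    (hg : W.IsGoodPrimeFor p) : (F.galoisRep O hpO hΔ).IsFlatAt p := by
  refine ⟨inferInstance, fun I hI => ?_⟩
  -- a power of the maximal ideal inside `I`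
  obtain ⟨n, hn⟩ : ∃ n, maximalIdeal O ^ n ≤ I := by
    have hI0 : I ≠ ⊥ := by
      rintro rfl
      exact not_finite_iff_infinite.2 (Infinite.of_injective _ Nat.cast_injective)
        (Finite.of_equiv _ (RingEquiv.quotientBot O).toEquiv)
    obtain ⟨ϖ, hϖ⟩ := IsDiscreteValuationRing.exists_irreducible O
    obtain ⟨n, hn⟩ := IsDiscreteValuationRing.ideal_eq_span_pow_irreducible hI0 hϖ
    exact ⟨n, by rw [hn, hϖ.maximalIdeal_eq, Ideal.span_singleton_pow]⟩
  have : NeZero (p ^ n) := ⟨pow_ne_zero _ (Fact.out : p.Prime).ne_zero⟩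
  set T := CondLevel.Tors W (p ^ n)
  haveI : Finite T := Finite.of_equiv _ (F.basis n).equivFun.symm.toEquiv
  let π : (O ⧸ maximalIdeal O ^ n) →+* O ⧸ I := Ideal.Quotient.factor hn
  let ζ : ZMod (p ^ n) →+* O ⧸ I := π.comp (GaloisAdic.zmodPowHom O hpO n)
  have hζ : ∀ x : ZMod (p ^ n), Ideal.Quotient.mk I ((x.val : ℕ) : O) = ζ x := fun x => by
    rw [map_natCast, ← map_natCast ζ, ZMod.natCast_zmod_val]
  let Q := (Fin 2 → O) ⧸ (I • (⊤ : Submodule O (Fin 2 → O)))
  have hQ : ∀ v w : Fin 2 → O, (∀ i, Ideal.Quotient.mk I (v i) = Ideal.Quotient.mk I (w i)) →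
      (Submodule.Quotient.mk v : Q) = Submodule.Quotient.mk w := fun v w h => by
    rw [Submodule.Quotient.eq]
    exact Deform.mem_smul_top_of_forall (Pi.basisFun O (Fin 2)) I fun i => by
      rw [Pi.basisFun_repr, Pi.sub_apply]
      exact Ideal.Quotient.eq.1 (h i)
  let lift : T → Fin 2 → O := fun x i => (((F.basis n).repr x i).val : O)
  let ψ : T →+ Q := AddMonoidHom.mk' (fun x => Submodule.Quotient.mk (lift x)) fun x y => by
    rw [← Submodule.Quotient.mk_add]
    refine hQ _ _ fun i => ?_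
    simp only [lift, Pi.add_apply, map_add, hζ, Finsupp.coe_add]
  have hψσ : ∀ (σ : Γℚ) (x : T),
      ψ (σ • x) = (F.galoisRep O hpO hΔ).levelAction I σ (ψ x) := by
    intro σ x
    show (Submodule.Quotient.mk (lift (σ • x)) : Q) =
      Submodule.Quotient.mk (F.rep O hpO σ *ᵥ lift x)
    refine hQ _ _ fun i => ?_
    have h1 : ⇑((F.basis n).repr (σ • x)) = F.matrixMod n σ *ᵥ ⇑((F.basis n).repr x) := by
      rw [F.matrixMod_apply]
      exact (LinearMap.toMatrix_mulVec_repr (F.basis n) (F.basis n)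
        (CondLevel.torsRep W (p ^ n) σ) x).symm
    have h2 : ∀ i j, Ideal.Quotient.mk I (F.rep O hpO σ i j) = ζ (F.matrixMod n σ i j) :=
      fun i j => by
        have h := congrFun (congrFun (F.mk_rep O hpO n σ) i) j
        rw [Matrix.map_apply, Matrix.map_apply] at h
        exact congrArg π h
    simp only [lift, hζ, h1, Matrix.mulVec, dotProduct, map_sum, map_mul, h2]
  let θ : ((O ⧸ I) → T) →+ Q :=
    { toFun := fun v => ∑ᶠ a : O ⧸ I, Function.surjInv Ideal.Quotient.mk_surjective a • ψ (v a)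
      map_zero' := by simp
      map_add' := fun v w => by
        rw [← finsum_add_distrib (Set.toFinite _) (Set.toFinite _)]
        exact finsum_congr fun a => by rw [Pi.add_apply, map_add, smul_add] }
  have hθσ : ∀ (σ : Γℚ) (v : (O ⧸ I) → T),
      θ (fun a => σ • v a) = (F.galoisRep O hpO hΔ).levelAction I σ (θ v) := by
    intro σ v
    haveI := Fintype.ofFinite (O ⧸ I)
    simp only [θ, AddMonoidHom.coe_mk, ZeroHom.coe_mk, finsum_eq_sum_of_fintype, hψσ]
    refine Eq.symm ((map_sum _ _ _).trans ?_)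
    exact Finset.sum_congr rfl fun a _ => map_smul _ _ _
  have hθ : Function.Surjective θ := by
    intro q
    obtain ⟨v, rfl⟩ := Submodule.Quotient.mk_surjective _ q
    haveI := Fintype.ofFinite (O ⧸ I)
    classical
    refine ⟨fun a => ∑ i, if a = Ideal.Quotient.mk I (v i) then F.basis n i else 0, ?_⟩
    simp only [θ, AddMonoidHom.coe_mk, ZeroHom.coe_mk, finsum_eq_sum_of_fintype, map_sum,
      apply_ite ψ, map_zero, Finset.smul_sum, smul_ite, smul_zero]
    rw [Finset.sum_comm]
    simp only [Finset.sum_ite_eq', Finset.mem_univ, if_true]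
    show ∑ i, _ • (Submodule.Quotient.mk (lift (F.basis n i)) : Q) = _
    simp only [← Submodule.Quotient.mk_smul]
    refine ((map_sum (Submodule.mkQ (I • (⊤ : Submodule O (Fin 2 → O)))) _ _).symm).trans ?_
    refine hQ _ _ fun j => ?_
    simp only [lift, Finset.sum_apply, Pi.smul_apply, smul_eq_mul, map_sum, map_mul,
      Function.surjInv_eq Ideal.Quotient.mk_surjective, hζ, Module.Basis.repr_self,
      Finsupp.single_apply, apply_ite ζ, map_one, map_zero, mul_ite, mul_one, mul_zero,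
      Finset.sum_ite_eq', Finset.mem_univ, if_true]
  exact ((hasFlatModel_curveTorsion (W := W) hp2 hg (NeZero.ne (p ^ n))).pi_const
    (O ⧸ I)).of_surjective (actN := fun σ x => (F.galoisRep O hpO hΔ).levelAction I σ x) θ hθ hθσ

/-- The conjugated representation is flat at a good prime. -/
theorem isFlatAt_repConj [Finite (ResidueField O)] [CharZero O] (hΔ : W.Δ ≠ 0) (hp2 : p ≠ 2)
    (hg : W.IsGoodPrimeFor p) (G : GL (Fin 2) O) :
    (Deform.toRep (F.repConj O hpO G) (F.mcont_repConj O hpO hΔ G)).IsFlatAt p := by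
  obtain ⟨e⟩ := F.isEquiv_repConj O hpO hΔ G
  exact ETransfer.isFlatAt_of_equiv e (F.isFlatAt O hpO hΔ hp2 hg)

end TateFrame

end Fermat.Agent.Lifting
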