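import Fermat.Agent.Flat.JacobianHopf
import Fermat.Agent.Flat.JacobianBase
import Fermat.Agent.CondLevel.Curve
import Fermat.Agent.ECRed.Good
import Fermat.Agent.S27.Specialize
import Fermat.Agent.PoitouTate.GlobalPrincipalize

/-!
# Finite flat models of the torsion of a curve with good reduction

For a point `R` whose translates of the torsion avoid the kernel of reduction, the two coordinate
functions `P ↦ x (P + R)`, `P ↦ y (P + R)` generate an order of functions on the torsion which is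
stable under the translations and under negation, hence gives a finite flat group scheme over
`ℤ_(p)`.
-/

set_option autoImplicit false

noncomputable section

open scoped WeierstrassCurve.Affine Classical

namespace Fermat.Agent.Lifting.CurveFlat

open WeierstrassCurve FlatModel.JacDescent
open ECRed (QbarPoint redCurve red)

local notation "ℚbar" => AlgebraicClosure ℚ
local notation "Γℚ" => AlgebraicClosure ℚ ≃ₐ[ℚ] AlgebraicClosure ℚ

variable {W : WeierstrassCurve ℤ}

/-- The abscissa, `0` at infinity. -/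
def xc : QbarPoint W → ℚbar
  | .zero => 0
  | .some x _ _ => x

/-- The ordinate, `0` at infinity. -/
def yc : QbarPoint W → ℚbar
  | .zero => 0
  | .some _ y _ => y

theorem xc_smul (σ : Γℚ) (Q : QbarPoint W) : xc (σ • Q) = σ (xc Q) := by
  rcases Q with _ | ⟨x, y, h⟩
  · exact (map_zero σ).symm
  · rfl

theorem yc_smul (σ : Γℚ) (Q : QbarPoint W) : yc (σ • Q) = σ (yc Q) := by
  rcases Q with _ | ⟨x, y, h⟩
  · exact (map_zero σ).symm
  · rfl

variable (A : ValuationSubring (AlgebraicClosure ℚ))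

/-- An element of `A`, `0` outside. -/
def toA (z : ℚbar) : A := if h : z ∈ A then ⟨z, h⟩ else 0

theorem coe_toA {z : ℚbar} (h : z ∈ A) : (toA A z : ℚbar) = z := by
  rw [toA, dif_pos h]

/-! ### Orders of functions -/

section orders

variable {X : Type} [Finite X]

/-- A member with unit values has its inverse in the algebra. -/
theorem exists_mul_eq_one (S : Subalgebra A (X → A)) {f : X → A} (hf : f ∈ S)
    (hu : ∀ x, IsUnit (f x)) : ∃ g ∈ S, g * f = 1 := by
  cases nonempty_fintype X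
  set P : Polynomial A := ∏ x, (Polynomial.X - Polynomial.C (f x))
  have hP : Polynomial.aeval f P = 0 := funext fun y => by
    have h := Polynomial.aeval_algHom_apply (Pi.evalAlgHom A (fun _ : X => A) y) f P
    refine h.symm.trans ?_
    show Polynomial.aeval (f y) P = 0
    rw [map_prod]
    exact Finset.prod_eq_zero (Finset.mem_univ y) (by simp)
  have hc : IsUnit (P.coeff 0) := by
    rw [Polynomial.coeff_zero_eq_eval_zero, Polynomial.eval_prod]
    simp only [Polynomial.eval_sub, Polynomial.eval_X, Polynomial.eval_C, zero_sub]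
    exact IsUnit.prod_iff.2 fun x _ => (hu x).neg
  obtain ⟨u, hu'⟩ := hc
  refine ⟨-((↑u⁻¹ : A)) • Polynomial.aeval f P.divX, S.smul_mem (Subalgebra.aeval_coe S ⟨f, hf⟩ _ ▸
    (Polynomial.aeval (⟨f, hf⟩ : S) P.divX).2) _, ?_⟩
  have h := congrArg (Polynomial.aeval f) P.X_mul_divX_add
  rw [hP, map_add, map_mul, Polynomial.aeval_X, Polynomial.aeval_C, ← hu'] at h
  have h2 : f * Polynomial.aeval f P.divX = -algebraMap A (X → A) ↑u :=
    eq_neg_of_add_eq_zero_left h
  funext x
  have h3 := congrFun h2 x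
  simp only [Pi.mul_apply, Pi.neg_apply, Pi.algebraMap_apply, Algebra.algebraMap_self,
    RingHom.id_apply] at h3
  simp only [Pi.mul_apply, Pi.smul_apply, smul_eq_mul, Pi.one_apply]
  rw [mul_assoc, mul_comm (Polynomial.aeval f P.divX x), h3, neg_mul_neg, Units.inv_mul]

/-- Membership from two denominators without a common zero modulo the maximal ideal. -/
theorem mem_of_two_denominators [Infinite (IsLocalRing.ResidueField A)]
    (S : Subalgebra A (X → A)) {l d₁ d₂ : X → A} (hd₁ : d₁ ∈ S) (hd₂ : d₂ ∈ S)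
    (h₁ : l * d₁ ∈ S) (h₂ : l * d₂ ∈ S) (hu : ∀ x, IsUnit (d₁ x) ∨ IsUnit (d₂ x)) : l ∈ S := by
  let r := IsLocalRing.residue A
  obtain ⟨a', ha'⟩ : ∃ a', a' ∉ Set.range fun x => -(r (d₁ x)) / r (d₂ x) :=
    (Set.finite_range _).exists_notMem
  obtain ⟨a, rfl⟩ := IsLocalRing.residue_surjective a'
  have hu' : ∀ x, IsUnit ((d₁ + a • d₂) x) := by
    intro x
    rw [← IsLocalRing.residue_ne_zero_iff_isUnit, Pi.add_apply, Pi.smul_apply, smul_eq_mul,
      map_add, map_mul]
    intro h0
    by_cases h : r (d₂ x) = 0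
    · rw [show IsLocalRing.residue A (d₂ x) = 0 from h, mul_zero, add_zero] at h0
      rcases hu x with hx | hx
      · exact (IsLocalRing.residue_ne_zero_iff_isUnit _).2 hx h0 |>.elim
      · exact (IsLocalRing.residue_ne_zero_iff_isUnit _).2 hx h |>.elim
    · refine ha' ⟨x, ?_⟩
      show -(r (d₁ x)) / r (d₂ x) = r a
      rw [div_eq_iff h, neg_eq_iff_add_eq_zero]
      exact h0
  obtain ⟨g, hg, hgd⟩ := exists_mul_eq_one A S (S.add_mem hd₁ (S.smul_mem hd₂ a)) hu'
  have e : l = g * (l * d₁ + a • (l * d₂)) := by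
    calc l = (g * (d₁ + a • d₂)) * l := by rw [hgd, one_mul]
      _ = _ := by simp only [mul_add, mul_smul_comm, smul_mul_assoc, mul_assoc, mul_comm l,
          add_mul]
  rw [e]
  exact S.mul_mem hg (S.add_mem h₁ (S.smul_mem h₂ a))

end orders

/-! ### The curve -/

variable {p : ℕ} (hp : p.Prime) (hA : A.LiesOverPrime p) (hg : W.IsGoodPrimeFor p) (m : ℕ)

/-- Reduction. -/
def rd : QbarPoint W →+ (redCurve W A).toAffine.Point := ECRed.redHom hp hA hg

/-- The translates of the torsion by `R` avoid the kernel of reduction. -/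
def Adm (R : QbarPoint W) : Prop :=
  ∀ P : CondLevel.Tors W m, rd A hp hA hg ((P : QbarPoint W) + R) ≠ 0

/-- The coordinates of the translates by `R`. -/
def coordFun (R : QbarPoint W) (b : Bool) (P : CondLevel.Tors W m) : A :=
  toA A (cond b (xc ((P : QbarPoint W) + R)) (yc ((P : QbarPoint W) + R)))

/-- The algebra generated by the coordinates of the translates by `R`. -/
def ordR (R : QbarPoint W) : Subalgebra A (CondLevel.Tors W m → A) :=
  Algebra.adjoin A (Set.range (coordFun A m R))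

variable {A} {m}

theorem exists_coords {Q : QbarPoint W} (h : rd A hp hA hg Q ≠ 0) :
    ∃ x y hn hn', Q = Affine.Point.some x y hn ∧ x ∈ A ∧ y ∈ A ∧
      rd A hp hA hg Q = Affine.Point.some (red A x) (red A y) hn' := by
  have hiff := ECRed.redHom_eq_zero_iff hp hA hg Q
  rcases Q with _ | ⟨x, y, hxy⟩
  · exact absurd (hiff.2 (Or.inl rfl)) h
  · have hx : x ∈ A := by
      by_contra hx
      exact h (hiff.2 (Or.inr ⟨x, y, hxy, rfl, hx⟩))
    have hsm := ECRed.smoothlyReducing_of_Δ_ne_zero (ECRed.isReductionOf_rat W A)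
      (ECRed.Δ_redCurve_ne_zero hp hA hg) (Affine.Point.some x y hxy) hx
    exact ⟨x, y, hxy, hsm, rfl, hx, ECRed.Y_mem (ECRed.isReductionOf_rat W A) hxy.1 hx,
      ECRed.reduce_some_of_mem hxy hx hsm⟩

theorem rd_smul_ne_zero {d : Γℚ} (hd : d ∈ A.decompositionSubgroup ℚ) {Q : QbarPoint W}
    (h : rd A hp hA hg Q ≠ 0) : rd A hp hA hg (d • Q) ≠ 0 := by
  obtain ⟨x, y, hn, -, rfl, hx, -, -⟩ := exists_coords hp hA hg h
  intro h0
  rcases (ECRed.redHom_eq_zero_iff hp hA hg _).1 h0 with h1 | ⟨a, b, _, he, ha⟩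
  · exact absurd h1 (Affine.Point.some_ne_zero _)
  · have e : a = d x := by
      have := congrArg xc he
      rw [xc_smul] at this
      exact this.symm
    exact ha (e ▸ (ECRed.mem_iff_smul_mem ⟨d, hd⟩ x).2 hx)

theorem coe_coordFun {R : QbarPoint W} (hR : Adm A hp hA hg m R) (b : Bool)
    (P : CondLevel.Tors W m) :
    (coordFun A m R b P : ℚbar) =
      cond b (xc ((P : QbarPoint W) + R)) (yc ((P : QbarPoint W) + R)) := by
  obtain ⟨x, y, hn, -, e, hx, hy, -⟩ := exists_coords hp hA hg (hR P)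
  rw [coordFun, e]
  cases b
  · exact coe_toA A hy
  · exact coe_toA A hx

omit hp hA hg in
theorem smul_translate (d : Γℚ) (P : CondLevel.Tors W m) (R : QbarPoint W) :
    d • (((d⁻¹ • P : CondLevel.Tors W m) : QbarPoint W) + R) = (P : QbarPoint W) + d • R := by
  refine (smul_add d _ R).trans ?_
  congr 1
  exact smul_inv_smul d (P : QbarPoint W)

theorem adm_smul {R : QbarPoint W} (hR : Adm A hp hA hg m R) {d : Γℚ}
    (hd : d ∈ A.decompositionSubgroup ℚ) : Adm A hp hA hg m (d • R) := by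
  intro P
  rw [← smul_translate d P R]
  exact rd_smul_ne_zero hp hA hg hd (hR _)

theorem adm_flip {R : QbarPoint W} (hR : Adm A hp hA hg m R) (s : CondLevel.Tors W m) :
    Adm A hp hA hg m (-(s : QbarPoint W) - R) := by
  intro P h
  refine hR (s - P) ?_
  have e : ((s - P : CondLevel.Tors W m) : QbarPoint W) + R =
      -((P : QbarPoint W) + (-(s : QbarPoint W) - R)) := by
    rw [AddSubgroupClass.coe_sub]
    abel
  rw [e, map_neg, h, neg_zero]

variable [Finite (CondLevel.Tors W m)] [Infinite (IsLocalRing.ResidueField A)]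

/-- Translating by a point which is not in the kernel of reduction. -/
theorem coordFun_mem_of_add {R T : QbarPoint W} (hR : Adm A hp hA hg m R)
    (hT : rd A hp hA hg T ≠ 0) (hRT : Adm A hp hA hg m (R + T)) (b : Bool) :
    coordFun A m (R + T) b ∈ ordR A m R := by
  set S := ordR A m R with hS
  set E := (W.map (Int.castRingHom ℚ))⁄(AlgebraicClosure ℚ) with hEdef
  have hE := ECRed.isReductionOf_rat W A
  obtain ⟨x₂, y₂, hn₂, hn₂', eT, hx₂, hy₂, eT'⟩ := exists_coords hp hA hg hT
  subst eT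
  have hgenX : coordFun A m R true ∈ S := Algebra.subset_adjoin ⟨true, rfl⟩
  have hgenY : coordFun A m R false ∈ S := Algebra.subset_adjoin ⟨false, rfl⟩
  set fx := coordFun A m R true
  set fy := coordFun A m R false
  have hconst : ∀ a : A, (fun _ : CondLevel.Tors W m => a) ∈ S := fun a => by
    exact S.algebraMap_mem a
  let slp : CondLevel.Tors W m → ℚbar := fun P =>
    E.toAffine.slope (fx P : ℚbar) x₂ (fy P : ℚbar) y₂
  let d₁ : CondLevel.Tors W m → A := fun P => fx P - ⟨x₂, hx₂⟩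
  let d₂ : CondLevel.Tors W m → A := fun P =>
    fy P - ⟨E.toAffine.negY x₂ y₂, ECRed.negY_mem hE hx₂ hy₂⟩
  -- pointwise facts
  have key : ∀ P, (IsUnit (d₁ P) ∨ IsUnit (d₂ P)) ∧ slp P ∈ A ∧
      slp P * (d₁ P : ℚbar) = (fy P : ℚbar) - y₂ ∧
      slp P * (d₂ P : ℚbar) = (fx P : ℚbar) * fx P + (fx P : ℚbar) * x₂ + x₂ * x₂ +
        E.a₂ * ((fx P : ℚbar) + x₂) + E.a₄ - E.a₁ * fy P ∧
      xc ((P : QbarPoint W) + (R + Affine.Point.some x₂ y₂ hn₂)) =
        E.toAffine.addX (fx P : ℚbar) x₂ (slp P) ∧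
      yc ((P : QbarPoint W) + (R + Affine.Point.some x₂ y₂ hn₂)) =
        E.toAffine.addY (fx P : ℚbar) x₂ (fy P : ℚbar) (slp P) := by
    intro P
    have ex : (fx P : ℚbar) = xc ((P : QbarPoint W) + R) := coe_coordFun hp hA hg hR true P
    have ey : (fy P : ℚbar) = yc ((P : QbarPoint W) + R) := coe_coordFun hp hA hg hR false P
    obtain ⟨x₁, y₁, hn₁, hn₁', e₁, hx₁, hy₁, e₁'⟩ := exists_coords hp hA hg (hR P)
    rw [e₁] at ex ey e₁'
    change _ = x₁ at ex
    change _ = y₁ at ey
    have hne : rd A hp hA hg (Affine.Point.some x₁ y₁ hn₁) +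
        rd A hp hA hg (Affine.Point.some x₂ y₂ hn₂) ≠ 0 := by
      rw [← map_add, ← e₁, add_assoc]
      exact hRT P
    have hxy : ¬(x₁ = x₂ ∧ y₁ = E.toAffine.negY x₂ y₂) := fun h => hne (by
      rw [← map_add, Affine.Point.add_of_Y_eq h.1 h.2, map_zero])
    have hred : ¬(red A x₁ = red A x₂ ∧
        red A y₁ = (redCurve W A).toAffine.negY (red A x₂) (red A y₂)) := fun h => hne (by
      rw [e₁', eT', Affine.Point.add_of_Y_eq h.1 h.2])
    have hunit : IsUnit (d₁ P) ∨ IsUnit (d₂ P) := by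
      by_contra hcon
      rw [not_or, ← IsLocalRing.residue_ne_zero_iff_isUnit,
        ← IsLocalRing.residue_ne_zero_iff_isUnit, not_not, not_not] at hcon
      refine hred ⟨?_, ?_⟩
      · rw [← sub_eq_zero, ← ECRed.red_sub hx₁ hx₂, ← ex, ← hcon.1, ← ECRed.red_coe]
        rfl
      · rw [← ECRed.red_negY hE hx₂ hy₂, ← sub_eq_zero,
          ← ECRed.red_sub hy₁ (ECRed.negY_mem hE hx₂ hy₂), ← ey, ← hcon.2, ← ECRed.red_coe]
        rfl
    have h1 : slp P * (d₁ P : ℚbar) = y₁ - y₂ := by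
      show E.toAffine.slope (fx P : ℚbar) x₂ (fy P : ℚbar) y₂ * ((fx P : ℚbar) - x₂) = _
      rw [ex, ey]
      by_cases hx : x₁ = x₂
      · rw [hx, sub_self, mul_zero,
          Affine.Y_eq_of_Y_ne hn₁.1 hn₂.1 hx fun h => hxy ⟨hx, h⟩, sub_self]
      · rw [Affine.slope_of_X_ne hx, div_mul_cancel₀ _ (sub_ne_zero.2 hx)]
    have h2 : slp P * (d₂ P : ℚbar) = x₁ * x₁ + x₁ * x₂ + x₂ * x₂ + E.a₂ * (x₁ + x₂) + E.a₄ -
        E.a₁ * y₁ := by
      show E.toAffine.slope (fx P : ℚbar) x₂ (fy P : ℚbar) y₂ *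
        ((fy P : ℚbar) - E.toAffine.negY x₂ y₂) = _
      rw [ex, ey]
      exact ECRed.slope_mul_eq hE hn₁.1 hn₂.1 hxy
    have hl : slp P ∈ A := by
      rcases hunit with h | h
      · refine (ECRed.div_mem_of_mul_eq (sub_mem hy₁ hy₂) (d₁ P).2 ?_ h1).1
        rw [ECRed.red_coe]; exact (IsLocalRing.residue_ne_zero_iff_isUnit _).2 h
      · refine (ECRed.div_mem_of_mul_eq ?_ (d₂ P).2 ?_ h2).1
        · exact sub_mem (add_mem (add_mem (add_mem (add_mem (mul_mem hx₁ hx₁) (mul_mem hx₁ hx₂))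
            (mul_mem hx₂ hx₂)) (mul_mem hE.mem₂ (add_mem hx₁ hx₂))) hE.mem₄) (mul_mem hE.mem₁ hy₁)
        · rw [ECRed.red_coe]; exact (IsLocalRing.residue_ne_zero_iff_isUnit _).2 h
    refine ⟨hunit, hl, by rw [h1, ey], by rw [h2, ex, ey], ?_, ?_⟩ <;>
    · rw [← add_assoc, e₁, Affine.Point.add_some hxy]
      simp only [slp]
      rw [ex, ey]
      rfl
  -- the slope
  let l : CondLevel.Tors W m → A := fun P => ⟨slp P, (key P).2.1⟩
  let a₁ : A := ⟨E.a₁, hE.mem₁⟩
  let a₂ : A := ⟨E.a₂, hE.mem₂⟩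
  let a₃ : A := ⟨E.a₃, hE.mem₃⟩
  let a₄ : A := ⟨E.a₄, hE.mem₄⟩
  have hl : l ∈ S := by
    refine mem_of_two_denominators A S (d₁ := d₁) (d₂ := d₂)
      (S.sub_mem hgenX (hconst _)) (S.sub_mem hgenY (hconst _)) ?_ ?_ fun P => (key P).1
    · have e : l * d₁ = fy - fun _ => ⟨y₂, hy₂⟩ := funext fun P => Subtype.ext (key P).2.2.1
      rw [e]
      exact S.sub_mem hgenY (hconst _)
    · have e : l * d₂ = fx * fx + fx * (fun _ => ⟨x₂, hx₂⟩) + (fun _ => ⟨x₂ * x₂, mul_mem hx₂ hx₂⟩) +
          (fun _ => a₂) * (fx + fun _ => ⟨x₂, hx₂⟩) + (fun _ => a₄) - (fun _ => a₁) * fy :=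
        funext fun P => Subtype.ext (key P).2.2.2.1
      rw [e]
      exact S.sub_mem (S.add_mem (S.add_mem (S.add_mem (S.add_mem (S.mul_mem hgenX hgenX)
        (S.mul_mem hgenX (hconst _))) (hconst _)) (S.mul_mem (hconst _) (S.add_mem hgenX (hconst _))))
        (hconst _)) (S.mul_mem (hconst _) hgenY)
  have hX : coordFun A m (R + Affine.Point.some x₂ y₂ hn₂) true =
      l * l + (fun _ => a₁) * l - (fun _ => a₂) - fx - fun _ => ⟨x₂, hx₂⟩ := by
    funext P
    apply Subtype.ext
    rw [coe_coordFun hp hA hg hRT true P]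
    show xc _ = slp P * slp P + E.a₁ * slp P - E.a₂ - (fx P : ℚbar) - x₂
    rw [(key P).2.2.2.2.1, Affine.addX]
    ring
  have hXmem : coordFun A m (R + Affine.Point.some x₂ y₂ hn₂) true ∈ S := by
    rw [hX]
    exact S.sub_mem (S.sub_mem (S.sub_mem (S.add_mem (S.mul_mem hl hl) (S.mul_mem (hconst _) hl))
      (hconst _)) hgenX) (hconst _)
  cases b
  · have hY : coordFun A m (R + Affine.Point.some x₂ y₂ hn₂) false =
        -(l * (coordFun A m (R + Affine.Point.some x₂ y₂ hn₂) true - fx) + fy) -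
          (fun _ => a₁) * coordFun A m (R + Affine.Point.some x₂ y₂ hn₂) true - fun _ => a₃ := by
      funext P
      apply Subtype.ext
      rw [coe_coordFun hp hA hg hRT false P]
      show yc _ = -(slp P * ((coordFun A m (R + Affine.Point.some x₂ y₂ hn₂) true P : ℚbar) -
          (fx P : ℚbar)) + (fy P : ℚbar)) -
        E.a₁ * (coordFun A m (R + Affine.Point.some x₂ y₂ hn₂) true P : ℚbar) - E.a₃
      rw [coe_coordFun hp hA hg hRT true P, (key P).2.2.2.2.2, cond_true, (key P).2.2.2.2.1,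
        Affine.addY, Affine.negY, Affine.negAddY]
    rw [hY]
    exact S.sub_mem (S.sub_mem (S.neg_mem (S.add_mem (S.mul_mem hl (S.sub_mem hXmem hgenX)) hgenY))
      (S.mul_mem (hconst _) hXmem)) (hconst _)
  · exact hXmem

variable (hp2 : p ≠ 2)

include hp hA hg hp2 in
omit [Finite (CondLevel.Tors W m)] in
/-- A point fixed by inertia whose reduction avoids a given finite set. -/
theorem exists_fixed_point {B : Set (redCurve W A).toAffine.Point} (hB : B.Finite) :
    ∃ R : QbarPoint W, rd A hp hA hg R ≠ 0 ∧ rd A hp hA hg R ∉ B ∧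
      (∀ σ ∈ A.inertiaSubgroupIn ℚ, σ • R = R) ∧
      ∃ U : Subgroup Γℚ, IsOpen (U : Set Γℚ) ∧ A.inertiaSubgroupIn ℚ ≤ U ∧
        ∀ σ ∈ U, σ • R = R := by
  haveI := Fact.mk hp
  haveI := ECRed.charP_residueField hp hA
  set k := IsLocalRing.ResidueField A
  set E := (W.map (Int.castRingHom ℚ))⁄(AlgebraicClosure ℚ) with hEdef
  set E₁ := redCurve W A
  have hE := ECRed.isReductionOf_rat W A
  -- the discriminant of the quadratic in the ordinate
  let D : Polynomial k := (Polynomial.C E₁.a₁ * Polynomial.X + Polynomial.C E₁.a₃) ^ 2 +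
    Polynomial.C 4 * (Polynomial.X ^ 3 + Polynomial.C E₁.a₂ * Polynomial.X ^ 2 +
      Polynomial.C E₁.a₄ * Polynomial.X + Polynomial.C E₁.a₆)
  have h2 : (2 : k) ≠ 0 := fun h => hp2 ((Nat.prime_dvd_prime_iff_eq hp Nat.prime_two).1
    ((CharP.cast_eq_zero_iff k p 2).1 (by exact_mod_cast h)))
  have hD : D ≠ 0 := by
    intro h
    have hc := congrArg (fun q : Polynomial k => q.coeff 3) h
    simp only [D, Polynomial.coeff_add, Polynomial.coeff_C_mul, Polynomial.coeff_X_pow,
      Polynomial.coeff_X, Polynomial.coeff_C, Polynomial.coeff_zero, sq, add_mul, mul_add,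
      mul_assoc, Polynomial.X_mul_C, ← Polynomial.C_mul] at hc
    simp [Polynomial.coeff_C_mul, Polynomial.coeff_X_mul, Polynomial.coeff_C, Polynomial.coeff_X]
      at hc
    exact h2 (mul_self_eq_zero.1 (by linear_combination hc))
  let xk : E₁.toAffine.Point → k := fun Q => match Q with
    | .zero => 0
    | .some x _ _ => x
  obtain ⟨a, ha⟩ := ((hB.image xk).union
    (Polynomial.finite_setOfPred_isRoot hD)).exists_notMem
  rw [Set.mem_union, not_or] at ha
  obtain ⟨x₀, hx₀, hx₀fix⟩ := FlatModel.JacBase.exists_lift_fixed (ℓ := p) hA a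
  obtain ⟨s, hs⟩ := IsAlgClosed.exists_pow_nat_eq ((E.a₁ * (x₀ : ℚbar) + E.a₃) ^ 2 +
    4 * ((x₀ : ℚbar) ^ 3 + E.a₂ * (x₀ : ℚbar) ^ 2 + E.a₄ * x₀ + E.a₆)) (n := 2) two_pos
  set y₀ : ℚbar := (s - (E.a₁ * (x₀ : ℚbar) + E.a₃)) / 2 with hy₀
  have heq : E.toAffine.Equation x₀ y₀ := by
    rw [Affine.equation_iff]
    have : (2 : ℚbar) ≠ 0 := two_ne_zero
    rw [hy₀]
    field_simp
    linear_combination hs
  have hΔ : W.Δ ≠ 0 := fun h => hg (h ▸ dvd_zero _)
  have hEΔ : E.Δ ≠ 0 := by
    haveI := CondLevel.isElliptic_baseChange hΔ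
    exact E.isUnit_Δ.ne_zero
  have hns : E.toAffine.Nonsingular x₀ y₀ :=
    (Affine.equation_iff_nonsingular_of_Δ_ne_zero hEΔ).1 heq
  let R : QbarPoint W := Affine.Point.some (x₀ : ℚbar) y₀ hns
  have hy : y₀ ∈ A := ECRed.Y_mem hE heq x₀.2
  have hn'' : E₁.toAffine.Nonsingular (red A (x₀ : ℚbar)) (red A y₀) :=
    ECRed.smoothlyReducing_of_Δ_ne_zero hE (ECRed.Δ_redCurve_ne_zero hp hA hg) R x₀.2
  have eR' : rd A hp hA hg R = Affine.Point.some _ _ hn'' :=
    ECRed.reduce_some_of_mem hns x₀.2 hn''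
  have hne : rd A hp hA hg R ≠ 0 := by
    rw [eR']
    exact Affine.Point.some_ne_zero _
  have hxk : xk (rd A hp hA hg R) = a := by
    rw [eR']
    show red A (x₀ : ℚbar) = a
    rw [ECRed.red_coe, hx₀]
  have hfix : ∀ σ ∈ A.inertiaSubgroupIn ℚ, σ x₀.1 = x₀.1 ∧ σ y₀ = y₀ := by
    intro σ hσ
    refine ⟨hx₀fix σ hσ, ?_⟩
    by_contra hne'
    have hn2 : E.toAffine.Equation x₀ (σ y₀) := by
      have h2 := (σ • R)
      obtain ⟨h3, -⟩ : ∃ h3, σ • R = Affine.Point.some (σ x₀.1) (σ y₀) h3 := ⟨_, rfl⟩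
      have h4 := h3.1
      rwa [hx₀fix σ hσ] at h4
    have hneg := (Affine.Y_eq_of_X_eq hn2 heq rfl).resolve_left hne'
    obtain ⟨hσy, hres⟩ := FlatModel.JacBase.residue_eq_of_mem_inertia hσ ⟨y₀, hy⟩
    have hr : red A y₀ = E₁.toAffine.negY (red A (x₀ : ℚbar)) (red A y₀) := by
      rw [← ECRed.red_negY hE x₀.2 hy, ← hneg, ECRed.red_of_mem hy, ECRed.red_of_mem hσy]
      exact hres.symm
    have hk := (Affine.equation_iff (W := E₁.toAffine) _ _).1 hn''.1
    refine ha.2 ?_
    show D.IsRoot a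
    rw [ECRed.red_coe, hx₀, Affine.negY] at hr
    rw [ECRed.red_coe, hx₀] at hk
    simp only [D, Polynomial.IsRoot, Polynomial.eval_add, Polynomial.eval_mul, Polynomial.eval_pow,
      Polynomial.eval_C, Polynomial.eval_X]
    linear_combination (2 * red A y₀ + E₁.a₁ * a + E₁.a₃) * hr - 4 * hk
  refine ⟨R, hne, fun hmem => ha.1 ⟨_, hmem, hxk⟩, fun σ hσ => ?_,
    MulAction.stabilizer Γℚ (x₀ : ℚbar) ⊓ MulAction.stabilizer Γℚ y₀, ?_, ?_, ?_⟩
  · show Affine.Point.some _ _ _ = Affine.Point.some _ _ _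
    simp only [Affine.Point.some.injEq]
    exact hfix σ hσ
  · rw [Subgroup.coe_inf]
    exact (stabilizer_isOpen_of_isIntegral _).inter (stabilizer_isOpen_of_isIntegral _)
  · exact fun σ hσ => ⟨(hfix σ hσ).1, (hfix σ hσ).2⟩
  · intro σ hσ
    show Affine.Point.some _ _ _ = Affine.Point.some _ _ _
    simp only [Affine.Point.some.injEq]
    exact ⟨hσ.1, hσ.2⟩

include hp2 in
/-- All admissible points give the same algebra. -/
theorem coordFun_mem {R R' : QbarPoint W} (hR : Adm A hp hA hg m R)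
    (hR' : Adm A hp hA hg m R') (b : Bool) : coordFun A m R' b ∈ ordR A m R := by
  obtain ⟨R₀, -, hB, -, -⟩ := exists_fixed_point hp hA hg hp2
    ((Set.finite_range fun P : CondLevel.Tors W m => -rd A hp hA hg (P : QbarPoint W)).union
      (Set.toFinite {rd A hp hA hg R, rd A hp hA hg R'}))
  simp only [Set.mem_union, Set.mem_range, Set.mem_insert_iff, Set.mem_singleton_iff,
    not_or, not_exists] at hB
  obtain ⟨hB1, hB2, hB3⟩ := hB
  have hR₀ : Adm A hp hA hg m R₀ := fun P h => hB1 P (by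
    rw [map_add] at h
    exact neg_eq_of_add_eq_zero_right h)
  have h1 : ∀ b, coordFun A m R₀ b ∈ ordR A m R := fun b => by
    have h := coordFun_mem_of_add hp hA hg hR (T := R₀ - R)
      (by rw [map_sub]; exact sub_ne_zero.2 hB2) (by rwa [add_sub_cancel]) b
    rwa [add_sub_cancel] at h
  have h2 : coordFun A m R' b ∈ ordR A m R₀ := by
    have h := coordFun_mem_of_add hp hA hg hR₀ (T := R' - R₀)
      (by rw [map_sub]; exact sub_ne_zero.2 (Ne.symm hB3)) (by rwa [add_sub_cancel]) b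
    rwa [add_sub_cancel] at h
  exact Algebra.adjoin_le (Set.range_subset_iff.2 h1) h2

end Fermat.Agent.Lifting.CurveFlat

namespace Fermat.Agent.Lifting

open CurveFlat

local notation "ℚbar" => AlgebraicClosure ℚ
local notation "Γℚ" => AlgebraicClosure ℚ ≃ₐ[ℚ] AlgebraicClosure ℚ

/-- The torsion of a curve with good reduction at `p ≠ 2` has finite flat models over `ℤ_(p)`. -/
theorem hasFlatModel_curveTorsion {W : WeierstrassCurve ℤ} {p : ℕ} [Fact p.Prime] (hp2 : p ≠ 2)
    (hg : W.IsGoodPrimeFor p) {m : ℕ} (hm : m ≠ 0) :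
    FlatModel.HasFlatModel p (CondLevel.Tors W m) (fun σ x => σ • x) := by
  have hp : p.Prime := Fact.out
  set A : ValuationSubring ℚbar := padicPlace p with hAdef
  have hA : A.LiesOverPrime p := PoitouTate.liesOverPrime_padicPlace ⟨p, Fact.out⟩
  have hΔ : W.Δ ≠ 0 := fun h => hg (h ▸ dvd_zero _)
  haveI : NeZero m := ⟨hm⟩
  obtain ⟨bs⟩ := CondLevel.exists_torsBasis hΔ hm (W := W)
  haveI : Finite (CondLevel.Tors W m) := Finite.of_equiv _ bs.equivFun.symm.toEquiv
  haveI : IsAlgClosed (IsLocalRing.ResidueField A) := S27.isAlgClosed_residueField A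
  haveI : Infinite (IsLocalRing.ResidueField A) := IsAlgClosed.instInfinite
  obtain ⟨R, -, hB, -, U, hU, hIU, hUR⟩ := exists_fixed_point hp hA hg hp2
    (Set.finite_range fun P : CondLevel.Tors W m => -rd A hp hA hg (P : ECRed.QbarPoint W))
  have hR : Adm A hp hA hg m R := fun P h => hB ⟨P, by
    rw [map_add] at h
    exact neg_eq_of_add_eq_zero_right h⟩
  have htw : ∀ d ∈ A.decompositionSubgroup ℚ, ∀ b,
      FlatModel.JacDescent.toQbar A (coordFun A m (d • R) b) =
        FlatModel.JacDescent.twist d (FlatModel.JacDescent.toQbar A (coordFun A m R b)) := by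
    intro d hd b
    funext P
    simp only [FlatModel.JacDescent.twist_apply, FlatModel.JacDescent.toQbar_apply]
    rw [coe_coordFun hp hA hg (adm_smul hp hA hg hR hd), coe_coordFun hp hA hg hR]
    cases b
    · show yc _ = d (yc _)
      rw [← yc_smul, smul_translate]
    · show xc _ = d (xc _)
      rw [← xc_smul, smul_translate]
  refine FlatModel.JacHopf.hasFlatModel hA hU hIU (coordFun A m R) ?_ ?_ ?_ ?_
  · intro u hu b
    funext P
    simp only [FlatModel.JacDescent.twist_apply, FlatModel.JacDescent.toQbar_apply]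
    rw [coe_coordFun hp hA hg hR, coe_coordFun hp hA hg hR]
    cases b
    · show u (yc _) = yc _
      rw [← yc_smul, smul_translate, hUR u hu]
    · show u (xc _) = xc _
      rw [← xc_smul, smul_translate, hUR u hu]
  · intro x y h
    obtain ⟨x₁, y₁, hn₁, -, e₁, -, -, -⟩ := exists_coords hp hA hg (hR x)
    obtain ⟨x₂, y₂, hn₂, -, e₂, -, -, -⟩ := exists_coords hp hA hg (hR y)
    have hx : x₁ = x₂ := by
      have := congrArg Subtype.val (h true)
      rw [coe_coordFun hp hA hg hR, coe_coordFun hp hA hg hR, cond_true, cond_true, e₁, e₂] at this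
      exact this
    have hy : y₁ = y₂ := by
      have := congrArg Subtype.val (h false)
      rw [coe_coordFun hp hA hg hR, coe_coordFun hp hA hg hR, cond_false, cond_false, e₁, e₂]
        at this
      exact this
    subst hx hy
    exact Subtype.ext (add_right_cancel (e₁.trans e₂.symm))
  · exact fun d hd b => ⟨coordFun A m (d • R) b,
      coordFun_mem hp hA hg hp2 hR (adm_smul hp hA hg hR hd) b, htw d hd b⟩
  · intro s b
    set R'' : ECRed.QbarPoint W := -(s : ECRed.QbarPoint W) - R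
    have hR'' := adm_flip hp hA hg hR s
    have hmem := coordFun_mem hp hA hg hp2 hR hR''
    have hneg : ∀ P : CondLevel.Tors W m,
        ((s - P : CondLevel.Tors W m) : ECRed.QbarPoint W) + R =
          -((P : ECRed.QbarPoint W) + R'') := fun P => by
      rw [AddSubgroupClass.coe_sub]
      simp only [R'']
      abel
    set E := (W.map (Int.castRingHom ℚ))⁄(AlgebraicClosure ℚ) with hEdef
    have hE := ECRed.isReductionOf_rat W A
    have hform : ∀ P : CondLevel.Tors W m,
        (coordFun A m R true (s - P) : ℚbar) = coordFun A m R'' true P ∧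
        (coordFun A m R false (s - P) : ℚbar) = -(coordFun A m R'' false P : ℚbar) -
          E.a₁ * (coordFun A m R'' true P : ℚbar) - E.a₃ := by
      intro P
      obtain ⟨x₁, y₁, hn₁, -, e₁, -, -, -⟩ := exists_coords hp hA hg (hR'' P)
      rw [coe_coordFun hp hA hg hR, coe_coordFun hp hA hg hR, coe_coordFun hp hA hg hR'',
        coe_coordFun hp hA hg hR'', hneg, e₁, WeierstrassCurve.Affine.Point.neg_some]
      exact ⟨rfl, rfl⟩
    cases b
    · have e : (fun P => coordFun A m R false (s - P)) = -coordFun A m R'' false -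
          (fun _ => (⟨E.a₁, hE.mem₁⟩ : A)) * coordFun A m R'' true - fun _ => ⟨E.a₃, hE.mem₃⟩ :=
        funext fun P => Subtype.ext (hform P).2
      rw [e]
      exact Subalgebra.sub_mem _ (Subalgebra.sub_mem _ (Subalgebra.neg_mem _ (hmem false))
        (Subalgebra.mul_mem _ (Subalgebra.algebraMap_mem _ _) (hmem true)))
        (Subalgebra.algebraMap_mem _ _)
    · have e : (fun P => coordFun A m R true (s - P)) = coordFun A m R'' true :=
        funext fun P => Subtype.ext (hform P).1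
      rw [e]
      exact hmem true

end Fermat.Agent.Lifting
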