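import Fermat.Agent.Lifting.BGaugeLemmas
import Fermat.Agent.Lifting.APatchDefs

/-!
# The gauged generation theorem

A representation generated by its traces gives, after adding the gauge variables, a quotient of
the power series ring in the local coordinates and `g` further variables, as soon as the classes
which are trivial at all the places form a small enough space.
-/

set_option autoImplicit false

noncomputable section

namespace Fermat.Agent.Lifting

open IsLocalRing MvPowerSeries Module

variable {O : Type} [CommRing O] [IsLocalRing O]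
variable {T : Type} [CommRing T] [IsLocalRing T] [Algebra O T]
variable {G : Type} [Group G] {K : ℕ}
variable (ρ : G →* Matrix (Fin 2) (Fin 2) T)

/-- The coordinates lie in the maximal ideal. -/
theorem gaugeVars_mem (ψ : T →ₐ[O] ResidueField O)
    (r0 : G →* Matrix (Fin 2) (Fin 2) (ResidueField O)) (hr0 : ∀ γ, (ρ γ).map ψ = r0 γ)
    (P : Fin K → GL (Fin 2) O) (Z : Fin K → Matrix (Fin 2) (Fin 2) O) (φ τ : Fin K → G)
    (hφ : ∀ a, r0 (φ a) = ((P a).val * Z a * ((P a)⁻¹).val).map (residue O))
    (hτ : ∀ a, r0 (τ a) = 1) {ι : Type} (x : ι → GaugeRing T K)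
    (hx : ∀ i, x i ∈ maximalIdeal (GaugeRing T K)) :
    ∀ v, Sum.elim (gaugeCoord ρ P Z φ τ) x v ∈ maximalIdeal (GaugeRing T K) := by
  rintro (⟨a, b, i, j⟩ | v)
  · rw [mem_maximalIdeal_iff_algHom (gaugePoint ψ K)]
    cases b
    · show gaugePoint ψ K ((gauged ρ P a (τ a) - 1) i j) = 0
      have h := congrFun (congrFun (gauged_map_point (P := P) hr0 a (τ a)) i) j
      rw [hτ, mul_one, residue_map_inv_mul] at h
      simp only [Matrix.map_apply] at h
      rw [Matrix.sub_apply, map_sub, h]
      by_cases hij : i = j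
      · subst hij
        simp
      · simp [Matrix.one_apply_ne hij]
    · show gaugePoint ψ K ((gauged ρ P a (φ a) - gaugeConst T K (Z a)) i j) = 0
      have h := congrFun (congrFun (gauged_map_point (P := P) hr0 a (φ a)) i) j
      have h2 := congrFun (congrFun (gaugeConst_map_point (T := T) (K := K) (ψ := ψ) (Z a)) i) j
      rw [hφ, Matrix.map_mul, Matrix.map_mul] at h
      simp only [← mul_assoc, residue_map_inv_mul, one_mul] at h
      rw [mul_assoc, residue_map_inv_mul, mul_one] at h
      simp only [Matrix.map_apply] at h h2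
      rw [Matrix.sub_apply, map_sub, h, h2, sub_self]
  · exact hx v

/-- **Generation.**  `J` indexes further elements `u j`, affine in the traces, which are also
among the variables: they cut down the space of classes. -/
theorem exists_surjective_gauged [IsNoetherianRing T] [IsAdicComplete (maximalIdeal T) T]
    (ψ : T →ₐ[O] ResidueField O)
    (r0 : G →* Matrix (Fin 2) (Fin 2) (ResidueField O)) (hr0 : ∀ γ, (ρ γ).map ψ = r0 γ)
    (h2 : (2 : ResidueField O) ≠ 0)
    (hirr : ∀ M : Matrix (Fin 2) (Fin 2) (ResidueField O), M.trace = 0 →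
      (∀ γ, r0 γ * M = M * r0 γ) → M = 0)
    (hdet : ∀ γ, ∃ t : O, (ρ γ).det = algebraMap O T t)
    (hgen : ∀ x : T, ∃ y ∈ Algebra.adjoin O (Set.range fun γ => (ρ γ).trace),
      x - y ∈ maximalIdeal T ^ 2)
    [IsAdicComplete (maximalIdeal O) O]
    (P : Fin K → GL (Fin 2) O) (Z : Fin K → Matrix (Fin 2) (Fin 2) O) (φ τ : Fin K → G)
    (hφ : ∀ a, r0 (φ a) = ((P a).val * Z a * ((P a)⁻¹).val).map (residue O))
    (hτ : ∀ a, r0 (τ a) = 1)
    {J : Type} [Finite J] (u : J → T) (hu : ∀ j, u j ∈ maximalIdeal T) (s : J → G →₀ O)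
    (hus : ∀ j, ∃ e : O, u j = algebraMap O T e + traceSum ρ (s j))
    (Cond : Submodule (ResidueField O) (G → Matrix (Fin 2) (Fin 2) (ResidueField O)))
    (hCond : ∀ f, IsTangent ψ f → tangentCocycle ρ r0 f ∈ Cond) (g : ℕ)
    (hbound : ∀ W : Submodule (ResidueField O) (G → Matrix (Fin 2) (Fin 2) (ResidueField O)),
      FiniteDimensional (ResidueField O) W →
      W ≤ (TW.adCocycles r0 ⊓ Cond) ⊔ TW.adCoboundaries r0 →
      (∀ a, ∀ c ∈ W, ∃ η : Matrix (Fin 2) (Fin 2) (ResidueField O), η.trace = 0 ∧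
        c (φ a) = TW.adD r0 η (φ a) ∧ c (τ a) = TW.adD r0 η (τ a)) →
      (∀ j, ∀ c ∈ W, cocycleSum r0 (s j) c = 0) →
      finrank (ResidueField O) W +
        ∑ a, finrank (ResidueField O) (centralTrZero (r0 (φ a))) ≤ g + 3) :
    ∃ (x : Fin g → GaugeRing T K)
      (hv : ∀ v, Sum.elim (gaugeCoord ρ P Z φ τ) (Sum.elim x fun j => C (u j)) v ∈
        maximalIdeal (GaugeRing T K)),
      Function.Surjective
        (Deform.pev (maximalIdeal (GaugeRing T K))
          (Sum.elim (gaugeCoord ρ P Z φ τ) (Sum.elim x fun j => C (u j))) hv :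
          MvPowerSeries ((Fin K × Bool × Fin 2 × Fin 2) ⊕ (Fin g ⊕ J)) O →ₐ[O]
            GaugeRing T K) := by
  classical
  have := Fintype.ofFinite J
  let base : (Fin K × Bool × Fin 2 × Fin 2) ⊕ J → GaugeRing T K :=
    Sum.elim (gaugeCoord ρ P Z φ τ) fun j => C (u j)
  set ann := tangentAnn (gaugePoint ψ K) base with hann
  haveI := finiteDimensional_tangentSpace (χ := gaugePoint ψ K)
  haveI : FiniteDimensional (ResidueField O) ann :=
    Submodule.finiteDimensional_of_le (S₂ := tangentSpace (gaugePoint ψ K)) fun f hf => hf.1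
  have hgauged : ∀ f ∈ ann, ∀ a, (gauged ρ P a (φ a)).map f = 0 ∧
      (gauged ρ P a (τ a)).map f = 0 := by
    intro f hf a
    refine ⟨?_, ?_⟩ <;> ext i j <;> simp only [Matrix.map_apply, Matrix.zero_apply]
    · have h := hf.2 (Sum.inl (a, true, i, j))
      change f ((gauged ρ P a (φ a) - gaugeConst T K (Z a)) i j) = 0 at h
      rwa [gaugeConst_eq, Matrix.sub_apply, Matrix.map_apply, map_sub, hf.1.map_algebraMap,
        sub_zero] at h
    · have h := hf.2 (Sum.inl (a, false, i, j))
      change f ((gauged ρ P a (τ a) - 1) i j) = 0 at h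
      rw [Matrix.sub_apply, map_sub, sub_eq_zero] at h
      rw [h]
      by_cases hij : i = j
      · subst hij
        rw [Matrix.one_apply_eq, hf.1.map_one]
      · rw [Matrix.one_apply_ne hij, map_zero]
  let Φ : ann →ₗ[ResidueField O]
      (G → Matrix (Fin 2) (Fin 2) (ResidueField O)) ×
        (Fin K → Matrix (Fin 2) (Fin 2) (ResidueField O)) :=
    { toFun := fun f => (tangentCocycle ρ r0 (f.1.comp (gaugeC O T K).toLinearMap),
        fun a => gaugeEta P a f.1)
      map_add' := fun f f' => by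
        refine Prod.ext (funext fun γ => ?_) (funext fun a => ?_)
        · show _ = tangentCocycle ρ r0 _ γ + tangentCocycle ρ r0 _ γ
          simp only [tangentCocycle, ← add_mul]
          congr 1
        · exact map_add (gaugeEta P a) f.1 f'.1
      map_smul' := fun c f => by
        refine Prod.ext (funext fun γ => ?_) (funext fun a => ?_)
        · show _ = c • tangentCocycle ρ r0 _ γ
          simp only [tangentCocycle, ← smul_mul_assoc]
          congr 1
        · exact map_smul (gaugeEta P a) c f.1 }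
  have hker : ∀ f : ann, (Φ f).1 = 0 → ∀ t : T, f.1 (C t) = 0 := by
    intro f hf t
    have h0 : f.1.comp (gaugeC O T K).toLinearMap = 0 := by
      refine eq_zero_of_trace hgen f.2.1.comp_gaugeC fun γ => ?_
      rw [← trace_map_linear, ← tangentCocycle_mul_self (r0 := r0), show
        tangentCocycle ρ r0 _ = 0 from hf]
      simp
    exact DFunLike.congr_fun h0 t
  have hΦ : Function.Injective Φ := by
    intro f f' h
    apply Subtype.ext
    rw [← sub_eq_zero]
    have hd : f.1 - f'.1 ∈ ann := ann.sub_mem f.2 f'.2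
    have hadd : Φ ⟨_, hd⟩ + Φ f' = Φ f := by
      rw [← map_add]
      exact congrArg Φ (Subtype.ext (sub_add_cancel f.1 f'.1))
    rw [h] at hadd
    have hz : Φ ⟨_, hd⟩ = 0 := add_eq_right.mp hadd
    exact hd.1.eq_zero_of_gauge (hker ⟨_, hd⟩ (congrArg Prod.fst hz))
      fun v => eq_zero_of_gaugeEta (congrFun (congrArg Prod.snd hz) v.1) v.2
  set U := LinearMap.range Φ with hU
  have hUann : finrank (ResidueField O) U = finrank (ResidueField O) ann :=
    LinearMap.finrank_range_of_inj hΦ
  let π := (LinearMap.fst (ResidueField O) (G → Matrix (Fin 2) (Fin 2) (ResidueField O))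
    (Fin K → Matrix (Fin 2) (Fin 2) (ResidueField O))).domRestrict U
  have hrn := LinearMap.finrank_range_add_finrank_ker π
  -- the kernel consists of gauge directions commuting with Frobenius
  let sndK : LinearMap.ker π →ₗ[ResidueField O]
      ((a : Fin K) → centralTrZero (r0 (φ a))) :=
    LinearMap.pi fun a => LinearMap.codRestrict _
      ((LinearMap.proj a).comp ((LinearMap.snd _ _ _).comp
        (U.subtype.comp (LinearMap.ker π).subtype))) (by
      rintro ⟨⟨_, f, rfl⟩, hf⟩
      have hf0 : tangentCocycle ρ r0 (f.1.comp (gaugeC O T K).toLinearMap) = 0 := hf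
      show gaugeEta P a f.1 ∈ centralTrZero (r0 (φ a))
      refine (mem_centralTrZero_iff _ _).mpr ⟨trace_gaugeEta a _, ?_⟩
      have h := tangentCocycle_eq_adD hr0 f.2.1 a (φ a) (hgauged _ f.2 a).1
      rw [hf0] at h
      have h1 : r0 (φ a)⁻¹ * r0 (φ a) = 1 := by rw [← map_mul, inv_mul_cancel, map_one]
      have h2' : r0 (φ a) * gaugeEta P a f.1 * r0 (φ a)⁻¹ = gaugeEta P a f.1 :=
        sub_eq_zero.mp h.symm
      calc r0 (φ a) * gaugeEta P a f.1
          = r0 (φ a) * gaugeEta P a f.1 * r0 (φ a)⁻¹ * r0 (φ a) := by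
            rw [mul_assoc _ (r0 (φ a)⁻¹), h1, mul_one]
        _ = gaugeEta P a f.1 * r0 (φ a) := by rw [h2'])
  have hsndK : Function.Injective sndK := by
    refine (injective_iff_map_eq_zero _).mpr fun x hx => Subtype.ext (Subtype.ext (Prod.ext ?_ ?_))
    · exact x.2
    · exact funext fun a => congrArg Subtype.val (congrFun hx a)
  have hkerle : finrank (ResidueField O) (LinearMap.ker π) ≤
      ∑ a, finrank (ResidueField O) (centralTrZero (r0 (φ a))) :=
    (LinearMap.finrank_le_finrank_of_injective hsndK).trans_eq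
      (Module.finrank_pi_fintype (ResidueField O))
  -- the image and the coboundaries
  set Cimg := LinearMap.range π with hCimg
  have hmemC : ∀ c ∈ Cimg, ∃ f : ann,
      c = tangentCocycle ρ r0 (f.1.comp (gaugeC O T K).toLinearMap) := by
    rintro _ ⟨⟨_, f, rfl⟩, rfl⟩
    exact ⟨f, rfl⟩
  haveI : FiniteDimensional (ResidueField O) (TW.adCoboundaries r0) := by
    unfold TW.adCoboundaries
    infer_instance
  have hdisj : Cimg ⊓ TW.adCoboundaries r0 = ⊥ := by
    refine (Submodule.eq_bot_iff _).mpr fun c hc => ?_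
    obtain ⟨f, rfl⟩ := hmemC c hc.1
    obtain ⟨M, -, hM⟩ := hc.2
    have h0 : f.1.comp (gaugeC O T K).toLinearMap = 0 :=
      eq_zero_of_trace hgen f.2.1.comp_gaugeC fun γ => by
        rw [← trace_map_linear, ← tangentCocycle_mul_self (r0 := r0), ← hM]
        exact trace_adD_mul r0 M γ
    rw [h0]
    funext γ
    have h1 : (ρ γ).map (0 : T →ₗ[O] ResidueField O) = 0 := Matrix.ext fun i j => rfl
    rw [tangentCocycle, h1, zero_mul, Pi.zero_apply]
  have hsup := Submodule.finrank_sup_add_finrank_inf_eq Cimg (TW.adCoboundaries r0)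
  rw [hdisj, finrank_bot, add_zero, finrank_adCoboundaries_of_irred r0 hirr] at hsup
  have hW := hbound (Cimg ⊔ TW.adCoboundaries r0) inferInstance
    (sup_le_sup_right (fun c hc => by
      obtain ⟨f, rfl⟩ := hmemC c hc
      exact ⟨tangentCocycle_mem hr0 hdet f.2.1.comp_gaugeC,
        hCond _ f.2.1.comp_gaugeC⟩) _)
    (fun a c hc => by
      obtain ⟨c₁, hc₁, c₂, hc₂, rfl⟩ := Submodule.mem_sup.mp hc
      obtain ⟨f, rfl⟩ := hmemC c₁ hc₁
      obtain ⟨M, hM, rfl⟩ := hc₂
      refine ⟨gaugeEta P a f.1 + M, ?_, ?_, ?_⟩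
      · rw [Matrix.trace_add, trace_gaugeEta, zero_add]
        exact hM
      · rw [Pi.add_apply, map_add (TW.adD r0), Pi.add_apply,
          tangentCocycle_eq_adD hr0 f.2.1 a (φ a) (hgauged _ f.2 a).1]
      · rw [Pi.add_apply, map_add (TW.adD r0), Pi.add_apply,
          tangentCocycle_eq_adD hr0 f.2.1 a (τ a) (hgauged _ f.2 a).2])
    (fun j c hc => by
      obtain ⟨c₁, hc₁, c₂, hc₂, rfl⟩ := Submodule.mem_sup.mp hc
      obtain ⟨f, rfl⟩ := hmemC c₁ hc₁
      obtain ⟨M, hM, rfl⟩ := hc₂
      obtain ⟨e, he⟩ := hus j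
      have h0 : f.1 (gaugeC O T K (u j)) = 0 := f.2.2 (Sum.inr j)
      have hadd : cocycleSum r0 (s j)
          (tangentCocycle ρ r0 (f.1.comp (gaugeC O T K).toLinearMap) + TW.adD r0 M) =
          f.1.comp (gaugeC O T K).toLinearMap (traceSum ρ (s j)) := by
        simp only [cocycleSum, traceSum, map_finsuppSum]
        refine Finsupp.sum_congr fun γ _ => ?_
        rw [Pi.add_apply, add_mul, Matrix.trace_add, trace_adD_mul, add_zero,
          tangentCocycle_mul_self, trace_map_linear, ← Algebra.smul_def, map_smul,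
          Algebra.smul_def, ResidueField.algebraMap_eq]
      rw [hadd]
      have h1 : f.1.comp (gaugeC O T K).toLinearMap (u j) = 0 := h0
      rwa [he, map_add, f.2.1.comp_gaugeC.map_algebraMap, zero_add] at h1)
  have hg : finrank (ResidueField O) ann ≤ g := by omega
  obtain ⟨x, hx, hsep⟩ := exists_separating_elements base g hg
  have hvars : ∀ i : Fin g ⊕ J, Sum.elim x (fun j => C (u j)) i ∈
      maximalIdeal (GaugeRing T K) := by
    rintro (i | j)
    · exact hx i
    · exact Ribet.C_mem_maximalIdeal (hu j)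
  refine ⟨x, gaugeVars_mem ρ ψ r0 hr0 P Z φ τ hφ hτ _ hvars, ?_⟩
  refine surjective_pev_of_tangent (gaugePoint ψ K) _ _ fun f hf h => hsep f hf ?_ fun i => ?_
  · rintro (v | j)
    · exact h (Sum.inl v)
    · exact h (Sum.inr (Sum.inr j))
  · exact h (Sum.inr (Sum.inl i))

/-- Generation without further elements. -/
theorem exists_surjective_gauged' [IsNoetherianRing T] [IsAdicComplete (maximalIdeal T) T]
    (ψ : T →ₐ[O] ResidueField O)
    (r0 : G →* Matrix (Fin 2) (Fin 2) (ResidueField O)) (hr0 : ∀ γ, (ρ γ).map ψ = r0 γ)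
    (h2 : (2 : ResidueField O) ≠ 0)
    (hirr : ∀ M : Matrix (Fin 2) (Fin 2) (ResidueField O), M.trace = 0 →
      (∀ γ, r0 γ * M = M * r0 γ) → M = 0)
    (hdet : ∀ γ, ∃ t : O, (ρ γ).det = algebraMap O T t)
    (hgen : ∀ x : T, ∃ y ∈ Algebra.adjoin O (Set.range fun γ => (ρ γ).trace),
      x - y ∈ maximalIdeal T ^ 2)
    [IsAdicComplete (maximalIdeal O) O]
    (P : Fin K → GL (Fin 2) O) (Z : Fin K → Matrix (Fin 2) (Fin 2) O) (φ τ : Fin K → G)
    (hφ : ∀ a, r0 (φ a) = ((P a).val * Z a * ((P a)⁻¹).val).map (residue O))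
    (hτ : ∀ a, r0 (τ a) = 1)
    (Cond : Submodule (ResidueField O) (G → Matrix (Fin 2) (Fin 2) (ResidueField O)))
    (hCond : ∀ f, IsTangent ψ f → tangentCocycle ρ r0 f ∈ Cond) (g : ℕ)
    (hbound : ∀ W : Submodule (ResidueField O) (G → Matrix (Fin 2) (Fin 2) (ResidueField O)),
      FiniteDimensional (ResidueField O) W →
      W ≤ (TW.adCocycles r0 ⊓ Cond) ⊔ TW.adCoboundaries r0 →
      (∀ a, ∀ c ∈ W, ∃ η : Matrix (Fin 2) (Fin 2) (ResidueField O), η.trace = 0 ∧
        c (φ a) = TW.adD r0 η (φ a) ∧ c (τ a) = TW.adD r0 η (τ a)) →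
      finrank (ResidueField O) W +
        ∑ a, finrank (ResidueField O) (centralTrZero (r0 (φ a))) ≤ g + 3) :
    ∃ (x : Fin g → GaugeRing T K)
      (hv : ∀ v, Sum.elim (gaugeCoord ρ P Z φ τ) x v ∈ maximalIdeal (GaugeRing T K)),
      Function.Surjective
        (Deform.pev (maximalIdeal (GaugeRing T K)) (Sum.elim (gaugeCoord ρ P Z φ τ) x) hv :
          MvPowerSeries ((Fin K × Bool × Fin 2 × Fin 2) ⊕ Fin g) O →ₐ[O] GaugeRing T K) := by
  obtain ⟨x, hv, hsurj⟩ := exists_surjective_gauged ρ ψ r0 hr0 h2 hirr hdet hgen P Z φ τ hφ hτ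
    (J := Empty) Empty.elim (fun j => j.elim) Empty.elim (fun j => j.elim) Cond hCond g
    (fun W hW hle hloc _ => hbound W hW hle hloc)
  have hv' : ∀ v, Sum.elim (gaugeCoord ρ P Z φ τ) x v ∈ maximalIdeal (GaugeRing T K) := by
    rintro (v | i)
    · exact hv (Sum.inl v)
    · exact hv (Sum.inr (Sum.inl i))
  refine ⟨x, hv', surjective_pev_of_tangent (gaugePoint ψ K) _ hv' fun f hf h => ?_⟩
  refine tangent_eq_zero_of_surjective_pev (gaugePoint ψ K) hsurj hf fun i => ?_
  rcases i with v | i | j
  · exact h (Sum.inl v)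
  · exact h (Sum.inr i)
  · exact j.elim

/-- Invariants of the centre of Frobenius, when it is scalar. -/
theorem finrank_centralTrZero_centre_of_scalar {σ : Shape} (Q : Places O σ) (a : Fin σ.k)
    (h2 : (2 : ResidueField O) ≠ 0) (hb : Q.beta a = 0) (hq : residue O (Q.q a : O) = 1) :
    finrank (ResidueField O) (centralTrZero ((Q.centre a).map (residue O))) = 3 := by
  have hM : (Q.centre a).map (residue O) =
      residue O (Q.eps a) • (1 : Matrix (Fin 2) (Fin 2) (ResidueField O)) := by
    ext i j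
    fin_cases i <;> fin_cases j <;> simp [Places.centre, hb, hq]
  have htop : centralTrZero ((Q.centre a).map (residue O)) = TW.trZero (ResidueField O) := by
    ext X
    rw [mem_centralTrZero_iff, hM, LinearMap.mem_ker, Matrix.traceLinearMap_apply]
    simp
  rw [htop, finrank_trZero]

/-- Invariants of the centre of Frobenius, when it is not scalar. -/
theorem finrank_centralTrZero_centre {σ : Shape} (Q : Places O σ) (a : Fin σ.k)
    (h2 : (2 : ResidueField O) ≠ 0) (h : Q.beta a ≠ 0 ∨ residue O (Q.q a : O) ≠ 1) :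
    finrank (ResidueField O) (centralTrZero ((Q.centre a).map (residue O))) = 1 := by
  obtain ⟨ε, hεdef⟩ : ∃ ε, ε = residue O (Q.eps a) := ⟨_, rfl⟩
  obtain ⟨q, hqdef⟩ : ∃ q, q = residue O (Q.q a : O) := ⟨_, rfl⟩
  obtain ⟨β, hβdef⟩ : ∃ β, β = residue O (Q.beta a) := ⟨_, rfl⟩
  have hε : ε ≠ 0 := fun h0 => by
    have h1 := congrArg (residue O) (Q.eps_sq a)
    rw [map_pow, ← hεdef, h0, map_one, zero_pow two_ne_zero] at h1
    exact zero_ne_one h1
  have hβq : β ≠ 0 ∨ q ≠ 1 := by
    rcases h with h | h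
    · refine Or.inl ?_
      rcases Q.beta_spec a with ⟨hb, _⟩ | hb
      · rw [hβdef, hb, map_one]
        exact one_ne_zero
      · exact absurd hb h
    · exact Or.inr (hqdef ▸ h)
  have hM : (Q.centre a).map (residue O) = !![ε * q, β; 0, ε] := by
    ext i j
    fin_cases i <;> fin_cases j <;> simp [Places.centre, hεdef, hqdef, hβdef]
  set v : Matrix (Fin 2) (Fin 2) (ResidueField O) :=
    !![ε * (q - 1), 2 * β; 0, -(ε * (q - 1))] with hv
  have hspan : centralTrZero ((Q.centre a).map (residue O)) =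
      Submodule.span (ResidueField O) {v} := by
    rw [hM]
    refine le_antisymm (fun X hX => ?_) (Submodule.span_le.mpr ?_)
    · obtain ⟨ht, hc⟩ := (mem_centralTrZero_iff _ _).mp hX
      have e00 := congrFun (congrFun hc 0) 0
      have e01 := congrFun (congrFun hc 0) 1
      have e10 := congrFun (congrFun hc 1) 0
      simp [Matrix.mul_apply, Fin.sum_univ_two] at e00 e01 e10
      rw [Matrix.trace_fin_two] at ht
      have h11 : X 1 1 = -X 0 0 := by linear_combination ht
      have hc0 : X 1 0 = 0 := by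
        rcases hβq with hb | hq1
        · exact (mul_eq_zero.mp (by linear_combination e00)).resolve_left hb
        · have h3 : ε * (1 - q) * X 1 0 = 0 := by linear_combination e10
          exact (mul_eq_zero.mp h3).resolve_left
            (mul_ne_zero hε (sub_ne_zero.mpr (Ne.symm hq1)))
      have hrel : ε * X 0 1 * (q - 1) = 2 * X 0 0 * β := by
        rw [h11] at e01
        linear_combination e01
      rw [Submodule.mem_span_singleton]
      by_cases hb : β = 0
      · have hq1 := hβq.resolve_left (not_not.mpr hb)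
        have hb0 : X 0 1 = 0 := by
          have h4 : ε * (q - 1) * X 0 1 = 0 := by rw [hb] at hrel; linear_combination hrel
          exact (mul_eq_zero.mp h4).resolve_left (mul_ne_zero hε (sub_ne_zero.mpr hq1))
        refine ⟨X 0 0 / (ε * (q - 1)), ?_⟩
        have hne : ε * (q - 1) ≠ 0 := mul_ne_zero hε (sub_ne_zero.mpr hq1)
        ext i j
        fin_cases i <;> fin_cases j <;>
          simp [hv, hb, hb0, hc0, h11, div_mul_cancel₀ _ hne]
      · refine ⟨X 0 1 / (2 * β), ?_⟩
        have hne : 2 * β ≠ 0 := mul_ne_zero h2 hb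
        have h00 : X 0 1 / (2 * β) * (ε * (q - 1)) = X 0 0 := by
          rw [div_mul_eq_mul_div, div_eq_iff hne]
          linear_combination hrel
        ext i j
        fin_cases i <;> fin_cases j <;>
          simp [hv, hc0, h11, h00, div_mul_cancel₀ _ hne]
    · rintro _ rfl
      refine (mem_centralTrZero_iff _ _).mpr ⟨by simp [hv, Matrix.trace_fin_two], ?_⟩
      ext i j
      fin_cases i <;> fin_cases j <;>
        simp [hv, Matrix.mul_apply, Fin.sum_univ_two] <;> ring
  rw [hspan]
  refine finrank_span_singleton fun h0 => ?_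
  rcases hβq with hb | hq1
  · have h1 := congrFun (congrFun h0 0) 1
    simp [hv] at h1
    rcases h1 with h1 | h1
    · exact h2 h1
    · exact hb h1
  · have h1 := congrFun (congrFun h0 0) 0
    simp [hv, hε, sub_eq_zero] at h1
    exact hq1 h1

/-- Invariants do not depend on the frame. -/
theorem finrank_centralTrZero_conj {k : Type} [Field k] (P : GL (Fin 2) k)
    (M : Matrix (Fin 2) (Fin 2) k) :
    finrank k (centralTrZero (P.val * M * (P⁻¹).val)) = finrank k (centralTrZero M) := by
  let e : Matrix (Fin 2) (Fin 2) k →ₗ[k] Matrix (Fin 2) (Fin 2) k :=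
    (LinearMap.mulRight k (P⁻¹).val).comp (LinearMap.mulLeft k P.val)
  let e' : Matrix (Fin 2) (Fin 2) k →ₗ[k] Matrix (Fin 2) (Fin 2) k :=
    (LinearMap.mulRight k P.val).comp (LinearMap.mulLeft k (P⁻¹).val)
  have he : ∀ X, e X = P.val * X * (P⁻¹).val := fun X => rfl
  have he' : ∀ X, e' X = (P⁻¹).val * X * P.val := fun X => rfl
  have hee : ∀ X, e (e' X) = X ∧ e' (e X) = X := fun X => by
    rw [he, he', he', he]
    simp only [← mul_assoc, Units.mul_inv, Units.inv_mul, one_mul]
    simp only [mul_assoc, Units.mul_inv, Units.inv_mul, mul_one, and_self]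
  let E : Matrix (Fin 2) (Fin 2) k ≃ₗ[k] Matrix (Fin 2) (Fin 2) k :=
    LinearEquiv.ofLinear e e' (LinearMap.ext fun X => (hee X).1) (LinearMap.ext fun X => (hee X).2)
  have hmap : centralTrZero (P.val * M * (P⁻¹).val) =
      (centralTrZero M).map (E : Matrix (Fin 2) (Fin 2) k →ₗ[k] Matrix (Fin 2) (Fin 2) k) := by
    ext X
    constructor
    · intro hX
      obtain ⟨ht, hc⟩ := (mem_centralTrZero_iff _ _).mp hX
      refine ⟨e' X, (mem_centralTrZero_iff _ _).mpr ⟨?_, ?_⟩, (hee X).1⟩
      · rw [he', Matrix.trace_mul_comm, ← mul_assoc, Units.mul_inv, one_mul, ht]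
      · have h := congrArg (fun Y => (P⁻¹).val * Y * P.val) hc
        simp only [← mul_assoc, Units.inv_mul, one_mul] at h
        simp only [mul_assoc, Units.inv_mul, mul_one] at h
        simp only [he', mul_assoc] at h ⊢
        exact h
    · rintro ⟨Y, hY, rfl⟩
      obtain ⟨ht, hc⟩ := (mem_centralTrZero_iff _ _).mp hY
      refine (mem_centralTrZero_iff _ _).mpr ⟨?_, ?_⟩
      · show (e Y).trace = 0
        rw [he, Matrix.trace_mul_comm, ← mul_assoc, Units.inv_mul, one_mul, ht]
      · show P.val * M * (P⁻¹).val * e Y = e Y * (P.val * M * (P⁻¹).val)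
        have hl : P.val * M * (P⁻¹).val * e Y = P.val * (M * Y) * (P⁻¹).val := by
          rw [he]
          simp only [mul_assoc]
          rw [← mul_assoc (P⁻¹).val, Units.inv_mul, one_mul]
        have hr : e Y * (P.val * M * (P⁻¹).val) = P.val * (Y * M) * (P⁻¹).val := by
          rw [he]
          simp only [mul_assoc]
          rw [← mul_assoc (P⁻¹).val, Units.inv_mul, one_mul]
        rw [hl, hr, hc]
  rw [hmap, LinearEquiv.finrank_map_eq]

end Fermat.Agent.Lifting
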