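import Fermat.Agent.Ribet.ThirdComplete
import Fermat.Agent.TW.LocalDefs
import Mathlib.RingTheory.MvPowerSeries.Equiv
import Mathlib.LinearAlgebra.Matrix.NonsingularInverse

/-!
# Gauged local coordinates of a representation over a complete local ring

`GaugeRing T K = T[[Y]]` has three gauge variables at each of `K` places.  At the place `a` the
representation is moved to the frame `P a`, then conjugated by `1 + [[y₀, y₁], [y₂, -y₀]]`; the
local coordinates are the entries of the images of `φ a` minus a centre, and of `τ a` minus one.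
-/

set_option autoImplicit false

noncomputable section

namespace Fermat.Agent.Lifting

open IsLocalRing MvPowerSeries

section

variable {R : Type} [CommRing R]

/-- The trace zero matrix with coordinates `y`. -/
def gaugeTr (y : Fin 3 → R) : Matrix (Fin 2) (Fin 2) R := !![y 0, y 1; y 2, -y 0]

/-- The gauge matrix. -/
def gaugeMat (y : Fin 3 → R) : Matrix (Fin 2) (Fin 2) R := 1 + gaugeTr y

end

/-- The ring of `T` with the gauge variables. -/
abbrev GaugeRing (T : Type) [CommRing T] (K : ℕ) : Type := MvPowerSeries (Fin K × Fin 3) T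

variable {O : Type} [CommRing O] [IsLocalRing O]
variable {T : Type} [CommRing T] [Algebra O T]
variable {G : Type} [Group G] {K : ℕ}

/-- A constant matrix in the gauge ring. -/
def gaugeConst (T : Type) [CommRing T] [Algebra O T] (K : ℕ) (M : Matrix (Fin 2) (Fin 2) O) :
    Matrix (Fin 2) (Fin 2) (GaugeRing T K) :=
  (M.map (algebraMap O T)).map (C : T →+* GaugeRing T K)

/-- The representation at the place `a`, in the moved and gauged frame. -/
def gauged (ρ : G →* Matrix (Fin 2) (Fin 2) T) (P : Fin K → GL (Fin 2) O) (a : Fin K) (γ : G) :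
    Matrix (Fin 2) (Fin 2) (GaugeRing T K) :=
  gaugeMat (fun i => X (a, i)) *
    (gaugeConst T K ((P a)⁻¹ : GL (Fin 2) O).val * (ρ γ).map (C : T →+* GaugeRing T K) *
      gaugeConst T K (P a).val) * (gaugeMat fun i => X (a, i))⁻¹

/-- The local coordinates: `true` for Frobenius, `false` for inertia. -/
def gaugeCoord (ρ : G →* Matrix (Fin 2) (Fin 2) T) (P : Fin K → GL (Fin 2) O)
    (Z : Fin K → Matrix (Fin 2) (Fin 2) O) (φ τ : Fin K → G)
    (v : Fin K × Bool × Fin 2 × Fin 2) : GaugeRing T K :=
  match v.2.1 with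
  | true => (gauged ρ P v.1 (φ v.1) - gaugeConst T K (Z v.1)) v.2.2.1 v.2.2.2
  | false => (gauged ρ P v.1 (τ v.1) - 1) v.2.2.1 v.2.2.2

/-- `∑ o_γ tr ρ(γ)`. -/
def traceSum (ρ : G →* Matrix (Fin 2) (Fin 2) T) (s : G →₀ O) : T :=
  s.sum fun γ o => algebraMap O T o * (ρ γ).trace

/-- The same linear form on adjoint cocycles. -/
def cocycleSum (r0 : G →* Matrix (Fin 2) (Fin 2) (ResidueField O)) (s : G →₀ O)
    (c : G → Matrix (Fin 2) (Fin 2) (ResidueField O)) : ResidueField O :=
  s.sum fun γ o => residue O o * (c γ * r0 γ).trace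

/-- A tangent vector at the point `ψ`. -/
structure IsTangent (ψ : T →ₐ[O] ResidueField O) (f : T →ₗ[O] ResidueField O) : Prop where
  map_algebraMap : ∀ t : O, f (algebraMap O T t) = 0
  map_mul : ∀ a b : T, f (a * b) = ψ a * f b + ψ b * f a

/-- The adjoint cocycle of a tangent vector. -/
def tangentCocycle (ρ : G →* Matrix (Fin 2) (Fin 2) T)
    (r0 : G →* Matrix (Fin 2) (Fin 2) (ResidueField O)) (f : T →ₗ[O] ResidueField O) :
    G → Matrix (Fin 2) (Fin 2) (ResidueField O) :=
  fun γ => (ρ γ).map f * r0 γ⁻¹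

/-- Trace zero matrices commuting with `M`. -/
def centralTrZero {k : Type} [Field k] (M : Matrix (Fin 2) (Fin 2) k) :
    Submodule k (Matrix (Fin 2) (Fin 2) k) :=
  TW.trZero k ⊓ LinearMap.ker (LinearMap.mulLeft k M - LinearMap.mulRight k M)

end Fermat.Agent.Lifting
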