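import Fermat.Agent.Lifting.BCotangent

/-!
# First order computations in the gauge ring
-/

set_option autoImplicit false

noncomputable section

namespace Fermat.Agent.Lifting

open IsLocalRing MvPowerSeries Module

section matrices

variable {k : Type} [Field k]

theorem finrank_trZero : finrank k (TW.trZero k) = 3 := by
  have hs : Function.Surjective (Matrix.traceLinearMap (Fin 2) k k) := fun t =>
    ⟨!![t, 0; 0, 0], by simp [Matrix.trace_fin_two]⟩
  have h := LinearMap.finrank_range_add_finrank_ker (Matrix.traceLinearMap (Fin 2) k k)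
  rw [LinearMap.range_eq_top.mpr hs, finrank_top, finrank_self, Module.finrank_matrix,
    Fintype.card_fin, finrank_self] at h
  change finrank k (LinearMap.ker (Matrix.traceLinearMap (Fin 2) k k)) = 3
  omega

theorem mem_centralTrZero_iff (M X : Matrix (Fin 2) (Fin 2) k) :
    X ∈ centralTrZero M ↔ X.trace = 0 ∧ M * X = X * M := by
  simp [centralTrZero, sub_eq_zero]

theorem finrank_adCoboundaries_of_irred {G : Type} [Group G]
    (r : G →* Matrix (Fin 2) (Fin 2) k)
    (hirr : ∀ M : Matrix (Fin 2) (Fin 2) k, M.trace = 0 → (∀ g, r g * M = M * r g) → M = 0) :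
    finrank k (TW.adCoboundaries r) = 3 := by
  have hinj : Function.Injective ((TW.adD r).domRestrict (TW.trZero k)) := by
    refine (injective_iff_map_eq_zero _).mpr fun M hM => Subtype.ext (hirr M.1 M.2 fun g => ?_)
    have h : r g * M.1 * r g⁻¹ - M.1 = 0 := congrFun hM g
    have h1 : r g⁻¹ * r g = 1 := by rw [← map_mul, inv_mul_cancel, map_one]
    calc r g * M.1 = r g * M.1 * r g⁻¹ * r g := by rw [mul_assoc _ (r g⁻¹), h1, mul_one]
      _ = M.1 * r g := by rw [sub_eq_zero.mp h]
  have h := LinearMap.finrank_range_of_inj hinj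
  rw [LinearMap.range_domRestrict, finrank_trZero] at h
  exact h

theorem trace_adD_mul {G : Type} [Group G] (r : G →* Matrix (Fin 2) (Fin 2) k)
    (M : Matrix (Fin 2) (Fin 2) k) (g : G) : (TW.adD r M g * r g).trace = 0 := by
  have h1 : r g⁻¹ * r g = 1 := by rw [← map_mul, inv_mul_cancel, map_one]
  rw [TW.adD_apply, sub_mul, Matrix.trace_sub, mul_assoc _ (r g⁻¹), h1, mul_one,
    Matrix.trace_mul_comm, sub_self]

end matrices

variable {O : Type} [CommRing O] [IsLocalRing O]

section derivation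

theorem trace_map_linear {A : Type} [CommRing A] [Algebra O A] (f : A →ₗ[O] ResidueField O)
    (M : Matrix (Fin 2) (Fin 2) A) : (M.map f).trace = f M.trace := by
  simp [Matrix.trace_fin_two]

variable {A : Type} [CommRing A] [Algebra O A] {χ : A →ₐ[O] ResidueField O}
  {f : A →ₗ[O] ResidueField O}

theorem IsTangent.map_matrix_mul (hf : IsTangent χ f) (M N : Matrix (Fin 2) (Fin 2) A) :
    (M * N).map f = M.map f * N.map χ + M.map χ * N.map f := by
  ext i j
  simp only [Matrix.map_apply, Matrix.add_apply, Matrix.mul_apply, Fin.sum_univ_two, map_add,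
    hf.map_mul]
  ring

theorem IsTangent.map_matrix_algebraMap (hf : IsTangent χ f) (M : Matrix (Fin 2) (Fin 2) O) :
    (M.map (algebraMap O A)).map f = 0 := by
  ext i j
  simp [hf.map_algebraMap]

theorem IsTangent.map_det (hf : IsTangent χ f) (M : Matrix (Fin 2) (Fin 2) A) :
    f M.det = (M.map f * (M.map χ).adjugate).trace := by
  rw [Matrix.det_fin_two, map_sub, hf.map_mul, hf.map_mul, Matrix.adjugate_fin_two]
  simp [Matrix.trace_fin_two, Matrix.mul_apply, Fin.sum_univ_two]
  ring

end derivation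

section cocycle

variable {T : Type} [CommRing T] [Algebra O T] {G : Type} [Group G]
  {ρ : G →* Matrix (Fin 2) (Fin 2) T} {ψ : T →ₐ[O] ResidueField O}
  {r0 : G →* Matrix (Fin 2) (Fin 2) (ResidueField O)}

theorem tangentCocycle_mul_self (f : T →ₗ[O] ResidueField O) (γ : G) :
    tangentCocycle ρ r0 f γ * r0 γ = (ρ γ).map f := by
  rw [tangentCocycle, mul_assoc, ← map_mul, inv_mul_cancel, map_one, mul_one]

theorem tangentCocycle_mem (hr0 : ∀ γ, (ρ γ).map ψ = r0 γ)
    (hdet : ∀ γ, ∃ t : O, (ρ γ).det = algebraMap O T t) {f : T →ₗ[O] ResidueField O}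
    (hf : IsTangent ψ f) : tangentCocycle ρ r0 f ∈ TW.adCocycles r0 := by
  refine (TW.mem_adCocycles_iff r0 _).mpr ⟨fun γ => ?_, fun γ δ => ?_⟩
  · obtain ⟨t, ht⟩ := hdet γ
    have h0 := hf.map_det (ρ γ)
    rw [ht, hf.map_algebraMap, hr0] at h0
    have h1 : r0 γ * r0 γ⁻¹ = 1 := by rw [← map_mul, mul_inv_cancel, map_one]
    have hadj : (r0 γ).adjugate = (r0 γ).det • r0 γ⁻¹ := by
      calc (r0 γ).adjugate = (r0 γ).adjugate * (r0 γ * r0 γ⁻¹) := by rw [h1, mul_one]
        _ = _ := by rw [← mul_assoc, Matrix.adjugate_mul, smul_mul_assoc, one_mul]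
    rw [hadj, mul_smul_comm, Matrix.trace_smul, smul_eq_mul] at h0
    have hne : (r0 γ).det ≠ 0 := fun h => by
      have := congrArg Matrix.det h1
      rw [Matrix.det_mul, h, zero_mul, Matrix.det_one] at this
      exact zero_ne_one this
    exact (mul_eq_zero.mp h0.symm).resolve_left hne
  · have h1 : r0 δ * r0 δ⁻¹ = 1 := by rw [← map_mul, mul_inv_cancel, map_one]
    simp only [tangentCocycle]
    rw [map_mul ρ, hf.map_matrix_mul, hr0, hr0, mul_inv_rev, map_mul r0, add_mul]
    congr 1
    · rw [← mul_assoc, mul_assoc _ (r0 δ), h1, mul_one]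
    · simp only [mul_assoc]

/-- A tangent vector killing all traces vanishes. -/
theorem eq_zero_of_trace [IsLocalRing T]
    (hgen : ∀ x : T, ∃ y ∈ Algebra.adjoin O (Set.range fun γ => (ρ γ).trace),
      x - y ∈ maximalIdeal T ^ 2)
    {f : T →ₗ[O] ResidueField O} (hf : IsTangent ψ f) (h : ∀ γ, f (ρ γ).trace = 0) : f = 0 := by
  refine LinearMap.ext fun x => ?_
  obtain ⟨y, hy, hxy⟩ := hgen x
  have hy0 : f y = 0 := by
    clear hxy
    induction hy using Algebra.adjoin_induction with
    | mem z hz => obtain ⟨γ, rfl⟩ := hz; exact h γ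
    | algebraMap t => exact hf.map_algebraMap t
    | add a b _ _ ha hb => rw [map_add, ha, hb, add_zero]
    | mul a b _ _ ha hb => rw [hf.map_mul, ha, hb, mul_zero, mul_zero, add_zero]
  have := hf.map_sq hxy
  rwa [map_sub, hy0, sub_zero] at this

end cocycle

/-! ## The gauge ring -/

variable {T : Type} [CommRing T] [Algebra O T] {K : ℕ}

theorem algebraMap_gaugeRing_apply (t : O) :
    algebraMap O (GaugeRing T K) t = C (algebraMap O T t) :=
  MvPowerSeries.algebraMap_apply

/-- Constants of the gauge ring. -/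
def gaugeC (O : Type) [CommRing O] (T : Type) [CommRing T] [Algebra O T] (K : ℕ) :
    T →ₐ[O] GaugeRing T K :=
  { (C : T →+* GaugeRing T K) with
    commutes' := fun t => (MvPowerSeries.algebraMap_apply (R := O) (A := T) (r := t)).symm }

@[simp] theorem gaugeC_apply (x : T) : gaugeC O T K x = C x := rfl

/-- The closed point of the gauge ring. -/
def gaugePoint (ψ : T →ₐ[O] ResidueField O) (K : ℕ) : GaugeRing T K →ₐ[O] ResidueField O :=
  { (ψ : T →+* ResidueField O).comp (constantCoeff : GaugeRing T K →+* T) with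
    commutes' := fun t => by
      show ψ (constantCoeff (algebraMap O (GaugeRing T K) t)) = _
      rw [algebraMap_gaugeRing_apply, constantCoeff_C, AlgHom.commutes] }

@[simp] theorem gaugePoint_apply (ψ : T →ₐ[O] ResidueField O) (p : GaugeRing T K) :
    gaugePoint ψ K p = ψ (constantCoeff p) := rfl

theorem IsTangent.comp_gaugeC {ψ : T →ₐ[O] ResidueField O}
    {f : GaugeRing T K →ₗ[O] ResidueField O} (hf : IsTangent (gaugePoint ψ K) f) :
    IsTangent ψ (f.comp (gaugeC O T K).toLinearMap) :=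
  ⟨fun t => by
      show f (gaugeC O T K (algebraMap O T t)) = 0
      rw [AlgHom.commutes, hf.map_algebraMap],
    fun a b => by
      show f (gaugeC O T K (a * b)) = _
      rw [_root_.map_mul, hf.map_mul]
      simp [constantCoeff_C]⟩

theorem IsTangent.eq_zero_of_gauge {ψ : T →ₐ[O] ResidueField O}
    {f : GaugeRing T K →ₗ[O] ResidueField O} (hf : IsTangent (gaugePoint ψ K) f)
    (hC : ∀ t : T, f (C t) = 0) (hX : ∀ v, f (X v) = 0) : f = 0 := by
  refine LinearMap.ext fun p => ?_
  have hv : ∀ q ∈ Deform.varIdeal (Fin K × Fin 3) T, f q = 0 ∧ gaugePoint ψ K q = 0 := by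
    intro q hq
    refine Submodule.span_induction (p := fun q _ => f q = 0 ∧ gaugePoint ψ K q = 0) ?_ ?_ ?_ ?_ hq
    · rintro _ ⟨v, rfl⟩
      exact ⟨hX v, by simp⟩
    · simp
    · rintro a b _ _ ⟨ha, ha'⟩ ⟨hb, hb'⟩
      exact ⟨by rw [map_add, ha, hb, add_zero], by rw [map_add, ha', hb', add_zero]⟩
    · rintro r a _ ⟨ha, ha'⟩
      rw [smul_eq_mul, hf.map_mul, ha, ha', mul_zero, zero_mul, add_zero, _root_.map_mul, ha',
        mul_zero]
      exact ⟨rfl, rfl⟩
  have := (hv _ (Deform.sub_C_constantCoeff_mem p)).1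
  rwa [map_sub, hC, sub_zero] at this

variable {G : Type} [Group G]

theorem gaugeMat_map {R S : Type} [CommRing R] [CommRing S] (h : R →+* S) (y : Fin 3 → R) :
    (gaugeMat y).map h = gaugeMat (h ∘ y) := by
  ext i j
  fin_cases i <;> fin_cases j <;> simp [gaugeMat, gaugeTr]

theorem isUnit_det_gaugeMat (a : Fin K) :
    IsUnit (gaugeMat fun i => (X (a, i) : GaugeRing T K)).det := by
  rw [MvPowerSeries.isUnit_iff_constantCoeff, RingHom.map_det, RingHom.mapMatrix_apply,
    gaugeMat_map]
  simp [gaugeMat, gaugeTr, Matrix.det_fin_two]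

variable (ρ : G →* Matrix (Fin 2) (Fin 2) T) (P : Fin K → GL (Fin 2) O)

/-- `P⁻¹ ρ γ P` in the gauge ring. -/
def framed (a : Fin K) (γ : G) : Matrix (Fin 2) (Fin 2) (GaugeRing T K) :=
  gaugeConst T K ((P a)⁻¹ : GL (Fin 2) O).val * (ρ γ).map (C : T →+* GaugeRing T K) *
    gaugeConst T K (P a).val

theorem gauged_mul_gaugeMat (a : Fin K) (γ : G) :
    gauged ρ P a γ * gaugeMat (fun i => X (a, i)) =
      gaugeMat (fun i => X (a, i)) * framed ρ P a γ := by
  rw [gauged, mul_assoc _ _ (gaugeMat fun i => X (a, i)),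
    Matrix.nonsing_inv_mul _ (isUnit_det_gaugeMat a), mul_one]
  rfl

theorem gaugeConst_eq (M : Matrix (Fin 2) (Fin 2) O) :
    gaugeConst T K M = M.map (algebraMap O (GaugeRing T K)) := by
  ext i j
  simp [gaugeConst, algebraMap_gaugeRing_apply]

variable {ρ P}
variable {ψ : T →ₐ[O] ResidueField O} {r0 : G →* Matrix (Fin 2) (Fin 2) (ResidueField O)}

theorem gaugeConst_map_point (M : Matrix (Fin 2) (Fin 2) O) :
    (gaugeConst T K M).map (gaugePoint ψ K) = M.map (residue O) := by
  ext i j
  simp [gaugeConst, constantCoeff_C]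

theorem gaugeMat_map_point (a : Fin K) :
    (gaugeMat fun i => (X (a, i) : GaugeRing T K)).map (gaugePoint ψ K) = 1 := by
  ext i j
  fin_cases i <;> fin_cases j <;> simp [gaugeMat, gaugeTr]

theorem framed_map_point (hr0 : ∀ γ, (ρ γ).map ψ = r0 γ) (a : Fin K) (γ : G) :
    (framed ρ P a γ).map (gaugePoint ψ K) =
      ((P a)⁻¹ : GL (Fin 2) O).val.map (residue O) * r0 γ * (P a).val.map (residue O) := by
  have hC : ((ρ γ).map (C : T →+* GaugeRing T K)).map (gaugePoint ψ K) = r0 γ := by
    rw [← hr0 γ]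
    ext i j
    simp [constantCoeff_C]
  rw [framed, Matrix.map_mul, Matrix.map_mul, gaugeConst_map_point, gaugeConst_map_point, hC]

theorem gauged_map_point (hr0 : ∀ γ, (ρ γ).map ψ = r0 γ) (a : Fin K) (γ : G) :
    (gauged ρ P a γ).map (gaugePoint ψ K) =
      ((P a)⁻¹ : GL (Fin 2) O).val.map (residue O) * r0 γ * (P a).val.map (residue O) := by
  have h := congrArg (fun M => M.map (gaugePoint ψ K)) (gauged_mul_gaugeMat ρ P a γ)
  simp only [Matrix.map_mul, gaugeMat_map_point, one_mul, mul_one] at h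
  rw [h, framed_map_point hr0]

/-- The gauge direction of a tangent vector, in the original frame. -/
def gaugeEta (P : Fin K → GL (Fin 2) O) (a : Fin K) :
    (GaugeRing T K →ₗ[O] ResidueField O) →ₗ[ResidueField O]
      Matrix (Fin 2) (Fin 2) (ResidueField O) where
  toFun f := (P a).val.map (residue O) * gaugeTr (fun i => f (X (a, i))) *
    ((P a)⁻¹ : GL (Fin 2) O).val.map (residue O)
  map_add' f f' := by
    rw [← add_mul, ← mul_add]
    congr 2
    ext i j
    fin_cases i <;> fin_cases j <;> simp [gaugeTr] <;> ring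
  map_smul' c f := by
    rw [RingHom.id_apply, ← smul_mul_assoc, ← mul_smul_comm]
    congr 2
    ext i j
    fin_cases i <;> fin_cases j <;> simp [gaugeTr]

theorem residue_map_mul_inv (Q : GL (Fin 2) O) :
    Q.val.map (residue O) * (Q⁻¹).val.map (residue O) = 1 := by
  rw [← Matrix.map_mul, Units.mul_inv, Matrix.map_one _ (map_zero _) (map_one _)]

theorem residue_map_inv_mul (Q : GL (Fin 2) O) :
    (Q⁻¹).val.map (residue O) * Q.val.map (residue O) = 1 := by
  rw [← Matrix.map_mul, Units.inv_mul, Matrix.map_one _ (map_zero _) (map_one _)]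

theorem trace_gaugeEta (a : Fin K) (f : GaugeRing T K →ₗ[O] ResidueField O) :
    (gaugeEta P a f).trace = 0 := by
  show ((P a).val.map (residue O) * gaugeTr (fun i => f (X (a, i))) *
    ((P a)⁻¹ : GL (Fin 2) O).val.map (residue O)).trace = 0
  rw [Matrix.trace_mul_comm, ← mul_assoc, residue_map_inv_mul, one_mul]
  simp [gaugeTr, Matrix.trace_fin_two]

theorem eq_zero_of_gaugeEta {a : Fin K} {f : GaugeRing T K →ₗ[O] ResidueField O}
    (h : gaugeEta P a f = 0) (i : Fin 3) : f (X (a, i)) = 0 := by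
  have h1 : gaugeTr (fun i => f (X (a, i))) = 0 := by
    have h2 := congrArg (fun M => ((P a)⁻¹ : GL (Fin 2) O).val.map (residue O) * M *
      (P a).val.map (residue O)) h
    simp only [gaugeEta, LinearMap.coe_mk, AddHom.coe_mk, mul_zero, zero_mul] at h2
    rwa [← mul_assoc, ← mul_assoc, residue_map_inv_mul, one_mul, mul_assoc,
      residue_map_inv_mul, mul_one] at h2
  fin_cases i
  · simpa [gaugeTr] using congrFun (congrFun h1 0) 0
  · simpa [gaugeTr] using congrFun (congrFun h1 0) 1
  · simpa [gaugeTr] using congrFun (congrFun h1 1) 0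

/-- The first order equation at a place: the cocycle is the coboundary of the gauge direction. -/
theorem tangentCocycle_eq_adD (hr0 : ∀ γ, (ρ γ).map ψ = r0 γ)
    {f : GaugeRing T K →ₗ[O] ResidueField O} (hf : IsTangent (gaugePoint ψ K) f) (a : Fin K)
    (γ : G) (hγ : (gauged ρ P a γ).map f = 0) :
    tangentCocycle ρ r0 (f.comp (gaugeC O T K).toLinearMap) γ =
      TW.adD r0 (gaugeEta P a f) γ := by
  have hgf : (gaugeMat fun i => (X (a, i) : GaugeRing T K)).map f =
      gaugeTr (fun i => f (X (a, i))) := by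
    ext i j
    fin_cases i <;> fin_cases j <;> simp [gaugeMat, gaugeTr, hf.map_one]
  have hCf : ((ρ γ).map (C : T →+* GaugeRing T K)).map f =
      (ρ γ).map (f.comp (gaugeC O T K).toLinearMap) := by
    ext i j
    rfl
  have hCp : ((ρ γ).map (C : T →+* GaugeRing T K)).map (gaugePoint ψ K) = r0 γ := by
    rw [← hr0 γ]
    ext i j
    simp [constantCoeff_C]
  have hFf : (framed ρ P a γ).map f = ((P a)⁻¹ : GL (Fin 2) O).val.map (residue O) *
      (ρ γ).map (f.comp (gaugeC O T K).toLinearMap) * (P a).val.map (residue O) := by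
    rw [framed, hf.map_matrix_mul, hf.map_matrix_mul, gaugeConst_eq, gaugeConst_eq,
      hf.map_matrix_algebraMap, hf.map_matrix_algebraMap, ← gaugeConst_eq, ← gaugeConst_eq,
      zero_mul, mul_zero, add_zero, zero_add, gaugeConst_map_point, gaugeConst_map_point, hCf]
  have h := congrArg (fun M => M.map f) (gauged_mul_gaugeMat ρ P a γ)
  simp only [hf.map_matrix_mul, hγ, gaugeMat_map_point, gauged_map_point hr0,
    framed_map_point hr0, hgf, hFf, zero_mul, zero_add, one_mul] at h
  set Q := (P a).val.map (residue O) with hQ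
  set Qi := ((P a)⁻¹ : GL (Fin 2) O).val.map (residue O) with hQi
  set η := gaugeTr (fun i => f (X (a, i))) with hη
  set F := (ρ γ).map (f.comp (gaugeC O T K).toLinearMap) with hF
  have e1 : Q * Qi = 1 := residue_map_mul_inv (P a)
  have h' : Q * (Qi * r0 γ * Q * η) * Qi = Q * (η * (Qi * r0 γ * Q) + Qi * F * Q) * Qi := by
    rw [h]
  have eL : Q * (Qi * r0 γ * Q * η) * Qi = (Q * Qi) * r0 γ * (Q * η * Qi) := by
    simp only [mul_assoc]
  have eR : Q * (η * (Qi * r0 γ * Q) + Qi * F * Q) * Qi =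
      (Q * η * Qi) * r0 γ * (Q * Qi) + (Q * Qi) * F * (Q * Qi) := by
    simp only [mul_assoc, mul_add, add_mul]
  rw [eL, eR, e1, one_mul, one_mul, mul_one, mul_one] at h'
  have hFeq : F = r0 γ * (Q * η * Qi) - Q * η * Qi * r0 γ := by rw [h']; abel
  show F * r0 γ⁻¹ = r0 γ * gaugeEta P a f * r0 γ⁻¹ - gaugeEta P a f
  have hη' : gaugeEta P a f = Q * η * Qi := rfl
  rw [hη', hFeq, sub_mul, mul_assoc (Q * η * Qi) (r0 γ), ← map_mul, mul_inv_cancel, map_one,
    mul_one]

end Fermat.Agent.Lifting
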