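import Mathlib.LinearAlgebra.Trace
import Mathlib.LinearAlgebra.Determinant
import Mathlib.LinearAlgebra.Matrix.Adjugate
import Mathlib.LinearAlgebra.FiniteDimensional.Lemmas
import Mathlib.GroupTheory.Index
import Mathlib.Tactic.LinearCombination
import Mathlib.Tactic.NoncommRing

/-!
# Two dimensional representations reducible on a subgroup of index two

If an irreducible two dimensional representation is reducible on a subgroup `G` of index two, its
trace vanishes outside `G`; conversely that trace condition makes the image of `G` commutative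
and free of non-trivial unipotent elements.
-/

set_option autoImplicit false

namespace Fermat.Agent.Lifting

open Module

variable {k : Type*} [Field k] {V : Type*} [AddCommGroup V] [Module k V]

/-- The main involution of the endomorphisms of a plane. -/
noncomputable def adjEnd (A : Module.End k V) : Module.End k V :=
  LinearMap.trace k V A • (1 : Module.End k V) - A

theorem matrix_two_trace_sub_self {R : Type*} [CommRing R] (A : Matrix (Fin 2) (Fin 2) R) :
    A.trace • (1 : Matrix (Fin 2) (Fin 2) R) - A = A.adjugate := by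
  rw [Matrix.adjugate_fin_two]
  ext i j
  fin_cases i <;> fin_cases j <;> simp [Matrix.trace_fin_two]

theorem toMatrix_adjEnd (b : Basis (Fin 2) k V) (A : Module.End k V) :
    LinearMap.toMatrixAlgEquiv b (adjEnd A) = (LinearMap.toMatrixAlgEquiv b A).adjugate := by
  rw [← matrix_two_trace_sub_self, adjEnd, map_sub, map_smul, map_one,
    LinearMap.trace_eq_matrix_trace k b A]
  rfl

theorem exists_basis_two (hV : finrank k V = 2) : Nonempty (Basis (Fin 2) k V) :=
  have : Module.Finite k V := Module.finite_of_finrank_eq_succ hV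
  ⟨Module.finBasisOfFinrankEq k V hV⟩

theorem adjEnd_mul (hV : finrank k V = 2) (A B : Module.End k V) :
    adjEnd (A * B) = adjEnd B * adjEnd A := by
  obtain ⟨b⟩ := exists_basis_two hV
  refine (LinearMap.toMatrixAlgEquiv b).injective ?_
  rw [toMatrix_adjEnd, map_mul, map_mul, Matrix.adjugate_mul_distrib, toMatrix_adjEnd,
    toMatrix_adjEnd]

theorem mul_self_eq (hV : finrank k V = 2) (A : Module.End k V) :
    A * A = LinearMap.trace k V A • A - LinearMap.det A • (1 : Module.End k V) := by
  obtain ⟨b⟩ := exists_basis_two hV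
  refine (LinearMap.toMatrixAlgEquiv b).injective ?_
  have hd : LinearMap.det A = (LinearMap.toMatrixAlgEquiv b A).det :=
    (LinearMap.det_toMatrix b A).symm
  rw [map_mul, map_sub, map_smul, map_smul, map_one, LinearMap.trace_eq_matrix_trace k b A, hd]
  ext i j
  change _ = ((LinearMap.toMatrixAlgEquiv b A).trace • LinearMap.toMatrixAlgEquiv b A -
    (LinearMap.toMatrixAlgEquiv b A).det • (1 : Matrix (Fin 2) (Fin 2) k)) i j
  fin_cases i <;> fin_cases j <;>
    simp [Matrix.mul_apply, Fin.sum_univ_two, Matrix.trace_fin_two, Matrix.det_fin_two] <;> ring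

/-- Conjugation by a trace zero element `t` is the main involution on everything orthogonal to
`t`. -/
theorem mul_eq_adjEnd_mul (hV : finrank k V = 2) {t A : Module.End k V}
    (ht : LinearMap.trace k V t = 0) (htA : LinearMap.trace k V (t * A) = 0) :
    t * A = adjEnd A * t := by
  obtain ⟨b⟩ := exists_basis_two hV
  rw [LinearMap.trace_eq_matrix_trace k b] at ht htA
  refine (LinearMap.toMatrixAlgEquiv b).injective ?_
  rw [map_mul, map_mul, toMatrix_adjEnd, Matrix.adjugate_fin_two]
  change (LinearMap.toMatrixAlgEquiv b t).trace = 0 at ht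
  change (LinearMap.toMatrixAlgEquiv b (t * A)).trace = 0 at htA
  rw [map_mul] at htA
  generalize LinearMap.toMatrixAlgEquiv b t = T at *
  generalize LinearMap.toMatrixAlgEquiv b A = M at *
  simp only [Matrix.trace_fin_two, Matrix.mul_apply, Fin.sum_univ_two] at ht htA
  ext i j
  fin_cases i <;> fin_cases j <;> simp [Matrix.mul_apply, Fin.sum_univ_two]
  · linear_combination htA - M 1 1 * ht
  · linear_combination M 0 1 * ht
  · linear_combination M 1 0 * ht
  · linear_combination htA - M 0 0 * ht

theorem sub_one_sq_eq_zero_of_isNilpotent (hV : finrank k V = 2) {A : Module.End k V}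
    (h : IsNilpotent (A - 1)) :
    LinearMap.trace k V A = 2 ∧ (A - 1) * (A - 1) = 0 := by
  have : Module.Finite k V := Module.finite_of_finrank_eq_succ hV
  have htr : LinearMap.trace k V (A - 1) = 0 :=
    (LinearMap.isNilpotent_trace_of_isNilpotent h).eq_zero
  have hdet : LinearMap.det (A - 1) = 0 := by
    obtain ⟨n, hn⟩ := h
    have h' : LinearMap.det (A - 1) ^ n = 0 := by
      rw [← map_pow, hn, LinearMap.det_zero, hV]
      simp
    exact eq_zero_of_pow_eq_zero h'
  refine ⟨?_, ?_⟩
  · rw [map_sub, LinearMap.trace_one, hV, sub_eq_zero] at htr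
    simpa using htr
  · rw [mul_self_eq hV, htr, hdet, zero_smul, zero_smul, sub_zero]

section Group

variable {Γ : Type*} [Group Γ] (ρ : Γ →* Module.End k V) {G : Subgroup Γ}

/-- An irreducible representation that has a stable line on `G` of index two has trace zero
outside `G`. -/
theorem trace_eq_zero_of_reducible (hV : finrank k V = 2)
    (hirr : ∀ W : Submodule k V, (∀ σ, ∀ x ∈ W, ρ σ x ∈ W) → W = ⊥ ∨ W = ⊤)
    (hG : G.index = 2) {W : Submodule k V} (hb : W ≠ ⊥) (ht : W ≠ ⊤)
    (hW : ∀ σ ∈ G, ∀ x ∈ W, ρ σ x ∈ W) {g : Γ} (hg : g ∉ G) :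
    LinearMap.trace k V (ρ g) = 0 := by
  have : Module.Finite k V := Module.finite_of_finrank_eq_succ hV
  obtain ⟨v, hv, hv0⟩ := (Submodule.ne_bot_iff W).1 hb
  have hW1 : finrank k W = 1 := by
    have h1 := Submodule.finrank_lt ht
    have h2 : finrank k W ≠ 0 := fun h => hb (Submodule.finrank_eq_zero.mp h)
    omega
  have hline : ∀ x ∈ W, ∃ c : k, c • v = x := by
    intro x hx
    obtain ⟨c, hc⟩ := (finrank_eq_one_iff_of_nonzero' (K := k) (⟨v, hv⟩ : W)
      (fun h => hv0 (congrArg Subtype.val h))).1 hW1 ⟨x, hx⟩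
    exact ⟨c, congrArg Subtype.val hc⟩
  have hgv : ρ g v ∉ W := by
    intro hmem
    have hgW : ∀ x ∈ W, ρ g x ∈ W := fun x hx => by
      obtain ⟨c, rfl⟩ := hline x hx
      rw [map_smul]
      exact W.smul_mem c hmem
    rcases hirr W fun σ x hx => (by
      by_cases hσ : σ ∈ G
      · exact hW σ hσ x hx
      · have hmemG : g⁻¹ * σ ∈ G := (Subgroup.mul_mem_iff_of_index_two hG).2
          (iff_of_false (fun h => hg (by simpa using inv_mem h)) hσ)
        have := hgW _ (hW _ hmemG x hx)
        rwa [← Module.End.mul_apply, ← map_mul, mul_inv_cancel_left] at this) with h | h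
    · exact hb h
    · exact ht h
  have hli : LinearIndependent k ![v, ρ g v] := by
    rw [LinearIndependent.pair_iff]
    intro s u h
    have hu : u = 0 := by
      by_contra hu
      refine hgv ((Submodule.smul_mem_iff W hu).1 ?_)
      rw [eq_neg_of_add_eq_zero_right h]
      exact W.neg_mem (W.smul_mem s hv)
    refine ⟨?_, hu⟩
    rw [hu, zero_smul, add_zero] at h
    exact (smul_eq_zero.mp h).resolve_right hv0
  let b : Basis (Fin 2) k V := basisOfLinearIndependentOfCardEqFinrank hli (by simp [hV])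
  have hb0 : b 0 = v := by simp [b]
  have hb1 : b 1 = ρ g v := by simp [b]
  obtain ⟨c, hc⟩ := hline _ (hW (g * g) (Subgroup.mul_self_mem_of_index_two hG g) v hv)
  have e0 : ρ g (b 0) = b 1 := by rw [hb0, hb1]
  have e1 : ρ g (b 1) = c • b 0 := by
    rw [hb0, hb1, hc, map_mul, Module.End.mul_apply]
  rw [LinearMap.trace_eq_matrix_trace k b, Matrix.trace_fin_two, LinearMap.toMatrix_apply,
    LinearMap.toMatrix_apply, e0, e1]
  simp

variable (hV : finrank k V = 2) (htr : ∀ g ∉ G, LinearMap.trace k V (ρ g) = 0)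
include hV htr

theorem mul_eq_adjEnd_mul_of_mem {s g : Γ} (hs : s ∉ G) (hg : g ∈ G) :
    ρ s * ρ g = adjEnd (ρ g) * ρ s :=
  mul_eq_adjEnd_mul hV (htr s hs) (by
    rw [← map_mul]
    exact htr _ fun h => hs (by simpa [mul_assoc] using mul_mem h (inv_mem hg)))

/-- Trace zero outside `G` makes the image of `G` commutative. -/
theorem commute_of_mem (hG : G.index = 2) {g h : Γ} (hg : g ∈ G) (hh : h ∈ G) :
    ρ g * ρ h = ρ h * ρ g := by
  obtain ⟨s, hs⟩ : ∃ s, s ∉ G := by
    by_contra hall
    push Not at hall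
    rw [(Subgroup.eq_top_iff' G).2 hall, Subgroup.index_top] at hG
    omega
  have h1 : ρ s * (ρ g * ρ h) = adjEnd (ρ g) * adjEnd (ρ h) * ρ s := by
    rw [← mul_assoc, mul_eq_adjEnd_mul_of_mem ρ hV htr hs hg, mul_assoc,
      mul_eq_adjEnd_mul_of_mem ρ hV htr hs hh, ← mul_assoc]
  have h2 : ρ s * (ρ g * ρ h) = adjEnd (ρ h) * adjEnd (ρ g) * ρ s := by
    rw [← adjEnd_mul hV, ← map_mul ρ g h]
    exact mul_eq_adjEnd_mul_of_mem ρ hV htr hs (mul_mem hg hh)
  have h3 : adjEnd (ρ g) * adjEnd (ρ h) = adjEnd (ρ h) * adjEnd (ρ g) := by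
    have e := congrArg (fun X => X * ρ s⁻¹) (h1.symm.trans h2)
    simpa [mul_assoc, ← map_mul] using e
  simp only [adjEnd, mul_sub, sub_mul, smul_mul_assoc, mul_smul_comm, one_mul, mul_one,
    smul_sub, smul_smul, mul_comm (LinearMap.trace k V (ρ g))] at h3
  rw [← sub_eq_zero] at h3 ⊢
  rw [← h3]
  abel

/-- Trace zero outside `G` excludes non-trivial unipotents in the image of `G`. -/
theorem eq_one_of_isNilpotent (h2 : (2 : k) ≠ 0)
    (hirr : ∀ W : Submodule k V, (∀ σ, ∀ x ∈ W, ρ σ x ∈ W) → W = ⊥ ∨ W = ⊤)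
    (hG : G.index = 2) {g : Γ} (h : IsNilpotent (ρ g - 1)) : ρ g = 1 := by
  obtain ⟨ht, hsq⟩ := sub_one_sq_eq_zero_of_isNilpotent hV h
  have hg : g ∈ G := by
    by_contra hg
    exact h2 (ht ▸ htr g hg)
  set N := ρ g - 1 with hN
  have hcomm : ∀ σ, (σ ∈ G → N * ρ σ = ρ σ * N) ∧ (σ ∉ G → N * ρ σ = -(ρ σ * N)) := by
    refine fun σ => ⟨fun hσ => ?_, fun hσ => ?_⟩
    · rw [hN, sub_mul, mul_sub, commute_of_mem ρ hV htr hG hg hσ, one_mul, mul_one]
    · have e := mul_eq_adjEnd_mul_of_mem ρ hV htr hσ hg
      rw [adjEnd, ht, sub_mul, smul_mul_assoc, one_mul] at e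
      rw [hN, sub_mul, mul_sub, e, one_mul, mul_one, two_smul]
      abel
  have hker : LinearMap.ker N = ⊤ := by
    refine (hirr _ fun σ x hx => ?_).resolve_left fun hbot => ?_
    · rw [LinearMap.mem_ker] at hx ⊢
      by_cases hσ : σ ∈ G
      · rw [← Module.End.mul_apply, (hcomm σ).1 hσ, Module.End.mul_apply, hx, map_zero]
      · rw [← Module.End.mul_apply, (hcomm σ).2 hσ, LinearMap.neg_apply, Module.End.mul_apply, hx,
          map_zero, neg_zero]
    · have hinj := LinearMap.ker_eq_bot.1 hbot
      have h0 : ∀ x : V, x = 0 := fun x => by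
        apply hinj
        apply hinj
        have := LinearMap.congr_fun hsq x
        simpa using this
      have : Subsingleton V := subsingleton_of_forall_eq 0 h0
      rw [Module.finrank_zero_of_subsingleton] at hV
      omega
  exact sub_eq_zero.1 (LinearMap.ker_eq_top.1 hker)

end Group

end Fermat.Agent.Lifting
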