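import Fermat.Agent.CondLevel.Curve
import Fermat.Agent.GaloisAdic.Frame

/-!
# Compatible bases of the `p`-power torsion of an elliptic curve
-/

set_option autoImplicit false

noncomputable section

open scoped WeierstrassCurve.Affine
open Module

namespace Fermat.Agent.Lifting

open CondLevel (torsRep isElliptic_baseChange exists_torsBasis)

local notation "Γℚ" => AlgebraicClosure ℚ ≃ₐ[ℚ] AlgebraicClosure ℚ
local notation "ℚbar" => AlgebraicClosure ℚ

variable {W : WeierstrassCurve ℤ} {p : ℕ}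

/-- The points over `ℚ̄`. -/
abbrev CurvePt (W : WeierstrassCurve ℤ) : Type :=
  ((W.map (Int.castRingHom ℚ))⁄(AlgebraicClosure ℚ)).Point

theorem smul_tors_val {M : ℕ} [NeZero M] (x : ZMod M) (P : CondLevel.Tors W M) :
    ((x • P : CondLevel.Tors W M) : CurvePt W) = x.val • (P : CurvePt W) := by
  conv_lhs => rw [← ZMod.natCast_zmod_val x, Nat.cast_smul_eq_nsmul]
  rfl

theorem nsmul_tors_val_eq_zero {M : ℕ} (P : CondLevel.Tors W M) : M • (P : CurvePt W) = 0 := by
  rw [← natCast_zsmul]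
  exact (Submodule.mem_torsionBy_iff _ _).1 P.2

/-- Multiplication by `p`, one level down. -/
def torsDown (W : WeierstrassCurve ℤ) (p n : ℕ) :
    CondLevel.Tors W (p ^ (n + 1)) →+ CondLevel.Tors W (p ^ n) :=
  AddMonoidHom.mk'
    (fun P => ⟨p • (P : CurvePt W), (Submodule.mem_torsionBy_iff _ _).2 (by
      rw [natCast_zsmul, smul_smul, ← pow_succ]
      exact nsmul_tors_val_eq_zero P)⟩)
    fun P Q => Subtype.ext (nsmul_add (P : CurvePt W) Q p)

theorem torsDown_surjective [Fact p.Prime] (hΔ : W.Δ ≠ 0) (n : ℕ) :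
    Function.Surjective (torsDown W p n) := by
  have hp : p.Prime := Fact.out
  have := isElliptic_baseChange hΔ
  have hc : ∀ m : ℕ, Nat.card (CondLevel.Tors W (p ^ m)) = (p ^ m) ^ 2 := fun m =>
    EC.card_torsionBy_Qbar (pow_ne_zero m hp.ne_zero)
  have hker : Nat.card (torsDown W p n).ker = p ^ 2 := by
    rw [← EC.card_torsionBy_Qbar (W := W.map (Int.castRingHom ℚ)) hp.ne_zero]
    refine Nat.card_congr
      { toFun := fun P => ⟨(P.1 : CurvePt W), (Submodule.mem_torsionBy_iff _ _).2 (by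
          rw [natCast_zsmul]
          exact congrArg Subtype.val (AddMonoidHom.mem_ker.1 P.2))⟩
        invFun := fun Q => ⟨⟨Q.1, (Submodule.mem_torsionBy_iff _ _).2 (by
          rw [natCast_zsmul, pow_succ', mul_comm, mul_smul, ← natCast_zsmul Q.1 p,
            (Submodule.mem_torsionBy_iff _ _).1 Q.2, nsmul_zero])⟩, AddMonoidHom.mem_ker.2
          (Subtype.ext (by
            show p • Q.1 = 0
            rw [← natCast_zsmul]
            exact (Submodule.mem_torsionBy_iff _ _).1 Q.2))⟩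
        left_inv := fun P => rfl
        right_inv := fun Q => rfl }
  have h := (torsDown W p n).ker.index_mul_card
  rw [AddSubgroup.index_ker, hc (n + 1), hker] at h
  have hr : Nat.card (torsDown W p n).range = Nat.card (CondLevel.Tors W (p ^ n)) := by
    rw [hc n]
    refine Nat.eq_of_mul_eq_mul_right (pow_pos hp.pos 2) ?_
    rw [h]
    ring
  haveI : Finite (CondLevel.Tors W (p ^ n)) := Nat.finite_of_card_ne_zero
    (by rw [hc n]; exact pow_ne_zero 2 (pow_ne_zero n hp.ne_zero))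
  exact AddMonoidHom.range_eq_top.1 (AddSubgroup.eq_top_of_card_eq _ hr)

theorem exists_basis_lift [Fact p.Prime] (hΔ : W.Δ ≠ 0) (n : ℕ)
    (b : Basis (Fin 2) (ZMod (p ^ n)) (CondLevel.Tors W (p ^ n))) :
    ∃ b' : Basis (Fin 2) (ZMod (p ^ (n + 1))) (CondLevel.Tors W (p ^ (n + 1))),
      ∀ i, torsDown W p n (b' i) = b i := by
  classical
  have hp : p.Prime := Fact.out
  rcases Nat.eq_zero_or_pos n with rfl | hn
  · obtain ⟨b'⟩ := exists_torsBasis hΔ (pow_ne_zero 1 hp.ne_zero) (W := W)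
    have hsub : Subsingleton (CondLevel.Tors W (p ^ 0)) := by
      refine ⟨fun P Q => Subtype.ext ?_⟩
      rw [(one_nsmul (P : CurvePt W)).symm.trans (nsmul_tors_val_eq_zero P),
        (one_nsmul (Q : CurvePt W)).symm.trans (nsmul_tors_val_eq_zero Q)]
    exact ⟨b', fun i => Subsingleton.elim _ _⟩
  choose Q hQ using fun i => torsDown_surjective hΔ n (b i)
  obtain ⟨b₀⟩ := exists_torsBasis hΔ (pow_ne_zero (n + 1) hp.ne_zero) (W := W)
  haveI : NeZero (p ^ (n + 1)) := ⟨pow_ne_zero _ hp.ne_zero⟩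
  haveI : NeZero (p ^ n) := ⟨pow_ne_zero _ hp.ne_zero⟩
  haveI : Finite (CondLevel.Tors W (p ^ (n + 1))) := Finite.of_equiv _ b₀.equivFun.symm.toEquiv
  let f : (Fin 2 → ZMod (p ^ (n + 1))) →ₗ[ZMod (p ^ (n + 1))] CondLevel.Tors W (p ^ (n + 1)) :=
    Fintype.linearCombination (ZMod (p ^ (n + 1))) Q
  have hmem : ∀ (x : CondLevel.Tors W (p ^ (n + 1))) (c : ℕ), (c • x) = (c : ZMod (p ^ (n + 1))) • x :=
    fun x c => (Nat.cast_smul_eq_nsmul _ c x).symm
  have key : ∀ x : CondLevel.Tors W (p ^ (n + 1)), ∃ (a : Fin 2 → ℕ) (z : CondLevel.Tors W (p ^ (n + 1))),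
      torsDown W p n z = 0 ∧ x = a 0 • Q 0 + a 1 • Q 1 + z := by
    intro x
    refine ⟨fun i => (b.repr (torsDown W p n x) i).val, x - ((b.repr (torsDown W p n x) 0).val • Q 0 +
      (b.repr (torsDown W p n x) 1).val • Q 1), ?_, (by abel)⟩
    rw [map_sub, map_add, map_nsmul, map_nsmul, hQ, hQ, sub_eq_zero,
      ← Nat.cast_smul_eq_nsmul (ZMod (p ^ n)), ← Nat.cast_smul_eq_nsmul (ZMod (p ^ n)),
      ZMod.natCast_zmod_val, ZMod.natCast_zmod_val]
    conv_lhs => rw [← b.sum_repr (torsDown W p n x)]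
    rw [Fin.sum_univ_two]
  have hkill : ∀ z, torsDown W p n z = 0 → p • z = 0 := fun z hz =>
    Subtype.ext (show p • (z : CurvePt W) = 0 from congrArg Subtype.val hz)
  have hsurj : Function.Surjective f := by
    intro x
    obtain ⟨a, z, hz, rfl⟩ := key x
    obtain ⟨y, hy⟩ : ∃ y, z = (p ^ n) • y := by
      set c := b₀.repr z
      have hdiv : ∀ i, ∃ d, c i = ((p ^ n : ℕ) : ZMod (p ^ (n + 1))) * d := by
        intro i
        have h0 : (p : ZMod (p ^ (n + 1))) * c i = 0 := by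
          have h := congrArg (fun w => b₀.repr w i) (hkill z hz)
          simpa [← Nat.cast_smul_eq_nsmul (ZMod (p ^ (n + 1)))] using h
        rw [← ZMod.natCast_zmod_val (c i), ← Nat.cast_mul, ZMod.natCast_eq_zero_iff] at h0
        obtain ⟨d, hd⟩ := Nat.dvd_of_mul_dvd_mul_left hp.pos
          ((dvd_of_eq (pow_succ' p n).symm).trans h0)
        exact ⟨d, by rw [← ZMod.natCast_zmod_val (c i), hd, Nat.cast_mul]⟩
      choose d hd using hdiv
      refine ⟨∑ i, d i • b₀ i, ?_⟩
      rw [hmem, Finset.smul_sum]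
      conv_lhs => rw [← b₀.sum_repr z]
      exact Finset.sum_congr rfl fun i _ => by rw [smul_smul]; exact congrArg (· • b₀ i) (hd i)
    obtain ⟨a', z', hz', rfl⟩ := key y
    have hz'' : (p ^ n) • z' = 0 := by
      have e : p ^ n = p ^ (n - 1) * p := by
        rw [← pow_succ]
        congr 1
        omega
      calc (p ^ n) • z' = (p ^ (n - 1) * p) • z' := congrArg (· • z') e
        _ = 0 := by rw [mul_smul, hkill z' hz', nsmul_zero]
    refine ⟨![((a 0 + p ^ n * a' 0 : ℕ) : ZMod _), ((a 1 + p ^ n * a' 1 : ℕ) : ZMod _)], ?_⟩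
    rw [hy, nsmul_add, hz'', add_zero, nsmul_add, smul_smul, smul_smul]
    simp only [f, Fintype.linearCombination_apply, Fin.sum_univ_two, Matrix.cons_val_zero,
      Matrix.cons_val_one, Nat.cast_smul_eq_nsmul, add_nsmul]
    abel
  have hbij : Function.Bijective f :=
    (Nat.bijective_iff_surjective_and_card f).2 ⟨hsurj,
      (Nat.card_congr b₀.equivFun.toEquiv).symm⟩
  refine ⟨Basis.ofEquivFun (LinearEquiv.ofBijective f hbij).symm, fun i => ?_⟩
  rw [Basis.coe_ofEquivFun, LinearEquiv.symm_symm]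
  show torsDown W p n (f (Pi.single i 1)) = b i
  simp only [f]
  rw [Fintype.linearCombination_apply_single, one_smul, hQ]

/-- A compatible system of bases of `E[p ^ n]`. -/
structure TateFrame (W : WeierstrassCurve ℤ) (p : ℕ) where
  /-- the bases -/
  basis : ∀ n, Basis (Fin 2) (ZMod (p ^ n)) (CondLevel.Tors W (p ^ n))
  compat : ∀ n i, torsDown W p n (basis (n + 1) i) = basis n i

theorem nonempty_tateFrame [Fact p.Prime] (hΔ : W.Δ ≠ 0) : Nonempty (TateFrame W p) := by
  choose lift hlift using fun n b => exists_basis_lift (W := W) (p := p) hΔ n b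
  obtain ⟨b₀⟩ := exists_torsBasis hΔ (pow_ne_zero 0 (Fact.out : p.Prime).ne_zero) (W := W)
  let B : ∀ n, Basis (Fin 2) (ZMod (p ^ n)) (CondLevel.Tors W (p ^ n)) := fun n =>
    Nat.rec b₀ (fun m b => lift m b) n
  exact ⟨⟨B, fun n i => hlift n (B n) i⟩⟩

variable [Fact p.Prime]

theorem torsDown_smul (n : ℕ) (c : ZMod (p ^ (n + 1))) (P : CondLevel.Tors W (p ^ (n + 1))) :
    torsDown W p n (c • P) =
      ZMod.castHom (pow_dvd_pow p n.le_succ) (ZMod (p ^ n)) c • torsDown W p n P := by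
  haveI : NeZero (p ^ (n + 1)) := ⟨pow_ne_zero _ (Fact.out : p.Prime).ne_zero⟩
  conv_lhs => rw [← ZMod.natCast_zmod_val c, Nat.cast_smul_eq_nsmul, map_nsmul]
  conv_rhs => rw [← ZMod.natCast_zmod_val c, map_natCast, Nat.cast_smul_eq_nsmul]

theorem torsDown_torsRep (n : ℕ) (σ : Γℚ) (P : CondLevel.Tors W (p ^ (n + 1))) :
    torsDown W p n (torsRep W (p ^ (n + 1)) σ P) = torsRep W (p ^ n) σ (torsDown W p n P) :=
  Subtype.ext ((DistribMulAction.toAddMonoidHom (CurvePt W) σ).map_nsmul p (P : CurvePt W)).symm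

namespace TateFrame

variable (F : TateFrame W p)

/-- The matrices on `E[p ^ n]`. -/
def matrixMod (n : ℕ) : Γℚ →* Matrix (Fin 2) (Fin 2) (ZMod (p ^ n)) :=
  ((LinearMap.toMatrixAlgEquiv (F.basis n)).toAlgHom.toMonoidHom).comp (torsRep W (p ^ n))

theorem matrixMod_apply (n : ℕ) (σ : Γℚ) :
    F.matrixMod n σ = LinearMap.toMatrix (F.basis n) (F.basis n) (torsRep W (p ^ n) σ) := rfl

theorem map_matrixMod_succ (n : ℕ) (σ : Γℚ) :
    (F.matrixMod (n + 1) σ).map (ZMod.castHom (pow_dvd_pow p n.le_succ) (ZMod (p ^ n))) =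
      F.matrixMod n σ := by
  ext i j
  rw [matrixMod_apply, matrixMod_apply, Matrix.map_apply, LinearMap.toMatrix_apply,
    LinearMap.toMatrix_apply, ← F.compat n j, ← torsDown_torsRep]
  conv_rhs => rw [← (F.basis (n + 1)).sum_repr (torsRep W (p ^ (n + 1)) σ (F.basis (n + 1) j)),
    map_sum, map_sum, Finsupp.finset_sum_apply]
  simp only [torsDown_smul, F.compat, map_smul, Finsupp.smul_apply, Basis.repr_self,
    Finsupp.single_apply, smul_eq_mul, mul_ite, mul_one, mul_zero]
  rw [Finset.sum_ite_eq' Finset.univ i fun x =>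
    ZMod.castHom (pow_dvd_pow p n.le_succ) (ZMod (p ^ n))
      ((F.basis (n + 1)).repr (torsRep W (p ^ (n + 1)) σ (F.basis (n + 1) j)) x),
    if_pos (Finset.mem_univ i)]

theorem map_matrixMod (σ : Γℚ) {m n : ℕ} (h : m ≤ n) :
    (F.matrixMod n σ).map (ZMod.castHom (pow_dvd_pow p h) (ZMod (p ^ m))) = F.matrixMod m σ := by
  induction n, h using Nat.le_induction with
  | base => ext i j; simp [-ZMod.castHom_apply, RingHom.ext_zmod _ (RingHom.id _)]
  | succ n hn ih =>
    rw [← ih, ← F.map_matrixMod_succ n σ, Matrix.map_map]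
    congr 1
    funext x
    exact (DFunLike.congr_fun (RingHom.ext_zmod
      ((ZMod.castHom (pow_dvd_pow p hn) (ZMod (p ^ m))).comp
        (ZMod.castHom (pow_dvd_pow p n.le_succ) (ZMod (p ^ n)))) _) x).symm

theorem exists_entry (σ : Γℚ) (i j : Fin 2) :
    ∃ x : ℤ_[p], ∀ n, PadicInt.toZModPow n x = F.matrixMod n σ i j :=
  GaloisAdic.exists_padicInt_of_compatible _ fun _ _ h =>
    congrFun (congrFun (F.map_matrixMod σ h) i) j

/-- The matrix of one element over `ℤ_p`. -/
def matrixFun (σ : Γℚ) : Matrix (Fin 2) (Fin 2) ℤ_[p] :=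
  Matrix.of fun i j => (F.exists_entry σ i j).choose

theorem map_matrixFun (σ : Γℚ) (n : ℕ) :
    (F.matrixFun σ).map (PadicInt.toZModPow n) = F.matrixMod n σ := by
  ext i j
  exact (F.exists_entry σ i j).choose_spec n

/-- The `p`-adic matrices of the curve. -/
def matrix : Γℚ →* Matrix (Fin 2) (Fin 2) ℤ_[p] where
  toFun := F.matrixFun
  map_one' := GaloisAdic.TorsionFrame.padicMatrix_ext fun n => by
    rw [F.map_matrixFun, Matrix.map_one _ (map_zero _) (map_one _), map_one]
  map_mul' σ τ := GaloisAdic.TorsionFrame.padicMatrix_ext fun n => by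
    rw [F.map_matrixFun, Matrix.map_mul, F.map_matrixFun, F.map_matrixFun, map_mul]

theorem map_matrix (σ : Γℚ) (n : ℕ) :
    (F.matrix σ).map (PadicInt.toZModPow n) = F.matrixMod n σ :=
  F.map_matrixFun σ n

end TateFrame

end Fermat.Agent.Lifting
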