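/-
First cohomology of a group with coefficients in a representation, and the weighted transfer
along a system of double coset representatives (Hecke operators with coefficients).
-/
import Fermat.Agent.HeckeCohom.Transfer
import Mathlib.RepresentationTheory.Basic

set_option autoImplicit false

noncomputable section

namespace Fermat.Agent.Lifting

open Fermat.Agent.HeckeCohom

variable {R : Type*} [CommRing R] {Γ : Type*} [Group Γ]

section Basic

variable {A : Type*} [AddCommGroup A] [Module R A] (ρ : Representation R Γ A)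

/-- crossed homomorphisms -/
def Z1 : Submodule R (Γ → A) where
  carrier := {f | ∀ γ δ : Γ, f (γ * δ) = f γ + ρ γ (f δ)}
  zero_mem' := by intro γ δ; simp
  add_mem' := by
    intro f g hf hg γ δ
    simp only [Pi.add_apply, hf γ δ, hg γ δ, map_add]
    abel
  smul_mem' := by
    intro r f hf γ δ
    simp only [Pi.smul_apply, hf γ δ, map_smul, smul_add]

theorem mem_Z1_iff {f : Γ → A} : f ∈ Z1 ρ ↔ ∀ γ δ : Γ, f (γ * δ) = f γ + ρ γ (f δ) := Iff.rfl

variable {ρ}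

theorem Z1_mul (f : Z1 ρ) (γ δ : Γ) :
    (f : Γ → A) (γ * δ) = (f : Γ → A) γ + ρ γ ((f : Γ → A) δ) := f.2 γ δ

theorem Z1_one (f : Z1 ρ) : (f : Γ → A) 1 = 0 := by
  have h := Z1_mul f 1 1
  simpa using h

theorem Z1_inv (f : Z1 ρ) (γ : Γ) : (f : Γ → A) γ⁻¹ = -ρ γ⁻¹ ((f : Γ → A) γ) := by
  have h := Z1_mul f γ⁻¹ γ
  rw [inv_mul_cancel, Z1_one] at h
  exact eq_neg_of_add_eq_zero_left h.symm

theorem Z1_pow (f : Z1 ρ) (γ : Γ) (n : ℕ) :
    (f : Γ → A) (γ ^ n) = ∑ k ∈ Finset.range n, ρ (γ ^ k) ((f : Γ → A) γ) := by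
  induction n with
  | zero => simp [Z1_one]
  | succ n ih => rw [pow_succ, Z1_mul, ih, Finset.sum_range_succ]

variable (ρ)

/-- the coboundary of an element -/
def cob : A →ₗ[R] Z1 ρ where
  toFun a := ⟨fun γ => ρ γ a - a, fun γ δ => by
    simp only [map_mul, Module.End.mul_apply, map_sub]; abel⟩
  map_add' a b := by
    refine Subtype.ext (funext fun γ => ?_)
    simp only [map_add, Submodule.coe_add, Pi.add_apply]; abel
  map_smul' r a := by
    refine Subtype.ext (funext fun γ => ?_)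
    simp only [map_smul, RingHom.id_apply, Submodule.coe_smul, Pi.smul_apply, smul_sub]

@[simp] theorem cob_apply (a : A) (γ : Γ) : (cob ρ a : Γ → A) γ = ρ γ a - a := rfl

/-- first cohomology -/
abbrev H1 : Type _ := Z1 ρ ⧸ LinearMap.range (cob ρ)

/-- the class of a crossed homomorphism -/
def toH1 : Z1 ρ →ₗ[R] H1 ρ := (LinearMap.range (cob ρ)).mkQ

theorem toH1_surjective : Function.Surjective (toH1 ρ) := Submodule.mkQ_surjective _

theorem toH1_eq_zero_iff {f : Z1 ρ} : toH1 ρ f = 0 ↔ ∃ a : A, cob ρ a = f := by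
  rw [toH1, Submodule.mkQ_apply, Submodule.Quotient.mk_eq_zero, LinearMap.mem_range]

theorem toH1_cob (a : A) : toH1 ρ (cob ρ a) = 0 := (toH1_eq_zero_iff ρ).2 ⟨a, rfl⟩

/-- zeroth cohomology -/
def H0 : Submodule R A where
  carrier := {a | ∀ γ : Γ, ρ γ a = a}
  zero_mem' := by intro γ; simp
  add_mem' := by intro a b ha hb γ; simp [ha γ, hb γ]
  smul_mem' := by intro r a ha γ; simp [ha γ]

theorem mem_H0_iff {a : A} : a ∈ H0 ρ ↔ ∀ γ : Γ, ρ γ a = a := Iff.rfl

theorem cob_eq_zero_iff {a : A} : cob ρ a = 0 ↔ a ∈ H0 ρ := by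
  constructor
  · intro h γ
    have := congrFun (congrArg Subtype.val h) γ
    exact sub_eq_zero.mp this
  · intro h
    exact Subtype.ext (funext fun γ => sub_eq_zero.mpr (h γ))

end Basic

section Functoriality

variable {A B C : Type*} [AddCommGroup A] [Module R A] [AddCommGroup B] [Module R B]
  [AddCommGroup C] [Module R C]
  {ρ : Representation R Γ A} {σ : Representation R Γ B} {τ : Representation R Γ C}

/-- an equivariant map of coefficients -/
def IsEquivariant (ρ : Representation R Γ A) (σ : Representation R Γ B) (φ : A →ₗ[R] B) : Prop :=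
  ∀ γ a, φ (ρ γ a) = σ γ (φ a)

theorem isEquivariant_id : IsEquivariant ρ ρ LinearMap.id := fun _ _ => rfl

theorem IsEquivariant.comp {φ : A →ₗ[R] B} {ψ : B →ₗ[R] C} (hφ : IsEquivariant ρ σ φ)
    (hψ : IsEquivariant σ τ ψ) : IsEquivariant ρ τ (ψ ∘ₗ φ) := fun γ a => by
  simp [hφ γ a, hψ γ (φ a)]

/-- induced map on crossed homomorphisms -/
def mapZ1 (φ : A →ₗ[R] B) (hφ : IsEquivariant ρ σ φ) : Z1 ρ →ₗ[R] Z1 σ where
  toFun f := ⟨fun γ => φ ((f : Γ → A) γ), fun γ δ => by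
    show φ _ = φ _ + σ γ (φ _)
    rw [Z1_mul f γ δ, map_add, hφ γ]⟩
  map_add' f g := by ext γ; simp
  map_smul' r f := by ext γ; simp

@[simp] theorem mapZ1_apply (φ : A →ₗ[R] B) (hφ : IsEquivariant ρ σ φ) (f : Z1 ρ) (γ : Γ) :
    (mapZ1 φ hφ f : Γ → B) γ = φ ((f : Γ → A) γ) := rfl

theorem mapZ1_cob (φ : A →ₗ[R] B) (hφ : IsEquivariant ρ σ φ) (a : A) :
    mapZ1 φ hφ (cob ρ a) = cob σ (φ a) := by
  ext γ; simp [hφ γ a]

/-- induced map on cohomology -/
def mapH1 (φ : A →ₗ[R] B) (hφ : IsEquivariant ρ σ φ) : H1 ρ →ₗ[R] H1 σ :=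
  Submodule.mapQ _ _ (mapZ1 φ hφ) (by
    rintro _ ⟨a, rfl⟩
    exact ⟨φ a, (mapZ1_cob φ hφ a).symm⟩)

@[simp] theorem mapH1_toH1 (φ : A →ₗ[R] B) (hφ : IsEquivariant ρ σ φ) (f : Z1 ρ) :
    mapH1 φ hφ (toH1 ρ f) = toH1 σ (mapZ1 φ hφ f) := rfl

theorem mapH1_id : mapH1 (ρ := ρ) (σ := ρ) LinearMap.id isEquivariant_id = LinearMap.id := by
  refine LinearMap.ext fun x => ?_
  obtain ⟨f, rfl⟩ := toH1_surjective ρ x
  rfl

theorem mapH1_comp {φ : A →ₗ[R] B} {ψ : B →ₗ[R] C} (hφ : IsEquivariant ρ σ φ)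
    (hψ : IsEquivariant σ τ ψ) :
    mapH1 (ψ ∘ₗ φ) (hφ.comp hψ) = mapH1 ψ hψ ∘ₗ mapH1 φ hφ := by
  refine LinearMap.ext fun x => ?_
  obtain ⟨f, rfl⟩ := toH1_surjective ρ x
  rfl

/-- exactness in the middle -/
theorem mapH1_exact {φ : A →ₗ[R] B} {ψ : B →ₗ[R] C} (hφ : IsEquivariant ρ σ φ)
    (hψ : IsEquivariant σ τ ψ) (hinj : Function.Injective φ) (hsurj : Function.Surjective ψ)
    (hex : Function.Exact φ ψ) :
    Function.Exact (mapH1 φ hφ) (mapH1 ψ hψ) := by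
  intro x
  obtain ⟨f, rfl⟩ := toH1_surjective σ x
  rw [mapH1_toH1]
  constructor
  · intro h
    obtain ⟨c, hc⟩ := (toH1_eq_zero_iff τ).1 h
    obtain ⟨b, rfl⟩ := hsurj c
    have h1 : ∀ γ, ∃ a, φ a = (f : Γ → B) γ - (σ γ b - b) := fun γ => (hex _).1 (by
      have := congrFun (congrArg Subtype.val hc) γ
      rw [map_sub, map_sub, hψ, sub_eq_zero]
      exact this.symm)
    choose a ha using h1
    have hmem : a ∈ Z1 ρ := fun γ δ => hinj (by
      rw [map_add, hφ, ha, ha, ha, Z1_mul f, map_mul, Module.End.mul_apply]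
      simp only [map_sub]; abel)
    refine ⟨toH1 ρ ⟨a, hmem⟩, ?_⟩
    have e : mapZ1 φ hφ ⟨a, hmem⟩ = f - cob σ b := Subtype.ext (funext fun γ => ha γ)
    rw [mapH1_toH1, e, map_sub, toH1_cob, sub_zero]
  · rintro ⟨y, hy⟩
    obtain ⟨g, rfl⟩ := toH1_surjective ρ y
    rw [← mapH1_toH1, ← hy, mapH1_toH1, mapH1_toH1]
    have : mapZ1 ψ hψ (mapZ1 φ hφ g) = 0 :=
      Subtype.ext (funext fun γ => hex.apply_apply_eq_zero _)
    rw [this, map_zero]

end Functoriality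

section Transfer

variable {G I : Type*} [Group G] {ι : Γ →* G} {β : I → G} (h : IsCosetSystem ι β)
  {A : Type*} [AddCommGroup A] [Module R A]

/-- Weights making the transfer act on crossed homomorphisms: `w i` stands for `(β i)⁻¹`. -/
def IsWeight (ρ : Representation R Γ A) (w : I → A →ₗ[R] A) : Prop :=
  ∀ (γ : Γ) (i : I) (a : A), w i (ρ (h.cocycle γ i) a) = ρ γ (w (h.perm γ i) a)

variable [Fintype I] {ρ : Representation R Γ A} {w : I → A →ₗ[R] A}

/-- Hecke operator on crossed homomorphisms -/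
def trZ1 (hw : IsWeight h ρ w) : Z1 ρ →ₗ[R] Z1 ρ where
  toFun f := ⟨fun γ => ∑ i, w i ((f : Γ → A) (h.cocycle γ i)), fun γ δ => by
    simp only [h.cocycle_mul, Z1_mul f, map_add, hw γ]
    rw [Finset.sum_add_distrib, map_sum, add_right_inj]
    exact Equiv.sum_comp (h.permEquiv γ) (fun i => ρ γ (w i ((f : Γ → A) (h.cocycle δ i))))⟩
  map_add' f g := by ext γ; simp [Finset.sum_add_distrib]
  map_smul' r f := by ext γ; simp [Finset.smul_sum]

@[simp] theorem trZ1_apply (hw : IsWeight h ρ w) (f : Z1 ρ) (γ : Γ) :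
    (trZ1 h hw f : Γ → A) γ = ∑ i, w i ((f : Γ → A) (h.cocycle γ i)) := rfl

theorem trZ1_cob (hw : IsWeight h ρ w) (a : A) :
    trZ1 h hw (cob ρ a) = cob ρ (∑ i, w i a) := by
  refine Subtype.ext (funext fun γ => ?_)
  rw [trZ1_apply, cob_apply]
  simp only [cob_apply, map_sub, hw γ, Finset.sum_sub_distrib, map_sum]
  congr 1
  exact Equiv.sum_comp (h.permEquiv γ) (fun i => ρ γ (w i a))

/-- Hecke operator on cohomology -/
def trH1 (hw : IsWeight h ρ w) : H1 ρ →ₗ[R] H1 ρ :=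
  Submodule.mapQ _ _ (trZ1 h hw) (by
    rintro _ ⟨a, rfl⟩
    exact ⟨∑ i, w i a, (trZ1_cob h hw a).symm⟩)

@[simp] theorem trH1_toH1 (hw : IsWeight h ρ w) (f : Z1 ρ) :
    trH1 h hw (toH1 ρ f) = toH1 ρ (trZ1 h hw f) := rfl

variable {B : Type*} [AddCommGroup B] [Module R B] {σ : Representation R Γ B}
  {v : I → B →ₗ[R] B}

theorem mapH1_trH1 (hw : IsWeight h ρ w) (hv : IsWeight h σ v) (φ : A →ₗ[R] B)
    (hφ : IsEquivariant ρ σ φ) (hc : ∀ i a, φ (w i a) = v i (φ a)) (x : H1 ρ) :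
    mapH1 φ hφ (trH1 h hw x) = trH1 h hv (mapH1 φ hφ x) := by
  obtain ⟨f, rfl⟩ := toH1_surjective ρ x
  rw [trH1_toH1, mapH1_toH1, mapH1_toH1, trH1_toH1]
  congr 1
  refine Subtype.ext (funext fun γ => ?_)
  simp [map_sum, hc]

end Transfer

end Fermat.Agent.Lifting
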