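/-
Freeness: if `X ↦ H¹(Γ, X(χ))` is exact away from a prime of a commutative algebra of operators,
then over an Artinian local coefficient ring its part away from that prime is free.
-/
import Fermat.Agent.Lifting.CCohom
import Mathlib.RingTheory.LocalRing.ResidueField.Basic
import Mathlib.RingTheory.Nakayama
import Mathlib.RingTheory.Artinian.Module
import Mathlib.RingTheory.Noetherian.Basic
import Mathlib.RingTheory.HopkinsLevitzki
import Mathlib.GroupTheory.Finiteness
import Mathlib.RingTheory.Finiteness.Nakayama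

set_option autoImplicit false

noncomputable section

namespace Fermat.Agent.Lifting

universe u

section Algebra

variable {R : Type*} [CommRing R] {M : Type*} [AddCommGroup M] [Module R M]

/-- Over a local ring a finite module is free as soon as every relation between generators of the
maximal ideal stays exact after tensoring with it. -/
theorem free_of_relations [IsLocalRing R] [IsNoetherianRing R] [Module.Finite R M]
    (h : ∀ (n s : ℕ) (g : Fin n → R) (κ : Fin n → Fin s → R),
      Ideal.span (Set.range g) = IsLocalRing.maximalIdeal R →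
      (∀ t, ∑ j, g j * κ j t = 0) →
      (∀ r : Fin n → R, ∑ j, g j * r j = 0 → ∃ e : Fin s → R, ∀ j, r j = ∑ t, κ j t * e t) →
      ∀ a : Fin n → M, ∑ j, g j • a j = 0 → ∃ m : Fin s → M, ∀ j, a j = ∑ t, κ j t • m t) :
    Module.Free R M := by
  classical
  -- generators of `M` without unit coefficients in relations
  obtain ⟨d, a, ha⟩ : ∃ (d : ℕ) (a : Fin d → M), Submodule.span R (Set.range a) = ⊤ :=
    Module.Finite.exists_fin
  induction d using Nat.strong_induction_on with
  | _ d ih =>
    let φ : (Fin d → R) →ₗ[R] M := Fintype.linearCombination R a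
    have hφ : ∀ r, φ r = ∑ i, r i • a i := fun r => rfl
    have hsurj : Function.Surjective φ := by
      rw [← LinearMap.range_eq_top, Fintype.range_linearCombination, ha]
    by_cases hmax : ∀ r ∈ LinearMap.ker φ, ∀ i, r i ∈ IsLocalRing.maximalIdeal R
    · -- the relations vanish by Nakayama
      obtain ⟨n, g, hg⟩ : ∃ (n : ℕ) (g : Fin n → R),
          Ideal.span (Set.range g) = IsLocalRing.maximalIdeal R :=
        Submodule.fg_iff_exists_fin_generating_family.1 (IsNoetherian.noetherian _)
      let π : (Fin n → R) →ₗ[R] R := Fintype.linearCombination R g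
      have hπ : ∀ r, π r = ∑ j, g j * r j := fun r => by
        simp [π, Fintype.linearCombination_apply, mul_comm]
      obtain ⟨s, κ, hκ⟩ := Submodule.fg_iff_exists_fin_generating_family.1
        (IsNoetherian.noetherian (LinearMap.ker π))
      have hκ0 : ∀ t, ∑ j, g j * κ t j = 0 := fun t => by
        rw [← hπ]; exact LinearMap.mem_ker.1 (hκ ▸ Submodule.subset_span ⟨t, rfl⟩)
      have hκe : ∀ r : Fin n → R, ∑ j, g j * r j = 0 →
          ∃ e : Fin s → R, ∀ j, r j = ∑ t, κ t j * e t := by
        intro r hr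
        have hmem : r ∈ Submodule.span R (Set.range κ) := by rw [hκ, LinearMap.mem_ker, hπ]; exact hr
        obtain ⟨e, he⟩ := (Submodule.mem_span_range_iff_exists_fun R).1 hmem
        exact ⟨e, fun j => by rw [← he]; simp [mul_comm]⟩
      have hker : LinearMap.ker φ ≤ IsLocalRing.maximalIdeal R • LinearMap.ker φ := by
        intro r hr
        have h1 : ∀ i, ∃ c : Fin n → R, r i = ∑ j, g j * c j := fun i => by
          have := hmax r hr i
          rw [← hg] at this
          obtain ⟨c, hc⟩ := (Submodule.mem_span_range_iff_exists_fun R).1 this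
          exact ⟨c, by rw [← hc]; simp [mul_comm]⟩
        choose c hc using h1
        have h2 : ∑ j, g j • φ (fun i => c i j) = 0 := by
          simp only [hφ, Finset.smul_sum, smul_smul]
          rw [Finset.sum_comm]
          simp only [← Finset.sum_smul, ← hc]
          exact LinearMap.mem_ker.1 hr
        obtain ⟨m, hm⟩ := h n s g (fun j t => κ t j) hg hκ0 hκe _ h2
        choose e he using fun t => hsurj (m t)
        let D : Fin n → (Fin d → R) := fun j => (fun i => c i j) - ∑ t, κ t j • e t
        have hD : ∀ j, D j ∈ LinearMap.ker φ := fun j => by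
          rw [LinearMap.mem_ker]
          simp only [D, map_sub, map_sum, map_smul, he, sub_eq_zero]
          exact hm j
        have hr' : r = ∑ j, g j • D j := by
          have h3 : ∑ j, g j • ∑ t, κ t j • e t = 0 := by
            simp only [Finset.smul_sum, smul_smul]
            rw [Finset.sum_comm]
            simp only [← Finset.sum_smul, hκ0, zero_smul, Finset.sum_const_zero]
          simp only [D, smul_sub, Finset.sum_sub_distrib, h3, sub_zero]
          funext i
          simp [hc i]
        rw [hr']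
        exact Submodule.sum_mem _ fun j _ => Submodule.smul_mem_smul
          (hg ▸ Ideal.subset_span ⟨j, rfl⟩) (hD j)
      have hbot : LinearMap.ker φ = ⊥ := Submodule.eq_bot_of_le_smul_of_le_jacobson_bot _ _
        (IsNoetherian.noetherian _) hker (IsLocalRing.jacobson_eq_maximalIdeal _ bot_ne_top).ge
      exact Module.Free.of_equiv (LinearEquiv.ofBijective φ ⟨LinearMap.ker_eq_bot.1 hbot, hsurj⟩)
    · push Not at hmax
      obtain ⟨r, hr, i, hi⟩ := hmax
      rcases d with _ | d
      · exact i.elim0
      refine ih d d.lt_succ_self (a ∘ i.succAbove) ?_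
      rw [eq_top_iff, ← ha, Submodule.span_le]
      rintro _ ⟨k, rfl⟩
      rcases Fin.eq_self_or_eq_succAbove i k with rfl | ⟨k, rfl⟩
      · have h0 : ∑ l, r l • a l = 0 := LinearMap.mem_ker.1 hr
        rw [Fin.sum_univ_succAbove _ k, add_eq_zero_iff_eq_neg] at h0
        have hu : IsUnit (r k) := by simpa using hi
        refine (Submodule.smul_mem_iff_of_isUnit _ hu).1 ?_
        rw [h0]
        exact Submodule.neg_mem _ (Submodule.sum_mem _ fun l _ =>
          Submodule.smul_mem _ _ (Submodule.subset_span ⟨l, rfl⟩))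
      · exact Submodule.subset_span ⟨k, rfl⟩

end Algebra

section Functor

variable {R : Type u} [CommRing R] {Γ : Type*} [Group Γ] (χ : Γ →* R)

/-- an `R`-module with `Γ` acting through scalars -/
def scalarRep (X : Type*) [AddCommGroup X] [Module R X] : Representation R Γ X :=
  (Algebra.lsmul R R X).toMonoidHom.comp χ

@[simp] theorem scalarRep_apply (X : Type*) [AddCommGroup X] [Module R X] (γ : Γ) (x : X) :
    scalarRep χ X γ x = χ γ • x := rfl

theorem isEquivariant_scalarRep {X Y : Type*} [AddCommGroup X] [Module R X] [AddCommGroup Y]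
    [Module R Y] (f : X →ₗ[R] Y) : IsEquivariant (scalarRep χ X) (scalarRep χ Y) f :=
  fun γ x => f.map_smul (χ γ) x

/-- `H¹(Γ, X(χ))` as a functor of `X` -/
def scalarMap {X Y : Type*} [AddCommGroup X] [Module R X] [AddCommGroup Y] [Module R Y]
    (f : X →ₗ[R] Y) : H1 (scalarRep χ X) →ₗ[R] H1 (scalarRep χ Y) :=
  mapH1 f (isEquivariant_scalarRep χ f)

theorem scalarMap_comp {X Y Z : Type*} [AddCommGroup X] [Module R X] [AddCommGroup Y]
    [Module R Y] [AddCommGroup Z] [Module R Z] (f : X →ₗ[R] Y) (g : Y →ₗ[R] Z)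
    (x : H1 (scalarRep χ X)) : scalarMap χ g (scalarMap χ f x) = scalarMap χ (g ∘ₗ f) x := by
  obtain ⟨z, rfl⟩ := toH1_surjective _ x
  rfl

theorem scalarMap_add {X Y : Type*} [AddCommGroup X] [Module R X] [AddCommGroup Y] [Module R Y]
    (f g : X →ₗ[R] Y) : scalarMap χ (f + g) = scalarMap χ f + scalarMap χ g := by
  refine LinearMap.ext fun x => ?_
  obtain ⟨z, rfl⟩ := toH1_surjective _ x
  rfl

theorem scalarMap_smul {X Y : Type*} [AddCommGroup X] [Module R X] [AddCommGroup Y] [Module R Y]
    (r : R) (f : X →ₗ[R] Y) : scalarMap χ (r • f) = r • scalarMap χ f := by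
  refine LinearMap.ext fun x => ?_
  obtain ⟨z, rfl⟩ := toH1_surjective _ x
  rfl

theorem scalarMap_id {X : Type*} [AddCommGroup X] [Module R X] :
    scalarMap χ (LinearMap.id : X →ₗ[R] X) = LinearMap.id := by
  refine LinearMap.ext fun x => ?_
  obtain ⟨z, rfl⟩ := toH1_surjective _ x
  rfl

theorem scalarMap_zero {X Y : Type*} [AddCommGroup X] [Module R X] [AddCommGroup Y] [Module R Y] :
    scalarMap χ (0 : X →ₗ[R] Y) = 0 := by
  refine LinearMap.ext fun x => ?_
  obtain ⟨z, rfl⟩ := toH1_surjective _ x
  rfl

theorem scalarMap_sum {X Y : Type*} [AddCommGroup X] [Module R X] [AddCommGroup Y] [Module R Y]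
    {J : Type*} (S : Finset J) (f : J → X →ₗ[R] Y) :
    scalarMap χ (∑ j ∈ S, f j) = ∑ j ∈ S, scalarMap χ (f j) := by
  classical
  induction S using Finset.induction_on with
  | empty => simp [scalarMap_zero]
  | insert j S hj ih => rw [Finset.sum_insert hj, Finset.sum_insert hj, scalarMap_add, ih]

/-- `H¹` of a finitely generated group is finite over a Noetherian ring. -/
theorem finite_H1 [Group.FG Γ] [IsNoetherianRing R] {A : Type*} [AddCommGroup A] [Module R A]
    [Module.Finite R A] (ρ : Representation R Γ A) : Module.Finite R (H1 ρ) := by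
  obtain ⟨S, hS⟩ := (Group.fg_def (G := Γ)).1 inferInstance
  let ev : Z1 ρ →ₗ[R] ({γ // γ ∈ S} → A) :=
    { toFun := fun f γ => (f : Γ → A) γ.1, map_add' := fun _ _ => rfl, map_smul' := fun _ _ => rfl }
  have hev : Function.Injective ev := by
    rw [← LinearMap.ker_eq_bot, eq_bot_iff]
    intro f hf
    have h0 : ∀ γ ∈ S, (f : Γ → A) γ = 0 := fun γ hγ =>
      congrFun (LinearMap.mem_ker.1 hf) ⟨γ, hγ⟩
    refine Subtype.ext (funext fun γ => ?_)
    have hγ : γ ∈ Subgroup.closure (S : Set Γ) := by rw [hS]; trivial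
    induction hγ using Subgroup.closure_induction with
    | mem x hx => exact h0 x hx
    | one => exact Z1_one f
    | mul x y _ _ hx hy => simp [Z1_mul f, hx, hy]
    | inv x _ hx => simp [Z1_inv f, hx]
  haveI : IsNoetherian R (Z1 ρ) := isNoetherian_of_injective ev hev
  exact Module.Finite.quotient R _

variable [IsArtinianRing R] [IsLocalRing R] [Group.FG Γ]
  {T : Type*} [CommRing T] [Algebra R T] (P : Ideal T) [P.IsPrime]
  (act : (X : Type u) → [AddCommGroup X] → [Module R X] →
    (T →ₐ[R] Module.End R (H1 (scalarRep χ X))))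

/-- the classes killed by an operator outside `P` -/
def locKer (X : Type u) [AddCommGroup X] [Module R X] : Submodule R (H1 (scalarRep χ X)) where
  carrier := {x | ∃ t, t ∉ P ∧ act X t x = 0}
  zero_mem' := ⟨1, fun h => ‹P.IsPrime›.ne_top ((Ideal.eq_top_iff_one P).2 h), map_zero _⟩
  add_mem' := by
    rintro x y ⟨t, ht, hx⟩ ⟨t', ht', hy⟩
    refine ⟨t * t', fun h => (‹P.IsPrime›.mem_or_mem h).elim ht ht', ?_⟩
    rw [map_add, map_mul, Module.End.mul_apply, Module.End.mul_apply, hy, map_zero, add_zero,
      ← Module.End.mul_apply, ← map_mul, mul_comm, map_mul, Module.End.mul_apply, hx, map_zero]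
  smul_mem' := by
    rintro r x ⟨t, ht, hx⟩
    exact ⟨t, ht, by rw [map_smul, hx, smul_zero]⟩

/-- the part of `H¹(Γ, R(χ))` at `P` -/
abbrev LocH : Type _ := H1 (scalarRep χ R) ⧸ locKer χ P act R

omit [IsArtinianRing R] [IsLocalRing R] [Group.FG Γ] in
theorem mem_locKer_iff {X : Type u} [AddCommGroup X] [Module R X] {x : H1 (scalarRep χ X)} :
    x ∈ locKer χ P act X ↔ ∃ t, t ∉ P ∧ act X t x = 0 := Iff.rfl

omit [IsArtinianRing R] [IsLocalRing R] [Group.FG Γ] in
theorem locKer_stable (t : T) :
    locKer χ P act R ≤ (locKer χ P act R).comap (act R t) := by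
  rintro x ⟨t', ht', hx⟩
  refine ⟨t', ht', ?_⟩
  rw [← Module.End.mul_apply, ← map_mul, mul_comm, map_mul, Module.End.mul_apply, hx, map_zero]

/-- the action of an operator on the part at `P` -/
def locAct (t : T) : Module.End R (LocH χ P act) :=
  Submodule.mapQ _ _ (act R t) (locKer_stable χ P act t)

omit [IsArtinianRing R] [IsLocalRing R] [Group.FG Γ] in
@[simp] theorem locAct_mk (t : T) (x : H1 (scalarRep χ R)) :
    locAct χ P act t (Submodule.Quotient.mk x) = Submodule.Quotient.mk (act R t x) := rfl

omit [IsLocalRing R] in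
/-- operators outside `P` are bijective on the part at `P` -/
theorem locAct_bijective {t : T} (ht : t ∉ P) : Function.Bijective (locAct χ P act t) := by
  haveI : Module.Finite R (H1 (scalarRep χ R)) := finite_H1 _
  haveI : IsArtinian R (LocH χ P act) := inferInstance
  refine IsArtinian.bijective_of_injective_endomorphism _ ?_
  rw [← LinearMap.ker_eq_bot, eq_bot_iff]
  intro x hx
  obtain ⟨x, rfl⟩ := Submodule.Quotient.mk_surjective _ x
  rw [LinearMap.mem_ker, locAct_mk, Submodule.Quotient.mk_eq_zero, mem_locKer_iff] at hx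
  obtain ⟨t', ht', hx⟩ := hx
  rw [Submodule.mem_bot, Submodule.Quotient.mk_eq_zero, mem_locKer_iff]
  exact ⟨t' * t, fun h => (‹P.IsPrime›.mem_or_mem h).elim ht' ht,
    by rw [map_mul, Module.End.mul_apply, hx]⟩

/-- **Freeness away from the Eisenstein part.** -/
theorem free_locH
    (hnat : ∀ (X Y : Type u) [AddCommGroup X] [Module R X] [AddCommGroup Y] [Module R Y]
      (f : X →ₗ[R] Y) (t : T) (x : H1 (scalarRep χ X)),
      scalarMap χ f (act X t x) = act Y t (scalarMap χ f x))
    {t₁ : T} (ht₁ : t₁ ∉ P)
    (hsurj : ∀ (X Y : Type u) [AddCommGroup X] [Module R X] [AddCommGroup Y] [Module R Y]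
      (f : X →ₗ[R] Y), Function.Surjective f →
      ∀ y, ∃ x, scalarMap χ f x = act Y t₁ y)
    {t₂ : T} (ht₂ : t₂ ∉ P)
    (hinj : ∀ (X Y : Type u) [AddCommGroup X] [Module R X] [AddCommGroup Y] [Module R Y]
      (f : X →ₗ[R] Y), Function.Injective f →
      ∀ x, scalarMap χ f x = 0 → act X t₂ x = 0) :
    Module.Free R (LocH χ P act) := by
  classical
  haveI : Module.Finite R (H1 (scalarRep χ R)) := finite_H1 _
  refine free_of_relations ?_
  intro n s g κ hg hκ0 hκe a ha
  choose x hx using fun j => Submodule.Quotient.mk_surjective (locKer χ P act R) (a j)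
  let inc : Fin n → (R →ₗ[R] (Fin n → R)) := fun j => LinearMap.single R (fun _ => R) j
  let π : (Fin n → R) →ₗ[R] R := Fintype.linearCombination R g
  let K := LinearMap.ker π
  let π' : (Fin n → R) →ₗ[R] LinearMap.range π := π.rangeRestrict
  let κ' : (Fin s → R) →ₗ[R] K :=
    LinearMap.codRestrict K (LinearMap.pi fun j => Fintype.linearCombination R (κ j)) fun e => by
      rw [LinearMap.mem_ker]
      have h1 : ∀ e : Fin s → R, ∑ j, (∑ t, e t * κ j t) * g j = 0 := fun e => by
        simp only [Finset.sum_mul]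
        rw [Finset.sum_comm]
        refine Finset.sum_eq_zero fun t _ => ?_
        simp only [mul_assoc, ← Finset.mul_sum, mul_comm (κ _ t), hκ0, mul_zero]
      simpa [π, Fintype.linearCombination_apply] using h1 e
  have hκ' : Function.Surjective κ' := by
    rintro ⟨r, hr⟩
    obtain ⟨e, he⟩ := hκe r (by
      simpa [π, Fintype.linearCombination_apply, mul_comm] using LinearMap.mem_ker.1 hr)
    refine ⟨e, Subtype.ext (funext fun j => ?_)⟩
    simp [κ', Fintype.linearCombination_apply, he j, mul_comm]
  -- lift the relation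
  let v : H1 (scalarRep χ (Fin n → R)) := ∑ j, scalarMap χ (inc j) (x j)
  have hπv : scalarMap χ π v = ∑ j, g j • x j := by
    simp only [v, map_sum]
    refine Finset.sum_congr rfl fun j _ => ?_
    rw [scalarMap_comp, show π ∘ₗ inc j = g j • LinearMap.id from LinearMap.ext_ring (by
      simp [π, inc, Fintype.linearCombination_apply_single]), scalarMap_smul, scalarMap_id]
    rfl
  obtain ⟨w, hw, hw0⟩ : ∃ w, w ∉ P ∧ act R w (∑ j, g j • x j) = 0 := by
    rw [← mem_locKer_iff, ← Submodule.Quotient.mk_eq_zero (locKer χ P act R)]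
    rw [← ha]
    simp only [← hx]
    exact (map_sum (locKer χ P act R).mkQ (fun j => g j • x j) Finset.univ).trans
      (Finset.sum_congr rfl fun j _ => map_smul _ _ _)
  set v' := act (Fin n → R) t₂ (act (Fin n → R) w v) with hv'
  have hI : scalarMap χ π' v' = 0 := by
    rw [hv', hnat]
    refine hinj _ _ (LinearMap.range π).subtype Subtype.val_injective _ ?_
    rw [scalarMap_comp, show (LinearMap.range π).subtype ∘ₗ π' = π from rfl, hnat, hπv, hw0]
  obtain ⟨b, hb⟩ : ∃ b, scalarMap χ K.subtype b = v' := by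
    refine (mapH1_exact (isEquivariant_scalarRep χ K.subtype) (isEquivariant_scalarRep χ π')
      Subtype.val_injective π.surjective_rangeRestrict ?_ v').1 hI
    intro r
    constructor
    · intro h
      exact ⟨⟨r, LinearMap.mem_ker.2 (congrArg Subtype.val h)⟩, rfl⟩
    · rintro ⟨r, rfl⟩
      exact Subtype.ext (LinearMap.mem_ker.1 r.2)
  obtain ⟨c, hc⟩ := hsurj _ _ κ' hκ' b
  have hcomp : ∀ j, act R (t₁ * t₂ * w) (x j)
      = ∑ t, κ j t • scalarMap χ (LinearMap.proj t : (Fin s → R) →ₗ[R] R) c := by
    intro j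
    have h1 : scalarMap χ (LinearMap.proj j : (Fin n → R) →ₗ[R] R) (act (Fin n → R) t₁ v')
        = act R (t₁ * t₂ * w) (x j) := by
      rw [hnat, hv', hnat, hnat]
      have h2 : scalarMap χ (LinearMap.proj j : (Fin n → R) →ₗ[R] R) v = x j := by
        simp only [v, map_sum]
        rw [Finset.sum_eq_single j]
        · rw [scalarMap_comp, show (LinearMap.proj j : (Fin n → R) →ₗ[R] R) ∘ₗ inc j = LinearMap.id
            from LinearMap.ext_ring (by simp [inc]), scalarMap_id]
          rfl
        · intro i _ hij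
          rw [scalarMap_comp, show (LinearMap.proj j : (Fin n → R) →ₗ[R] R) ∘ₗ inc i = 0
            from LinearMap.ext_ring (by simp [inc, Pi.single_eq_of_ne (Ne.symm hij)]), scalarMap_zero]
          rfl
        · simp
      rw [h2, map_mul, map_mul, Module.End.mul_apply, Module.End.mul_apply]
    rw [← h1, ← hb, ← hnat, ← hc, scalarMap_comp, scalarMap_comp]
    have e : (LinearMap.proj j : (Fin n → R) →ₗ[R] R) ∘ₗ K.subtype ∘ₗ κ'
        = ∑ t, κ j t • LinearMap.proj t := by
      refine LinearMap.ext fun e => ?_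
      simp [κ', Fintype.linearCombination_apply, mul_comm]
    rw [show ((LinearMap.proj j : (Fin n → R) →ₗ[R] R) ∘ₗ K.subtype) ∘ₗ κ'
        = (LinearMap.proj j : (Fin n → R) →ₗ[R] R) ∘ₗ K.subtype ∘ₗ κ' from rfl, e, scalarMap_sum,
      LinearMap.sum_apply]
    simp [scalarMap_smul]
  have hu : t₁ * t₂ * w ∉ P := fun h => (‹P.IsPrime›.mem_or_mem h).elim
    (fun h => (‹P.IsPrime›.mem_or_mem h).elim ht₁ ht₂) hw
  have hbij := locAct_bijective χ P act hu
  choose m hm using fun t => hbij.2 (Submodule.Quotient.mk (scalarMap χ (LinearMap.proj t : (Fin s → R) →ₗ[R] R) c))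
  refine ⟨m, fun j => hbij.1 ?_⟩
  simp only [map_sum, map_smul, hm]
  rw [← hx, locAct_mk, hcomp j]
  simp [← Submodule.mkQ_apply, map_sum]

end Functor

end Fermat.Agent.Lifting
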