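/-
A crossed homomorphism on a finite index subgroup of SL(2, ℤ) lifts along a surjection of
coefficients as soon as it lifts on the elliptic elements.
-/
import Fermat.Agent.Lifting.CCohom
import Fermat.Agent.ParHom.Presentation

set_option autoImplicit false

noncomputable section

namespace Fermat.Agent.Lifting

open scoped MatrixGroups
open ModularGroup Fermat.Agent.ParHom Finset

variable {R : Type*} [CommRing R] {Γ : Subgroup SL(2, ℤ)}
  {B C : Type*} [AddCommGroup B] [Module R B] [AddCommGroup C] [Module R C]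
  {σ : Representation R Γ B} {τ : Representation R Γ C}

/-- functions on `SL(2, ℤ)` in the induced representation -/
def IsInduced (σ : Representation R Γ B) (u : SL(2, ℤ) → B) : Prop :=
  ∀ (γ : Γ) (x : SL(2, ℤ)), u ((γ : SL(2, ℤ)) * x) = σ γ (u x)

/-- `n` in `{2, 3}` and `g ^ n = -1`: a conjugate of `g` lies in `Γ` or the cosets are distinct. -/
theorem exists_induced_lift (hneg : (-1 : SL(2, ℤ)) ∈ Γ) (hσneg : σ ⟨-1, hneg⟩ = 1)
    (ψ : B →ₗ[R] C) (hψ : IsEquivariant σ τ ψ) (hsurj : Function.Surjective ψ)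
    (g : SL(2, ℤ)) (n : ℕ) (hn : n.Prime) (hg : g ^ n = -1)
    (φ : SL(2, ℤ) → C) (hφ : IsInduced τ φ)
    (hsum : ∀ x, ∑ i ∈ range n, φ (x * g ^ i) = 0)
    (hfix : ∀ (x : SL(2, ℤ)) (γ : Γ), (γ : SL(2, ℤ)) = x * g * x⁻¹ →
      ∃ b, ψ b = φ x ∧ ∑ k ∈ range n, σ (γ ^ k) b = 0) :
    ∃ u : SL(2, ℤ) → B, IsInduced σ u ∧ (∀ x, ψ (u x) = φ x) ∧
      ∀ x, ∑ i ∈ range n, u (x * g ^ i) = 0 := by
  classical
  -- double cosets
  let r : SL(2, ℤ) → SL(2, ℤ) → Prop := fun x y => ∃ (γ : Γ) (i : ℕ), y = γ * x * g ^ i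
  have hginv : g⁻¹ = (-1 : SL(2, ℤ)) * g ^ (n - 1) := by
    refine inv_eq_of_mul_eq_one_right ?_
    rw [← mul_assoc, ← (Commute.neg_one_left g).eq, mul_assoc, ← pow_succ',
      Nat.sub_add_cancel hn.one_le, hg, ← pow_two, neg_one_sq]
  have hrefl : ∀ x, r x x := fun x => ⟨1, 0, by simp⟩
  have htrans : ∀ {x y z}, r x y → r y z → r x z := by
    rintro x y z ⟨γ, i, rfl⟩ ⟨δ, j, rfl⟩
    exact ⟨δ * γ, i + j, by simp [pow_add, mul_assoc]⟩
  have hsymm : ∀ {x y}, r x y → r y x := by
    rintro x y ⟨γ, i, rfl⟩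
    refine ⟨γ⁻¹ * ⟨-1, hneg⟩ ^ i, (n - 1) * i, ?_⟩
    have h1 : g ^ i * ((-1 : SL(2, ℤ)) * g ^ (n - 1)) ^ i = 1 := by
      rw [← hginv, inv_pow, mul_inv_cancel]
    rw [Subgroup.coe_mul, Subgroup.coe_inv, SubgroupClass.coe_pow]
    have hc : Commute (-1 : SL(2, ℤ)) (g ^ (n - 1)) := Commute.neg_one_left _
    rw [hc.mul_pow, ← pow_mul] at h1
    have hcc : ∀ y : SL(2, ℤ), (-1 : SL(2, ℤ)) ^ i * y = y * (-1) ^ i :=
      fun y => ((Commute.neg_one_left y).pow_left i).eq
    calc x = (γ : SL(2, ℤ))⁻¹ * ((γ : SL(2, ℤ)) * x * (g ^ i * ((-1) ^ i * g ^ ((n - 1) * i)))) := by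
          rw [h1]; group
      _ = _ := by
          rw [← mul_assoc (g ^ i), ← hcc (g ^ i)]
          simp only [mul_assoc]
          rw [← mul_assoc x, ← hcc x, mul_assoc, ← mul_assoc (γ : SL(2, ℤ)), ← hcc (γ : SL(2, ℤ))]
          simp only [mul_assoc]
  let s : Setoid (SL(2, ℤ)) := ⟨r, ⟨hrefl, hsymm, htrans⟩⟩
  let rep : SL(2, ℤ) → SL(2, ℤ) := fun x => (Quotient.mk s x).out
  have hrep : ∀ x, r (rep x) x := fun x => @Quotient.exact _ s _ _ (Quotient.out_eq (Quotient.mk s x))
  have hrep' : ∀ x y, r x y → rep x = rep y := fun x y h => by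
    simp only [rep]; rw [Quotient.sound h]
  -- values on the representatives
  let fixed : SL(2, ℤ) → Prop := fun x => x * g * x⁻¹ ∈ Γ
  choose ℓ hℓ using fun x => hsurj (φ x)
  have hval : ∀ x, ∃ b : ℕ → B, (∀ i < n, ψ (b i) = φ (x * g ^ i)) ∧
      ((∑ i ∈ range n, b i) = 0) ∧
      ∀ h : fixed x, ∀ i < n, b i = σ (⟨_, h⟩ ^ i) (b 0) := by
    intro x
    by_cases h : fixed x
    · obtain ⟨b, hb, hb0⟩ := hfix x ⟨_, h⟩ rfl
      refine ⟨fun i => σ (⟨_, h⟩ ^ i) b, fun i _ => ?_, hb0, fun _ i _ => by simp⟩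
      rw [hψ, hb, ← hφ, SubgroupClass.coe_pow]
      congr 1
      rw [conj_pow]; group
    · refine ⟨fun i => if i = 0 then -∑ j ∈ (range n).erase 0, ℓ (x * g ^ j) else ℓ (x * g ^ i),
        fun i hi => ?_, ?_, fun h' => absurd h' h⟩
      · dsimp only
        split_ifs with h0
        · subst h0
          rw [map_neg, map_sum]
          simp only [hℓ]
          have := hsum x
          rw [← Finset.add_sum_erase _ _ (mem_range.mpr hn.pos)] at this
          exact (eq_neg_of_add_eq_zero_left this).symm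
        · exact hℓ _
      · rw [← Finset.add_sum_erase _ _ (mem_range.mpr hn.pos)]
        simp only [if_true]
        rw [neg_add_eq_zero]
        exact Finset.sum_congr rfl fun j hj => by rw [if_neg (Finset.mem_erase.mp hj).1]
  choose b hbψ hbsum hbfix using hval
  -- normal form `y = γ * rep y * g ^ i` with `i < n`
  have hnf : ∀ y, ∃ (γ : Γ) (i : ℕ), i < n ∧ y = γ * rep y * g ^ i := by
    intro y
    obtain ⟨γ, i, hy⟩ := hrep y
    refine ⟨γ * ⟨-1, hneg⟩ ^ (i / n), i % n, Nat.mod_lt _ hn.pos, ?_⟩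
    rw [Subgroup.coe_mul, SubgroupClass.coe_pow]
    conv_lhs => rw [hy, ← Nat.div_add_mod i n, pow_add, pow_mul, hg]
    have hcc : ∀ z : SL(2, ℤ), (-1 : SL(2, ℤ)) ^ (i / n) * z = z * (-1) ^ (i / n) :=
      fun z => ((Commute.neg_one_left z).pow_left _).eq
    simp only [mul_assoc]
    rw [← mul_assoc (rep y) ((-1 : SL(2, ℤ)) ^ (i / n)), ← hcc (rep y)]
    simp only [mul_assoc]
  choose γn kn hkn hyn using hnf
  let u : SL(2, ℤ) → B := fun y => σ (γn y) (b (rep y) (kn y))
  -- independence of the normal form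
  have hu : ∀ (γ : Γ) (x : SL(2, ℤ)) (i : ℕ), i < n → rep x = x →
      u (γ * x * g ^ i) = σ γ (b x i) := by
    intro γ x i hi hx
    have hrepy : rep (γ * x * g ^ i) = x := (hrep' x _ ⟨γ, i, rfl⟩).symm.trans hx
    have e := hyn (γ * x * g ^ i)
    show σ (γn _) (b (rep _) (kn _)) = _
    rw [hrepy] at e ⊢
    set δ := γn (γ * x * g ^ i)
    set j := kn (γ * x * g ^ i)
    have hj : j < n := hkn _
    by_cases h : fixed x
    · rw [hbfix x h i hi, hbfix x h j hj, ← Module.End.mul_apply, ← map_mul,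
        ← Module.End.mul_apply, ← map_mul]
      congr 2
      apply Subtype.ext
      rw [Subgroup.coe_mul, Subgroup.coe_mul, SubgroupClass.coe_pow, SubgroupClass.coe_pow]
      show (δ : SL(2, ℤ)) * (x * g * x⁻¹) ^ j = (γ : SL(2, ℤ)) * (x * g * x⁻¹) ^ i
      rw [conj_pow, conj_pow, ← mul_assoc, ← mul_assoc, ← mul_assoc, ← mul_assoc, e]
    · have hij : i = j := by
        by_contra hne
        apply h
        have hmem : ∀ d : ℕ, g ^ d ∈ (Γ.comap (MulAut.conj x).toMonoidHom) ↔
            x * g ^ d * x⁻¹ ∈ Γ := fun d => Iff.rfl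
        have key : ∃ d : ℕ, 0 < d ∧ d < n ∧ g ^ d ∈ Γ.comap (MulAut.conj x).toMonoidHom := by
          rcases Nat.lt_or_gt_of_ne hne with hlt | hlt
          · refine ⟨j - i, by omega, by omega, (hmem _).2 ?_⟩
            have : (δ⁻¹ * γ : Γ).1 = x * g ^ (j - i) * x⁻¹ := by
              rw [Subgroup.coe_mul, Subgroup.coe_inv]
              have e2 : g ^ j = g ^ (j - i) * g ^ i := by rw [← pow_add, Nat.sub_add_cancel hlt.le]
              rw [e2, ← mul_assoc] at e
              have e3 := mul_right_cancel e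
              rw [eq_mul_inv_iff_mul_eq, mul_assoc, e3]
              group
            rw [← this]; exact Subtype.coe_prop _
          · refine ⟨i - j, by omega, by omega, (hmem _).2 ?_⟩
            have : (γ⁻¹ * δ : Γ).1 = x * g ^ (i - j) * x⁻¹ := by
              rw [Subgroup.coe_mul, Subgroup.coe_inv]
              have e2 : g ^ i = g ^ (i - j) * g ^ j := by rw [← pow_add, Nat.sub_add_cancel hlt.le]
              rw [e2, ← mul_assoc] at e
              have e3 := mul_right_cancel e
              rw [eq_mul_inv_iff_mul_eq, mul_assoc, ← e3]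
              group
            rw [← this]; exact Subtype.coe_prop _
        obtain ⟨d, hd0, hdn, hd⟩ := key
        set H := Γ.comap (MulAut.conj x).toMonoidHom
        have hnegH : g ^ n ∈ H := by
          rw [hmem, hg, mul_neg_one, neg_mul, mul_inv_cancel]; exact hneg
        have hcop : Nat.gcd d n = 1 :=
          Nat.Coprime.symm ((Nat.Prime.coprime_iff_not_dvd hn).2 fun hdvd =>
            absurd (Nat.le_of_dvd hd0 hdvd) (by omega))
        have h1 : g ^ ((Nat.gcd d n : ℕ) : ℤ) ∈ H := by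
          rw [Nat.gcd_eq_gcd_ab, zpow_add, zpow_mul, zpow_mul, zpow_natCast, zpow_natCast]
          exact mul_mem (zpow_mem hd _) (zpow_mem hnegH _)
        rw [hcop, Nat.cast_one, zpow_one] at h1
        exact h1
      rw [← hij] at e ⊢
      have : δ = γ := Subtype.ext (mul_right_cancel (mul_right_cancel e.symm))
      rw [this]
  have hrr : ∀ y, rep (rep y) = rep y := fun y => hrep' _ _ (hrep y)
  refine ⟨u, fun γ y => ?_, fun y => ?_, fun y => ?_⟩
  · have e : (γ : SL(2, ℤ)) * y = ((γ * γn y : Γ) : SL(2, ℤ)) * rep y * g ^ kn y := by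
      rw [Subgroup.coe_mul]
      conv_lhs => rw [hyn y]
      simp only [mul_assoc]
    rw [e, hu _ _ _ (hkn y) (hrr y), map_mul, Module.End.mul_apply]
  · show ψ (σ _ _) = _
    rw [hψ, hbψ _ _ (hkn y), ← hφ, ← mul_assoc, ← hyn y]
  · -- sums along an orbit
    have hshift : ∀ m, m ≤ n → ∀ z : SL(2, ℤ),
        ∑ i ∈ range n, u (z * g ^ m * g ^ i) = ∑ i ∈ range n, u (z * g ^ i) := by
      intro m hm z
      induction m with
      | zero => simp
      | succ m ih =>
        rw [← ih (by omega)]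
        have hper : u (z * g ^ m * g ^ n) = u (z * g ^ m * g ^ 0) := by
          rw [pow_zero, mul_one, hg, mul_neg_one, ← neg_one_mul]
          have hu' : ∀ w, u ((-1 : SL(2, ℤ)) * w) = u w := by
            intro w
            have e : (-1 : SL(2, ℤ)) * w
                = ((⟨-1, hneg⟩ * γn w : Γ) : SL(2, ℤ)) * rep w * g ^ kn w := by
              rw [Subgroup.coe_mul]
              conv_lhs => rw [hyn w]
              simp only [mul_assoc]
            rw [e, hu _ _ _ (hkn w) (hrr w), map_mul, hσneg, one_mul]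
          exact hu' _
        have h1 := Finset.sum_range_succ' (fun i => u (z * g ^ m * g ^ i)) n
        have h2 := Finset.sum_range_succ (fun i => u (z * g ^ m * g ^ i)) n
        rw [h1, hper, add_left_inj] at h2
        rw [← h2]
        refine Finset.sum_congr rfl fun i _ => ?_
        congr 1
        simp only [mul_assoc, ← pow_add]
        congr 2
        omega
    conv_lhs => rw [hyn y]
    rw [hshift _ (hkn y).le]
    rw [Finset.sum_congr rfl fun i hi => hu (γn y) (rep y) i (mem_range.mp hi) (hrr y), ← map_sum,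
      hbsum, map_zero]

end Fermat.Agent.Lifting
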