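/-
Exactness on the right of `A ↦ H¹(Γ, A)`: the obstruction lives on the elliptic elements; it is
absent when `2` and `3` are invertible and is killed by Hecke operators without fixed cosets.
-/
import Fermat.Agent.Lifting.CExtend

set_option autoImplicit false

noncomputable section

namespace Fermat.Agent.Lifting

open scoped MatrixGroups
open ModularGroup Fermat.Agent.ParHom Finset Fermat.Agent.HeckeCohom

variable {R : Type*} [CommRing R] {Γ : Subgroup SL(2, ℤ)}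
  {B C : Type*} [AddCommGroup B] [Module R B] [AddCommGroup C] [Module R C]
  {σ : Representation R Γ B} {τ : Representation R Γ C}

theorem U_pow_three : U ^ 3 = -1 := by
  rw [show U ^ 3 = U * U * U by simp [pow_succ, mul_assoc], U_cube]

theorem S_pow_two : S ^ 2 = -1 := by rw [pow_two, S_sq]

/-- a predicate on SL(2, ℤ) true at `S`, `U` and closed under products is true everywhere -/
theorem forall_of_S_U {P : SL(2, ℤ) → Prop} (hS : P S) (hU : P U)
    (hmul : ∀ g h, P g → P h → P (g * h)) (g : SL(2, ℤ)) : P g := by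
  have hneg : P (-1) := S_sq ▸ hmul _ _ hS hS
  have h1 : P 1 := by
    have := hmul _ _ hneg hneg
    rwa [← pow_two, neg_one_sq] at this
  have hSi : P S⁻¹ := by
    have e : S⁻¹ = -1 * S := inv_eq_of_mul_eq_one_right (by
      rw [← mul_assoc, ← (Commute.neg_one_left S).eq, mul_assoc, S_sq, ← pow_two, neg_one_sq])
    rw [e]; exact hmul _ _ hneg hS
  have hT : P T := by rw [T_eq]; exact hmul _ _ hSi hU
  have hTi : P T⁻¹ := by
    have e : T⁻¹ = -1 * (U * U) * S := by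
      rw [T_eq, mul_inv_rev, inv_inv]
      congr 1
      refine inv_eq_of_mul_eq_one_right ?_
      rw [← mul_assoc, ← (Commute.neg_one_left U).eq, mul_assoc, ← mul_assoc U, U_cube, ← pow_two,
        neg_one_sq]
    rw [e]; exact hmul _ _ (hmul _ _ hneg (hmul _ _ hU hU)) hS
  have hg : g ∈ Subgroup.closure ({S, T} : Set SL(2, ℤ)) := by
    rw [SpecialLinearGroup.SL2Z_generators]; trivial
  induction hg using Subgroup.closure_induction_left with
  | one => exact h1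
  | mul_left x hx y _ ih => rcases hx with rfl | rfl; exacts [hmul _ _ hS ih, hmul _ _ hT ih]
  | inv_mul_cancel x hx y _ ih => rcases hx with rfl | rfl; exacts [hmul _ _ hSi ih, hmul _ _ hTi ih]

/-- the lifting criterion at the elliptic elements -/
def LiftsAtElliptic (σ : Representation R Γ B) (ψ : B →ₗ[R] C) (f : Γ → C) (n : ℕ) : Prop :=
  ∀ γ : Γ, ((γ : SL(2, ℤ)) ^ n = -1) →
    ∃ b, ψ b = f γ ∧ ∑ k ∈ range n, σ (γ ^ k) b = 0

/-- A crossed homomorphism which lifts at the elliptic elements lifts. -/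
theorem exists_lift (hneg : (-1 : SL(2, ℤ)) ∈ Γ) (hσneg : σ ⟨-1, hneg⟩ = 1)
    (ψ : B →ₗ[R] C) (hψ : IsEquivariant σ τ ψ) (hsurj : Function.Surjective ψ)
    (f : Z1 τ) (hf : (f : Γ → C) ⟨-1, hneg⟩ = 0)
    (h2 : LiftsAtElliptic σ ψ (f : Γ → C) 2) (h3 : LiftsAtElliptic σ ψ (f : Γ → C) 3) :
    ∃ g : Z1 σ, mapZ1 ψ hψ g = f ∧ (g : Γ → B) ⟨-1, hneg⟩ = 0 := by
  classical
  have hτneg : τ ⟨-1, hneg⟩ = 1 := by
    refine LinearMap.ext fun c => ?_
    obtain ⟨b, rfl⟩ := hsurj c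
    rw [← hψ, hσneg]; rfl
  -- a primitive of `f` on `SL(2, ℤ)`
  let s : Setoid SL(2, ℤ) := QuotientGroup.rightRel Γ
  let r : SL(2, ℤ) → SL(2, ℤ) := fun x => (Quotient.mk s x).out
  have hr : ∀ x, x * (r x)⁻¹ ∈ Γ := fun x =>
    QuotientGroup.rightRel_apply.mp (@Quotient.exact _ s _ _ (Quotient.out_eq (Quotient.mk s x)))
  have hr' : ∀ (γ : Γ) (x : SL(2, ℤ)), r (γ * x) = r x := fun γ x => by
    have : Quotient.mk s ((γ : SL(2, ℤ)) * x) = Quotient.mk s x :=
      Quotient.sound (QuotientGroup.rightRel_apply.mpr (by simp))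
    simp only [r, this]
  let t : Γ := ⟨(1 * (r 1)⁻¹ : SL(2, ℤ)), hr 1⟩
  let κ : SL(2, ℤ) → Γ := fun x => ⟨_, hr x⟩ * t⁻¹
  have hκ : ∀ (γ : Γ) (x : SL(2, ℤ)), κ (γ * x) = γ * κ x := fun γ x => by
    apply Subtype.ext
    simp only [κ, hr', Subgroup.coe_mul, mul_assoc]
  have hκ1 : κ 1 = 1 := mul_inv_cancel t
  let P : SL(2, ℤ) → C := fun x => (f : Γ → C) (κ x)
  have hP : ∀ (γ : Γ) (x : SL(2, ℤ)), P (γ * x) = (f : Γ → C) γ + τ γ (P x) := fun γ x => by
    simp only [P, hκ, Z1_mul f]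
  have hPneg : ∀ x, P (x * -1) = P x := fun x => by
    rw [← (Commute.neg_one_left x).eq, show ((-1 : SL(2, ℤ))) = ((⟨-1, hneg⟩ : Γ) : SL(2, ℤ))
      from rfl, hP, hf, hτneg]
    simp
  let φ : SL(2, ℤ) → SL(2, ℤ) → C := fun g x => P (x * g) - P x
  have hφ : ∀ g, IsInduced τ (φ g) := fun g γ x => by
    simp only [φ, mul_assoc, hP, map_sub]; abel
  have hφsum : ∀ (g : SL(2, ℤ)) (n : ℕ), g ^ n = -1 → ∀ x, ∑ i ∈ range n, φ g (x * g ^ i) = 0 := by
    intro g n hg x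
    have h := Finset.sum_range_sub (fun i => P (x * g ^ i)) n
    simp only [pow_zero, mul_one, hg, hPneg, sub_self] at h
    simpa only [φ, mul_assoc, ← pow_succ] using h
  have hφfix : ∀ (g : SL(2, ℤ)) (n : ℕ), g ^ n = -1 → LiftsAtElliptic σ ψ (f : Γ → C) n →
      ∀ (x : SL(2, ℤ)) (γ : Γ), (γ : SL(2, ℤ)) = x * g * x⁻¹ →
      ∃ b, ψ b = φ g x ∧ ∑ k ∈ range n, σ (γ ^ k) b = 0 := by
    intro g n hg hl x γ hγ
    have hγn : (γ : SL(2, ℤ)) ^ n = -1 := by
      rw [hγ, conj_pow, hg, mul_neg_one, neg_mul, mul_inv_cancel]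
    obtain ⟨b, hb, hb0⟩ := hl γ hγn
    obtain ⟨p, hp⟩ := hsurj (P x)
    refine ⟨b + (σ γ p - p), ?_, ?_⟩
    · have : x * g = (γ : SL(2, ℤ)) * x := by rw [hγ]; group
      simp only [φ, this, hP, map_add, map_sub, hψ γ, hb, hp]
      abel
    · have h := Finset.sum_range_sub (fun i => σ (γ ^ i) p) n
      have e : γ ^ n = ⟨-1, hneg⟩ := Subtype.ext (by rw [SubgroupClass.coe_pow, hγn])
      simp only [pow_zero, map_one, Module.End.one_apply, e, hσneg, sub_self] at h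
      simp only [map_add, map_sub, Finset.sum_add_distrib, hb0, zero_add]
      simpa only [pow_succ, map_mul, Module.End.mul_apply] using h
  obtain ⟨uS, huS, huS', huS''⟩ := exists_induced_lift hneg hσneg ψ hψ hsurj S 2 Nat.prime_two
    S_pow_two (φ S) (hφ S) (hφsum S 2 S_pow_two) (hφfix S 2 S_pow_two h2)
  obtain ⟨uU, huU, huU', huU''⟩ := exists_induced_lift hneg hσneg ψ hψ hsurj U 3 Nat.prime_three
    U_pow_three (φ U) (hφ U) (hφsum U 3 U_pow_three) (hφfix U 3 U_pow_three h3)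
  -- affine action on even functions
  let F : Type _ := {Q : SL(2, ℤ) → B // ∀ x, Q (x * -1) = Q x}
  have hind : ∀ {u : SL(2, ℤ) → B}, IsInduced σ u → ∀ x, u (x * -1) = u x := fun {u} hu x => by
    rw [← (Commute.neg_one_left x).eq, show ((-1 : SL(2, ℤ))) = ((⟨-1, hneg⟩ : Γ) : SL(2, ℤ))
      from rfl, hu, hσneg]
    rfl
  let aff : ∀ (g : SL(2, ℤ)) (u : SL(2, ℤ) → B), IsInduced σ u → Equiv.Perm F := fun g u hu =>
    { toFun := fun Q => ⟨fun x => Q.1 (x * g) + u x, fun x => by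
        beta_reduce
        rw [hind hu, mul_assoc, (Commute.neg_one_left g).eq, ← mul_assoc, Q.2]⟩
      invFun := fun Q => ⟨fun x => Q.1 (x * g⁻¹) - u (x * g⁻¹), fun x => by
        beta_reduce
        rw [mul_assoc, (Commute.neg_one_left g⁻¹).eq, ← mul_assoc, Q.2, hind hu]⟩
      left_inv := fun Q => Subtype.ext (funext fun x => by simp)
      right_inv := fun Q => Subtype.ext (funext fun x => by simp) }
  have haff : ∀ (g : SL(2, ℤ)) (u : SL(2, ℤ) → B) (hu : IsInduced σ u) (k : ℕ) (Q : F) (x : SL(2, ℤ)),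
      ((aff g u hu ^ k) Q).1 x = Q.1 (x * g ^ k) + ∑ i ∈ range k, u (x * g ^ i) := by
    intro g u hu k
    induction k with
    | zero => intro Q x; simp
    | succ k ih =>
      intro Q x
      rw [pow_succ', Equiv.Perm.mul_apply]
      show ((aff g u hu ^ k) Q).1 (x * g) + u x = _
      rw [ih, Finset.sum_range_succ']
      simp only [pow_succ', mul_assoc, pow_zero, mul_one, add_assoc]
  obtain ⟨Φ, hΦS, hΦU⟩ := exists_hom_SL2Z (aff S uS huS) (aff U uU huU)
    (Equiv.ext fun Q => Subtype.ext (funext fun x => by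
      rw [haff S uS huS, huS'', S_pow_two, Q.2, add_zero]; rfl))
    (Equiv.ext fun Q => Subtype.ext (funext fun x => by
      rw [haff U uU huU, huU'', U_pow_three, Q.2, add_zero]; rfl))
  have hall : ∀ g : SL(2, ℤ), ∃ a : SL(2, ℤ) → B, IsInduced σ a ∧ (∀ x, ψ (a x) = φ g x) ∧
      ∀ (Q : F) x, (Φ g Q).1 x = Q.1 (x * g) + a x := by
    refine forall_of_S_U ⟨uS, huS, huS', fun Q x => by rw [hΦS]; rfl⟩
      ⟨uU, huU, huU', fun Q x => by rw [hΦU]; rfl⟩ ?_
    rintro g h ⟨a, ha, ha', haQ⟩ ⟨c, hc, hc', hcQ⟩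
    refine ⟨fun x => a x + c (x * g), fun γ x => ?_, fun x => ?_, fun Q x => ?_⟩
    · simp only [ha γ x, mul_assoc, hc γ, map_add]
    · simp only [map_add, ha', hc', φ, mul_assoc]; abel
    · rw [map_mul, Equiv.Perm.mul_apply, haQ, hcQ, mul_assoc]; abel
  choose a ha ha' haQ using hall
  let zeroF : F := ⟨fun _ => 0, fun _ => rfl⟩
  have hamul : ∀ g h x, a (g * h) x = a g x + a h (x * g) := by
    intro g h x
    have e := haQ (g * h) zeroF x
    rw [map_mul, Equiv.Perm.mul_apply, haQ, haQ] at e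
    simp only [zeroF, zero_add] at e
    rw [← e, add_comm]
  refine ⟨⟨fun γ => a γ 1, fun γ δ => ?_⟩, ?_, ?_⟩
  · show a ((γ : SL(2, ℤ)) * δ) 1 = a γ 1 + σ γ (a δ 1)
    rw [hamul, one_mul, ← ha δ γ 1, mul_one]
  · refine Subtype.ext (funext fun γ => ?_)
    rw [mapZ1_apply, ha']
    simp only [φ, one_mul]
    have h1 : P 1 = 0 := by simp only [P, hκ1, Z1_one]
    rw [h1, sub_zero]
    have := hP γ 1
    rwa [mul_one, h1, map_zero, add_zero] at this
  · have e := haQ (-1) zeroF 1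
    have hΦ : Φ (-1) = 1 := by
      rw [← S_pow_two, map_pow, hΦS]
      exact Equiv.ext fun Q => Subtype.ext (funext fun x => by
        rw [haff S uS huS, huS'', S_pow_two, Q.2, add_zero]; rfl)
    rw [hΦ] at e
    simpa [zeroF] using e.symm

/-- Crossed homomorphisms kill `-1` when `2` is invertible. -/
theorem Z1_neg_one (hneg : (-1 : SL(2, ℤ)) ∈ Γ) (hσneg : σ ⟨-1, hneg⟩ = 1)
    (ψ : B →ₗ[R] C) (hψ : IsEquivariant σ τ ψ) (hsurj : Function.Surjective ψ)
    (h2 : IsUnit (2 : R)) (f : Z1 τ) : (f : Γ → C) ⟨-1, hneg⟩ = 0 := by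
  obtain ⟨b, hb⟩ := hsurj ((f : Γ → C) ⟨-1, hneg⟩)
  have h := Z1_mul f ⟨-1, hneg⟩ ⟨-1, hneg⟩
  rw [show (⟨-1, hneg⟩ * ⟨-1, hneg⟩ : Γ) = 1 from Subtype.ext (by simp), Z1_one, ← hb, ← hψ,
    hσneg, Module.End.one_apply, hb, ← two_smul R] at h
  exact h2.smul_eq_zero.mp h.symm

/-- Elements of order `n` modulo `± 1` are harmless when `n` is invertible. -/
theorem liftsAtElliptic_of_isUnit (hneg : (-1 : SL(2, ℤ)) ∈ Γ) (hσneg : σ ⟨-1, hneg⟩ = 1)
    (ψ : B →ₗ[R] C) (hψ : IsEquivariant σ τ ψ) (hsurj : Function.Surjective ψ)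
    (f : Z1 τ) (hf : (f : Γ → C) ⟨-1, hneg⟩ = 0) {n : ℕ} (hn : IsUnit (n : R)) :
    LiftsAtElliptic σ ψ (f : Γ → C) n := by
  intro γ hγ
  obtain ⟨b, hb⟩ := hsurj ((f : Γ → C) γ)
  obtain ⟨v, hv⟩ := hn.exists_left_inv
  have e : γ ^ n = ⟨-1, hneg⟩ := Subtype.ext (by rw [SubgroupClass.coe_pow, hγ])
  set N := ∑ k ∈ range n, σ (γ ^ k) b with hN
  have hψN : ψ N = 0 := by
    rw [hN, map_sum]
    simp only [hψ _, hb]
    rw [← Z1_pow f γ n, e, hf]
  refine ⟨b - v • N, by rw [map_sub, map_smul, hψN, smul_zero, sub_zero, hb], ?_⟩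
  have hfix : ∀ k, σ (γ ^ k) N = N := by
    intro k
    induction k with
    | zero => simp
    | succ k ih =>
      rw [pow_succ, map_mul, Module.End.mul_apply]
      have h1 : σ γ N = N := by
        rw [hN, map_sum]
        simp only [← Module.End.mul_apply, ← map_mul, ← pow_succ']
        have a1 := Finset.sum_range_succ' (fun k => σ (γ ^ k) b) n
        rw [Finset.sum_range_succ, e, hσneg, pow_zero, map_one, add_left_inj] at a1
        exact a1.symm
      rw [h1, ih]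
  simp only [map_sub, map_smul, Finset.sum_sub_distrib, ← hN, hfix, Finset.sum_const, card_range]
  rw [← Nat.cast_smul_eq_nsmul R, smul_smul, mul_comm, hv, one_smul, sub_self]

/-- With `6` invertible, `H¹(Γ, ·)` is right exact. -/
theorem mapH1_surjective (hneg : (-1 : SL(2, ℤ)) ∈ Γ) (hσneg : σ ⟨-1, hneg⟩ = 1)
    (ψ : B →ₗ[R] C) (hψ : IsEquivariant σ τ ψ) (hsurj : Function.Surjective ψ)
    (h2 : IsUnit (2 : R)) (h3 : IsUnit (3 : R)) :
    Function.Surjective (mapH1 ψ hψ) := by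
  intro y
  obtain ⟨f, rfl⟩ := toH1_surjective τ y
  have hf : (f : Γ → C) ⟨-1, hneg⟩ = 0 := Z1_neg_one hneg hσneg ψ hψ hsurj h2 f
  obtain ⟨g, hg, -⟩ := exists_lift hneg hσneg ψ hψ hsurj f hf
    (liftsAtElliptic_of_isUnit hneg hσneg ψ hψ hsurj f hf (by exact_mod_cast h2))
    (liftsAtElliptic_of_isUnit hneg hσneg ψ hψ hsurj f hf (by exact_mod_cast h3))
  exact ⟨toH1 σ g, by rw [mapH1_toH1, hg]⟩

end Fermat.Agent.Lifting
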