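/-
The connecting maps of `A ↦ H¹(Γ, A)` are killed by suitable Hecke operators: Hecke operators
without fixed cosets at the elliptic elements kill the cokernel, and `T - e` kills the kernel
when `T` acts as `e` on invariants.
-/
import Fermat.Agent.Lifting.CLift

set_option autoImplicit false

noncomputable section

namespace Fermat.Agent.Lifting

open scoped MatrixGroups
open Finset Fermat.Agent.HeckeCohom

variable {R : Type*} [CommRing R] {Γ : Subgroup SL(2, ℤ)} {G I : Type*} [Group G]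
  {ι : Γ →* G} {β : I → G} (h : IsCosetSystem ι β) [Fintype I]
  {B C : Type*} [AddCommGroup B] [Module R B] [AddCommGroup C] [Module R C]
  {σ : Representation R Γ B} {τ : Representation R Γ C}

theorem perm_pow (γ : Γ) (k : ℕ) (i : I) : h.perm (γ ^ k) i = (h.perm γ)^[k] i := by
  induction k with
  | zero => simp [h.perm_one]
  | succ k ih => rw [pow_succ, h.perm_mul, ih, Function.iterate_succ_apply']

/-- The Hecke operator applied to a crossed homomorphism lifts at elliptic elements of order `n`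
which fix no coset. -/
theorem trZ1_liftsAtElliptic (hneg : (-1 : SL(2, ℤ)) ∈ Γ) (hσneg : σ ⟨-1, hneg⟩ = 1)
    (hcent : ∀ i, β i * ι ⟨-1, hneg⟩ = ι ⟨-1, hneg⟩ * β i)
    (ψ : B →ₗ[R] C) (hψ : IsEquivariant σ τ ψ) (hsurj : Function.Surjective ψ)
    {v : I → B →ₗ[R] B} {w : I → C →ₗ[R] C} (hv : IsWeight h σ v) (hw : IsWeight h τ w)
    (hc : ∀ i b, ψ (v i b) = w i (ψ b)) (f : Z1 τ) (hf : (f : Γ → C) ⟨-1, hneg⟩ = 0)
    {n : ℕ} (hn : n.Prime)
    (hfree : ∀ γ : Γ, (γ : SL(2, ℤ)) ^ n = -1 → (γ : SL(2, ℤ)) ≠ -1 → ∀ i, h.perm γ i ≠ i) :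
    LiftsAtElliptic σ ψ (trZ1 h hw f : Γ → C) n := by
  classical
  intro γ hγ
  have hz : γ ^ n = ⟨-1, hneg⟩ := Subtype.ext (by rw [SubgroupClass.coe_pow, hγ])
  have hpz : ∀ i, h.perm ⟨-1, hneg⟩ i = i := fun i => h.perm_eq (hcent i)
  have hcz : ∀ i, h.cocycle ⟨-1, hneg⟩ i = ⟨-1, hneg⟩ := fun i => h.cocycle_eq (hcent i)
  rcases eq_or_ne (γ : SL(2, ℤ)) (-1) with hγ1 | hγ1
  · refine ⟨0, ?_, by simp⟩
    rw [map_zero, trZ1_apply, show γ = ⟨-1, hneg⟩ from Subtype.ext hγ1]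
    exact (Finset.sum_eq_zero fun i _ => by rw [hcz, hf, map_zero]).symm
  set p : Equiv.Perm I := h.permEquiv γ with hp
  have hpk : ∀ (k : ℕ) i, h.perm (γ ^ k) i = (p ^ k) i := fun k i => by
    rw [perm_pow h, Equiv.Perm.coe_pow]; rfl
  have hpn : p ^ n = 1 := Equiv.ext fun i => by rw [← hpk, hz, hpz]; rfl
  -- the term at distance `k`
  let E : (I → B) → I → B := fun d i =>
    ∑ k ∈ range n, σ (h.cocycle (γ ^ k) i) (d ((p ^ k) i))
  have hEshift : ∀ d i, σ (h.cocycle γ i) (E d (p i)) = E d i := by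
    intro d i
    simp only [E, map_sum]
    have e : ∀ k, σ (h.cocycle γ i) (σ (h.cocycle (γ ^ k) (p i)) (d ((p ^ k) (p i))))
        = σ (h.cocycle (γ ^ (k + 1)) i) (d ((p ^ (k + 1)) i)) := fun k => by
      rw [pow_succ' γ, h.cocycle_mul, map_mul, Module.End.mul_apply, pow_succ p k,
        Equiv.Perm.mul_apply]
      rfl
    simp only [e]
    have h1 := Finset.sum_range_succ' (fun k => σ (h.cocycle (γ ^ k) i) (d ((p ^ k) i))) n
    rw [Finset.sum_range_succ, hz, hcz, hσneg, hpn, pow_zero, pow_zero, h.cocycle_one, map_one,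
      add_left_inj] at h1
    exact h1.symm
  have hσinj : ∀ δ : Γ, Function.Injective (σ δ) := fun δ =>
    Function.LeftInverse.injective (g := σ δ⁻¹) fun b => by
      rw [← Module.End.mul_apply, ← map_mul, inv_mul_cancel, map_one]; rfl
  have hEzero : ∀ d i, E d i = 0 → ∀ k : ℕ, E d ((p ^ k) i) = 0 := by
    intro d i hi k
    induction k with
    | zero => simpa using hi
    | succ k ih =>
      apply hσinj (h.cocycle γ ((p ^ k) i))
      rw [map_zero, pow_succ' p, Equiv.Perm.mul_apply, hEshift, ih]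
  -- representatives of the orbits
  let s : Setoid I := Equiv.Perm.SameCycle.setoid p
  let rep : I → I := fun i => (Quotient.mk s i).out
  have hrep : ∀ i, p.SameCycle (rep i) i := fun i =>
    @Quotient.exact _ s _ _ (Quotient.out_eq (Quotient.mk s i))
  have hrep' : ∀ i j, p.SameCycle i j → rep i = rep j := fun i j hij => by
    simp only [rep]; rw [Quotient.sound hij]
  choose ℓ hℓ using fun i => hsurj ((f : Γ → C) (h.cocycle γ i))
  let d : I → B := fun i => if rep i = i then ℓ i - E ℓ i else ℓ i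
  have hψE : ∀ i, ψ (E ℓ i) = 0 := by
    intro i
    have hsum : ∀ m : ℕ, ∑ k ∈ range m, τ (h.cocycle (γ ^ k) i)
        ((f : Γ → C) (h.cocycle γ ((p ^ k) i))) = (f : Γ → C) (h.cocycle (γ ^ m) i) := by
      intro m
      induction m with
      | zero => simp [h.cocycle_one, Z1_one]
      | succ m ih => rw [Finset.sum_range_succ, ih, pow_succ, h.cocycle_mul, hpk, Z1_mul f]
    simp only [E, map_sum, hψ _, hℓ]
    rw [hsum n, hz, hcz, hf]
  have hd : ∀ i, ψ (d i) = (f : Γ → C) (h.cocycle γ i) := fun i => by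
    simp only [d]
    split_ifs
    · rw [map_sub, hℓ, hψE, sub_zero]
    · exact hℓ i
  have hE0 : ∀ i, E d i = 0 := by
    intro i
    obtain ⟨k, hk⟩ := (hrep i).exists_nat_pow_eq
    rw [← hk]
    refine hEzero d _ ?_ k
    set r := rep i
    have hr : rep r = r := hrep' _ _ (hrep i)
    have hper : ∀ k, k ∈ range n → k ≠ 0 → rep ((p ^ k) r) ≠ (p ^ k) r := by
      intro k hk hk0 e
      have hfixk : (p ^ k) r = r := by
        rw [← e, ← hrep' r ((p ^ k) r) ⟨k, by simp⟩, hr]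
      have hcop : Nat.Coprime k n := (hn.coprime_iff_not_dvd.2 fun hd =>
        absurd (Nat.le_of_dvd (Nat.pos_of_ne_zero hk0) hd) (by simpa using hk)).symm
      obtain ⟨m, -, hm⟩ := Nat.exists_mul_mod_eq_one_of_coprime hcop hn.one_lt
      have h1 : p r = r := by
        have h2 : (p ^ (k * m)) r = r := by
          rw [pow_mul]
          exact Equiv.Perm.pow_apply_eq_self_of_apply_eq_self hfixk m
        rwa [← Nat.mod_add_div (k * m) n, hm, pow_add, pow_mul, hpn, one_pow, mul_one, pow_one]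
          at h2
      exact hfree γ hγ hγ1 r h1
    simp only [E]
    have hn0 : 0 ∈ range n := mem_range.mpr hn.pos
    rw [← Finset.add_sum_erase _ _ hn0, Finset.sum_congr rfl fun k hk => by
      rw [show d ((p ^ k) r) = ℓ ((p ^ k) r) from
        if_neg (hper k (Finset.mem_erase.mp hk).2 (Finset.mem_erase.mp hk).1)]]
    simp only [pow_zero, h.cocycle_one, map_one, Module.End.one_apply, Equiv.Perm.coe_one, id_eq]
    rw [show d r = ℓ r - E ℓ r from if_pos hr]
    simp only [E]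
    conv_lhs => rw [← Finset.add_sum_erase _ _ hn0]
    simp [h.cocycle_one]
  refine ⟨∑ i, v i (d i), ?_, ?_⟩
  · rw [map_sum, trZ1_apply]
    exact Finset.sum_congr rfl fun i _ => by rw [hc, hd]
  · simp only [map_sum]
    have e : ∀ k, ∑ i, σ (γ ^ k) (v i (d i))
        = ∑ i, v i (σ (h.cocycle (γ ^ k) i) (d ((p ^ k) i))) := fun k => by
      simp only [hv (γ ^ k), hpk]
      exact (Equiv.sum_comp (p ^ k) fun i => σ (γ ^ k) (v i (d i))).symm
    simp only [e]
    rw [Finset.sum_comm]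
    refine Finset.sum_eq_zero fun i _ => ?_
    rw [← map_sum]
    show v i (E d i) = 0
    rw [hE0, map_zero]

/-- A Hecke operator without fixed cosets at elliptic elements kills the cokernel of
`H¹(Γ, B) → H¹(Γ, C)`. -/
theorem trH1_mem_range (hneg : (-1 : SL(2, ℤ)) ∈ Γ) (hσneg : σ ⟨-1, hneg⟩ = 1)
    (hcent : ∀ i, β i * ι ⟨-1, hneg⟩ = ι ⟨-1, hneg⟩ * β i)
    (ψ : B →ₗ[R] C) (hψ : IsEquivariant σ τ ψ) (hsurj : Function.Surjective ψ)
    {v : I → B →ₗ[R] B} {w : I → C →ₗ[R] C} (hv : IsWeight h σ v) (hw : IsWeight h τ w)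
    (hc : ∀ i b, ψ (v i b) = w i (ψ b)) (h2 : IsUnit (2 : R))
    (hfree : ∀ γ : Γ, (γ : SL(2, ℤ)) ^ 3 = -1 → (γ : SL(2, ℤ)) ≠ -1 → ∀ i, h.perm γ i ≠ i)
    (y : H1 τ) :
    trH1 h hw y ∈ LinearMap.range (mapH1 ψ hψ) := by
  obtain ⟨f, rfl⟩ := toH1_surjective τ y
  have hf := Z1_neg_one hneg hσneg ψ hψ hsurj h2 f
  have hTf := Z1_neg_one hneg hσneg ψ hψ hsurj h2 (trZ1 h hw f)
  obtain ⟨g, hg, -⟩ := exists_lift hneg hσneg ψ hψ hsurj (trZ1 h hw f) hTf
    (liftsAtElliptic_of_isUnit hneg hσneg ψ hψ hsurj _ hTf (by exact_mod_cast h2))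
    (trZ1_liftsAtElliptic h hneg hσneg hcent ψ hψ hsurj hv hw hc f hf Nat.prime_three hfree)
  exact ⟨toH1 σ g, by rw [trH1_toH1, mapH1_toH1, hg]⟩

end Fermat.Agent.Lifting

namespace Fermat.Agent.Lifting

open Fermat.Agent.HeckeCohom

variable {R : Type*} [CommRing R] {Γ : Type*} [Group Γ] {G I : Type*} [Group G] [Fintype I]
  {ι : Γ →* G} {β : I → G} (h : IsCosetSystem ι β)
  {A B C : Type*} [AddCommGroup A] [Module R A] [AddCommGroup B] [Module R B]
  [AddCommGroup C] [Module R C]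
  {ρ : Representation R Γ A} {σ : Representation R Γ B} {τ : Representation R Γ C}

/-- `T - e` kills the kernel of `H¹(Γ, A) → H¹(Γ, B)` when `T` is `e` on the invariants of the
quotient. -/
theorem trH1_eq_smul_of_mapH1_eq_zero (φ : A →ₗ[R] B) (hφ : IsEquivariant ρ σ φ)
    (hinj : Function.Injective φ) (ψ : B →ₗ[R] C) (hψ : IsEquivariant σ τ ψ)
    (hex : Function.Exact φ ψ)
    {u : I → A →ₗ[R] A} {v : I → B →ₗ[R] B} {w : I → C →ₗ[R] C}
    (hu : IsWeight h ρ u) (hv : IsWeight h σ v) (hcφ : ∀ i a, φ (u i a) = v i (φ a))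
    (hcψ : ∀ i b, ψ (v i b) = w i (ψ b)) (e : R) (he : ∀ c ∈ H0 τ, ∑ i, w i c = e • c)
    {x : H1 ρ} (hx : mapH1 φ hφ x = 0) : trH1 h hu x = e • x := by
  obtain ⟨f, rfl⟩ := toH1_surjective ρ x
  rw [mapH1_toH1, toH1_eq_zero_iff] at hx
  obtain ⟨b, hb⟩ := hx
  have hb0 : ψ b ∈ H0 τ := fun γ => by
    have h1 := congrArg ψ (congrFun (congrArg Subtype.val hb) γ)
    rw [mapZ1_apply, hex.apply_apply_eq_zero, cob_apply, map_sub, hψ, sub_eq_zero] at h1
    exact h1
  have h2 : ψ (∑ i, v i b - e • b) = 0 := by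
    rw [map_sub, map_sum, map_smul, sub_eq_zero, ← he _ hb0]
    exact Finset.sum_congr rfl fun i _ => hcψ i b
  obtain ⟨a, ha⟩ := (hex _).1 h2
  rw [trH1_toH1, ← sub_eq_zero, ← map_smul, ← map_sub, toH1_eq_zero_iff]
  refine ⟨a, Subtype.ext (funext fun γ => hinj ?_)⟩
  have h3 : mapZ1 φ hφ (trZ1 h hu f) = trZ1 h hv (mapZ1 φ hφ f) :=
    Subtype.ext (funext fun δ => by simp [map_sum, hcφ])
  rw [← mapZ1_apply φ hφ, ← mapZ1_apply φ hφ, mapZ1_cob, ha, map_sub, map_smul, map_sub, map_smul,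
    h3, ← hb, trZ1_cob]

end Fermat.Agent.Lifting
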