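/-
`Γ₀(N)`: `T_ℓ` for `ℓ ≡ 2 (mod 3)` fixes no coset at an elliptic element of order three, and every
`T_ℓ` acts as `ℓ + 1` on invariants.
-/
import Fermat.Agent.Twist.CharRep
import Fermat.Agent.Lifting.CHecke
import Fermat.Agent.Lifting.CFree
import Mathlib.FieldTheory.Finite.Basic

set_option autoImplicit false

noncomputable section

namespace Fermat.Agent.Lifting

open CongruenceSubgroup Fermat.Agent.HeckeCohom
open scoped MatrixGroups

theorem neg_one_mem_gamma0 (N : ℕ) : (-1 : SL(2, ℤ)) ∈ Gamma0 N := by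
  rw [Gamma0_mem]; simp

/-- an element of order three modulo `± 1` has trace one -/
theorem trace_eq_one_of_cube {g : SL(2, ℤ)} (h : g ^ 3 = -1) (hne : g ≠ -1) :
    g 0 0 + g 1 1 = 1 := by
  have hd := det_eq_one g
  have hm : ((g : Matrix (Fin 2) (Fin 2) ℤ)) ^ 3 = -1 := by
    rw [← Matrix.SpecialLinearGroup.coe_pow, h]; simp
  have e00 := congrFun (congrFun hm 0) 0
  have e01 := congrFun (congrFun hm 0) 1
  have e10 := congrFun (congrFun hm 1) 0
  have e11 := congrFun (congrFun hm 1) 1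
  simp [pow_succ, Matrix.mul_apply, Fin.sum_univ_two] at e00 e01 e10 e11
  set a := g 0 0
  set b := g 0 1
  set c := g 1 0
  set d := g 1 1
  set t := a + d with ht
  -- Cayley-Hamilton: `g ^ 3 = (t ^ 2 - 1) g - t`
  have f01 : (t ^ 2 - 1) * b = 0 := by rw [ht]; linear_combination e01 + b * hd
  have f10 : (t ^ 2 - 1) * c = 0 := by rw [ht]; linear_combination e10 + c * hd
  have f00 : (t ^ 2 - 1) * a = t - 1 := by rw [ht]; linear_combination e00 + (2 * a + d) * hd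
  have f11 : (t ^ 2 - 1) * d = t - 1 := by rw [ht]; linear_combination e11 + (a + 2 * d) * hd
  by_contra ht1
  have hu : t ^ 2 - 1 ≠ 0 := by
    intro h0
    rw [h0, zero_mul] at f00
    omega
  have hb : b = 0 := (mul_eq_zero.mp f01).resolve_left hu
  have hc : c = 0 := (mul_eq_zero.mp f10).resolve_left hu
  have had : a = d := mul_left_cancel₀ hu (f00.trans f11.symm)
  rw [hb, hc, ← had] at hd
  have ha : a * a = 1 := by linear_combination hd
  rcases Int.eq_one_or_neg_one_of_mul_eq_one ha with ha' | ha'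
  · rw [ha', ← had] at ht
    rw [ht, ha'] at f00
    norm_num at f00
  · apply hne
    ext i j
    fin_cases i <;> fin_cases j <;> simp
    · exact ha'
    · exact hb
    · exact hc
    · show d = -1
      omega

/-- `X² - X + 1` has no root modulo a prime `≡ 2 (mod 3)`. -/
theorem sq_sub_add_one_ne_zero {ℓ : ℕ} [Fact ℓ.Prime] (hℓ : ℓ % 3 = 2) (a : ZMod ℓ) :
    a ^ 2 - a + 1 ≠ 0 := by
  intro h
  have h3 : (-a) ^ 3 = 1 := by linear_combination -(a + 1) * h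
  have ha0 : -a ≠ 0 := by intro e; rw [e] at h3; simp at h3
  have hfl : (-a) ^ (ℓ - 1) = 1 := ZMod.pow_card_sub_one_eq_one ha0
  have h1 : -a = 1 := by
    have e : ℓ - 1 = 3 * ((ℓ - 1) / 3) + 1 := by omega
    rw [e, pow_succ, pow_mul, h3, one_pow, one_mul] at hfl
    exact hfl
  have h2 : a = -1 := by linear_combination -h1
  rw [h2] at h
  have h30 : ((3 : ℕ) : ZMod ℓ) = 0 := by push_cast; linear_combination h
  rw [ZMod.natCast_eq_zero_iff] at h30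
  have := (Nat.prime_dvd_prime_iff_eq (Fact.out) Nat.prime_three).mp h30
  omega

/-- `T_ℓ`, `ℓ ≡ 2 (mod 3)`, fixes no coset at an element of order three. -/
theorem heckePerm_ne (N ℓ : ℕ) [Fact ℓ.Prime] (hℓ : ℓ % 3 = 2) (γ : Gamma0 N)
    (hγ : (γ : SL(2, ℤ)) ^ 3 = -1) (hne : (γ : SL(2, ℤ)) ≠ -1) (i : HeckeIdx N ℓ) :
    (isCosetSystem N ℓ).perm γ i ≠ i := by
  intro hfix
  haveI : NeZero ℓ := ⟨(Fact.out : ℓ.Prime).ne_zero⟩
  have ht := trace_eq_one_of_cube hγ hne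
  have hd := det_eq_one (γ : SL(2, ℤ))
  have e := (isCosetSystem N ℓ).spec γ i
  rw [hfix] at e
  set c := (isCosetSystem N ℓ).cocycle γ i
  have e' := congrArg (fun M : GL (Fin 2) ℝ => (M : Matrix (Fin 2) (Fin 2) ℝ)) e
  have e01 := congrFun (congrFun e' 0) 1
  have e10 := congrFun (congrFun e' 1) 0
  have e00 := congrFun (congrFun e' 0) 0
  have hℓ0 : (ℓ : ℕ) ≠ 0 := NeZero.ne ℓ
  obtain ⟨_ | x, hi⟩ := i
  · simp [heckeBeta, Matrix.mul_apply, Fin.sum_univ_two, hℓ0] at e10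
    norm_cast at e10
    refine sq_sub_add_one_ne_zero hℓ (((γ : SL(2, ℤ)) 0 0 : ℤ) : ZMod ℓ) ?_
    have hc : (((γ : SL(2, ℤ)) 1 0 : ℤ) : ZMod ℓ) = 0 := by
      rw [e10]; push_cast; simp
    have hd' := congrArg (fun z : ℤ => (z : ZMod ℓ)) hd
    have ht' := congrArg (fun z : ℤ => (z : ZMod ℓ)) ht
    push_cast at hd' ht'
    linear_combination -hd' + (((γ : SL(2, ℤ)) 0 0 : ℤ) : ZMod ℓ) * ht'
      - (((γ : SL(2, ℤ)) 0 1 : ℤ) : ZMod ℓ) * hc
  · simp [heckeBeta, Matrix.mul_apply, Fin.sum_univ_two, hℓ0, -ZMod.natCast_val] at e00 e01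
    norm_cast at e00
    rw [← e00] at e01
    push_cast at e01
    have e01' : (γ : SL(2, ℤ)) 0 1 + (x.val : ℤ) * (γ : SL(2, ℤ)) 1 1
        = ((γ : SL(2, ℤ)) 0 0 + (x.val : ℤ) * (γ : SL(2, ℤ)) 1 0) * x.val
          + (c : SL(2, ℤ)) 0 1 * ℓ := by
      rw [← @Int.cast_inj ℝ]
      push_cast
      linear_combination e01
    refine sq_sub_add_one_ne_zero hℓ
      ((((γ : SL(2, ℤ)) 0 0 + (x.val : ℤ) * (γ : SL(2, ℤ)) 1 0 : ℤ)) : ZMod ℓ) ?_
    have hd' := congrArg (fun z : ℤ => (z : ZMod ℓ)) hd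
    have ht' := congrArg (fun z : ℤ => (z : ZMod ℓ)) ht
    have h1 := congrArg (fun z : ℤ => (z : ZMod ℓ)) e01'
    push_cast at hd' ht' h1 ⊢
    simp only [ZMod.natCast_self, mul_zero, add_zero] at h1
    linear_combination -hd' + ((((γ : SL(2, ℤ)) 0 0 : ℤ) : ZMod ℓ)
      + (x.val : ZMod ℓ) * (((γ : SL(2, ℤ)) 1 0 : ℤ) : ZMod ℓ)) * ht'
      - (((γ : SL(2, ℤ)) 1 0 : ℤ) : ZMod ℓ) * h1

variable {R : Type*} [CommRing R] {N Nε : ℕ} (hN : Nε ∣ N) (ε : DirichletCharacter R Nε)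
  (A : Type*) [AddCommGroup A] [Module R A]

theorem scalarRep_dChar : scalarRep (Twist.dChar hN ε) A = Twist.charRep A hN ε :=
  MonoidHom.ext fun γ => LinearMap.ext fun a => by
    rw [scalarRep_apply, Twist.charRep_apply]

/-- `ι(-1)` is central -/
theorem heckeBeta_mul_neg_one (ℓ : ℕ) (i : HeckeIdx N ℓ) :
    heckeBeta N ℓ i * gamma0GL N ⟨-1, neg_one_mem_gamma0 N⟩
      = gamma0GL N ⟨-1, neg_one_mem_gamma0 N⟩ * heckeBeta N ℓ i := by
  apply Units.ext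
  ext a b
  simp only [Units.val_mul, Matrix.mul_apply, Fin.sum_univ_two, gamma0GL_entry]
  fin_cases a <;> fin_cases b <;> simp

theorem scalarRep_dChar_neg_one (hε : ε (-1) = 1) :
    scalarRep (Twist.dChar hN ε) A ⟨-1, neg_one_mem_gamma0 N⟩ = 1 := by
  refine LinearMap.ext fun a => ?_
  rw [scalarRep_apply, Twist.dChar_apply]
  simp [hε]

/-- the weights of `T_ℓ` for the scalar representation -/
theorem heckeWeight_isWeight' (ℓ : ℕ) [Fact ℓ.Prime] (hℓ : ¬ ℓ ∣ Nε) :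
    IsWeight (isCosetSystem N ℓ) (scalarRep (Twist.dChar hN ε) A) (Twist.heckeWeight A ε ℓ) := by
  rw [scalarRep_dChar]
  exact Twist.heckeWeight_isWeight A hN ε ℓ hℓ

/-- `T_ℓ` on `H¹(Γ₀(N), A(ε))` -/
def heckeT (ℓ : ℕ) [Fact ℓ.Prime] (hℓ : ¬ ℓ ∣ Nε) :
    Module.End R (H1 (scalarRep (Twist.dChar hN ε) A)) :=
  haveI : NeZero ℓ := ⟨(Fact.out : ℓ.Prime).ne_zero⟩
  trH1 (isCosetSystem N ℓ) (heckeWeight_isWeight' hN ε A ℓ hℓ)

/-- `T_ℓ` is natural in the coefficients. -/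
theorem scalarMap_heckeT {B : Type*} [AddCommGroup B] [Module R B] (f : A →ₗ[R] B) (ℓ : ℕ)
    [Fact ℓ.Prime] (hℓ : ¬ ℓ ∣ Nε) (x : H1 (scalarRep (Twist.dChar hN ε) A)) :
    scalarMap (Twist.dChar hN ε) f (heckeT hN ε A ℓ hℓ x)
      = heckeT hN ε B ℓ hℓ (scalarMap (Twist.dChar hN ε) f x) :=
  haveI : NeZero ℓ := ⟨(Fact.out : ℓ.Prime).ne_zero⟩
  mapH1_trH1 _ _ _ f _ (fun i a => by
    rw [Twist.heckeWeight_apply, Twist.heckeWeight_apply, map_smul]) x

/-- `T_ℓ`, `ℓ ≡ 2 (mod 3)`, kills the cokernel. -/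
theorem heckeT_mem_range {B : Type*} [AddCommGroup B] [Module R B] (f : A →ₗ[R] B)
    (hf : Function.Surjective f) (h2 : IsUnit (2 : R)) (hε : ε (-1) = 1) (ℓ : ℕ) [Fact ℓ.Prime]
    (hℓ : ¬ ℓ ∣ Nε) (hℓ3 : ℓ % 3 = 2) (y : H1 (scalarRep (Twist.dChar hN ε) B)) :
    ∃ x, scalarMap (Twist.dChar hN ε) f x = heckeT hN ε B ℓ hℓ y :=
  haveI : NeZero ℓ := ⟨(Fact.out : ℓ.Prime).ne_zero⟩
  trH1_mem_range (isCosetSystem N ℓ) (neg_one_mem_gamma0 N) (scalarRep_dChar_neg_one hN ε A hε)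
    (heckeBeta_mul_neg_one ℓ) f (isEquivariant_scalarRep _ f) hf
    (heckeWeight_isWeight' hN ε A ℓ hℓ) (heckeWeight_isWeight' hN ε B ℓ hℓ)
    (fun i a => by rw [Twist.heckeWeight_apply, Twist.heckeWeight_apply, map_smul]) h2
    (fun γ hγ hne i => heckePerm_ne N ℓ hℓ3 γ hγ hne i) y

/-- the sum of the weights is `ℓ + 1` on invariants -/
theorem sum_heckeWeight_of_mem_H0 (ℓ : ℕ) [Fact ℓ.Prime] [NeZero ℓ] (hℓN : ¬ ℓ ∣ N) {c : A}
    (hc : c ∈ H0 (scalarRep (Twist.dChar hN ε) A)) :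
    ∑ i : HeckeIdx N ℓ, Twist.heckeWeight A ε ℓ i c = ((ℓ : R) + 1) • c := by
  classical
  have hεl : ε (ℓ : ZMod Nε) • c = c := by
    obtain ⟨a, b, hab⟩ := (Int.isCoprime_iff_gcd_eq_one.mpr (by
      rw [Int.gcd_natCast_natCast]
      exact (Fact.out : ℓ.Prime).coprime_iff_not_dvd.mpr hℓN) :
        IsCoprime (ℓ : ℤ) (N : ℤ))
    let g : SL(2, ℤ) := ⟨!![a, -b; (N : ℤ), (ℓ : ℤ)], by
      rw [Matrix.det_fin_two_of]; linear_combination hab⟩
    have hg : g ∈ Gamma0 N := Gamma0_mem.mpr (by simp [g])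
    have := hc ⟨g, hg⟩
    rw [scalarRep_apply, Twist.dChar_apply] at this
    simpa [g] using this
  let G : Option (ZMod ℓ) → A := fun x => ((x.elim (ε (ℓ : ZMod Nε)) (fun _ => 1)) : R) • c
  have e : ∑ i : HeckeIdx N ℓ, Twist.heckeWeight A ε ℓ i c = ∑ x : Option (ZMod ℓ), G x := by
    refine Fintype.sum_bijective (fun i => i.1) ⟨Subtype.val_injective, fun x => ⟨⟨x, fun _ => hℓN⟩, rfl⟩⟩
      _ _ fun i => ?_
    rfl
  rw [e, Fintype.sum_option]
  simp only [G, Option.elim_none, Option.elim_some, hεl, one_smul, Finset.sum_const, Finset.card_univ,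
    ZMod.card]
  rw [add_smul, one_smul, Nat.cast_smul_eq_nsmul, add_comm]

/-- `T_ℓ - (ℓ + 1)` kills the kernel. -/
theorem heckeT_eq_smul {B : Type*} [AddCommGroup B] [Module R B] (f : A →ₗ[R] B)
    (hf : Function.Injective f) (ℓ : ℕ) [Fact ℓ.Prime] (hℓ : ¬ ℓ ∣ Nε) (hℓN : ¬ ℓ ∣ N)
    {x : H1 (scalarRep (Twist.dChar hN ε) A)} (hx : scalarMap (Twist.dChar hN ε) f x = 0) :
    heckeT hN ε A ℓ hℓ x = ((ℓ : R) + 1) • x :=
  haveI : NeZero ℓ := ⟨(Fact.out : ℓ.Prime).ne_zero⟩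
  trH1_eq_smul_of_mapH1_eq_zero (isCosetSystem N ℓ) f (isEquivariant_scalarRep _ f) hf
    (LinearMap.range f).mkQ (isEquivariant_scalarRep _ _)
    (LinearMap.exact_map_mkQ_range f)
    (heckeWeight_isWeight' hN ε A ℓ hℓ) (heckeWeight_isWeight' hN ε B ℓ hℓ)
    (fun i a => by rw [Twist.heckeWeight_apply, Twist.heckeWeight_apply, map_smul])
    (w := Twist.heckeWeight (B ⧸ LinearMap.range f) ε ℓ)
    (fun i b => by rw [Twist.heckeWeight_apply, Twist.heckeWeight_apply, map_smul])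
    ((ℓ : R) + 1) (fun c hc => sum_heckeWeight_of_mem_H0 hN ε _ ℓ hℓN hc) hx

/-- With `6` invertible the map is surjective. -/
theorem scalarMap_surjective {B : Type*} [AddCommGroup B] [Module R B] (f : A →ₗ[R] B)
    (hf : Function.Surjective f) (h2 : IsUnit (2 : R)) (h3 : IsUnit (3 : R)) (hε : ε (-1) = 1) :
    Function.Surjective (scalarMap (Twist.dChar hN ε) f) :=
  mapH1_surjective (neg_one_mem_gamma0 N) (scalarRep_dChar_neg_one hN ε A hε) f
    (isEquivariant_scalarRep _ f) hf h2 h3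

end Fermat.Agent.Lifting
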