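/-
`Ribet.Twisted.Coh` is `H¹` of a scalar representation; right exactness at levels without elliptic
elements of order three, or with `3` invertible.
-/
import Fermat.Agent.Lifting.CGamma0
import Fermat.Agent.Lifting.CFree
import Fermat.Agent.Ribet.Twisted.Lift

set_option autoImplicit false

noncomputable section

namespace Fermat.Agent.Lifting

open CongruenceSubgroup
open scoped MatrixGroups
open Fermat.Agent.Ribet.Twisted (Coh CohL chr cocycles coboundary cocyclesMap)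

section Bridge

variable {Γ : Type*} [Group Γ] {A : Type*} [CommRing A] (Φ : Γ →* A)
  (X : Type*) [AddCommGroup X] [Module A X]

/-- the two descriptions of cocycles -/
def cocyclesEquiv : cocycles Φ X ≃ₗ[A] Z1 (scalarRep Φ X) where
  toFun z := ⟨z.1, z.2⟩
  invFun f := ⟨f.1, f.2⟩
  map_add' _ _ := rfl
  map_smul' _ _ := rfl
  left_inv _ := rfl
  right_inv _ := rfl

/-- the two descriptions of cohomology -/
def cohEquiv : Coh Φ X ≃ₗ[A] H1 (scalarRep Φ X) :=
  Submodule.Quotient.equiv _ _ (cocyclesEquiv Φ X) (by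
    apply le_antisymm
    · rw [Submodule.map_le_iff_le_comap]
      rintro _ ⟨a, rfl⟩
      exact ⟨a, rfl⟩
    · rintro _ ⟨a, rfl⟩
      exact ⟨coboundary Φ X a, ⟨a, rfl⟩, rfl⟩)

theorem cohEquiv_mk (z : cocycles Φ X) :
    cohEquiv Φ X (Coh.mk Φ X z) = toH1 (scalarRep Φ X) (cocyclesEquiv Φ X z) := rfl

theorem scalarMap_cohEquiv {Y : Type*} [AddCommGroup Y] [Module A Y] (f : X →ₗ[A] Y)
    (x : Coh Φ X) :
    scalarMap Φ f (cohEquiv Φ X x)
      = cohEquiv Φ Y (Coh.map (Φ := Φ) (Ψ := Φ) (φ := RingHom.id A) (fun _ => rfl) f x) := by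
  obtain ⟨z, rfl⟩ := Ribet.Twisted.Coh.mk_surjective x
  rfl

end Bridge

/-- No obstruction at elliptic elements of order three. -/
def Elliptic3 (A : Type*) [CommRing A] (L : ℕ) : Prop :=
  IsUnit (3 : A) ∨ ∃ r : ℕ, r.Prime ∧ r ∣ L ∧ r % 3 = 2

theorem Elliptic3.of_dvd {A : Type*} [CommRing A] {L L' : ℕ} (h : Elliptic3 A L) (hL : L ∣ L') :
    Elliptic3 A L' :=
  h.imp id fun ⟨r, h1, h2, h3⟩ => ⟨r, h1, h2.trans hL, h3⟩

theorem Elliptic3.map {A B : Type*} [CommRing A] [CommRing B] {L : ℕ} (h : Elliptic3 A L)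
    (φ : A →+* B) : Elliptic3 B L :=
  h.imp (fun h3 => map_ofNat φ 3 ▸ h3.map φ) id

/-- A prime `≡ 2 (mod 3)` in the level leaves no elliptic elements of order three. -/
theorem eq_neg_one_of_cube {L r : ℕ} (hr : r.Prime) (hrL : r ∣ L) (hr3 : r % 3 = 2)
    (γ : Gamma0 L) (h : (γ : SL(2, ℤ)) ^ 3 = -1) : (γ : SL(2, ℤ)) = -1 := by
  by_contra hne
  haveI : Fact r.Prime := ⟨hr⟩
  have ht := trace_eq_one_of_cube h hne
  have hd := HeckeCohom.det_eq_one (γ : SL(2, ℤ))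
  have hc : (((γ : SL(2, ℤ)) 1 0 : ℤ) : ZMod r) = 0 :=
    (ZMod.intCast_zmod_eq_zero_iff_dvd _ _).mpr
      ((Int.natCast_dvd_natCast.mpr hrL).trans (HeckeCohom.dvd_apply_one_zero L γ))
  have ht' := congrArg (Int.cast : ℤ → ZMod r) ht
  have hd' := congrArg (Int.cast : ℤ → ZMod r) hd
  push_cast at ht' hd'
  rw [hc, mul_zero, sub_zero] at hd'
  exact sq_sub_add_one_ne_zero hr3 (((γ : SL(2, ℤ)) 0 0 : ℤ) : ZMod r)
    (by linear_combination (((γ : SL(2, ℤ)) 0 0 : ℤ) : ZMod r) * ht' - hd')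

variable {A : Type*} [CommRing A] {L D : ℕ} (hD : D ∣ L) (ψ : DirichletCharacter A D)

theorem scalarRep_chr_neg_one (X : Type*) [AddCommGroup X] [Module A X] :
    scalarRep (chr hD ψ) X ⟨-1, neg_one_mem_gamma0 L⟩ = 1 := by
  refine LinearMap.ext fun x => ?_
  rw [scalarRep_apply, Ribet.Twisted.chr_neg_one hD ψ, one_smul]
  rfl

/-- Cocycles lift along surjections of coefficients. -/
theorem exists_cocycle_lift' (h2 : IsUnit (2 : A)) (h3 : Elliptic3 A L)
    {X Y : Type*} [AddCommGroup X] [Module A X] [AddCommGroup Y] [Module A Y]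
    (f : X →ₗ[A] Y) (hf : Function.Surjective f) (z : cocycles (chr hD ψ) Y) :
    ∃ y : cocycles (chr hD ψ) X, ∀ γ, f ((y : Gamma0 L → X) γ) = (z : Gamma0 L → Y) γ := by
  have hneg := neg_one_mem_gamma0 L
  have hσ := scalarRep_chr_neg_one hD ψ X
  have heq := isEquivariant_scalarRep (chr hD ψ) f
  set F := cocyclesEquiv (chr hD ψ) Y z with hF
  have hz : (F : Gamma0 L → Y) ⟨-1, hneg⟩ = 0 := Z1_neg_one hneg hσ f heq hf h2 F
  have hl2 := liftsAtElliptic_of_isUnit hneg hσ f heq hf F hz (n := 2) (by exact_mod_cast h2)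
  have hl3 : LiftsAtElliptic (scalarRep (chr hD ψ) X) f (F : Gamma0 L → Y) 3 := by
    rcases h3 with h | ⟨r, hr, hrL, hr3⟩
    · exact liftsAtElliptic_of_isUnit hneg hσ f heq hf F hz (by exact_mod_cast h)
    · intro γ hγ
      have e : γ = ⟨-1, hneg⟩ := Subtype.ext (eq_neg_one_of_cube hr hrL hr3 γ hγ)
      exact ⟨0, by rw [map_zero, e, hz], by simp⟩
  obtain ⟨g, hg, -⟩ := exists_lift hneg hσ f heq hf F hz hl2 hl3
  exact ⟨(cocyclesEquiv (chr hD ψ) X).symm g, fun γ => congrFun (congrArg Subtype.val hg) γ⟩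

/-- Right exactness. -/
theorem cohMap_surjective (h2 : IsUnit (2 : A)) (h3 : Elliptic3 A L)
    {X Y : Type*} [AddCommGroup X] [Module A X] [AddCommGroup Y] [Module A Y]
    (f : X →ₗ[A] Y) (hf : Function.Surjective f) :
    Function.Surjective
      (Coh.map (Φ := chr hD ψ) (Ψ := chr hD ψ) (φ := RingHom.id A) (fun _ => rfl) f) := by
  intro x
  obtain ⟨z, rfl⟩ := Ribet.Twisted.Coh.mk_surjective x
  obtain ⟨y, hy⟩ := exists_cocycle_lift' hD ψ h2 h3 f hf z
  exact ⟨Coh.mk _ X y, by rw [Ribet.Twisted.Coh.map_mk]; congr 1; exact Subtype.ext (funext hy)⟩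

end Fermat.Agent.Lifting
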