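/-
`T_ℓ - (ℓ + 1)`, `ℓ ≡ 1 (mod N)`, maps homomorphisms of `Γ₀(N)` to parabolic ones; without
elliptic elements of order three and with `2` invertible these are parabolic-elliptic.
-/
import Fermat.Agent.Lifting.CBridge
import Fermat.Agent.Ribet.Twisted.LevelReps
import Fermat.Agent.Raise.Ihara

set_option autoImplicit false

noncomputable section

namespace Fermat.Agent.Lifting

open CongruenceSubgroup Matrix.SpecialLinearGroup
open scoped MatrixGroups
open Fermat.Agent.Ribet.Twisted (Mat g0Mat g0Mk g0Mat_mul g0Mat_inv_mul g0Mat_g0Mk toGL toGL_inj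
  gamma0GL_eq_toGL)

variable {N : ℕ}

/-- an element of trace `± 2` is conjugate to an upper triangular one -/
theorem exists_upper_conj (γ : SL(2, ℤ))
    (h : (γ : Matrix (Fin 2) (Fin 2) ℤ).trace ^ 2 = 4) :
    ∃ (g : SL(2, ℤ)) (e m : ℤ), (e = 1 ∨ e = -1) ∧
      (γ : Mat) = (g : Mat) * !![e, e * m; 0, e] * ((g⁻¹ : SL(2, ℤ)) : Mat) := by
  obtain ⟨e, he, htr⟩ : ∃ e : ℤ, (e = 1 ∨ e = -1) ∧ γ 0 0 + γ 1 1 = 2 * e := by
    rw [Matrix.trace_fin_two] at h
    have h' : (γ 0 0 + γ 1 1 - 2) * (γ 0 0 + γ 1 1 + 2) = 0 := by linear_combination h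
    rcases mul_eq_zero.mp h' with h1 | h1
    · exact ⟨1, Or.inl rfl, by linarith⟩
    · exact ⟨-1, Or.inr rfl, by linarith⟩
  have hd := HeckeCohom.det_eq_one γ
  by_cases hc : γ 1 0 = 0
  · -- already upper triangular
    refine ⟨1, e, e * γ 0 1, he, ?_⟩
    have hee : e * e = 1 := by rcases he with rfl | rfl <;> norm_num
    rw [hc, mul_zero, sub_zero] at hd
    have h0 : (γ 0 0 - e) ^ 2 = 0 := by linear_combination -hd + (γ 0 0) * htr + hee
    have ha : γ 0 0 = e := sub_eq_zero.mp (pow_eq_zero_iff two_ne_zero |>.mp h0)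
    have hdd : γ 1 1 = e := by linarith
    rw [inv_one, Matrix.SpecialLinearGroup.coe_one, Matrix.one_mul, Matrix.mul_one, ← mul_assoc,
      hee, one_mul]
    ext i j
    fin_cases i <;> fin_cases j <;> simp [ha, hdd, hc]
  · -- primitive vector of the kernel of `γ - e`
    set a := γ 0 0 - e with ha
    set c := γ 1 0 with hcdef
    obtain ⟨a', c', hcop, ha', hc'⟩ := Int.exists_gcd_one (m := a) (n := c)
      (Int.gcd_pos_of_ne_zero_right a hc)
    obtain ⟨s, t, hst⟩ : IsCoprime a' c' := Int.isCoprime_iff_gcd_eq_one.mpr hcop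
    set g : SL(2, ℤ) := ⟨!![a', -t; c', s], by
      rw [Matrix.det_fin_two_of]; linear_combination hst⟩ with hg
    set δ : SL(2, ℤ) := g⁻¹ * γ * g with hδ
    have hγ : (γ : Mat) = (g : Mat) * (δ : Mat) * ((g⁻¹ : SL(2, ℤ)) : Mat) := by
      rw [← Matrix.SpecialLinearGroup.coe_mul, ← Matrix.SpecialLinearGroup.coe_mul]
      exact congrArg Subtype.val (by rw [hδ]; group)
    have hG : (Int.gcd a c : ℤ) ≠ 0 := by exact_mod_cast (Int.gcd_pos_of_ne_zero_right a hc).ne'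
    have hee : e * e = 1 := by rcases he with rfl | rfl <;> norm_num
    have h1 : γ 0 1 * c = -a * a := by
      rw [ha, hcdef]; linear_combination (γ 0 0) * htr - hd + hee
    have k0 : γ 0 0 * a' + γ 0 1 * c' = e * a' := by
      refine mul_right_cancel₀ hG ?_
      linear_combination (-γ 0 0 + e) * ha' - (γ 0 1) * hc' + h1
    have k1 : γ 1 0 * a' + γ 1 1 * c' = e * c' := by
      refine mul_right_cancel₀ hG ?_
      linear_combination (-γ 1 0) * ha' + (-γ 1 1 + e) * hc' + c * htr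
    have d00 : δ 0 0 = e := by
      simp [hδ, hg, Matrix.SpecialLinearGroup.coe_inv, Matrix.adjugate_fin_two, Matrix.mul_apply,
        Matrix.vecMul, dotProduct, Fin.sum_univ_two]
      linear_combination s * k0 + t * k1 + e * hst
    have d10 : δ 1 0 = 0 := by
      simp [hδ, hg, Matrix.SpecialLinearGroup.coe_inv, Matrix.adjugate_fin_two, Matrix.mul_apply,
        Matrix.vecMul, dotProduct, Fin.sum_univ_two]
      linear_combination -c' * k0 + a' * k1
    have hdet := HeckeCohom.det_eq_one δ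
    rw [d00, d10, mul_zero, sub_zero] at hdet
    have d11 : δ 1 1 = e := by
      calc δ 1 1 = e * e * δ 1 1 := by rw [hee, one_mul]
        _ = e := by rw [mul_assoc, hdet, mul_one]
    refine ⟨g, e, e * δ 0 1, he, ?_⟩
    rw [hγ, ← mul_assoc, hee, one_mul]
    congr 2
    ext i j
    fin_cases i <;> fin_cases j <;> simp [d00, d10, d11]

variable [NeZero N] {A : Type*} [AddCommGroup A]

/-- conjugate representatives of `T_ℓ`, `ℓ ≡ 1 (mod N)` -/
def conjRep (N : ℕ) (g : SL(2, ℤ)) (ℓ : ℕ) (i : Option (ZMod ℓ)) : Mat :=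
  (g : Mat) * (i.elim !![(ℓ : ℤ), 0; 0, 1] fun y => !![1, (N : ℤ) * y.val; 0, (ℓ : ℤ)]) *
    ((g⁻¹ : SL(2, ℤ)) : Mat)

/-- For any `g`, the conjugates by `g` of suitable upper triangular matrices represent the classes
of `T_ℓ`, `ℓ ≡ 1 (mod N)`. -/
theorem exists_conj_reps (g : SL(2, ℤ)) (ℓ : Nat.Primes) (hℓ : ((ℓ : ℕ) : ZMod N) = 1) :
    ∃ (π : Option (ZMod (ℓ : ℕ)) → HeckeCohom.HeckeIdx N (ℓ : ℕ))
      (w : Option (ZMod (ℓ : ℕ)) → Gamma0 N), Function.Bijective π ∧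
      ∀ i, conjRep N g (ℓ : ℕ) i = g0Mat (w i) * Ribet.Twisted.hmat N (ℓ : ℕ) (π i) := by
  haveI : Fact (ℓ : ℕ).Prime := ⟨ℓ.2⟩
  haveI : NeZero (ℓ : ℕ) := ⟨ℓ.2.ne_zero⟩
  have hℓN : ¬ (ℓ : ℕ) ∣ N := fun h => ℓ.2.ne_one (by
    have h' := congrArg (ZMod.castHom h (ZMod (ℓ : ℕ))) hℓ
    rw [map_natCast, map_one, ZMod.natCast_self] at h'
    exact absurd h' zero_ne_one)
  have hℓ0 : ((ℓ : ℕ) : ℤ) ≠ 0 := Int.natCast_ne_zero.mpr ℓ.2.ne_zero
  have hNℓ : (N : ZMod (ℓ : ℕ)) ≠ 0 := fun h => hℓN ((ZMod.natCast_eq_zero_iff _ _).mp h)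
  set G : Mat := (g : Mat) with hGdef
  set G' : Mat := ((g⁻¹ : SL(2, ℤ)) : Mat) with hG'def
  have hGG' : G * G' = 1 := by
    rw [hGdef, hG'def, ← Matrix.SpecialLinearGroup.coe_mul, mul_inv_cancel,
      Matrix.SpecialLinearGroup.coe_one]
  have hG'G : G' * G = 1 := by
    rw [hGdef, hG'def, ← Matrix.SpecialLinearGroup.coe_mul, inv_mul_cancel,
      Matrix.SpecialLinearGroup.coe_one]
  let B : Option (ZMod (ℓ : ℕ)) → Mat := fun i =>
    i.elim !![((ℓ : ℕ) : ℤ), 0; 0, 1] fun y => !![1, (N : ℤ) * y.val; 0, ((ℓ : ℕ) : ℤ)]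
  let B' : Option (ZMod (ℓ : ℕ)) → Mat := fun i => G * B i * G'
  have hB'det : ∀ i, (B' i).det = ((ℓ : ℕ) : ℤ) := fun i => by
    simp only [B', hGdef, hG'def, Matrix.det_mul, Matrix.SpecialLinearGroup.det_coe]
    rcases i with _ | y <;> simp [B, Matrix.det_fin_two_of]
  have hB'mod : ∀ i, (B' i).map (Int.cast : ℤ → ZMod N) = 1 := fun i => by
    have hB : (B i).map (Int.castRingHom (ZMod N)) = 1 := by
      rcases i with _ | y <;> ext a b <;> fin_cases a <;> fin_cases b <;>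
        simp [B, hℓ]
    show (B' i).map (Int.castRingHom (ZMod N)) = 1
    rw [Matrix.map_mul, Matrix.map_mul, hB, Matrix.mul_one, ← Matrix.map_mul, hGG']
    simp
  have hπ : ∀ i, ∃ (c : Gamma0 N) (j : HeckeCohom.HeckeIdx N (ℓ : ℕ)),
      B' i = g0Mat c * Ribet.Twisted.hmat N (ℓ : ℕ) j := fun i => by
    have h10 : ((B' i 1 0 : ℤ) : ZMod N) = 0 := by
      simpa using congrFun (congrFun (hB'mod i) 1) 0
    have h00 : ((B' i 0 0 : ℤ) : ZMod N) = 1 := by
      simpa using congrFun (congrFun (hB'mod i) 0) 0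
    refine Ribet.Twisted.exists_g0Mat_mul_hmat ℓ.2 (hB'det i)
      ((ZMod.intCast_zmod_eq_zero_iff_dvd _ _).mp h10) ?_
    obtain ⟨k, hk⟩ : (N : ℤ) ∣ B' i 0 0 - 1 :=
      (ZMod.intCast_zmod_eq_zero_iff_dvd _ _).mp (by push_cast; rw [h00, sub_self])
    exact ⟨1, -k, by linear_combination hk⟩
  choose w π hw using hπ
  have hBinj : ∀ (d : Gamma0 1) (i j : Option (ZMod (ℓ : ℕ))), B i = g0Mat d * B j → i = j := by
    intro d i j h
    let τ : Option (ZMod (ℓ : ℕ)) → HeckeCohom.HeckeIdx 1 (ℓ : ℕ) := fun i =>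
      ⟨i.map ((N : ZMod (ℓ : ℕ)) * ·), fun _ => ℓ.2.not_dvd_one⟩
    have hB : ∀ i, ∃ v : Gamma0 1, B i = g0Mat v * Ribet.Twisted.hmat 1 (ℓ : ℕ) (τ i) := by
      rintro (_ | y)
      · exact ⟨1, by simp [B, τ, Ribet.Twisted.hmat, Ribet.Twisted.g0Mat_one]⟩
      · obtain ⟨t, ht⟩ : ((ℓ : ℕ) : ℤ) ∣ (N : ℤ) * y.val - (((N : ZMod (ℓ : ℕ)) * y).val : ℤ) := by
          rw [← ZMod.intCast_zmod_eq_zero_iff_dvd]; simp
        refine ⟨g0Mk !![1, t; 0, 1] (by simp [Matrix.det_fin_two_of]) (by simp), ?_⟩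
        rw [g0Mat_g0Mk]
        ext a b
        fin_cases a <;> fin_cases b <;>
          simp [B, τ, Ribet.Twisted.hmat, Matrix.mul_apply, Fin.sum_univ_two, -ZMod.natCast_val]
        linear_combination ht
    obtain ⟨vi, hvi⟩ := hB i
    obtain ⟨vj, hvj⟩ := hB j
    have hD1 : ¬ (ℓ : ℕ) ∣ 1 := ℓ.2.not_dvd_one
    have hτ : τ i = τ j := (Ribet.Twisted.hmat_intSys (L := 1) ℓ.2 hD1).dist (vi⁻¹ * (d * vj)) _ _ (by
      rw [g0Mat_mul, g0Mat_mul, Matrix.mul_assoc, Matrix.mul_assoc, ← hvj, ← h, hvi,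
        ← Matrix.mul_assoc, g0Mat_inv_mul, Matrix.one_mul])
    exact Option.map_injective (mul_right_injective₀ hNℓ) (congrArg Subtype.val hτ)
  have hπbij : Function.Bijective π := by
    refine (Fintype.bijective_iff_injective_and_card π).mpr ⟨fun i j hij => ?_, ?_⟩
    · set d : Gamma0 N := w i * (w j)⁻¹ with hd
      have hij' : B' i = g0Mat d * B' j := by
        rw [hw i, hw j, hij, ← Matrix.mul_assoc, ← g0Mat_mul, hd, inv_mul_cancel_right]
      refine hBinj ⟨g⁻¹ * (d : SL(2, ℤ)) * g, by rw [Gamma0_mem]; exact Subsingleton.elim _ _⟩ i j ?_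
      have hexp : ∀ X, G' * (G * X * G') * G = X := fun X => by
        simp only [← Matrix.mul_assoc, hG'G, Matrix.one_mul]
        rw [Matrix.mul_assoc, hG'G, Matrix.mul_one]
      rw [← hexp (B i), show G * B i * G' = B' i from rfl, hij']
      show G' * (g0Mat d * (G * B j * G')) * G = G' * g0Mat d * G * B j
      calc _ = G' * g0Mat d * G * B j * (G' * G) := by simp only [Matrix.mul_assoc]
        _ = _ := by rw [hG'G, Matrix.mul_one]
    · rw [Fintype.card_option, ZMod.card,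
        Fintype.card_congr (Equiv.subtypeUnivEquiv fun _ _ => hℓN :
          HeckeCohom.HeckeIdx N (ℓ : ℕ) ≃ Option (ZMod (ℓ : ℕ))), Fintype.card_option, ZMod.card]
  exact ⟨π, w, hπbij, hw⟩

/-- **`T_ℓ - (ℓ + 1)` kills the boundary when `ℓ ≡ 1 (mod N)`.** -/
theorem isParabolicHom_heckeHom_sub (ℓ : Nat.Primes) (hℓ : ((ℓ : ℕ) : ZMod N) = 1)
    (x : Additive (Gamma0 N) →+ A) :
    ModularCurve.Period.IsParabolicHom (Gamma0 N)
      (HeckeCohom.heckeHom N ℤ A ℓ x - ((ℓ : ℕ) + 1) • x) := by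
  haveI : Fact (ℓ : ℕ).Prime := ⟨ℓ.2⟩
  haveI : NeZero (ℓ : ℕ) := ⟨ℓ.2.ne_zero⟩
  intro γ hγ
  obtain ⟨g, e, m, he, hconj⟩ := exists_upper_conj (γ : SL(2, ℤ)) hγ
  have hN : (N : ℤ) ≠ 0 := Int.natCast_ne_zero.mpr (NeZero.ne N)
  have hℓN : ¬ (ℓ : ℕ) ∣ N := fun h => ℓ.2.ne_one (by
    have h' := congrArg (ZMod.castHom h (ZMod (ℓ : ℕ))) hℓ
    rw [map_natCast, map_one, ZMod.natCast_self] at h'
    exact absurd h' zero_ne_one)
  have hℓ0 : ((ℓ : ℕ) : ℤ) ≠ 0 := Int.natCast_ne_zero.mpr ℓ.2.ne_zero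
  have hNℓ : (N : ZMod (ℓ : ℕ)) ≠ 0 := fun h => hℓN ((ZMod.natCast_eq_zero_iff _ _).mp h)
  set G : Mat := (g : Mat) with hGdef
  set G' : Mat := ((g⁻¹ : SL(2, ℤ)) : Mat) with hG'def
  have hGG' : G * G' = 1 := by
    rw [hGdef, hG'def, ← Matrix.SpecialLinearGroup.coe_mul, mul_inv_cancel,
      Matrix.SpecialLinearGroup.coe_one]
  have hG'G : G' * G = 1 := by
    rw [hGdef, hG'def, ← Matrix.SpecialLinearGroup.coe_mul, inv_mul_cancel,
      Matrix.SpecialLinearGroup.coe_one]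
  have conj_mul : ∀ X Y : Mat, G * X * G' * (G * Y * G') = G * (X * Y) * G' := fun X Y => by
    calc G * X * G' * (G * Y * G') = G * X * (G' * G) * Y * G' := by
          simp only [Matrix.mul_assoc]
      _ = _ := by rw [hG'G, Matrix.mul_one]; simp only [Matrix.mul_assoc]
  -- the unipotent element and its powers
  let U : ℤ → Mat := fun k => G * !![1, (N : ℤ) * k; 0, 1] * G'
  have hUdet : ∀ k, (U k).det = 1 := fun k => by
    simp only [U, hGdef, hG'def, Matrix.det_mul, Matrix.SpecialLinearGroup.det_coe,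
      Matrix.det_fin_two_of]
    ring
  have hU10 : ∀ k, (N : ℤ) ∣ U k 1 0 := fun k => by
    refine ⟨k * G 1 0 * G' 1 0, ?_⟩
    have h0 := congrFun (congrFun hGG' 1) 0
    simp [Matrix.mul_apply, Fin.sum_univ_two] at h0
    simp [U, Matrix.mul_apply, Fin.sum_univ_two]
    linear_combination h0
  let u : ℤ → Gamma0 N := fun k => g0Mk (U k) (hUdet k) (hU10 k)
  have hu : ∀ k l, u (k + l) = u k * u l := fun k l => by
    refine Subtype.ext (Subtype.ext ?_)
    show U (k + l) = U k * U l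
    simp only [U, conj_mul]
    congr 2
    ext i j
    fin_cases i <;> fin_cases j <;> simp [Matrix.mul_apply, Fin.sum_univ_two] <;> ring
  let θ : ℤ →+ A := AddMonoidHom.mk' (fun k => x (Additive.ofMul (u k))) fun k l => by
    rw [hu, ofMul_mul, map_add]
  -- the new representatives
  let B : Option (ZMod (ℓ : ℕ)) → Mat := fun i =>
    i.elim !![((ℓ : ℕ) : ℤ), 0; 0, 1] fun y => !![1, (N : ℤ) * y.val; 0, ((ℓ : ℕ) : ℤ)]
  let B' : Option (ZMod (ℓ : ℕ)) → Mat := fun i => G * B i * G'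
  obtain ⟨π, w, hπbij, hw⟩ := exists_conj_reps g ℓ hℓ
  replace hw : ∀ i, B' i = g0Mat (w i) * Ribet.Twisted.hmat N (ℓ : ℕ) (π i) := hw
  -- the witnesses
  let σ : Option (ZMod (ℓ : ℕ)) ≃ Option (ZMod (ℓ : ℕ)) :=
    Equiv.optionCongr (Equiv.addRight ((m : ZMod (ℓ : ℕ)) / (N : ZMod (ℓ : ℕ))))
  have hk : ∀ i, ∃ k : ℤ, B' i * g0Mat γ = g0Mat (γ * u k) * B' (σ i) ∧
      (N : ℤ) * ((ℓ : ℕ) : ℤ) * k = i.elim (((ℓ : ℕ) : ℤ) * m * (((ℓ : ℕ) : ℤ) - 1))
        (fun y => m * (1 - ((ℓ : ℕ) : ℤ))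
          + (N : ℤ) * ((y.val : ℤ) - ((y + (m : ZMod (ℓ : ℕ)) / (N : ZMod (ℓ : ℕ))).val : ℤ))) := by
    have hcl : ∀ (i : Option (ZMod (ℓ : ℕ))) (k : ℤ),
        B i * !![e, e * m; 0, e] = !![e, e * m; 0, e] * !![1, (N : ℤ) * k; 0, 1] * B (σ i) →
        B' i * g0Mat γ = g0Mat (γ * u k) * B' (σ i) := by
      intro i k h
      rw [g0Mat_mul, g0Mat_g0Mk]
      show G * B i * G' * ((γ : SL(2, ℤ)) : Mat)
        = ((γ : SL(2, ℤ)) : Mat) * U k * (G * B (σ i) * G')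
      rw [hconj, conj_mul, h, ← conj_mul, ← conj_mul]
    obtain ⟨k₀, hk₀⟩ : (N : ℤ) ∣ ((ℓ : ℕ) : ℤ) - 1 :=
      (ZMod.intCast_zmod_eq_zero_iff_dvd _ _).mp (by push_cast; rw [hℓ, sub_self])
    rintro (_ | y)
    · refine ⟨m * k₀, hcl _ _ ?_, ?_⟩
      · ext a b
        fin_cases a <;> fin_cases b <;>
          simp [B, σ, Matrix.mul_apply, Fin.sum_univ_two] <;>
          first | ring1 | linear_combination e * m * hk₀
      · show _ = ((ℓ : ℕ) : ℤ) * m * (((ℓ : ℕ) : ℤ) - 1)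
        rw [hk₀]; ring
    · set z : ZMod (ℓ : ℕ) := y + (m : ZMod (ℓ : ℕ)) / (N : ZMod (ℓ : ℕ)) with hz
      have hdiv : ((ℓ : ℕ) : ℤ) * N ∣ m * (1 - ((ℓ : ℕ) : ℤ)) + N * ((y.val : ℤ) - z.val) := by
        refine IsCoprime.mul_dvd (Nat.isCoprime_iff_coprime.mpr
          ((Nat.Prime.coprime_iff_not_dvd ℓ.2).mpr hℓN)) ?_ ?_
        · rw [← ZMod.intCast_zmod_eq_zero_iff_dvd]
          push_cast [ZMod.natCast_zmod_val]
          rw [hz, ZMod.natCast_self]
          field_simp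
          ring
        · exact dvd_add ⟨-(m * k₀), by linear_combination -m * hk₀⟩ (dvd_mul_right _ _)
      obtain ⟨k, hk⟩ := hdiv
      refine ⟨k, hcl _ _ ?_, ?_⟩
      · ext a b
        fin_cases a <;> fin_cases b <;>
          simp [B, σ, ← hz, Matrix.mul_apply, Fin.sum_univ_two, -ZMod.natCast_val] <;>
          first | ring1 | linear_combination e * hk
      · show _ = m * (1 - ((ℓ : ℕ) : ℤ)) + (N : ℤ) * ((y.val : ℤ) - (z.val : ℤ))
        rw [hk]; ring
  choose k hkγ hkval using hk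
  have hksum : ∑ i, k i = 0 := by
    refine mul_left_cancel₀ (mul_ne_zero hN hℓ0) ?_
    rw [mul_zero, Finset.mul_sum, Finset.sum_congr rfl fun i _ => hkval i, Fintype.sum_option]
    simp only [Option.elim_none, Option.elim_some, Finset.sum_add_distrib, Finset.sum_const,
      Finset.card_univ, ZMod.card, nsmul_eq_mul, ← Finset.mul_sum, Finset.sum_sub_distrib]
    rw [show (∑ y : ZMod (ℓ : ℕ), ((y + (m : ZMod (ℓ : ℕ)) / (N : ZMod (ℓ : ℕ))).val : ℤ))
      = ∑ y : ZMod (ℓ : ℕ), (y.val : ℤ) from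
      Equiv.sum_comp (Equiv.addRight ((m : ZMod (ℓ : ℕ)) / (N : ZMod (ℓ : ℕ))))
        fun y => (y.val : ℤ)]
    ring
  -- the transfer
  set π' := Equiv.ofBijective π hπbij
  have hvalue : HeckeCohom.heckeHom N ℤ A ℓ x (Additive.ofMul γ)
      = ∑ i, x (Additive.ofMul (γ * u (k i))) := by
    rw [HeckeCohom.heckeHom_eq_sum ℓ x γ
      (fun j => (w (π'.symm j))⁻¹ * (γ * u (k (π'.symm j))) * w (σ (π'.symm j)))
      (fun j => π (σ (π'.symm j))) ?_]
    · rw [← Equiv.sum_comp π' fun j =>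
        x (Additive.ofMul ((w (π'.symm j))⁻¹ * (γ * u (k (π'.symm j))) * w (σ (π'.symm j))))]
      simp only [Equiv.symm_apply_apply, ofMul_mul, ofMul_inv, map_add, map_neg,
        Finset.sum_add_distrib, Finset.sum_neg_distrib]
      rw [Equiv.sum_comp σ fun i => x (Additive.ofMul (w i))]
      abel
    · intro j
      obtain ⟨i, rfl⟩ := π'.surjective j
      rw [Equiv.symm_apply_apply, Ribet.Twisted.heckeBeta_eq_toGL ℓ.2.ne_zero,
        Ribet.Twisted.heckeBeta_eq_toGL ℓ.2.ne_zero]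
      have hne : ∀ j, (Ribet.Twisted.hmat N (ℓ : ℕ) j).det ≠ 0 := fun j => by
        rw [Ribet.Twisted.hmat_det]; exact hℓ0
      rw [← Ribet.Twisted.toGL_mul_g0Mat (hne _), ← Ribet.Twisted.toGL_g0Mat_mul _ (hne _)]
      congr 1
      have h := hkγ i
      rw [hw i, hw (σ i)] at h
      calc Ribet.Twisted.hmat N (ℓ : ℕ) (π' i) * g0Mat γ
          = g0Mat (w i)⁻¹ * (g0Mat (w i) * Ribet.Twisted.hmat N (ℓ : ℕ) (π i) * g0Mat γ) := by
            rw [← Matrix.mul_assoc, ← Matrix.mul_assoc, g0Mat_inv_mul, Matrix.one_mul]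
            rfl
        _ = _ := by
            rw [h, g0Mat_mul _ (w (σ i)), g0Mat_mul (w i)⁻¹]
            simp only [Matrix.mul_assoc]
  rw [AddMonoidHom.sub_apply, hvalue, AddMonoidHom.nsmul_apply]
  simp only [ofMul_mul, map_add, Finset.sum_add_distrib, Finset.sum_const, Finset.card_univ,
    Fintype.card_option, ZMod.card]
  rw [show ∑ i, x (Additive.ofMul (u (k i))) = θ (∑ i, k i) from (map_sum θ k _).symm, hksum,
    map_zero, add_zero, sub_self]

/-- Parabolic homomorphisms are parabolic-elliptic when `2` is invertible and there is no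
obstruction of order three. -/
theorem isParEllHom_of_parabolic {R : Type*} [CommRing R] [Module R A] (h2 : IsUnit (2 : R))
    (h3 : Elliptic3 R N) {x : Additive (Gamma0 N) →+ A}
    (hx : ModularCurve.Period.IsParabolicHom (Gamma0 N) x) :
    ParHom.IsParEllHom (Gamma0 N) x := by
  intro γ hγ
  rcases hγ.lt_or_eq with hlt | heq
  swap
  · exact hx γ heq
  have hunit : ∀ n : ℕ, γ ^ n = 1 → IsUnit (n : R) → x (Additive.ofMul γ) = 0 := fun n hn hu => by
    have h := congrArg (fun g => x (Additive.ofMul g)) hn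
    simp only [ofMul_pow, map_nsmul, ofMul_one, map_zero] at h
    rw [← Nat.cast_smul_eq_nsmul R] at h
    exact hu.smul_eq_zero.mp h
  have h12 : γ ^ 12 = 1 := Subtype.ext (by simpa using ParHom.pow_twelve_eq_one_of_tr_sq_lt hlt)
  rcases h3 with h3 | ⟨r, hr, hrN, hr3⟩
  · refine hunit 12 h12 ?_
    have : IsUnit (2 * 2 * 3 : R) := (h2.mul h2).mul h3
    push_cast
    rwa [show (12 : R) = 2 * 2 * 3 by norm_num]
  · haveI : Fact r.Prime := ⟨hr⟩
    have hd := HeckeCohom.det_eq_one (γ : SL(2, ℤ))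
    have hc : (((γ : SL(2, ℤ)) 1 0 : ℤ) : ZMod r) = 0 :=
      (ZMod.intCast_zmod_eq_zero_iff_dvd _ _).mpr
        ((Int.natCast_dvd_natCast.mpr hrN).trans (HeckeCohom.dvd_apply_one_zero N γ))
    have htr : ParHom.tr (γ : SL(2, ℤ)) = (γ : SL(2, ℤ)) 0 0 + (γ : SL(2, ℤ)) 1 1 :=
      Matrix.trace_fin_two _
    have h0 : (γ : SL(2, ℤ)) 0 0 + (γ : SL(2, ℤ)) 1 1 = 0 := by
      rw [htr] at hlt
      set t := (γ : SL(2, ℤ)) 0 0 + (γ : SL(2, ℤ)) 1 1 with ht
      have h1 : -1 ≤ t ∧ t ≤ 1 := ⟨by nlinarith, by nlinarith⟩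
      by_contra hne
      have ht2 : t = 1 ∨ t = -1 := by omega
      have hd' := congrArg (Int.cast : ℤ → ZMod r) hd
      push_cast at hd'
      rw [hc, mul_zero, sub_zero] at hd'
      rcases ht2 with h | h <;> rw [ht] at h <;>
        have h' := congrArg (Int.cast : ℤ → ZMod r) h <;> push_cast at h'
      · exact sq_sub_add_one_ne_zero hr3 (((γ : SL(2, ℤ)) 0 0 : ℤ) : ZMod r)
          (by linear_combination (((γ : SL(2, ℤ)) 0 0 : ℤ) : ZMod r) * h' - hd')
      · exact sq_sub_add_one_ne_zero hr3 (-(((γ : SL(2, ℤ)) 0 0 : ℤ) : ZMod r))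
          (by linear_combination (((γ : SL(2, ℤ)) 0 0 : ℤ) : ZMod r) * h' - hd')
    refine hunit 4 (Subtype.ext (Subtype.ext ?_)) (by
      have : IsUnit (2 * 2 : R) := h2.mul h2
      push_cast
      rwa [show (4 : R) = 2 * 2 by norm_num])
    have hM : ((γ : SL(2, ℤ)) : Mat) * ((γ : SL(2, ℤ)) : Mat) = -1 := by
      ext i j
      fin_cases i <;> fin_cases j <;> simp [Matrix.mul_apply, Fin.sum_univ_two]
      · linear_combination ((γ : SL(2, ℤ)) 0 0) * h0 - hd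
      · linear_combination ((γ : SL(2, ℤ)) 0 1) * h0
      · linear_combination ((γ : SL(2, ℤ)) 1 0) * h0
      · linear_combination ((γ : SL(2, ℤ)) 1 1) * h0 - hd
    rw [SubgroupClass.coe_pow, Matrix.SpecialLinearGroup.coe_pow,
      show (4 : ℕ) = 2 * 2 from rfl, pow_mul, pow_two ((γ : SL(2, ℤ)) : Mat), hM]
    simp

end Fermat.Agent.Lifting
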