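/-
The degeneracy maps between twisted cohomology of levels `L` and `L q`, `q ∤ L`, normalised so
that the composite is `(q + 1, T'_q; T'_q, q + 1)`.
-/
import Fermat.Agent.Ribet.Twisted.Level

set_option autoImplicit false

noncomputable section

namespace Fermat.Agent.Lifting

open CongruenceSubgroup
open scoped MatrixGroups
open Fermat.Agent.Ribet.Twisted
open Fermat.Agent.HeckeCohom (gamma0GL HeckeIdx)

variable {L D q : ℕ} [Fact q.Prime]

/-- the level below still carries the nebentype -/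
abbrev hDq (hD : D ∣ L) (q : ℕ) : D ∣ L * q := hD.trans (Nat.dvd_mul_right L q)

theorem exists_bezout_level (hqL : ¬ q ∣ L) : ∃ p : ℤ × ℤ, (q : ℤ) * p.1 + L * p.2 = 1 := by
  obtain ⟨u, v, h⟩ : IsCoprime (q : ℤ) (L : ℤ) := (Nat.isCoprime_iff_coprime).mpr
    ((Nat.Prime.coprime_iff_not_dvd (Fact.out : q.Prime)).mpr hqL)
  exact ⟨(u, v), by linear_combination h⟩

theorem isUnit_cast_level (hD : D ∣ L) (hqL : ¬ q ∣ L) : IsUnit ((q : ℤ) : ZMod D) := by
  rw [Int.cast_natCast]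
  exact (ZMod.isUnit_iff_coprime q D).mpr
    ((Nat.Prime.coprime_iff_not_dvd (Fact.out : q.Prime)).mpr fun h => hqL (h.trans hD))

theorem resSys (hD : D ∣ L) (q : ℕ) : IntSys D L (L * q) (fun _ : Unit => (1 : Mat)) where
  good _ := ⟨by simp, by simp, by simp⟩
  step γ _ := ⟨inclLevel γ, (), by rw [Matrix.one_mul, Matrix.mul_one, g0Mat_inclLevel]⟩
  dist _ _ _ _ := rfl

theorem twSys (hD : D ∣ L) (hqL : ¬ q ∣ L) :
    IntSys D L (L * q) (fun _ : Unit => !![(q : ℤ), 0; 0, 1]) where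
  good _ := ⟨by simp, by simpa [Matrix.det_fin_two_of] using isUnit_cast_level hD hqL,
    by simp [Matrix.det_fin_two_of, (Fact.out : q.Prime).ne_zero]⟩
  step γ _ := by
    obtain ⟨c, hc⟩ := g0Mat_dvd γ
    refine ⟨g0Mk !![g0Mat γ 0 0, (q : ℤ) * g0Mat γ 0 1; (L : ℤ) * c, g0Mat γ 1 1] ?_ ?_, (), ?_⟩
    · have h := g0Mat_det γ
      rw [Matrix.det_fin_two] at h
      rw [Matrix.det_fin_two_of]
      push_cast at hc
      linear_combination h + g0Mat γ 0 1 * hc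
    · simp
    · push_cast at hc
      ext r s
      fin_cases r <;> fin_cases s <;> simp [Matrix.mul_apply, Fin.sum_univ_two]
      · ring
      · rw [hc]; ring
  dist _ _ _ _ := rfl

theorem card_heckeIdx_of_not_dvd {M ℓ : ℕ} [NeZero ℓ] (h : ¬ ℓ ∣ M) :
    Fintype.card (HeckeIdx M ℓ) = ℓ + 1 := by
  rw [Fintype.card_congr (Equiv.subtypeUnivEquiv fun _ _ => h : HeckeIdx M ℓ ≃ Option (ZMod ℓ)),
    Fintype.card_option, ZMod.card]

section Compose

variable {L₁ L₂ L₃ L₄ : ℕ} {IA IB IA' IB' : Type*}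
  [Fintype IA] [Fintype IB] [Fintype IA'] [Fintype IB']
  {mA : IA → Mat} {mB : IB → Mat} {mA' : IA' → Mat} {mB' : IB' → Mat}
  {A : Type*} [CommRing A]

/-- If every class of the second product system occurs in the first and the second has distinct
classes, the composites agree. -/
theorem comp_eq_comp' (hA : IntSys D L₁ L₂ mA) (hB : IntSys D L₂ L₄ mB)
    (hA' : IntSys D L₁ L₃ mA') (hB' : IntSys D L₃ L₄ mB')
    (hne' : ∀ (c : Gamma0 L₁) (x y : IA' × IB'),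
      mA' x.1 * mB' x.2 = g0Mat c * (mA' y.1 * mB' y.2) → x = y)
    (hcard : Fintype.card (IA × IB) = Fintype.card (IA' × IB'))
    (hex : ∀ y : IA' × IB', ∃ (x : IA × IB) (c : Gamma0 L₁),
      mA x.1 * mB x.2 = g0Mat c * (mA' y.1 * mB' y.2))
    (h₁ : D ∣ L₁) (h₂ : D ∣ L₂) (h₃ : D ∣ L₃) (h₄ : D ∣ L₄) (ψ : DirichletCharacter A D)
    (M : Type*) [AddCommGroup M] [Module A M] :
    (hB.op h₂ h₄ ψ M).comp (hA.op h₁ h₂ ψ M) = (hB'.op h₃ h₄ ψ M).comp (hA'.op h₁ h₃ ψ M) := by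
  choose f u hu using hex
  have hinj : Function.Injective f := fun x y hxy => by
    refine hne' ((u x)⁻¹ * u y) x y ?_
    have e : g0Mat (u x) * (mA' x.1 * mB' x.2) = g0Mat (u y) * (mA' y.1 * mB' y.2) := by
      rw [← hu x, ← hu y, hxy]
    rw [g0Mat_mul, Matrix.mul_assoc, ← e, ← Matrix.mul_assoc, g0Mat_inv_mul, Matrix.one_mul]
  have hsurj : Function.Surjective f :=
    ((Fintype.bijective_iff_injective_and_card f).mpr ⟨hinj, hcard.symm⟩).2
  have hback : ∀ y, g0Mat (u y)⁻¹ * (mA (f y).1 * mB (f y).2) = mA' y.1 * mB' y.2 := fun y => by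
    rw [hu y, ← Matrix.mul_assoc, g0Mat_inv_mul, Matrix.one_mul]
  refine comp_eq_comp hA hB hA' hB' ?_ hne' hcard (fun x => ?_) h₁ h₂ h₃ h₄ ψ M
  · intro c x x' e
    obtain ⟨y, rfl⟩ := hsurj x
    obtain ⟨y', rfl⟩ := hsurj x'
    refine congrArg f (hne' ((u y)⁻¹ * c * u y') y y' ?_)
    rw [g0Mat_mul, g0Mat_mul, Matrix.mul_assoc, Matrix.mul_assoc, ← hu y', ← e, hu y,
      ← Matrix.mul_assoc, g0Mat_inv_mul, Matrix.one_mul]
  · obtain ⟨y, rfl⟩ := hsurj x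
    exact ⟨y, (u y)⁻¹, (hback y).symm⟩

/-- A composite whose classes are those of a single system is that system. -/
theorem comp_eq_op {IT : Type*} [Fintype IT] {mT : IT → Mat} (hA : IntSys D L₁ L₂ mA)
    (hB : IntSys D L₂ L₄ mB) (hT : IntSys D L₁ L₄ mT)
    (hcard : Fintype.card (IA × IB) = Fintype.card IT)
    (hex : ∀ i : IT, ∃ (x : IA × IB) (c : Gamma0 L₁), mA x.1 * mB x.2 = g0Mat c * mT i)
    (h₁ : D ∣ L₁) (h₂ : D ∣ L₂) (h₄ : D ∣ L₄) (ψ : DirichletCharacter A D)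
    (M : Type*) [AddCommGroup M] [Module A M] :
    (hB.op h₂ h₄ ψ M).comp (hA.op h₁ h₂ ψ M) = hT.op h₁ h₄ ψ M := by
  have hI : IntSys D L₁ L₁ (fun _ : Unit => (1 : Mat)) :=
    { good := fun _ => ⟨by simp, by simp, by simp⟩
      step := fun γ _ => ⟨γ, (), by rw [Matrix.one_mul, Matrix.mul_one]⟩
      dist := fun _ _ _ _ => rfl }
  rw [comp_eq_comp' hA hB hI hT
    (fun c x y e => Prod.ext rfl (hT.dist c x.2 y.2 (by simpa using e)))
    (by rw [hcard, Fintype.card_prod, Fintype.card_unit, one_mul])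
    (fun y => by
      obtain ⟨x, c, h⟩ := hex y.2
      exact ⟨x, c, by rw [h, Matrix.one_mul]⟩) h₁ h₂ h₁ h₄ ψ M]
  refine LinearMap.ext fun x => ?_
  rw [LinearMap.comp_apply]
  congr 1
  obtain ⟨z, rfl⟩ := Coh.mk_surjective x
  simp only [IntSys.op, OpData.op_mk]
  refine congrArg _ (Subtype.ext (funext fun γ => ?_))
  rw [OpData.opCocycle_eq_sum _ z γ (fun _ => γ) (fun _ => ())
    (fun _ => by rw [← toGL_mul_g0Mat (by simp) γ, ← toGL_g0Mat_mul _ (by simp), Matrix.one_mul,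
      Matrix.mul_one])]
  simp [wt]

/-- A composite all of whose classes are `t` times the identity is a scalar. -/
theorem comp_eq_smul {mU : Mat} (hA : IntSys D L₁ L₂ (fun _ : Unit => mU))
    (hB : IntSys D L₂ L₁ mB) (t : ℤ) (ht : IsUnit (t : ZMod D)) (ht0 : t ≠ 0)
    (r : IB → Gamma0 L₁) (hr : ∀ i, mU * mB i = t • g0Mat (r i))
    (h₁ : D ∣ L₁) (h₂ : D ∣ L₂) (ψ : DirichletCharacter A D)
    {M : Type*} [AddCommGroup M] [Module A M] (x : CohL h₁ ψ M) :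
    hB.op h₂ h₁ ψ M (hA.op h₁ h₂ ψ M x) = (Fintype.card IB : A) • x := by
  classical
  obtain ⟨z, rfl⟩ := Coh.mk_surjective x
  simp only [IntSys.op, OpData.op_mk, ← map_smul]
  rw [← sub_eq_zero, ← map_sub, Coh.mk_eq_zero]
  set hb := hB.opData h₂ h₁ ψ
  set ha := hA.opData h₁ h₂ ψ
  have hgt : Good D (t • (1 : Mat)) :=
    ⟨by simp, by
      rw [Matrix.det_smul, Fintype.card_fin, Matrix.det_one, mul_one, Int.cast_pow]
      exact ht.pow 2, by
      rw [Matrix.det_smul, Fintype.card_fin, Matrix.det_one, mul_one]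
      exact pow_ne_zero 2 ht0⟩
  have hwt : wt ψ (t • (1 : Mat)) = 1 := by
    have h : ψ (t : ZMod D) * ψ⁻¹ (t : ZMod D) = 1 := by
      rw [← MulChar.mul_apply, mul_inv_cancel, MulChar.one_apply ht]
    simp only [wt, Matrix.det_smul, Fintype.card_fin, Matrix.det_one, mul_one, Matrix.smul_apply,
      Matrix.one_apply_eq, smul_eq_mul, Int.cast_pow, map_pow]
    rw [← mul_pow, h, one_pow]
  have hW : ∀ i, wt ψ mU * wt ψ (mB i) = wt ψ (g0Mat (r i)) := fun i => by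
    rw [← wt_mul ψ (hA.good ()), hr, show t • g0Mat (r i) = (t • (1 : Mat)) * g0Mat (r i) by simp,
      wt_mul ψ hgt, hwt, one_mul]
  let W : IB → A := fun i => wt ψ mU * wt ψ (mB i)
  refine ⟨-∑ i, W i • (z : Gamma0 L₁ → M) (r i), Subtype.ext (funext fun γ => ?_)⟩
  have e : ∀ i, mU * g0Mat (hb.step γ i)
      = g0Mat (r i * γ * (r (hb.perm γ i))⁻¹) * mU := fun i => by
    have h := hB.step_spec h₂ h₁ ψ γ i
    refine mat_cancel_right (hB.good (hb.perm γ i)).ne ?_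
    rw [Matrix.mul_assoc, ← h, ← Matrix.mul_assoc, hr, Matrix.smul_mul, ← g0Mat_mul,
      Matrix.mul_assoc, hr, Matrix.mul_smul, ← g0Mat_mul, inv_mul_cancel_right]
  have hterm : ∀ i, (ha.opCocycle M z : Gamma0 L₂ → M) (hb.step γ i)
      = wt ψ mU • ((z : Gamma0 L₁ → M) (r i) + chr h₁ ψ (r i) • (z : Gamma0 L₁ → M) γ
        + (chr h₁ ψ (r i) * chr h₁ ψ γ) •
          -(chr h₁ ψ (r (hb.perm γ i))⁻¹ • (z : Gamma0 L₁ → M) (r (hb.perm γ i)))) := fun i => by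
    rw [OpData.opCocycle_eq_sum _ z _ (fun _ => r i * γ * (r (hb.perm γ i))⁻¹) (fun _ => ())
      (fun _ => by
        rw [← toGL_mul_g0Mat (hA.good ()).ne, e, toGL_g0Mat_mul _ (hA.good ()).ne])]
    rw [Finset.univ_unique, Finset.sum_singleton, z.2, z.2, cocycle_inv, map_mul]
  have h1 : ∀ i, W i * chr h₁ ψ (r i) = 1 := fun i => by
    simp only [W, hW, wt_g0Mat]
  have hinv : ∀ i, W i = chr h₁ ψ (r i)⁻¹ := fun i => by
    calc W i = W i * (chr h₁ ψ (r i) * chr h₁ ψ (r i)⁻¹) := by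
          rw [← map_mul, mul_inv_cancel, map_one, mul_one]
      _ = chr h₁ ψ (r i)⁻¹ := by rw [← mul_assoc, h1, one_mul]
  have hterm' : ∀ i, wt ψ (mB i) • (ha.opCocycle M z : Gamma0 L₂ → M) (hb.step γ i)
      = W i • (z : Gamma0 L₁ → M) (r i) + (z : Gamma0 L₁ → M) γ
        - chr h₁ ψ γ • (W (hb.perm γ i) • (z : Gamma0 L₁ → M) (r (hb.perm γ i))) := fun i => by
    rw [hterm i, smul_smul, show wt ψ (mB i) * wt ψ mU = W i from mul_comm _ _, smul_add, smul_add,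
      smul_smul (W i) (chr h₁ ψ (r i)), h1, one_smul, smul_smul (W i), ← mul_assoc, h1, one_mul,
      smul_neg, ← hinv, sub_eq_add_neg]
  have hz : (((Fintype.card IB : A) • z : cocycles (chr h₁ ψ) M) : Gamma0 L₁ → M) γ
      = Fintype.card IB • (z : Gamma0 L₁ → M) γ := by
    show (Fintype.card IB : A) • (z : Gamma0 L₁ → M) γ = _
    rw [Nat.cast_smul_eq_nsmul]
  simp only [coboundary_apply, Submodule.coe_sub, Pi.sub_apply, hb.opCocycle_apply, hterm', hz,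
    Finset.sum_sub_distrib, Finset.sum_add_distrib, Finset.sum_const, Finset.card_univ]
  rw [hb.sum_perm γ fun i => chr h₁ ψ γ • (W i • (z : Gamma0 L₁ → M) (r i))]
  simp only [Finset.smul_sum, smul_neg, Finset.sum_neg_distrib]
  abel

end Compose

variable {A : Type*} [CommRing A] (hD : D ∣ L) (ψ : DirichletCharacter A D)
  (M : Type*) [AddCommGroup M] [Module A M] (hqL : ¬ q ∣ L)

/-- The pullback along `z ↦ z`. -/
def degRes : CohL hD ψ M →ₗ[A] CohL (hDq hD q) ψ M := (resSys hD q).op hD (hDq hD q) ψ M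

/-- The pullback along `z ↦ q z`, weight `ψ(q)`. -/
def degTw : CohL hD ψ M →ₗ[A] CohL (hDq hD q) ψ M := (twSys hD hqL).op hD (hDq hD q) ψ M

/-- The transfer adjoint to `degRes`. -/
def degCor₁ : CohL (hDq hD q) ψ M →ₗ[A] CohL hD ψ M :=
  ((degSys₁ hqL (exists_bezout_level hqL).choose_spec).intSys hD (by simp) one_ne_zero).op
    (hDq hD q) hD ψ M

/-- The transfer adjoint to `degTw`, weight `ψ(q)⁻¹`. -/
def degCor₂ : CohL (hDq hD q) ψ M →ₗ[A] CohL hD ψ M :=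
  ((degSys₂ hqL (exists_bezout_level hqL).choose_spec).intSys hD (isUnit_cast_level hD hqL)
    (Int.natCast_ne_zero.mpr (Fact.out : q.Prime).ne_zero)).op (hDq hD q) hD ψ M

/-- `α (x, y) = x|1 + y|(q 0; 0 1)`. -/
def cohRaise : CohL hD ψ M × CohL hD ψ M →ₗ[A] CohL (hDq hD q) ψ M :=
  (degRes hD ψ M).coprod (degTw hD ψ M hqL)

/-- `α^*`. -/
def cohLower : CohL (hDq hD q) ψ M →ₗ[A] CohL hD ψ M × CohL hD ψ M :=
  (degCor₁ hD ψ M hqL).prod (degCor₂ hD ψ M hqL)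

variable {M}

theorem degCor₁_degRes (x : CohL hD ψ M) :
    degCor₁ hD ψ M hqL (degRes hD ψ M x) = ((q : A) + 1) • x := by
  choose r hr using (degSys₁ hqL (exists_bezout_level hqL).choose_spec).exists_r
  rw [degCor₁, degRes, comp_eq_smul (resSys hD q) _ 1 (by simp) one_ne_zero r
    (fun i => by rw [Matrix.one_mul, hr, ← Matrix.one_fin_two, Matrix.one_mul, one_smul])
    hD (hDq hD q) ψ x, Fintype.card_option, ZMod.card]
  push_cast
  rfl

theorem degCor₂_degTw (x : CohL hD ψ M) :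
    degCor₂ hD ψ M hqL (degTw hD ψ M hqL x) = ((q : A) + 1) • x := by
  choose r hr using (degSys₂ hqL (exists_bezout_level hqL).choose_spec).exists_r
  rw [degCor₂, degTw, comp_eq_smul (twSys hD hqL) _ (q : ℤ) (isUnit_cast_level hD hqL)
    (Int.natCast_ne_zero.mpr (Fact.out : q.Prime).ne_zero) r
    (fun i => by
      rw [hr, ← Matrix.mul_assoc, Matrix.mul_fin_two]
      ext a b
      fin_cases a <;> fin_cases b <;> simp [Matrix.mul_apply, Fin.sum_univ_two])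
    hD (hDq hD q) ψ x, Fintype.card_option, ZMod.card]
  push_cast
  rfl

theorem degCor₁_degTw (x : CohL hD ψ M) :
    degCor₁ hD ψ M hqL (degTw hD ψ M hqL x) = heckeT' hD ψ M q x := by
  obtain ⟨⟨u, v⟩, huv⟩ : ∃ p, (exists_bezout_level hqL).choose = p := ⟨_, rfl⟩
  have huv' := (exists_bezout_level hqL).choose_spec
  rw [huv] at huv'
  have hqD : ¬ q ∣ D := fun h => hqL (h.trans hD)
  rw [degCor₁, degTw, heckeT'_eq_intSys hD ψ hqD, ← LinearMap.comp_apply]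
  refine LinearMap.congr_fun (comp_eq_op _ _ _ ?_ ?_ hD (hDq hD q) hD ψ M) x
  · rw [Fintype.card_prod, Fintype.card_unit, one_mul, card_heckeIdx_of_not_dvd hqL,
      Fintype.card_option, ZMod.card]
  · rintro ⟨_ | y, hy⟩
    · refine ⟨((), none), 1, ?_⟩
      rw [g0Mat_one, Matrix.one_mul]
      simp [fmat₁, hmat]
    · refine ⟨((), some y), g0Mk !![(q : ℤ) * u, -v; (L : ℤ), 1]
        (by rw [Matrix.det_fin_two_of]; linear_combination huv') (by simp), ?_⟩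
      rw [g0Mat_g0Mk]
      simp only [huv, fmat₁, hmat, Option.elim_some]
      ext a b
      fin_cases a <;> fin_cases b <;>
        simp [Matrix.mul_apply, Fin.sum_univ_two, -ZMod.natCast_val] <;> ring

theorem degCor₂_degRes (x : CohL hD ψ M) :
    degCor₂ hD ψ M hqL (degRes hD ψ M x) = heckeT' hD ψ M q x := by
  obtain ⟨⟨u, v⟩, huv⟩ : ∃ p, (exists_bezout_level hqL).choose = p := ⟨_, rfl⟩
  have huv' := (exists_bezout_level hqL).choose_spec
  rw [huv] at huv'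
  have hqD : ¬ q ∣ D := fun h => hqL (h.trans hD)
  rw [degCor₂, degRes, heckeT'_eq_intSys hD ψ hqD, ← LinearMap.comp_apply]
  refine LinearMap.congr_fun (comp_eq_op _ _ _ ?_ ?_ hD (hDq hD q) hD ψ M) x
  · rw [Fintype.card_prod, Fintype.card_unit, one_mul, card_heckeIdx_of_not_dvd hqL,
      Fintype.card_option, ZMod.card]
  · rintro ⟨_ | y, hy⟩
    · refine ⟨((), none), g0Mk !![u, -v; (L : ℤ), (q : ℤ)]
        (by rw [Matrix.det_fin_two_of]; linear_combination huv') (by simp), ?_⟩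
      rw [g0Mat_g0Mk]
      simp only [huv, fmat₂, hmat, Option.elim_none]
      ext a b
      fin_cases a <;> fin_cases b <;>
        simp [Matrix.mul_apply, Fin.sum_univ_two] <;> ring
    · exact ⟨((), some y), 1, by rw [g0Mat_one, Matrix.one_mul]; simp [fmat₂, hmat]⟩

/-- **`α^* α = (q + 1, T'_q; T'_q, q + 1)`.** -/
theorem cohLower_cohRaise (x y : CohL hD ψ M) :
    cohLower hD ψ M hqL (cohRaise hD ψ M hqL (x, y))
      = (((q : A) + 1) • x + heckeT' hD ψ M q y, heckeT' hD ψ M q x + ((q : A) + 1) • y) := by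
  simp only [cohLower, cohRaise, LinearMap.coprod_apply]
  refine Prod.ext ?_ ?_
  · show degCor₁ hD ψ M hqL _ = _
    rw [map_add, degCor₁_degRes, degCor₁_degTw]
  · show degCor₂ hD ψ M hqL _ = _
    rw [map_add, degCor₂_degRes, degCor₂_degTw]

theorem heckeIdx_iff {ℓ : ℕ} (hℓ : ℓ.Prime) (hℓq : ℓ ≠ q) (x : Option (ZMod ℓ)) :
    (x = none → ¬ ℓ ∣ L * q) ↔ (x = none → ¬ ℓ ∣ L) :=
  imp_congr_right fun _ => not_congr ⟨fun h => (hℓ.dvd_mul.mp h).resolve_right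
    (fun h' => hℓq ((Nat.prime_dvd_prime_iff_eq hℓ Fact.out).mp h')), fun h => h.mul_right q⟩

theorem degRes_heckeT' {ℓ : ℕ} (hℓq : ℓ ≠ q) (x : CohL hD ψ M) :
    degRes hD ψ M (heckeT' hD ψ M ℓ x)
      = heckeT' (hDq hD q) ψ M ℓ (degRes hD ψ M x) := by
  by_cases hℓ : ℓ.Prime ∧ ¬ ℓ ∣ D
  swap
  · rw [heckeT', dif_neg hℓ, heckeT', dif_neg hℓ]; simp
  haveI : Fact ℓ.Prime := ⟨hℓ.1⟩
  haveI : NeZero ℓ := ⟨hℓ.1.ne_zero⟩
  rw [degRes, heckeT'_eq_intSys hD ψ hℓ.2, heckeT'_eq_intSys (hDq hD q) ψ hℓ.2,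
    ← LinearMap.comp_apply, ← LinearMap.comp_apply]
  let e : HeckeIdx (L * q) ℓ ≃ HeckeIdx L ℓ :=
    Equiv.subtypeEquivRight (heckeIdx_iff hℓ.1 hℓq)
  have he : ∀ j, hmat L ℓ (e j) = hmat (L * q) ℓ j := fun j => rfl
  refine LinearMap.congr_fun (comp_eq_comp' _ _ _ _ ?_ ?_ ?_ hD hD (hDq hD q) (hDq hD q) ψ M) x
  · intro c x y h
    rw [Matrix.one_mul, Matrix.one_mul, ← he, ← he] at h
    exact Prod.ext rfl (e.injective ((hmat_intSys hℓ.1 hℓ.2).dist c _ _ h))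
  · rw [Fintype.card_prod, Fintype.card_prod, Fintype.card_congr e]
    ring
  · rintro ⟨⟨⟩, j⟩
    exact ⟨(e j, ()), 1, by rw [he, g0Mat_one, Matrix.one_mul, Matrix.one_mul, Matrix.mul_one]⟩

theorem degTw_heckeT' {ℓ : ℕ} (hℓq : ℓ ≠ q) (x : CohL hD ψ M) :
    degTw hD ψ M hqL (heckeT' hD ψ M ℓ x)
      = heckeT' (hDq hD q) ψ M ℓ (degTw hD ψ M hqL x) := by
  by_cases hℓ : ℓ.Prime ∧ ¬ ℓ ∣ D
  swap
  · rw [heckeT', dif_neg hℓ, heckeT', dif_neg hℓ]; simp
  haveI : Fact ℓ.Prime := ⟨hℓ.1⟩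
  haveI : NeZero ℓ := ⟨hℓ.1.ne_zero⟩
  rw [degTw, heckeT'_eq_intSys hD ψ hℓ.2, heckeT'_eq_intSys (hDq hD q) ψ hℓ.2,
    ← LinearMap.comp_apply, ← LinearMap.comp_apply]
  have hq' : (q : ZMod ℓ) ≠ 0 := fun h => hℓq
    ((Nat.prime_dvd_prime_iff_eq hℓ.1 Fact.out).mp ((ZMod.natCast_eq_zero_iff q ℓ).mp h))
  let π : HeckeIdx (L * q) ℓ → HeckeIdx L ℓ := fun j =>
    ⟨j.1.map ((q : ZMod ℓ) * ·), fun h => (heckeIdx_iff hℓ.1 hℓq j.1).mp j.2 (by simpa using h)⟩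
  have hπ : Function.Injective π := fun i j h =>
    Subtype.ext (Option.map_injective (mul_right_injective₀ hq') (congrArg Subtype.val h))
  have key : ∀ j, ∃ c : Gamma0 L,
      !![(q : ℤ), 0; 0, 1] * hmat (L * q) ℓ j
        = g0Mat c * (hmat L ℓ (π j) * !![(q : ℤ), 0; 0, 1]) := by
    rintro ⟨_ | y, hy⟩
    · refine ⟨1, ?_⟩
      rw [g0Mat_one, Matrix.one_mul]
      simp [hmat, π, Matrix.mul_fin_two, mul_comm]
    · obtain ⟨t, ht⟩ : (ℓ : ℤ) ∣ (q : ℤ) * y.val - (((q : ZMod ℓ) * y).val : ℤ) := by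
        rw [← ZMod.intCast_zmod_eq_zero_iff_dvd]; simp
      refine ⟨g0Mk !![1, t; 0, 1] (by simp [Matrix.det_fin_two_of]) (by simp), ?_⟩
      rw [g0Mat_g0Mk]
      ext a b
      fin_cases a <;> fin_cases b <;>
        simp [hmat, π, Matrix.mul_apply, Fin.sum_univ_two, -ZMod.natCast_val]
      linear_combination ht
  refine LinearMap.congr_fun (comp_eq_comp' _ _ _ _ ?_ ?_ ?_ hD hD (hDq hD q) (hDq hD q) ψ M) x
  · intro c x y h
    obtain ⟨cx, hx⟩ := key x.2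
    obtain ⟨cy, hy⟩ := key y.2
    rw [hx, hy] at h
    simp only [← Matrix.mul_assoc] at h
    have h' := mat_cancel_right (by simp [Matrix.det_fin_two_of, (Fact.out : q.Prime).ne_zero]) h
    refine Prod.ext rfl (hπ ((hmat_intSys hℓ.1 hℓ.2).dist (cx⁻¹ * (c * cy)) _ _ ?_))
    rw [g0Mat_mul, g0Mat_mul, Matrix.mul_assoc, ← h', ← Matrix.mul_assoc, g0Mat_inv_mul,
      Matrix.one_mul]
  · rw [Fintype.card_prod, Fintype.card_prod,
      Fintype.card_congr (Equiv.subtypeEquivRight (heckeIdx_iff hℓ.1 hℓq) :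
        HeckeIdx (L * q) ℓ ≃ HeckeIdx L ℓ)]
    ring
  · rintro ⟨⟨⟩, j⟩
    obtain ⟨c, hc⟩ := key j
    refine ⟨(π j, ()), c⁻¹, ?_⟩
    rw [hc, ← Matrix.mul_assoc, g0Mat_inv_mul, Matrix.one_mul]

theorem cohRaise_heckeT' {ℓ : ℕ} (hℓq : ℓ ≠ q) (x y : CohL hD ψ M) :
    cohRaise hD ψ M hqL (heckeT' hD ψ M ℓ x, heckeT' hD ψ M ℓ y)
      = heckeT' (hDq hD q) ψ M ℓ (cohRaise hD ψ M hqL (x, y)) := by
  simp only [cohRaise, LinearMap.coprod_apply, map_add, degRes_heckeT' hD ψ hℓq,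
    degTw_heckeT' hD ψ hqL hℓq]

theorem cohLower_heckeT' [NeZero L] {ℓ : ℕ} (hℓq : ℓ ≠ q) (z : CohL (hDq hD q) ψ M) :
    cohLower hD ψ M hqL (heckeT' (hDq hD q) ψ M ℓ z)
      = (heckeT' hD ψ M ℓ (degCor₁ hD ψ M hqL z), heckeT' hD ψ M ℓ (degCor₂ hD ψ M hqL z)) := by
  by_cases hℓ : ℓ.Prime ∧ ¬ ℓ ∣ D
  swap
  · rw [heckeT', dif_neg hℓ, heckeT', dif_neg hℓ]
    simp only [LinearMap.zero_apply, map_zero]
    rfl
  haveI : Fact ℓ.Prime := ⟨hℓ.1⟩
  haveI : NeZero ℓ := ⟨hℓ.1.ne_zero⟩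
  rw [heckeT'_eq_intSys hD ψ hℓ.2, heckeT'_eq_intSys (hDq hD q) ψ hℓ.2]
  refine Prod.ext ?_ ?_
  · exact LinearMap.congr_fun (degSys_comm hqL hD ψ
      (degSys₁ hqL (exists_bezout_level hqL).choose_spec) (by simp) one_ne_zero hℓ.1 hℓq hℓ.2
      isCoprime_one_left) z
  · exact LinearMap.congr_fun (degSys_comm hqL hD ψ
      (degSys₂ hqL (exists_bezout_level hqL).choose_spec) (isUnit_cast_level hD hqL)
      (Int.natCast_ne_zero.mpr (Fact.out : q.Prime).ne_zero) hℓ.1 hℓq hℓ.2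
      ((Nat.isCoprime_iff_coprime).mpr ((Nat.coprime_primes Fact.out hℓ.1).mpr (Ne.symm hℓq)))) z

/-- On the kernel of `α^*`, `U'_q` is an involution. -/
theorem heckeT'_sq_of_cohLower [NeZero L] {z : CohL (hDq hD q) ψ M}
    (hz : cohLower hD ψ M hqL z = 0) :
    heckeT' (hDq hD q) ψ M q (heckeT' (hDq hD q) ψ M q z) = z :=
  sq_of_lowering_eq_zero hD ψ hqL (exists_bezout_level hqL).choose_spec (by simp)
    (isUnit_cast_level hD hqL) (Int.natCast_ne_zero.mpr (Fact.out : q.Prime).ne_zero) z hz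

end Fermat.Agent.Lifting
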