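/-
Trivial character: twisted cohomology is `Hom(Γ₀(L), M)`, the operators are `T_ℓ`, restriction,
conjugation and the transfers.
-/
import Fermat.Agent.Lifting.CDegen
import Fermat.Agent.Raise.Degeneracy

set_option autoImplicit false

noncomputable section

namespace Fermat.Agent.Lifting

open CongruenceSubgroup
open scoped MatrixGroups
open Fermat.Agent.Ribet.Twisted
open Fermat.Agent.HeckeCohom (gamma0GL HeckeIdx)

variable {A : Type*} [CommRing A] {L D : ℕ} (hD : D ∣ L) (M : Type*) [AddCommGroup M] [Module A M]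

theorem chr_triv (γ : Gamma0 L) : chr hD (1 : DirichletCharacter A D) γ = 1 := by
  have h : IsUnit ((((γ : SL(2, ℤ)) 1 1 : ℤ)) : ZMod D) := isUnit_g0Mat_11 hD γ
  rw [chr_apply, MulChar.one_apply h, one_pow]

theorem wt_triv {m : Mat} (hm : Good D m) : wt (1 : DirichletCharacter A D) m = 1 := by
  have h11 : IsUnit ((m 1 1 : ℤ) : ZMod D) := by
    have h := hm.unit
    rw [Matrix.det_fin_two, Int.cast_sub, Int.cast_mul, Int.cast_mul,
      (ZMod.intCast_zmod_eq_zero_iff_dvd _ _).mpr hm.dvd, mul_zero, sub_zero] at h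
    exact (IsUnit.mul_iff.mp h).2
  rw [wt, inv_one, MulChar.one_apply hm.unit, MulChar.one_apply h11, one_pow, one_mul]

/-- The homomorphism of a class. -/
def homL : CohL hD (1 : DirichletCharacter A D) M →ₗ[A] (Additive (Gamma0 L) →+ M) :=
  Submodule.liftQ _
    { toFun := fun z => AddMonoidHom.mk' (fun g => (z : Gamma0 L → M) (Additive.toMul g))
        fun g h => (z.2 _ _).trans (by rw [chr_triv hD, one_smul])
      map_add' := fun _ _ => rfl
      map_smul' := fun _ _ => rfl } (by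
      rintro _ ⟨a, rfl⟩
      refine LinearMap.mem_ker.mpr (AddMonoidHom.ext fun g => ?_)
      show (coboundary (chr hD (1 : DirichletCharacter A D)) M a : Gamma0 L → M)
        (Additive.toMul g) = 0
      simp [chr_triv hD])

variable {M}

@[simp] theorem homL_mk (z : cocycles (chr hD (1 : DirichletCharacter A D)) M) (g : Gamma0 L) :
    homL hD M (Coh.mk _ M z) (Additive.ofMul g) = (z : Gamma0 L → M) g := rfl

theorem homL_injective : Function.Injective (homL hD M (A := A)) := by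
  rw [injective_iff_map_eq_zero]
  intro x hx
  obtain ⟨z, rfl⟩ := Coh.mk_surjective x
  rw [show z = 0 from Subtype.ext (funext fun g => DFunLike.congr_fun hx (Additive.ofMul g)),
    map_zero]

theorem homL_surjective : Function.Surjective (homL hD M (A := A)) := fun x =>
  ⟨Coh.mk _ M ⟨fun g => x (Additive.ofMul g), fun g h => by
    show x (Additive.ofMul (g * h)) = _
    rw [chr_triv hD, one_smul, ofMul_mul, map_add]⟩, rfl⟩

/-- The value of the operator of an integral system. -/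
theorem homL_op {L' : ℕ} (hD' : D ∣ L') {I : Type*} [Fintype I] {m : I → Mat}
    (hs : IntSys D L' L m) (z : cocycles (chr hD' (1 : DirichletCharacter A D)) M) (γ : Gamma0 L)
    (c : I → Gamma0 L') (σ : I → I) (e : ∀ i, m i * g0Mat γ = g0Mat (c i) * m (σ i)) :
    homL hD M (hs.op hD' hD 1 M (Coh.mk _ M z)) (Additive.ofMul γ)
      = ∑ i, homL hD' M (Coh.mk _ M z) (Additive.ofMul (c i)) := by
  rw [IntSys.op, OpData.op_mk, homL_mk, OpData.opCocycle_eq_sum _ z γ c σ (fun i => by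
    rw [← toGL_mul_g0Mat (hs.good i).ne, e, toGL_g0Mat_mul _ (hs.good _).ne])]
  exact Finset.sum_congr rfl fun i _ => by rw [wt_triv (hs.good i), one_smul, homL_mk]

theorem homL_heckeT' (ℓ : Nat.Primes) (hℓD : ¬ (ℓ : ℕ) ∣ D)
    (x : CohL hD (1 : DirichletCharacter A D) M) :
    homL hD M (heckeT' hD 1 M (ℓ : ℕ) x) = HeckeCohom.heckeHom L A M ℓ (homL hD M x) := by
  haveI : Fact (ℓ : ℕ).Prime := ⟨ℓ.2⟩
  haveI : NeZero (ℓ : ℕ) := ⟨ℓ.2.ne_zero⟩
  obtain ⟨z, rfl⟩ := Coh.mk_surjective x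
  refine AddMonoidHom.ext fun g => ?_
  obtain ⟨γ, rfl⟩ : ∃ γ : Gamma0 L, Additive.ofMul γ = g := ⟨Additive.toMul g, rfl⟩
  have hs := hmat_intSys (L := L) ℓ.2 hℓD
  rw [heckeT'_eq_intSys hD 1 hℓD,
    homL_op hD hD hs z γ _ _ (hs.step_spec hD hD (1 : DirichletCharacter A D) γ)]
  refine (HeckeCohom.heckeHom_eq_sum ℓ _ γ _
    (fun i => (hs.opData hD hD (1 : DirichletCharacter A D)).perm γ i) fun i => ?_).symm
  have hne : ∀ i, (hmat L (ℓ : ℕ) i).det ≠ 0 := fun i => (hs.good i).ne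
  rw [heckeBeta_eq_toGL ℓ.2.ne_zero, heckeBeta_eq_toGL ℓ.2.ne_zero, ← toGL_mul_g0Mat (hne _),
    ← toGL_g0Mat_mul _ (hne _), hs.step_spec hD hD (1 : DirichletCharacter A D) γ i]

section Degeneracy

variable {q : ℕ} [Fact q.Prime] [NeZero q]

theorem diagTop_eq_of_mat {c : SL(2, ℤ)} {γ : SL(2, ℤ)}
    (h : !![(q : ℤ), 0; 0, 1] * (γ : Mat) = (c : Mat) * !![(q : ℤ), 0; 0, 1]) :
    Duality.diagTop q * Duality.toGL γ = Duality.toGL c * Duality.diagTop q := by
  apply Units.ext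
  ext i j
  have h' := congrArg (Int.cast : ℤ → ℚ) (congrFun (congrFun h i) j)
  fin_cases i <;> fin_cases j <;>
    simpa [Duality.toGL, Matrix.mul_apply, Fin.sum_univ_two] using h'

theorem diagOne_eq_of_mat {c : SL(2, ℤ)} {γ : SL(2, ℤ)}
    (h : !![1, 0; 0, (q : ℤ)] * (γ : Mat) = (c : Mat) * !![1, 0; 0, (q : ℤ)]) :
    Duality.diagOne q * Duality.toGL γ = Duality.toGL c * Duality.diagOne q := by
  apply Units.ext
  ext i j
  have h' := congrArg (Int.cast : ℤ → ℚ) (congrFun (congrFun h i) j)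
  fin_cases i <;> fin_cases j <;>
    simpa [Duality.toGL, Matrix.mul_apply, Fin.sum_univ_two] using h'

theorem homL_degRes (x : CohL hD (1 : DirichletCharacter A D) M) :
    homL (hDq hD q) M (degRes hD 1 M x)
      = (homL hD M x).comp
          (Subgroup.inclusion (Duality.Gamma0_mul_le L q)).toAdditive := by
  obtain ⟨z, rfl⟩ := Coh.mk_surjective x
  refine AddMonoidHom.ext fun g => ?_
  obtain ⟨γ, rfl⟩ : ∃ γ : Gamma0 (L * q), Additive.ofMul γ = g := ⟨Additive.toMul g, rfl⟩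
  rw [degRes, homL_op (hDq hD q) hD (resSys hD q) z γ
    (fun _ => Subgroup.inclusion (Duality.Gamma0_mul_le L q) γ) (fun _ => ())
    (fun _ => by rw [Matrix.one_mul, Matrix.mul_one]; rfl)]
  simp

theorem homL_degTw (hqL : ¬ q ∣ L) (x : CohL hD (1 : DirichletCharacter A D) M) :
    homL (hDq hD q) M (degTw hD 1 M hqL x)
      = (homL hD M x).comp
          ((Subgroup.inclusion (Duality.gammaUp_le L q)).comp (Duality.downHom L q)).toAdditive := by
  obtain ⟨z, rfl⟩ := Coh.mk_surjective x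
  refine AddMonoidHom.ext fun g => ?_
  obtain ⟨γ, rfl⟩ : ∃ γ : Gamma0 (L * q), Additive.ofMul γ = g := ⟨Additive.toMul g, rfl⟩
  have hs := twSys (q := q) hD hqL
  have e := hs.step_spec hD (hDq hD q) (1 : DirichletCharacter A D) γ ()
  set c := (hs.opData hD (hDq hD q) (1 : DirichletCharacter A D)).step γ () with hc
  have hcd : Subgroup.inclusion (Duality.gammaUp_le L q) (Duality.downHom L q γ) = c := by
    refine Subtype.ext (Duality.toGL_mul_cancel (α := Duality.diagTop q) ?_)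
    rw [← diagTop_eq_of_mat (q := q) (c := (c : SL(2, ℤ))) e]
    exact (Duality.downHom_spec L q γ).symm
  rw [degTw, homL_op (hDq hD q) hD hs z γ (fun _ => c) (fun _ => ()) (fun _ => e)]
  simp [hcd]

variable [NeZero L] (hqL : ¬ q ∣ L)

theorem homL_degCor₁ (x : CohL (hDq hD q) (1 : DirichletCharacter A D) M) :
    homL hD M (degCor₁ hD 1 M hqL x)
      = Duality.cor (Gamma0 (L * q)) (Gamma0 L) M A (homL (hDq hD q) M x) := by
  obtain ⟨z, rfl⟩ := Coh.mk_surjective x
  refine AddMonoidHom.ext fun g => ?_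
  obtain ⟨γ, rfl⟩ : ∃ γ : Gamma0 L, Additive.ofMul γ = g := ⟨Additive.toMul g, rfl⟩
  have d := degSys₁ hqL (exists_bezout_level hqL).choose_spec
  choose r hr using d.exists_r
  have hr' : ∀ k, fmat₁ L q (exists_bezout_level hqL).choose.1 (exists_bezout_level hqL).choose.2 k
      = g0Mat (r k) := fun k => by rw [hr k, ← Matrix.one_fin_two, Matrix.one_mul]
  have hreps : Duality.IsReps (Gamma0 (L * q)) (Gamma0 L)
      (fun k => ((r k : Gamma0 L) : SL(2, ℤ))) := by
    refine ⟨fun k => (r k).2, fun g hg => ?_⟩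
    obtain ⟨c, k, hk⟩ := d.complete ⟨g, hg⟩
    rw [← Matrix.one_fin_two, Matrix.one_mul, hr'] at hk
    have hk' : g = (c : SL(2, ℤ)) * (r k : SL(2, ℤ)) := Subtype.ext hk
    refine ⟨k, by simp [hk'], fun k' hk'' => (d.dist (⟨_, hk''⟩⁻¹ * c) k' k ?_)⟩
    rw [hr', hr']
    exact congrArg Subtype.val (show (r k' : SL(2, ℤ))
      = (g * (r k' : SL(2, ℤ))⁻¹)⁻¹ * (c : SL(2, ℤ)) * (r k : SL(2, ℤ)) by rw [hk']; group)
  have hs := d.intSys hD (by simp) one_ne_zero
  rw [degCor₁, homL_op hD (hDq hD q) hs z γ _ _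
    (hs.step_spec (hDq hD q) hD (1 : DirichletCharacter A D) γ)]
  refine (Duality.cor_eq_sum hreps _ γ
    (π := (hs.opData (hDq hD q) hD (1 : DirichletCharacter A D)).permEquiv γ) fun i => ?_).symm
  have e := hs.step_spec (hDq hD q) hD (1 : DirichletCharacter A D) γ i
  rw [hr', hr'] at e
  exact Subtype.ext e

theorem homL_degCor₂ (x : CohL (hDq hD q) (1 : DirichletCharacter A D) M) :
    homL hD M (degCor₂ hD 1 M hqL x)
      = Duality.cor (Duality.gammaUp L q) (Gamma0 L) M A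
          ((homL (hDq hD q) M x).comp (Duality.upHom L q).toAdditive) := by
  obtain ⟨z, rfl⟩ := Coh.mk_surjective x
  refine AddMonoidHom.ext fun g => ?_
  obtain ⟨γ, rfl⟩ : ∃ γ : Gamma0 L, Additive.ofMul γ = g := ⟨Additive.toMul g, rfl⟩
  have d := degSys₂ hqL (exists_bezout_level hqL).choose_spec
  choose r hr using d.exists_r
  have hq0 : (q : ℤ) ≠ 0 := Int.natCast_ne_zero.mpr (NeZero.ne q)
  have hmem : ∀ (h : Gamma0 L) (c : Gamma0 (L * q)),
      !![1, 0; 0, (q : ℤ)] * g0Mat h = g0Mat c * !![1, 0; 0, (q : ℤ)] →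
      (h : SL(2, ℤ)) ∈ Duality.gammaUp L q := fun h c e => by
    refine ⟨h.2, Duality.mem_upperCong.mpr ⟨g0Mat c 0 1, ?_⟩⟩
    have := congrFun (congrFun e 0) 1
    simp [Matrix.mul_apply, Fin.sum_univ_two] at this
    linear_combination this
  have hreps : Duality.IsReps (Duality.gammaUp L q) (Gamma0 L)
      (fun k => ((r k : Gamma0 L) : SL(2, ℤ))) := by
    refine ⟨fun k => (r k).2, fun g hg => ?_⟩
    obtain ⟨c, k, hk⟩ := d.complete ⟨g, hg⟩
    rw [hr] at hk
    have key : !![1, 0; 0, (q : ℤ)] * g0Mat ((⟨g, hg⟩ : Gamma0 L) * (r k)⁻¹)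
        = g0Mat c * !![1, 0; 0, (q : ℤ)] := by
      rw [g0Mat_mul, ← Matrix.mul_assoc, hk, Matrix.mul_assoc, Matrix.mul_assoc, g0Mat_mul_inv,
        Matrix.mul_one]
    refine ⟨k, hmem _ c key, fun k' hk' => ?_⟩
    set η : Duality.gammaUp L q := ⟨_, hk'⟩
    have hη : !![1, 0; 0, (q : ℤ)] * ((η : SL(2, ℤ)) : Mat)
        = g0Mat (Duality.upHom L q η) * !![1, 0; 0, (q : ℤ)] := by
      ext i j
      have h' := congrArg (fun g : GL (Fin 2) ℚ => (g : Matrix (Fin 2) (Fin 2) ℚ) i j)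
        (Duality.upHom_spec L q η)
      rw [← @Int.cast_inj ℚ]
      fin_cases i <;> fin_cases j <;>
        simpa [Duality.toGL, Matrix.mul_apply, Fin.sum_univ_two] using h'
    refine d.dist ((Duality.upHom L q η)⁻¹ * c) k' k ?_
    rw [g0Mat_mul, Matrix.mul_assoc, hr, hr, ← hk]
    have e2 : g0Mat ((Duality.upHom L q η)) * (!![1, 0; 0, (q : ℤ)] * g0Mat (r k'))
        = !![1, 0; 0, (q : ℤ)] * g0Mat (⟨g, hg⟩ : Gamma0 L) := by
      rw [← Matrix.mul_assoc, ← hη, Matrix.mul_assoc]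
      congr 1
      exact congrArg Subtype.val
        (show g * (r k' : SL(2, ℤ))⁻¹ * (r k' : SL(2, ℤ)) = g by simp)
    rw [← e2, ← Matrix.mul_assoc (g0Mat _⁻¹), g0Mat_inv_mul, Matrix.one_mul]
  have hs := d.intSys hD (isUnit_cast_level hD hqL) hq0
  rw [degCor₂, homL_op hD (hDq hD q) hs z γ _ _
    (hs.step_spec (hDq hD q) hD (1 : DirichletCharacter A D) γ)]
  set hb := hs.opData (hDq hD q) hD (1 : DirichletCharacter A D)
  have key : ∀ i, !![1, 0; 0, (q : ℤ)] * g0Mat (r i * γ * (r (hb.perm γ i))⁻¹)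
      = g0Mat (hb.step γ i) * !![1, 0; 0, (q : ℤ)] := fun i => by
    have e := hs.step_spec (hDq hD q) hD (1 : DirichletCharacter A D) γ i
    rw [hr, hr] at e
    rw [g0Mat_mul, g0Mat_mul, ← Matrix.mul_assoc, ← Matrix.mul_assoc, e, Matrix.mul_assoc,
      Matrix.mul_assoc, g0Mat_mul_inv, Matrix.mul_one]
  let δ : Option (ZMod q) → Duality.gammaUp L q := fun i => ⟨_, hmem _ _ (key i)⟩
  rw [Duality.cor_eq_sum hreps _ γ (π := hb.permEquiv γ) (δ := δ) (fun i => by
    show _ = (r i : SL(2, ℤ)) * (γ : SL(2, ℤ)) * (r (hb.perm γ i) : SL(2, ℤ))⁻¹ * _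
    rw [show (hb.permEquiv γ) i = hb.perm γ i from rfl, inv_mul_cancel_right])]
  refine Finset.sum_congr rfl fun i _ => ?_
  have hup : Duality.upHom L q (δ i) = hb.step γ i := by
    refine Subtype.ext (Duality.toGL_mul_cancel (α := Duality.diagOne q) ?_)
    rw [← Duality.upHom_spec]
    exact diagOne_eq_of_mat (key i)
  simp [hup]

end Degeneracy

end Fermat.Agent.Lifting
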