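/-
The part of twisted cohomology of `Γ₀(L)` at a residual system of eigenvalues: action of the
polynomial algebra on the good primes, freeness, change of coefficients.
-/
import Fermat.Agent.Lifting.CBridge
import Fermat.Agent.Ribet.Twisted.Level
import Mathlib.RingTheory.Adjoin.Basic
import Mathlib.Algebra.MvPolynomial.Eval

set_option autoImplicit false

noncomputable section

namespace Fermat.Agent.Lifting

open CongruenceSubgroup
open scoped MatrixGroups
open Fermat.Agent.Ribet.Twisted (Coh CohL chr heckeT')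

universe u

/-- the primes outside a finite set -/
abbrev GoodIdx (S : Finset ℕ) : Type := {ℓ : ℕ // ℓ.Prime ∧ ℓ ∉ S}

variable {A : Type u} [CommRing A] {L D : ℕ} [NeZero L] {hD : D ∣ L}
  {ψ : DirichletCharacter A D} {S : Finset ℕ}

section Action

variable (hD ψ S) (M : Type*) [AddCommGroup M] [Module A M]

/-- `T'_ℓ` indexed by a good prime -/
def goodOp (ℓ : GoodIdx S) : Module.End A (CohL hD ψ M) := heckeT' hD ψ M ℓ

theorem adjoin_goodOp_comm :
    ∀ a ∈ Set.range (goodOp hD ψ S M), ∀ b ∈ Set.range (goodOp hD ψ S M), a * b = b * a := by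
  rintro _ ⟨ℓ, rfl⟩ _ ⟨m, rfl⟩
  exact Ribet.Twisted.heckeT'_comm hD ψ ℓ m

/-- the polynomial algebra on the good primes acting on the cohomology -/
def cohAct : MvPolynomial (GoodIdx S) A →ₐ[A] Module.End A (CohL hD ψ M) :=
  letI := Algebra.adjoinCommRingOfComm A (s := Set.range (goodOp hD ψ S M))
    (adjoin_goodOp_comm hD ψ S M)
  (Algebra.adjoin A (Set.range (goodOp hD ψ S M))).val.comp (MvPolynomial.aeval fun ℓ =>
    (⟨goodOp hD ψ S M ℓ, Algebra.subset_adjoin ⟨ℓ, rfl⟩⟩ :
      Algebra.adjoin A (Set.range (goodOp hD ψ S M))))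

@[simp] theorem cohAct_X (ℓ : GoodIdx S) :
    cohAct hD ψ S M (MvPolynomial.X ℓ) = heckeT' hD ψ M ℓ := by
  simp [cohAct, goodOp]

@[simp] theorem cohAct_C (c : A) (x : CohL hD ψ M) :
    cohAct hD ψ S M (MvPolynomial.C c) x = c • x := by
  rw [← MvPolynomial.algebraMap_eq, AlgHom.commutes]
  rfl

theorem cohAct_comm (ℓ : ℕ) (t : MvPolynomial (GoodIdx S) A) :
    Commute (heckeT' hD ψ M ℓ) (cohAct hD ψ S M t) := by
  induction t using MvPolynomial.induction_on with
  | C r => rw [← MvPolynomial.algebraMap_eq, AlgHom.commutes]; exact Algebra.commute_algebraMap_right r _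
  | add p q hp hq => rw [map_add]; exact hp.add_right hq
  | mul_X p m hp =>
    rw [map_mul, cohAct_X]
    exact hp.mul_right (Ribet.Twisted.heckeT'_comm hD ψ ℓ m)

end Action

variable {k : Type*} [Field k] (res : A →+* k) (a : GoodIdx S → k)

/-- the value of an operator at the residual system -/
def sysEval : MvPolynomial (GoodIdx S) A →+* k := MvPolynomial.eval₂Hom res a

@[simp] theorem sysEval_X (ℓ : GoodIdx S) : sysEval res a (MvPolynomial.X ℓ) = a ℓ := by
  simp [sysEval]

@[simp] theorem sysEval_C (c : A) : sysEval res a (MvPolynomial.C c) = res c := by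
  simp [sysEval]

variable (hD ψ) (M : Type*) [AddCommGroup M] [Module A M]

/-- classes killed by an operator which is non-zero at the system -/
def cohKer : Submodule A (CohL hD ψ M) where
  carrier := {x | ∃ t, sysEval res a t ≠ 0 ∧ cohAct hD ψ S M t x = 0}
  zero_mem' := ⟨1, by simp, map_zero _⟩
  add_mem' := by
    rintro x y ⟨t, ht, hx⟩ ⟨t', ht', hy⟩
    refine ⟨t * t', by rw [map_mul]; exact mul_ne_zero ht ht', ?_⟩
    rw [map_add, map_mul, Module.End.mul_apply, Module.End.mul_apply, hy, map_zero, add_zero,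
      ← Module.End.mul_apply, ← map_mul, mul_comm, map_mul, Module.End.mul_apply, hx, map_zero]
  smul_mem' := by
    rintro r x ⟨t, ht, hx⟩
    exact ⟨t, ht, by rw [map_smul, hx, smul_zero]⟩

/-- **The part of the cohomology at the system.** -/
abbrev MPart : Type _ := CohL hD ψ M ⧸ cohKer hD ψ res a M

/-- the projection -/
def toPart : CohL hD ψ M →ₗ[A] MPart hD ψ res a M := Submodule.mkQ _

theorem toPart_surjective : Function.Surjective (toPart hD ψ res a M) :=
  Submodule.mkQ_surjective _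

theorem toPart_eq_zero {x : CohL hD ψ M} :
    toPart hD ψ res a M x = 0 ↔ ∃ t, sysEval res a t ≠ 0 ∧ cohAct hD ψ S M t x = 0 := by
  rw [toPart, Submodule.mkQ_apply, Submodule.Quotient.mk_eq_zero]
  rfl

theorem cohKer_stable (T : Module.End A (CohL hD ψ M))
    (hT : ∀ t, Commute T (cohAct hD ψ S M t)) :
    cohKer hD ψ res a M ≤ (cohKer hD ψ res a M).comap T := by
  rintro x ⟨t, ht, hx⟩
  refine ⟨t, ht, ?_⟩
  rw [← Module.End.mul_apply, ← (hT t).eq, Module.End.mul_apply, hx, map_zero]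

/-- `T'_ℓ` on the part at the system (every `ℓ`, so also `U'_ℓ`) -/
def partT (ℓ : ℕ) : Module.End A (MPart hD ψ res a M) :=
  Submodule.mapQ _ _ (heckeT' hD ψ M ℓ)
    (cohKer_stable hD ψ res a M _ fun t => cohAct_comm hD ψ S M ℓ t)

@[simp] theorem partT_toPart (ℓ : ℕ) (x : CohL hD ψ M) :
    partT hD ψ res a M ℓ (toPart hD ψ res a M x) = toPart hD ψ res a M (heckeT' hD ψ M ℓ x) :=
  rfl

theorem partT_comm (ℓ m : ℕ) :
    Commute (partT hD ψ res a M ℓ) (partT hD ψ res a M m) := by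
  refine LinearMap.ext fun x => ?_
  obtain ⟨x, rfl⟩ := toPart_surjective hD ψ res a M x
  simp only [Module.End.mul_apply, partT_toPart]
  rw [← Module.End.mul_apply, (Ribet.Twisted.heckeT'_comm hD ψ ℓ m).eq, Module.End.mul_apply]

/-- the action of an operator -/
def partAct (t : MvPolynomial (GoodIdx S) A) : Module.End A (MPart hD ψ res a M) :=
  Submodule.mapQ _ _ (cohAct hD ψ S M t)
    (cohKer_stable hD ψ res a M _ fun t' => by
      rw [Commute, SemiconjBy, ← map_mul, mul_comm, map_mul])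

@[simp] theorem partAct_toPart (t : MvPolynomial (GoodIdx S) A) (x : CohL hD ψ M) :
    partAct hD ψ res a M t (toPart hD ψ res a M x) = toPart hD ψ res a M (cohAct hD ψ S M t x) :=
  rfl

theorem partAct_injective {t : MvPolynomial (GoodIdx S) A} (ht : sysEval res a t ≠ 0) :
    Function.Injective (partAct hD ψ res a M t) := by
  rw [injective_iff_map_eq_zero]
  intro x hx
  obtain ⟨x, rfl⟩ := toPart_surjective hD ψ res a M x
  rw [partAct_toPart, toPart_eq_zero] at hx
  obtain ⟨t', ht', hx⟩ := hx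
  rw [toPart_eq_zero]
  exact ⟨t' * t, by rw [map_mul]; exact mul_ne_zero ht' ht,
    by rw [map_mul, Module.End.mul_apply, hx]⟩

theorem finite_mPart [IsNoetherianRing A] [Module.Finite A M] :
    Module.Finite A (MPart hD ψ res a M) :=
  haveI : Module.Finite A (CohL hD ψ M) := Ribet.Twisted.finite_cohL hD ψ
  Module.Finite.quotient A _

theorem partAct_bijective [IsArtinianRing A] [Module.Finite A M]
    {t : MvPolynomial (GoodIdx S) A} (ht : sysEval res a t ≠ 0) :
    Function.Bijective (partAct hD ψ res a M t) := by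
  haveI := finite_mPart hD ψ res a M
  exact IsArtinian.bijective_of_injective_endomorphism _ (partAct_injective hD ψ res a M ht)

/-- The residual system is not Eisenstein, in the explicit form used here. -/
structure NonEis (L : ℕ) (S : Finset ℕ) (a : GoodIdx S → k) : Prop where
  eis : ∃ ℓ : GoodIdx S, ((ℓ : ℕ) : ZMod L) = 1 ∧ a ℓ ≠ ((ℓ : ℕ) : k) + 1
  ihara : ∃ ℓ : GoodIdx S, ¬ (ℓ : ℕ) ∣ L ∧ a ℓ ^ 2 ≠ (((ℓ : ℕ) : k) + 1) ^ 2

theorem heckeT'_map {X Y : Type*} [AddCommGroup X] [Module A X] [AddCommGroup Y] [Module A Y]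
    (f : X →ₗ[A] Y) (ℓ : ℕ) (x : CohL hD ψ X) :
    Coh.map (Φ := chr hD ψ) (Ψ := chr hD ψ) (φ := RingHom.id A) (fun _ => rfl) f
        (heckeT' hD ψ X ℓ x)
      = heckeT' hD ψ Y ℓ
          (Coh.map (Φ := chr hD ψ) (Ψ := chr hD ψ) (φ := RingHom.id A) (fun _ => rfl) f x) := by
  by_cases h : ℓ.Prime ∧ ¬ ℓ ∣ D
  · haveI : Fact ℓ.Prime := ⟨h.1⟩
    rw [Ribet.Twisted.heckeT'_eq hD ψ X h.2, Ribet.Twisted.heckeT'_eq hD ψ Y h.2]
    exact Ribet.Twisted.OpData.map_op _
      ((Ribet.Twisted.heckeOpData hD ψ h.1 h.2).pushforward (RingHom.id A) (fun _ => rfl)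
        (fun _ => rfl)) (fun _ => rfl) (fun _ => rfl) f x
  · rw [heckeT', dif_neg h, heckeT', dif_neg h]
    simp

theorem cohAct_map {X Y : Type*} [AddCommGroup X] [Module A X] [AddCommGroup Y] [Module A Y]
    (f : X →ₗ[A] Y) (t : MvPolynomial (GoodIdx S) A) (x : CohL hD ψ X) :
    Coh.map (Φ := chr hD ψ) (Ψ := chr hD ψ) (φ := RingHom.id A) (fun _ => rfl) f
        (cohAct hD ψ S X t x)
      = cohAct hD ψ S Y t
          (Coh.map (Φ := chr hD ψ) (Ψ := chr hD ψ) (φ := RingHom.id A) (fun _ => rfl) f x) := by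
  induction t using MvPolynomial.induction_on generalizing x with
  | C r => rw [cohAct_C, cohAct_C, LinearMap.map_smul]
  | add p q hp hq => simp only [map_add, LinearMap.add_apply, hp, hq]
  | mul_X p m hp => simp only [map_mul, Module.End.mul_apply, cohAct_X, hp, heckeT'_map]

/-- the action in the language of representations -/
def h1Act (hD : D ∣ L) (ψ : DirichletCharacter A D) (S : Finset ℕ) (X : Type u) [AddCommGroup X]
    [Module A X] :
    MvPolynomial (GoodIdx S) A →ₐ[A] Module.End A (H1 (scalarRep (chr hD ψ) X)) :=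
  (LinearEquiv.conjAlgEquiv A (cohEquiv (chr hD ψ) X)).toAlgHom.comp (cohAct hD ψ S X)

theorem h1Act_cohEquiv (X : Type u) [AddCommGroup X] [Module A X]
    (t : MvPolynomial (GoodIdx S) A) (x : CohL hD ψ X) :
    h1Act hD ψ S X t (cohEquiv (chr hD ψ) X x) = cohEquiv (chr hD ψ) X (cohAct hD ψ S X t x) := by
  simp [h1Act, LinearEquiv.conjAlgEquiv_apply]

omit [NeZero L] in
theorem apply_eq_one_of_level (hD : D ∣ L) (ψ : DirichletCharacter A D) {ℓ : ℕ}
    (h : (ℓ : ZMod L) = 1) : ψ (ℓ : ZMod D) = 1 ∧ ψ⁻¹ (ℓ : ZMod D) = 1 := by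
  have h' : (ℓ : ZMod D) = 1 := by
    have := congrArg (ZMod.castHom hD (ZMod D)) h
    rwa [map_natCast, map_one] at this
  rw [h', map_one, map_one]
  exact ⟨rfl, rfl⟩

/-- **Freeness.** -/
theorem free_mPart [IsLocalRing A] [IsArtinianRing A] (h2 : IsUnit (2 : A))
    (h3 : Elliptic3 A L) (ha : NonEis L S a) : Module.Free A (MPart hD ψ res a A) := by
  haveI : Group.FG (Gamma0 L) := by
    haveI : Group.FG SL(2, ℤ) := (Group.fg_iff).mpr
      ⟨{ModularGroup.S, ModularGroup.T}, SpecialLinearGroup.SL2Z_generators, Set.toFinite _⟩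
    infer_instance
  set P : Ideal (MvPolynomial (GoodIdx S) A) := RingHom.ker (sysEval res a) with hP
  haveI : P.IsPrime := RingHom.ker_isPrime _
  have hmem : ∀ t, t ∉ P ↔ sysEval res a t ≠ 0 := fun t => by rw [hP, RingHom.mem_ker]
  obtain ⟨ℓ, hℓ, hne⟩ := ha.eis
  have hℓL : ¬ (ℓ : ℕ) ∣ L := fun h => ℓ.2.1.ne_one (by
    have h' : ((ℓ : ℕ) : ZMod (ℓ : ℕ)) = 1 := by
      have := congrArg (ZMod.castHom h (ZMod (ℓ : ℕ))) hℓ
      rwa [map_natCast, map_one] at this
    rw [ZMod.natCast_self] at h'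
    haveI : Fact (ℓ : ℕ).Prime := ⟨ℓ.2.1⟩
    exact absurd h' zero_ne_one)
  set t₂ : MvPolynomial (GoodIdx S) A :=
    MvPolynomial.X ℓ - MvPolynomial.C (((ℓ : ℕ) : A) + 1) with ht₂
  have hfree : Module.Free A (LocH (chr hD ψ) P (fun X => h1Act hD ψ S X)) := by
    refine free_locH (chr hD ψ) P (fun X => h1Act hD ψ S X) ?_
      (t₁ := 1) ((hmem 1).mpr (by simp)) ?_ (t₂ := t₂)
      ((hmem t₂).mpr (by simpa [ht₂, sub_eq_zero] using hne)) ?_
    · intro X Y _ _ _ _ f t x
      obtain ⟨x, rfl⟩ := (cohEquiv (chr hD ψ) X).surjective x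
      rw [h1Act_cohEquiv, scalarMap_cohEquiv, scalarMap_cohEquiv, h1Act_cohEquiv, cohAct_map]
    · intro X Y _ _ _ _ f hf y
      obtain ⟨y, rfl⟩ := (cohEquiv (chr hD ψ) Y).surjective y
      obtain ⟨x, hx⟩ := cohMap_surjective hD ψ h2 h3 f hf y
      exact ⟨cohEquiv (chr hD ψ) X x, by rw [scalarMap_cohEquiv, hx, map_one, Module.End.one_apply]⟩
    · intro X Y _ _ _ _ f hf x hx
      obtain ⟨x, rfl⟩ := (cohEquiv (chr hD ψ) X).surjective x
      rw [scalarMap_cohEquiv, LinearEquiv.map_eq_zero_iff] at hx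
      have h := Ribet.Twisted.heckeT'_of_map_eq_zero hD ψ (RingHom.id A) f hf x hx (ℓ : ℕ) ℓ.2.1 hℓL
      obtain ⟨e1, e2⟩ := apply_eq_one_of_level hD ψ hℓ
      rw [e1, e2, mul_one] at h
      rw [h1Act_cohEquiv, LinearEquiv.map_eq_zero_iff, ht₂, map_sub, LinearMap.sub_apply,
        cohAct_X, cohAct_C, h, sub_self]
  haveI := hfree
  refine Module.Free.of_equiv
    (Submodule.Quotient.equiv (cohKer hD ψ res a A)
      (locKer (chr hD ψ) P (fun X => h1Act hD ψ S X) A) (cohEquiv (chr hD ψ) A) ?_).symm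
  ext x
  obtain ⟨x, rfl⟩ := (cohEquiv (chr hD ψ) A).surjective x
  rw [Submodule.mem_map_equiv, LinearEquiv.symm_apply_apply, mem_locKer_iff]
  simp only [h1Act_cohEquiv, LinearEquiv.map_eq_zero_iff, hmem]
  rfl

section Change

variable {B : Type*} [CommRing B] (φ : A →+* B) (resB : B →+* k)

/-- Change of coefficients on cohomology. -/
def cohMap : CohL hD ψ A →ₛₗ[φ] CohL hD (ψ.ringHomComp φ) B :=
  Coh.map (Φ := chr hD ψ) (Ψ := chr hD (ψ.ringHomComp φ))
    (Ribet.Twisted.chr_ringHomComp φ hD ψ) φ.toSemilinearMap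

theorem cohMap_heckeT' (ℓ : ℕ) (x : CohL hD ψ A) :
    cohMap hD ψ φ (heckeT' hD ψ A ℓ x) = heckeT' hD (ψ.ringHomComp φ) B ℓ (cohMap hD ψ φ x) := by
  by_cases h : ℓ.Prime ∧ ¬ ℓ ∣ D
  · haveI : Fact ℓ.Prime := ⟨h.1⟩
    rw [Ribet.Twisted.heckeT'_eq hD ψ A h.2, Ribet.Twisted.heckeT'_eq hD _ B h.2]
    have hu : IsUnit (ℓ : ZMod D) :=
      (ZMod.isUnit_iff_coprime ℓ D).mpr ((Nat.Prime.coprime_iff_not_dvd h.1).mpr h.2)
    have hw : ∀ i, φ (Ribet.Twisted.heckeWeight L ψ ℓ i)
        = Ribet.Twisted.heckeWeight L (ψ.ringHomComp φ) ℓ i := by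
      rintro ⟨_ | y, hi⟩ <;>
        simp [Ribet.Twisted.heckeWeight, MulChar.inv_apply]
    have hp := (Ribet.Twisted.heckeOpData hD ψ h.1 h.2).pushforward φ
      (Ribet.Twisted.chr_ringHomComp φ hD ψ) (Ribet.Twisted.chr_ringHomComp φ hD ψ)
    rw [← Ribet.Twisted.op_congr hp (Ribet.Twisted.heckeOpData hD (ψ.ringHomComp φ) h.1 h.2) rfl
      (funext hw) B]
    exact Ribet.Twisted.OpData.map_op _ hp _ _ _ x
  · rw [heckeT', dif_neg h, heckeT', dif_neg h]
    simp

theorem cohMap_cohAct (t : MvPolynomial (GoodIdx S) A) (x : CohL hD ψ A) :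
    cohMap hD ψ φ (cohAct hD ψ S A t x)
      = cohAct hD (ψ.ringHomComp φ) S B (MvPolynomial.map φ t) (cohMap hD ψ φ x) := by
  induction t using MvPolynomial.induction_on generalizing x with
  | C r => rw [MvPolynomial.map_C, cohAct_C, cohAct_C, LinearMap.map_smulₛₗ]
  | add p q hp hq => simp only [map_add, LinearMap.add_apply, hp, hq]
  | mul_X p m hp =>
    simp only [map_mul, MvPolynomial.map_X, Module.End.mul_apply, cohAct_X, hp, cohMap_heckeT']

theorem sysEval_map (hres : resB.comp φ = res) (t : MvPolynomial (GoodIdx S) A) :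
    sysEval resB a (MvPolynomial.map φ t) = sysEval res a t := by
  simp [sysEval, MvPolynomial.eval₂Hom_map_hom, hres]

/-- Change of coefficients on the part at the system. -/
def mapPart (hres : resB.comp φ = res) :
    MPart hD ψ res a A →ₛₗ[φ] MPart hD (ψ.ringHomComp φ) resB a B :=
  Submodule.mapQ _ _ (cohMap hD ψ φ) (by
    rintro x ⟨t, ht, hx⟩
    exact ⟨MvPolynomial.map φ t, by rwa [sysEval_map res a φ resB hres],
      by rw [← cohMap_cohAct, hx, map_zero]⟩)

theorem mapPart_toPart (hres : resB.comp φ = res) (x : CohL hD ψ A) :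
    mapPart hD ψ res a φ resB hres (toPart hD ψ res a A x)
      = toPart hD (ψ.ringHomComp φ) resB a B (cohMap hD ψ φ x) := rfl

theorem mapPart_partT (hres : resB.comp φ = res) (ℓ : ℕ) (x : MPart hD ψ res a A) :
    mapPart hD ψ res a φ resB hres (partT hD ψ res a A ℓ x)
      = partT hD (ψ.ringHomComp φ) resB a B ℓ (mapPart hD ψ res a φ resB hres x) := by
  obtain ⟨x, rfl⟩ := toPart_surjective hD ψ res a A x
  rw [partT_toPart, mapPart_toPart, mapPart_toPart, partT_toPart, cohMap_heckeT']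

omit [NeZero L] in
theorem chr_mul_eq_smul (γ : Gamma0 L) (b : B) :
    letI := φ.toAlgebra
    chr hD ψ γ • b = chr hD (ψ.ringHomComp φ) γ • b := by
  letI := φ.toAlgebra
  rw [Algebra.smul_def, Ribet.Twisted.chr_ringHomComp φ hD ψ γ, smul_eq_mul]
  rfl

/-- Change of coefficients is surjective on cohomology. -/
theorem cohMap_surjective' (hφ : Function.Surjective φ) (h2 : IsUnit (2 : A))
    (h3 : Elliptic3 A L) : Function.Surjective (cohMap hD ψ φ) := by
  letI := φ.toAlgebra
  intro x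
  obtain ⟨z, rfl⟩ := Ribet.Twisted.Coh.mk_surjective x
  have hz : (z : Gamma0 L → B) ∈ Ribet.Twisted.cocycles (chr hD ψ) B := fun g h => by
    rw [z.2 g h, chr_mul_eq_smul hD ψ φ]
  obtain ⟨y, hy⟩ := exists_cocycle_lift' hD ψ h2 h3 (Algebra.linearMap A B) hφ ⟨_, hz⟩
  exact ⟨Coh.mk _ A y, congrArg (Coh.mk _ B) (Subtype.ext (funext hy))⟩

/-- The kernel of the change of coefficients on cohomology. -/
theorem mem_smul_of_cohMap [IsNoetherianRing A] (hφ : Function.Surjective φ)
    (h2 : IsUnit (2 : A)) (h3 : Elliptic3 A L) (y : CohL hD ψ A) (hy : cohMap hD ψ φ y = 0) :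
    y ∈ RingHom.ker φ • (⊤ : Submodule A (CohL hD ψ A)) := by
  obtain ⟨z, rfl⟩ := Ribet.Twisted.Coh.mk_surjective y
  obtain ⟨b, hb⟩ := Ribet.Twisted.Coh.mk_eq_zero.mp hy
  obtain ⟨b, rfl⟩ := hφ b
  set z₁ := z - Ribet.Twisted.coboundary (chr hD ψ) A b with hz₁
  have hI : ∀ γ, (z₁ : Gamma0 L → A) γ ∈ RingHom.ker φ := fun γ => by
    have h := congrFun (congrArg Subtype.val hb) γ
    rw [Ribet.Twisted.coboundary_apply, smul_eq_mul, Ribet.Twisted.chr_ringHomComp φ hD ψ,
      ← map_mul, ← map_sub] at h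
    rw [RingHom.mem_ker, hz₁]
    show φ ((z : Gamma0 L → A) γ - (chr hD ψ γ • b - b)) = 0
    rw [map_sub, smul_eq_mul, h]
    exact sub_self _
  obtain ⟨n, g, hg⟩ := Submodule.fg_iff_exists_fin_generating_family.1
    (IsNoetherian.noetherian (RingHom.ker φ))
  let f : (Fin n → A) →ₗ[A] RingHom.ker φ :=
    LinearMap.codRestrict _ (Fintype.linearCombination A g) fun c => by
      rw [← hg, ← Fintype.range_linearCombination]
      exact LinearMap.mem_range_self _ c
  have hf : Function.Surjective f := by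
    rintro ⟨i, hi⟩
    rw [← hg, ← Fintype.range_linearCombination] at hi
    obtain ⟨c, hc⟩ := hi
    exact ⟨c, Subtype.ext hc⟩
  let zI : Ribet.Twisted.cocycles (chr hD ψ) (RingHom.ker φ) :=
    ⟨fun γ => ⟨_, hI γ⟩, fun x y => Subtype.ext (z₁.2 x y)⟩
  obtain ⟨y, hy⟩ := exists_cocycle_lift' hD ψ h2 h3 f hf zI
  let comp : Fin n → Ribet.Twisted.cocycles (chr hD ψ) A := fun j =>
    Ribet.Twisted.cocyclesMap (φ := RingHom.id A) (Ψ := chr hD ψ) (fun _ => rfl)
      (LinearMap.proj j : (Fin n → A) →ₗ[A] A) y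
  have hsum : z₁ = ∑ j, g j • comp j := Subtype.ext (funext fun γ => by
    have h := congrArg Subtype.val (hy γ)
    simp only [f, LinearMap.codRestrict_apply, Fintype.linearCombination_apply] at h
    rw [AddSubmonoidClass.coe_finsetSum, Finset.sum_apply]
    refine (h.symm.trans ?_)
    exact Finset.sum_congr rfl fun j _ => mul_comm _ _)
  have hmk : Coh.mk (chr hD ψ) A z = ∑ j, g j • Coh.mk (chr hD ψ) A (comp j) := by
    rw [show z = z₁ + Ribet.Twisted.coboundary (chr hD ψ) A b by rw [hz₁, sub_add_cancel], map_add,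
      Ribet.Twisted.Coh.mk_eq_zero.2 ⟨b, rfl⟩, add_zero, hsum, map_sum]
    exact Finset.sum_congr rfl fun j _ => map_smul _ _ _
  rw [hmk]
  exact Submodule.sum_mem _ fun j _ => Submodule.smul_mem_smul
    (hg ▸ Submodule.subset_span ⟨j, rfl⟩) Submodule.mem_top

/-- Reduction is surjective. -/
theorem mapPart_surjective (hres : resB.comp φ = res) (hφ : Function.Surjective φ)
    (h2 : IsUnit (2 : A)) (h3 : Elliptic3 A L) :
    Function.Surjective (mapPart hD ψ res a φ resB hres) := by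
  intro x
  obtain ⟨x, rfl⟩ := toPart_surjective hD (ψ.ringHomComp φ) resB a B x
  obtain ⟨y, rfl⟩ := cohMap_surjective' hD ψ φ hφ h2 h3 x
  exact ⟨toPart hD ψ res a A y, rfl⟩

/-- The kernel of reduction, once the operators outside the system are bijective. -/
theorem mapPart_eq_zero_iff_of_bijective [IsNoetherianRing A] (hres : resB.comp φ = res)
    (hφ : Function.Surjective φ) (h2 : IsUnit (2 : A)) (h3 : Elliptic3 A L)
    (hops : ∀ t, sysEval res a t ≠ 0 → Function.Bijective (partAct hD ψ res a A t))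
    (x : MPart hD ψ res a A) :
    mapPart hD ψ res a φ resB hres x = 0
      ↔ x ∈ RingHom.ker φ • (⊤ : Submodule A (MPart hD ψ res a A)) := by
  constructor
  · intro hx
    obtain ⟨y, rfl⟩ := toPart_surjective hD ψ res a A x
    rw [mapPart_toPart, toPart_eq_zero] at hx
    obtain ⟨t', ht', hx⟩ := hx
    obtain ⟨t, rfl⟩ := MvPolynomial.map_surjective φ hφ t'
    rw [sysEval_map res a φ resB hres] at ht'
    rw [← cohMap_cohAct] at hx
    have h := mem_smul_of_cohMap hD ψ φ hφ h2 h3 _ hx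
    have hbij := hops t ht'
    set e := LinearEquiv.ofBijective (partAct hD ψ res a A t) hbij with he
    have h' : (e (toPart hD ψ res a A y))
        ∈ RingHom.ker φ • (⊤ : Submodule A (MPart hD ψ res a A)) := by
      rw [he, LinearEquiv.ofBijective_apply, partAct_toPart]
      refine Submodule.smul_mono le_rfl le_top (?_ : _ ∈ RingHom.ker φ •
        Submodule.map (toPart hD ψ res a A) ⊤)
      rw [← Submodule.map_smul'']
      exact ⟨_, h, rfl⟩
    have h'' : e.symm (e (toPart hD ψ res a A y))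
        ∈ Submodule.map (e.symm : _ →ₗ[A] _) (RingHom.ker φ • ⊤) := ⟨_, h', rfl⟩
    rw [LinearEquiv.symm_apply_apply, Submodule.map_smul''] at h''
    exact Submodule.smul_mono le_rfl le_top h''
  · intro hx
    refine Submodule.smul_induction_on hx (fun r hr m _ => ?_) (fun x y hx hy => ?_)
    · rw [LinearMap.map_smulₛₗ, RingHom.mem_ker.mp hr, zero_smul]
    · rw [map_add, hx, hy, add_zero]

/-- The kernel of reduction. -/
theorem mapPart_eq_zero_iff [IsArtinianRing A] (hres : resB.comp φ = res)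
    (hφ : Function.Surjective φ) (h2 : IsUnit (2 : A)) (h3 : Elliptic3 A L)
    (x : MPart hD ψ res a A) :
    mapPart hD ψ res a φ resB hres x = 0
      ↔ x ∈ RingHom.ker φ • (⊤ : Submodule A (MPart hD ψ res a A)) :=
  mapPart_eq_zero_iff_of_bijective hD ψ res a φ resB hres hφ h2 h3
    (fun _ ht => partAct_bijective hD ψ res a A ht) x

end Change

section Intertwine

variable {A : Type u} [CommRing A] {L L' D : ℕ} [NeZero L] [NeZero L'] {hD : D ∣ L} {hD' : D ∣ L'}
  {ψ : DirichletCharacter A D} {S : Finset ℕ} {M : Type*} [AddCommGroup M] [Module A M]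

/-- a map commuting with the generators commutes with the algebra -/
theorem cohAct_intertwine (f : CohL hD ψ M →ₗ[A] CohL hD' ψ M)
    (hf : ∀ ℓ : GoodIdx S, ∀ x, f (heckeT' hD ψ M ℓ x) = heckeT' hD' ψ M ℓ (f x))
    (t : MvPolynomial (GoodIdx S) A) (x : CohL hD ψ M) :
    f (cohAct hD ψ S M t x) = cohAct hD' ψ S M t (f x) := by
  induction t using MvPolynomial.induction_on generalizing x with
  | C r => simp
  | add p q hp hq => simp only [map_add, LinearMap.add_apply, hp, hq]
  | mul_X p m hp => simp only [map_mul, Module.End.mul_apply, cohAct_X, hp, hf]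

end Intertwine

end Fermat.Agent.Lifting
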