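/-
Ihara's lemma for the degeneracy maps over a field with trivial character: the kernel of `α` is
killed, and the image of `α^*` reached, by an operator which is nonzero at non-Eisenstein systems.
-/
import Fermat.Agent.Lifting.CBoundary
import Fermat.Agent.Lifting.CHom
import Fermat.Agent.Lifting.CMod
import Fermat.Agent.Raise.ModP

set_option autoImplicit false

noncomputable section

namespace Fermat.Agent.Lifting

open CongruenceSubgroup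
open scoped MatrixGroups
open Fermat.Agent.Ribet.Twisted (CohL heckeT')
open Fermat.Agent.ParHom (parEllHoms)

variable {k : Type*} [Field k] {L D q : ℕ} [Fact q.Prime] [NeZero q] [NeZero L] [NeZero (L * q)]
  {S : Finset ℕ}

/-- `T_{ℓ₀} - (ℓ₀ + 1)` as a polynomial. -/
def eisPoly (k : Type*) [CommRing k] {S : Finset ℕ} (ℓ₀ : GoodIdx S) : MvPolynomial (GoodIdx S) k :=
  MvPolynomial.X ℓ₀ - MvPolynomial.C (((ℓ₀ : ℕ) : k) + 1)

/-- `(T_{ℓ₀} - (ℓ₀ + 1))³ (T_ℓ² - (ℓ + 1)²)` as a polynomial. -/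
def killPoly (k : Type*) [CommRing k] {S : Finset ℕ} (ℓ ℓ₀ : GoodIdx S) :
    MvPolynomial (GoodIdx S) k :=
  eisPoly k ℓ₀ * (eisPoly k ℓ₀ * (eisPoly k ℓ₀ *
    (MvPolynomial.X ℓ * MvPolynomial.X ℓ - MvPolynomial.C ((((ℓ : ℕ) : k) + 1) ^ 2))))

/-- a good prime as a prime -/
abbrev toPrime {S : Finset ℕ} (ℓ : GoodIdx S) : Nat.Primes := ⟨ℓ, ℓ.2.1⟩

variable (hD : D ∣ L)

theorem homL_eisPoly (ℓ₀ : GoodIdx S) (h : ¬ (ℓ₀ : ℕ) ∣ D)
    (x : CohL hD (1 : DirichletCharacter k D) k) :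
    homL hD k (cohAct hD 1 S k (eisPoly k ℓ₀) x)
      = HeckeCohom.heckeHom L k k (toPrime ℓ₀) (homL hD k x)
        - ((ℓ₀ : ℕ) + 1) • homL hD k x := by
  rw [eisPoly, map_sub, LinearMap.sub_apply, cohAct_X, cohAct_C, map_sub, LinearMap.map_smul,
    homL_heckeT' hD (toPrime ℓ₀) h, ← Nat.cast_smul_eq_nsmul k ((ℓ₀ : ℕ) + 1), Nat.cast_add,
    Nat.cast_one]

/-- `T_{ℓ₀} - (ℓ₀ + 1)` makes a class parabolic-elliptic. -/
theorem exists_parEll (h2 : (2 : k) ≠ 0) (h3 : Elliptic3 k L) (ℓ₀ : GoodIdx S)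
    (h : ((ℓ₀ : ℕ) : ZMod L) = 1) (hℓD : ¬ (ℓ₀ : ℕ) ∣ D)
    (x : CohL hD (1 : DirichletCharacter k D) k) :
    ∃ X : parEllHoms (Gamma0 L) k k, (X : Additive (Gamma0 L) →+ k)
      = homL hD k (cohAct hD 1 S k (eisPoly k ℓ₀) x) := by
  refine ⟨⟨_, ?_⟩, rfl⟩
  rw [homL_eisPoly hD ℓ₀ hℓD, Raise.heckeHom_int (R := k)]
  exact isParEllHom_of_parabolic (R := k) (IsUnit.mk0 _ h2) h3
    (isParabolicHom_heckeHom_sub (toPrime ℓ₀) h _)

theorem homL_killPoly (ℓ ℓ₀ : GoodIdx S) (hℓ : ¬ (ℓ : ℕ) ∣ D) (hℓ₀ : ¬ (ℓ₀ : ℕ) ∣ D)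
    {x : CohL hD (1 : DirichletCharacter k D) k} {X : parEllHoms (Gamma0 L) k k}
    (hX : (X : Additive (Gamma0 L) →+ k) = homL hD k x) :
    homL hD k (cohAct hD 1 S k (killPoly k ℓ ℓ₀) x)
      = (Raise.killer L k k (toPrime ℓ) (toPrime ℓ₀) X : Additive (Gamma0 L) →+ k) := by
  simp only [killPoly, Raise.killer, map_mul, Module.End.mul_apply, homL_eisPoly hD ℓ₀ hℓ₀,
    Raise.eisOp_apply, Raise.sqOp_apply, map_sub, LinearMap.sub_apply, cohAct_X, cohAct_C,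
    LinearMap.map_smul, map_nsmul,
    homL_heckeT' hD (toPrime ℓ) hℓ, AddSubgroupClass.coe_sub, Submodule.coe_smul_of_tower,
    HeckeCohom.coe_heckeParEll_apply, ← hX, ← Nat.cast_smul_eq_nsmul k, Nat.cast_pow,
    Nat.cast_add, Nat.cast_one, Module.End.one_apply]

section

variable (hqL : ¬ q ∣ L) (a : GoodIdx S → k)

theorem exists_indices (ha : NonEis (L * q) S a) :
    ∃ ℓ ℓ₀ : GoodIdx S, ¬ (ℓ : ℕ) ∣ L * q ∧ ¬ (ℓ₀ : ℕ) ∣ L * q ∧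
      ((ℓ₀ : ℕ) : ZMod (L * q)) = 1 ∧ ((ℓ₀ : ℕ) : ZMod L) = 1 ∧
      sysEval (RingHom.id k) a (killPoly k ℓ ℓ₀ * eisPoly k ℓ₀) ≠ 0 := by
  obtain ⟨ℓ₀, h₀, hne₀⟩ := ha.eis
  obtain ⟨ℓ, hℓ, hne⟩ := ha.ihara
  refine ⟨ℓ, ℓ₀, hℓ, fun h => ℓ₀.2.1.ne_one ?_, h₀, ?_, ?_⟩
  · have h' := congrArg (ZMod.castHom h (ZMod (ℓ₀ : ℕ))) h₀
    rw [map_natCast, map_one, ZMod.natCast_self] at h'
    haveI : Fact (ℓ₀ : ℕ).Prime := ⟨ℓ₀.2.1⟩
    exact absurd h' zero_ne_one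
  · have h' := congrArg (ZMod.castHom (Nat.dvd_mul_right L q) (ZMod L)) h₀
    rwa [map_natCast, map_one] at h'
  · simp only [killPoly, eisPoly, map_mul, map_sub, sysEval_X, sysEval_C, RingHom.id_apply]
    refine mul_ne_zero (mul_ne_zero (sub_ne_zero.mpr hne₀) (mul_ne_zero (sub_ne_zero.mpr hne₀)
      (mul_ne_zero (sub_ne_zero.mpr hne₀) (sub_ne_zero.mpr ?_)))) (sub_ne_zero.mpr hne₀)
    rwa [← sq]

theorem not_dvd_level {ℓ : ℕ} (hD : D ∣ L) (h : ¬ ℓ ∣ L * q) : ¬ ℓ ∣ D :=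
  fun h' => h ((h'.trans hD).mul_right q)

/-- **The kernel of `α` is Eisenstein.** -/
theorem exists_kills_ker_cohRaise (hqS : q ∈ S) (h2 : (2 : k) ≠ 0) (h3 : Elliptic3 k L)
    (ha : NonEis (L * q) S a) :
    ∃ t, sysEval (RingHom.id k) a t ≠ 0 ∧ ∀ x y, cohRaise hD 1 k hqL (x, y) = 0 →
      cohAct hD (1 : DirichletCharacter k D) S k t x = 0 ∧ cohAct hD 1 S k t y = 0 := by
  obtain ⟨ℓ, ℓ₀, hℓ, hℓ₀, h₀, h₀L, hne⟩ := exists_indices a ha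
  have hℓD := not_dvd_level hD hℓ
  have hℓ₀D := not_dvd_level hD hℓ₀
  refine ⟨killPoly k ℓ ℓ₀ * eisPoly k ℓ₀, hne, fun x y hxy => ?_⟩
  obtain ⟨X, hX⟩ := exists_parEll hD h2 h3 ℓ₀ h₀L hℓ₀D x
  obtain ⟨Y, hY⟩ := exists_parEll hD h2 h3 ℓ₀ h₀L hℓ₀D y
  have hne' : ∀ m : GoodIdx S, (m : ℕ) ≠ q := fun m h => m.2.2 (h ▸ hqS)
  have hz : cohRaise hD 1 k hqL
      (cohAct hD 1 S k (eisPoly k ℓ₀) x, cohAct hD 1 S k (eisPoly k ℓ₀) y) = 0 := by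
    have e1 : ∀ t v, degRes hD (1 : DirichletCharacter k D) k (cohAct hD 1 S k t v)
        = cohAct (hDq hD q) 1 S k t (degRes hD 1 k v) := fun t v =>
      cohAct_intertwine (degRes hD 1 k) (fun m w => degRes_heckeT' hD 1 (hne' m) w) t v
    have e2 : ∀ t v, degTw hD (1 : DirichletCharacter k D) k hqL (cohAct hD 1 S k t v)
        = cohAct (hDq hD q) 1 S k t (degTw hD 1 k hqL v) := fun t v =>
      cohAct_intertwine (degTw hD 1 k hqL) (fun m w => degTw_heckeT' hD 1 hqL (hne' m) w) t v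
    simp only [cohRaise, LinearMap.coprod_apply] at hxy ⊢
    rw [e1, e2, ← map_add, hxy, map_zero]
  have hsum : Raise.res0 (q := q) k k X + Raise.tw k k Y = 0 := by
    refine Subtype.ext (AddMonoidHom.ext fun g => ?_)
    have h := DFunLike.congr_fun (congrArg (homL (A := k) (hDq hD q) k) hz) g
    simp only [cohRaise, LinearMap.coprod_apply, map_add, map_zero, homL_degRes, homL_degTw, ← hX,
      ← hY, AddMonoidHom.add_apply, AddMonoidHom.zero_apply] at h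
    exact h
  obtain ⟨k1, k2⟩ := Raise.killer_eq_zero (toPrime ℓ) (toPrime ℓ₀) hqL hℓ hℓ₀ h₀ hsum
  refine ⟨homL_injective hD ?_, homL_injective hD ?_⟩
  · rw [map_mul, Module.End.mul_apply, homL_killPoly hD ℓ ℓ₀ hℓD hℓ₀D hX, k1, map_zero]
    rfl
  · rw [map_mul, Module.End.mul_apply, homL_killPoly hD ℓ ℓ₀ hℓD hℓ₀D hY, k2, map_zero]
    rfl

/-- **The image of `α^*` is everything up to an Eisenstein operator.** -/
theorem exists_mem_range_cohLower (h2 : (2 : k) ≠ 0) (h3 : Elliptic3 k L)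
    (ha : NonEis (L * q) S a) :
    ∃ t, sysEval (RingHom.id k) a t ≠ 0 ∧ ∀ x y, ∃ z, cohLower hD 1 k hqL z
      = (cohAct hD (1 : DirichletCharacter k D) S k t x, cohAct hD 1 S k t y) := by
  obtain ⟨ℓ, ℓ₀, hℓ, hℓ₀, h₀, h₀L, hne⟩ := exists_indices a ha
  have hℓD := not_dvd_level hD hℓ
  have hℓ₀D := not_dvd_level hD hℓ₀
  refine ⟨killPoly k ℓ ℓ₀ * eisPoly k ℓ₀, hne, fun x y => ?_⟩
  obtain ⟨X, hX⟩ := exists_parEll hD h2 h3 ℓ₀ h₀L hℓ₀D x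
  obtain ⟨Y, hY⟩ := exists_parEll hD h2 h3 ℓ₀ h₀L hℓ₀D y
  obtain ⟨z, hz1, hz2⟩ :=
    Raise.exists_cor_eq_killer_field (toPrime ℓ) (toPrime ℓ₀) h2 hqL hℓ hℓ₀ h₀ X Y
  obtain ⟨Z, hZ⟩ := homL_surjective (A := k) (hDq hD q) (z : Additive (Gamma0 (L * q)) →+ k)
  refine ⟨Z, Prod.ext (homL_injective hD ?_) (homL_injective hD ?_)⟩ <;>
    simp only [map_mul, Module.End.mul_apply]
  · show homL hD k (degCor₁ hD 1 k hqL Z) = _
    rw [homL_degCor₁, hZ, homL_killPoly hD ℓ ℓ₀ hℓD hℓ₀D hX, ← hz1]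
    rfl
  · show homL hD k (degCor₂ hD 1 k hqL Z) = _
    rw [homL_degCor₂, hZ, homL_killPoly hD ℓ ℓ₀ hℓD hℓ₀D hY, ← hz2]
    rfl

end

end Fermat.Agent.Lifting
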