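/-
The part at the residual system with coefficients in a complete discrete valuation ring: it is
finite free and its bases reduce to bases of the parts over the quotients.
-/
import Fermat.Agent.Lifting.CMod
import Fermat.Agent.Ribet.Avoid.ModuleCoeff
import Mathlib.RingTheory.DiscreteValuationRing.Basic
import Mathlib.LinearAlgebra.Matrix.ToLin
import Mathlib.LinearAlgebra.FreeModule.PID

set_option autoImplicit false

noncomputable section

namespace Fermat.Agent.Lifting

open IsLocalRing CongruenceSubgroup Module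
open Fermat.Agent.Ribet.Twisted (Coh CohL chr heckeT')

universe u

variable {A : Type u} [CommRing A] {L D : ℕ} [NeZero L] {S : Finset ℕ}
  (hD : D ∣ L) (ψ : DirichletCharacter A D)

/-- The two actions of the polynomial algebra agree. -/
theorem cohAct_eq_avoidAct (M : Type*) [AddCommGroup M] [Module A M] :
    cohAct hD ψ S M = Ribet.Avoid.act hD ψ M S :=
  MvPolynomial.algHom_ext fun ℓ => (cohAct_X hD ψ S M ℓ).trans (Ribet.Avoid.act_X hD ψ M S ℓ).symm

variable {k : Type*} [Field k] (res : A →+* k) (a : GoodIdx S → k)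

/-- Over a complete local ring the operators outside the system are bijective. -/
theorem partAct_bijective_of_isAdicComplete [IsLocalRing A] [IsNoetherianRing A]
    [IsAdicComplete (maximalIdeal A) A] (hres : Function.Surjective res)
    (M : Type*) [AddCommGroup M] [Module A M] [Module.Finite A M]
    {t : MvPolynomial (GoodIdx S) A} (ht : sysEval res a t ≠ 0) :
    Function.Bijective (partAct hD ψ res a M t) := by
  classical
  refine ⟨partAct_injective hD ψ res a M ht, fun y => ?_⟩
  let abar : ℕ → k := fun ℓ => if h : ℓ.Prime ∧ ℓ ∉ S then a ⟨ℓ, h⟩ else 0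
  have habar : ∀ ℓ : GoodIdx S, abar ℓ = a ℓ := fun ℓ => dif_pos ℓ.2
  set P := Ribet.Avoid.residualIdeal res abar S with hP
  have hmem : ∀ t, t ∉ P ↔ sysEval res a t ≠ 0 := fun t => by
    rw [hP, Ribet.Avoid.residualIdeal, RingHom.mem_ker, Ribet.Avoid.evalSystem, sysEval]
    simp only [habar]
  have hker : RingHom.ker res = maximalIdeal A :=
    IsLocalRing.eq_maximalIdeal (RingHom.ker_isMaximal_of_surjective res hres)
  have hops := Ribet.Avoid.opsSurjective_of_isAdicComplete hD ψ S M P (fun c hc => by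
    by_contra h
    rw [hmem, sysEval_C] at h
    exact h (RingHom.mem_ker.1 (hker.ge hc)))
  obtain ⟨y, rfl⟩ := toPart_surjective hD ψ res a M y
  obtain ⟨x, hx⟩ := hops t ((hmem t).2 ht) (Submodule.Quotient.mk y)
  obtain ⟨x, rfl⟩ := Submodule.Quotient.mk_surjective _ x
  rw [Ribet.Avoid.locAct_mk, Submodule.Quotient.eq] at hx
  obtain ⟨t', ht', h⟩ := hx
  refine ⟨toPart hD ψ res a M x, ?_⟩
  rw [partAct_toPart, ← sub_eq_zero, ← map_sub, toPart_eq_zero]
  exact ⟨t', (hmem t').1 ht', by rw [cohAct_eq_avoidAct]; exact h⟩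

/-- The part has no torsion. -/
theorem smul_mPart_injective [IsDomain A] (ha : NonEis L S a) {c : A} (hc : c ≠ 0)
    {x : MPart hD ψ res a A} (h : c • x = 0) : x = 0 := by
  obtain ⟨y, rfl⟩ := toPart_surjective hD ψ res a A x
  rw [← map_smul, toPart_eq_zero] at h
  obtain ⟨t, ht, h⟩ := h
  rw [map_smul] at h
  obtain ⟨ℓ, hℓ, hne⟩ := ha.eis
  have hℓL : ¬ (ℓ : ℕ) ∣ L := fun h => ℓ.2.1.ne_one (by
    have h' := congrArg (ZMod.castHom h (ZMod (ℓ : ℕ))) hℓ
    rw [map_natCast, map_one, ZMod.natCast_self] at h'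
    have : Fact (ℓ : ℕ).Prime := ⟨ℓ.2.1⟩
    exact absurd h' zero_ne_one)
  set z := cohAct hD ψ S A t y
  have hz : Coh.map (Φ := chr hD ψ) (Ψ := chr hD ψ) (φ := RingHom.id A) (fun _ => rfl)
      (c • (LinearMap.id : A →ₗ[A] A)) z = c • z := by
    obtain ⟨w, hw⟩ := Ribet.Twisted.Coh.mk_surjective z
    rw [← hw, Ribet.Twisted.Coh.map_mk, ← map_smul]
    rfl
  have key := Ribet.Twisted.heckeT'_of_map_eq_zero hD ψ (RingHom.id A)
    (c • (LinearMap.id : A →ₗ[A] A)) (fun x y hxy => mul_left_cancel₀ hc hxy) z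
    (hz.trans h) (ℓ : ℕ) ℓ.2.1 hℓL
  obtain ⟨e1, e2⟩ := apply_eq_one_of_level hD ψ hℓ
  rw [e1, e2, mul_one] at key
  rw [toPart_eq_zero]
  refine ⟨(MvPolynomial.X ℓ - MvPolynomial.C (((ℓ : ℕ) : A) + 1)) * t, ?_, ?_⟩
  · rw [map_mul]
    exact mul_ne_zero (by simpa [sub_eq_zero] using hne) ht
  · rw [map_mul, Module.End.mul_apply, map_sub, LinearMap.sub_apply, cohAct_X, cohAct_C, key,
      sub_self]

/-- **The part over a complete discrete valuation ring is finite free.** -/
theorem free_mPart_of_isDomain [IsDomain A] [IsPrincipalIdealRing A] (ha : NonEis L S a) :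
    Module.Free A (MPart hD ψ res a A) ∧ Module.Finite A (MPart hD ψ res a A) := by
  have := finite_mPart hD ψ res a A
  have : IsTorsionFree A (MPart hD ψ res a A) :=
    IsTorsionFree.of_smul_eq_zero fun c x h =>
      or_iff_not_imp_left.2 fun hc => smul_mPart_injective hD ψ res a ha hc h
  exact ⟨Module.free_of_finite_type_torsion_free', inferInstance⟩

section Reduce

variable {B : Type*} [CommRing B] (φ : A →+* B) (resB : B →+* k) (hres : resB.comp φ = res)

/-- The kernel of reduction over a complete local ring. -/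
theorem mapPart_eq_zero_iff_of_isAdicComplete [IsLocalRing A] [IsNoetherianRing A]
    [IsAdicComplete (maximalIdeal A) A] (hk : Function.Surjective res)
    (hφ : Function.Surjective φ) (h2 : IsUnit (2 : A)) (h3 : Elliptic3 A L)
    (x : MPart hD ψ res a A) :
    mapPart hD ψ res a φ resB hres x = 0
      ↔ x ∈ RingHom.ker φ • (⊤ : Submodule A (MPart hD ψ res a A)) :=
  mapPart_eq_zero_iff_of_bijective hD ψ res a φ resB hres hφ h2 h3
    (fun _ ht => partAct_bijective_of_isAdicComplete hD ψ res a hk A ht) x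

/-- **A basis reduces to a basis.** -/
theorem exists_basis_mapPart [IsLocalRing A] [IsNoetherianRing A]
    [IsAdicComplete (maximalIdeal A) A] (hk : Function.Surjective res)
    (hφ : Function.Surjective φ) (h2 : IsUnit (2 : A)) (h3 : Elliptic3 A L)
    {ι : Type*} [Fintype ι] (b : Basis ι A (MPart hD ψ res a A)) :
    ∃ b' : Basis ι B (MPart hD (ψ.ringHomComp φ) resB a B),
      ∀ i, b' i = mapPart hD ψ res a φ resB hres (b i) := by
  classical
  have hli : LinearIndependent B fun i => mapPart hD ψ res a φ resB hres (b i) := by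
    rw [Fintype.linearIndependent_iff]
    intro g hg i
    choose G hG using fun j => hφ (g j)
    have h0 : mapPart hD ψ res a φ resB hres (∑ j, G j • b j) = 0 := by
      simp only [map_sum, LinearMap.map_smulₛₗ, hG]; exact hg
    rw [mapPart_eq_zero_iff_of_isAdicComplete hD ψ res a φ resB hres hk hφ h2 h3] at h0
    have hmem : (Finsupp.lapply i ∘ₗ b.repr.toLinearMap) (∑ j, G j • b j) ∈ RingHom.ker φ := by
      refine Submodule.smul_induction_on h0 (fun r hr n _ => ?_) fun x y hx hy => ?_
      · rw [map_smul, smul_eq_mul]; exact Ideal.mul_mem_right _ _ hr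
      · rw [map_add]; exact add_mem hx hy
    simp only [LinearMap.comp_apply, LinearEquiv.coe_toLinearMap, Finsupp.lapply_apply,
      Basis.repr_sum_self] at hmem
    rw [← hG i]
    exact RingHom.mem_ker.1 hmem
  have hspan : ⊤ ≤ Submodule.span B
      (Set.range fun i => mapPart hD ψ res a φ resB hres (b i)) := by
    intro w _
    obtain ⟨v, rfl⟩ := mapPart_surjective hD ψ res a φ resB hres hφ h2 h3 w
    rw [← b.sum_repr v, map_sum]
    exact sum_mem fun i _ => by
      rw [LinearMap.map_smulₛₗ]
      exact Submodule.smul_mem _ _ (Submodule.subset_span ⟨i, rfl⟩)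
  exact ⟨Basis.mk hli hspan, fun i => Basis.mk_apply hli hspan i⟩

/-- The matrices of the operators in bases matched by reduction reduce entrywise. -/
theorem toMatrix_partT_map {ι : Type*} [Fintype ι] [DecidableEq ι]
    (b : Basis ι A (MPart hD ψ res a A)) (b' : Basis ι B (MPart hD (ψ.ringHomComp φ) resB a B))
    (hb : ∀ i, b' i = mapPart hD ψ res a φ resB hres (b i)) (ℓ : ℕ) :
    (LinearMap.toMatrix b b (partT hD ψ res a A ℓ)).map φ =
      LinearMap.toMatrix b' b' (partT hD (ψ.ringHomComp φ) resB a B ℓ) := by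
  ext i j
  rw [Matrix.map_apply, LinearMap.toMatrix_apply, LinearMap.toMatrix_apply, hb j,
    ← mapPart_partT]
  conv_rhs => rw [← b.sum_repr (partT hD ψ res a A ℓ (b j))]
  simp only [map_sum, LinearMap.map_smulₛₗ, ← hb, Finsupp.finsetSum_apply, map_smul,
    Basis.repr_self, Finsupp.smul_single, Finsupp.single_apply, smul_eq_mul, mul_one,
    Finset.sum_ite_eq', Finset.mem_univ, if_true]

/-- Bases of the part over a complete discrete valuation ring and over a quotient, with matching
matrices. -/
theorem exists_compatible_basis [IsDomain A] [IsDiscreteValuationRing A]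
    [IsAdicComplete (maximalIdeal A) A] (hk : Function.Surjective res)
    (hφ : Function.Surjective φ) (h2 : IsUnit (2 : A)) (h3 : Elliptic3 A L) (ha : NonEis L S a) :
    ∃ (b : Basis (Fin (finrank A (MPart hD ψ res a A))) A (MPart hD ψ res a A))
      (b' : Basis (Fin (finrank A (MPart hD ψ res a A))) B (MPart hD (ψ.ringHomComp φ) resB a B)),
      (∀ i, b' i = mapPart hD ψ res a φ resB hres (b i)) ∧
      ∀ ℓ : ℕ, (LinearMap.toMatrix b b (partT hD ψ res a A ℓ)).map φ =
        LinearMap.toMatrix b' b' (partT hD (ψ.ringHomComp φ) resB a B ℓ) := by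
  obtain ⟨hfree, hfin⟩ := free_mPart_of_isDomain hD ψ res a ha
  obtain ⟨b', hb⟩ := exists_basis_mapPart hD ψ res a φ resB hres hk hφ h2 h3
    (Module.finBasis A (MPart hD ψ res a A))
  exact ⟨_, b', hb, toMatrix_partT_map hD ψ res a φ resB hres _ b' hb⟩

end Reduce

end Fermat.Agent.Lifting

end
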