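/-
The degeneracy maps on the parts at a non-Eisenstein system: split injectivity of `α`,
surjectivity of `α^*`.
-/
import Fermat.Agent.Lifting.CMod
import Fermat.Agent.Lifting.CDegen
import Fermat.Agent.Lifting.CIhara
import Mathlib.LinearAlgebra.Matrix.NonsingularInverse

set_option autoImplicit false

noncomputable section

namespace Fermat.Agent.Lifting

open CongruenceSubgroup
open scoped MatrixGroups
open Fermat.Agent.Ribet.Twisted (CohL heckeT' IntSys wt)

universe u

section Local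

variable {R : Type*} [CommRing R] {k : Type*} [Field k] (res : R →+* k)

theorem ker_eq_maximalIdeal_of_surjective [IsLocalRing R] (hres : Function.Surjective res) :
    RingHom.ker res = IsLocalRing.maximalIdeal R :=
  IsLocalRing.eq_maximalIdeal (RingHom.ker_isMaximal_of_surjective res hres)

/-- A map of finite free modules which is injective modulo the maximal ideal splits. -/
theorem exists_retraction_of_injective_mod [IsLocalRing R] (hres : Function.Surjective res)
    {F G : Type*} [AddCommGroup F] [Module R F] [AddCommGroup G] [Module R G]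
    [Module.Free R F] [Module.Finite R F] [Module.Free R G] [Module.Finite R G] (f : F →ₗ[R] G)
    (hf : ∀ x, f x ∈ RingHom.ker res • (⊤ : Submodule R G) →
      x ∈ RingHom.ker res • (⊤ : Submodule R F)) :
    ∃ r : G →ₗ[R] F, r ∘ₗ f = LinearMap.id := by
  classical
  haveI : Nontrivial R := res.domain_nontrivial
  let b := Module.Free.chooseBasis R F
  let c := Module.Free.chooseBasis R G
  let Mf := LinearMap.toMatrix b c f
  have hcoord : ∀ x ∈ RingHom.ker res • (⊤ : Submodule R F), ∀ i, res (b.repr x i) = 0 := by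
    intro x hx i
    refine Submodule.smul_induction_on hx (fun r hr m _ => ?_) (fun u v hu hv => ?_)
    · simp [RingHom.mem_ker.mp hr]
    · simp [hu, hv]
  have hinj : Function.Injective (Matrix.mulVecLin (Mf.map res)) := by
    rw [injective_iff_map_eq_zero]
    intro v hv
    choose w hw using fun i => hres (v i)
    set x := b.equivFun.symm w with hx
    have hwx : ⇑(b.repr x) = w := by
      rw [← b.equivFun_apply, hx, LinearEquiv.apply_symm_apply]
    have hmem : f x ∈ RingHom.ker res • (⊤ : Submodule R G) := by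
      rw [← c.sum_repr (f x)]
      refine Submodule.sum_mem _ fun j _ => Submodule.smul_mem_smul ?_ Submodule.mem_top
      rw [RingHom.mem_ker]
      have e : ⇑(c.repr (f x)) = Mf.mulVec w := by
        rw [← hwx, LinearMap.toMatrix_mulVec_repr]
      rw [e, RingHom.map_mulVec]
      have h := congrFun hv j
      rw [Matrix.mulVecLin_apply] at h
      rw [show res ∘ w = v from funext hw]
      exact h
    funext i
    rw [← hw i, ← congrFun hwx i]
    exact hcoord x (hf x hmem) i
  obtain ⟨g, hg⟩ := LinearMap.exists_leftInverse_of_injective _ (LinearMap.ker_eq_bot.mpr hinj)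
  choose Lm hLm using fun i j => hres (LinearMap.toMatrix' g i j)
  have hL : ((Matrix.of Lm) * Mf).map res = 1 := by
    rw [Matrix.map_mul, show (Matrix.of Lm).map res = LinearMap.toMatrix' g from
      Matrix.ext fun i j => hLm i j]
    rw [← LinearMap.toMatrix'_id, ← hg, LinearMap.toMatrix'_comp, ← Matrix.toLin'_apply',
      LinearMap.toMatrix'_toLin']
  have hdet : IsUnit ((Matrix.of Lm) * Mf).det := by
    by_contra hu
    have hmem : ((Matrix.of Lm) * Mf).det ∈ RingHom.ker res := by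
      rw [ker_eq_maximalIdeal_of_surjective res hres]
      exact hu
    rw [RingHom.mem_ker, RingHom.map_det, RingHom.mapMatrix_apply, hL, Matrix.det_one] at hmem
    exact one_ne_zero hmem
  refine ⟨Matrix.toLin c b (((Matrix.of Lm) * Mf)⁻¹ * Matrix.of Lm), ?_⟩
  apply (LinearMap.toMatrix b b).injective
  rw [LinearMap.toMatrix_comp b c b, LinearMap.toMatrix_toLin, LinearMap.toMatrix_id,
    Matrix.mul_assoc]
  exact Matrix.nonsing_inv_mul _ hdet

/-- A map onto a finite module which is surjective modulo the maximal ideal is surjective. -/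
theorem surjective_of_surjective_mod [IsLocalRing R] (hres : Function.Surjective res)
    {F G : Type*} [AddCommGroup F] [Module R F] [AddCommGroup G] [Module R G] [Module.Finite R G]
    (f : F →ₗ[R] G) (hf : ∀ y, ∃ x, y - f x ∈ RingHom.ker res • (⊤ : Submodule R G)) :
    Function.Surjective f := by
  rw [← LinearMap.range_eq_top]
  refine top_le_iff.mp (Submodule.le_of_le_smul_of_le_jacobson_bot (I := RingHom.ker res)
    Module.Finite.fg_top ?_ ?_)
  · rw [IsLocalRing.jacobson_eq_maximalIdeal _ bot_ne_top,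
      ker_eq_maximalIdeal_of_surjective res hres]
  · intro y _
    obtain ⟨x, hx⟩ := hf y
    exact Submodule.mem_sup.mpr ⟨f x, ⟨x, rfl⟩, y - f x, hx, add_sub_cancel _ _⟩

theorem mem_smul_top_prod (I : Ideal R) {F G : Type*} [AddCommGroup F] [Module R F]
    [AddCommGroup G] [Module R G] {x : F × G} (h1 : x.1 ∈ I • (⊤ : Submodule R F))
    (h2 : x.2 ∈ I • (⊤ : Submodule R G)) : x ∈ I • (⊤ : Submodule R (F × G)) := by
  have e1 : LinearMap.inl R F G x.1 ∈ I • (⊤ : Submodule R (F × G)) := by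
    refine Submodule.smul_mono le_rfl le_top (?_ : _ ∈ I • Submodule.map (LinearMap.inl R F G) ⊤)
    rw [← Submodule.map_smul'']
    exact ⟨_, h1, rfl⟩
  have e2 : LinearMap.inr R F G x.2 ∈ I • (⊤ : Submodule R (F × G)) := by
    refine Submodule.smul_mono le_rfl le_top (?_ : _ ∈ I • Submodule.map (LinearMap.inr R F G) ⊤)
    rw [← Submodule.map_smul'']
    exact ⟨_, h2, rfl⟩
  simpa using Submodule.add_mem _ e1 e2

end Local

variable {A : Type u} [CommRing A] {L D q : ℕ} [NeZero L] [Fact q.Prime] (hD : D ∣ L)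
  (ψ : DirichletCharacter A D) {S : Finset ℕ} {k : Type*} [Field k] (res : A →+* k)
  (a : GoodIdx S → k) (M : Type*) [AddCommGroup M] [Module A M] (hqL : ¬ q ∣ L) (hqS : q ∈ S)

theorem ne_of_goodIdx {q : ℕ} (hqS : q ∈ S) (ℓ : GoodIdx S) : (ℓ : ℕ) ≠ q :=
  fun h => ℓ.2.2 (h ▸ hqS)

variable [NeZero (L * q)]

include hqS in
theorem cohKer_le_comap_degRes :
    cohKer hD ψ res a M ≤ (cohKer (hDq hD q) ψ res a M).comap (degRes hD ψ M) := by
  rintro x ⟨t, ht, hx⟩
  refine ⟨t, ht, ?_⟩
  rw [← cohAct_intertwine (degRes hD ψ M)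
    (fun ℓ y => degRes_heckeT' hD ψ (ne_of_goodIdx hqS ℓ) y), hx, map_zero]

include hqS in
theorem cohKer_le_comap_degTw :
    cohKer hD ψ res a M ≤ (cohKer (hDq hD q) ψ res a M).comap (degTw hD ψ M hqL) := by
  rintro x ⟨t, ht, hx⟩
  refine ⟨t, ht, ?_⟩
  rw [← cohAct_intertwine (degTw hD ψ M hqL)
    (fun ℓ y => degTw_heckeT' hD ψ hqL (ne_of_goodIdx hqS ℓ) y), hx, map_zero]

include hqS in
theorem cohKer_le_comap_degCor₁ :
    cohKer (hDq hD q) ψ res a M ≤ (cohKer hD ψ res a M).comap (degCor₁ hD ψ M hqL) := by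
  rintro x ⟨t, ht, hx⟩
  refine ⟨t, ht, ?_⟩
  rw [← cohAct_intertwine (degCor₁ hD ψ M hqL) (fun ℓ y => congrArg Prod.fst
    (cohLower_heckeT' hD ψ hqL (ne_of_goodIdx hqS ℓ) y)), hx, map_zero]

include hqS in
theorem cohKer_le_comap_degCor₂ :
    cohKer (hDq hD q) ψ res a M ≤ (cohKer hD ψ res a M).comap (degCor₂ hD ψ M hqL) := by
  rintro x ⟨t, ht, hx⟩
  refine ⟨t, ht, ?_⟩
  rw [← cohAct_intertwine (degCor₂ hD ψ M hqL) (fun ℓ y => congrArg Prod.snd
    (cohLower_heckeT' hD ψ hqL (ne_of_goodIdx hqS ℓ) y)), hx, map_zero]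

/-- **`α`** on the parts at the system. -/
def partRaise : MPart hD ψ res a M × MPart hD ψ res a M →ₗ[A] MPart (hDq hD q) ψ res a M :=
  (Submodule.mapQ _ _ (degRes hD ψ M) (cohKer_le_comap_degRes hD ψ res a M hqS)).coprod
    (Submodule.mapQ _ _ (degTw hD ψ M hqL) (cohKer_le_comap_degTw hD ψ res a M hqL hqS))

/-- **`α^*`** on the parts at the system. -/
def partLower : MPart (hDq hD q) ψ res a M →ₗ[A] MPart hD ψ res a M × MPart hD ψ res a M :=
  (Submodule.mapQ _ _ (degCor₁ hD ψ M hqL) (cohKer_le_comap_degCor₁ hD ψ res a M hqL hqS)).prod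
    (Submodule.mapQ _ _ (degCor₂ hD ψ M hqL) (cohKer_le_comap_degCor₂ hD ψ res a M hqL hqS))

theorem partRaise_toPart (x y : CohL hD ψ M) :
    partRaise hD ψ res a M hqL hqS (toPart hD ψ res a M x, toPart hD ψ res a M y)
      = toPart (hDq hD q) ψ res a M (cohRaise hD ψ M hqL (x, y)) := rfl

theorem partLower_toPart (z : CohL (hDq hD q) ψ M) :
    partLower hD ψ res a M hqL hqS (toPart (hDq hD q) ψ res a M z)
      = (toPart hD ψ res a M (cohLower hD ψ M hqL z).1,
          toPart hD ψ res a M (cohLower hD ψ M hqL z).2) := rfl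

/-- **`α^* α = (q + 1, T'_q; T'_q, q + 1)`.** -/
theorem partLower_partRaise (x y : MPart hD ψ res a M) :
    partLower hD ψ res a M hqL hqS (partRaise hD ψ res a M hqL hqS (x, y))
      = (((q : A) + 1) • x + partT hD ψ res a M q y,
          partT hD ψ res a M q x + ((q : A) + 1) • y) := by
  obtain ⟨x, rfl⟩ := toPart_surjective hD ψ res a M x
  obtain ⟨y, rfl⟩ := toPart_surjective hD ψ res a M y
  rw [partRaise_toPart, partLower_toPart, cohLower_cohRaise]
  rfl

theorem partRaise_partT {ℓ : ℕ} (hℓq : ℓ ≠ q) (x y : MPart hD ψ res a M) :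
    partRaise hD ψ res a M hqL hqS (partT hD ψ res a M ℓ x, partT hD ψ res a M ℓ y)
      = partT (hDq hD q) ψ res a M ℓ (partRaise hD ψ res a M hqL hqS (x, y)) := by
  obtain ⟨x, rfl⟩ := toPart_surjective hD ψ res a M x
  obtain ⟨y, rfl⟩ := toPart_surjective hD ψ res a M y
  rw [partT_toPart, partT_toPart, partRaise_toPart, cohRaise_heckeT' hD ψ hqL hℓq]
  rfl

theorem partLower_partT {ℓ : ℕ} (hℓq : ℓ ≠ q) (z : MPart (hDq hD q) ψ res a M) :
    partLower hD ψ res a M hqL hqS (partT (hDq hD q) ψ res a M ℓ z)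
      = (partT hD ψ res a M ℓ (partLower hD ψ res a M hqL hqS z).1,
          partT hD ψ res a M ℓ (partLower hD ψ res a M hqL hqS z).2) := by
  obtain ⟨z, rfl⟩ := toPart_surjective (hDq hD q) ψ res a M z
  rw [partT_toPart, partLower_toPart, cohLower_heckeT' hD ψ hqL hℓq]
  rfl

/-- On the kernel of `α^*`, `U'_q` is an involution. -/
theorem partT_sq_of_partLower {z : MPart (hDq hD q) ψ res a M}
    (hz : partLower hD ψ res a M hqL hqS z = 0) :
    partT (hDq hD q) ψ res a M q (partT (hDq hD q) ψ res a M q z) = z := by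
  obtain ⟨z, rfl⟩ := toPart_surjective (hDq hD q) ψ res a M z
  rw [partLower_toPart, Prod.mk_eq_zero, toPart_eq_zero, toPart_eq_zero] at hz
  obtain ⟨⟨t₁, ht₁, h₁⟩, ⟨t₂, ht₂, h₂⟩⟩ := hz
  have hne : sysEval res a (t₁ * t₂) ≠ 0 := by
    rw [map_mul]; exact mul_ne_zero ht₁ ht₂
  set w := cohAct (hDq hD q) ψ S M (t₁ * t₂) z with hw
  have hl : cohLower hD ψ M hqL w = 0 := by
    refine Prod.ext ?_ ?_
    · show degCor₁ hD ψ M hqL w = 0
      rw [hw, cohAct_intertwine (degCor₁ hD ψ M hqL) (fun ℓ y => congrArg Prod.fst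
        (cohLower_heckeT' hD ψ hqL (ne_of_goodIdx hqS ℓ) y)), mul_comm, map_mul,
        Module.End.mul_apply]
      rw [show degCor₁ hD ψ M hqL z = (cohLower hD ψ M hqL z).1 from rfl, h₁, map_zero]
    · show degCor₂ hD ψ M hqL w = 0
      rw [hw, cohAct_intertwine (degCor₂ hD ψ M hqL) (fun ℓ y => congrArg Prod.snd
        (cohLower_heckeT' hD ψ hqL (ne_of_goodIdx hqS ℓ) y)), map_mul, Module.End.mul_apply]
      rw [show degCor₂ hD ψ M hqL z = (cohLower hD ψ M hqL z).2 from rfl, h₂, map_zero]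
  have hu := heckeT'_sq_of_cohLower hD ψ hqL hl
  refine partAct_injective (hDq hD q) ψ res a M hne ?_
  rw [partT_toPart, partT_toPart, partAct_toPart, partAct_toPart]
  refine congrArg _ ?_
  have hc := cohAct_comm (hDq hD q) ψ S M q (t₁ * t₂)
  have e : ∀ y, cohAct (hDq hD q) ψ S M (t₁ * t₂) (heckeT' (hDq hD q) ψ M q y)
      = heckeT' (hDq hD q) ψ M q (cohAct (hDq hD q) ψ S M (t₁ * t₂) y) :=
    fun y => (LinearMap.congr_fun hc.eq y).symm
  rw [e, e]
  exact hu

section Residual

variable {B : Type*} [CommRing B] (φ : A →+* B)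

/-- Change of coefficients commutes with the operator of an integral system. -/
theorem cohMap_intSys_op {L' : ℕ} (hD' : D ∣ L') {I : Type*} [Fintype I] {m : I → Ribet.Twisted.Mat}
    (hs : IntSys D L L' m) (x : CohL hD ψ A) :
    cohMap hD' ψ φ (hs.op hD hD' ψ A x)
      = hs.op hD hD' (ψ.ringHomComp φ) B (cohMap hD ψ φ x) := by
  have hp := (hs.opData hD hD' ψ).pushforward φ (Ribet.Twisted.chr_ringHomComp φ hD ψ)
    (Ribet.Twisted.chr_ringHomComp φ hD' ψ)
  rw [IntSys.op, IntSys.op, ← Ribet.Twisted.op_congr hp (hs.opData hD hD' (ψ.ringHomComp φ)) rfl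
    (funext fun i => by simp [wt, MulChar.inv_apply]) B]
  exact Ribet.Twisted.OpData.map_op _ hp _ _ _ x

omit [NeZero (L * q)] in
theorem cohMap_cohRaise (x y : CohL hD ψ A) :
    cohMap (hDq hD q) ψ φ (cohRaise hD ψ A hqL (x, y))
      = cohRaise hD (ψ.ringHomComp φ) B hqL (cohMap hD ψ φ x, cohMap hD ψ φ y) := by
  simp only [cohRaise, degRes, degTw, LinearMap.coprod_apply, map_add, cohMap_intSys_op]

omit [NeZero (L * q)] in
theorem cohMap_degCor₁ (z : CohL (hDq hD q) ψ A) :
    cohMap hD ψ φ (degCor₁ hD ψ A hqL z)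
      = degCor₁ hD (ψ.ringHomComp φ) B hqL (cohMap (hDq hD q) ψ φ z) :=
  haveI : NeZero (L * q) := ⟨Nat.mul_ne_zero (NeZero.ne L) (Fact.out : q.Prime).ne_zero⟩
  cohMap_intSys_op (hDq hD q) ψ φ hD _ z

omit [NeZero (L * q)] in
theorem cohMap_degCor₂ (z : CohL (hDq hD q) ψ A) :
    cohMap hD ψ φ (degCor₂ hD ψ A hqL z)
      = degCor₂ hD (ψ.ringHomComp φ) B hqL (cohMap (hDq hD q) ψ φ z) :=
  haveI : NeZero (L * q) := ⟨Nat.mul_ne_zero (NeZero.ne L) (Fact.out : q.Prime).ne_zero⟩
  cohMap_intSys_op (hDq hD q) ψ φ hD _ z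

variable (resB : B →+* k) (hres : resB.comp φ = res)

theorem mapPart_partRaise (x y : MPart hD ψ res a A) :
    mapPart (hDq hD q) ψ res a φ resB hres (partRaise hD ψ res a A hqL hqS (x, y))
      = partRaise hD (ψ.ringHomComp φ) resB a B hqL hqS
          (mapPart hD ψ res a φ resB hres x, mapPart hD ψ res a φ resB hres y) := by
  obtain ⟨x, rfl⟩ := toPart_surjective hD ψ res a A x
  obtain ⟨y, rfl⟩ := toPart_surjective hD ψ res a A y
  rw [partRaise_toPart, mapPart_toPart, mapPart_toPart, mapPart_toPart, partRaise_toPart,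
    cohMap_cohRaise]

theorem mapPart_partLower (z : MPart (hDq hD q) ψ res a A) :
    partLower hD (ψ.ringHomComp φ) resB a B hqL hqS (mapPart (hDq hD q) ψ res a φ resB hres z)
      = (mapPart hD ψ res a φ resB hres (partLower hD ψ res a A hqL hqS z).1,
          mapPart hD ψ res a φ resB hres (partLower hD ψ res a A hqL hqS z).2) := by
  obtain ⟨z, rfl⟩ := toPart_surjective (hDq hD q) ψ res a A z
  rw [mapPart_toPart, partLower_toPart, partLower_toPart, mapPart_toPart, mapPart_toPart]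
  refine Prod.ext ?_ ?_
  · exact congrArg (toPart hD (ψ.ringHomComp φ) resB a B) (cohMap_degCor₁ hD ψ hqL φ z).symm
  · exact congrArg (toPart hD (ψ.ringHomComp φ) resB a B) (cohMap_degCor₂ hD ψ hqL φ z).symm

end Residual

omit [NeZero L] [Fact q.Prime] in
theorem NonEis.of_mul (ha : NonEis (L * q) S a) : NonEis L S a where
  eis := by
    obtain ⟨ℓ, h, hne⟩ := ha.eis
    refine ⟨ℓ, ?_, hne⟩
    have := congrArg (ZMod.castHom (Nat.dvd_mul_right L q) (ZMod L)) h
    rwa [map_natCast, map_one] at this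
  ihara := by
    obtain ⟨ℓ, h, hne⟩ := ha.ihara
    exact ⟨ℓ, fun h' => h (h'.mul_right q), hne⟩

section OverField

variable (ψ₀ : DirichletCharacter k D) (hψ₀ : ψ₀ = 1)
include hψ₀

theorem partRaise_injective_field (h2 : (2 : k) ≠ 0) (h3 : Elliptic3 k L)
    (ha : NonEis (L * q) S a) :
    Function.Injective (partRaise hD ψ₀ (RingHom.id k) a k hqL hqS) := by
  subst hψ₀
  haveI : NeZero q := ⟨(Fact.out : q.Prime).ne_zero⟩
  obtain ⟨t, ht, hker⟩ := exists_kills_ker_cohRaise hD hqL a hqS h2 h3 ha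
  rw [injective_iff_map_eq_zero]
  rintro ⟨x, y⟩ hxy
  obtain ⟨x, rfl⟩ := toPart_surjective hD 1 (RingHom.id k) a k x
  obtain ⟨y, rfl⟩ := toPart_surjective hD 1 (RingHom.id k) a k y
  rw [partRaise_toPart, toPart_eq_zero] at hxy
  obtain ⟨s, hs, hsz⟩ := hxy
  have h : cohRaise hD 1 k hqL (cohAct hD 1 S k s x, cohAct hD 1 S k s y) = 0 := by
    rw [← hsz]
    simp only [cohRaise, LinearMap.coprod_apply, map_add]
    rw [cohAct_intertwine (degRes hD (1 : DirichletCharacter k D) k)
        (fun ℓ w => degRes_heckeT' hD 1 (ne_of_goodIdx hqS ℓ) w),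
      cohAct_intertwine (degTw hD (1 : DirichletCharacter k D) k hqL)
        (fun ℓ w => degTw_heckeT' hD 1 hqL (ne_of_goodIdx hqS ℓ) w)]
  obtain ⟨h1, h2'⟩ := hker _ _ h
  have hne : sysEval (RingHom.id k) a (t * s) ≠ 0 := by rw [map_mul]; exact mul_ne_zero ht hs
  refine Prod.ext ((toPart_eq_zero _ _ _ _ _).mpr ⟨t * s, hne, ?_⟩)
    ((toPart_eq_zero _ _ _ _ _).mpr ⟨t * s, hne, ?_⟩)
  · rw [map_mul, Module.End.mul_apply, h1]
  · rw [map_mul, Module.End.mul_apply, h2']

theorem partLower_surjective_field (h2 : (2 : k) ≠ 0) (h3 : Elliptic3 k L)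
    (ha : NonEis (L * q) S a) :
    Function.Surjective (partLower hD ψ₀ (RingHom.id k) a k hqL hqS) := by
  subst hψ₀
  haveI : NeZero q := ⟨(Fact.out : q.Prime).ne_zero⟩
  obtain ⟨t, ht, him⟩ := exists_mem_range_cohLower hD hqL a h2 h3 ha
  have hbij := partAct_bijective hD (1 : DirichletCharacter k D) (RingHom.id k) a k ht
  rintro ⟨x, y⟩
  obtain ⟨x, rfl⟩ := hbij.2 x
  obtain ⟨y, rfl⟩ := hbij.2 y
  obtain ⟨x, rfl⟩ := toPart_surjective hD 1 (RingHom.id k) a k x
  obtain ⟨y, rfl⟩ := toPart_surjective hD 1 (RingHom.id k) a k y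
  obtain ⟨z, hz⟩ := him x y
  refine ⟨toPart (hDq hD q) 1 (RingHom.id k) a k z, ?_⟩
  rw [partLower_toPart, hz, partAct_toPart, partAct_toPart]

end OverField

/-- **`α` is split injective.** -/
theorem exists_retraction_partRaise [IsLocalRing A] [IsArtinianRing A]
    (hres : Function.Surjective res) (hψ : ψ.ringHomComp res = 1) (h2 : IsUnit (2 : A))
    (h3 : Elliptic3 A L) (ha : NonEis (L * q) S a) :
    ∃ r : MPart (hDq hD q) ψ res a A →ₗ[A] MPart hD ψ res a A × MPart hD ψ res a A,
      r ∘ₗ partRaise hD ψ res a A hqL hqS = LinearMap.id := by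
  haveI := free_mPart hD ψ res a h2 h3 (NonEis.of_mul a ha)
  haveI := free_mPart (hDq hD q) ψ res a h2 (h3.of_dvd (Nat.dvd_mul_right L q)) ha
  haveI := finite_mPart hD ψ res a A
  haveI := finite_mPart (hDq hD q) ψ res a A
  have h2k : (2 : k) ≠ 0 := by
    have h := h2.map res
    rw [map_ofNat] at h
    exact h.ne_zero
  have hc : (RingHom.id k).comp res = res := RingHom.id_comp res
  refine exists_retraction_of_injective_mod res hres _ fun x hx => ?_
  obtain ⟨x, y⟩ := x
  have h := (mapPart_eq_zero_iff (hDq hD q) ψ res a res (RingHom.id k) hc hres h2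
    (h3.of_dvd (Nat.dvd_mul_right L q)) _).mpr hx
  rw [mapPart_partRaise] at h
  have h0 : (mapPart hD ψ res a res (RingHom.id k) hc x,
      mapPart hD ψ res a res (RingHom.id k) hc y) = 0 :=
    partRaise_injective_field hD a hqL hqS _ hψ h2k (h3.map res) ha (by rw [h, map_zero])
  exact mem_smul_top_prod _
    ((mapPart_eq_zero_iff hD ψ res a res _ hc hres h2 h3 x).mp (congrArg Prod.fst h0))
    ((mapPart_eq_zero_iff hD ψ res a res _ hc hres h2 h3 y).mp (congrArg Prod.snd h0))

/-- **`α^*` is surjective**, with a section. -/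
theorem exists_section_partLower [IsLocalRing A] [IsArtinianRing A]
    (hres : Function.Surjective res) (hψ : ψ.ringHomComp res = 1) (h2 : IsUnit (2 : A))
    (h3 : Elliptic3 A L) (ha : NonEis (L * q) S a) :
    ∃ s : MPart hD ψ res a A × MPart hD ψ res a A →ₗ[A] MPart (hDq hD q) ψ res a A,
      partLower hD ψ res a A hqL hqS ∘ₗ s = LinearMap.id := by
  haveI := free_mPart hD ψ res a h2 h3 (NonEis.of_mul a ha)
  haveI := finite_mPart hD ψ res a A
  have h2k : (2 : k) ≠ 0 := by
    have h := h2.map res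
    rw [map_ofNat] at h
    exact h.ne_zero
  have hc : (RingHom.id k).comp res = res := RingHom.id_comp res
  have h3q := h3.of_dvd (Nat.dvd_mul_right L q)
  refine Module.projective_lifting_property _ _
    (surjective_of_surjective_mod res hres _ fun y => ?_)
  obtain ⟨z', hz'⟩ := partLower_surjective_field hD a hqL hqS _ hψ h2k (h3.map res) ha
    (mapPart hD ψ res a res (RingHom.id k) hc y.1, mapPart hD ψ res a res (RingHom.id k) hc y.2)
  obtain ⟨z, rfl⟩ :=
    mapPart_surjective (hDq hD q) ψ res a res (RingHom.id k) hc hres h2 h3q z'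
  rw [mapPart_partLower, Prod.mk.injEq] at hz'
  refine ⟨z, mem_smul_top_prod _ ?_ ?_⟩
  · refine (mapPart_eq_zero_iff hD ψ res a res _ hc hres h2 h3 _).mp ?_
    rw [Prod.fst_sub, map_sub, hz'.1, sub_self]
  · refine (mapPart_eq_zero_iff hD ψ res a res _ hc hres h2 h3 _).mp ?_
    rw [Prod.snd_sub, map_sub, hz'.2, sub_self]

end Fermat.Agent.Lifting
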