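import Mathlib

/-!
# Patching by compactness

Let `S` be a complete noetherian local ring with finite residue field and `U` an ultrafilter on `ℕ`
finer than `atTop`.  Every sequence `x n : S ⧸ m ^ n` has a limit `patchLim U x : S` along `U`, and
`patchLim U` is a ring homomorphism `(∀ n, S ⧸ m ^ n) →+* S`.  Applied entrywise this turns a family
of finite free modules with operators over the `S ⧸ m ^ n` into a finite free module with operators
over `S` satisfying the same relations.
-/

set_option autoImplicit false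

noncomputable section

namespace Fermat.Agent.Lifting.DLimit

open IsLocalRing Filter

/-- The finite level `S ⧸ m ^ n`. -/
abbrev Lvl (S : Type*) [CommRing S] [IsLocalRing S] (n : ℕ) : Type _ :=
  S ⧸ maximalIdeal S ^ n

variable {S : Type*} [CommRing S] [IsLocalRing S] [IsNoetherianRing S]

theorem finite_lvl [Finite (ResidueField S)] (n : ℕ) : Finite (Lvl S n) :=
  IsLocalRing.finite_quotient_iff.mpr ⟨n, le_rfl⟩

omit [IsNoetherianRing S] in
/-- A bounded sequence of natural numbers is eventually constant along an ultrafilter. -/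
theorem exists_eventually_eq (U : Ultrafilter ℕ) {D : ℕ → ℕ} {B : ℕ}
    (h : ∀ᶠ n in (U : Filter ℕ), D n ≤ B) : ∃ d ≤ B, ∀ᶠ n in (U : Filter ℕ), D n = d := by
  obtain ⟨d, hd, hU⟩ := Ultrafilter.eq_pure_of_finite_mem (f := U.map D) (Set.finite_Iic B) h
  refine ⟨d, hd, ?_⟩
  have : {d} ∈ U.map D := by rw [hU]; exact Ultrafilter.mem_pure.mpr rfl
  exact this

/-- An ultrafilter finer than `atTop`. -/
def someUltrafilter : Ultrafilter ℕ := Ultrafilter.of atTop

theorem someUltrafilter_le : (someUltrafilter : Filter ℕ) ≤ atTop := Ultrafilter.of_le _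

/-- An ultrafilter finer than `atTop` containing a given infinite set. -/
theorem exists_ultrafilter_le_atTop {I : Set ℕ} (hI : I.Infinite) :
    ∃ U : Ultrafilter ℕ, (U : Filter ℕ) ≤ atTop ∧ I ∈ U := by
  have : (atTop ⊓ 𝓟 I : Filter ℕ).NeBot :=
    frequently_mem_iff_neBot.mp (Nat.frequently_atTop_iff_infinite.mpr hI)
  exact ⟨Ultrafilter.of (atTop ⊓ 𝓟 I), (Ultrafilter.of_le _).trans inf_le_left,
    (Ultrafilter.of_le _).trans inf_le_right (mem_principal_self I)⟩

variable [IsAdicComplete (maximalIdeal S) S] [Finite (ResidueField S)]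

section SeqLim

variable (U : Ultrafilter ℕ)

theorem exists_seqLim (y : ℕ → S) :
    ∃ L : S, ∀ k, ∀ᶠ n in (U : Filter ℕ), y n - L ∈ maximalIdeal S ^ k := by
  have hc : ∀ k, ∃ f : S, ∀ᶠ n in (U : Filter ℕ), y n - f ∈ maximalIdeal S ^ k := by
    intro k
    have := finite_lvl (S := S) k
    obtain ⟨c, hc⟩ :=
      Ultrafilter.eq_pure_of_finite (U.map fun n ↦ Ideal.Quotient.mk (maximalIdeal S ^ k) (y n))
    obtain ⟨f, rfl⟩ := Ideal.Quotient.mk_surjective c
    have hmem : {Ideal.Quotient.mk (maximalIdeal S ^ k) f} ∈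
        U.map fun n ↦ Ideal.Quotient.mk (maximalIdeal S ^ k) (y n) := by
      rw [hc]; exact Ultrafilter.mem_pure.mpr rfl
    refine ⟨f, Filter.mem_of_superset hmem fun n hn ↦ ?_⟩
    exact Ideal.Quotient.eq.mp hn
  choose f hf using hc
  obtain ⟨L, hL⟩ := IsPrecomplete.prec (I := maximalIdeal S) inferInstance (f := f) (by
    intro a b hab
    rw [smul_eq_mul, Ideal.mul_top, SModEq.sub_mem]
    obtain ⟨n, h1, h2⟩ := ((hf a).and (hf b)).exists
    have h2' := Ideal.pow_le_pow_right hab h2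
    simpa using Ideal.sub_mem _ h2' h1)
  refine ⟨L, fun k ↦ (hf k).mono fun n hn ↦ ?_⟩
  have hk := hL k
  rw [smul_eq_mul, Ideal.mul_top, SModEq.sub_mem] at hk
  simpa using Ideal.add_mem _ hn hk

omit [IsNoetherianRing S] [Finite (ResidueField S)] in
theorem eq_of_forall_sub_mem {a b : S} (h : ∀ k, a - b ∈ maximalIdeal S ^ k) : a = b := by
  refine IsHausdorff.eq_iff_smodEq (I := maximalIdeal S) |>.mpr fun k ↦ ?_
  rw [smul_eq_mul, Ideal.mul_top, SModEq.sub_mem]
  exact h k

/-- The limit along `U` of a sequence in `S`. -/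
def seqLim (y : ℕ → S) : S := (exists_seqLim U y).choose

theorem seqLim_spec (y : ℕ → S) (k : ℕ) :
    ∀ᶠ n in (U : Filter ℕ), y n - seqLim U y ∈ maximalIdeal S ^ k :=
  (exists_seqLim U y).choose_spec k

theorem seqLim_eq {y : ℕ → S} {L : S}
    (h : ∀ k, ∀ᶠ n in (U : Filter ℕ), y n - L ∈ maximalIdeal S ^ k) : seqLim U y = L := by
  refine eq_of_forall_sub_mem fun k ↦ ?_
  obtain ⟨n, h1, h2⟩ := ((seqLim_spec U y k).and (h k)).exists
  simpa using Ideal.sub_mem _ h2 h1

end SeqLim

section PatchLim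

variable (U : Ultrafilter ℕ) (hU : (U : Filter ℕ) ≤ atTop)

/-- The limit along `U` of a sequence of elements of the finite levels. -/
def patchLimFun (x : ∀ n, Lvl S n) : S := seqLim U fun n ↦ Quotient.out (x n)

include hU in
theorem patchLimFun_eq {x : ∀ n, Lvl S n} {y : ℕ → S} {L : S}
    (hy : ∀ᶠ n in (U : Filter ℕ), Ideal.Quotient.mk _ (y n) = x n)
    (h : ∀ k, ∀ᶠ n in (U : Filter ℕ), y n - L ∈ maximalIdeal S ^ k) : patchLimFun U x = L := by
  refine seqLim_eq U fun k ↦ ?_
  filter_upwards [hy, h k, hU (eventually_ge_atTop k)] with n h1 h2 h3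
  have h4 : Quotient.out (x n) - y n ∈ maximalIdeal S ^ n := by
    rw [← Ideal.Quotient.eq, h1]
    exact Quotient.out_eq (x n)
  simpa using Ideal.add_mem _ (Ideal.pow_le_pow_right h3 h4) h2

omit [IsAdicComplete (maximalIdeal S) S] [Finite (ResidueField S)] [IsNoetherianRing S] in
theorem mk_out_eq {n : ℕ} (a : Lvl S n) : Ideal.Quotient.mk _ (Quotient.out a) = a :=
  Quotient.out_eq a

/-- The patching homomorphism `(∀ n, S ⧸ m ^ n) →+* S`. -/
def patchLim : (∀ n, Lvl S n) →+* S where
  toFun := patchLimFun U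
  map_one' := patchLimFun_eq U hU (y := fun _ ↦ 1) (.of_forall fun _ ↦ map_one _)
    fun k ↦ .of_forall fun _ ↦ by simp
  map_zero' := patchLimFun_eq U hU (y := fun _ ↦ 0) (.of_forall fun _ ↦ map_zero _)
    fun k ↦ .of_forall fun _ ↦ by simp
  map_add' a b := patchLimFun_eq U hU
    (y := fun n ↦ Quotient.out (a n) + Quotient.out (b n))
    (.of_forall fun n ↦ by rw [map_add, mk_out_eq, mk_out_eq]; rfl)
    fun k ↦ by
      filter_upwards [seqLim_spec U (fun n ↦ Quotient.out (a n)) k,
        seqLim_spec U (fun n ↦ Quotient.out (b n)) k] with n ha hb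
      have := Ideal.add_mem _ ha hb
      rwa [sub_add_sub_comm] at this
  map_mul' a b := patchLimFun_eq U hU
    (y := fun n ↦ Quotient.out (a n) * Quotient.out (b n))
    (.of_forall fun n ↦ by rw [map_mul, mk_out_eq, mk_out_eq]; rfl)
    fun k ↦ by
      filter_upwards [seqLim_spec U (fun n ↦ Quotient.out (a n)) k,
        seqLim_spec U (fun n ↦ Quotient.out (b n)) k] with n ha hb
      have := Ideal.add_mem _ (Ideal.mul_mem_right (Quotient.out (b n)) _ ha)
        (Ideal.mul_mem_left _ (patchLimFun U a) hb)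
      convert! this using 1
      simp only [patchLimFun]
      ring

theorem patchLim_eq_of_lift {x : ∀ n, Lvl S n} {y : ℕ → S} {L : S}
    (hy : ∀ᶠ n in (U : Filter ℕ), Ideal.Quotient.mk _ (y n) = x n)
    (h : ∀ k, ∀ᶠ n in (U : Filter ℕ), y n - L ∈ maximalIdeal S ^ k) : patchLim U hU x = L :=
  patchLimFun_eq U hU hy h

theorem patchLim_mk (y : ℕ → S) :
    patchLim U hU (fun n ↦ Ideal.Quotient.mk _ (y n)) = seqLim U y :=
  patchLim_eq_of_lift U hU (.of_forall fun _ ↦ rfl) (seqLim_spec U y)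

theorem patchLim_const (s : S) : patchLim U hU (fun _ ↦ Ideal.Quotient.mk _ s) = s :=
  patchLim_eq_of_lift U hU (y := fun _ ↦ s) (.of_forall fun _ ↦ rfl)
    fun k ↦ .of_forall fun _ ↦ by simp

theorem patchLim_congr {x x' : ∀ n, Lvl S n} (h : ∀ᶠ n in (U : Filter ℕ), x n = x' n) :
    patchLim U hU x = patchLim U hU x' :=
  patchLim_eq_of_lift U hU (y := fun n ↦ Quotient.out (x' n))
    (h.mono fun n hn ↦ by rw [mk_out_eq, hn]) (seqLim_spec U fun n ↦ Quotient.out (x' n))

/-- The limit is congruent to the terms modulo every power of the maximal ideal. -/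
theorem patchLim_spec (x : ∀ n, Lvl S n) (k : ℕ) :
    ∀ᶠ n in (U : Filter ℕ), ∃ y : S, Ideal.Quotient.mk _ y = x n ∧
      y - patchLim U hU x ∈ maximalIdeal S ^ k :=
  (seqLim_spec U (fun n ↦ Quotient.out (x n)) k).mono fun n hn ↦
    ⟨Quotient.out (x n), mk_out_eq _, hn⟩

/-- A ring homomorphism killing a power of the maximal ideal sees the limit at almost every
level. -/
theorem map_patchLim {T : Type*} [Ring T] (π : S →+* T) {k : ℕ}
    (hπ : ∀ s ∈ maximalIdeal S ^ k, π s = 0) (x : ∀ n, Lvl S n) :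
    ∀ᶠ n in (U : Filter ℕ), ∀ y : S, Ideal.Quotient.mk _ y = x n →
      π y = π (patchLim U hU x) := by
  filter_upwards [patchLim_spec U hU x k, hU (eventually_ge_atTop k)] with n hn hk y hy
  obtain ⟨z, hz, hzL⟩ := hn
  have h1 : y - z ∈ maximalIdeal S ^ k :=
    Ideal.pow_le_pow_right hk (Ideal.Quotient.eq.mp (hy.trans hz.symm))
  rw [← sub_eq_zero, ← map_sub]
  have := hπ _ (Ideal.add_mem _ h1 hzL)
  simpa using this

/-- Ideals of `S` are closed: the limit lies in `J` if almost every term lies in the image of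
`J`. -/
theorem patchLim_mem (J : Ideal S) {x : ∀ n, Lvl S n}
    (h : ∀ᶠ n in (U : Filter ℕ), x n ∈ J.map (Ideal.Quotient.mk _)) : patchLim U hU x ∈ J := by
  have hk : ∀ k, patchLim U hU x ∈ J ⊔ maximalIdeal S ^ k := by
    intro k
    obtain ⟨n, ⟨⟨y, hy, hyL⟩, hxn⟩, hkn⟩ :=
      (((patchLim_spec U hU x k).and h).and (hU (eventually_ge_atTop k))).exists
    obtain ⟨j, hj, hjx⟩ := (Ideal.mem_map_iff_of_surjective _ Ideal.Quotient.mk_surjective).mp hxn
    have h1 : y - j ∈ maximalIdeal S ^ k :=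
      Ideal.pow_le_pow_right hkn (Ideal.Quotient.eq.mp (hy.trans hjx.symm))
    have := Submodule.add_mem_sup hj (Ideal.sub_mem _ h1 hyL)
    simpa using this
  rw [← Ideal.Quotient.eq_zero_iff_mem]
  by_cases hJ : J = ⊤
  · rw [Ideal.Quotient.eq_zero_iff_mem, hJ]; exact Submodule.mem_top
  have : Nontrivial (S ⧸ J) := Ideal.Quotient.nontrivial_iff.mpr hJ
  have : IsLocalRing (S ⧸ J) := .of_surjective' _ Ideal.Quotient.mk_surjective
  have hbot := Ideal.iInf_pow_eq_bot_of_isLocalRing
    (I := (maximalIdeal (S ⧸ J))) (IsLocalRing.maximalIdeal.isMaximal _).ne_top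
  rw [← Ideal.mem_bot, ← hbot, Ideal.mem_iInf]
  intro k
  have h2 := Ideal.mem_map_of_mem (Ideal.Quotient.mk J) (hk k)
  rw [Ideal.map_sup, Ideal.map_quotient_self, bot_sup_eq, Ideal.map_pow] at h2
  refine Ideal.pow_right_mono (Ideal.map_le_iff_le_comap.mpr fun a ha ↦ ?_) k h2
  rw [Ideal.mem_comap, IsLocalRing.mem_maximalIdeal, mem_nonunits_iff]
  intro hu
  obtain ⟨b, hb⟩ := hu.exists_left_inv
  obtain ⟨b, rfl⟩ := Ideal.Quotient.mk_surjective b
  rw [← map_mul, ← map_one (Ideal.Quotient.mk J), Ideal.Quotient.eq] at hb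
  have h1 : b * a - 1 ∈ maximalIdeal S := IsLocalRing.le_maximalIdeal hJ hb
  exact (IsLocalRing.maximalIdeal.isMaximal S).ne_top
    (Ideal.eq_top_iff_one _ |>.mpr (by simpa using Ideal.sub_mem _ (Ideal.mul_mem_left _ b ha) h1))

end PatchLim

section PatchMat

variable (U : Ultrafilter ℕ) (hU : (U : Filter ℕ) ≤ atTop)
variable {ι κ μ : Type*}

/-- The entrywise limit of a sequence of matrices over the finite levels. -/
def patchMat (x : ∀ n, Matrix ι κ (Lvl S n)) : Matrix ι κ S :=
  Matrix.of fun i j ↦ patchLim U hU fun n ↦ x n i j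

@[simp] theorem patchMat_apply (x : ∀ n, Matrix ι κ (Lvl S n)) (i : ι) (j : κ) :
    patchMat U hU x i j = patchLim U hU fun n ↦ x n i j := rfl

theorem patchMat_add (x y : ∀ n, Matrix ι κ (Lvl S n)) :
    patchMat U hU (x + y) = patchMat U hU x + patchMat U hU y := by
  ext i j
  exact map_add (patchLim U hU) (fun n ↦ x n i j) (fun n ↦ y n i j)

theorem patchMat_sub (x y : ∀ n, Matrix ι κ (Lvl S n)) :
    patchMat U hU (x - y) = patchMat U hU x - patchMat U hU y := by
  ext i j
  exact map_sub (patchLim U hU) (fun n ↦ x n i j) (fun n ↦ y n i j)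

theorem patchMat_zero : patchMat U hU (0 : ∀ n, Matrix ι κ (Lvl S n)) = 0 := by
  ext i j
  exact map_zero (patchLim U hU)

theorem patchMat_smul (s : S) (x : ∀ n, Matrix ι κ (Lvl S n)) :
    patchMat U hU (fun n ↦ Ideal.Quotient.mk (maximalIdeal S ^ n) s • x n) =
      s • patchMat U hU x := by
  ext i j
  have := map_mul (patchLim U hU) (fun n ↦ Ideal.Quotient.mk (maximalIdeal S ^ n) s) (fun n ↦ x n i j)
  rw [patchLim_const] at this
  exact this

theorem patchMat_mul [Fintype κ] (x : ∀ n, Matrix ι κ (Lvl S n))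
    (y : ∀ n, Matrix κ μ (Lvl S n)) :
    patchMat U hU (fun n ↦ x n * y n) = patchMat U hU x * patchMat U hU y := by
  ext i j
  simp only [patchMat_apply, Matrix.mul_apply]
  have h1 : ∀ l, patchLim U hU (fun n ↦ x n i l * y n l j)
      = patchLim U hU (fun n ↦ x n i l) * patchLim U hU (fun n ↦ y n l j) :=
    fun l ↦ map_mul (patchLim U hU) (fun n ↦ x n i l) (fun n ↦ y n l j)
  simp_rw [← h1, ← map_sum]
  congr 1
  funext n
  simp [Finset.sum_apply]

theorem patchMat_one [DecidableEq ι] :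
    patchMat U hU (fun n ↦ (1 : Matrix ι ι (Lvl S n))) = 1 := by
  ext i j
  rcases eq_or_ne i j with rfl | h
  · simp only [patchMat_apply, Matrix.one_apply_eq]
    exact map_one (patchLim U hU)
  · simp only [patchMat_apply, Matrix.one_apply_ne h]
    exact map_zero (patchLim U hU)

theorem patchMat_congr {x x' : ∀ n, Matrix ι κ (Lvl S n)}
    (h : ∀ᶠ n in (U : Filter ℕ), x n = x' n) : patchMat U hU x = patchMat U hU x' := by
  ext i j
  exact patchLim_congr U hU (h.mono fun n hn ↦ by rw [hn])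

theorem patchMat_const (A : Matrix ι κ S) :
    patchMat U hU (fun n ↦ A.map (Ideal.Quotient.mk (maximalIdeal S ^ n))) = A := by
  ext i j
  exact patchLim_const U hU (A i j)

theorem patchMat_mem (J : Ideal S) {x : ∀ n, Matrix ι κ (Lvl S n)}
    (h : ∀ᶠ n in (U : Filter ℕ), ∀ i j, x n i j ∈ J.map (Ideal.Quotient.mk _)) (i : ι) (j : κ) :
    patchMat U hU x i j ∈ J :=
  patchLim_mem U hU J (h.mono fun _ hn ↦ hn i j)

variable [Fintype ι] [DecidableEq ι]

/-- Limits of square matrices, as a ring homomorphism. -/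
def patchMatHom : (∀ n, Matrix ι ι (Lvl S n)) →+* Matrix ι ι S where
  toFun := patchMat U hU
  map_one' := patchMat_one U hU
  map_mul' := patchMat_mul U hU
  map_zero' := patchMat_zero U hU
  map_add' := patchMat_add U hU

@[simp] theorem patchMatHom_apply (x : ∀ n, Matrix ι ι (Lvl S n)) :
    patchMatHom U hU x = patchMat U hU x := rfl

/-- The limit of a family of actions of a ring `R` on the finite levels. -/
def patchAction {R : Type*} [Semiring R] (ρ : ∀ n, R →+* Matrix ι ι (Lvl S n)) :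
    R →+* Matrix ι ι S :=
  (patchMatHom U hU).comp (RingHom.pi ρ)

theorem patchAction_apply {R : Type*} [Semiring R] (ρ : ∀ n, R →+* Matrix ι ι (Lvl S n)) (r : R) :
    patchAction U hU ρ r = patchMat U hU fun n ↦ ρ n r := rfl

omit [IsAdicComplete (maximalIdeal S) S] [Finite (ResidueField S)] [IsNoetherianRing S] in
/-- Continuity propagates to powers. -/
theorem entries_mem_pow {R : Type*} [CommRing R] {n : ℕ} (ρ : R →+* Matrix ι ι (Lvl S n))
    (M : Ideal R) (I : Ideal (Lvl S n)) (h : ∀ r ∈ M, ∀ i j, ρ r i j ∈ I) (k : ℕ) :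
    ∀ r ∈ M ^ k, ∀ i j, ρ r i j ∈ I ^ k := by
  induction k with
  | zero => simp
  | succ k ih =>
    intro r hr
    rw [pow_succ] at hr
    refine Submodule.mul_induction_on hr (fun a ha b hb i j ↦ ?_) (fun a b ha hb i j ↦ ?_)
    · rw [map_mul, Matrix.mul_apply, pow_succ]
      exact Ideal.sum_mem _ fun l _ ↦ Ideal.mul_mem_mul (ih a ha i l) (h b hb l j)
    · rw [map_add, Matrix.add_apply]
      exact Ideal.add_mem _ (ha i j) (hb i j)

/-- If the actions are uniformly continuous, the limit action commutes with limits in `R`. -/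
theorem patchAction_seqLim {R : Type*} [CommRing R] [IsLocalRing R] [IsNoetherianRing R]
    [IsAdicComplete (maximalIdeal R) R] [Finite (ResidueField R)]
    (ρ : ∀ n, R →+* Matrix ι ι (Lvl S n)) {e : ℕ}
    (he : ∀ᶠ n in (U : Filter ℕ), ∀ r ∈ maximalIdeal R ^ e, ∀ i j,
      ρ n r i j ∈ (maximalIdeal S).map (Ideal.Quotient.mk _))
    (h : ℕ → R) :
    patchAction U hU ρ (seqLim U h) = patchMat U hU fun n ↦ ρ n (h n) := by
  ext i j
  refine eq_of_forall_sub_mem fun k ↦ ?_
  rw [patchAction_apply]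
  have hmem := patchLim_mem U hU (maximalIdeal S ^ k)
    (x := fun n ↦ ρ n (seqLim U h) i j - ρ n (h n) i j) (by
      filter_upwards [he, seqLim_spec U h (e * k)] with n hn hr
      rw [pow_mul] at hr
      have := entries_mem_pow (ρ n) (maximalIdeal R ^ e) _ hn k _ hr i j
      rw [← Ideal.map_pow] at this
      have hneg := Ideal.neg_mem_iff _ |>.mpr this
      simpa [map_sub, Matrix.sub_apply] using hneg)
  simpa [patchMat_apply] using
    (map_sub (patchLim U hU) (fun n ↦ ρ n (seqLim U h) i j) (fun n ↦ ρ n (h n) i j)) ▸ hmem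

end PatchMat

end Fermat.Agent.Lifting.DLimit
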