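/-
Closedness of finite submodules for the adic topology, and comparison of adic topologies along a
finite injective extension of discrete valuation rings.
-/
import Mathlib.RingTheory.Filtration
import Mathlib.RingTheory.DiscreteValuationRing.Basic
import Mathlib.RingTheory.LocalRing.RingHom.Basic
import Mathlib.RingTheory.Noetherian.Basic

set_option autoImplicit false

namespace Fermat.Agent.Lifting

open IsLocalRing

/-- A submodule of a finite module over a Noetherian local ring is closed. -/
theorem mem_of_forall_mem_sup_pow {R M : Type*} [CommRing R] [IsLocalRing R] [IsNoetherianRing R]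
    [AddCommGroup M] [Module R M] [Module.Finite R M] (N : Submodule R M) (y : M)
    (h : ∀ n : ℕ, y ∈ N ⊔ (maximalIdeal R ^ n) • (⊤ : Submodule R M)) : y ∈ N := by
  rw [← Submodule.Quotient.mk_eq_zero N, ← Submodule.mem_bot R,
    ← Ideal.iInf_pow_smul_eq_bot_of_isLocalRing (M := M ⧸ N) (maximalIdeal R)
      (maximalIdeal.isMaximal R).ne_top, Submodule.mem_iInf]
  intro n
  obtain ⟨a, ha, b, hb, rfl⟩ := Submodule.mem_sup.1 (h n)
  rw [Submodule.Quotient.mk_add, (Submodule.Quotient.mk_eq_zero N).2 ha, zero_add]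
  have := Submodule.mem_map_of_mem (f := N.mkQ) hb
  rw [Submodule.map_smul''] at this
  exact Submodule.smul_mono le_rfl le_top this

section DVR

variable {A B : Type*} [CommRing A] [IsDomain A] [IsDiscreteValuationRing A] [CommRing B]
  [IsDomain B] [IsDiscreteValuationRing B] [Algebra A B] [IsLocalHom (algebraMap A B)]

omit [IsLocalHom (algebraMap A B)] in
/-- A power of the maximal ideal of `B` lies in the extension of that of `A`. -/
theorem exists_pow_le_map_maximalIdeal (hinj : Function.Injective (algebraMap A B)) :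
    ∃ e : ℕ, maximalIdeal B ^ e ≤ (maximalIdeal A).map (algebraMap A B) := by
  obtain ⟨ϖ, hϖ⟩ := IsDiscreteValuationRing.exists_irreducible B
  have hne : (maximalIdeal A).map (algebraMap A B) ≠ ⊥ := by
    rw [Ne, Ideal.map_eq_bot_iff_of_injective hinj]
    exact IsDiscreteValuationRing.not_a_field A
  obtain ⟨e, he⟩ := IsDiscreteValuationRing.ideal_eq_span_pow_irreducible hne hϖ
  exact ⟨e, by rw [he, hϖ.maximalIdeal_eq, Ideal.span_singleton_pow]⟩

/-- The image of `A` is closed in `B`. -/
theorem mem_range_of_forall_sub_mem [Module.Finite A B]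
    (hinj : Function.Injective (algebraMap A B)) (y : B)
    (h : ∀ n : ℕ, ∃ x : A, algebraMap A B x - y ∈ maximalIdeal B ^ n) :
    ∃ x : A, algebraMap A B x = y := by
  obtain ⟨e, he⟩ := exists_pow_le_map_maximalIdeal hinj
  have hy : y ∈ LinearMap.range (Algebra.linearMap A B) := by
    refine mem_of_forall_mem_sup_pow _ y fun n => ?_
    obtain ⟨x, hx⟩ := h (e * n)
    rw [show y = algebraMap A B x - (algebraMap A B x - y) by ring]
    refine Submodule.sub_mem _ (Submodule.mem_sup_left ⟨x, rfl⟩) (Submodule.mem_sup_right ?_)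
    rw [Ideal.smul_top_eq_map, Submodule.restrictScalars_mem, Ideal.map_pow]
    rw [pow_mul] at hx
    exact Ideal.pow_right_mono he n hx
  exact hy

/-- The topology of `A` is induced from `B`. -/
theorem exists_pow_comap_le (hinj : Function.Injective (algebraMap A B)) (n : ℕ) :
    ∃ N : ℕ, ∀ x : A, algebraMap A B x ∈ maximalIdeal B ^ N → x ∈ maximalIdeal A ^ n := by
  obtain ⟨e, he⟩ := exists_pow_le_map_maximalIdeal hinj
  obtain ⟨ϖ, hϖ⟩ := IsDiscreteValuationRing.exists_irreducible A
  refine ⟨e * n, fun x hx => ?_⟩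
  rcases eq_or_ne x 0 with rfl | hx0
  · exact zero_mem _
  obtain ⟨k, u, rfl⟩ := IsDiscreteValuationRing.eq_unit_mul_pow_irreducible hx0 hϖ
  by_cases hk : n ≤ k
  · rw [hϖ.maximalIdeal_eq, Ideal.span_singleton_pow]
    exact Ideal.mem_span_singleton.2 (dvd_mul_of_dvd_right (pow_dvd_pow ϖ hk) _)
  exfalso
  rw [pow_mul] at hx
  have h1 : algebraMap A B ((u : A) * ϖ ^ k) ∈ (maximalIdeal A ^ n).map (algebraMap A B) := by
    rw [Ideal.map_pow]
    exact Ideal.pow_right_mono he n hx
  rw [hϖ.maximalIdeal_eq, Ideal.span_singleton_pow, Ideal.map_span, Set.image_singleton,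
    Ideal.mem_span_singleton] at h1
  obtain ⟨c, hc⟩ := h1
  obtain ⟨j, rfl⟩ : ∃ j, n = k + (j + 1) := ⟨n - k - 1, by omega⟩
  have hne : algebraMap A B ϖ ^ k ≠ 0 :=
    pow_ne_zero _ fun h => hϖ.ne_zero (hinj (by rw [h, map_zero]))
  have h2 : algebraMap A B (u : A) = algebraMap A B (ϖ ^ (j + 1)) * c := by
    refine mul_right_cancel₀ hne ?_
    rw [← map_pow, ← map_mul, hc, pow_add, map_mul]
    ring
  have h3 : algebraMap A B (ϖ ^ (j + 1)) ∈ maximalIdeal B :=
    map_nonunit (algebraMap A B) _ (Ideal.pow_mem_of_mem _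
      (by rw [hϖ.maximalIdeal_eq]; exact Ideal.mem_span_singleton_self ϖ) _ (Nat.succ_pos j))
  exact (IsLocalRing.mem_maximalIdeal _).1 (h2 ▸ Ideal.mul_mem_right c _ h3)
    (u.isUnit.map (algebraMap A B))

end DVR

end Fermat.Agent.Lifting
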