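/-
Pointwise data at the patched levels: systems of eigenvalues on twisted cohomology which lift a
given residual representation.
-/
import Fermat.Agent.Ribet.Twisted.Hecke
import Fermat.Prelude.Def_GaloisRep_Adic
import Fermat.Prelude.Def_GaloisRep_Residual
import Fermat.Prelude.Def_FLTPrelim_Ramification
import Fermat.Prelude.Def_EllipticCurve_FrobeniusTrace

set_option autoImplicit false

noncomputable section

namespace Fermat.Agent.Lifting

open Fermat.Agent.Ribet.Twisted IsLocalRing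

variable {O : Type} [CommRing O] {L D : ℕ}

/-- A character with values in `O`, seen in the field of fractions. -/
abbrev toFrac (ψ : DirichletCharacter O D) : DirichletCharacter (FractionRing O) D :=
  ψ.ringHomComp (algebraMap O (FractionRing O))

/-- `a` is a system of eigenvalues, outside `S`, on the twisted cohomology of level `L` and
nebentype `ψ ^ 2`, with values in `O` and congruent to the traces of `ρbar`. -/
structure TwistedPoint [IsDomain O] [IsLocalRing O] (p : ℕ)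
    (ρbar : ResidualGaloisRep (ResidueField O))
    (L D : ℕ) (ψ : DirichletCharacter O D) (S : Finset ℕ) (a : ℕ → O) : Prop where
  dvd : D ∣ L
  squarefree : Squarefree L
  p_ne_two : p ≠ 2
  p_mem : (p : O) ∈ maximalIdeal O
  pPower : ∀ x : (ZMod D)ˣ, ∃ n : ℕ, ψ (x : ZMod D) ^ p ^ n = 1
  p_mem_set : p ∈ S
  level_mem_set : ∀ ℓ : ℕ, ℓ.Prime → ℓ ∣ L → ℓ ∈ S
  hasSystem : HasSystem dvd (toFrac ψ) S fun ℓ => algebraMap O (FractionRing O) (a ℓ)
  absIrr : ρbar.IsAbsolutelyIrreducible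
  odd : ρbar.IsOdd
  residue_trace : ∀ ℓ : ℕ, ℓ.Prime → ℓ ∉ S →
    ∀ A : ValuationSubring (AlgebraicClosure ℚ), A.LiesOverPrime ℓ →
      ∀ σ : AlgebraicClosure ℚ ≃ₐ[ℚ] AlgebraicClosure ℚ, A.IsFrobeniusAt σ ℓ →
        residue O (a ℓ) = LinearMap.trace (ResidueField O) ρbar.V (ρbar.ρ σ)
  residue_det : ∀ ℓ : ℕ, ℓ.Prime → ℓ ∉ S →
    ∀ A : ValuationSubring (AlgebraicClosure ℚ), A.LiesOverPrime ℓ →
      ∀ σ : AlgebraicClosure ℚ ≃ₐ[ℚ] AlgebraicClosure ℚ, A.IsFrobeniusAt σ ℓ →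
        LinearMap.det (ρbar.ρ σ) = (ℓ : ResidueField O)

/-- The system is new at `q`: some vector of the system is killed by the two transfers to level
`L / q`, in the form that the square of `U'_q` fixes it (`Ribet.Twisted.exists_lowering`). -/
def SystemNewAt {K : Type*} [Field K] (hD : D ∣ L) (ψ : DirichletCharacter K D) (S : Finset ℕ)
    (a : ℕ → K) (q : ℕ) : Prop :=
  ∃ x : CohL hD ψ K, x ≠ 0 ∧ (∀ ℓ : ℕ, ℓ.Prime → ℓ ∉ S → heckeT' hD ψ K ℓ x = a ℓ • x) ∧
    heckeT' hD ψ K q (heckeT' hD ψ K q x) = x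

/-- The Frobenius elements outside `S` have characteristic polynomial `X ^ 2 - a ℓ X + ℓ`. -/
def HasFrobPoly [IsLocalRing O] (ρ : GaloisRepAdic O) (S : Finset ℕ) (a : ℕ → O) : Prop :=
  ∀ ℓ : ℕ, ℓ.Prime → ℓ ∉ S →
    ∀ A : ValuationSubring (AlgebraicClosure ℚ), A.LiesOverPrime ℓ →
      ∀ σ : AlgebraicClosure ℚ ≃ₐ[ℚ] AlgebraicClosure ℚ, A.IsFrobeniusAt σ ℓ →
        LinearMap.charpoly (ρ.ρ σ) =
          Polynomial.X ^ 2 - Polynomial.C (a ℓ) * Polynomial.X + Polynomial.C (ℓ : O)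

end Fermat.Agent.Lifting
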