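/-
Descent of a family of two dimensional representations to a ring containing their traces.
-/
import Fermat.Agent.Ribet.TraceRepGalois
import Fermat.Agent.CondLevel.Compare
import Fermat.Agent.CondLevel.Curve
import Fermat.Agent.Deform.MatrixRep
import Fermat.Agent.Lifting.EDefs

set_option autoImplicit false

noncomputable section

namespace Fermat.Agent.Lifting

open IsLocalRing Matrix Fermat.Agent.Deform

local notation "ℚbar" => AlgebraicClosure ℚ
local notation "Γℚ" => AlgebraicClosure ℚ ≃ₐ[ℚ] AlgebraicClosure ℚ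

theorem isIrreducible_of_absIrr {k : Type} [Field k] {ρ : ResidualGaloisRep k}
    (h : ρ.IsAbsolutelyIrreducible) : ρ.IsIrreducible := by
  intro W hW
  let K := AlgebraicClosure k
  have hrank : Module.finrank K (W.baseChange K) = Module.finrank k W := by
    have hinj : Function.Injective (W.subtype.baseChange K) :=
      Module.Flat.lTensor_preserves_injective_linearMap W.subtype W.injective_subtype
    rw [show W.baseChange K = LinearMap.range (W.subtype.baseChange K) from rfl,
      LinearMap.finrank_range_of_inj hinj, Module.finrank_baseChange]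
  rcases h (W.baseChange K) (fun σ x hx => by
      rw [Submodule.baseChange_eq_span] at hx ⊢
      induction hx using Submodule.span_induction with
      | mem y hy =>
        obtain ⟨w, hw, rfl⟩ := hy
        exact Submodule.subset_span ⟨ρ.ρ σ w, hW σ w hw, rfl⟩
      | zero => simp
      | add a b _ _ ha hb => rw [map_add]; exact add_mem ha hb
      | smul c a _ ha => rw [map_smul]; exact Submodule.smul_mem _ c ha) with h0 | h1
  · left
    rw [← Submodule.finrank_eq_zero (R := k), ← hrank, h0, finrank_bot]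
  · right
    refine Submodule.eq_top_of_finrank_eq ?_
    rw [← hrank, h1, finrank_top, Module.finrank_baseChange]

/-- The companion matrix of `X ^ 2 - t X + d`. -/
def companion {R : Type*} [CommRing R] (t d : R) : Matrix (Fin 2) (Fin 2) R := !![t, -d; 1, 0]

theorem trace_companion {R : Type*} [CommRing R] (t d : R) : (companion t d).trace = t := by
  simp [companion, Matrix.trace_fin_two]

theorem det_companion {R : Type*} [CommRing R] (t d : R) : (companion t d).det = d := by
  simp [companion, Matrix.det_fin_two]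

theorem map_companion {R R' : Type*} [CommRing R] [CommRing R'] (f : R →+* R') (t d : R) :
    (companion t d).map f = companion (f t) (f d) := by
  ext i j; fin_cases i <;> fin_cases j <;> simp [companion]

/-- **Descent**: a finite family of continuous representations whose Frobenius characteristic
polynomials come from `R`, residually an odd absolutely irreducible `ρbar`, comes from a
representation over `R`, provided `R` is closed and embedded in the product. -/
theorem exists_rep_of_family {R : Type} [CommRing R] [IsLocalRing R] [Nontrivial R]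
    (h2 : IsUnit (2 : R)) (ρbar : ResidualGaloisRep (ResidueField R))
    (habs : ρbar.IsAbsolutelyIrreducible) (hodd : ρbar.IsOdd)
    {ι : Type} [Finite ι] (B : ι → Type) [∀ i, CommRing (B i)] [∀ i, IsLocalRing (B i)]
    (f : ∀ i, R →+* B i) (hinj : ∀ x, (∀ i, f i x = 0) → x = 0)
    (hker : ∀ n : ℕ, ∃ N : ℕ, ∀ x, (∀ i, f i x ∈ maximalIdeal (B i) ^ N) →
      x ∈ maximalIdeal R ^ n)
    (hclosed : ∀ y : ∀ i, B i, (∀ n : ℕ, ∃ x, ∀ i, f i x - y i ∈ maximalIdeal (B i) ^ n) →
      ∃ x, ∀ i, f i x = y i)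
    (ρs : ∀ i, GaloisRepAdic (B i)) (a : ℕ → R) (S : Finset ℕ)
    (hfrob : ∀ i, HasFrobPoly (ρs i) S fun ℓ => f i (a ℓ))
    (hrestr : ∀ ℓ : ℕ, ℓ.Prime → ℓ ∉ S → ∀ A : ValuationSubring ℚbar, A.LiesOverPrime ℓ →
      ∀ σ : Γℚ, A.IsFrobeniusAt σ ℓ →
        residue R (a ℓ) = LinearMap.trace (ResidueField R) ρbar.V (ρbar.ρ σ) ∧
        LinearMap.det (ρbar.ρ σ) = (ℓ : ResidueField R)) :
    ∃ ρ : GaloisRepAdic R, HasFrobPoly ρ S a ∧ ρ.residual.IsEquiv ρbar ∧
      (∀ i σ, f i (LinearMap.trace R ρ.V (ρ.ρ σ)) = LinearMap.trace (B i) _ ((ρs i).ρ σ)) ∧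
      ∀ i σ, f i (LinearMap.det (ρ.ρ σ)) = LinearMap.det ((ρs i).ρ σ) := by
  classical
  haveI := Fintype.ofFinite ι
  letI : Invertible (2 : R) := h2.invertible
  let b := fun i => Deform.repBasis (ρs i)
  let r := fun i => repMat (b i) (ρs i).ρ
  have hrT : ∀ i σ, LinearMap.trace (B i) _ ((ρs i).ρ σ) = (r i σ).trace := fun i σ =>
    LinearMap.trace_eq_matrix_trace _ (b i) _
  have hrD : ∀ i σ, LinearMap.det ((ρs i).ρ σ) = (r i σ).det := fun i σ =>
    (LinearMap.det_toMatrix (b i) _).symm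
  have hrF : ∀ i (ℓ : ℕ), ℓ.Prime → ℓ ∉ S → ∀ A : ValuationSubring ℚbar, A.LiesOverPrime ℓ →
      ∀ τ : Γℚ, A.IsFrobeniusAt τ ℓ → ∀ j : ℕ,
        (r i (τ ^ j)).trace = f i ((companion (a ℓ) (ℓ : R)) ^ j).trace ∧
        (r i (τ ^ j)).det = f i ((companion (a ℓ) (ℓ : R)) ^ j).det := by
    intro i ℓ hℓ hℓS A hA τ hτ j
    obtain ⟨ht, hd⟩ := CondLevel.trace_det_of_charpoly_eq (b i) _ (hfrob i ℓ hℓ hℓS A hA τ hτ)
    rw [hrT] at ht
    rw [hrD] at hd
    have e1 : (r i τ).trace = (companion (f i (a ℓ)) (ℓ : B i)).trace := by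
      rw [trace_companion, ht]
    have e2 : (r i τ).det = (companion (f i (a ℓ)) (ℓ : B i)).det := by rw [det_companion, hd]
    have e3 : ((companion (a ℓ) (ℓ : R)) ^ j).map (f i) =
        (companion (f i (a ℓ)) (ℓ : B i)) ^ j := by
      rw [← map_natCast (f i) ℓ, ← map_companion, ← RingHom.mapMatrix_apply, map_pow,
        RingHom.mapMatrix_apply]
    rw [map_pow, CondLevel.matrix2_trace_pow_congr e1 e2 j,
      CondLevel.matrix2_det_pow_congr e2 j, ← e3]
    exact ⟨(AddMonoidHom.map_trace (f i) _).symm, (RingHom.map_det (f i) _).symm⟩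
  -- uniform finite levels
  have hlev : ∀ n : ℕ, ∃ L : IntermediateField ℚ ℚbar, FiniteDimensional ℚ L ∧
      ∀ i (σ τ : Γℚ), (∀ x ∈ L, σ x = τ x) →
        (r i σ).trace - (r i τ).trace ∈ maximalIdeal (B i) ^ n ∧
        (r i σ).det - (r i τ).det ∈ maximalIdeal (B i) ^ n := by
    intro n
    choose L hL hLr using fun i => mcont_repMat (ρs i) (b i) n
    refine ⟨⨆ i, L i, IntermediateField.finiteDimensional_iSup_of_finite, fun i σ τ hστ => ?_⟩
    let π := (Ideal.Quotient.mk (maximalIdeal (B i) ^ n)).mapMatrix (m := Fin 2)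
    have hk : ∀ g : Γℚ, (∀ x ∈ L i, g x = x) → π (r i g) = 1 := fun g hg => by
      rw [← map_one π]
      ext u v
      exact Ideal.Quotient.eq.2 (hLr i g hg u v)
    have h1 : π (r i σ) = π (r i τ) := by
      have h2 : π (r i (τ⁻¹ * σ)) = 1 := hk _ fun x hx => by
        rw [AlgEquiv.mul_apply, hστ x (le_iSup L i hx), ← AlgEquiv.mul_apply, inv_mul_cancel,
          AlgEquiv.one_apply]
      rw [show r i σ = r i τ * r i (τ⁻¹ * σ) by rw [← map_mul, mul_inv_cancel_left], map_mul, h2,
        mul_one]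
    constructor
    · rw [← Ideal.Quotient.eq]
      simpa [π, AddMonoidHom.map_trace] using congrArg Matrix.trace h1
    · rw [← Ideal.Quotient.eq, RingHom.map_det, RingHom.map_det]
      exact congrArg Matrix.det h1
  -- traces and determinants lie in `R`
  have hex : ∀ σ : Γℚ, ∃ td : R × R,
      ∀ i, f i td.1 = (r i σ).trace ∧ f i td.2 = (r i σ).det := by
    intro σ
    have key : ∀ n : ℕ, ∃ x : R × R, ∀ i, f i x.1 - (r i σ).trace ∈ maximalIdeal (B i) ^ n ∧
        f i x.2 - (r i σ).det ∈ maximalIdeal (B i) ^ n := by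
      intro n
      obtain ⟨L, hL, hLr⟩ := hlev n
      obtain ⟨ℓ, hℓ, hℓS, A, hA, τ, hτ, ⟨j, hj⟩, -⟩ := Density.exists_frobenius_pow σ L S
      refine ⟨(((companion (a ℓ) (ℓ : R)) ^ j).trace, ((companion (a ℓ) (ℓ : R)) ^ j).det),
        fun i => ?_⟩
      obtain ⟨h1, h3⟩ := hLr i (τ ^ j) σ fun x hx => (hj x hx).symm
      obtain ⟨h4, h5⟩ := hrF i ℓ hℓ hℓS A hA τ hτ j
      rw [h4] at h1
      rw [h5] at h3
      exact ⟨h1, h3⟩
    obtain ⟨x, hx⟩ := hclosed (fun i => (r i σ).trace) fun n =>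
      (key n).elim fun z hz => ⟨z.1, fun i => (hz i).1⟩
    obtain ⟨y, hy⟩ := hclosed (fun i => (r i σ).det) fun n =>
      (key n).elim fun z hz => ⟨z.2, fun i => (hz i).2⟩
    exact ⟨(x, y), fun i => ⟨hx i, hy i⟩⟩
  choose td htd using hex
  let t : Γℚ → R := fun σ => (td σ).1
  let d : Γℚ → R := fun σ => (td σ).2
  have hft : ∀ i σ, f i (t σ) = (r i σ).trace := fun i σ => (htd σ i).1
  have hfd : ∀ i σ, f i (d σ) = (r i σ).det := fun i σ => (htd σ i).2
  have hext : ∀ x y : R, (∀ i, f i x = f i y) → x = y := fun x y h =>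
    sub_eq_zero.1 (hinj _ fun i => by rw [map_sub, h i, sub_self])
  -- comparison with the residual representation
  let bk : Module.Basis (Fin 2) (ResidueField R) ρbar.V :=
    Module.finBasisOfFinrankEq _ _ ρbar.finrank_eq
  let rbar := repMat bk ρbar.ρ
  have hres : ∀ σ, residue R (t σ) = (rbar σ).trace ∧ residue R (d σ) = (rbar σ).det := by
    intro σ
    obtain ⟨N, hN⟩ := hker 1
    obtain ⟨L, hL, hLr⟩ := hlev N
    obtain ⟨L0, hL0, h0⟩ := ρbar.factorsThroughFiniteLevel
    obtain ⟨ℓ, hℓ, hℓS, A, hA, τ, hτ, ⟨j, hj⟩, -⟩ :=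
      Density.exists_frobenius_pow σ (L ⊔ L0) S
    have hbar : rbar σ = rbar (τ ^ j) := by
      have h1 : ρbar.ρ ((τ ^ j)⁻¹ * σ) = 1 := h0 _ fun x hx => by
        rw [AlgEquiv.mul_apply, hj x (SetLike.le_def.1 le_sup_right hx), ← AlgEquiv.mul_apply,
          inv_mul_cancel, AlgEquiv.one_apply]
      have h2 : rbar ((τ ^ j)⁻¹ * σ) = 1 := by
        rw [repMat_apply, h1, LinearMap.toMatrix_one]
      rw [show rbar σ = rbar (τ ^ j) * rbar ((τ ^ j)⁻¹ * σ) by
        rw [← map_mul, mul_inv_cancel_left], h2, mul_one]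
    obtain ⟨hrt, hrd⟩ := hrestr ℓ hℓ hℓS A hA τ hτ
    rw [LinearMap.trace_eq_matrix_trace _ bk] at hrt
    rw [← LinearMap.det_toMatrix bk] at hrd
    have e1 : (rbar τ).trace = (companion (residue R (a ℓ)) (ℓ : ResidueField R)).trace := by
      rw [trace_companion, hrt]; rfl
    have e2 : (rbar τ).det = (companion (residue R (a ℓ)) (ℓ : ResidueField R)).det := by
      rw [det_companion, ← hrd]; rfl
    have e3 : (residue R).mapMatrix ((companion (a ℓ) (ℓ : R)) ^ j) =
        (companion (residue R (a ℓ)) (ℓ : ResidueField R)) ^ j := by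
      rw [map_pow, RingHom.mapMatrix_apply, map_companion, map_natCast]
    have hmem : ∀ x y : R, (∀ i, f i x - f i y ∈ maximalIdeal (B i) ^ N) →
        residue R x = residue R y := fun x y hxy => by
      rw [← sub_eq_zero, ← map_sub, residue_eq_zero_iff, ← pow_one (maximalIdeal R)]
      exact hN _ fun i => by rw [map_sub]; exact hxy i
    rw [hbar, map_pow rbar, CondLevel.matrix2_trace_pow_congr e1 e2 j,
      CondLevel.matrix2_det_pow_congr e2 j, ← e3]
    constructor
    · rw [RingHom.mapMatrix_apply, ← AddMonoidHom.map_trace]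
      refine hmem _ _ fun i => ?_
      rw [hft, ← (hrF i ℓ hℓ hℓS A hA τ hτ j).1]
      exact (hLr i σ (τ ^ j) fun x hx => hj x (SetLike.le_def.1 le_sup_left hx)).1
    · rw [← RingHom.map_det]
      refine hmem _ _ fun i => ?_
      rw [hfd, ← (hrF i ℓ hℓ hℓS A hA τ hτ j).2]
      exact (hLr i σ (τ ^ j) fun x hx => hj x (SetLike.le_def.1 le_sup_left hx)).2
  -- complex conjugation
  obtain ⟨c, hcc, hc1⟩ := CondLevel.exists_involution
  have hbarc : LinearMap.det (ρbar.ρ c) = -1 := hodd c hcc hc1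
  have hdc : d c = -1 := by
    have h1 : (d c - 1) * (d c + 1) = 0 := by
      have h3 : d c * d c = 1 := hext _ _ fun i => by
        rw [map_mul, hfd, map_one, ← Matrix.det_mul, ← map_mul, hcc, map_one, Matrix.det_one]
      linear_combination h3
    have h4 : IsUnit (d c - 1) := by
      rw [← not_not (a := IsUnit (d c - 1)), ← residue_ne_zero_iff_isUnit, not_not, map_sub,
        map_one, (hres c).2, show (rbar c).det = LinearMap.det (ρbar.ρ c) from
          LinearMap.det_toMatrix bk _, hbarc]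
      intro h5
      exact (residue_ne_zero_iff_isUnit (2 : R)).2 h2 (by rw [map_ofNat]; linear_combination -h5)
    rcases h4 with ⟨u, hu⟩
    rw [← hu] at h1
    exact eq_neg_of_add_eq_zero_left ((Units.mul_right_eq_zero u).1 h1)
  let Z : Ribet.TraceRep.Realisation t d c :=
    { ι := ι
      O := B
      f := f
      inj := hinj
      rep := r
      trace_rep := fun i g => (hft i g).symm
      det_rep := fun i g => (hfd i g).symm
      invol := hcc
      det_invol := hdc }
  have hcont : ∀ n : ℕ, ∃ L : IntermediateField ℚ ℚbar, FiniteDimensional ℚ L ∧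
      ∀ σ : Γℚ, (∀ x ∈ L, σ x = x) → ∀ g, t (g * σ) - t g ∈ maximalIdeal R ^ n := by
    intro n
    obtain ⟨N, hN⟩ := hker n
    obtain ⟨L, hL, hLr⟩ := hlev N
    refine ⟨IntermediateField.normalClosure ℚ L ℚbar, inferInstance, fun σ hσ g => hN _ fun i => ?_⟩
    rw [map_sub, hft, hft]
    exact (hLr i (g * σ) g fun x hx => by
      rw [AlgEquiv.mul_apply, hσ x (L.le_normalClosure hx)]).1
  haveI : IsLocalHom (residue R) := IsLocalHom.of_surjective _ residue_surjective
  obtain ⟨b0, rR, hrR, -, hrt, hrd, hrmap⟩ := Ribet.TraceRep.exists_galoisRep (residue R)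
    residue_surjective Z ρbar (isIrreducible_of_absIrr habs) hbarc
    (fun σ => by rw [(hres σ).1, LinearMap.trace_eq_matrix_trace _ bk]; rfl) hcont
  have hTr : ∀ σ, LinearMap.trace R (toRep rR hrR).V ((toRep rR hrR).ρ σ) = t σ := fun σ => by
    rw [LinearMap.trace_eq_matrix_trace R (stdBasis rR hrR), ← repMat_apply, repMat_toRep, hrt]
  have hDr : ∀ σ, LinearMap.det ((toRep rR hrR).ρ σ) = d σ := fun σ => by
    rw [← LinearMap.det_toMatrix (stdBasis rR hrR), ← repMat_apply, repMat_toRep, hrd]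
  refine ⟨toRep rR hrR, fun ℓ hℓ hℓS A hA τ hτ => ?_, ?_, fun i σ => ?_, fun i σ => ?_⟩
  · rw [CondLevel.charpoly_eq_of_trace_det (stdBasis rR hrR), hTr, hDr,
      show t τ = a ℓ from hext _ _ fun i => by
        rw [hft, ← pow_one τ, (hrF i ℓ hℓ hℓS A hA τ hτ 1).1, pow_one, trace_companion],
      show d τ = (ℓ : R) from hext _ _ fun i => by
        rw [hfd, ← pow_one τ, (hrF i ℓ hℓ hℓS A hA τ hτ 1).2, pow_one, det_companion]]
  · let bA : Module.Basis (Fin 2) (ResidueField R) (toRep rR hrR).residual.V :=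
      Algebra.TensorProduct.basis (ResidueField R) (stdBasis rR hrR)
    obtain ⟨e, he⟩ := (exists_equiv_iff bA b0 (toRep rR hrR).residual.ρ ρbar.ρ).2
      ⟨1, isUnit_one, fun σ => by
        rw [one_mul, mul_one, ← hrmap σ]
        refine (toMatrix_baseChange_endo (ResidueField R) (stdBasis rR hrR)
          ((toRep rR hrR).ρ σ)).trans ?_
        rw [← repMat_apply, repMat_toRep]
        rfl⟩
    exact ⟨⟨e, he⟩⟩
  · rw [hTr, hft, hrT]
  · rw [hDr, hfd, hrD]

end Fermat.Agent.Lifting
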