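/-
The representation of a character of a Hecke algebra with values in `O`, residually a given odd
absolutely irreducible representation.
-/
import Fermat.Agent.Lifting.EFamily
import Fermat.Agent.Lifting.EClosed
import Fermat.Agent.GaloisAdic.Inputs
import Fermat.Prelude.Def_GaloisRep_LocalConditions

set_option autoImplicit false

noncomputable section

namespace Fermat.Agent.Lifting

open IsLocalRing Fermat.Agent.GaloisAdic

local notation "ℚbar" => AlgebraicClosure ℚ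
local notation "Γℚ" => AlgebraicClosure ℚ ≃ₐ[ℚ] AlgebraicClosure ℚ

theorem isUnit_two_of_mem {p : ℕ} (hp : p.Prime) (hp2 : p ≠ 2) {R : Type*} [CommRing R]
    [IsLocalRing R] (hpR : (p : R) ∈ maximalIdeal R) : IsUnit (2 : R) := by
  obtain ⟨m, hm⟩ := hp.odd_of_ne_two hp2
  by_contra h2
  have h2' : (2 : R) ∈ maximalIdeal R := h2
  apply (maximalIdeal.isMaximal R).ne_top
  rw [Ideal.eq_top_iff_one]
  have h1 : (1 : R) = (p : R) - (m : R) * 2 := by rw [hm]; push_cast; ring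
  rw [h1]
  exact sub_mem hpR (Ideal.mul_mem_left _ _ h2')

/-- The representation over `O` of an `O`-valued character of a Hecke algebra. -/
theorem exists_rep_of_hom {p : ℕ} [Fact p.Prime] {N : ℕ} [NeZero N] {S : Finset ℕ}
    (hpS : p ∈ S) {O : Type} [CommRing O] [IsDomain O] [IsDiscreteValuationRing O]
    [IsAdicComplete (maximalIdeal O) O] [Finite (ResidueField O)] [CharZero O]
    (hp2 : p ≠ 2) (hpO : (p : O) ∈ maximalIdeal O) (hNS : ∀ q : ℕ, q.Prime → q ∣ N → q ∈ S)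
    (ρbar : ResidualGaloisRep (ResidueField O)) (habs : ρbar.IsAbsolutelyIrreducible)
    (hodd : ρbar.IsOdd)
    (χ : CuspForm.heckeAlgebra N 2 (↑S : Set ℕ) →+* O) (a : ℕ → O)
    (hχ : ∀ (ℓ : ℕ) (hℓ : ℓ.Prime) (hℓN : ¬ ℓ ∣ N) (hℓS : ℓ ∉ (↑S : Set ℕ)),
      χ (CuspForm.heckeAlgebra.T hℓ hℓN hℓS) = a ℓ)
    (hrestr : ∀ ℓ : ℕ, ℓ.Prime → ℓ ∉ S → ∀ A : ValuationSubring ℚbar, A.LiesOverPrime ℓ →
      ∀ σ : Γℚ, A.IsFrobeniusAt σ ℓ →
        residue O (a ℓ) = LinearMap.trace (ResidueField O) ρbar.V (ρbar.ρ σ) ∧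
        LinearMap.det (ρbar.ρ σ) = (ℓ : ResidueField O)) :
    ∃ ρ : GaloisRepAdic O, HasFrobPoly ρ S a ∧ ρ.DetIsCyclotomic p ∧
      ρ.residual.IsEquiv ρbar := by
  classical
  obtain ⟨F⟩ := nonempty_torsionFrame N p
  obtain ⟨O'', i1, i2, i3, i4, i5, i6, i7, i8, i9, hinj, hp'', ρ'', hchar, -, hdet, -⟩ :=
    exists_galoisRepAdic F (torsionFacts N p) (↑S : Set ℕ) S (fun ℓ _ h => by simpa using h)
      O hpO χ
  obtain ⟨ρ, hρ, hres, -, hd⟩ := exists_rep_of_family (isUnit_two_of_mem Fact.out hp2 hpO) ρbar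
    habs hodd (ι := PUnit) (fun _ => O'') (fun _ => algebraMap O O'')
    (fun x hx => hinj (by rw [hx ⟨⟩, map_zero]))
    (fun n => (exists_pow_comap_le hinj n).elim fun M hM => ⟨M, fun x hx => hM x (hx ⟨⟩)⟩)
    (fun y hy => (mem_range_of_forall_sub_mem hinj (y ⟨⟩) fun n =>
      (hy n).elim fun x hx => ⟨x, hx ⟨⟩⟩).elim fun x hx => ⟨x, fun _ => hx⟩)
    (fun _ => ρ'') a S (fun _ ℓ hℓ hℓS A hA σ hσ => by
      have hℓN : ¬ ℓ ∣ N := fun h => hℓS (hNS ℓ hℓ h)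
      have hℓp : ℓ ≠ p := fun h => hℓS (h ▸ hpS)
      rw [hchar ℓ hℓ hℓN (by simpa using hℓS) hℓp A hA σ hσ, hχ]) hrestr
  refine ⟨ρ, hρ, ⟨hpO, fun n σ c hc => ?_⟩, hres⟩
  have h1 : LinearMap.det (ρ.ρ σ) = padicIntHom O hpO (padicCyclo p σ) := by
    apply hinj
    rw [hd ⟨⟩ σ, hdet]
    exact (comp_padicIntHom O hpO hp'' (algebraMap O O'') _).symm
  rw [h1]
  have h2 : (padicCyclo p σ - (c : ℤ_[p])) ∈ RingHom.ker (PadicInt.toZModPow (p := p) n) := by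
    rw [RingHom.mem_ker, map_sub, map_natCast, sub_eq_zero]
    exact toZModPow_padicCyclo_eq p σ hc
  rw [PadicInt.ker_toZModPow] at h2
  obtain ⟨w, hw⟩ := Ideal.mem_span_singleton'.1 h2
  refine Ideal.mem_span_singleton'.2 ⟨padicIntHom O hpO w, ?_⟩
  have h3 := congrArg (padicIntHom O hpO) hw
  rw [map_mul, map_pow, map_natCast, map_sub, map_natCast] at h3
  rw [Nat.cast_pow]
  exact h3

end Fermat.Agent.Lifting
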