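/-
An `O`-valued character of a Hecke algebra, residually absolutely irreducible, is a point of a
Hecke–Galois datum.
-/
import Fermat.Agent.Lifting.EPoint
import Fermat.Agent.Lifting.ETransfer
import Fermat.Agent.Integral.Main
import Fermat.Agent.RepLemmas.Galois
import Fermat.Prelude.Def_CuspForm_HeckeGaloisRepDatum
import Fermat.Prelude.Thm_IsLocalRing_isAdicComplete_of_module_finite
import Mathlib.RingTheory.LocalRing.Module

set_option autoImplicit false

noncomputable section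

namespace Fermat.Agent.Lifting

open IsLocalRing

local notation "ℚbar" => AlgebraicClosure ℚ
local notation "Γℚ" => AlgebraicClosure ℚ ≃ₐ[ℚ] AlgebraicClosure ℚ

/-- A finite `ℤ`-algebra has finitely many characters into a domain. -/
theorem finite_ringHom (R : Type*) [CommRing R] [Module.Finite ℤ R] (O : Type*) [CommRing O]
    [IsDomain O] : Finite (R →+* O) := by
  classical
  obtain ⟨s, hs⟩ := Module.Finite.fg_top (R := ℤ) (M := R)
  choose P hP hPe using fun x : R => Algebra.IsIntegral.isIntegral (R := ℤ) x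
  let roots : s → Finset O := fun x =>
    ((P x).map (Int.castRingHom O)).roots.toFinset
  have hmem : ∀ (χ : R →+* O) (x : s), χ x ∈ roots x := fun χ x => by
    rw [Multiset.mem_toFinset, Polynomial.mem_roots ((hP x).map _).ne_zero,
      Polynomial.IsRoot.def, Polynomial.eval_map]
    have h := congrArg χ (hPe x)
    rw [Polynomial.hom_eval₂, map_zero] at h
    rwa [show χ.comp (algebraMap ℤ R) = Int.castRingHom O from RingHom.ext_int _ _] at h
  refine Finite.of_injective (β := ∀ x : s, roots x) (fun χ x => ⟨χ x, hmem χ x⟩)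
    fun χ χ' h => RingHom.ext fun r => ?_
  exact LinearMap.congr_fun (LinearMap.ext_on hs (f := χ.toAddMonoidHom.toIntLinearMap)
    (g := χ'.toAddMonoidHom.toIntLinearMap)
    fun x hx => congrArg Subtype.val (congrFun h ⟨x, hx⟩)) r

/-- Extension of scalars along a surjection of fields preserves absolute irreducibility. -/
theorem isAbsolutelyIrreducible_baseChangeAlong {k k' : Type} [Field k] [Field k'] (κ : k →+* k')
    (hκ : Function.Surjective κ) (ρ : ResidualGaloisRep k) (h : ρ.IsAbsolutelyIrreducible) :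
    (ρ.baseChangeAlong κ).IsAbsolutelyIrreducible := by
  letI : Algebra k k' := κ.toAlgebra
  refine RepLemmas.isAbsolutelyIrreducible_of_span_eq_top _ ?_
  let b : Module.Basis (Fin 2) k ρ.V := Module.finBasisOfFinrankEq _ _ ρ.finrank_eq
  let b' : Module.Basis (Fin 2) k' (ρ.baseChangeAlong κ).V := Algebra.TensorProduct.basis k' b
  refine (RepLemmas.span_range_toMatrixHom_eq_top_iff b' _).1 (eq_top_iff.2 fun X _ => ?_)
  have h0 := (RepLemmas.span_range_toMatrixHom_eq_top_iff b ρ.ρ).2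
    (RepLemmas.residual_span_eq_top_of_isAbsolutelyIrreducible ρ h)
  obtain ⟨Y, rfl⟩ : ∃ Y : Matrix (Fin 2) (Fin 2) k, Y.map κ = X := by
    choose g hg using hκ
    exact ⟨X.map g, by ext i j; exact hg _⟩
  have hY : Y ∈ Submodule.span k (Set.range (RepLemmas.toMatrixHom b ρ.ρ)) := by
    rw [h0]; trivial
  induction hY using Submodule.span_induction with
  | mem y hy =>
    obtain ⟨σ, rfl⟩ := hy
    exact Submodule.subset_span ⟨σ, Deform.toMatrix_baseChange_endo k' b (ρ.ρ σ)⟩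
  | zero => simp
  | add y z _ _ hy hz => rw [Matrix.map_add _ (map_add κ)]; exact add_mem (hy trivial) (hz trivial)
  | smul c y _ hy =>
    rw [show (c • y).map κ = κ c • y.map κ by ext i j; simp]
    exact Submodule.smul_mem _ _ (hy trivial)

/-- Absolute irreducibility is invariant under equivalence. -/
theorem isAbsolutelyIrreducible_of_equiv {k : Type} [Field k] {ρ₁ ρ₂ : ResidualGaloisRep k}
    (e : ρ₁.IsEquiv ρ₂) (h : ρ₂.IsAbsolutelyIrreducible) : ρ₁.IsAbsolutelyIrreducible := by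
  obtain ⟨e⟩ := e
  refine RepLemmas.isAbsolutelyIrreducible_of_span_eq_top _ ?_
  let b : Module.Basis (Fin 2) k ρ₁.V := Module.finBasisOfFinrankEq _ _ ρ₁.finrank_eq
  have hb : ∀ σ, RepLemmas.toMatrixHom (b.map e.toLinearEquiv) ρ₂.ρ σ =
      RepLemmas.toMatrixHom b ρ₁.ρ σ := fun σ => by
    ext i j
    show LinearMap.toMatrix (b.map e.toLinearEquiv) (b.map e.toLinearEquiv) (ρ₂.ρ σ) i j =
      LinearMap.toMatrix b b (ρ₁.ρ σ) i j
    rw [LinearMap.toMatrix_apply, LinearMap.toMatrix_apply, Module.Basis.map_apply,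
      ← e.map_apply, Module.Basis.map_repr]
    simp
  refine (RepLemmas.span_range_toMatrixHom_eq_top_iff b _).1 ?_
  rw [← show (RepLemmas.toMatrixHom (b.map e.toLinearEquiv) ρ₂.ρ : _ → _) =
    RepLemmas.toMatrixHom b ρ₁.ρ from funext hb]
  exact (RepLemmas.span_range_toMatrixHom_eq_top_iff _ ρ₂.ρ).2
    (RepLemmas.residual_span_eq_top_of_isAbsolutelyIrreducible ρ₂ h)

/-- A representation is determined by its Frobenius polynomials outside `S`, if one with the same
polynomials is residually absolutely irreducible. -/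
theorem isEquiv_of_hasFrobPoly {A : Type} [CommRing A] [IsLocalRing A] [IsNoetherianRing A]
    {S : Finset ℕ} {a : ℕ → A} {ρ₁ ρ₂ : GaloisRepAdic A} (h₁ : HasFrobPoly ρ₁ S a)
    (h₂ : HasFrobPoly ρ₂ S a) (h : ρ₁.residual.IsAbsolutelyIrreducible) : ρ₁.IsEquiv ρ₂ := by
  refine RepLemmas.isEquiv_of_charpoly_eq ρ₁ ρ₂ h fun σ =>
    RepLemmas.charpoly_eq_of_approx ρ₁ ρ₂ (fun L hL σ => ?_) σ
  obtain ⟨ℓ, hℓ, hℓS, B, hB, τ, hτ, ⟨j, hj⟩, -⟩ := Density.exists_frobenius_pow σ L S
  refine ⟨τ ^ j, fun x hx => (hj x hx).symm, ?_⟩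
  have h := RepLemmas.charpoly_conj_pow_eq ρ₁.finrank_eq ρ₂.finrank_eq ρ₁.ρ ρ₂.ρ (f := τ)
    (by rw [h₁ ℓ hℓ hℓS B hB τ hτ, h₂ ℓ hℓ hℓS B hB τ hτ]) 1 j
  rwa [one_mul, inv_one, mul_one] at h

/-- **Adapter**: a representation with the Frobenius polynomials of an `O`-valued character is
the point of a Hecke–Galois datum. -/
theorem exists_datum_of_hom {p : ℕ} [Fact p.Prime] {N : ℕ} [NeZero N] {S : Finset ℕ}
    (hpS : p ∈ S) {O : Type} [CommRing O] [IsDomain O] [IsDiscreteValuationRing O]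
    [IsAdicComplete (maximalIdeal O) O] [Finite (ResidueField O)] [CharZero O]
    (hp2 : p ≠ 2) (hpO : (p : O) ∈ maximalIdeal O) (hNS : ∀ q : ℕ, q.Prime → q ∣ N → q ∈ S)
    (ρbar : ResidualGaloisRep (ResidueField O)) (habs : ρbar.IsAbsolutelyIrreducible)
    (hodd : ρbar.IsOdd)
    (χ : CuspForm.heckeAlgebra N 2 (↑S : Set ℕ) →+* O) (a : ℕ → O)
    (hχ : ∀ (ℓ : ℕ) (hℓ : ℓ.Prime) (hℓN : ¬ ℓ ∣ N) (hℓS : ℓ ∉ (↑S : Set ℕ)),
      χ (CuspForm.heckeAlgebra.T hℓ hℓN hℓS) = a ℓ)
    (hrestr : ∀ ℓ : ℕ, ℓ.Prime → ℓ ∉ S → ∀ A : ValuationSubring ℚbar, A.LiesOverPrime ℓ →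
      ∀ σ : Γℚ, A.IsFrobeniusAt σ ℓ →
        residue O (a ℓ) = LinearMap.trace (ResidueField O) ρbar.V (ρbar.ρ σ) ∧
        LinearMap.det (ρbar.ρ σ) = (ℓ : ResidueField O))
    {ρ : GaloisRepAdic O} (hρ : HasFrobPoly ρ S a) :
    ∃ (θ : CuspForm.heckeAlgebra N 2 (↑S : Set ℕ) →+* ResidueField O)
      (T : Type) (_ : CommRing T) (_ : IsLocalRing T) (_ : IsNoetherianRing T)
      (_ : IsAdicComplete (maximalIdeal T) T) (_ : Algebra O T)
      (_ : IsLocalHom (algebraMap O T)) (_ : Module.Finite O T) (_ : Module.Free O T)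
      (H : CuspForm.HeckeGaloisRepDatum N (↑S : Set ℕ) O θ T)
      (φ : T →ₐ[O] O) (hφ : IsLocalHom (φ : T →+* O)),
      Function.Surjective φ ∧
      (H.ρ.baseChangeAlong (φ : T →+* O) hφ).IsEquiv ρ ∧
      H.ρ.residual.IsEquiv (ρbar.baseChangeAlong (ResidueField.map (algebraMap O T))) ∧
      ∀ (ℓ : ℕ) (hℓ : ℓ.Prime) (hℓN : ¬ ℓ ∣ N) (hℓS : ℓ ∉ (↑S : Set ℕ)),
        φ (H.π (CuspForm.heckeAlgebra.T hℓ hℓN hℓS)) = a ℓ := by
  classical
  let R := CuspForm.heckeAlgebra N 2 (↑S : Set ℕ)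
  let θ : R →+* ResidueField O := (residue O).comp χ
  haveI : Module.Finite ℤ R := Integral.moduleFinite_heckeAlgebra N 2 _
  haveI : Finite (R →+* O) := finite_ringHom R O
  -- the lifts of `θ`
  let Φ : Type := {χ' : R →+* O // ∀ t, residue O (χ' t) = θ t}
  haveI : Finite Φ := Subtype.finite
  haveI : Fintype Φ := Fintype.ofFinite Φ
  let χ₀ : Φ := ⟨χ, fun _ => rfl⟩
  let π₀ : R →+* (Φ → O) := Pi.ringHom fun χ' : Φ => χ'.1
  let T : Subalgebra O (Φ → O) := Algebra.adjoin O (Set.range π₀)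
  haveI hfinT : Module.Finite O T :=
    Module.Finite.of_injective T.val.toLinearMap Subtype.val_injective
  haveI hfreeT : Module.Free O T := Module.free_of_finite_type_torsion_free'
  haveI hnoethT : IsNoetherianRing T := IsNoetherianRing.of_finite O T
  let ev : Φ → T →ₐ[O] O := fun χ' => (Pi.evalAlgHom O (fun _ : Φ => O) χ').comp T.val
  -- all coordinates have the same reduction
  have hred : ∀ (x : T) (χ' : Φ), residue O (ev χ' x) = residue O (ev χ₀ x) := by
    rintro ⟨x, hx⟩ χ'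
    show residue O (x χ') = residue O (x χ₀)
    induction hx using Algebra.adjoin_induction with
    | mem y hy => obtain ⟨t, rfl⟩ := hy; exact (χ'.2 t).trans (χ₀.2 t).symm
    | algebraMap c => rfl
    | add y z _ _ hy hz => rw [Pi.add_apply, Pi.add_apply, map_add, map_add, hy, hz]
    | mul y z _ _ hy hz => rw [Pi.mul_apply, Pi.mul_apply, map_mul, map_mul, hy, hz]
  have hunit : ∀ x : T, IsUnit (ev χ₀ x) → IsUnit x := by
    intro x hx
    have hall : IsUnit (x : Φ → O) := Pi.isUnit_iff.2 fun χ' => by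
      refine (residue_ne_zero_iff_isUnit _).1 ?_
      rw [show (x : Φ → O) χ' = ev χ' x from rfl, hred x χ']
      exact (residue_ne_zero_iff_isUnit _).2 hx
    haveI : Algebra.IsIntegral T (Φ → O) := ⟨fun y =>
      (Algebra.IsIntegral.isIntegral (R := O) y).tower_top⟩
    haveI : IsLocalHom (algebraMap T (Φ → O)) :=
      RingHom.IsIntegral.isLocalHom Algebra.IsIntegral.isIntegral Subtype.val_injective
    exact isUnit_of_map_unit (algebraMap T (Φ → O)) x hall
  haveI hnt : Nontrivial T := (ev χ₀).toRingHom.domain_nontrivial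
  haveI hlocT : IsLocalRing T := IsLocalRing.of_nonunits_add fun x y hx hy hxy => by
    have h : ev χ₀ x + ev χ₀ y ∈ maximalIdeal O :=
      add_mem (show ev χ₀ x ∈ maximalIdeal O from fun h => hx (hunit x h))
        (show ev χ₀ y ∈ maximalIdeal O from fun h => hy (hunit y h))
    rw [← map_add] at h
    exact h (hxy.map (ev χ₀))
  haveI hevloc : ∀ χ', IsLocalHom ((ev χ' : T →ₐ[O] O) : T →+* O) := fun χ' => ⟨fun x hx => by
    refine hunit x ((residue_ne_zero_iff_isUnit _).1 ?_)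
    rw [← hred x χ']
    exact (residue_ne_zero_iff_isUnit _).2 hx⟩
  haveI hlocOT : IsLocalHom (algebraMap O T) := ⟨fun c hc => by
    have := hc.map (ev χ₀)
    rwa [AlgHom.commutes] at this⟩
  haveI hcompT : IsAdicComplete (maximalIdeal T) T := IsLocalRing.isAdicComplete_of_module_finite (𝒪 := O)
  have hmk : ∀ x : T, residue T x =
      ResidueField.map (algebraMap O T) (residue O (ev χ₀ x)) := fun x => by
    show residue T x = residue T (algebraMap O T (ev χ₀ x))
    rw [← sub_eq_zero, ← map_sub, residue_eq_zero_iff]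
    intro h
    have := h.map (ev χ₀)
    rw [map_sub, AlgHom.commutes, Algebra.algebraMap_self_apply, sub_self] at this
    exact not_isUnit_zero this
  let π : R →+* T := π₀.codRestrict T.toSubring fun t => Algebra.subset_adjoin ⟨t, rfl⟩
  -- the representations of the lifts
  have hpt : ∀ χ' : Φ, ∃ ρ' : GaloisRepAdic O,
      HasFrobPoly ρ' S fun ℓ => if h : ℓ.Prime ∧ ¬ ℓ ∣ N ∧ ℓ ∉ (↑S : Set ℕ) then
        χ'.1 (CuspForm.heckeAlgebra.T h.1 h.2.1 h.2.2) else 0 := by
    intro χ'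
    obtain ⟨ρ', h1, -, -⟩ := exists_rep_of_hom hpS hp2 hpO hNS ρbar habs hodd χ'.1
      (fun ℓ => if h : ℓ.Prime ∧ ¬ ℓ ∣ N ∧ ℓ ∉ (↑S : Set ℕ) then
        χ'.1 (CuspForm.heckeAlgebra.T h.1 h.2.1 h.2.2) else 0)
      (fun ℓ hℓ hℓN hℓS => by rw [dif_pos ⟨hℓ, hℓN, hℓS⟩])
      (fun ℓ hℓ hℓS A hA σ hσ => by
        have hc : ℓ.Prime ∧ ¬ ℓ ∣ N ∧ ℓ ∉ (↑S : Set ℕ) :=
          ⟨hℓ, fun h => hℓS (hNS ℓ hℓ h), by simpa using hℓS⟩
        rw [dif_pos hc, χ'.2]
        show residue O (χ _) = _ ∧ _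
        rw [hχ]
        exact hrestr ℓ hℓ hℓS A hA σ hσ)
    exact ⟨ρ', h1⟩
  choose ρs hρs using hpt
  let aT : ℕ → T := fun ℓ => if h : ℓ.Prime ∧ ¬ ℓ ∣ N ∧ ℓ ∉ (↑S : Set ℕ) then
    π (CuspForm.heckeAlgebra.T h.1 h.2.1 h.2.2) else 0
  have haT : ∀ (ℓ : ℕ) (hℓ : ℓ.Prime) (hℓN : ¬ ℓ ∣ N) (hℓS : ℓ ∉ (↑S : Set ℕ)),
      aT ℓ = π (CuspForm.heckeAlgebra.T hℓ hℓN hℓS) := fun ℓ hℓ hℓN hℓS => dif_pos ⟨hℓ, hℓN, hℓS⟩
  let κ : ResidueField O →+* ResidueField T := ResidueField.map (algebraMap O T)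
  have hκ : Function.Bijective κ := ⟨κ.injective, fun x => by
    obtain ⟨y, rfl⟩ := residue_surjective x
    exact ⟨_, (hmk y).symm⟩⟩
  letI : Algebra (ResidueField O) (ResidueField T) := κ.toAlgebra
  -- the residual representation over the residue field of `T`
  let ρbarT : ResidualGaloisRep (ResidueField T) := ρbar.baseChangeAlong κ
  have hoddT : ρbarT.IsOdd := fun c hc hc1 => by
    show LinearMap.det ((ρbar.ρ c).baseChange (ResidueField T)) = -1
    rw [LinearMap.det_baseChange, hodd c hc hc1, map_neg, map_one]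
  have habsT : ρbarT.IsAbsolutelyIrreducible :=
    isAbsolutelyIrreducible_baseChangeAlong κ hκ.2 ρbar habs
  have hpT : (p : T) ∈ maximalIdeal T := by
    rw [← map_natCast (algebraMap O T) p]
    exact map_nonunit (algebraMap O T) (p : O) hpO
  obtain ⟨ρT, hρT, hresT, htrT, hdetT⟩ := exists_rep_of_family
    (isUnit_two_of_mem Fact.out hp2 hpT) ρbarT habsT hoddT (ι := Φ) (fun _ => O)
    (fun χ' => (ev χ' : T →+* O)) (fun x hx => Subtype.ext (funext hx))
    (fun n => by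
      obtain ⟨c, hc⟩ := Ideal.exists_pow_inf_eq_pow_smul (maximalIdeal O)
        (N := Subalgebra.toSubmodule T)
      refine ⟨n + c, fun x hx => ?_⟩
      have hxM : (x : Φ → O) ∈
          maximalIdeal O ^ (n + c) • (⊤ : Submodule O (Φ → O)) ⊓ Subalgebra.toSubmodule T := by
        refine ⟨?_, x.2⟩
        show (x : Φ → O) ∈ maximalIdeal O ^ (n + c) • (⊤ : Submodule O (Φ → O))
        rw [← Finset.univ_sum_single (x : Φ → O)]
        refine Submodule.sum_mem _ fun χ' _ => ?_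
        rw [show Pi.single χ' ((x : Φ → O) χ') =
          ((x : Φ → O) χ') • Pi.single χ' (1 : O) by rw [← Pi.single_smul']; simp]
        exact Submodule.smul_mem_smul (hx χ') Submodule.mem_top
      rw [hc (n + c) (Nat.le_add_left c n), Nat.add_sub_cancel] at hxM
      have hle : maximalIdeal O ^ c • (⊤ : Submodule O (Φ → O)) ⊓ Subalgebra.toSubmodule T ≤
          (⊤ : Submodule O T).map T.val.toLinearMap := fun z hz => ⟨⟨z, hz.2⟩, trivial, rfl⟩
      have h1 := Submodule.smul_mono (le_refl (maximalIdeal O ^ n)) hle hxM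
      rw [← Submodule.map_smul'', Ideal.smul_top_eq_map] at h1
      obtain ⟨x', hx', hxx⟩ := h1
      rw [show x = x' from (Subtype.ext hxx).symm]
      have h2 : ((maximalIdeal O) ^ n).map (algebraMap O T) ≤ maximalIdeal T ^ n := by
        rw [Ideal.map_pow]
        exact Ideal.pow_right_mono
          (show (maximalIdeal O).map (algebraMap O T) ≤ maximalIdeal T from
            Ideal.map_le_iff_le_comap.2 fun b hb => map_nonunit (algebraMap O T) b hb) n
      exact h2 hx')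
    (fun y hy => by
      have hy' : (y : Φ → O) ∈ Subalgebra.toSubmodule T := by
        refine mem_of_forall_mem_sup_pow _ y fun n => ?_
        obtain ⟨x, hx⟩ := hy n
        rw [show y = (x : Φ → O) - ((x : Φ → O) - y) by abel]
        refine Submodule.sub_mem _ (Submodule.mem_sup_left x.2) (Submodule.mem_sup_right ?_)
        rw [← Finset.univ_sum_single ((x : Φ → O) - y)]
        refine Submodule.sum_mem _ fun χ' _ => ?_
        rw [show Pi.single χ' (((x : Φ → O) - y) χ') =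
          (((x : Φ → O) - y) χ') • Pi.single χ' (1 : O) by rw [← Pi.single_smul']; simp]
        exact Submodule.smul_mem_smul (hx χ') Submodule.mem_top
      exact ⟨⟨y, hy'⟩, fun χ' => rfl⟩)
    ρs aT S
    (fun χ' ℓ hℓ hℓS A hA σ hσ => by
      have hℓN : ¬ ℓ ∣ N := fun h => hℓS (hNS ℓ hℓ h)
      have hℓS' : ℓ ∉ (↑S : Set ℕ) := by simpa using hℓS
      rw [hρs χ' ℓ hℓ hℓS A hA σ hσ]
      simp only [dif_pos (show ℓ.Prime ∧ ¬ ℓ ∣ N ∧ ℓ ∉ (↑S : Set ℕ) from ⟨hℓ, hℓN, hℓS'⟩),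
        haT ℓ hℓ hℓN hℓS']
      rfl)
    (fun ℓ hℓ hℓS A hA σ hσ => by
      have hℓN : ¬ ℓ ∣ N := fun h => hℓS (hNS ℓ hℓ h)
      have hℓS' : ℓ ∉ (↑S : Set ℕ) := by simpa using hℓS
      obtain ⟨h1, h2⟩ := hrestr ℓ hℓ hℓS A hA σ hσ
      refine ⟨?_, ?_⟩
      · rw [haT ℓ hℓ hℓN hℓS', hmk]
        show κ (residue O (χ _)) = _
        rw [hχ, h1]
        exact (LinearMap.trace_baseChange (ρbar.ρ σ) (ResidueField T)).symm
      · show LinearMap.det ((ρbar.ρ σ).baseChange (ResidueField T)) = _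
        rw [LinearMap.det_baseChange, h2, map_natCast])
  let H : CuspForm.HeckeGaloisRepDatum N (↑S : Set ℕ) O θ T :=
    { π := π
      residue_π := fun t => hmk (π t)
      adjoin_range_π := by
        refine Subalgebra.map_injective (f := T.val) Subtype.val_injective ?_
        rw [← Algebra.adjoin_image, Algebra.map_top, Subalgebra.range_val, ← Set.range_comp]
        rfl
      exists_point := fun χ' hχ' => ⟨ev ⟨χ', hχ'⟩, fun t => rfl⟩
      residue_surjective := fun x => by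
        obtain ⟨y, rfl⟩ := residue_surjective x
        exact ⟨ev χ₀ y, (hmk y).symm⟩
      ρ := ρT
      charpoly_frob := fun ℓ hℓ hℓN hℓS A hA σ hσ => by
        rw [hρT ℓ hℓ (by simpa using hℓS) A hA σ hσ, haT ℓ hℓ hℓN hℓS]
      residual_absIrr := isAbsolutelyIrreducible_of_equiv hresT habsT }
  refine ⟨θ, T, inferInstance, hlocT, hnoethT, hcompT, inferInstance, hlocOT, hfinT, hfreeT, H,
    ev χ₀, hevloc χ₀, fun c => ⟨algebraMap O T c, by rw [AlgHom.commutes]; rfl⟩, ?_, hresT, ?_⟩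
  · obtain ⟨ρ₀, hρ₀, -, hres₀⟩ := exists_rep_of_hom hpS hp2 hpO hNS ρbar habs hodd χ a hχ hrestr
    have habs₀ := isAbsolutelyIrreducible_of_equiv hres₀ habs
    have hbc : HasFrobPoly (ρT.baseChangeAlong (ev χ₀ : T →+* O) (hevloc χ₀)) S a := by
      intro ℓ hℓ hℓS A hA σ hσ
      have hℓN : ¬ ℓ ∣ N := fun h => hℓS (hNS ℓ hℓ h)
      have hℓS' : ℓ ∉ (↑S : Set ℕ) := by simpa using hℓS
      rw [ETransfer.charpoly_baseChangeAlong, hρT ℓ hℓ hℓS A hA σ hσ, haT ℓ hℓ hℓN hℓS']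
      simp only [Polynomial.map_add, Polynomial.map_sub, Polynomial.map_pow, Polynomial.map_X,
        Polynomial.map_mul, Polynomial.map_C, map_natCast]
      rw [show (ev χ₀ : T →+* O) (π _) = a ℓ from hχ ℓ hℓ hℓN hℓS', Polynomial.map_natCast]
    obtain ⟨e₁⟩ := isEquiv_of_hasFrobPoly hρ₀ hbc habs₀
    obtain ⟨e₂⟩ := isEquiv_of_hasFrobPoly hρ₀ hρ habs₀
    exact ⟨e₁.symm.trans e₂⟩
  · intro ℓ hℓ hℓN hℓS
    exact hχ ℓ hℓ hℓN hℓS

end Fermat.Agent.Lifting
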