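/-
An odd absolutely irreducible residual representation is not Eisenstein: there are Frobenius
elements at primes congruent to one with trace different from two.
-/
import Fermat.Agent.Datum.Roots
import Fermat.Agent.Density.Main
import Fermat.Agent.RepLemmas.Galois
import Fermat.Prelude.Def_GaloisRep_Residual

set_option autoImplicit false

noncomputable section

namespace Fermat.Agent.Lifting

open Matrix

local notation "ℚbar" => AlgebraicClosure ℚ
local notation "Γℚ" => AlgebraicClosure ℚ ≃ₐ[ℚ] AlgebraicClosure ℚ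

/-- Two nilpotent `2 × 2` matrices with `tr (X Y) = 0` over a reduced ring have `Y X = 0`. -/
theorem mul_eq_zero_of_nilpotent {k : Type*} [CommRing k] [IsReduced k]
    (X Y : Matrix (Fin 2) (Fin 2) k) (hX : X.trace = 0) (hXd : X.det = 0) (hY : Y.trace = 0)
    (hYd : Y.det = 0) (hXY : (X * Y).trace = 0) : Y * X = 0 := by
  have hX1 : X 1 1 = -X 0 0 := eq_neg_of_add_eq_zero_right ((trace_fin_two X).symm.trans hX)
  have hY1 : Y 1 1 = -Y 0 0 := eq_neg_of_add_eq_zero_right ((trace_fin_two Y).symm.trans hY)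
  rw [det_fin_two, hX1] at hXd
  rw [det_fin_two, hY1] at hYd
  simp only [trace_fin_two, Matrix.mul_apply, Fin.sum_univ_two, hX1, hY1] at hXY
  have hred : ∀ x : k, x ^ 2 = 0 → x = 0 := fun x h => IsReduced.eq_zero x ⟨2, h⟩
  ext i j
  fin_cases i <;> fin_cases j <;> simp [Matrix.mul_apply, Fin.sum_univ_two, hX1, hY1] <;>
    apply hred
  · linear_combination (Y 0 1 * X 1 0) * hXY + (-(Y 0 0 ^ 2)) * hXd +
      (-(X 0 0 ^ 2) - (X 0 0 * -X 0 0 - X 0 1 * X 1 0)) * hYd
  · linear_combination (-(Y 0 1 * X 0 1)) * hXY + (-(X 0 1 ^ 2)) * hYd + (-(Y 0 1 ^ 2)) * hXd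
  · linear_combination (-(Y 1 0 * X 1 0)) * hXY + (-(X 1 0 ^ 2)) * hYd + (-(Y 1 0 ^ 2)) * hXd
  · linear_combination (Y 1 0 * X 0 1) * hXY + (-(Y 0 0 ^ 2)) * hXd +
      (-(X 0 0 ^ 2) - (X 0 0 * -X 0 0 - X 0 1 * X 1 0)) * hYd

/-- **Not Eisenstein.** -/
theorem exists_trace_ne_add_one {k : Type} [Field k] (ρbar : ResidualGaloisRep k)
    (habs : ρbar.IsAbsolutelyIrreducible) (N : ℕ) [NeZero N] (S : Finset ℕ)
    (hNS : ∀ q : ℕ, q.Prime → q ∣ N → q ∈ S)
    (hdet : ∀ ℓ : ℕ, ℓ.Prime → ℓ ∉ S → ∀ A : ValuationSubring ℚbar, A.LiesOverPrime ℓ →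
      ∀ σ : Γℚ, A.IsFrobeniusAt σ ℓ → LinearMap.det (ρbar.ρ σ) = (ℓ : k)) :
    ∃ ℓ : ℕ, ℓ.Prime ∧ ℓ ∉ S ∧ (ℓ : ZMod N) = 1 ∧ ∃ A : ValuationSubring ℚbar,
      A.LiesOverPrime ℓ ∧ ∃ σ : Γℚ, A.IsFrobeniusAt σ ℓ ∧
        LinearMap.trace k ρbar.V (ρbar.ρ σ) ≠ (ℓ : k) + 1 := by
  classical
  by_contra hcon
  push Not at hcon
  let b : Module.Basis (Fin 2) k ρbar.V := Module.finBasisOfFinrankEq _ _ ρbar.finrank_eq
  let r : Γℚ →* Matrix (Fin 2) (Fin 2) k :=
    (LinearMap.toMatrixAlgEquiv b).toAlgHom.toRingHom.toMonoidHom.comp ρbar.ρ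
  have hrinj : ∀ f g : Module.End k ρbar.V,
      LinearMap.toMatrixAlgEquiv b f = LinearMap.toMatrixAlgEquiv b g → f = g :=
    fun f g h => (LinearMap.toMatrixAlgEquiv b).injective h
  obtain ⟨ζ, hζ⟩ := HasEnoughRootsOfUnity.exists_primitiveRoot ℚbar N
  obtain ⟨L₀, hL₀, h₀⟩ := ρbar.factorsThroughFiniteLevel
  let L : IntermediateField ℚ ℚbar := L₀ ⊔ IntermediateField.adjoin ℚ {ζ}
  haveI : FiniteDimensional ℚ (IntermediateField.adjoin ℚ ({ζ} : Set ℚbar)) :=
    IntermediateField.adjoin.finiteDimensional (Algebra.IsIntegral.isIntegral ζ)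
  have hζL : ζ ∈ L := le_sup_right (a := L₀) (IntermediateField.mem_adjoin_simple_self ℚ ζ)
  -- elements fixing the roots of unity with trivial determinant are unipotent
  have huni : ∀ σ : Γℚ, σ ζ = ζ → (r σ).det = 1 → (r σ).trace = 2 := by
    intro σ hσζ hσd
    obtain ⟨ℓ, hℓ, hℓS, A, hA, τ, hτ, ⟨j, hj⟩, ⟨j', hj'⟩⟩ :=
      Density.exists_frobenius_pow σ L S
    have hℓN : ℓ.Coprime N := hℓ.coprime_iff_not_dvd.2 fun h => hℓS (hNS ℓ hℓ h)
    have hℓ1 : (ℓ : ZMod N) = 1 := by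
      have h1 := Datum.frobenius_apply_root hA hτ hℓN (NeZero.ne N) hζ.pow_eq_one
      have h2 : ∀ i : ℕ, (σ ^ i) ζ = ζ := fun i => by
        induction i with
        | zero => simp
        | succ i ih => rw [pow_succ, AlgEquiv.mul_apply, hσζ, ih]
      rw [hj' ζ hζL, h2 j'] at h1
      have h3 : ((1 : ℕ) : ZMod N) = (ℓ : ZMod N) := by
        rw [ZMod.natCast_eq_natCast_iff']
        refine hζ.pow_inj (Nat.mod_lt _ (NeZero.pos N)) (Nat.mod_lt _ (NeZero.pos N)) ?_
        rw [← pow_eq_pow_mod _ hζ.pow_eq_one, ← pow_eq_pow_mod _ hζ.pow_eq_one, pow_one]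
        exact h1
      rw [← h3, Nat.cast_one]
    have ht : (r τ).trace = (ℓ : k) + 1 :=
      (LinearMap.trace_eq_matrix_trace k b _).symm.trans (hcon ℓ hℓ hℓS hℓ1 A hA τ hτ)
    have hd : (r τ).det = (ℓ : k) :=
      (LinearMap.det_toMatrix b _).trans (hdet ℓ hℓ hℓS A hA τ hτ)
    have hστ : r σ = r τ ^ j := by
      rw [← map_pow]
      have h1 : ρbar.ρ ((τ ^ j)⁻¹ * σ) = 1 := h₀ _ fun x hx => by
        rw [AlgEquiv.mul_apply, hj x (le_sup_left (b := IntermediateField.adjoin ℚ {ζ}) hx),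
          ← AlgEquiv.mul_apply, inv_mul_cancel, AlgEquiv.one_apply]
      have h2 : r ((τ ^ j)⁻¹ * σ) = 1 := by
        show LinearMap.toMatrixAlgEquiv b (ρbar.ρ _) = 1
        rw [h1, map_one]
      rw [show r σ = r (τ ^ j) * r ((τ ^ j)⁻¹ * σ) by rw [← map_mul, mul_inv_cancel_left], h2,
        mul_one]
    have htr : ∀ i : ℕ, ((r τ) ^ i).trace = (ℓ : k) ^ i + 1 := by
      intro i
      induction i using Nat.twoStepInduction with
      | zero => simp; norm_num
      | one => simp [ht]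
      | more i ih1 ih2 =>
        rw [show i + 2 = i + 2 from rfl]
        have hCH : r τ * r τ = (r τ).trace • r τ - (r τ).det • 1 := by
          ext u v
          fin_cases u <;> fin_cases v <;>
            simp [Matrix.mul_apply, Fin.sum_univ_two, trace_fin_two, det_fin_two] <;> ring
        rw [pow_add, pow_two, hCH, Matrix.mul_sub, Matrix.mul_smul, Matrix.mul_smul, trace_sub,
          trace_smul, trace_smul, mul_one, ← pow_succ, smul_eq_mul, smul_eq_mul, ih1, ih2, ht, hd]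
        ring
    have hdj : (ℓ : k) ^ j = 1 := by rw [← hd, ← Matrix.det_pow, ← hστ, hσd]
    rw [hστ, htr, hdj]
    norm_num
  -- commutators are unipotent and fix the roots of unity
  let C : Subgroup Γℚ := commutator Γℚ
  have hC : ∀ σ ∈ C, σ ζ = ζ ∧ (r σ).det = 1 := by
    intro σ hσ
    let f : Γℚ →* k := (LinearMap.det).comp ρbar.ρ
    refine ⟨?_, ?_⟩
    · have hle : C ≤ (Datum.chiMod N).toHomUnits.ker := Abelianization.commutator_subset_ker _
      have h1 := congrArg (fun u : (ZMod N)ˣ => (u : ZMod N)) (hle hσ)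
      rw [Datum.chiMod_spec N σ hζ.pow_eq_one]
      simp only [MonoidHom.coe_toHomUnits, Units.val_one] at h1
      rw [h1]
      rcases eq_or_ne N 1 with rfl | hN
      · rw [show ζ = 1 by simpa using hζ.pow_eq_one, one_pow]
      · haveI : Fact (1 < N) := ⟨by have := NeZero.ne N; omega⟩
        rw [ZMod.val_one, pow_one]
    · have hle : C ≤ f.toHomUnits.ker := Abelianization.commutator_subset_ker _
      have h1 := congrArg (fun u : kˣ => (u : k)) (hle hσ)
      simp only [MonoidHom.coe_toHomUnits, Units.val_one] at h1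
      exact (LinearMap.det_toMatrix b _).trans h1
  have htr2 : ∀ σ ∈ C, (r σ - 1).trace = 0 ∧ (r σ - 1).det = 0 := by
    intro σ hσ
    have h1 := huni σ (hC σ hσ).1 (hC σ hσ).2
    have h2 := (hC σ hσ).2
    rw [trace_fin_two] at h1
    rw [det_fin_two] at h2
    constructor
    · rw [trace_fin_two]; simp; linear_combination h1
    · rw [det_fin_two]; simp; linear_combination h2 - h1
  -- the common fixed vectors of the commutators
  let W : Submodule k ρbar.V := ⨅ σ : C, LinearMap.ker (ρbar.ρ σ - 1)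
  have hWmem : ∀ v, v ∈ W ↔ ∀ σ ∈ C, ρbar.ρ σ v = v := fun v => by
    simp [W, Submodule.mem_iInf, sub_eq_zero]
  have hWst : ∀ g : Γℚ, ∀ v ∈ W, ρbar.ρ g v ∈ W := by
    intro g v hv
    rw [hWmem] at hv ⊢
    intro σ hσ
    have hn : g⁻¹ * σ * g ∈ C := by
      simpa using Subgroup.Normal.conj_mem inferInstance σ hσ g⁻¹
    have h := congrArg (ρbar.ρ g) (hv _ hn)
    rwa [← Module.End.mul_apply, ← map_mul, show g * (g⁻¹ * σ * g) = σ * g by group,
      map_mul, Module.End.mul_apply] at h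
  have hirr : ρbar.IsIrreducible := isIrreducible_of_span _
    (RepLemmas.residual_span_eq_top_of_isAbsolutelyIrreducible ρbar habs)
  have hWtop : W = ⊤ := by
    refine (hirr W hWst).resolve_left fun hbot => ?_
    by_cases hall : ∀ σ ∈ C, ρbar.ρ σ = 1
    · have : (⊤ : Submodule k ρbar.V) ≤ W := fun v _ =>
        (hWmem v).2 fun σ hσ => by rw [hall σ hσ]; rfl
      rw [hbot] at this
      have h2 := ρbar.finrank_eq
      rw [← finrank_top, le_bot_iff.1 this, finrank_bot] at h2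
      exact absurd h2 (by norm_num)
    push Not at hall
    obtain ⟨g, hg, hg1⟩ := hall
    obtain ⟨v, hv⟩ : ∃ v, (ρbar.ρ g - 1) v ≠ 0 := by
      by_contra h
      push Not at h
      exact hg1 (sub_eq_zero.1 (LinearMap.ext h))
    refine hv ?_
    rw [← Submodule.mem_bot k, ← hbot, hWmem]
    intro σ hσ
    have hprod : ((r g - 1) * (r σ - 1)).trace = 0 := by
      have h1 := (htr2 _ (C.mul_mem hg hσ)).1
      rw [map_mul, show r g * r σ - 1 = (r g - 1) * (r σ - 1) + (r g - 1) + (r σ - 1) by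
        noncomm_ring, trace_add, trace_add, (htr2 g hg).1, (htr2 σ hσ).1] at h1
      simpa using h1
    have h0 := mul_eq_zero_of_nilpotent _ _ (htr2 g hg).1 (htr2 g hg).2 (htr2 σ hσ).1
      (htr2 σ hσ).2 hprod
    have h1 : (ρbar.ρ σ - 1) * (ρbar.ρ g - 1) = 0 := hrinj _ _ (by
      rw [map_mul, map_sub, map_sub, map_one, map_zero]; exact h0)
    have h2 := LinearMap.congr_fun h1 v
    rw [Module.End.mul_apply, LinearMap.sub_apply, Module.End.one_apply] at h2
    exact sub_eq_zero.1 h2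
  -- the image is abelian
  have habel : ∀ σ τ : Γℚ, ρbar.ρ σ * ρbar.ρ τ = ρbar.ρ τ * ρbar.ρ σ := by
    intro σ τ
    have hc : σ * τ * σ⁻¹ * τ⁻¹ ∈ C := Subgroup.commutator_mem_commutator trivial trivial
    have h1 : ρbar.ρ (σ * τ * σ⁻¹ * τ⁻¹) = 1 := LinearMap.ext fun v =>
      (hWmem v).1 (hWtop ▸ Submodule.mem_top) _ hc
    rw [← map_mul, ← map_mul, show σ * τ = (σ * τ * σ⁻¹ * τ⁻¹) * (τ * σ) by group, map_mul, h1,
      one_mul]
  have hcomm : ∀ f g : Module.End k ρbar.V, f * g = g * f := by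
    have hspan := RepLemmas.residual_span_eq_top_of_isAbsolutelyIrreducible ρbar habs
    intro f g
    have hf : f ∈ Submodule.span k (Set.range ρbar.ρ) := by rw [hspan]; trivial
    have hg : g ∈ Submodule.span k (Set.range ρbar.ρ) := by rw [hspan]; trivial
    induction hf, hg using Submodule.span_induction₂ with
    | mem_mem x y hx hy => obtain ⟨σ, rfl⟩ := hx; obtain ⟨τ, rfl⟩ := hy; exact habel σ τ
    | zero_left y hy => simp
    | zero_right x hx => simp
    | add_left x y z _ _ _ h1 h2 => rw [add_mul, mul_add, h1, h2]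
    | add_right x y z _ _ _ h1 h2 => rw [add_mul, mul_add, h1, h2]
    | smul_left c x y _ _ h => rw [smul_mul_assoc, mul_smul_comm, h]
    | smul_right c x y _ _ h => rw [smul_mul_assoc, mul_smul_comm, h]
  have h := congrArg (LinearMap.toMatrixAlgEquiv b)
    (hcomm (Matrix.toLinAlgEquiv b !![0, 1; 0, 0]) (Matrix.toLinAlgEquiv b !![0, 0; 1, 0]))
  simp only [map_mul, LinearMap.toMatrixAlgEquiv_toLinAlgEquiv] at h
  have h00 := congrFun (congrFun h 0) 0
  simp [Matrix.mul_apply] at h00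
where
  isIrreducible_of_span (ρ : ResidualGaloisRep k)
      (h : Submodule.span k (Set.range ρ.ρ) = ⊤) : ρ.IsIrreducible := by
    intro W hW
    by_cases hb : W = ⊥
    · exact Or.inl hb
    obtain ⟨w, hw, hw0⟩ := Submodule.exists_mem_ne_zero_of_ne_bot hb
    refine Or.inr (eq_top_iff.2 fun v _ => ?_)
    obtain ⟨f, rfl⟩ : ∃ f : Module.End k ρ.V, f w = v := by
      obtain ⟨φ, hφ⟩ := exists_eq_one_of_ne_zero w hw0
      exact ⟨φ.smulRight v, by simp [hφ]⟩
    have hf : f ∈ Submodule.span k (Set.range ρ.ρ) := h ▸ Submodule.mem_top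
    induction hf using Submodule.span_induction with
    | mem g hg => obtain ⟨σ, rfl⟩ := hg; exact hW σ w hw
    | zero => simp
    | add g g' _ _ hg hg' => exact add_mem (hg trivial) (hg' trivial)
    | smul c g _ hg => exact Submodule.smul_mem _ c (hg trivial)
  exists_eq_one_of_ne_zero {V : Type} [AddCommGroup V] [Module k V] (w : V) (hw : w ≠ 0) :
      ∃ φ : V →ₗ[k] k, φ w = 1 := by
    obtain ⟨φ, hφ⟩ := LinearMap.exists_extend (LinearEquiv.coord k V w hw).toLinearMap
    refine ⟨φ, ?_⟩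
    have := LinearMap.congr_fun hφ ⟨w, Submodule.mem_span_singleton_self w⟩
    exact this.trans (LinearEquiv.coord_self k V w hw)

end Fermat.Agent.Lifting
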