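/-
Removing from the modulus of the nebentype the primes at which it is trivial.
-/
import Fermat.Agent.Lifting.EDefs
import Fermat.Agent.Ribet.Twisted.TwistDefs
import Mathlib.NumberTheory.DirichletCharacter.Basic

set_option autoImplicit false

noncomputable section

namespace Fermat.Agent.Lifting

open Fermat.Agent.Ribet.Twisted CongruenceSubgroup
open scoped MatrixGroups

variable {O : Type} [CommRing O] {L D : ℕ} {ψ : DirichletCharacter O D}

open Classical in
/-- The product of the primes `q ∣ D` at which `ψ` is nontrivial. -/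
def effModulus (ψ : DirichletCharacter O D) : ℕ :=
  ∏ q ∈ D.primeFactors.filter (fun q => ∃ d : ℤ, (d : ZMod (D / q)) = 1 ∧
    IsUnit (d : ZMod D) ∧ ψ (d : ZMod D) ≠ 1), q

theorem effModulus_pos (ψ : DirichletCharacter O D) : 0 < effModulus ψ :=
  Finset.prod_pos fun _ hq => by
    classical
    exact (Nat.prime_of_mem_primeFactors (Finset.mem_filter.1 hq).1).pos

instance neZero_effModulus (ψ : DirichletCharacter O D) : NeZero (effModulus ψ) :=
  ⟨(effModulus_pos ψ).ne'⟩

theorem dvd_effModulus_imp {q : ℕ} (hq : q.Prime) (h : q ∣ effModulus ψ) :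
    q ∣ D ∧ ∃ d : ℤ, (d : ZMod (D / q)) = 1 ∧ IsUnit (d : ZMod D) ∧ ψ (d : ZMod D) ≠ 1 := by
  classical
  rw [effModulus] at h
  obtain ⟨r, hr, hqr⟩ := (Prime.dvd_finsetProd_iff hq.prime _).1 h
  obtain ⟨hr1, hr2⟩ := Finset.mem_filter.1 hr
  obtain rfl := (Nat.prime_dvd_prime_iff_eq hq (Nat.prime_of_mem_primeFactors hr1)).1 hqr
  exact ⟨Nat.dvd_of_mem_primeFactors hr1, hr2⟩

theorem effModulus_dvd [NeZero D] (ψ : DirichletCharacter O D) : effModulus ψ ∣ D := by
  classical
  exact (Finset.prod_dvd_prod_of_subset _ _ (fun q => q) (Finset.filter_subset _ _)).trans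
    (Nat.prod_primeFactors_dvd D)

/-- A character of squarefree modulus factors through its effective modulus. -/
theorem factorsThrough_effModulus [NeZero D] (hsq : Squarefree D) :
    ψ.FactorsThrough (effModulus ψ) := by
  classical
  refine ((DirichletCharacter.mem_conductorSet_iff_conductor_dvd ψ (effModulus_dvd ψ)).2 ?_)
  have hc := ψ.conductor_dvd_level
  rw [← Nat.prod_primeFactors_of_squarefree (Squarefree.squarefree_of_dvd hc hsq), effModulus]
  refine Finset.prod_dvd_prod_of_subset _ _ (fun q => q) fun q hq => ?_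
  have hqp := Nat.prime_of_mem_primeFactors hq
  have hqc := Nat.dvd_of_mem_primeFactors hq
  refine Finset.mem_filter.2 ⟨Nat.mem_primeFactors.2 ⟨hqp, hqc.trans hc, NeZero.ne D⟩, ?_⟩
  by_contra hcon
  push Not at hcon
  have hmem : D / q ∈ ψ.conductorSet := by
    refine (DirichletCharacter.factorsThrough_iff_ker_unitsMap
      (Nat.div_dvd_of_dvd (hqc.trans hc))).2 fun u hu => ?_
    rw [MonoidHom.mem_ker] at hu ⊢
    obtain ⟨d, hd⟩ := ZMod.intCast_surjective (u : ZMod D)
    have h1 : (d : ZMod (D / q)) = 1 := by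
      have := congrArg (fun x : (ZMod (D / q))ˣ => (x : ZMod (D / q))) hu
      simp only [ZMod.unitsMap_def, Units.coe_map, Units.val_one] at this
      rw [← hd] at this
      simpa using this
    refine Units.ext ?_
    rw [MulChar.coe_toUnitHom, ← hd]
    simpa using hcon d h1 (hd ▸ u.isUnit)
  have hdvd : q ∣ D / q := hqc.trans (DirichletCharacter.conductor_dvd_of_mem_conductorSet ψ hmem)
  exact hqp.not_isUnit (hsq q (by
    obtain ⟨m, hm⟩ := hdvd
    exact ⟨m, (Nat.mul_div_cancel' (hqc.trans hc)).symm.trans (by rw [hm, mul_assoc])⟩))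

/-- The character on its effective modulus. -/
def effChar [NeZero D] (ψ : DirichletCharacter O D) (hsq : Squarefree D) :
    DirichletCharacter O (effModulus ψ) :=
  (factorsThrough_effModulus (ψ := ψ) hsq).χ₀

theorem effChar_apply [NeZero D] (hsq : Squarefree D) {d : ℤ} (hd : IsUnit (d : ZMod D)) :
    effChar ψ hsq (d : ZMod (effModulus ψ)) = ψ (d : ZMod D) := by
  have h := (factorsThrough_effModulus (ψ := ψ) hsq).eq_changeLevel
  conv_rhs => rw [h, ← hd.unit_spec]
  rw [DirichletCharacter.changeLevel_eq_cast_of_dvd _ _, hd.unit_spec,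
    ZMod.cast_intCast (factorsThrough_effModulus (ψ := ψ) hsq).dvd]
  rfl

/-- Primitivity of the squared character on the effective modulus. -/
theorem isPrimitiveSq_effChar [NeZero D] {K : Type*} [CommRing K] (φ : O →+* K)
    (hφ : Function.Injective φ) (hsq : Squarefree D) {p : ℕ} (hp : p.Prime) (hp2 : p ≠ 2)
    (hpow : ∀ x : (ZMod D)ˣ, ∃ n : ℕ, ψ (x : ZMod D) ^ p ^ n = 1) :
    IsPrimitiveSq ((effChar ψ hsq).ringHomComp φ) := by
  classical
  intro q hq hqe
  obtain ⟨r, hr, hqr⟩ : ∃ r ∈ D.primeFactors.filter (fun q => ∃ d : ℤ, (d : ZMod (D / q)) = 1 ∧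
      IsUnit (d : ZMod D) ∧ ψ (d : ZMod D) ≠ 1), q ∣ r := by
    rw [effModulus] at hqe
    exact (Prime.dvd_finsetProd_iff hq.prime _).1 hqe
  obtain ⟨hr1, d, hd1, hdu, hne⟩ := Finset.mem_filter.1 hr
  obtain rfl := (Nat.prime_dvd_prime_iff_eq hq (Nat.prime_of_mem_primeFactors hr1)).1 hqr
  have he := (factorsThrough_effModulus (ψ := ψ) hsq).dvd
  refine ⟨d, ?_, ?_, ?_⟩
  · have hdvd : effModulus ψ / q ∣ D / q := by
      obtain ⟨m, hm⟩ := hqe
      obtain ⟨c, hc⟩ := he
      rw [hm, Nat.mul_div_cancel_left _ hq.pos]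
      exact ⟨c, Nat.div_eq_of_eq_mul_right hq.pos (by rw [hc, hm, mul_assoc])⟩
    have := congrArg (ZMod.castHom hdvd (ZMod (effModulus ψ / q))) hd1
    rwa [map_intCast, map_one] at this
  · have := hdu.map (ZMod.castHom he (ZMod (effModulus ψ)))
    rwa [map_intCast] at this
  · rw [MulChar.ringHomComp_apply, effChar_apply hsq hdu, ← map_pow, ← map_one φ]
    intro h
    have h2 : ψ (d : ZMod D) ^ 2 = 1 := hφ h
    obtain ⟨n, hn⟩ := hpow hdu.unit
    rw [hdu.unit_spec] at hn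
    apply hne
    have hg := pow_gcd_eq_one.2 ⟨h2, hn⟩
    rwa [Nat.Coprime.pow_right n ((Nat.coprime_primes Nat.prime_two hp).2 hp2.symm),
      pow_one] at hg

/-- Equal nebentypes and weights give the same systems. -/
theorem hasSystem_congr {K : Type*} [Field K] [NeZero L] {D' : ℕ} (hD : D ∣ L) (hD' : D' ∣ L)
    (ψ : DirichletCharacter K D) (ψ' : DirichletCharacter K D')
    (hchr : ∀ γ, chr hD' ψ' γ = chr hD ψ γ) (S : Finset ℕ)
    (hw : ∀ ℓ : ℕ, ℓ.Prime → ℓ ∉ S → ¬ ℓ ∣ D ∧ ¬ ℓ ∣ D' ∧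
      heckeWeight L ψ ℓ = heckeWeight L ψ' ℓ)
    (a : ℕ → K) (h : HasSystem hD ψ S a) : HasSystem hD' ψ' S a := by
  obtain ⟨x, hx0, hx⟩ := h
  have hΨ : ∀ γ, chr hD' ψ' γ = RingHom.id K (chr hD ψ γ) := hchr
  let tr := Coh.map (Φ := chr hD ψ) (Ψ := chr hD' ψ') hΨ (LinearMap.id : K →ₗ[K] K)
  refine ⟨tr x, fun h0 => hx0 ?_, fun ℓ hℓ hℓS => ?_⟩
  · obtain ⟨z, rfl⟩ := Coh.mk_surjective x
    rw [show tr (Coh.mk _ K z) = Coh.mk _ K (cocyclesMap hΨ LinearMap.id z) from
      Coh.map_mk hΨ _ z, Coh.mk_eq_zero] at h0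
    obtain ⟨c, hc⟩ := h0
    refine Coh.mk_eq_zero.2 ⟨c, Subtype.ext (funext fun γ => ?_)⟩
    have := congrFun (congrArg Subtype.val hc) γ
    simp only [coboundary_apply, cocyclesMap_apply, LinearMap.id_coe, id_eq, hchr] at this
    simpa using this
  · obtain ⟨hℓD, hℓD', hwe⟩ := hw ℓ hℓ hℓS
    haveI : Fact ℓ.Prime := ⟨hℓ⟩
    have hB : OpData (HeckeCohom.gamma0GL L) (HeckeCohom.gamma0GL L) (HeckeCohom.heckeBeta L ℓ)
        (chr hD' ψ') (chr hD' ψ') fun i => RingHom.id K (heckeWeight L ψ ℓ i) := by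
      have := heckeOpData hD' ψ' hℓ hℓD'
      rw [← hwe] at this
      exact this
    have key := (heckeOpData hD ψ hℓ hℓD).map_op hB hΨ hΨ (LinearMap.id : K →ₗ[K] K) x
    have h' := hx ℓ hℓ hℓS
    rw [heckeT'_eq hD ψ K hℓD] at h'
    change (heckeOpData hD ψ hℓ hℓD).op K x = a ℓ • x at h'
    rw [heckeT'_eq hD' ψ' K hℓD']
    change tr ((heckeOpData hD ψ hℓ hℓD).op K x) = hB.op K (tr x) at key
    rw [h', map_smul] at key
    show (heckeOpData hD' ψ' hℓ hℓD').op K (tr x) = a ℓ • tr x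
    rw [key]
    congr! 2
    exact (funext fun i => congrFun hwe.symm i)

/-- The system on the effective modulus. -/
theorem hasSystem_effChar [NeZero L] [NeZero D] {K : Type*} [Field K] (φ : O →+* K)
    (hsq : Squarefree D) (hD : D ∣ L) (S : Finset ℕ)
    (hDS : ∀ q : ℕ, q.Prime → q ∣ D → q ∈ S) (a : ℕ → K)
    (h : HasSystem hD (ψ.ringHomComp φ) S a) :
    HasSystem ((effModulus_dvd ψ).trans hD) ((effChar ψ hsq).ringHomComp φ) S a := by
  refine hasSystem_congr hD _ _ _ (fun γ => ?_) S (fun ℓ hℓ hℓS => ?_) a h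
  · have hu : IsUnit (((γ : SL(2, ℤ)) 1 1 : ℤ) : ZMod D) := by
      refine IsUnit.of_mul_eq_one (((γ : SL(2, ℤ)) 0 0 : ℤ) : ZMod D) ?_
      have hdet := (γ : SL(2, ℤ)).prop
      rw [Matrix.det_fin_two] at hdet
      have h10 : (((γ : SL(2, ℤ)) 1 0 : ℤ) : ZMod D) = 0 :=
        (ZMod.intCast_zmod_eq_zero_iff_dvd _ _).mpr
          ((Int.natCast_dvd_natCast.mpr hD).trans (HeckeCohom.dvd_apply_one_zero L γ))
      have := congrArg (Int.cast : ℤ → ZMod D) hdet
      push_cast at this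
      rw [h10, mul_zero, sub_zero] at this
      rw [mul_comm]
      exact this
    rw [chr_apply, chr_apply, MulChar.ringHomComp_apply, MulChar.ringHomComp_apply,
      effChar_apply hsq hu]
  · have hℓD : ¬ ℓ ∣ D := fun h => hℓS (hDS ℓ hℓ h)
    have hu : IsUnit ((ℓ : ℤ) : ZMod D) := by
      rw [Int.cast_natCast, ZMod.isUnit_iff_coprime, hℓ.coprime_iff_not_dvd]
      exact hℓD
    refine ⟨hℓD, fun h => hℓD (h.trans (effModulus_dvd ψ)), ?_⟩
    have h1 := effChar_apply (ψ := ψ) hsq hu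
    rw [Int.cast_natCast, Int.cast_natCast] at h1
    funext i
    have hinv : ((ψ.ringHomComp φ)⁻¹ : MulChar (ZMod D) K) (ℓ : ZMod D) =
        (((effChar ψ hsq).ringHomComp φ)⁻¹ : MulChar (ZMod (effModulus ψ)) K)
          (ℓ : ZMod (effModulus ψ)) := by
      rw [MulChar.inv_apply_eq_inv', MulChar.inv_apply_eq_inv', MulChar.ringHomComp_apply,
        MulChar.ringHomComp_apply, h1]
    rcases i with ⟨_ | x, hi⟩
    · simp [heckeWeight, h1]
    · simpa [heckeWeight] using hinv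

end Fermat.Agent.Lifting
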