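/-
A twisted point as a character of a Hecke algebra of trivial nebentype, and as a point of a
Hecke–Galois datum of that level.
-/
import Fermat.Agent.Lifting.EDatum
import Fermat.Agent.Lifting.EReduce
import Fermat.Agent.Lifting.ENonEisenstein
import Fermat.Agent.Ribet.Twisted.Twist
import Fermat.Prelude.Def_CuspForm_HeckeGaloisRepDatum
import Fermat.Prelude.Def_GaloisRep_ResidualEquiv

set_option autoImplicit false

noncomputable section

namespace Fermat.Agent.Lifting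

open Fermat.Agent.Ribet.Twisted IsLocalRing

variable {p : ℕ} [Fact p.Prime] {O : Type} [CommRing O] [IsDomain O] [IsDiscreteValuationRing O]
  [IsAdicComplete (maximalIdeal O) O] [Finite (ResidueField O)] [CharZero O]
  {L D : ℕ} [NeZero L] {ψ : DirichletCharacter O D} {S : Finset ℕ} {a : ℕ → O}
  {ρbar : ResidualGaloisRep (ResidueField O)}

/-- The level of trivial nebentype of a twisted point. -/
def twistLevel (L : ℕ) (ψ : DirichletCharacter O D) : ℕ := L * effModulus ψ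

theorem sq_not_dvd_mul {L M q : ℕ} (hL : Squarefree L) (hq : q.Prime) (hM : ¬ q ∣ M) :
    ¬ q ^ 2 ∣ L * M := fun h => by
  have h' := (Nat.Coprime.pow_left 2 (hq.coprime_iff_not_dvd.2 hM)).dvd_of_dvd_mul_right h
  rw [pow_two] at h'
  exact hq.not_isUnit (hL q h')

instance neZero_twistLevel (ψ : DirichletCharacter O D) : NeZero (twistLevel L ψ) :=
  ⟨mul_ne_zero (NeZero.ne L) (effModulus_pos ψ).ne'⟩

/-- The primes of the level of trivial nebentype are those of `L`. -/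
theorem TwistedPoint.dvd_twistLevel_iff (h : TwistedPoint p ρbar L D ψ S a) {q : ℕ}
    (hq : q.Prime) : q ∣ twistLevel L ψ ↔ q ∣ L := by
  refine ⟨fun h' => ?_, fun h' => h'.mul_right _⟩
  rcases (Nat.Prime.dvd_mul hq).1 h' with h1 | h1
  · exact h1
  · exact (dvd_effModulus_imp hq h1).1.trans h.dvd

/-- A prime outside the effective modulus divides the level at most once. -/
theorem TwistedPoint.sq_not_dvd_twistLevel' (h : TwistedPoint p ρbar L D ψ S a) {q : ℕ}
    (hq : q.Prime) (hqD : ¬ q ∣ effModulus ψ) : ¬ q ^ 2 ∣ twistLevel L ψ :=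
  sq_not_dvd_mul h.squarefree hq hqD

/-- A prime outside the nebentype divides the level at most once. -/
theorem TwistedPoint.sq_not_dvd_twistLevel (h : TwistedPoint p ρbar L D ψ S a) {q : ℕ}
    (hq : q.Prime) (hqD : ¬ q ∣ D) : ¬ q ^ 2 ∣ twistLevel L ψ :=
  sq_not_dvd_mul h.squarefree hq fun h' => hqD (dvd_effModulus_imp hq h').1

/-- `p` divides the level at most once. -/
theorem TwistedPoint.sq_p_not_dvd_twistLevel (h : TwistedPoint p ρbar L D ψ S a) :
    ¬ p ^ 2 ∣ twistLevel L ψ := by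
  have hp : p.Prime := Fact.out
  refine sq_not_dvd_mul h.squarefree hp fun h' => ?_
  obtain ⟨hpD, d, hd1, hdu, hne⟩ := dvd_effModulus_imp hp h'
  apply hne
  obtain ⟨u, hu⟩ := hdu
  have hcop : Nat.Coprime p (D / p) := by
    refine hp.coprime_iff_not_dvd.2 fun hh => ?_
    have h2 : p * p ∣ L := ((Nat.mul_dvd_mul_left p hh).trans
      (Nat.mul_div_cancel' hpD).dvd).trans h.dvd
    exact hp.not_isUnit (h.squarefree p h2)
  have hpow : ((d ^ (p - 1) : ℤ) : ZMod D) = ((1 : ℤ) : ZMod D) := by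
    rw [ZMod.intCast_eq_intCast_iff_dvd_sub]
    have e1 : ((D / p : ℕ) : ℤ) ∣ 1 - d ^ (p - 1) := by
      rw [← ZMod.intCast_eq_intCast_iff_dvd_sub]
      push_cast
      rw [hd1, one_pow]
    have e2 : ((p : ℕ) : ℤ) ∣ 1 - d ^ (p - 1) := by
      rw [← ZMod.intCast_eq_intCast_iff_dvd_sub]
      push_cast
      refine ZMod.pow_card_sub_one_eq_one fun h0 => ?_
      have hunit : IsUnit (ZMod.castHom hpD (ZMod p) (d : ZMod D)) :=
        (hu ▸ u.isUnit).map _
      rw [map_intCast, h0] at hunit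
      exact not_isUnit_zero hunit
    have := Int.natCast_dvd.2 ((Nat.Coprime.mul_dvd_of_dvd_of_dvd hcop
      (Int.natCast_dvd.1 e2) (Int.natCast_dvd.1 e1)))
    rwa [Nat.mul_div_cancel' hpD] at this
  push_cast at hpow
  obtain ⟨n, hn⟩ := h.pPower u
  rw [hu] at hn
  have hz : ψ (d : ZMod D) ^ (p - 1) = 1 := by rw [← map_pow, hpow, map_one]
  have hgcd : Nat.gcd (p - 1) (p ^ n) = 1 := by
    refine Nat.Coprime.pow_right n ?_
    refine (hp.coprime_iff_not_dvd.2 fun hh => ?_).symm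
    have := hp.two_le
    have := Nat.le_of_dvd (by omega) hh
    omega
  simpa [hgcd] using (pow_gcd_eq_one.2 ⟨hz, hn⟩ : ψ (d : ZMod D) ^ Nat.gcd (p - 1) (p ^ n) = 1)

/-- A system of a twisted point on a possibly larger set of operators is a character of the Hecke
algebra of trivial nebentype. -/
theorem TwistedPoint.exists_level_hom (h : TwistedPoint p ρbar L D ψ S a) (S' : Finset ℕ)
    (hS' : S' ⊆ S) (hDS' : ∀ q : ℕ, q.Prime → q ∣ D → q ∈ S')
    (hsys : HasSystem h.dvd (toFrac ψ) S' fun ℓ => algebraMap O (FractionRing O) (a ℓ)) :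
    ∃ χ : CuspForm.heckeAlgebra (twistLevel L ψ) 2 (↑S' : Set ℕ) →+* O,
      (∀ (ℓ : ℕ) (hℓ : ℓ.Prime) (hℓN : ¬ ℓ ∣ twistLevel L ψ) (hℓS : ℓ ∉ (↑S' : Set ℕ)),
        χ (CuspForm.heckeAlgebra.T hℓ hℓN hℓS) = a ℓ) ∧
      ∀ (q : ℕ) (hq : q.Prime) (hqN : q ∣ twistLevel L ψ) (hqS : q ∉ (↑S' : Set ℕ)),
        χ (CuspForm.heckeAlgebra.U hq hqN hqS) = a q := by
  haveI : NeZero D := ⟨fun h0 => NeZero.ne L (by simpa [h0] using h.dvd)⟩
  have hsqD : Squarefree D := Squarefree.squarefree_of_dvd h.dvd h.squarefree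
  have hD' : effModulus ψ ∣ L := (effModulus_dvd ψ).trans h.dvd
  have hcop : Nat.Coprime (effModulus ψ) (L / effModulus ψ) := by
    refine Nat.coprime_of_squarefree_mul ?_
    rw [Nat.mul_div_cancel' hD']
    exact h.squarefree
  let φ := algebraMap O (FractionRing O)
  have hφ : Function.Injective φ := IsFractionRing.injective O (FractionRing O)
  have hne : ∃ ℓ : ℕ, ℓ.Prime ∧ ℓ ∉ S' ∧ (ℓ : ZMod (L * effModulus ψ)) = 1 ∧
      φ (a ℓ) ≠ (ℓ : FractionRing O) + 1 := by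
    haveI : NeZero (L * effModulus ψ) := neZero_twistLevel ψ
    obtain ⟨ℓ, hℓ, hℓS, hℓ1, A, hA, σ, hσ, hne⟩ :=
      exists_trace_ne_add_one ρbar h.absIrr (L * effModulus ψ) S
        (fun q hq hqN => h.level_mem_set q hq ((h.dvd_twistLevel_iff hq).1 hqN))
        h.residue_det
    refine ⟨ℓ, hℓ, fun hh => hℓS (hS' hh), hℓ1, fun he => hne ?_⟩
    rw [← h.residue_trace ℓ hℓ hℓS A hA σ hσ]
    rw [← map_natCast φ, ← map_one φ, ← map_add] at he
    rw [hφ he, map_add, map_natCast, map_one]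
  obtain ⟨χ, hT, hU⟩ := exists_hom_of_hasSystem (K := FractionRing O) hD'
    (Squarefree.squarefree_of_dvd hD' h.squarefree) hcop ((effChar ψ hsqD).ringHomComp φ)
    (isPrimitiveSq_effChar φ hφ hsqD Fact.out h.p_ne_two h.pPower) S'
    (fun q hq hqD => hDS' q hq (hqD.trans (effModulus_dvd ψ))) (fun ℓ => φ (a ℓ))
    (hasSystem_effChar φ hsqD h.dvd S' hDS' _ hsys) hne
  have hrange : ∀ t, χ t ∈ φ.range := by
    rintro ⟨t, ht⟩
    induction ht using Algebra.adjoin_induction with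
    | mem t ht =>
      rcases ht with ⟨ℓ, hℓ, hℓN, hℓS, rfl⟩ | ⟨q, hqN, hq, hqS, rfl⟩
      · exact ⟨a ℓ, (hT ℓ hℓ hℓN hℓS).symm⟩
      · exact ⟨a q, (hU q hq hqN hqS).symm⟩
    | algebraMap n =>
      refine ⟨n, ?_⟩
      rw [map_intCast]
      exact ((congrArg χ (eq_intCast (algebraMap ℤ _) n)).trans (map_intCast χ n)).symm
    | add t s ht hs iht ihs =>
      show χ (⟨t, ht⟩ + ⟨s, hs⟩) ∈ φ.range
      rw [map_add]
      exact add_mem iht ihs
    | mul t s ht hs iht ihs =>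
      show χ (⟨t, ht⟩ * ⟨s, hs⟩) ∈ φ.range
      rw [map_mul]
      exact mul_mem iht ihs
  let e := RingEquiv.ofBijective φ.rangeRestrict
    ⟨fun x y hxy => hφ (congrArg Subtype.val hxy), φ.rangeRestrict_surjective⟩
  let χ' : CuspForm.heckeAlgebra (twistLevel L ψ) 2 (↑S' : Set ℕ) →+* O :=
    e.symm.toRingHom.comp (χ.codRestrict φ.range hrange)
  have hχ' : ∀ t, φ (χ' t) = χ t := fun t =>
    congrArg Subtype.val (e.apply_symm_apply (χ.codRestrict φ.range hrange t))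
  exact ⟨χ', fun ℓ hℓ hℓN hℓS => hφ ((hχ' _).trans (hT ℓ hℓ hℓN hℓS)),
    fun q hq hqN hqS => hφ ((hχ' _).trans (hU q hq hqN hqS))⟩

/-- The representation of a twisted point is a point of a Hecke–Galois datum of trivial
nebentype, residually `ρbar`. -/
theorem TwistedPoint.exists_level_datum (h : TwistedPoint p ρbar L D ψ S a)
    {ρ : GaloisRepAdic O} (hρ : HasFrobPoly ρ S a) :
    ∃ (θ : CuspForm.heckeAlgebra (twistLevel L ψ) 2 (↑S : Set ℕ) →+* ResidueField O)
      (T : Type) (_ : CommRing T) (_ : IsLocalRing T) (_ : IsNoetherianRing T)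
      (_ : IsAdicComplete (maximalIdeal T) T) (_ : Algebra O T)
      (_ : IsLocalHom (algebraMap O T)) (_ : Module.Finite O T) (_ : Module.Free O T)
      (H : CuspForm.HeckeGaloisRepDatum (twistLevel L ψ) (↑S : Set ℕ) O θ T)
      (φ : T →ₐ[O] O) (hφ : IsLocalHom (φ : T →+* O)),
      Function.Surjective φ ∧
      (H.ρ.baseChangeAlong (φ : T →+* O) hφ).IsEquiv ρ ∧
      H.ρ.residual.IsEquiv (ρbar.baseChangeAlong (ResidueField.map (algebraMap O T))) ∧
      ∀ (ℓ : ℕ) (hℓ : ℓ.Prime) (hℓN : ¬ ℓ ∣ twistLevel L ψ) (hℓS : ℓ ∉ (↑S : Set ℕ)),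
        φ (H.π (CuspForm.heckeAlgebra.T hℓ hℓN hℓS)) = a ℓ := by
  obtain ⟨χ, hT, -⟩ := h.exists_level_hom S subset_rfl
    (fun q hq hqD => h.level_mem_set q hq (hqD.trans h.dvd)) h.hasSystem
  exact exists_datum_of_hom h.p_mem_set h.p_ne_two h.p_mem
    (fun q hq hqN => h.level_mem_set q hq ((h.dvd_twistLevel_iff hq).1 hqN)) ρbar h.absIrr h.odd
    χ a hT (fun ℓ hℓ hℓS A hA σ hσ => ⟨h.residue_trace ℓ hℓ hℓS A hA σ hσ,
      h.residue_det ℓ hℓ hℓS A hA σ hσ⟩) hρ

end Fermat.Agent.Lifting
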