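/-
The representation of a twisted point and its ramification away from the level.
-/
import Fermat.Agent.Lifting.ELevel
import Fermat.Agent.Datum.Unramified

set_option autoImplicit false

noncomputable section

namespace Fermat.Agent.Lifting

open IsLocalRing

variable {p : ℕ} [Fact p.Prime] {O : Type} [CommRing O] [IsDomain O] [IsDiscreteValuationRing O]
  [IsAdicComplete (maximalIdeal O) O] [Finite (ResidueField O)] [CharZero O]
  {L D : ℕ} [NeZero L] {ψ : DirichletCharacter O D} {S : Finset ℕ} {a : ℕ → O}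
  {ρbar : ResidualGaloisRep (ResidueField O)}

theorem TwistedPoint.level_subset (h : TwistedPoint p ρbar L D ψ S a) :
    ∀ q : ℕ, q.Prime → q ∣ twistLevel L ψ → q ∈ S := fun q hq hqN =>
  h.level_mem_set q hq ((h.dvd_twistLevel_iff hq).1 hqN)

/-- Every representation with the Frobenius polynomials of the point reduces to `ρbar`. -/
theorem TwistedPoint.residual_isEquiv (h : TwistedPoint p ρbar L D ψ S a) {ρ : GaloisRepAdic O}
    (hρ : HasFrobPoly ρ S a) : ρ.residual.IsEquiv ρbar := by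
  obtain ⟨χ, hT, -⟩ := h.exists_level_hom S subset_rfl
    (fun q hq hqD => h.level_mem_set q hq (hqD.trans h.dvd)) h.hasSystem
  obtain ⟨ρ₀, hρ₀, -, ⟨e₀⟩⟩ := exists_rep_of_hom h.p_mem_set h.p_ne_two h.p_mem h.level_subset ρbar
    h.absIrr h.odd χ a hT fun ℓ hℓ hℓS A hA σ hσ =>
      ⟨h.residue_trace ℓ hℓ hℓS A hA σ hσ, h.residue_det ℓ hℓ hℓS A hA σ hσ⟩
  obtain ⟨e⟩ := isEquiv_of_hasFrobPoly hρ₀ hρ (isAbsolutelyIrreducible_of_equiv ⟨e₀⟩ h.absIrr)
  exact ⟨e.symm.residual.trans e₀⟩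

/-- A representation with the Frobenius polynomials of a twisted point is residually absolutely
irreducible. -/
theorem TwistedPoint.residual_absIrr (h : TwistedPoint p ρbar L D ψ S a) {ρ : GaloisRepAdic O}
    (hρ : HasFrobPoly ρ S a) : ρ.residual.IsAbsolutelyIrreducible :=
  isAbsolutelyIrreducible_of_equiv (h.residual_isEquiv hρ) h.absIrr

/-- The point as a `HeckePoint` of trivial nebentype. -/
theorem TwistedPoint.exists_heckePoint (h : TwistedPoint p ρbar L D ψ S a) {ρ : GaloisRepAdic O}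
    (hρ : HasFrobPoly ρ S a) :
    ∃ H : Datum.HeckePoint (twistLevel L ψ) S O, H.ρ = ρ := by
  obtain ⟨χ, hT, -⟩ := h.exists_level_hom S subset_rfl
    (fun q hq hqD => h.level_mem_set q hq (hqD.trans h.dvd)) h.hasSystem
  exact ⟨⟨χ, ρ, fun ℓ hℓ hℓN hℓS A hA σ hσ => by
      rw [hρ ℓ hℓ (by simpa using hℓS) A hA σ hσ, hT],
    isAbsolutelyIrreducible_of_equiv (h.residual_isEquiv hρ) h.absIrr⟩, rfl⟩

theorem TwistedPoint.isUnramifiedAt_aux (h : TwistedPoint p ρbar L D ψ S a) {ρ : GaloisRepAdic O}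
    (hρ : HasFrobPoly ρ S a) {q : ℕ} (hq : q.Prime) (hqL : ¬ q ∣ L) (hqp : q ≠ p) :
    ρ.IsUnramifiedAt q := by
  obtain ⟨H, rfl⟩ := h.exists_heckePoint hρ
  intro P hP σ hσ
  obtain ⟨F⟩ := GaloisAdic.nonempty_torsionFrame (twistLevel L ψ) p
  exact Datum.rho_eq_one_of_fixes_torsion_point (GaloisAdic.torsionFacts _ p) F h.p_mem_set
    h.p_mem h.level_subset H
    fun n x hx => (GaloisAdic.torsionFacts _ p).unramified q hq
      (fun hh => hqL ((h.dvd_twistLevel_iff hq).1 hh)) hqp P hP σ hσ n x hx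

theorem TwistedPoint.exists_rep_aux (h : TwistedPoint p ρbar L D ψ S a) :
    ∃ ρ : GaloisRepAdic O, HasFrobPoly ρ S a ∧ ρ.DetIsCyclotomic p ∧
      ρ.residual.IsEquiv ρbar ∧
      ∀ q : ℕ, q.Prime → ¬ q ∣ L → q ≠ p → ρ.IsUnramifiedAt q := by
  obtain ⟨χ, hT, -⟩ := h.exists_level_hom S subset_rfl
    (fun q hq hqD => h.level_mem_set q hq (hqD.trans h.dvd)) h.hasSystem
  obtain ⟨ρ, hρ, hdet, hres⟩ := exists_rep_of_hom h.p_mem_set h.p_ne_two h.p_mem h.level_subset
    ρbar h.absIrr h.odd χ a hT fun ℓ hℓ hℓS A hA σ hσ =>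
      ⟨h.residue_trace ℓ hℓ hℓS A hA σ hσ, h.residue_det ℓ hℓ hℓS A hA σ hσ⟩
  exact ⟨ρ, hρ, hdet, hres, fun q hq hqL hqp => h.isUnramifiedAt_aux hρ hq hqL hqp⟩

end Fermat.Agent.Lifting
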