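/-
A twisted point at a prime `q ≠ p` of the level: unipotent inertia outside the conductor of the
character, inertia eigenvalues `ψ_q`, `ψ_q⁻¹` at the conductor.
-/
import Fermat.Agent.Lifting.ELevel
import Fermat.Agent.Lifting.ETransfer
import Fermat.Agent.Lifting.ENonEisenstein
import Fermat.Agent.BadReduction.X0Transfer
import Fermat.Agent.BadReduction.X0Unipotent
import Fermat.Agent.GaloisAdic.Inputs
import Fermat.Agent.Carayol.BGalois
import Fermat.Agent.RepLemmas.BrauerNesbitt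
import Fermat.Agent.Ribet.Twisted.LevelBasic
import Fermat.Agent.Ribet.Inertia
import Fermat.Agent.Lifting.EBasic

set_option autoImplicit false
set_option linter.style.haveILetI false

noncomputable section

namespace Fermat.Agent.Lifting

open Fermat.Agent.Ribet.Twisted IsLocalRing GaloisAdic

local notation "ℚbar" => AlgebraicClosure ℚ
local notation "Γℚ" => AlgebraicClosure ℚ ≃ₐ[ℚ] AlgebraicClosure ℚ

section Transport

variable {L : ℕ} {K : Type*} [Field K]

/-- An eigenvector on twisted cohomology only depends on the twist as a function on `Γ₀(L)`. -/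
theorem exists_op_eigen_of_eq {χ χ' : CongruenceSubgroup.Gamma0 L →* K} (h : χ = χ')
    (x : Coh χ K) :
    ∃ y : Coh χ' K, (x ≠ 0 → y ≠ 0) ∧
      ∀ (ℓ : ℕ) (_ : Fact ℓ.Prime) (w w' : HeckeCohom.HeckeIdx L ℓ → K), w = w' →
        ∀ (d : OpData (HeckeCohom.gamma0GL L) (HeckeCohom.gamma0GL L)
            (HeckeCohom.heckeBeta L ℓ) χ χ w)
          (d' : OpData (HeckeCohom.gamma0GL L) (HeckeCohom.gamma0GL L)
            (HeckeCohom.heckeBeta L ℓ) χ' χ' w')
          (c : K), d.op K x = c • x → d'.op K y = c • y := by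
  subst h
  exact ⟨x, id, fun ℓ _ w w' hw d d' c hx => by subst hw; exact hx⟩

variable {D D' : ℕ}

/-- A system for a character is a system for any character of smaller modulus which it extends. -/
theorem hasSystem_of_extends [NeZero L] (hD : D ∣ L) (hD'D : D' ∣ D)
    {ψ : DirichletCharacter K D} {ψ' : DirichletCharacter K D'}
    (hψ : ∀ x : ℤ, IsUnit (x : ZMod D) → ψ (x : ZMod D) = ψ' (x : ZMod D'))
    {S : Finset ℕ} (hDS : ∀ ℓ : ℕ, ℓ.Prime → ℓ ∣ D → ℓ ∈ S) {a : ℕ → K}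
    (h : HasSystem hD ψ S a) : HasSystem (hD'D.trans hD) ψ' S a := by
  obtain ⟨x, hx0, hx⟩ := h
  have hχ : chr hD ψ = chr (hD'D.trans hD) ψ' := MonoidHom.ext fun γ => by
    rw [chr_apply, chr_apply, hψ _ (isUnit_g0Mat_11 hD γ)]
  obtain ⟨y, hy0, hy⟩ := exists_op_eigen_of_eq hχ x
  refine ⟨y, hy0 hx0, fun ℓ hℓ hℓS => ?_⟩
  have hℓD : ¬ ℓ ∣ D := fun hd => hℓS (hDS ℓ hℓ hd)
  have hℓD' : ¬ ℓ ∣ D' := fun hd => hℓD (hd.trans hD'D)
  haveI : Fact ℓ.Prime := ⟨hℓ⟩
  have hu : IsUnit ((ℓ : ℤ) : ZMod D) := by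
    rw [Int.cast_natCast]
    exact (ZMod.isUnit_iff_coprime ℓ D).mpr (hℓ.coprime_iff_not_dvd.mpr hℓD)
  have hval : ψ (ℓ : ZMod D) = ψ' (ℓ : ZMod D') := by simpa using hψ ℓ hu
  have hinv : ψ⁻¹ (ℓ : ZMod D) = ψ'⁻¹ (ℓ : ZMod D') := by
    rw [MulChar.inv_apply_eq_inv', MulChar.inv_apply_eq_inv', hval]
  have hw : heckeWeight L ψ ℓ = heckeWeight L ψ' ℓ := funext fun i => by
    obtain ⟨i, hi⟩ := i
    cases i <;> simp [heckeWeight, hval, hinv]
  have hxℓ := hx ℓ hℓ hℓS
  rw [heckeT', dif_pos ⟨hℓ, hℓD⟩] at hxℓ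
  rw [heckeT', dif_pos ⟨hℓ, hℓD'⟩]
  exact hy ℓ ⟨hℓ⟩ _ _ hw (heckeOpData hD ψ hℓ hℓD)
    (heckeOpData (hD'D.trans hD) ψ' hℓ hℓD') _ hxℓ

end Transport

section Characters

variable {O : Type} [CommRing O] {D : ℕ}

/-- A character and its primitive character agree on the units of its modulus. -/
theorem apply_eq_primitiveCharacter (ψ : DirichletCharacter O D) {x : ℤ}
    (hx : IsUnit (x : ZMod D)) :
    ψ (x : ZMod D) = ψ.primitiveCharacter (x : ZMod ψ.conductor) :=
  (DirichletCharacter.primitiveCharacter_apply_of_isCoprime ψ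
    (ZMod.coe_int_isUnit_iff_isCoprime x D |>.mp hx).symm).symm

/-- The values of the primitive character of a character of `p`-power order have `p`-power
order. -/
theorem primitiveCharacter_pow_eq_one [NeZero D] (ψ : DirichletCharacter O D) {p : ℕ}
    (hord : ∀ x : (ZMod D)ˣ, ∃ n : ℕ, ψ (x : ZMod D) ^ p ^ n = 1)
    (y : (ZMod ψ.conductor)ˣ) :
    ∃ n : ℕ, ψ.primitiveCharacter (y : ZMod ψ.conductor) ^ p ^ n = 1 := by
  obtain ⟨x, rfl⟩ := ZMod.unitsMap_surjective ψ.conductor_dvd_level y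
  obtain ⟨n, hn⟩ := hord x
  refine ⟨n, ?_⟩
  rw [← hn, ZMod.unitsMap_val]
  congr 1
  rw [← DirichletCharacter.changeLevel_eq_cast_of_dvd ψ.primitiveCharacter ψ.conductor_dvd_level x,
    DirichletCharacter.changeLevel_primitiveCharacter]

/-- The square of the primitive character of a character of odd prime power order is primitive
at each prime. -/
theorem exists_sq_ne_one_primitiveCharacter [IsDomain O] [NeZero D] (ψ : DirichletCharacter O D)
    {p : ℕ} (hp : p.Prime) (hp2 : p ≠ 2)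
    (hord : ∀ x : (ZMod D)ˣ, ∃ n : ℕ, ψ (x : ZMod D) ^ p ^ n = 1)
    {r : ℕ} (hr : r.Prime) (hrD : r ∣ ψ.conductor) :
    ∃ d : ℤ, (d : ZMod (ψ.conductor / r)) = 1 ∧ IsUnit (d : ZMod ψ.conductor) ∧
      ψ.primitiveCharacter (d : ZMod ψ.conductor) ^ 2 ≠ 1 := by
  haveI : NeZero ψ.conductor := ⟨ψ.conductor_ne_zero⟩
  by_contra hcon
  push Not at hcon
  have hdvd : ψ.conductor / r ∣ ψ.conductor := Nat.div_dvd_of_dvd hrD
  have hf : ψ.primitiveCharacter.FactorsThrough (ψ.conductor / r) := by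
    rw [DirichletCharacter.factorsThrough_iff_ker_unitsMap hdvd]
    intro u hu
    rw [MonoidHom.mem_ker] at hu ⊢
    refine Units.ext ?_
    rw [MulChar.coe_toUnitHom, Units.val_one]
    obtain ⟨z, hz⟩ := ZMod.intCast_surjective (u : ZMod ψ.conductor)
    have hz1 : (z : ZMod (ψ.conductor / r)) = 1 := by
      have h1 := congrArg (fun v : (ZMod (ψ.conductor / r))ˣ => (v : ZMod (ψ.conductor / r))) hu
      rw [ZMod.unitsMap_val, ← hz, Units.val_one] at h1
      rw [← h1, ← ZMod.castHom_apply (R := ZMod (ψ.conductor / r)) (h := hdvd), map_intCast]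
    have hsq := hcon z hz1 (hz ▸ u.isUnit)
    rw [hz] at hsq
    obtain ⟨n, hn⟩ := primitiveCharacter_pow_eq_one ψ hord u
    have hgcd : Nat.gcd 2 (p ^ n) = 1 :=
      Nat.Coprime.pow_right n ((Nat.coprime_primes Nat.prime_two hp).mpr (Ne.symm hp2))
    simpa [hgcd] using (pow_gcd_eq_one.2 ⟨hsq, hn⟩ :
      ψ.primitiveCharacter (u : ZMod ψ.conductor) ^ Nat.gcd 2 (p ^ n) = 1)
  have h1 := ψ.primitiveCharacter.conductor_dvd_of_mem_conductorSet hf
  rw [(DirichletCharacter.isPrimitive_def _).1 ψ.primitiveCharacter_isPrimitive] at h1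
  have hpos : 0 < ψ.conductor := Nat.pos_of_ne_zero (NeZero.ne _)
  exact absurd (Nat.le_of_dvd (Nat.div_pos (Nat.le_of_dvd hpos hrD) hr.pos) h1)
    (not_le.2 (Nat.div_lt_self hpos hr.one_lt))

/-- An integer congruent to `1` away from a prime outside the conductor has trivial value. -/
theorem apply_eq_one_of_not_dvd_conductor (ψ : DirichletCharacter O D) {q : ℕ} (hq : q.Prime)
    (hqD : q ∣ D) (hqc : ¬ q ∣ ψ.conductor) {d : ℤ} (hd1 : (d : ZMod (D / q)) = 1)
    (hdu : IsUnit (d : ZMod D)) : ψ (d : ZMod D) = 1 := by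
  have hdiv : ψ.conductor ∣ D / q := by
    have hcop : Nat.Coprime ψ.conductor q := (hq.coprime_iff_not_dvd.2 hqc).symm
    refine hcop.dvd_of_dvd_mul_left ?_
    rw [Nat.mul_div_cancel' hqD]
    exact ψ.conductor_dvd_level
  have h1 : (d : ZMod ψ.conductor) = 1 := by
    have h2 := congrArg (ZMod.castHom hdiv (ZMod ψ.conductor)) hd1
    rwa [map_intCast, map_one] at h2
  rw [apply_eq_primitiveCharacter ψ hdu, h1, map_one]

end Characters

/-- The cyclotomic exponent of an automorphism is prime to `q`. -/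
theorem not_dvd_cyclotomic_exponent {q : ℕ} (hq : q.Prime) {τ : Γℚ} {c : ℕ}
    (hc : ∀ μ : ℚbar, μ ^ q = 1 → τ μ = μ ^ c) : ¬ q ∣ c := by
  haveI : NeZero q := ⟨hq.ne_zero⟩
  obtain ⟨ζ, hζ⟩ := HasEnoughRootsOfUnity.exists_primitiveRoot ℚbar q
  rintro ⟨k, rfl⟩
  have h := hc ζ hζ.pow_eq_one
  rw [pow_mul, hζ.pow_eq_one, one_pow, ← map_one τ] at h
  exact hζ.ne_one hq.one_lt (τ.injective h)

variable {p : ℕ} [Fact p.Prime] {O : Type} [CommRing O] [IsDomain O] [IsDiscreteValuationRing O]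
  [IsAdicComplete (maximalIdeal O) O] [Finite (ResidueField O)] [CharZero O]
  {L D : ℕ} [NeZero L] {ψ : DirichletCharacter O D} {S : Finset ℕ} {a : ℕ → O}
  {ρbar : ResidualGaloisRep (ResidueField O)}

/-- The reduction of the representation of a point has the characteristic polynomials of
`ρbar`. -/
theorem TwistedPoint.charpoly_map_residue (h : TwistedPoint p ρbar L D ψ S a)
    {ρ : GaloisRepAdic O} (hρ : HasFrobPoly ρ S a) (σ : Γℚ) :
    (LinearMap.charpoly (ρ.ρ σ)).map (residue O) = LinearMap.charpoly (ρbar.ρ σ) := by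
  obtain ⟨θ, T, _, _, _, _, _, _, _, _, H, φ, hφ, -, ⟨e⟩, ⟨e'⟩, -⟩ := h.exists_level_datum hρ
  haveI := hφ
  set f : ResidueField O →+* ResidueField T := ResidueField.map (algebraMap O T) with hf
  set r : ResidueField T →+* ResidueField O := ResidueField.map (φ : T →+* O) with hr
  have h1 : LinearMap.charpoly (ρ.ρ σ) = (LinearMap.charpoly (H.ρ.ρ σ)).map (φ : T →+* O) := by
    rw [ETransfer.charpoly_of_equiv e, ETransfer.charpoly_baseChangeAlong]
  have h2 : (LinearMap.charpoly (H.ρ.ρ σ)).map (residue T) =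
      (LinearMap.charpoly (ρbar.ρ σ)).map f := by
    letI : Algebra (ResidueField O) (ResidueField T) := f.toAlgebra
    have ha : LinearMap.charpoly (H.ρ.residual.ρ σ) =
        (LinearMap.charpoly (H.ρ.ρ σ)).map (residue T) :=
      LinearMap.charpoly_baseChange (H.ρ.ρ σ) (ResidueField T)
    have hb : LinearMap.charpoly ((ρbar.baseChangeAlong f).ρ σ) =
        (LinearMap.charpoly (ρbar.ρ σ)).map f :=
      LinearMap.charpoly_baseChange (ρbar.ρ σ) (ResidueField T)
    rw [← ha, ← hb]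
    have hconj : e'.toLinearEquiv.conj (H.ρ.residual.ρ σ) = (ρbar.baseChangeAlong f).ρ σ := by
      refine LinearMap.ext fun x => ?_
      rw [LinearEquiv.conj_apply_apply, e'.map_apply, LinearEquiv.apply_symm_apply]
    rw [← hconj, LinearEquiv.charpoly_conj]
  have h3 : (residue O).comp (φ : T →+* O) = r.comp (residue T) := RingHom.ext fun x => rfl
  have h4 : r.comp f = RingHom.id (ResidueField O) := RingHom.ext fun x => by
    obtain ⟨y, rfl⟩ := residue_surjective x
    show residue O (φ (algebraMap O T y)) = residue O y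
    rw [AlgHom.commutes]
    rfl
  rw [h1, Polynomial.map_map, h3, ← Polynomial.map_map, h2, Polynomial.map_map, h4,
    Polynomial.map_id]

/-- A prime of the level outside the effective modulus has unipotent inertia. -/
theorem TwistedPoint.isUnipotentOnInertiaAt_of_not_dvd_effModulus
    (h : TwistedPoint p ρbar L D ψ S a) {ρ : GaloisRepAdic O} (hρ : HasFrobPoly ρ S a) {q : ℕ}
    (hq : q.Prime) (hqL : q ∣ L) (hqe : ¬ q ∣ effModulus ψ) (hqp : q ≠ p) :
    ρ.IsUnipotentOnInertiaAt q := by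
  obtain ⟨F⟩ := nonempty_torsionFrame (twistLevel L ψ) p
  obtain ⟨θ, T, _, _, _, _, _, _, _, _, H, φ, hφ, -, ⟨e⟩, -, -⟩ := h.exists_level_datum hρ
  refine ETransfer.isUnipotentOnInertiaAt_of_equiv e
    (ETransfer.isUnipotentOnInertiaAt_baseChangeAlong _ hφ _
      (BadReduction.isUnipotentOnInertiaAt_of_sq_eq_zero h.p_mem F
        (torsionFacts (twistLevel L ψ) p) H q hq hqp ?_))
  intro P hP σ hσ n x hx
  exact BadReduction.inertia_sq_eq_zero_of_dvd hq ((h.dvd_twistLevel_iff hq).2 hqL)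
    (h.sq_not_dvd_twistLevel' hq hqe) hP hσ
    (fun hd => hqp ((Nat.prime_dvd_prime_iff_eq hq Fact.out).1 (hq.dvd_of_dvd_pow hd))) hx

/-- (q): a prime of the level outside the nebentype has unipotent inertia. -/
theorem TwistedPoint.isUnipotentOnInertiaAt_aux (h : TwistedPoint p ρbar L D ψ S a)
    {ρ : GaloisRepAdic O} (hρ : HasFrobPoly ρ S a) {q : ℕ} (hq : q.Prime) (hqL : q ∣ L)
    (hqD : ¬ q ∣ D) (hqp : q ≠ p) :
    ρ.IsUnipotentOnInertiaAt q :=
  h.isUnipotentOnInertiaAt_of_not_dvd_effModulus hρ hq hqL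
    (fun hd => hqD (dvd_effModulus_imp hq hd).1) hqp

/-- Inertia at a prime `q ≠ p` has determinant one. -/
theorem TwistedPoint.det_inertia (h : TwistedPoint p ρbar L D ψ S a)
    {ρ : GaloisRepAdic O} (hρ : HasFrobPoly ρ S a) {q : ℕ} (hq : q.Prime) (hqp : q ≠ p)
    {A : ValuationSubring ℚbar} (hA : A.LiesOverPrime q) {τ : Γℚ}
    (hτ : τ ∈ A.inertiaSubgroupIn ℚ) : LinearMap.det (ρ.ρ τ) = 1 := by
  obtain ⟨F⟩ := nonempty_torsionFrame (twistLevel L ψ) p
  haveI : Fact q.Prime := ⟨hq⟩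
  rw [← Carayol.TameTrace.det_repMat]
  exact Carayol.TameTrace.det_inertia (F := F) h.p_mem (torsionFacts (twistLevel L ψ) p) ρ hρ hqp
    hA hτ

/-- (D): a prime of the nebentype at which `ρbar` is unipotent on inertia, with inertia
eigenvalues `ψ_q`, `ψ_q⁻¹` of the cyclotomic character modulo `q`. -/
theorem TwistedPoint.charpoly_inertia_aux (h : TwistedPoint p ρbar L D ψ S a)
    {ρ : GaloisRepAdic O} (hρ : HasFrobPoly ρ S a) {q : ℕ} (hq : q.Prime) (hqD : q ∣ D)
    (hqp : q ≠ p) (A : ValuationSubring ℚbar) (hA : A.LiesOverPrime q)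
    (hres : ∀ g ∈ A.inertiaSubgroupIn ℚ,
      LinearMap.trace (ResidueField O) ρbar.V (ρbar.ρ g) = 2)
    (τ : Γℚ) (hτ : τ ∈ A.inertiaSubgroupIn ℚ)
    (c : ℕ) (hc : ∀ μ : ℚbar, μ ^ q = 1 → τ μ = μ ^ c)
    (d : ℤ) (hdq : (d : ZMod q) = (c : ZMod q)) (hd1 : (d : ZMod (D / q)) = 1) :
    LinearMap.charpoly (ρ.ρ τ) =
      (Polynomial.X - Polynomial.C (ψ (d : ZMod D))) *
        (Polynomial.X - Polynomial.C (ψ⁻¹ (d : ZMod D))) := by
  classical
  haveI : NeZero D := ⟨fun h0 => NeZero.ne L (zero_dvd_iff.1 (h0 ▸ h.dvd))⟩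
  haveI : Fact q.Prime := ⟨hq⟩
  have hDsq : Squarefree D := h.squarefree.squarefree_of_dvd h.dvd
  -- `d` is a unit modulo `D`
  have hdu : IsUnit (d : ZMod D) := by
    have e1 : IsCoprime (q : ℤ) d := by
      refine (Nat.prime_iff_prime_int.mp hq).coprime_iff_not_dvd.2 fun hd => ?_
      have h0 : (c : ZMod q) = 0 := hdq ▸ (ZMod.intCast_zmod_eq_zero_iff_dvd _ _).2 hd
      exact not_dvd_cyclotomic_exponent hq hc ((ZMod.natCast_eq_zero_iff _ _).1 h0)
    have e2 : IsCoprime ((D / q : ℕ) : ℤ) d :=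
      (ZMod.coe_int_isUnit_iff_isCoprime d (D / q)).1 (hd1 ▸ isUnit_one)
    rw [ZMod.coe_int_isUnit_iff_isCoprime,
      show (D : ℤ) = (q : ℤ) * ((D / q : ℕ) : ℤ) by rw [← Nat.cast_mul, Nat.mul_div_cancel' hqD]]
    exact e1.mul_left e2
  have hprod : ψ (d : ZMod D) * ψ⁻¹ (d : ZMod D) = 1 := by
    rw [← MulChar.mul_apply, mul_inv_cancel, MulChar.one_apply hdu]
  by_cases hqc : q ∣ ψ.conductor
  · -- the conductor is the modulus of a primitive character
    set D' := ψ.conductor with hD'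
    haveI : NeZero D' := ⟨ψ.conductor_ne_zero⟩
    have hD'L : D' ∣ L := ψ.conductor_dvd_level.trans h.dvd
    set ψ' : DirichletCharacter O D' := ψ.primitiveCharacter with hψ'
    have hsys : HasSystem hD'L (toFrac ψ') S
        fun ℓ => algebraMap O (FractionRing O) (a ℓ) :=
      hasSystem_of_extends h.dvd ψ.conductor_dvd_level
        (ψ := toFrac ψ) (ψ' := toFrac ψ')
        (fun x hx => congrArg (algebraMap O (FractionRing O)) (apply_eq_primitiveCharacter ψ hx))
        (fun ℓ hℓ hℓD => h.level_mem_set ℓ hℓ (hℓD.trans h.dvd)) h.hasSystem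
    haveI : NeZero (L * D') := ⟨mul_ne_zero (NeZero.ne L) (NeZero.ne D')⟩
    obtain ⟨ℓ, hℓ, hℓS, hℓ1, B, hB, σ, hσ, hne⟩ := exists_trace_ne_add_one ρbar h.absIrr (L * D') S
      (fun r hr hrN => ((Nat.Prime.dvd_mul hr).1 hrN).elim (h.level_mem_set r hr)
        fun hr' => h.level_mem_set r hr (hr'.trans hD'L)) h.residue_det
    have hne' : a ℓ ≠ (ℓ : O) + 1 := fun he => hne (by
      rw [← h.residue_trace ℓ hℓ hℓS B hB σ hσ, he, map_add, map_natCast, map_one])
    have hunip : ∀ g ∈ A.inertiaSubgroupIn ℚ,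
        LinearMap.trace O ρ.V (ρ.ρ g) - 2 ∈ maximalIdeal O := by
      intro g hg
      rw [← residue_eq_zero_iff, map_sub, map_ofNat, sub_eq_zero, ← hres g hg]
      let b := Module.finBasisOfFinrankEq O ρ.V ρ.finrank_eq
      let b' := Module.finBasisOfFinrankEq (ResidueField O) ρbar.V ρbar.finrank_eq
      have hcp := congrArg (fun P => Polynomial.coeff P 1) (h.charpoly_map_residue hρ g)
      rw [← LinearMap.charpoly_toMatrix (ρ.ρ g) b, ← LinearMap.charpoly_toMatrix (ρbar.ρ g) b',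
        Matrix.charpoly_fin_two, Matrix.charpoly_fin_two] at hcp
      rw [LinearMap.trace_eq_matrix_trace O b, LinearMap.trace_eq_matrix_trace (ResidueField O) b']
      simpa using hcp
    have hd' : (d : ZMod (D' / q)) = 1 := by
      have hdiv : D' / q ∣ D / q := Nat.div_dvd_div hqc ψ.conductor_dvd_level
      have h2 := congrArg (ZMod.castHom hdiv (ZMod (D' / q))) hd1
      rwa [map_intCast, map_one] at h2
    have htr : LinearMap.trace O ρ.V (ρ.ρ τ) = ψ' (d : ZMod D') + ψ'⁻¹ (d : ZMod D') :=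
      Ribet.trace_inertia_of_hasSystem h.p_ne_two h.p_mem hD'L
        (h.squarefree.squarefree_of_dvd hD'L)
        (Nat.coprime_of_squarefree_mul (by rw [Nat.mul_div_cancel' hD'L]; exact h.squarefree))
        ψ' (fun r hr hrD => by
          obtain ⟨z, hz1, hzu, hz2⟩ :=
            exists_sq_ne_one_primitiveCharacter ψ Fact.out h.p_ne_two h.pPower hr hrD
          refine ⟨z, hz1, hzu, fun he => hz2 ?_⟩
          apply FaithfulSMul.algebraMap_injective O (FractionRing O)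
          rw [map_pow, map_one]
          simpa using he)
        (primitiveCharacter_pow_eq_one ψ h.pPower) S h.p_mem_set h.level_mem_set a hsys
        ⟨ℓ, hℓ, hℓS, hℓ1, hne'⟩ ρ (h.residual_absIrr hρ) hρ hq hqp hqc A hA hunip τ hτ c hc d
        hdq hd'
    have hval : ψ' (d : ZMod D') = ψ (d : ZMod D) := (apply_eq_primitiveCharacter ψ hdu).symm
    have hdu' : IsUnit (d : ZMod D') := by
      have := hdu.map (ZMod.castHom ψ.conductor_dvd_level (ZMod D'))
      rwa [map_intCast] at this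
    have hval' : ψ'⁻¹ (d : ZMod D') = ψ⁻¹ (d : ZMod D) := by
      have h1 : ψ' (d : ZMod D') * ψ'⁻¹ (d : ZMod D') = 1 := by
        rw [← MulChar.mul_apply, mul_inv_cancel, MulChar.one_apply hdu']
      rw [hval] at h1
      calc ψ'⁻¹ (d : ZMod D')
          = ψ'⁻¹ (d : ZMod D') * (ψ (d : ZMod D) * ψ⁻¹ (d : ZMod D)) := by rw [hprod, mul_one]
        _ = (ψ (d : ZMod D) * ψ'⁻¹ (d : ZMod D')) * ψ⁻¹ (d : ZMod D) := by ring
        _ = ψ⁻¹ (d : ZMod D) := by rw [h1, one_mul]
    rw [hval, hval'] at htr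
    let b := Module.finBasisOfFinrankEq O ρ.V ρ.finrank_eq
    rw [← LinearMap.charpoly_toMatrix (ρ.ρ τ) b, Matrix.charpoly_fin_two,
      LinearMap.det_toMatrix, h.det_inertia hρ hq hqp hA hτ,
      ← LinearMap.trace_eq_matrix_trace O b, htr, map_add, ← hprod, map_mul]
    ring
  · have hψd : ψ (d : ZMod D) = 1 := apply_eq_one_of_not_dvd_conductor ψ hq hqD hqc hd1 hdu
    rw [hψd, one_mul] at hprod
    rw [hψd, hprod, map_one, ← pow_two]
    refine h.isUnipotentOnInertiaAt_of_not_dvd_effModulus hρ hq (hqD.trans h.dvd) (fun he => ?_)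
      hqp A hA τ hτ
    obtain ⟨-, z, hz1, hzu, hz⟩ := dvd_effModulus_imp hq he
    exact hz (apply_eq_one_of_not_dvd_conductor ψ hq hqD hqc hz1 hzu)

/-- (D) with `ρbar` unramified at `q`. -/
theorem TwistedPoint.charpoly_inertia_of_isUnramifiedAt (h : TwistedPoint p ρbar L D ψ S a)
    {ρ : GaloisRepAdic O} (hρ : HasFrobPoly ρ S a) {q : ℕ} (hq : q.Prime) (hqD : q ∣ D)
    (hqp : q ≠ p) (hres : ρbar.IsUnramifiedAt q)
    (A : ValuationSubring ℚbar) (hA : A.LiesOverPrime q)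
    (τ : Γℚ) (hτ : τ ∈ A.inertiaSubgroupIn ℚ)
    (c : ℕ) (hc : ∀ μ : ℚbar, μ ^ q = 1 → τ μ = μ ^ c)
    (d : ℤ) (hdq : (d : ZMod q) = (c : ZMod q)) (hd1 : (d : ZMod (D / q)) = 1) :
    LinearMap.charpoly (ρ.ρ τ) =
      (Polynomial.X - Polynomial.C (ψ (d : ZMod D))) *
        (Polynomial.X - Polynomial.C (ψ⁻¹ (d : ZMod D))) :=
  h.charpoly_inertia_aux hρ hq hqD hqp A hA (fun g hg => by
    rw [hres A hA g hg, LinearMap.trace_one, ρbar.finrank_eq]
    norm_num) τ hτ c hc d hdq hd1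

end Fermat.Agent.Lifting
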