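/-
Inputs on the Jacobian side for the local conditions at `p`.
-/
import Fermat.Agent.FlatDatum.Main
import Fermat.Agent.OrdinaryDatum.Assembly
import Fermat.Agent.OrdinaryDatum.KernelGood
import Fermat.Agent.GaloisAdic.Inputs
import Fermat.Agent.Flat.JacobianTorsion
import Fermat.Agent.Flat.BModularSetting

set_option autoImplicit false

noncomputable section

namespace Fermat.Agent.Lifting

/-- S19: finite flat models of the torsion of `J₀(N)` at a good prime. -/
theorem hasTorsionModels (N p : ℕ) [NeZero N] [Fact p.Prime] (hpN : ¬ p ∣ N) :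
    FlatDatum.HasTorsionModels N p := by
  obtain ⟨𝔖, h𝔖⟩ := FlatModel.BModular.exists_setting (N := N) hpN
  refine FlatDatum.hasTorsionModels_of fun k => ?_
  have := FlatModel.BModular.finite_torsionBy_pow N p k
  exact FlatModel.JacTorsion.exists_finiteFlat_model N p k 𝔖 fun σ => DFunLike.congr_fun h𝔖 σ

/-- Kernels on the torsion of `J₀(N)` at a place over `p`, `p ^ 2 ∤ N`. -/
theorem hasTorsionKernels (N p : ℕ) [NeZero N] [Fact p.Prime] (hp2 : p ≠ 2) (hpN : ¬ p ^ 2 ∣ N) :
    OrdinaryDatum.HasTorsionKernels N p :=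
  OrdinaryDatum.hasTorsionKernels_of_sq_not_dvd hp2 hpN

end Fermat.Agent.Lifting
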