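/-
Local conditions at `p` of a twisted point: flatness and ordinarity, through the datum of trivial
nebentype.
-/
import Fermat.Agent.Lifting.ELevel
import Fermat.Agent.Lifting.ETransfer
import Fermat.Agent.Lifting.GInputs

set_option autoImplicit false

noncomputable section

namespace Fermat.Agent.Lifting

open Fermat.Agent.Ribet.Twisted IsLocalRing GaloisAdic

variable {p : ℕ} [Fact p.Prime] {O : Type} [CommRing O] [IsDomain O] [IsDiscreteValuationRing O]
  [IsAdicComplete (maximalIdeal O) O] [Finite (ResidueField O)] [CharZero O]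
  {L D : ℕ} [NeZero L] {ψ : DirichletCharacter O D} {S : Finset ℕ} {a : ℕ → O}
  {ρbar : ResidualGaloisRep (ResidueField O)}

theorem TwistedPoint.level_mem_set' (h : TwistedPoint p ρbar L D ψ S a) (q : ℕ) (hq : q.Prime)
    (hqN : q ∣ twistLevel L ψ) : q ∈ S :=
  h.level_mem_set q hq ((h.dvd_twistLevel_iff hq).1 hqN)

/-- (p0): flat at a good `p`. -/
theorem TwistedPoint.isFlatAt_aux (h : TwistedPoint p ρbar L D ψ S a) {ρ : GaloisRepAdic O}
    (hρ : HasFrobPoly ρ S a) (hpL : ¬ p ∣ L) : ρ.IsFlatAt p := by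
  have hpN : ¬ p ∣ twistLevel L ψ := fun hd => hpL ((h.dvd_twistLevel_iff Fact.out).1 hd)
  obtain ⟨F⟩ := nonempty_torsionFrame (twistLevel L ψ) p
  obtain ⟨θ, T, _, _, _, _, _, _, _, _, H, φ, hφ, hsurj, ⟨e⟩, -, -⟩ := h.exists_level_datum hρ
  exact ETransfer.isFlatAt_of_equiv e (ETransfer.isFlatAt_baseChangeAlong _ hφ _ hsurj
    (FlatDatum.isFlatAt_of_models (torsionFacts _ p) F (hasTorsionModels _ p hpN) h.p_mem_set
      h.p_mem h.level_mem_set' H))

/-- Ordinarity of a residual representation is invariant under equivalence and change of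
coefficient field. -/
theorem isOrdinaryAt_residual {k k' : Type} [Field k] [Field k'] (f : k →+* k')
    (r : ResidualGaloisRep k) (r' : ResidualGaloisRep k') (e : r'.IsEquiv (r.baseChangeAlong f))
    (hr : (GaloisRepAdic.ofResidualGaloisRep r).IsOrdinaryAt p) :
    (GaloisRepAdic.ofResidualGaloisRep r').IsOrdinaryAt p := by
  obtain ⟨e⟩ := e
  have hf : IsLocalHom f := ⟨fun x hx => by
    rw [isUnit_iff_ne_zero] at hx ⊢
    exact fun h0 => hx (by rw [h0, map_zero])⟩
  let e' : GaloisRepAdic.Equiv (GaloisRepAdic.ofResidualGaloisRep r')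
      ((GaloisRepAdic.ofResidualGaloisRep r).baseChangeAlong f hf) :=
    ⟨e.toLinearEquiv, e.map_apply⟩
  exact ETransfer.isOrdinaryAt_of_equiv e'.symm (ETransfer.isOrdinaryAt_baseChangeAlong f hf _ hr)

/-- Ordinary at `p` if the residual representation is. -/
theorem TwistedPoint.isOrdinaryAt_aux (h : TwistedPoint p ρbar L D ψ S a) {ρ : GaloisRepAdic O}
    (hρ : HasFrobPoly ρ S a)
    (hres : (GaloisRepAdic.ofResidualGaloisRep ρbar).IsOrdinaryAt p) :
    ρ.IsOrdinaryAt p := by
  obtain ⟨F⟩ := nonempty_torsionFrame (twistLevel L ψ) p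
  obtain ⟨θ, T, _, _, _, _, _, _, _, _, H, φ, hφ, hsurj, ⟨e⟩, hres', -⟩ :=
    h.exists_level_datum hρ
  exact ETransfer.isOrdinaryAt_of_equiv e (ETransfer.isOrdinaryAt_baseChangeAlong _ hφ _
    (OrdinaryDatum.isOrdinaryAt_of_torsionKernels h.p_ne_two (torsionFacts _ p) F
      (hasTorsionKernels _ p h.p_ne_two h.sq_p_not_dvd_twistLevel) h.p_mem_set h.p_mem
      h.level_mem_set' H (isOrdinaryAt_residual _ _ _ hres' hres)))

end Fermat.Agent.Lifting
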