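/-
The quadratic relation of Frobenius at a good prime `p`, read at level `N p` through a degeneracy
pullback, lies in the kernel of reduction.
-/
import Fermat.Agent.NewformRep.GeometryAbstract
import Fermat.Agent.OrdinaryDatum.KernelDefs
import Fermat.Agent.HeckeJ.Semilinear

set_option autoImplicit false
set_option linter.style.haveILetI false

noncomputable section

namespace Fermat.Agent.Lifting

open AlgebraicCurve Fermat.Agent.Bad Fermat.Agent.Bad.MultiReduction Fermat.Agent.Curve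

universe uK uF uι uk uE uG

section Pic

variable {K F F' : Type*} [Field K] [Field F] [Field F'] [Algebra K F] [Algebra K F']
  [HasPrincipalDivisors K F']

/-- Pull-back on degree-zero divisor classes along an embedding of function fields. -/
def picPullAlong (φ : F →ₐ[K] F') (hφ : φ.toRingHom.IsIntegral)
    (hFI : FundamentalIdentityAlong K φ hφ) : Pic0 K F →+ Pic0 K F' :=
  QuotientAddGroup.map _ _
    (((Divisor.pullbackAlong φ hφ).domRestrict (Divisor.degZero (K := K) (F := F))).codRestrict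
      _ fun D => Divisor.pullbackAlong_mem_degZero φ hφ hFI D.2) (by
    rintro ⟨D, hD0⟩ hD
    simp only [AddSubgroup.mem_addSubgroupOf] at hD ⊢
    exact Divisor.isPrincipal_pullbackAlong φ hφ hD)

theorem picPullAlong_mk (φ : F →ₐ[K] F') (hφ : φ.toRingHom.IsIntegral)
    (hFI : FundamentalIdentityAlong K φ hφ) (D : Divisor.degZero (K := K) (F := F)) :
    picPullAlong φ hφ hFI (Pic0.mk D) =
      Pic0.mk ⟨Divisor.pullbackAlong φ hφ D, Divisor.pullbackAlong_mem_degZero φ hφ hFI D.2⟩ :=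
  rfl

theorem picPullAlong_smul (φ : F →ₐ[K] F') (hφ : φ.toRingHom.IsIntegral)
    (hFI : FundamentalIdentityAlong K φ hφ) {g : SemilinearAut K F} {g' : SemilinearAut K F'}
    (h : SemilinearAut.IntertwinesAlong φ.toRingHom g g') (x : Pic0 K F) :
    picPullAlong φ hφ hFI (g • x) = g' • picPullAlong φ hφ hFI x := by
  obtain ⟨D, rfl⟩ := Pic0.mk_surjective x
  rw [SemilinearAut.pic0_smul_mk, picPullAlong_mk, picPullAlong_mk, SemilinearAut.pic0_smul_mk]
  exact congrArg Pic0.mk (Subtype.ext (HeckeJ.pullbackAlong_smul hφ h (D : Divisor K F)))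

/-- Push-forward after pull-back is multiplication by the degree. -/
theorem pushforwardAlong_pullbackAlong [IsFunctionFieldOne K F] (φ : F →ₐ[K] F')
    (hφ : φ.toRingHom.IsIntegral) (hFI : FundamentalIdentityAlong K φ hφ) (D : Divisor K F) :
    Divisor.pushforwardAlong φ hφ (Divisor.pullbackAlong φ hφ D) =
      (finrankAlong K φ : ℤ) • D := by
  letI := algebraAlong φ
  haveI := isScalarTower_along φ
  haveI := isIntegral_along φ hφ
  haveI : FundamentalIdentity K F F' := hFI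
  show Divisor.pushforward F (Divisor.pullback F' D) = (Module.finrank F F' : ℤ) • D
  induction D using Finsupp.induction with
  | zero => simp
  | single_add v n D _ _ ih =>
    rw [map_add, map_add, ih, smul_add]
    congr 1
    rw [Divisor.pullback_single, map_sum, Finsupp.smul_single, smul_eq_mul]
    have hv : (v.deg : ℤ) ≠ 0 := Int.natCast_ne_zero.2 (deg_pos v).ne'
    have key : ∑ w ∈ v.fiber F', (w.ramificationIndex F : ℤ) * (w.inertiaDeg F : ℤ) =
        (Module.finrank F F' : ℤ) := by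
      refine mul_left_cancel₀ hv ?_
      rw [mul_comm _ (Module.finrank F F' : ℤ),
        ← FundamentalIdentity.sum_ramificationIndex_mul_deg (K := K) (F := F) (F' := F') v,
        Finset.mul_sum]
      refine Finset.sum_congr rfl fun w hw => ?_
      rw [← w.deg_restrict_mul_inertiaDeg (F := F), Place.mem_fiber.mp hw]
      push_cast
      ring
    rw [Finset.sum_congr rfl fun w hw => show
        Divisor.pushforward F (Finsupp.single w (n * (w.ramificationIndex F : ℤ))) =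
          Finsupp.single v ((w.ramificationIndex F : ℤ) * (w.inertiaDeg F : ℤ) * n) by
      rw [Divisor.pushforward_single, Place.mem_fiber.mp hw]; congr 1; ring,
      ← Finsupp.single_finsetSum, ← Finset.sum_mul, key]

end Pic

section Frobenius

variable {K : Type uK} [Field K] {A : ValuationSubring K} {F : Type uF} [Field F] [Algebra K F]
  [IsFunctionFieldOne K F] [HasPrincipalDivisors K F]
  {ι : Type uι} [Fintype ι] {k : Type uk} [Field k] [IsAlgClosed k]
  {E : Type uE} [Field E] [Algebra k E] [IsFunctionFieldOne k E]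
  {F' : Type uG} [Field F'] [Algebra K F'] [IsFunctionFieldOne K F']
  {R : MultiReduction A F k (fun _ : ι => E)} {q : ℕ} [Fact q.Prime] [CharP k q]
  {D : NewformRep.FrobeniusData k E q} {α β : F' →ₐ[K] F}
  {V' : ValuationSubring F'} {φ' : V' →+* E} {i j : ι} {g : SemilinearAut K F}

/-- For a torsion class `y` of the base, `g² α*y - g α*(α_* β* y) + q α*y` lies in the kernel of
reduction. -/
theorem frobenius_quadratic_mem_kernelGroup (hg : NewformRep.FrobeniusAction R D g)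
    (hij : i ≠ j) (cover : ∀ l, l = i ∨ l = j) (hb : NewformRep.BaseReduction R V' φ')
    (hd : NewformRep.DegeneracyReduction R D α V' φ' i j)
    (hd' : NewformRep.DegeneracyReduction R D β V' φ' j i)
    (hαi : α.toRingHom.IsIntegral) (hαf : FiniteAlong K α) (hαN : NormFormulaAlong K α hαf)
    (hαI : FundamentalIdentityAlong K α hαi)
    (hβi : β.toRingHom.IsIntegral) (hβI : FundamentalIdentityAlong K β hβi)
    {n : ℕ} {y : Pic0 K F'} (hy : n • y = 0) :
    g • g • picPullAlong α hαi hαI y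
        - g • picPullAlong α hαi hαI
            (NewformRep.picPushAlong α hαi hαf hαN (picPullAlong β hβi hβI y))
        + q • picPullAlong α hαi hαI y ∈ OrdinaryDatum.kernelGroup R n := by
  obtain ⟨Dv, rfl⟩ := Pic0.mk_surjective y
  rw [show n • Pic0.mk Dv = (QuotientAddGroup.mk (n • Dv) : Pic0 K F') from
    (QuotientAddGroup.mk_nsmul _ Dv n).symm, QuotientAddGroup.eq_zero_iff,
    AddSubgroup.mem_addSubgroupOf] at hy
  obtain ⟨f₀, hf₀, hord₀⟩ := hy
  obtain ⟨cc, hcc, hcc'⟩ := hb.scale f₀ hf₀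
  set f := cc • f₀ with hfdef
  have hcc0 : cc ≠ 0 := fun e => hcc' (by
    rw [show (⟨_, hcc⟩ : V') = 0 from Subtype.ext (show f = 0 by rw [hfdef, e, zero_smul]), map_zero])
  have hf : f ≠ 0 := smul_ne_zero hcc0 hf₀
  have hD : ∀ v : Place K F', (n : ℤ) * (Dv : Divisor K F') v = v.ord f := fun v => by
    rw [hfdef, Algebra.smul_def, v.ord_mul ((map_ne_zero _).2 hcc0) hf₀, Curve.ord_algebraMap v,
      zero_add, ← hord₀ v, AddSubgroupClass.coe_nsmul, Finsupp.smul_apply, nsmul_eq_mul]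
  have hpull : ∀ (ψ : F' →ₐ[K] F) (hψ : ψ.toRingHom.IsIntegral) (Z : Divisor K F') (z : F'),
      (∀ v : Place K F', (n : ℤ) * Z v = v.ord z) → ∀ w : Place K F,
        (n : ℤ) * Divisor.pullbackAlong ψ hψ Z w = w.ord (ψ z) := fun ψ hψ Z z hZ w => by
    rw [Divisor.pullbackAlong_apply, Place.ord_restrictAlong ψ hψ, mul_left_comm, hZ]
  letI := algebraAlong α
  haveI := isScalarTower_along α
  haveI : Module.Finite F' F := hαf
  set u : F' := Algebra.norm F' (β f) with hu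
  have hβf : β f ≠ 0 := (map_ne_zero β).2 hf
  have hu0 : u ≠ 0 := Algebra.norm_ne_zero_iff.2 hβf
  set B : Divisor K F' :=
    Divisor.pushforwardAlong α hαi (Divisor.pullbackAlong β hβi (Dv : Divisor K F')) with hB
  have hBu : ∀ v : Place K F', (n : ℤ) * B v = v.ord u := fun v => by
    have h1 : Divisor.pushforwardAlong α hαi
        ((n : ℤ) • Divisor.pullbackAlong β hβi (Dv : Divisor K F')) v = v.ord u :=
      hαN (β f) hβf _ (fun w => by simpa using hpull β hβi _ f hD w) v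
    rw [← h1, map_zsmul, Finsupp.smul_apply, smul_eq_mul]
  -- reductions
  obtain ⟨hαfi, eαfi⟩ := hd.fst ⟨f, hcc⟩
  obtain ⟨hαfj, eαfj⟩ := hd.snd ⟨f, hcc⟩
  obtain ⟨hβfj, eβfj⟩ := hd'.fst ⟨f, hcc⟩
  obtain ⟨hβfi, eβfi⟩ := hd'.snd ⟨f, hcc⟩
  obtain ⟨hu', eu⟩ := hd.norm_red hb hij hβfi hβfj
  rw [eβfi, eβfj] at eu
  set G : E := φ' ⟨f, hcc⟩ with hG
  have hG0 : G ≠ 0 := hcc'
  have hcΦ : ∀ e : E, D.c (D.Φ e) = e ^ q := fun e => by
    obtain ⟨e', rfl⟩ := D.c.surjective e
    rw [D.Φ_c, map_pow]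
  obtain ⟨hαui, eαui⟩ := hd.fst ⟨u, hu'⟩
  obtain ⟨hαuj, eαuj⟩ := hd.snd ⟨u, hu'⟩
  rw [eu] at eαui eαuj
  set a : F := α f with ha
  set bb : F := α u with hbb
  have ha0 : a ≠ 0 := (map_ne_zero α).2 hf
  have hbb0 : bb ≠ 0 := (map_ne_zero α).2 hu0
  set Fz : F := g • g • a * (g • bb)⁻¹ * a ^ q with hFz
  have hgga : g • g • a ≠ 0 := by simp [ha0]
  have hgb : g • bb ≠ 0 := by simp [hbb0]
  have hkey : ∀ l, ∃ h : Fz ∈ R.V l, R.φ l ⟨Fz, h⟩ = 1 := by
    intro l
    obtain ⟨hal, hbl, hGl, hprod⟩ : ∃ (hal : a ∈ R.V l) (hbl : bb ∈ R.V l),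
        R.φ l ⟨bb, hbl⟩ ≠ 0 ∧
        D.c (D.c (R.φ l ⟨a, hal⟩)) * R.φ l ⟨a, hal⟩ ^ q = D.c (R.φ l ⟨bb, hbl⟩) := by
      rcases cover l with rfl | rfl
      · refine ⟨hαfi, hαui, ?_, ?_⟩
        · rw [eαui]
          exact mul_ne_zero ((map_ne_zero _).2 hG0) ((map_ne_zero _).2 hG0)
        · rw [eαui, eαfi, map_mul, hcΦ, mul_comm]
      · refine ⟨hαfj, hαuj, ?_, ?_⟩
        · rw [eαuj]
          exact (map_ne_zero _).2
            (mul_ne_zero ((map_ne_zero _).2 hG0) ((map_ne_zero _).2 hG0))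
        · rw [eαuj, eαfj, hcΦ, hcΦ, mul_pow, map_pow, mul_comm]
    have hga : g • a ∈ R.V l := (hg.mem_V_iff l a).2 hal
    have hgga' : g • g • a ∈ R.V l := (hg.mem_V_iff l _).2 hga
    have hgb' : g • bb ∈ R.V l := (hg.mem_V_iff l bb).2 hbl
    have e1 : R.φ l ⟨g • g • a, hgga'⟩ = D.c (D.c (R.φ l ⟨a, hal⟩)) := by
      rw [← hg.φ_smul l ⟨a, hal⟩]
      exact hg.φ_smul l ⟨g • a, hga⟩
    have e2 : R.φ l ⟨g • bb, hgb'⟩ = D.c (R.φ l ⟨bb, hbl⟩) := hg.φ_smul l ⟨bb, hbl⟩
    have hne : R.φ l ⟨g • bb, hgb'⟩ ≠ 0 := by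
      rw [e2]
      exact (map_ne_zero _).2 hGl
    have hinv : (g • bb)⁻¹ ∈ R.V l := R.inv_mem_V (f := ⟨g • bb, hgb'⟩) hne
    refine ⟨mul_mem (mul_mem hgga' hinv) (pow_mem hal q), ?_⟩
    have h2 : R.φ l ⟨g • bb, hgb'⟩ * R.φ l ⟨(g • bb)⁻¹, hinv⟩ = 1 := by
      rw [← map_mul]
      exact (congrArg (R.φ l) (Subtype.ext (mul_inv_cancel₀ hgb))).trans (map_one _)
    rw [show (⟨Fz, mul_mem (mul_mem hgga' hinv) (pow_mem hal q)⟩ : R.V l) =
        ⟨g • g • a, hgga'⟩ * ⟨(g • bb)⁻¹, hinv⟩ * ⟨a, hal⟩ ^ q from rfl,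
      map_mul, map_mul, map_pow, e1]
    rw [show D.c (D.c (R.φ l ⟨a, hal⟩)) * R.φ l ⟨(g • bb)⁻¹, hinv⟩ * R.φ l ⟨a, hal⟩ ^ q =
        D.c (D.c (R.φ l ⟨a, hal⟩)) * R.φ l ⟨a, hal⟩ ^ q * R.φ l ⟨(g • bb)⁻¹, hinv⟩ by ring,
      hprod, ← e2, h2]
  -- assemble
  let DA : Divisor.degZero (K := K) (F := F) :=
    ⟨Divisor.pullbackAlong α hαi Dv, Divisor.pullbackAlong_mem_degZero α hαi hαI Dv.2⟩
  let DB : Divisor.degZero (K := K) (F := F) :=
    ⟨Divisor.pullbackAlong α hαi B, Divisor.pullbackAlong_mem_degZero α hαi hαI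
      (Divisor.pushforwardAlong_mem_degZero α hαi
        (Divisor.pullbackAlong_mem_degZero β hβi hβI Dv.2))⟩
  let Dz : Divisor.degZero (K := K) (F := F) :=
    SemilinearAut.degZeroSMulHom g (SemilinearAut.degZeroSMulHom g DA)
      - SemilinearAut.degZeroSMulHom g DB + q • DA
  have hsmul : ∀ (Z : Divisor.degZero (K := K) (F := F)) (z : F),
      (∀ v : Place K F, (n : ℤ) * (Z : Divisor K F) v = v.ord z) → ∀ v : Place K F,
      (n : ℤ) * (SemilinearAut.degZeroSMulHom g Z : Divisor K F) v = v.ord (g • z) :=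
    fun Z z hZ v => by
      obtain ⟨w, rfl⟩ : ∃ w, g • w = v := ⟨g⁻¹ • v, smul_inv_smul g v⟩
      rw [SemilinearAut.coe_degZeroSMulHom, SemilinearAut.divisor_smul_apply_smul,
        SemilinearAut.ord_smul, hZ w]
  have hmem : Fz ∈ R.integers := R.mem_integers.2 fun l => (hkey l).1
  refine ⟨Dz, Fz, ?_, Divisor.mem_degZero.1 Dz.2, fun v => ?_, hmem, funext fun l => ?_⟩
  · rw [picPullAlong_mk, picPullAlong_mk, NewformRep.picPushAlong_mk, picPullAlong_mk,
      SemilinearAut.pic0_smul_mk, SemilinearAut.pic0_smul_mk, SemilinearAut.pic0_smul_mk]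
    show (QuotientAddGroup.mk Dz : Pic0 K F) = _
    rw [QuotientAddGroup.mk_add, QuotientAddGroup.mk_sub, QuotientAddGroup.mk_nsmul]
    rfl
  · have hA' := hpull α hαi _ f hD
    have hB' := hpull α hαi _ u hBu
    simp only [Dz, AddSubgroupClass.coe_sub, AddSubgroup.coe_add, AddSubgroupClass.coe_nsmul,
      Finsupp.add_apply, Finsupp.sub_apply, Finsupp.smul_apply, nsmul_eq_mul, mul_add, mul_sub,
      hsmul _ _ (hsmul DA a hA') v, hsmul DB bb hB' v, mul_left_comm (n : ℤ) (q : ℤ)]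
    rw [show (n : ℤ) * (DA : Divisor K F) v = v.ord a from hA' v, hFz,
      v.ord_mul (mul_ne_zero hgga (inv_ne_zero hgb)) (pow_ne_zero q ha0),
      v.ord_mul hgga (inv_ne_zero hgb), v.ord_inv, ← zpow_natCast, v.ord_zpow]
    ring
  · rw [R.red_apply]
    exact (hkey l).2

end Frobenius

end Fermat.Agent.Lifting
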