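/-
Relations with Hecke coefficients on the torsion of `J₀(N)` modulo a subgroup without trivial
constituent give relations on an unramified quotient.
-/
import Fermat.Agent.OrdinaryDatum.Assembly
import Fermat.Agent.Datum.Comparison

set_option autoImplicit false

noncomputable section

namespace Fermat.Agent.Lifting

open CuspForm ModularCurve IsLocalRing Matrix
open Fermat.Agent.GaloisAdic Fermat.Agent.Datum Fermat.Agent.OrdinaryDatum

local notation "ℚbar" => AlgebraicClosure ℚ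
local notation "Γℚ" => AlgebraicClosure ℚ ≃ₐ[ℚ] AlgebraicClosure ℚ

section Abstract

variable {G : Type*} [Group G] {h : Type*} [CommRing h] {M : Type*} [AddCommGroup M]
  {B : Type*} [CommRing B] {α : h →+* AddMonoid.End M} {act : G →* AddMonoid.End M} {d : G →* h}
  {φ : h →+* B} {r : G →* Matrix (Fin 2) (Fin 2) B}

/-- An element of the span of the group with values in a subgroup without trivial constituent is
killed by every invariant coordinate. -/
theorem coord_eq_zero_of_noTriv [IsLocalRing B] [Finite M] {p : ℕ} [Fact p.Prime]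
    (H : TransferHyp α act d φ r) {Idx : Type*} (ι : Idx → G) {C : AddSubgroup M}
    (hC : ∀ i, ∀ x ∈ C, act (ι i) x ∈ C) (hCnt : NoTriv p (fun i => act (ι i)) C)
    {Q : Type*} [AddCommGroup Q] (c : (Fin 2 → B) →+ Q)
    (hc : ∀ i v, c (r (ι i) *ᵥ v) = c v) {K : ℕ} (hQ : ∀ q : Q, p ^ K • q = 0)
    {z : (AddMonoid.End M × AddMonoid.End M) × Matrix (Fin 2) (Fin 2) B}
    (hz : z ∈ transferTriples α act d φ r) (hzC : ∀ m, z.1.1 m ∈ C) (w : Fin 2 → B) :
    c (z.2 *ᵥ w) = 0 := by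
  classical
  -- the elements with values in `C`
  let E : AddSubgroup ((AddMonoid.End M × AddMonoid.End M) × Matrix (Fin 2) (Fin 2) B) :=
    { carrier := {y | y ∈ transferTriples α act d φ r ∧ ∀ m, y.1.1 m ∈ C}
      zero_mem' := ⟨zero_mem _, fun m => zero_mem C⟩
      add_mem' := fun hx hy => ⟨add_mem hx.1 hy.1, fun m => add_mem (hx.2 m) (hy.2 m)⟩
      neg_mem' := fun hx => ⟨neg_mem hx.1, fun m => neg_mem (hx.2 m)⟩ }
  let Ψ : E →+ (M → M) :=
    { toFun := fun y m => y.1.1.1 m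
      map_zero' := rfl
      map_add' := fun _ _ => rfl }
  let Φ : E →+ Q :=
    { toFun := fun y => c (y.1.2 *ᵥ w)
      map_zero' := by simp
      map_add' := fun x y => by rw [← map_add, ← add_mulVec]; rfl }
  have hker : Ψ.rangeRestrict.ker ≤ Φ.ker := fun y hy => by
    have hy' : Ψ y = 0 := congrArg Subtype.val hy
    show c (y.1.2 *ᵥ w) = 0
    rw [H.snd_eq_zero_of_fst_eq_zero y.2.1 (AddMonoidHom.ext fun m => congrFun hy' m),
      zero_mulVec, map_zero]
  let π : Ψ.range →+ Q :=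
    Ψ.rangeRestrict.liftOfSurjective Ψ.rangeRestrict_surjective ⟨Φ, hker⟩
  have hπ : ∀ y, π (Ψ.rangeRestrict y) = Φ y := fun y =>
    AddMonoidHom.liftOfRightInverse_comp_apply _ _ _ ⟨Φ, hker⟩ y
  have hle : Ψ.range ≤ AddSubgroup.pi Set.univ fun _ : M => C := by
    rintro _ ⟨y, rfl⟩ m -
    exact y.2.2 m
  have hstab : ∀ (i : Idx) (y : E), ∃ y' : E,
      (Ψ y' = AddMonoidHom.compLeft (act (ι i)) M (Ψ y)) ∧ Φ y' = Φ y := by
    intro i y
    refine ⟨⟨_, H.mul_mem (TransferHyp.gen_mem 1 (ι i)) y.2.1, fun m => ?_⟩, funext fun m => ?_, ?_⟩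
    · show (α 1 * act (ι i) * y.1.1.1) m ∈ C
      rw [map_one, one_mul]
      exact hC i _ (y.2.2 m)
    · show (α 1 * act (ι i) * y.1.1.1) m = act (ι i) (y.1.1.1 m)
      rw [map_one, one_mul]
      rfl
    · show c (((φ 1 • r (ι i)) * y.1.2) *ᵥ w) = c (y.1.2 *ᵥ w)
      rw [map_one, one_smul, ← mulVec_mulVec, hc]
  have hB : ∀ i, ∀ x ∈ Ψ.range, AddMonoidHom.compLeft (act (ι i)) M x ∈ Ψ.range := by
    rintro i _ ⟨y, rfl⟩
    obtain ⟨y', hy', -⟩ := hstab i y
    exact ⟨y', hy'⟩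
  have hnt := hCnt.pi (ι := M) Ψ.range hle hB
  -- every homomorphism of the image to `ℤ/p` vanishes
  have hV : ∀ g : π.range →+ ZMod p, g = 0 := fun g => by
    refine DFunLike.ext _ _ fun v => ?_
    obtain ⟨x, rfl⟩ := π.rangeRestrict_surjective v
    refine DFunLike.congr_fun (hnt (g.comp π.rangeRestrict) fun i x => ?_) x
    obtain ⟨y, rfl⟩ := Ψ.rangeRestrict_surjective x
    obtain ⟨y', hy', hΦ⟩ := hstab i y
    refine congrArg g (Subtype.ext ?_)
    show π _ = π _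
    rw [hπ, ← hΦ, ← hπ]
    exact congrArg π (Subtype.ext hy'.symm)
  have hVp : ∀ v : π.range, ∃ v', p • v' = v := by
    intro v
    let R : AddSubgroup π.range := (nsmulAddMonoidHom p : π.range →+ π.range).range
    by_contra hv
    have hq : (QuotientAddGroup.mk v : π.range ⧸ R) ≠ 0 := fun h0 =>
      hv (((QuotientAddGroup.eq_zero_iff v).1 h0).imp fun _ h => h)
    obtain ⟨g, hg⟩ := exists_hom_zmod_ne_zero (p := p) (Q := π.range ⧸ R) (fun x => by
      obtain ⟨x, rfl⟩ := QuotientAddGroup.mk_surjective x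
      rw [← QuotientAddGroup.mk_nsmul, QuotientAddGroup.eq_zero_iff]
      exact ⟨x, rfl⟩) hq
    exact hg (DFunLike.congr_fun (hV (g.comp (QuotientAddGroup.mk' R))) v)
  have hVpow : ∀ (n : ℕ) (v : π.range), ∃ v', p ^ n • v' = v := by
    intro n
    induction n with
    | zero => exact fun v => ⟨v, by rw [pow_zero, one_nsmul]⟩
    | succ n ih =>
      intro v
      obtain ⟨v₁, rfl⟩ := ih v
      obtain ⟨v₂, rfl⟩ := hVp v₁
      exact ⟨v₂, by rw [pow_succ, mul_nsmul']⟩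
  obtain ⟨v', hv'⟩ := hVpow K (π.rangeRestrict (Ψ.rangeRestrict ⟨z, hz, hzC⟩))
  have h0 := congrArg Subtype.val hv'
  rw [AddSubgroupClass.coe_nsmul, hQ] at h0
  have h1 : π (Ψ.rangeRestrict ⟨z, hz, hzC⟩) = 0 := h0.symm
  rw [hπ] at h1
  exact h1

end Abstract

variable {N : ℕ} [NeZero N] {p : ℕ} [Fact p.Prime] {O : Type} [CommRing O] [IsLocalRing O]

/-- The transfer hypotheses at level `K` modulo `I`, for a character of a Hecke algebra with more
operators than the primes at which the Frobenius polynomials are known. -/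
theorem transferHyp_level_sub (hF : TorsionFacts N p) (F : TorsionFrame N p) {S S' : Finset ℕ}
    (hsub : S' ⊆ S) (hpS : p ∈ S) (hNS : ∀ q : ℕ, q.Prime → q ∣ N → q ∈ S)
    (H : HeckePoint N S O) (χ : heckeAlgebra N 2 (↑S' : Set ℕ) →+* O)
    (hχ : ∀ (ℓ : ℕ) (hℓ : ℓ.Prime) (hℓN : ¬ ℓ ∣ N) (hℓS : ℓ ∉ (↑S : Set ℕ))
      (hℓS' : ℓ ∉ (↑S' : Set ℕ)),
      χ (heckeAlgebra.T hℓ hℓN hℓS') = H.π (heckeAlgebra.T hℓ hℓN hℓS))
    (K : ℕ) {I : Ideal O} {m : ℕ} (hI : maximalIdeal O ^ m ≤ I) [Nontrivial (O ⧸ I)]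
    (hker : ∀ a, levelHecke F (↑S' : Set ℕ) K a = 0 → χ a ∈ I) :
    TransferHyp (levelAlpha F S' K) (levelAct F K) (levelDet F S' K)
      (Ideal.Quotient.lift (RingHom.ker (levelHecke F (↑S' : Set ℕ) K))
        ((Ideal.Quotient.mk I).comp χ)
        (fun a ha => Ideal.Quotient.eq_zero_iff_mem.mpr (hker a ha)))
      (repMod H.ρ I) := by
  refine transferHyp_of_frobenius _ _ _ _ _ S ?_ ?_
    (span_range_repMod H.ρ H.residual_absIrr I) ?_ ?_
  · intro a σ
    obtain ⟨a, rfl⟩ := Ideal.Quotient.mk_surjective a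
    exact levelHecke_commute F hF _ K a σ
  · intro a ha
    rw [(RingHom.kerLift_injective _) (ha.trans (map_zero (levelAlpha F S' K)).symm), map_zero]
  · obtain ⟨L₁, hL₁, h₁⟩ := exists_level_levelAct F hF K
    obtain ⟨L₂, hL₂, h₂⟩ := exists_level_chiMod (p ^ K)
    obtain ⟨L₃, hL₃, h₃⟩ := exists_level_repMod H.ρ hI
    refine ⟨L₁ ⊔ (L₂ ⊔ L₃), inferInstance, fun σ hσ => ⟨?_, ?_, ?_⟩⟩
    · exact h₁ σ fun x hx => hσ x (SetLike.le_def.mp le_sup_left hx)
    · rw [levelDet_eq_natCast F S' K (a := 1)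
        (by rw [Nat.cast_one]; exact h₂ σ fun x hx =>
          hσ x (SetLike.le_def.mp (le_sup_left.trans le_sup_right) hx)), Nat.cast_one]
    · exact h₃ σ fun x hx => hσ x (SetLike.le_def.mp (le_sup_right.trans le_sup_right) hx)
  · intro ℓ hℓ hℓS A hA τ hτ
    have hℓN : ¬ ℓ ∣ N := fun h => hℓS (hNS ℓ hℓ h)
    have hℓp : ℓ ≠ p := fun h => hℓS (h ▸ hpS)
    have hℓS₁ : ℓ ∉ (↑S : Set ℕ) := by simpa using hℓS
    have hℓS' : ℓ ∉ (↑S' : Set ℕ) := fun hm => hℓS (hsub (Finset.mem_coe.1 hm))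
    obtain ⟨htr, hdet⟩ := repMod_frobenius H I hℓ hℓN hℓS₁ hA hτ
    have hdτ : levelDet F S' K τ = (ℓ : LevelAlg F S' K) :=
      levelDet_eq_natCast F S' K (chiMod_frobenius (p ^ K) hA hτ
        (Nat.Coprime.pow_right K ((Nat.coprime_primes hℓ Fact.out).mpr hℓp)))
    refine ⟨by rw [hdet, hdτ, map_natCast], Ideal.Quotient.mk _ (heckeAlgebra.T hℓ hℓN hℓS'),
      ?_, htr.trans (congrArg (Ideal.Quotient.mk I) (hχ ℓ hℓ hℓN hℓS₁ hℓS').symm)⟩
    rw [hdτ, levelAlpha_mk, map_natCast, ← map_natCast (levelHecke F (↑S' : Set ℕ) K)]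
    exact levelAct_frobenius F hF _ K hℓ hℓN hℓS' hℓp hA hτ

/-- The matrix of `t₂ σ² + t₁ σ + t₀` on `J₀(N)[pᴷ]`. -/
def levelQuadratic (F : TorsionFrame N p) (S : Set ℕ) (K : ℕ) (σ : Γℚ)
    (t₂ t₁ t₀ : heckeAlgebra N 2 S) : Matrix (Fin F.H.r) (Fin F.H.r) (ZMod (p ^ K)) :=
  levelHecke F S K t₂ * levelAct F K (σ * σ) + levelHecke F S K t₁ * levelAct F K σ +
    levelHecke F S K t₀

/-- The subgroups without trivial constituent into which `t₂ σ² + t₁ σ + t₀` maps the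
torsion. -/
def HasQuadraticKernels (F : TorsionFrame N p) (S : Set ℕ) (P : ValuationSubring ℚbar) (σ : Γℚ)
    (t₂ t₁ t₀ : heckeAlgebra N 2 S) : Prop :=
  ∀ K : ℕ, ∃ C : AddSubgroup (JZero N),
    (∀ τ ∈ P.inertiaSubgroupIn ℚ, ∀ x ∈ C, τ • x ∈ C) ∧
    NoTriv p (jAct N P) C ∧
    ∀ v : Fin F.H.r → ZMod (p ^ K), F.e K (levelQuadratic F S K σ t₂ t₁ t₀ *ᵥ v) ∈ C

/-- A relation with Hecke coefficients holds for the scalar by which `σ` acts on an unramified
quotient. -/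
theorem eq_zero_of_hasQuadraticKernels [IsNoetherianRing O] [Finite (ResidueField O)]
    (hF : TorsionFacts N p) (F : TorsionFrame N p) {S S' : Finset ℕ}
    (hsub : S' ⊆ S) (hpS : p ∈ S) (hNS : ∀ q : ℕ, q.Prime → q ∣ N → q ∈ S)
    (hpO : (p : O) ∈ maximalIdeal O) (χ : heckeAlgebra N 2 (↑S' : Set ℕ) →+* O)
    (ρ : GaloisRepAdic O) (habs : ρ.residual.IsAbsolutelyIrreducible)
    (hρ : ∀ (ℓ : ℕ) (hℓ : ℓ.Prime) (hℓN : ¬ ℓ ∣ N) (hℓS' : ℓ ∉ (↑S' : Set ℕ)), ℓ ∉ S →
      ∀ A : ValuationSubring ℚbar, A.LiesOverPrime ℓ → ∀ τ : Γℚ, A.IsFrobeniusAt τ ℓ →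
        LinearMap.charpoly (ρ.ρ τ) = Polynomial.X ^ 2
          - Polynomial.C (χ (heckeAlgebra.T hℓ hℓN hℓS')) * Polynomial.X + Polynomial.C (ℓ : O))
    {P : ValuationSubring ℚbar} (b : Module.Basis (Fin 2) O ρ.V)
    (hI : ∀ τ ∈ P.inertiaSubgroupIn ℚ, ∀ v : ρ.V, b.repr (ρ.ρ τ v) 1 = b.repr v 1)
    {σ : Γℚ} {z : O} (hz : ∀ v : ρ.V, b.repr (ρ.ρ σ v) 1 = z * b.repr v 1)
    {t₂ t₁ t₀ : heckeAlgebra N 2 (↑S' : Set ℕ)}
    (hC : HasQuadraticKernels F (↑S' : Set ℕ) P σ t₂ t₁ t₀) :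
    χ t₂ * z ^ 2 + χ t₁ * z + χ t₀ = 0 := by
  classical
  have hmono : heckeAlgebra N 2 (↑S : Set ℕ) ≤ heckeAlgebra N 2 (↑S' : Set ℕ) :=
    heckeAlgebra_mono (Finset.coe_subset.2 hsub)
  let H : HeckePoint N S O :=
    { π := χ.comp (Subalgebra.inclusion hmono).toRingHom
      ρ := ρ
      charpoly_frob := fun ℓ hℓ hℓN hℓS A hA τ hτ =>
        hρ ℓ hℓ hℓN (fun hm => hℓS (Finset.mem_coe.2 (hsub (Finset.mem_coe.1 hm))))
          (fun hm => hℓS (Finset.mem_coe.2 hm)) A hA τ hτ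
      residual_absIrr := habs }
  have hmem : ∀ m, m ≠ 0 → χ t₂ * z ^ 2 + χ t₁ * z + χ t₀ ∈ maximalIdeal O ^ m := by
    intro m hm
    haveI := nontrivial_quotient_pow (T := O) hm
    haveI := isLocalRing_quotient (maximalIdeal O ^ m)
    obtain ⟨K, hK⟩ := exists_level F (↑S' : Set ℕ) m
    have hker : ∀ a, levelHecke F (↑S' : Set ℕ) K a = 0 → χ a ∈ maximalIdeal O ^ m := by
      intro a ha
      obtain ⟨c, rfl⟩ := Ideal.mem_span_singleton'.mp (hK a ha)
      rw [map_mul, map_natCast, Nat.cast_pow]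
      exact Ideal.mul_mem_left _ _ (Ideal.pow_mem_pow hpO m)
    have hH := transferHyp_level_sub hF F hsub hpS hNS H χ (fun _ _ _ _ _ => rfl) K le_rfl hker
    let ψ : Matrix (Fin F.H.r) (Fin F.H.r) (ZMod (p ^ K)) →+*
        AddMonoid.End (Fin F.H.r → ZMod (p ^ K)) :=
      { toFun := fun X => (Matrix.mulVecLin X).toAddMonoidHom
        map_one' := AddMonoidHom.ext fun v => one_mulVec v
        map_mul' := fun X Y => AddMonoidHom.ext fun v => (mulVec_mulVec v X Y).symm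
        map_zero' := AddMonoidHom.ext fun v => zero_mulVec v
        map_add' := fun X Y => AddMonoidHom.ext fun v => add_mulVec X Y v }
    have hψ : Function.Injective ψ := fun X Y h =>
      Matrix.ext_of_mulVec_single fun i => DFunLike.congr_fun h (Pi.single i 1)
    haveI : NeZero (p ^ K) := ⟨pow_ne_zero _ (Fact.out (p := p.Prime)).ne_zero⟩
    obtain ⟨C, hCst, hCnt, hCmem⟩ := hC K
    have hCst' : ∀ τ : P.inertiaSubgroupIn ℚ, ∀ x ∈ C.comap (F.e K),
        levelAct F K τ *ᵥ x ∈ C.comap (F.e K) := fun τ x hx => by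
      show F.e K ((F.galMatrix (τ : Γℚ)).map (PadicInt.toZModPow K) *ᵥ x) ∈ C
      rw [F.e_galMatrix]
      exact hCst τ τ.2 _ hx
    have hnt : NoTriv p (fun τ : P.inertiaSubgroupIn ℚ =>
        (ψ.toMonoidHom.comp (levelAct F K)) τ) (C.comap (F.e K)) :=
      hCnt.comap_injective (F.e K) (F.isTorsionIso K).injective fun τ x =>
        F.e_galMatrix τ K x
    let J := maximalIdeal O ^ m
    let c : (Fin 2 → O ⧸ J) →+ O ⧸ J :=
      { toFun := fun w => ∑ i, w i * Ideal.Quotient.mk J (b.repr (repBasis ρ i) 1)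
        map_zero' := by simp
        map_add' := fun v w => by simp [add_mul, Finset.sum_add_distrib] }
    have hcv : ∀ v : ρ.V, c (repCoord ρ J v) = Ideal.Quotient.mk J (b.repr v 1) := fun v => by
      have h := congrArg (fun u => b.repr u 1) ((repBasis ρ).sum_repr v)
      simp only [Fin.sum_univ_two, map_add, map_smul, Finsupp.add_apply, Finsupp.smul_apply,
        smul_eq_mul] at h
      simp [c, repCoord, ← h, Fin.sum_univ_two]
    have hcI : ∀ (τ : P.inertiaSubgroupIn ℚ) (w : Fin 2 → O ⧸ J),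
        c (repMod ρ J τ *ᵥ w) = c w := fun τ w => by
      obtain ⟨v, rfl⟩ := repCoord_surjective ρ J w
      rw [← repCoord_rho, hcv, hcv, hI τ τ.2 v]
    have hQ : ∀ q : O ⧸ J, p ^ m • q = 0 := fun q => by
      obtain ⟨x, rfl⟩ := Ideal.Quotient.mk_surjective q
      rw [← map_nsmul, Ideal.Quotient.eq_zero_iff_mem, nsmul_eq_mul, Nat.cast_pow]
      exact Ideal.mul_mem_right _ _ (Ideal.pow_mem_pow hpO m)
    have hz3 := (transferTriples _ _ _ _ _).add_mem ((transferTriples _ _ _ _ _).add_mem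
      (TransferHyp.gen_mem (α := ψ.comp (levelAlpha F S' K))
        (act := ψ.toMonoidHom.comp (levelAct F K)) (d := levelDet F S' K)
        (φ := Ideal.Quotient.lift (RingHom.ker (levelHecke F (↑S' : Set ℕ) K))
          ((Ideal.Quotient.mk J).comp χ)
          (fun a ha => Ideal.Quotient.eq_zero_iff_mem.mpr (hker a ha)))
        (r := repMod ρ J) (Ideal.Quotient.mk _ t₂) (σ * σ))
      (TransferHyp.gen_mem (Ideal.Quotient.mk _ t₁) σ))
      (TransferHyp.gen_mem (Ideal.Quotient.mk _ t₀) 1)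
    have h0 := coord_eq_zero_of_noTriv (hH.map ψ hψ) (fun τ : P.inertiaSubgroupIn ℚ => (τ : Γℚ))
      hCst' hnt c hcI hQ hz3 (fun v => by
        rw [AddSubgroup.mem_comap]
        convert hCmem v using 2
        simp only [Prod.fst_add, levelQuadratic, RingHom.comp_apply, MonoidHom.comp_apply,
          levelAlpha_mk, map_one, mul_one, RingHom.toMonoidHom_eq_coe, MonoidHom.coe_coe,
          ← map_mul, ← map_add]
        rfl)
      (repCoord ρ J (b 1))
    simp only [Prod.snd_add, add_mulVec, map_add, Ideal.Quotient.lift_mk, RingHom.comp_apply,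
      smul_mulVec, map_one, one_mulVec] at h0
    have hcs : ∀ (x : O) (v : ρ.V),
        c (Ideal.Quotient.mk J x • repCoord ρ J v) = Ideal.Quotient.mk J (x * b.repr v 1) := by
      intro x v
      rw [← repCoord_smul, hcv, map_smul, Finsupp.smul_apply, smul_eq_mul]
    rw [← repCoord_rho, ← repCoord_rho, hcs, hcs, hcs, map_mul ρ.ρ, Module.End.mul_apply,
      hz, hz, b.repr_self, Finsupp.single_eq_same, mul_one, mul_one, ← map_add, ← map_add,
      Ideal.Quotient.eq_zero_iff_mem] at h0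
    convert h0 using 1
    ring
  have hbot := Ideal.iInf_pow_eq_bot_of_isLocalRing (maximalIdeal O)
    (maximalIdeal.isMaximal O).ne_top
  rw [← Ideal.mem_bot, ← hbot, Ideal.mem_iInf]
  intro i
  exact Ideal.pow_le_pow_right i.le_succ (hmem (i + 1) i.succ_ne_zero)

end Fermat.Agent.Lifting
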