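/-
The unit root at a good ordinary `p` of a twisted point.
-/
import Fermat.Agent.Lifting.GFlat
import Fermat.Agent.Lifting.GTransfer
import Fermat.Agent.Lifting.EDatum
import Fermat.Agent.Galois.Frobenius
import Fermat.Agent.Lifting.EBasic

set_option autoImplicit false

noncomputable section

namespace Fermat.Agent.Lifting

open Fermat.Agent.Ribet.Twisted IsLocalRing GaloisAdic ModularCurve OrdinaryDatum Matrix

local notation "ℚbar" => AlgebraicClosure ℚ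
local notation "Γℚ" => AlgebraicClosure ℚ ≃ₐ[ℚ] AlgebraicClosure ℚ

/-- At a good prime the quadratic relation of Frobenius maps the `p`-power torsion into stable
subgroups without trivial constituent. -/
def HasGoodKernels (N p : ℕ) [NeZero N] [hp : Fact p.Prime] : Prop :=
  ∀ P : ValuationSubring ℚbar, P.LiesOverPrime p → ∀ σ : Γℚ, P.IsFrobeniusAt σ p → ∃ c : ℕ,
    ∀ K : ℕ, ∃ C : AddSubgroup (JZero N),
      (∀ τ ∈ P.inertiaSubgroupIn ℚ, ∀ x ∈ C, τ • x ∈ C) ∧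
      NoTriv p (jAct N P) C ∧
      ∀ x : JZero N, p ^ K • x = 0 →
        p ^ c • (σ • σ • x - heckeOperatorBar N ⟨p, hp.out⟩ (σ • x) + p • x) ∈ C

/-- The kernels of the good reduction. -/
theorem hasGoodKernels (N p : ℕ) [NeZero N] [hp : Fact p.Prime] (hp2 : p ≠ 2) (hpN : ¬ p ∣ N) :
    HasGoodKernels N p := fun P hP σ hσ => ⟨0, fun K =>
  ⟨goodKernel N p P K, fun _ hτ _ hx => smul_mem_goodKernel P hpN hP hτ hx,
    noTriv_goodKernel P hpN hP (by have := hp.out.two_le; omega) K, fun x hx => by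
      rw [pow_zero, one_smul]
      exact quadratic_mem_goodKernel P hpN hP hσ hx⟩⟩

/-- Two Frobenius elements at one place differ by inertia. -/
theorem inv_mul_mem_inertia_of_isFrobeniusAt {A : ValuationSubring ℚbar} {φ φ' : Γℚ} {q : ℕ}
    (h : A.IsFrobeniusAt φ q) (h' : A.IsFrobeniusAt φ' q) :
    φ⁻¹ * φ' ∈ A.inertiaSubgroupIn ℚ := by
  obtain ⟨hφ, hx⟩ := h
  obtain ⟨hφ', hx'⟩ := h'
  refine ⟨(⟨φ, hφ⟩ : A.decompositionSubgroup ℚ)⁻¹ * ⟨φ', hφ'⟩, ?_, rfl⟩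
  rw [ValuationSubring.inertiaSubgroup, SetLike.mem_coe, MonoidHom.mem_ker]
  refine RingEquiv.ext fun y => ?_
  show ((⟨φ, hφ⟩ : A.decompositionSubgroup ℚ)⁻¹ * ⟨φ', hφ'⟩) • y = y
  rw [mul_smul, inv_smul_eq_iff, hx, hx']

section Frame

variable {N : ℕ} [NeZero N] {p : ℕ} [hp : Fact p.Prime]

/-- The subgroups of `HasGoodKernels` in the coordinates of a frame. -/
theorem hasQuadraticKernels_of_hasGoodKernels (F : TorsionFrame N p) {S : Set ℕ}
    {P : ValuationSubring ℚbar} {σ : Γℚ} (hpN : ¬ p ∣ N) (hpS : p ∉ S) {c : ℕ}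
    (hC : ∀ K : ℕ, ∃ C : AddSubgroup (JZero N),
      (∀ τ ∈ P.inertiaSubgroupIn ℚ, ∀ x ∈ C, τ • x ∈ C) ∧
      NoTriv p (jAct N P) C ∧
      ∀ x : JZero N, p ^ K • x = 0 →
        p ^ c • (σ • σ • x - heckeOperatorBar N ⟨p, hp.out⟩ (σ • x) + p • x) ∈ C) :
    HasQuadraticKernels F S P σ
      ((p ^ c : ℕ) : CuspForm.heckeAlgebra N 2 S)
      (-(((p ^ c : ℕ) : CuspForm.heckeAlgebra N 2 S) * CuspForm.heckeAlgebra.T hp.out hpN hpS))
      (((p ^ c * p : ℕ) : CuspForm.heckeAlgebra N 2 S)) := by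
  intro K
  obtain ⟨C, hst, hnt, hmem⟩ := hC K
  refine ⟨C, hst, hnt, fun v => ?_⟩
  have hx : p ^ K • F.e K v = 0 := ((F.isTorsionIso K).mem_range_iff _).1 ⟨v, rfl⟩
  have hnat : ∀ (n : ℕ) (w : Fin F.H.r → ZMod (p ^ K)),
      F.e K ((n : Matrix (Fin F.H.r) (Fin F.H.r) (ZMod (p ^ K))) *ᵥ w) = n • F.e K w := by
    intro n w
    rw [← nsmul_one, Matrix.smul_mulVec, Matrix.one_mulVec, map_nsmul]
  have hact : ∀ (g : Γℚ) (w : Fin F.H.r → ZMod (p ^ K)),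
      F.e K (Datum.levelAct F K g *ᵥ w) = g • F.e K w := fun g w => F.e_galMatrix g K w
  have hT : ∀ w : Fin F.H.r → ZMod (p ^ K),
      F.e K (Datum.levelHecke F S K (CuspForm.heckeAlgebra.T hp.out hpN hpS) *ᵥ w) =
        heckeOperatorBar N ⟨p, hp.out⟩ (F.e K w) := fun w => by
    rw [Datum.levelHecke_T, (F.isTorsionIso K).hecke]
  have hσσ : F.e K (Datum.levelAct F K (σ * σ) *ᵥ v) = σ • σ • F.e K v := by
    rw [hact, mul_smul]
  have key := hmem (F.e K v) hx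
  rw [nsmul_add, nsmul_sub, ← mul_nsmul'] at key
  convert key using 1
  rw [levelQuadratic, map_neg, map_mul (Datum.levelHecke F S K), map_natCast, map_natCast,
    neg_mul, add_mulVec, add_mulVec, neg_mulVec, ← mulVec_mulVec, ← mulVec_mulVec, ← mulVec_mulVec,
    map_add, map_add, map_neg, hnat, hσσ, hnat, hT, hact, hnat, sub_eq_add_neg]

end Frame

variable {p : ℕ} [Fact p.Prime] {O : Type} [CommRing O] [IsDomain O] [IsDiscreteValuationRing O]
  [IsAdicComplete (maximalIdeal O) O] [Finite (ResidueField O)] [CharZero O]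
  {L D : ℕ} [NeZero L] {ψ : DirichletCharacter O D} {S : Finset ℕ} {a : ℕ → O}
  {ρbar : ResidualGaloisRep (ResidueField O)}

/-- (p0), good ordinary shape: on the unramified quotient Frobenius is the unit root of
`X ^ 2 - a p X + p`, given the kernels on the Jacobian. -/
theorem TwistedPoint.exists_unitRoot_of_hasGoodKernels (h : TwistedPoint p ρbar L D ψ S a)
    {ρ : GaloisRepAdic O} (hρ : HasFrobPoly ρ S a) (hpL : ¬ p ∣ L)
    (hres : (GaloisRepAdic.ofResidualGaloisRep ρbar).IsOrdinaryAt p)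
    (hap : HasSystem h.dvd (toFrac ψ) (S.erase p)
      fun ℓ => algebraMap O (FractionRing O) (a ℓ))
    (hJ : HasGoodKernels (twistLevel L ψ) p)
    (P : ValuationSubring ℚbar) (hP : P.LiesOverPrime p) :
    ∃ (U : Submodule O ρ.V) (z : O), (∃ b : Module.Basis (Fin 2) O ρ.V, U = O ∙ b 0) ∧
      (∀ σ ∈ P.decompositionSubgroup ℚ, ∀ v ∈ U, ρ.ρ σ v ∈ U) ∧
      (∀ σ ∈ P.inertiaSubgroupIn ℚ, ∀ v : ρ.V, ρ.ρ σ v - v ∈ U) ∧
      IsUnit z ∧ z ^ 2 - a p * z + (p : O) = 0 ∧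
      ∀ σ : Γℚ, P.IsFrobeniusAt σ p → ∀ v : ρ.V, ρ.ρ σ v - z • v ∈ U := by
  classical
  have hp : p.Prime := Fact.out
  set N := twistLevel L ψ with hN
  have hpN : ¬ p ∣ N := fun hd => hpL ((h.dvd_twistLevel_iff hp).1 hd)
  have hpS' : p ∉ (↑(S.erase p) : Set ℕ) := by simp
  obtain ⟨χ, hχT, -⟩ := h.exists_level_hom (S.erase p) (Finset.erase_subset p S)
    (fun q hq hqD => Finset.mem_erase.2
      ⟨fun hqp => hpL (hqp ▸ hqD.trans h.dvd), h.level_mem_set q hq (hqD.trans h.dvd)⟩) hap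
  obtain ⟨U, ⟨b, hb⟩, hUD, hUI⟩ := h.isOrdinaryAt_aux hρ hres P hP
  obtain ⟨σ₀, hσ₀⟩ := Galois.exists_isFrobeniusAt hp hP
  have hσ₀D : σ₀ ∈ P.decompositionSubgroup ℚ := hσ₀.mem_decompositionSubgroup
  have hmemU : ∀ v : ρ.V, v ∈ U ↔ b.repr v 1 = 0 := by
    intro v
    rw [hb, Submodule.mem_span_singleton]
    constructor
    · rintro ⟨t, rfl⟩
      simp
    · intro h1
      refine ⟨b.repr v 0, ?_⟩
      conv_rhs => rw [← b.sum_repr v, Fin.sum_univ_two, h1, zero_smul, add_zero]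
  have hcoord : ∀ g ∈ P.decompositionSubgroup ℚ, ∀ v : ρ.V,
      b.repr (ρ.ρ g v) 1 = b.repr (ρ.ρ g (b 1)) 1 * b.repr v 1 := by
    intro g hg v
    have h0 : b.repr (ρ.ρ g (b 0)) 1 = 0 :=
      (hmemU _).1 (hUD g hg _ ((hmemU _).2 (by simp)))
    have h := congrArg (fun u => b.repr (ρ.ρ g u) 1) (b.sum_repr v)
    simp only [Fin.sum_univ_two, map_add, map_smul, Finsupp.add_apply, Finsupp.smul_apply,
      smul_eq_mul, h0, mul_zero, zero_add] at h
    rw [← h, mul_comm]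
  have hI : ∀ τ ∈ P.inertiaSubgroupIn ℚ, ∀ v : ρ.V, b.repr (ρ.ρ τ v) 1 = b.repr v 1 := by
    intro τ hτ v
    have h1 := (hmemU _).1 (hUI τ hτ v)
    rwa [map_sub, Finsupp.sub_apply, sub_eq_zero] at h1
  set z := b.repr (ρ.ρ σ₀ (b 1)) 1 with hz
  have hzv : ∀ v : ρ.V, b.repr (ρ.ρ σ₀ v) 1 = z * b.repr v 1 := hcoord σ₀ hσ₀D
  have hunit : IsUnit z := by
    refine IsUnit.of_mul_eq_one (b.repr (ρ.ρ σ₀⁻¹ (b 1)) 1) ?_
    have h1 := hzv (ρ.ρ σ₀⁻¹ (b 1))
    rw [← Module.End.mul_apply, ← map_mul, mul_inv_cancel, map_one ρ.ρ, Module.End.one_apply,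
      b.repr_self, Finsupp.single_eq_same] at h1
    exact h1.symm
  refine ⟨U, z, ⟨b, hb⟩, hUD, hUI, hunit, ?_, fun σ hσ v => ?_⟩
  · obtain ⟨F⟩ := nonempty_torsionFrame N p
    obtain ⟨c, hC⟩ := hJ P hP σ₀ hσ₀
    have hrel := eq_zero_of_hasQuadraticKernels (torsionFacts N p) F (Finset.erase_subset p S)
      h.p_mem_set h.level_mem_set' h.p_mem χ ρ (h.residual_absIrr hρ)
      (fun ℓ hℓ hℓN hℓS' hℓS A hA τ hτ => by
        rw [hρ ℓ hℓ hℓS A hA τ hτ, hχT ℓ hℓ hℓN hℓS'])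
      b hI hzv (hasQuadraticKernels_of_hasGoodKernels F hpN hpS' hC)
    rw [map_neg, map_mul, map_natCast, map_natCast, hχT p hp hpN hpS'] at hrel
    push_cast at hrel
    have hp0 : ((p : O) ^ c) ≠ 0 := pow_ne_zero _ (Nat.cast_ne_zero.2 hp.ne_zero)
    refine mul_left_cancel₀ hp0 ?_
    linear_combination hrel
  · have hτ := inv_mul_mem_inertia_of_isFrobeniusAt hσ₀ hσ
    rw [hmemU, map_sub, Finsupp.sub_apply, map_smul, Finsupp.smul_apply, smul_eq_mul,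
      show σ = σ₀ * (σ₀⁻¹ * σ) by rw [mul_inv_cancel_left], map_mul, Module.End.mul_apply, hzv,
      hI _ hτ, sub_self]

end Fermat.Agent.Lifting
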