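/-
`HasGoodKernels` at a good prime from the kernels of reduction at level `N p`.
-/
import Fermat.Agent.Lifting.GKernels
import Fermat.Agent.Lifting.GUnitRoot
import Fermat.Agent.Strict.X0Kernels
import Fermat.Agent.HeckeJ.Operator

set_option autoImplicit false
set_option linter.style.haveILetI false
set_option synthInstance.maxHeartbeats 400000

noncomputable section

namespace Fermat.Agent.Lifting

open ModularCurve AlgebraicCurve IsLocalRing
open Fermat.Agent.Curve Fermat.Agent.Bad OrdinaryDatum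

local notation "ℚbar" => AlgebraicClosure ℚ
local notation "Γℚ" => AlgebraicClosure ℚ ≃ₐ[ℚ] AlgebraicClosure ℚ

variable {N p : ℕ} [NeZero N] [hp : Fact p.Prime]

local instance neZero_primeGKernels : NeZero p := ⟨hp.out.ne_zero⟩

variable (N p) in
/-- Pull-back along `α : F_N → F_{Np}`. -/
def pullAlpha : JZero N →+ JZero (N * p) :=
  picPullAlong (heckeAlphaBar ℚbar N p) (Curve.isIntegral_toRingHom _)
    (Curve.fundamentalIdentityAlong _ (Curve.isIntegral_toRingHom _) (Curve.finiteAlong _))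

theorem pullAlpha_galois_smul (σ : Γℚ) (x : JZero N) :
    pullAlpha N p (σ • x) = σ • pullAlpha N p x := by
  rw [galois_smul_pic0_def, galois_smul_pic0_def]
  exact picPullAlong_smul _ _ _ (NewformRep.intertwines_heckeAlphaBar N p σ) x

theorem pushAlpha_pullAlpha (hpN : ¬ p ∣ N) (x : JZero N) :
    NewformRep.pushAlpha N p (pullAlpha N p x) = (p + 1) • x := by
  obtain ⟨D, rfl⟩ := Pic0.mk_surjective x
  show NewformRep.picPushAlong _ _ _ _ (picPullAlong _ _ _ (Pic0.mk D)) = _
  rw [picPullAlong_mk, NewformRep.picPushAlong_mk,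
    show (p + 1) • Pic0.mk D = (QuotientAddGroup.mk ((p + 1) • D) : Pic0 _ _) from
      (QuotientAddGroup.mk_nsmul _ D (p + 1)).symm]
  refine congrArg (fun E => (QuotientAddGroup.mk E : Pic0 _ _)) (Subtype.ext ?_)
  rw [AddSubgroupClass.coe_nsmul]
  exact (pushforwardAlong_pullbackAlong _ _
    (Curve.fundamentalIdentityAlong _ (Curve.isIntegral_toRingHom _) (Curve.finiteAlong _)) _).trans
    (by rw [BadReduction.finrankAlong_alpha hpN, natCast_zsmul])

/-- The Hecke operator is `α_* β^*`. -/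
theorem heckeOperatorBar_eq_push_pull (x : JZero N) :
    heckeOperatorBar N ⟨p, hp.out⟩ x =
      NewformRep.pushAlpha N p (picPullAlong (heckeBetaBar ℚbar N p)
        (Curve.isIntegral_toRingHom _)
        (Curve.fundamentalIdentityAlong _ (Curve.isIntegral_toRingHom _) (Curve.finiteAlong _))
        x) := by
  obtain ⟨D, rfl⟩ := Pic0.mk_surjective x
  rw [HeckeJ.heckeOperatorBar_mk]
  rfl

/-- The quadratic relation of Frobenius at a good prime, pulled back to level `N p`. -/
theorem pullAlpha_quadratic_mem (hpN : ¬ p ∣ N) (A : ValuationSubring ℚbar)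
    (hA : A.LiesOverPrime p) {σ : Γℚ} (hσ : A.IsFrobeniusAt σ p) {K : ℕ} {x : JZero N}
    (hx : p ^ K • x = 0) :
    pullAlpha N p (σ • σ • x - heckeOperatorBar N ⟨p, hp.out⟩ (σ • x) + p • x) ∈
      kernelGroup (BadReduction.x0Reduction hpN A hA) (p ^ K) := by
  haveI := BadReduction.charP_residueField A hp.out hA
  haveI : IsAlgClosed (ResidueField A) := Igusa.isAlgClosed_residueField hpN hA
  rw [map_add, map_sub, map_nsmul, pullAlpha_galois_smul, pullAlpha_galois_smul,
    HeckeJ.heckeOperatorBar_galois_smul, pullAlpha_galois_smul, heckeOperatorBar_eq_push_pull]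
  exact frobenius_quadratic_mem_kernelGroup (i := (0 : Fin 2)) (j := 1)
    (BadReduction.frobeniusAction_x0 A hpN hA hσ) (by decide) (by decide)
    (BadReduction.baseReduction_x0 hpN A hA)
    (BadReduction.degeneracyReduction_alpha hpN A hA)
    (BadReduction.degeneracyReduction_beta hpN A hA)
    _ _ _ _ _ _ hx

/-- The kernels of reduction at level `N p` give the kernels at a good prime. -/
theorem hasGoodKernels_of_stableKernels (hpN : ¬ p ∣ N)
    (hker : ∀ (P : ValuationSubring ℚbar) (hP : P.LiesOverPrime p),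
      Strict.HasStableKernels hpN P hP) :
    HasGoodKernels N p := by
  intro P hP σ hσ
  refine ⟨0, fun K => ?_⟩
  obtain ⟨hst, hnt⟩ := hker P hP K
  refine ⟨(kernelGroup (BadReduction.x0Reduction hpN P hP) (p ^ K)).map
    (NewformRep.pushAlpha N p), ?_, ?_, fun x hx => ?_⟩
  · rintro τ hτ _ ⟨c, hc, rfl⟩
    exact ⟨τ • c, hst τ hτ c hc, NewformRep.pushAlpha_galois_smul N p τ c⟩
  · exact hnt.map (fun τ c hc => hst τ τ.2 c hc) _
      fun τ c _ => NewformRep.pushAlpha_galois_smul N p τ c
  · rw [pow_zero, one_nsmul]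
    set θ := σ • σ • x - heckeOperatorBar N ⟨p, hp.out⟩ (σ • x) + p • x with hθ
    have hθ0 : p ^ K • θ = 0 := by
      have hsx : p ^ K • (σ • x) = 0 := by
        rw [← GaloisAdic.gal_nsmul, hx]
        exact (DistribMulAction.toAddMonoidHom (JZero N) σ).map_zero
      have hssx : p ^ K • (σ • σ • x) = 0 := by
        rw [← GaloisAdic.gal_nsmul, hsx]
        exact (DistribMulAction.toAddMonoidHom (JZero N) σ).map_zero
      rw [hθ, nsmul_add, nsmul_sub, hssx, ← map_nsmul, hsx, map_zero, nsmul_left_comm, hx,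
        nsmul_zero, sub_zero, add_zero]
    obtain ⟨m, hm⟩ : ∃ m : ℕ, (p + 1) * m ≡ 1 [MOD p ^ K] := by
      rcases eq_or_ne (p ^ K) 1 with h1 | h1
      · exact ⟨0, by rw [h1]; exact Nat.modEq_one⟩
      obtain ⟨m, -, hm⟩ := Nat.exists_mul_mod_eq_one_of_coprime (n := p + 1) (k := p ^ K)
        (Nat.Coprime.pow_right K (by simp))
        (lt_of_le_of_ne (Nat.one_le_pow K p hp.out.pos) (Ne.symm h1))
      exact ⟨m, by rw [Nat.ModEq, hm, Nat.one_mod_eq_one.2 h1]⟩
    refine ⟨m • pullAlpha N p θ, nsmul_mem (pullAlpha_quadratic_mem hpN P hP hσ hx) m, ?_⟩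
    rw [map_nsmul, pushAlpha_pullAlpha hpN, ← mul_nsmul', mul_comm]
    have h := hm
    rw [← Nat.div_add_mod ((p + 1) * m) (p ^ K), add_nsmul, mul_nsmul, hθ0, nsmul_zero, zero_add,
      show (p + 1) * m % p ^ K = 1 % p ^ K from h]
    rcases eq_or_ne (p ^ K) 1 with h1 | h1
    · rw [h1, one_nsmul] at hθ0
      rw [hθ0, nsmul_zero]
    · rw [Nat.one_mod_eq_one.2 h1, one_nsmul]

end Fermat.Agent.Lifting

end
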