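/-
The square of the trace of Frobenius at a prime where a twisted point is new.
-/
import Fermat.Agent.Lifting.ELevel
import Fermat.Agent.NewformRep.Main
import Fermat.Agent.Newform.Descent
import Fermat.Agent.Ribet.OldEigen
import Fermat.Agent.Ribet.Twisted.Level
import Fermat.Agent.RepLemmas.Galois
import Fermat.Agent.Density.Main

set_option autoImplicit false

noncomputable section

namespace Fermat.Agent.Lifting

open Fermat.Agent.Ribet.Twisted IsLocalRing Polynomial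

local notation "ℚbar" => AlgebraicClosure ℚ
local notation "Γℚ" => AlgebraicClosure ℚ ≃ₐ[ℚ] AlgebraicClosure ℚ

/-- A character of a finite torsion-free ring with values in a domain of characteristic zero has
a range which embeds into `ℂ`. -/
theorem exists_injective_ringHom_range {T O : Type*} [CommRing T] [Module.Finite ℤ T] [CommRing O]
    [IsDomain O] [CharZero O] (χ : T →+* O) :
    ∃ j : χ.range →+* ℂ, Function.Injective j := by
  haveI : Module.Finite ℤ χ.range :=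
    Module.Finite.of_surjective χ.rangeRestrict.toIntAlgHom.toLinearMap
      χ.rangeRestrict_surjective
  have hinj : Function.Injective (algebraMap ℤ χ.range) := by
    intro m n h
    have h' := congrArg (fun z : χ.range => (z : O)) h
    simpa using h'
  haveI : Module.IsTorsionFree ℤ χ.range := by
    haveI := (faithfulSMul_iff_algebraMap_injective ℤ χ.range).mpr hinj
    infer_instance
  haveI : Algebra.IsAlgebraic ℤ χ.range := Algebra.IsIntegral.isAlgebraic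
  let g : χ.range →ₐ[ℤ] ℂ := IsAlgClosed.lift
  refine ⟨g.toRingHom, (RingHom.injective_iff_ker_eq_bot g.toRingHom).mpr <|
    Ideal.eq_bot_of_comap_eq_bot (R := ℤ) ?_⟩
  ext m
  simp only [Ideal.mem_comap, RingHom.mem_ker, Submodule.mem_bot]
  change g (algebraMap ℤ χ.range m) = 0 ↔ m = 0
  rw [AlgHom.commutes, eq_intCast, Int.cast_eq_zero]

/-- The trace of an endomorphism of a free module of rank two, from its characteristic
polynomial. -/
theorem trace_of_charpoly_quadratic {R V : Type*} [CommRing R] [Nontrivial R] [AddCommGroup V]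
    [Module R V] [Module.Free R V] [Module.Finite R V] (h : Module.finrank R V = 2)
    {f : V →ₗ[R] V} {t d : R} (hf : f.charpoly = X ^ 2 - C t * X + C d) :
    LinearMap.trace R V f = t := by
  let b := Module.finBasisOfFinrankEq R V h
  rw [← LinearMap.charpoly_toMatrix f b, Matrix.charpoly_fin_two] at hf
  rw [LinearMap.trace_eq_matrix_trace R b]
  have h1 := congrArg (fun P : Polynomial R => P.coeff 1) hf
  simpa [coeff_X_pow, coeff_C, coeff_one] using h1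

/-- The representation of a newform whose eigenvalues outside `S` are the images of elements of a
subring of `O` embedded into `ℂ`. -/
theorem exists_rep_of_embedded_newform {p : ℕ} [Fact p.Prime] {O : Type} [CommRing O] [IsDomain O]
    [IsDiscreteValuationRing O] [IsAdicComplete (maximalIdeal O) O] [Finite (ResidueField O)]
    [CharZero O] (hpO : (p : O) ∈ maximalIdeal O)
    {M : ℕ} [NeZero M] {g : CuspForm (CongruenceSubgroup.Gamma0 M) 2} (hg : g.IsNewform)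
    {S : Finset ℕ} (hpS : p ∈ S) (hMS : ∀ r : ℕ, r.Prime → r ∣ M → r ∈ S)
    {R : Subring O} {j : R →+* ℂ} (hj : Function.Injective j) (b : ℕ → R)
    (hb : ∀ ℓ : ℕ, ℓ.Prime → ℓ ∉ S → ModularFormClass.qCoeff g ℓ = j (b ℓ)) :
    ∃ (O'' : Type) (_ : CommRing O'') (_ : IsDomain O'') (_ : IsDiscreteValuationRing O'')
      (_ : IsAdicComplete (maximalIdeal O'') O'')
      (_ : Algebra O O'') (_ : IsLocalHom (algebraMap O O'')),
      Function.Injective (algebraMap O O'') ∧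
      ∃ ρ : GaloisRepAdic O'',
        (∀ ℓ : ℕ, ℓ.Prime → ℓ ∉ S → ∀ A : ValuationSubring ℚbar, A.LiesOverPrime ℓ →
          ∀ σ : Γℚ, A.IsFrobeniusAt σ ℓ →
            LinearMap.charpoly (ρ.ρ σ) =
              X ^ 2 - C (algebraMap O O'' (b ℓ)) * X + C (ℓ : O'')) ∧
        (∀ q : ℕ, q.Prime → q ≠ p → q ∣ M → ¬ q ^ 2 ∣ M →
          ∀ A : ValuationSubring ℚbar, A.LiesOverPrime q →
            ∀ σ : Γℚ, A.IsFrobeniusAt σ q →
              LinearMap.trace O'' ρ.V (ρ.ρ σ) ^ 2 = ((q : O'') + 1) ^ 2) := by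
  have hgen : ∀ t : CuspForm.heckeAlgebra M 2 (↑S : Set ℕ),
      Eigen.eigenChar g hg.1 (↑S : Set ℕ) t ∈ j.range := by
    rintro ⟨t, ht⟩
    induction ht using Algebra.adjoin_induction with
    | mem x hx =>
      rcases hx with ⟨ℓ, hℓ, hℓM, hℓS, rfl⟩ | ⟨r, hrM, hr, hrS, rfl⟩
      · exact ⟨b ℓ, ((Eigen.eigenChar_T hg.1 hℓ hℓM hℓS).trans
          (hb ℓ hℓ (by simpa using hℓS))).symm⟩
      · exact absurd (by simpa using hMS r hr hrM) hrS
    | algebraMap m =>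
      refine ⟨(m : R), ?_⟩
      rw [map_intCast, show (⟨algebraMap ℤ _ m, _⟩ : CuspForm.heckeAlgebra M 2 (↑S : Set ℕ))
        = algebraMap ℤ _ m from rfl, eq_intCast, map_intCast]
    | add x y hx hy ihx ihy =>
      rw [show (⟨x + y, _⟩ : CuspForm.heckeAlgebra M 2 (↑S : Set ℕ)) = ⟨x, hx⟩ + ⟨y, hy⟩ from rfl,
        map_add]
      exact j.range.add_mem ihx ihy
    | mul x y hx hy ihx ihy =>
      rw [show (⟨x * y, _⟩ : CuspForm.heckeAlgebra M 2 (↑S : Set ℕ)) = ⟨x, hx⟩ * ⟨y, hy⟩ from rfl,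
        map_mul]
      exact j.range.mul_mem ihx ihy
  have hle : (Eigen.eigenChar g hg.1 (↑S : Set ℕ)).range ≤ j.range := by
    rintro _ ⟨t, rfl⟩
    exact hgen t
  let e : R ≃+* j.range := RingEquiv.ofBijective j.rangeRestrict
    ⟨fun x y h => hj (congrArg Subtype.val h), j.rangeRestrict_surjective⟩
  let iota : (Eigen.eigenChar g hg.1 (↑S : Set ℕ)).range →+* O :=
    R.subtype.comp (e.symm.toRingHom.comp (Subring.inclusion hle))
  obtain ⟨O'', i1, i2, i3, i4, -, -, i7, -, i9, hinj, ρ, hchar, hst⟩ :=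
    NewformRep.exists_galoisRepAdic_newform hg p S O hpO (Eigen.eigenChar g hg.1 (↑S : Set ℕ))
      (fun ℓ hℓ hℓM hℓS => Eigen.eigenChar_T hg.1 hℓ hℓM hℓS) iota hpS hMS
  refine ⟨O'', i1, i2, i3, i4, i7, i9, hinj, ρ, fun ℓ hℓ hℓS A hA σ hσ => ?_, ?_⟩
  · have hℓM : ¬ ℓ ∣ M := fun h => hℓS (hMS ℓ hℓ h)
    have hℓS' : ℓ ∉ (↑S : Set ℕ) := by simpa using hℓS
    have hval : (iota.comp (Eigen.eigenChar g hg.1 (↑S : Set ℕ)).rangeRestrict)
        (CuspForm.heckeAlgebra.T hℓ hℓM hℓS') = b ℓ := by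
      refine congrArg Subtype.val (e.injective ?_)
      show e (e.symm _) = _
      rw [RingEquiv.apply_symm_apply]
      exact Subtype.ext ((Eigen.eigenChar_T hg.1 hℓ hℓM hℓS').trans (hb ℓ hℓ hℓS))
    rw [← hval]
    exact hchar ℓ hℓ hℓM hℓS' A hA σ hσ
  · intro q hq hqp hqM hq2 A hA σ hσ
    rcases hst q hq hqp hqM hq2 A hA σ hσ with h | h
    · rw [trace_of_charpoly_quadratic ρ.finrank_eq h]
    · rw [trace_of_charpoly_quadratic ρ.finrank_eq (t := -((q : O'') + 1))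
        (d := (q : O'')) (h.trans (by rw [map_neg]; ring)), neg_sq]

variable {p : ℕ} [Fact p.Prime] {O : Type} [CommRing O] [IsDomain O] [IsDiscreteValuationRing O]
  [IsAdicComplete (maximalIdeal O) O] [Finite (ResidueField O)] [CharZero O]
  {L D : ℕ} [NeZero L] {ψ : DirichletCharacter O D} {S : Finset ℕ} {a : ℕ → O}
  {ρbar : ResidualGaloisRep (ResidueField O)}

/-- A point which is new at `q` gives a system with the operators outside `S \ {q}` and a sign at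
`q`. -/
theorem TwistedPoint.exists_update_of_systemNewAt (h : TwistedPoint p ρbar L D ψ S a) {q : ℕ}
    (hqS : q ∈ S)
    (hnew : SystemNewAt h.dvd (toFrac ψ) S (fun ℓ => algebraMap O (FractionRing O) (a ℓ)) q) :
    ∃ a' : ℕ → O, a' q ^ 2 = 1 ∧ (∀ ℓ : ℕ, ℓ ≠ q → a' ℓ = a ℓ) ∧
      TwistedPoint p ρbar L D ψ S a' ∧
      HasSystem h.dvd (toFrac ψ) (S.erase q) fun ℓ => algebraMap O (FractionRing O) (a' ℓ) := by
  obtain ⟨x, hx0, hxT, hxq⟩ := hnew
  set U := heckeT' h.dvd (toFrac ψ) (FractionRing O) q with hU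
  obtain ⟨ε, y, hε, hy0, hyT, hyq⟩ : ∃ (ε : O) (y : CohL h.dvd (toFrac ψ) (FractionRing O)),
      ε ^ 2 = 1 ∧ y ≠ 0 ∧ (∀ ℓ : ℕ, ℓ.Prime → ℓ ∉ S →
        heckeT' h.dvd (toFrac ψ) (FractionRing O) ℓ y =
          algebraMap O (FractionRing O) (a ℓ) • y) ∧
        U y = algebraMap O (FractionRing O) ε • y := by
    by_cases hy : U x + x = 0
    · refine ⟨-1, x, by ring, hx0, hxT, ?_⟩
      rw [map_neg, map_one, neg_one_smul]
      exact eq_neg_of_add_eq_zero_left hy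
    · refine ⟨1, U x + x, by ring, hy, fun ℓ hℓ hℓS => ?_, ?_⟩
      · rw [map_add, hU, ← Module.End.mul_apply,
          (heckeT'_comm h.dvd (toFrac ψ) ℓ q).eq, Module.End.mul_apply, hxT ℓ hℓ hℓS, map_smul,
          smul_add]
      · rw [map_one, one_smul, map_add, hxq, add_comm]
  have hne : ∀ ℓ, ℓ ∉ S → ℓ ≠ q := fun ℓ hℓ h' => hℓ (h' ▸ hqS)
  refine ⟨Function.update a q ε, by rw [Function.update_self, hε],
    fun ℓ hℓ => Function.update_of_ne hℓ _ _, { h with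
      hasSystem := ⟨y, hy0, fun ℓ hℓ hℓS => ?_⟩
      residue_trace := fun ℓ hℓ hℓS => ?_ }, y, hy0, fun ℓ hℓ hℓS => ?_⟩
  · simp only [Function.update_of_ne (hne ℓ hℓS)]
    exact hyT ℓ hℓ hℓS
  · rw [Function.update_of_ne (hne ℓ hℓS)]
    exact h.residue_trace ℓ hℓ hℓS
  · rw [Finset.mem_erase, not_and_or, not_not] at hℓS
    rcases eq_or_ne ℓ q with rfl | hℓq
    · simp only [Function.update_self]
      exact hyq
    · simp only [Function.update_of_ne hℓq]
      exact hyT ℓ hℓ (hℓS.resolve_left hℓq)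

/-- (q), new: the square of the trace of Frobenius is `(q + 1) ^ 2`. -/
theorem TwistedPoint.trace_frobenius_sq_aux (h : TwistedPoint p ρbar L D ψ S a)
    {ρ : GaloisRepAdic O} (hρ : HasFrobPoly ρ S a) {q : ℕ} (hq : q.Prime) (hqL : q ∣ L)
    (hqD : ¬ q ∣ D) (hqp : q ≠ p)
    (hnew : SystemNewAt h.dvd (toFrac ψ) S (fun ℓ => algebraMap O (FractionRing O) (a ℓ)) q)
    (A : ValuationSubring ℚbar) (hA : A.LiesOverPrime q) (σ : Γℚ) (hσ : A.IsFrobeniusAt σ q) :
    LinearMap.trace O ρ.V (ρ.ρ σ) ^ 2 = ((q : O) + 1) ^ 2 := by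
  classical
  have hqS : q ∈ S := h.level_mem_set q hq hqL
  obtain ⟨a', ha'q, ha', h', hsys⟩ := h.exists_update_of_systemNewAt hqS hnew
  set N := twistLevel L ψ with hN
  have hqN : q ∣ N := (h.dvd_twistLevel_iff hq).2 hqL
  have hNS : ∀ r : ℕ, r.Prime → r ∣ N → r ∈ S := fun r hr hrN =>
    h.level_mem_set r hr ((h.dvd_twistLevel_iff hr).1 hrN)
  obtain ⟨χ, hχT, hχU⟩ := h'.exists_level_hom (S.erase q) (Finset.erase_subset q S)
    (fun r hr hrD => Finset.mem_erase.2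
      ⟨fun hrq => hqD (hrq ▸ hrD), h.level_mem_set r hr (hrD.trans h.dvd)⟩) hsys
  haveI : Module.Finite ℤ (CuspForm.heckeAlgebra N 2 (↑(S.erase q) : Set ℕ)) :=
    Integral.moduleFinite_heckeAlgebra N 2 _
  obtain ⟨j, hj⟩ := exists_injective_ringHom_range χ
  obtain ⟨f, hf, hfT, hfU⟩ := Eigen.exists_eigenform_qCoeff_of_ringHom
    (Integral.hasIntegralStructure N 2) (j.comp χ.rangeRestrict)
  obtain ⟨M, hMN, hMpos, g, hg, hgf⟩ := Newform.exists_newform_of_eigenform hf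
  haveI : NeZero M := ⟨hMpos.ne'⟩
  have hqS' : q ∉ (↑(S.erase q) : Set ℕ) := by simp
  set ε : χ.range := χ.rangeRestrict (CuspForm.heckeAlgebra.U hq hqN hqS') with hεdef
  have hε : ε ^ 2 = 1 := Subtype.ext <| by
    show χ _ ^ 2 = 1
    rw [hχU q hq hqN hqS', ha'q]
  have hfq : ModularFormClass.qCoeff f q = j ε := hfU q hq hqN hqS'
  -- the eigenvalues of `g` outside `S`
  let b : ℕ → χ.range := fun ℓ =>
    if hℓ : ℓ.Prime ∧ ¬ ℓ ∣ N ∧ ℓ ∉ (↑(S.erase q) : Set ℕ) then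
      χ.rangeRestrict (CuspForm.heckeAlgebra.T hℓ.1 hℓ.2.1 hℓ.2.2) else ε * ((q : χ.range) + 1)
  have hbS : ∀ ℓ : ℕ, ℓ.Prime → ℓ ∉ S →
      ModularFormClass.qCoeff g ℓ = j (b ℓ) ∧ (b ℓ : O) = a ℓ := by
    intro ℓ hℓ hℓS
    have hℓN : ¬ ℓ ∣ N := fun hd => hℓS (hNS ℓ hℓ hd)
    have hℓS' : ℓ ∉ (↑(S.erase q) : Set ℕ) := fun hm =>
      hℓS (Finset.mem_of_mem_erase (Finset.mem_coe.1 hm))
    simp only [b, dif_pos (show ℓ.Prime ∧ ¬ ℓ ∣ N ∧ ℓ ∉ (↑(S.erase q) : Set ℕ) from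
      ⟨hℓ, hℓN, hℓS'⟩)]
    exact ⟨(hgf ℓ hℓ hℓN).trans (hfT ℓ hℓ hℓN hℓS'),
      (hχT ℓ hℓ hℓN hℓS').trans (ha' ℓ fun he => hℓS (he ▸ hqS))⟩
  have hbq : b q = ε * ((q : χ.range) + 1) := dif_neg fun hc => hc.2.1 hqN
  obtain ⟨S', hS', hpS', hMS', hbS', hcase⟩ : ∃ S' : Finset ℕ, S' ⊆ S ∧ p ∈ S' ∧
      (∀ r : ℕ, r.Prime → r ∣ M → r ∈ S') ∧
      (∀ ℓ : ℕ, ℓ.Prime → ℓ ∉ S' → ModularFormClass.qCoeff g ℓ = j (b ℓ)) ∧
      ((q ∣ M ∧ ¬ q ^ 2 ∣ M) ∨ q ∉ S') := by
    by_cases hqM : q ∣ M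
    · exact ⟨S, Finset.Subset.refl S, h.p_mem_set, fun r hr hrM => hNS r hr (hrM.trans hMN),
        fun ℓ hℓ hℓS => (hbS ℓ hℓ hℓS).1,
        Or.inl ⟨hqM, fun hd => h.sq_not_dvd_twistLevel hq hqD (hd.trans hMN)⟩⟩
    refine ⟨S.erase q, Finset.erase_subset q S, Finset.mem_erase.2 ⟨hqp.symm, h.p_mem_set⟩,
      fun r hr hrM => Finset.mem_erase.2 ⟨fun he => hqM (he ▸ hrM), hNS r hr (hrM.trans hMN)⟩,
      fun ℓ hℓ hℓS => ?_, Or.inr (by simp)⟩
    rcases eq_or_ne ℓ q with rfl | hℓq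
    · obtain ⟨N', hN'⟩ := hqN
      haveI : NeZero N' := ⟨fun h0 => NeZero.ne N (by rw [hN', h0, mul_zero])⟩
      have hqN' : ¬ ℓ ∣ N' := fun hd => h.sq_not_dvd_twistLevel hℓ hqD
        (by rw [← hN, hN', sq]; exact mul_dvd_mul_left ℓ hd)
      have hMN' : M ∣ N' :=
        (((Nat.Prime.coprime_iff_not_dvd hℓ).2 hqM).symm).dvd_of_dvd_mul_left (hN' ▸ hMN)
      have hold := Ribet.qCoeff_sq_sub_mul_add_eq_zero hℓ hqN' hN' hMN' hf hg.1 S
        fun r hr _ hrN => hgf r hr hrN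
      have he2 : j ε * j ε = 1 := by rw [← map_mul, ← sq, hε, map_one]
      rw [hbq, map_mul, map_add, map_natCast, map_one]
      rw [hfq] at hold
      linear_combination (-(j ε)) * hold +
        (j ε - ModularFormClass.qCoeff g ℓ) * he2
    · exact (hbS ℓ hℓ fun hm => hℓS (Finset.mem_erase.2 ⟨hℓq, hm⟩)).1
  obtain ⟨O'', _, _, _, _, _, hloc, hinj, ρ', hchar, hst⟩ :=
    exists_rep_of_embedded_newform h.p_mem hg hpS' hMS' hj b hbS'
  -- comparison with `ρ`
  set ρ₁ := ρ.baseChangeAlong (algebraMap O O'') hloc with hρ₁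
  have hcp : ∀ τ : Γℚ, (ρ₁.ρ τ).charpoly = (ρ.ρ τ).charpoly.map (algebraMap O O'') :=
    fun τ => by
      letI : Algebra O O'' := (algebraMap O O'').toAlgebra
      exact LinearMap.charpoly_baseChange (ρ.ρ τ) O''
  have hall : ∀ τ : Γℚ, (ρ₁.ρ τ).charpoly = (ρ'.ρ τ).charpoly := by
    refine RepLemmas.charpoly_eq_of_approx ρ₁ ρ' fun E hE τ => ?_
    haveI : FiniteDimensional ℚ E := hE
    obtain ⟨ℓ, hℓ, hℓS, B, hB, υ, hυ, ⟨k, hk⟩, -⟩ := Density.exists_frobenius_pow τ E S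
    refine ⟨υ ^ k, fun x hx => (hk x hx).symm, ?_⟩
    have hυc : (ρ₁.ρ υ).charpoly = (ρ'.ρ υ).charpoly := by
      rw [hcp, hρ ℓ hℓ hℓS B hB υ hυ, hchar ℓ hℓ (fun hm => hℓS (hS' hm)) B hB υ hυ,
        (hbS ℓ hℓ hℓS).2]
      simp [Polynomial.map_sub, Polynomial.map_add, Polynomial.map_mul, Polynomial.map_pow]
    have := RepLemmas.charpoly_conj_pow_eq ρ₁.finrank_eq ρ'.finrank_eq ρ₁.ρ ρ'.ρ hυc 1 k
    simpa using this
  have htr' : LinearMap.trace O'' ρ'.V (ρ'.ρ σ) ^ 2 = ((q : O'') + 1) ^ 2 := by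
    rcases hcase with ⟨hqM, hq2⟩ | hqS''
    · exact hst q hq hqp hqM hq2 A hA σ hσ
    · rw [trace_of_charpoly_quadratic ρ'.finrank_eq (hchar q hq hqS'' A hA σ hσ), hbq]
      have he : algebraMap O O'' (ε : O) ^ 2 = 1 := by
        rw [← map_pow, ← Subring.coe_pow, hε, Subring.coe_one, map_one]
      rw [Subring.coe_mul, Subring.coe_add, Subring.coe_one, SubringClass.coe_natCast, map_mul,
        map_add, map_natCast, map_one, mul_pow, he, one_mul]
  apply hinj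
  rw [map_pow, map_pow, map_add, map_natCast, map_one, ← htr']
  congr 1
  have h1 := trace_of_charpoly_quadratic ρ'.finrank_eq (f := ρ'.ρ σ)
    (t := algebraMap O O'' (LinearMap.trace O ρ.V (ρ.ρ σ)))
    (d := algebraMap O O'' (LinearMap.det (ρ.ρ σ))) (by
      rw [← hall, hcp]
      let bb := Module.finBasisOfFinrankEq O ρ.V ρ.finrank_eq
      rw [← LinearMap.charpoly_toMatrix (ρ.ρ σ) bb, Matrix.charpoly_fin_two,
        LinearMap.trace_eq_matrix_trace O bb, ← LinearMap.det_toMatrix bb]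
      simp [Polynomial.map_sub, Polynomial.map_add, Polynomial.map_mul, Polynomial.map_pow])
  exact h1.symm

end Fermat.Agent.Lifting
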