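/-
Pointwise Galois conditions of the systems of eigenvalues at the patched levels.
-/
import Fermat.Agent.Lifting.EBasic
import Fermat.Agent.Lifting.GKernelsX0
import Fermat.Agent.Strict.StableKernels
import Fermat.Agent.Strict.GaloisTwisted
import Fermat.Agent.Lifting.EQLocal
import Fermat.Agent.Lifting.GFlat
import Fermat.Agent.Lifting.GTrace
import Fermat.Prelude.Def_GaloisRep_LocalConditions
import Fermat.Prelude.Def_GaloisRep_Flat
import Fermat.Prelude.Def_GaloisRep_StrictOrdinary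
import Fermat.Prelude.Def_GaloisRep_ResidualEquiv

set_option autoImplicit false

noncomputable section

namespace Fermat.Agent.Lifting

open Fermat.Agent.Ribet.Twisted IsLocalRing

local notation "ℚbar" => AlgebraicClosure ℚ
local notation "Γℚ" => AlgebraicClosure ℚ ≃ₐ[ℚ] AlgebraicClosure ℚ

variable {p : ℕ} [Fact p.Prime] {O : Type} [CommRing O] [IsDomain O] [IsDiscreteValuationRing O]
  [IsAdicComplete (maximalIdeal O) O] [Finite (ResidueField O)] [CharZero O]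
  {L D : ℕ} [NeZero L] {ψ : DirichletCharacter O D} {S : Finset ℕ} {a : ℕ → O}
  {ρbar : ResidualGaloisRep (ResidueField O)}

/-- The representation of a system. -/
theorem TwistedPoint.exists_rep (h : TwistedPoint p ρbar L D ψ S a) :
    ∃ ρ : GaloisRepAdic O, HasFrobPoly ρ S a ∧ ρ.DetIsCyclotomic p ∧
      ρ.residual.IsEquiv ρbar ∧
      ∀ q : ℕ, q.Prime → ¬ q ∣ L → q ≠ p → ρ.IsUnramifiedAt q :=
  h.exists_rep_aux

/-- Unramified away from `L p`. -/
theorem TwistedPoint.isUnramifiedAt (h : TwistedPoint p ρbar L D ψ S a) {ρ : GaloisRepAdic O}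
    (hρ : HasFrobPoly ρ S a) {q : ℕ} (hq : q.Prime) (hqL : ¬ q ∣ L) (hqp : q ≠ p) :
    ρ.IsUnramifiedAt q :=
  h.isUnramifiedAt_aux hρ hq hqL hqp

/-- (q): a prime of the level outside the nebentype has unipotent inertia. -/
theorem TwistedPoint.isUnipotentOnInertiaAt (h : TwistedPoint p ρbar L D ψ S a)
    {ρ : GaloisRepAdic O} (hρ : HasFrobPoly ρ S a) {q : ℕ} (hq : q.Prime) (hqL : q ∣ L)
    (hqD : ¬ q ∣ D) (hqp : q ≠ p) :
    ρ.IsUnipotentOnInertiaAt q :=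
  h.isUnipotentOnInertiaAt_aux hρ hq hqL hqD hqp

/-- (q), new: the square of the trace of Frobenius is `(q + 1) ^ 2`. -/
theorem TwistedPoint.trace_frobenius_sq (h : TwistedPoint p ρbar L D ψ S a)
    {ρ : GaloisRepAdic O} (hρ : HasFrobPoly ρ S a) {q : ℕ} (hq : q.Prime) (hqL : q ∣ L)
    (hqD : ¬ q ∣ D) (hqp : q ≠ p)
    (hnew : SystemNewAt h.dvd (toFrac ψ) S (fun ℓ => algebraMap O (FractionRing O) (a ℓ)) q)
    (A : ValuationSubring ℚbar) (hA : A.LiesOverPrime q) (σ : Γℚ) (hσ : A.IsFrobeniusAt σ q) :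
    LinearMap.trace O ρ.V (ρ.ρ σ) ^ 2 = ((q : O) + 1) ^ 2 :=
  h.trace_frobenius_sq_aux hρ hq hqL hqD hqp hnew A hA σ hσ

/-- (D): a prime of the nebentype at which `ρbar` is unramified, with inertia eigenvalues `ψ_q`,
`ψ_q⁻¹` of the cyclotomic character modulo `q`. -/
theorem TwistedPoint.charpoly_inertia (h : TwistedPoint p ρbar L D ψ S a)
    {ρ : GaloisRepAdic O} (hρ : HasFrobPoly ρ S a) {q : ℕ} (hq : q.Prime) (hqD : q ∣ D)
    (hqp : q ≠ p) (hur : ρbar.IsUnramifiedAt q) (A : ValuationSubring ℚbar)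
    (hA : A.LiesOverPrime q) (τ : Γℚ) (hτ : τ ∈ A.inertiaSubgroupIn ℚ)
    (c : ℕ) (hc : ∀ μ : ℚbar, μ ^ q = 1 → τ μ = μ ^ c)
    (d : ℤ) (hdq : (d : ZMod q) = (c : ZMod q)) (hd1 : (d : ZMod (D / q)) = 1) :
    LinearMap.charpoly (ρ.ρ τ) =
      (Polynomial.X - Polynomial.C (ψ (d : ZMod D))) *
        (Polynomial.X - Polynomial.C (ψ⁻¹ (d : ZMod D))) :=
  h.charpoly_inertia_of_isUnramifiedAt hρ hq hqD hqp hur A hA τ hτ c hc d hdq hd1

/-- (p0): flat at a good `p`. -/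
theorem TwistedPoint.isFlatAt (h : TwistedPoint p ρbar L D ψ S a) {ρ : GaloisRepAdic O}
    (hρ : HasFrobPoly ρ S a) (hpL : ¬ p ∣ L) :
    ρ.IsFlatAt p :=
  h.isFlatAt_aux hρ hpL

/-- Ordinary at `p` if the residual representation is. -/
theorem TwistedPoint.isOrdinaryAt (h : TwistedPoint p ρbar L D ψ S a) {ρ : GaloisRepAdic O}
    (hρ : HasFrobPoly ρ S a)
    (hres : (GaloisRepAdic.ofResidualGaloisRep ρbar).IsOrdinaryAt p) :
    ρ.IsOrdinaryAt p :=
  h.isOrdinaryAt_aux hρ hres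

/-- (p0), good ordinary shape: on the unramified quotient Frobenius is the unit root of
`X ^ 2 - a p X + p`, `a p` the eigenvalue of `T'_p`. -/
theorem TwistedPoint.exists_unitRoot (h : TwistedPoint p ρbar L D ψ S a) {ρ : GaloisRepAdic O}
    (hρ : HasFrobPoly ρ S a) (hpL : ¬ p ∣ L)
    (hres : (GaloisRepAdic.ofResidualGaloisRep ρbar).IsOrdinaryAt p)
    (hap : HasSystem h.dvd (toFrac ψ) (S.erase p)
      fun ℓ => algebraMap O (FractionRing O) (a ℓ))
    (P : ValuationSubring ℚbar) (hP : P.LiesOverPrime p) :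
    ∃ (U : Submodule O ρ.V) (z : O), (∃ b : Module.Basis (Fin 2) O ρ.V, U = O ∙ b 0) ∧
      (∀ σ ∈ P.decompositionSubgroup ℚ, ∀ v ∈ U, ρ.ρ σ v ∈ U) ∧
      (∀ σ ∈ P.inertiaSubgroupIn ℚ, ∀ v : ρ.V, ρ.ρ σ v - v ∈ U) ∧
      IsUnit z ∧ z ^ 2 - a p * z + (p : O) = 0 ∧
      ∀ σ : Γℚ, P.IsFrobeniusAt σ p → ∀ v : ρ.V, ρ.ρ σ v - z • v ∈ U :=
  h.exists_unitRoot_of_hasGoodKernels hρ hpL hres hap
    (hasGoodKernels_of_stableKernels (fun hd => hpL ((h.dvd_twistLevel_iff Fact.out).1 hd))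
      fun P hP => Strict.hasStableKernels h.p_ne_two _ P hP) P hP

/-- (p1), new: strict ordinary. -/
theorem TwistedPoint.isStrictOrdinaryAt (h : TwistedPoint p ρbar L D ψ S a)
    {ρ : GaloisRepAdic O} (hρ : HasFrobPoly ρ S a) (hpL : p ∣ L)
    (hres : (GaloisRepAdic.ofResidualGaloisRep ρbar).IsOrdinaryAt p)
    (hnew : SystemNewAt h.dvd (toFrac ψ) S (fun ℓ => algebraMap O (FractionRing O) (a ℓ)) p) :
    ρ.IsStrictOrdinaryAt p :=
  h.isStrictOrdinaryAt_of_kernels hρ hpL hres hnew fun _ _ hM =>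
    hasGoodKernels_of_stableKernels hM fun P hP => Strict.hasStableKernels h.p_ne_two hM P hP

/-- (p1): flat or strict ordinary. -/
theorem TwistedPoint.isFlatAt_or_isStrictOrdinaryAt (h : TwistedPoint p ρbar L D ψ S a)
    {ρ : GaloisRepAdic O} (hρ : HasFrobPoly ρ S a) (hpL : p ∣ L)
    (hres : (GaloisRepAdic.ofResidualGaloisRep ρbar).IsOrdinaryAt p) :
    ρ.IsFlatAt p ∨ ρ.IsStrictOrdinaryAt p :=
  h.isFlatAt_or_isStrictOrdinaryAt_aux hρ hres

end Fermat.Agent.Lifting
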