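/-
At a prime outside the level which is in `S`, the eigenvalue of `T'` is the trace of Frobenius.
-/
import Fermat.Agent.Lifting.EBasic

set_option autoImplicit false

noncomputable section

namespace Fermat.Agent.Lifting

open IsLocalRing Fermat.Agent.GaloisAdic Fermat.Agent.Ribet.Twisted

local notation "ℚbar" => AlgebraicClosure ℚ
local notation "Γℚ" => AlgebraicClosure ℚ ≃ₐ[ℚ] AlgebraicClosure ℚ

variable {p : ℕ} [Fact p.Prime] {O : Type} [CommRing O] [IsDomain O] [IsDiscreteValuationRing O]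
  [IsAdicComplete (maximalIdeal O) O] [Finite (ResidueField O)] [CharZero O]
  {L D : ℕ} [NeZero L] {ψ : DirichletCharacter O D} {S : Finset ℕ} {a : ℕ → O}
  {ρbar : ResidualGaloisRep (ResidueField O)}

/-- If `a x` is also an eigenvalue of the point, `x ∤ L`, the Frobenius polynomial at `x` is
`X ^ 2 - a x X + x`. -/
theorem TwistedPoint.charpoly_frobenius_of_system (h : TwistedPoint p ρbar L D ψ S a)
    {ρ : GaloisRepAdic O} (hρ : HasFrobPoly ρ S a) {x : ℕ} (hx : x.Prime) (hxL : ¬ x ∣ L)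
    (hxp : x ≠ p)
    (hsys : HasSystem h.dvd (toFrac ψ) (S.erase x) fun ℓ => algebraMap O (FractionRing O) (a ℓ))
    (A : ValuationSubring ℚbar) (hA : A.LiesOverPrime x) (σ : Γℚ) (hσ : A.IsFrobeniusAt σ x) :
    LinearMap.charpoly (ρ.ρ σ) =
      Polynomial.X ^ 2 - Polynomial.C (a x) * Polynomial.X + Polynomial.C (x : O) := by
  classical
  set N := twistLevel L ψ with hN
  obtain ⟨χ, hT, -⟩ := h.exists_level_hom (S.erase x) (Finset.erase_subset _ _)
    (fun q hq hqD => Finset.mem_erase.2 ⟨fun e => hxL (e ▸ hqD.trans h.dvd),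
      h.level_mem_set q hq (hqD.trans h.dvd)⟩) hsys
  obtain ⟨F⟩ := nonempty_torsionFrame N p
  obtain ⟨O'', i1, i2, i3, i4, i5, i6, i7, i8, i9, hinj, -, ρ'', hchar, -, -, -⟩ :=
    exists_galoisRepAdic F (torsionFacts N p) (↑(S.erase x) : Set ℕ) (S.erase x)
      (fun ℓ _ h => by simpa [and_comm] using h) O h.p_mem χ
  let f := algebraMap O O''
  have hfr : ∀ ℓ : ℕ, ℓ.Prime → ℓ ∉ S ∨ ℓ = x → ∀ B : ValuationSubring ℚbar, B.LiesOverPrime ℓ →
      ∀ τ : Γℚ, B.IsFrobeniusAt τ ℓ → LinearMap.charpoly (ρ''.ρ τ) =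
        Polynomial.X ^ 2 - Polynomial.C (f (a ℓ)) * Polynomial.X + Polynomial.C (ℓ : O'') := by
    intro ℓ hℓ hℓx B hB τ hτ
    have hℓS : ℓ ∉ (↑(S.erase x) : Set ℕ) := by
      rcases hℓx with hh | hh <;> simp [hh]
    have hℓN : ¬ ℓ ∣ N := fun hd => by
      rcases hℓx with hh | rfl
      · exact hh (h.level_subset ℓ hℓ hd)
      · exact hxL ((h.dvd_twistLevel_iff hℓ).1 hd)
    have hℓp : ℓ ≠ p := by
      rcases hℓx with hh | rfl
      · exact fun e => hh (e ▸ h.p_mem_set)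
      · exact hxp
    rw [hchar ℓ hℓ hℓN hℓS hℓp B hB τ hτ, hT ℓ hℓ hℓN hℓS]
  have hf : IsLocalHom f := i9
  have hbc : HasFrobPoly (ρ.baseChangeAlong f hf) S fun ℓ => f (a ℓ) := by
    intro ℓ hℓ hℓS B hB τ hτ
    rw [ETransfer.charpoly_baseChangeAlong, hρ ℓ hℓ hℓS B hB τ hτ]
    simp
  have hσeq : LinearMap.charpoly ((ρ.baseChangeAlong f hf).ρ σ) = LinearMap.charpoly (ρ''.ρ σ) := by
    refine RepLemmas.charpoly_eq_of_approx _ _ (fun K hK g => ?_) σ
    obtain ⟨ℓ, hℓ, hℓS, B, hB, τ, hτ, ⟨j, hj⟩, -⟩ := Density.exists_frobenius_pow g K S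
    refine ⟨τ ^ j, fun y hy => (hj y hy).symm, ?_⟩
    have h1 := RepLemmas.charpoly_conj_pow_eq (ρ.baseChangeAlong f hf).finrank_eq ρ''.finrank_eq
      (ρ.baseChangeAlong f hf).ρ ρ''.ρ (f := τ)
      ((hbc ℓ hℓ hℓS B hB τ hτ).trans (hfr ℓ hℓ (Or.inl hℓS) B hB τ hτ).symm) 1 j
    rwa [one_mul, inv_one, mul_one] at h1
  rw [ETransfer.charpoly_baseChangeAlong, hfr x hx (Or.inr rfl) A hA σ hσ] at hσeq
  apply Polynomial.map_injective f hinj
  rw [hσeq]
  simp [f]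

end Fermat.Agent.Lifting
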