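import Fermat.Agent.Lifting.FSetup
import Fermat.Agent.Lifting.ETransfer
import Fermat.Agent.Lifting.CHom
import Fermat.Agent.Ribet.Avoid.PointCoeff

/-!
# The residual representation of a setup, and congruent eigenclasses as twisted points

-/

set_option autoImplicit false

noncomputable section

namespace Fermat.Agent.Lifting

open IsLocalRing Module
open Fermat.Agent.Ribet.Twisted (Coh CohL chr heckeT' HasSystem)
open Fermat.Agent.Ribet.Avoid (IsCongruent GoodPrime HeckePoly evalSystem residualIdeal)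

local notation "ℚbar" => AlgebraicClosure ℚ
local notation "Γℚ" => AlgebraicClosure ℚ ≃ₐ[ℚ] AlgebraicClosure ℚ

namespace FSetup

variable (s : FSetup)

theorem trace_target (σ : Γℚ) :
    LinearMap.trace s.O _ (s.target.ρ σ) = (s.rW σ).trace :=
  Matrix.trace_toLin'_eq (s.rW σ)

theorem residue_trace_rW (σ : Γℚ) :
    residue s.O (s.rW σ).trace = LinearMap.trace s.kk s.ρbar.V (s.ρbar.ρ σ) := by
  rw [LinearMap.trace_eq_matrix_trace s.kk (TW.residualBasis s.ρbar)]
  exact (AddMonoidHom.map_trace (residue s.O).toAddMonoidHom (s.rW σ)).trans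
    (congrArg Matrix.trace (s.hred σ))

theorem residue_det_rW (σ : Γℚ) :
    residue s.O (s.rW σ).det = LinearMap.det (s.ρbar.ρ σ) := by
  rw [← LinearMap.det_toMatrix (TW.residualBasis s.ρbar), RingHom.map_det]
  exact congrArg Matrix.det (s.hred σ)

/-- Frobenius on the residual representation. -/
theorem trace_det_ρbar {ℓ : ℕ} (hℓ : ℓ.Prime) (hℓS : ℓ ∉ s.S0) {A : ValuationSubring ℚbar}
    (hA : A.LiesOverPrime ℓ) {σ : Γℚ} (hσ : A.IsFrobeniusAt σ ℓ) :
    LinearMap.trace s.kk s.ρbar.V (s.ρbar.ρ σ) = s.abar ℓ ∧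
      LinearMap.det (s.ρbar.ρ σ) = (ℓ : s.kk) := by
  obtain ⟨h1, h2⟩ := Ribet.Avoid.trace_det_of_charpoly s.target.finrank_eq (s.target.ρ σ)
    (s.hfrobW ℓ hℓ hℓS A hA σ hσ)
  rw [trace_target] at h1
  rw [show LinearMap.det (s.target.ρ σ) = (s.rW σ).det from LinearMap.det_toLin' (s.rW σ)] at h2
  rw [← residue_trace_rW, ← residue_det_rW, h1, h2, map_natCast]
  exact ⟨rfl, rfl⟩

/-- The residual representation is ordinary at `p` when `p ∣ N`. -/
theorem isOrdinaryAt_ρbar (hpN : s.p ∣ s.N) :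
    (GaloisRepAdic.ofResidualGaloisRep s.ρbar).IsOrdinaryAt s.p := by
  have hloc : IsLocalHom (residue s.O) := inferInstance
  refine ETransfer.isOrdinaryAt_of_equiv ?_
    (ETransfer.isOrdinaryAt_baseChangeAlong (residue s.O) hloc s.target
      (s.hordW hpN).isOrdinaryAt)
  let b' : Basis (Fin 2) s.kk (TensorProduct s.O s.kk (Fin 2 → s.O)) :=
    Algebra.TensorProduct.basis s.kk (Pi.basisFun s.O (Fin 2))
  let rb := TW.residualBasis s.ρbar
  refine ⟨b'.equiv rb (Equiv.refl _), fun σ x => ?_⟩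
  have key : (b'.equiv rb (Equiv.refl _)).toLinearMap ∘ₗ
      (Matrix.toLin' (s.rW σ)).baseChange s.kk =
        (s.ρbar.ρ σ) ∘ₗ (b'.equiv rb (Equiv.refl _)).toLinearMap := by
    refine b'.ext fun j => ?_
    simp only [LinearMap.comp_apply, LinearEquiv.coe_coe, Basis.equiv_apply, Equiv.refl_apply]
    apply rb.repr.injective
    ext i
    have h2 := congrFun (congrFun (s.hred σ) i) j
    rw [Matrix.map_apply] at h2
    have h2' : TW.matRep s.ρbar σ i j = rb.repr (s.ρbar.ρ σ (rb j)) i :=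
      LinearMap.toMatrix_apply rb rb (s.ρbar.ρ σ) i j
    rw [h2'] at h2
    rw [← h2]
    have h1 := congrFun (congrFun (LinearMap.toMatrix_baseChange s.kk (Matrix.toLin' (s.rW σ))
      (Pi.basisFun s.O (Fin 2)) (Pi.basisFun s.O (Fin 2))) i) j
    rw [LinearMap.toMatrix_apply, Matrix.map_apply, LinearMap.toMatrix_apply] at h1
    rw [← b'.sum_repr ((Matrix.toLin' (s.rW σ)).baseChange s.kk (b' j))]
    simp only [map_sum, map_smul, Basis.equiv_apply, Equiv.refl_apply, Basis.repr_self,
      Finsupp.finsetSum_apply, Finsupp.smul_single, Finsupp.single_apply, smul_eq_mul, mul_one,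
      Finset.sum_ite_eq', Finset.mem_univ, if_true]
    rw [show (b'.repr ((Matrix.toLin' (s.rW σ)).baseChange s.kk (b' j))) i = _ from h1]
    simp [Pi.basisFun_apply, Matrix.mulVec_single_one, Pi.basisFun_repr]
  exact LinearMap.congr_fun key x

/-- The characteristic of the fractions. -/
theorem coeKbar_injective : Function.Injective (algebraMap s.O s.Kbar) := by
  rw [IsScalarTower.algebraMap_eq s.O (FractionRing s.O) s.Kbar]
  exact (algebraMap (FractionRing s.O) s.Kbar).injective.comp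
    (IsFractionRing.injective s.O (FractionRing s.O))

/-- A congruent system takes values reducing to the residual ones. -/
theorem residue_eq_of_congr {O' : Type} [CommRing O'] [IsLocalRing O'] [Algebra s.O O']
    [Algebra.IsIntegral s.O O'] [IsLocalHom (algebraMap s.O O')] (emb : O' →+* s.Kbar)
    (hemb : emb.comp (algebraMap s.O O') = algebraMap s.O s.Kbar) {S : Finset ℕ} {a : ℕ → s.Kbar}
    (hc : IsCongruent (algebraMap s.O s.Kbar) (residue s.O) s.abar S a) (ℓ : GoodPrime S) {c : O'}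
    (hca : emb c = a ℓ.1) :
    residue O' c = ResidueField.map (algebraMap s.O O') (s.abar ℓ.1) := by
  obtain ⟨b, hb⟩ := residue_surjective (s.abar ℓ.1)
  rw [← hb, ResidueField.map_residue, ← sub_eq_zero, ← map_sub, residue_eq_zero_iff]
  set e := c - algebraMap s.O O' b with he
  by_contra hne
  obtain ⟨w, hw⟩ : IsUnit e := IsLocalRing.notMem_maximalIdeal.mp hne
  obtain ⟨f, hf, hf0⟩ := Algebra.IsIntegral.isIntegral (R := s.O) ((w⁻¹ : O'ˣ) : O')
  letI : Invertible e := ⟨((w⁻¹ : O'ˣ) : O'), by rw [← hw, Units.inv_mul],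
    by rw [← hw, Units.mul_inv]⟩
  have hR : Polynomial.eval₂ (algebraMap s.O O') e f.reverse = 0 := by
    haveI : Invertible (⅟e) := invertibleInvOf
    have h : Polynomial.eval₂ (algebraMap s.O O') (⅟e) f = 0 := hf0
    rw [← Polynomial.eval₂_reverse_eq_zero_iff] at h
    simpa using h
  set t : HeckePoly s.O S :=
    Polynomial.eval₂ MvPolynomial.C (MvPolynomial.X ℓ - MvPolynomial.C b) f.reverse with ht
  have hker : t ∈ RingHom.ker (evalSystem (algebraMap s.O s.Kbar) a S) := by
    rw [RingHom.mem_ker, ht, Polynomial.hom_eval₂]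
    have h1 : (evalSystem (algebraMap s.O s.Kbar) a S).comp MvPolynomial.C =
        emb.comp (algebraMap s.O O') := by
      rw [hemb]
      exact RingHom.ext fun x => by simp [evalSystem]
    have h2 : evalSystem (algebraMap s.O s.Kbar) a S (MvPolynomial.X ℓ - MvPolynomial.C b) =
        emb e := by
      rw [he, map_sub, map_sub, hca, ← RingHom.comp_apply emb, hemb]
      simp [evalSystem]
    rw [h1, h2, ← Polynomial.hom_eval₂, hR, map_zero]
  have h0 := hc hker
  rw [residualIdeal, RingHom.mem_ker, ht, Polynomial.hom_eval₂] at h0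
  have h2 : evalSystem (residue s.O) s.abar S (MvPolynomial.X ℓ - MvPolynomial.C b) = 0 := by
    simp [evalSystem, hb]
  rw [h2, Polynomial.eval₂_at_zero, Polynomial.coeff_zero_reverse, hf.leadingCoeff, map_one] at h0
  exact one_ne_zero h0

/-- A congruent eigenclass with trivial nebentype and an eigenvalue at `p`, as a twisted point. -/
structure BasePoint {L D : ℕ} [NeZero L] (hD : D ∣ L) (S : Finset ℕ) (c : s.Kbar) : Type 1 where
  /-- the coefficients -/
  O' : Type
  [instCommRing : CommRing O']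
  [instDomain : IsDomain O']
  [instDVR : IsDiscreteValuationRing O']
  [instComplete : IsAdicComplete (maximalIdeal O') O']
  [instFinite : Finite (ResidueField O')]
  [instCharZero : CharZero O']
  [instAlgebra : Algebra s.O O']
  [instModuleFinite : Module.Finite s.O O']
  [instLocal : IsLocalHom (algebraMap s.O O')]
  /-- the embedding -/
  emb : O' →+* s.Kbar
  emb_inj : Function.Injective emb
  emb_comp : emb.comp (algebraMap s.O O') = algebraMap s.O s.Kbar
  /-- the eigenvalues -/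
  a : ℕ → O'
  emb_a_p : emb (a s.p) = c
  point : TwistedPoint s.p (s.ρbar.baseChangeAlong (ResidueField.map (algebraMap s.O O'))) L D
    (1 : DirichletCharacter O' D) S a
  system : HasSystem hD (toFrac (1 : DirichletCharacter O' D)) (S.erase s.p)
    fun ℓ => algebraMap O' (FractionRing O') (a ℓ)

attribute [instance] BasePoint.instCommRing BasePoint.instDomain BasePoint.instDVR
  BasePoint.instComplete BasePoint.instFinite BasePoint.instCharZero BasePoint.instAlgebra
  BasePoint.instModuleFinite BasePoint.instLocal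

set_option maxHeartbeats 1000000 in
/-- An eigenclass with values in the fractions of a finite extension of `O` gives a twisted point
over that extension. -/
theorem exists_basePoint_of_emb {L D : ℕ} [NeZero L] (hD : D ∣ L) (hLsq : Squarefree L)
    {S : Finset ℕ} (hS : s.S0 ⊆ S) (hLS : ∀ q : ℕ, q.Prime → q ∣ L → q ∈ S) {b : ℕ → s.Kbar}
    (hcong : IsCongruent (algebraMap s.O s.Kbar) (residue s.O) s.abar S b) {c : s.Kbar}
    {O' : Type} [CommRing O'] [IsDomain O'] [IsDiscreteValuationRing O']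
    [IsAdicComplete (maximalIdeal O') O'] [Finite (ResidueField O')] [CharZero O']
    [Algebra s.O O'] [Module.Finite s.O O'] [IsLocalHom (algebraMap s.O O')]
    (emb : O' →+* s.Kbar) (hemb : Function.Injective emb)
    (hcomp : emb.comp (algebraMap s.O O') = algebraMap s.O s.Kbar)
    (z : Ribet.Twisted.cocycles (chr hD (1 : DirichletCharacter s.Kbar D)) s.Kbar)
    (hz0 : Coh.mk _ s.Kbar z ≠ 0)
    (hzval : ∀ γ, ∃ u v : O', (z : CongruenceSubgroup.Gamma0 L → s.Kbar) γ = emb u / emb v)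
    (hzb : ∀ ℓ : ℕ, ℓ.Prime → ℓ ∉ S →
      heckeT' hD (1 : DirichletCharacter s.Kbar D) s.Kbar ℓ (Coh.mk _ s.Kbar z) =
        b ℓ • Coh.mk _ s.Kbar z)
    (hzc : heckeT' hD (1 : DirichletCharacter s.Kbar D) s.Kbar s.p (Coh.mk _ s.Kbar z) =
      c • Coh.mk _ s.Kbar z) :
    Nonempty (s.BasePoint hD S c) := by
  classical
  let ι : FractionRing O' →+* s.Kbar := IsFractionRing.lift hemb
  have hιalg : ∀ y, ι (algebraMap _ (FractionRing O') y) = emb y := fun y =>
    IsFractionRing.lift_algebraMap hemb y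
  set ψ : DirichletCharacter O' D := 1
  have hψ : toFrac ψ = 1 := MulChar.ringHomComp_one _
  have hψι : (toFrac ψ).ringHomComp ι = 1 := by rw [hψ, MulChar.ringHomComp_one]
  have hsys : ∃ z : Ribet.Twisted.cocycles (chr hD ((toFrac ψ).ringHomComp ι)) s.Kbar,
      Coh.mk (chr hD ((toFrac ψ).ringHomComp ι)) s.Kbar z ≠ 0 ∧
      (∀ γ, (z : CongruenceSubgroup.Gamma0 L → s.Kbar) γ ∈ ι.range) ∧
      (∀ ℓ : ℕ, ℓ.Prime → ℓ ∉ S → heckeT' hD ((toFrac ψ).ringHomComp ι) s.Kbar ℓ
          (Coh.mk (chr hD ((toFrac ψ).ringHomComp ι)) s.Kbar z) =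
        b ℓ • Coh.mk (chr hD ((toFrac ψ).ringHomComp ι)) s.Kbar z) ∧
      heckeT' hD ((toFrac ψ).ringHomComp ι) s.Kbar s.p
          (Coh.mk (chr hD ((toFrac ψ).ringHomComp ι)) s.Kbar z) =
        c • Coh.mk (chr hD ((toFrac ψ).ringHomComp ι)) s.Kbar z := by
    rw [hψι]
    refine ⟨z, hz0, fun γ => ?_, hzb, hzc⟩
    obtain ⟨u, v, huv⟩ := hzval γ
    exact ⟨algebraMap _ _ u / algebraMap _ _ v, by rw [map_div₀, hιalg, hιalg, huv]⟩
  obtain ⟨w, hw0, hwmem, hwb, hwc⟩ := hsys
  obtain ⟨y, hy0, -, hyeig, -⟩ := Ribet.Avoid.exists_descend hD ι (toFrac ψ) w hwmem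
    (Or.inl fun γ => by rw [hψ]; exact chr_triv hD γ) hw0
  have hval : ∀ ℓ : ℕ, ∃ u : O', ℓ.Prime → ℓ ∉ S.erase s.p →
      emb u = (if ℓ = s.p then c else b ℓ) ∧
      heckeT' hD (toFrac ψ) (FractionRing O') ℓ y = algebraMap _ (FractionRing O') u • y := by
    intro ℓ
    by_cases h : ℓ.Prime ∧ ℓ ∉ S.erase s.p
    · have heig : heckeT' hD ((toFrac ψ).ringHomComp ι) s.Kbar ℓ
          (Coh.mk (chr hD ((toFrac ψ).ringHomComp ι)) s.Kbar w) =
          (if ℓ = s.p then c else b ℓ) • Coh.mk (chr hD ((toFrac ψ).ringHomComp ι)) s.Kbar w := by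
        split_ifs with hp
        · rw [hp]; exact hwc
        · exact hwb ℓ h.1 fun hm => h.2 (Finset.mem_erase.2 ⟨hp, hm⟩)
      obtain ⟨c', hc', hTc⟩ := hyeig ℓ _ heig
      have hi := Ribet.Avoid.isIntegral_of_eigen hD ψ hy0 hTc
      obtain ⟨u, hu⟩ := IsIntegrallyClosed.isIntegral_iff.mp hi
      exact ⟨u, fun _ _ => ⟨by rw [← hιalg, hu, hc'], by rw [hu]; exact hTc⟩⟩
    · exact ⟨0, fun h1 h2 => absurd ⟨h1, h2⟩ h⟩
  choose a ha using hval
  have hpS : s.p ∈ S := hS ((s.hS0 s.p).2 (Or.inl rfl))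
  have hmapres : ∀ ℓ : ℕ, ℓ.Prime → ℓ ∉ S → residue _ (a ℓ) =
      ResidueField.map (algebraMap s.O O') (s.abar ℓ) := fun ℓ hℓ hℓS => by
    refine residue_eq_of_congr s emb hcomp hcong ⟨ℓ, hℓ, hℓS⟩ ?_
    rw [(ha ℓ hℓ fun h => hℓS (Finset.mem_of_mem_erase h)).1,
      if_neg (show ℓ ≠ s.p from fun h => hℓS (h ▸ hpS))]
  exact ⟨{ O' := O', emb := emb, emb_inj := hemb, emb_comp := hcomp, a := a,
           emb_a_p := by rw [(ha s.p s.hp.out (Finset.notMem_erase _ _)).1, if_pos rfl],
           system := ⟨y, hy0, fun ℓ hℓ hℓS => (ha ℓ hℓ hℓS).2⟩,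
           point :=
    { dvd := hD
      squarefree := hLsq
      p_ne_two := s.hp2
      p_mem := by
        rw [← map_natCast (algebraMap s.O O')]
        exact (map_nonunit _ _) s.hpO
      pPower := fun w => ⟨0, by rw [pow_zero, pow_one, MulChar.one_apply w.isUnit]⟩
      p_mem_set := hpS
      level_mem_set := hLS
      hasSystem := ⟨y, hy0, fun ℓ hℓ hℓS =>
        (ha ℓ hℓ fun h => hℓS (Finset.mem_of_mem_erase h)).2⟩
      absIrr := Ribet.Avoid.isAbsolutelyIrreducible_extend _ _ s.habs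
      odd := Ribet.Avoid.isOdd_extend _ _ s.hodd
      residue_trace := fun ℓ hℓ hℓS A hA σ hσ => by
        rw [hmapres ℓ hℓ hℓS, Ribet.Avoid.trace_extend,
          (s.trace_det_ρbar hℓ (fun h => hℓS (hS h)) hA hσ).1]
      residue_det := fun ℓ hℓ hℓS A hA σ hσ => by
        rw [Ribet.Avoid.det_extend, (s.trace_det_ρbar hℓ (fun h => hℓS (hS h)) hA hσ).2,
          map_natCast] } }⟩

set_option maxHeartbeats 1000000 in
/-- Congruent eigenclasses give twisted points. -/
theorem exists_basePoint {L D : ℕ} [NeZero L] (hD : D ∣ L) (hLsq : Squarefree L) {S : Finset ℕ}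
    (hS : s.S0 ⊆ S) (hLS : ∀ q : ℕ, q.Prime → q ∣ L → q ∈ S) {b : ℕ → s.Kbar}
    (hcong : IsCongruent (algebraMap s.O s.Kbar) (residue s.O) s.abar S b) {c : s.Kbar}
    {x : CohL hD (1 : DirichletCharacter s.Kbar D) s.Kbar} (hx : x ≠ 0)
    (hxb : ∀ ℓ : ℕ, ℓ.Prime → ℓ ∉ S →
      heckeT' hD (1 : DirichletCharacter s.Kbar D) s.Kbar ℓ x = b ℓ • x)
    (hxc : heckeT' hD (1 : DirichletCharacter s.Kbar D) s.Kbar s.p x = c • x) :
    Nonempty (s.BasePoint hD S c) := by
  classical
  have : CharZero (FractionRing s.O) :=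
    charZero_of_injective_algebraMap (IsFractionRing.injective s.O (FractionRing s.O))
  obtain ⟨z, rfl⟩ := Ribet.Twisted.Coh.mk_surjective x
  obtain ⟨g, hg, hgfin⟩ := Ribet.Avoid.finite_generators_Gamma0 L
  let V : Set s.Kbar := (z : CongruenceSubgroup.Gamma0 L → s.Kbar) '' g
  have : Finite V := (hgfin.image _).to_subtype
  let F := IntermediateField.adjoin (FractionRing s.O) V
  have : FiniteDimensional (FractionRing s.O) F :=
    IntermediateField.finiteDimensional_adjoin fun y _ =>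
      Algebra.IsIntegral.isIntegral (R := FractionRing s.O) y
  have hchr : ∀ γ, chr hD (1 : DirichletCharacter s.Kbar D) γ = 1 := chr_triv hD
  have hmem : ∀ γ, (z : CongruenceSubgroup.Gamma0 L → s.Kbar) γ ∈ F := by
    intro γ
    have hγ : γ ∈ Subgroup.closure g := by rw [hg]; trivial
    induction hγ using Subgroup.closure_induction with
    | mem δ hδ => exact IntermediateField.subset_adjoin _ _ ⟨δ, hδ, rfl⟩
    | one => rw [Ribet.Twisted.cocycle_one]; exact F.zero_mem
    | mul u v _ _ hu hv => rw [z.2 u v, hchr, one_smul]; exact F.add_mem hu hv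
    | inv u _ hu => rw [Ribet.Twisted.cocycle_inv, hchr, one_smul]; exact F.neg_mem hu
  obtain ⟨hdvr, hfin, hloc, hinj, hfrac, hcompl, hres⟩ :=
    RepLemmas.integralClosure_isDVR s.O (FractionRing s.O) F
  haveI := hdvr
  haveI := hfin
  haveI := hloc
  haveI := hfrac
  haveI := hcompl
  haveI := hres inferInstance
  haveI : CharZero (integralClosure s.O F) := charZero_of_injective_algebraMap hinj
  haveI : IsScalarTower s.O F s.Kbar := IsScalarTower.of_algebraMap_eq fun y =>
    IsScalarTower.algebraMap_apply s.O (FractionRing s.O) s.Kbar y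
  let emb : integralClosure s.O F →+* s.Kbar :=
    (algebraMap F s.Kbar).comp (algebraMap (integralClosure s.O F) F)
  refine exists_basePoint_of_emb s hD hLsq hS hLS hcong emb
    ((algebraMap F s.Kbar).injective.comp Subtype.val_injective)
    (by ext y; exact (IsScalarTower.algebraMap_apply s.O F s.Kbar y).symm)
    z hx (fun γ => ?_) hxb hxc
  obtain ⟨u, v, -, huv⟩ :=
    IsFractionRing.div_surjective (A := integralClosure s.O F) (⟨_, hmem γ⟩ : F)
  exact ⟨u, v, ((congrArg (algebraMap F s.Kbar) huv).symm.trans (map_div₀ _ _ _))⟩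

end FSetup

end Fermat.Agent.Lifting

end
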