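import Fermat.Agent.Lifting.CLimit
import Fermat.Agent.Lifting.CRaise
import Fermat.Agent.Ribet.Avoid.ModuleNilpotent
import Fermat.Agent.Ribet.Avoid.ModuleRank

/-!
# Operators on the part at a system and their values at congruent eigenclasses

-/

set_option autoImplicit false

noncomputable section

namespace Fermat.Agent.Lifting

open IsLocalRing Module
open Fermat.Agent.Ribet.Twisted (Coh CohL chr heckeT' HasSystem)
open Fermat.Agent.Ribet.Avoid (residualIdeal evalSystem IsCongruent LocCoh)

universe u

section Bridge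

variable {A : Type*} [CommRing A] {L D : ℕ} [NeZero L] (hD : D ∣ L) (ψ : DirichletCharacter A D)
  (S : Finset ℕ) {k : Type*} [Field k] (res : A →+* k) (abar : ℕ → k)

theorem sysEval_eq_avoidEval :
    sysEval res (fun ℓ : GoodIdx S => abar ℓ) = evalSystem res abar S := rfl

/-- The two descriptions of the kernel of localisation agree. -/
theorem cohKer_eq_locKer (M : Type*) [AddCommGroup M] [Module A M] :
    cohKer hD ψ res (fun ℓ : GoodIdx S => abar ℓ) M =
      Ribet.Avoid.locKer hD ψ M S (residualIdeal res abar S) := by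
  ext x
  constructor
  · rintro ⟨t, ht, hx⟩
    exact ⟨t, fun h => ht (RingHom.mem_ker.1 h), by rw [← cohAct_eq_avoidAct]; exact hx⟩
  · rintro ⟨t, ht, hx⟩
    exact ⟨t, fun h => ht (RingHom.mem_ker.2 h), by rw [cohAct_eq_avoidAct]; exact hx⟩

theorem finrank_mPart_eq_locCoh (M : Type*) [AddCommGroup M] [Module A M] :
    finrank A (MPart hD ψ res (fun ℓ : GoodIdx S => abar ℓ) M) =
      finrank A (LocCoh hD ψ M S (residualIdeal res abar S)) :=
  (Submodule.quotEquivOfEq _ _ (cohKer_eq_locKer hD ψ S res abar M)).finrank_eq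

/-- An eigenclass is an eigenclass of the polynomials. -/
theorem cohAct_eigen {M : Type*} [AddCommGroup M] [Module A M] {x : CohL hD ψ M} {a : ℕ → A}
    (h : ∀ ℓ : GoodIdx S, heckeT' hD ψ M ℓ x = a ℓ • x) (t : MvPolynomial (GoodIdx S) A) :
    cohAct hD ψ S M t x = evalSystem (RingHom.id A) a S t • x := by
  induction t using MvPolynomial.induction_on with
  | C r => simp [evalSystem]
  | add p q hp hq => simp only [map_add, LinearMap.add_apply, hp, hq, add_smul]
  | mul_X p m hp =>
    rw [map_mul, cohAct_X, Module.End.mul_apply, h m, map_smul, hp, smul_smul, map_mul, mul_comm]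
    simp [evalSystem]

end Bridge

section Square

variable {k : Type*} [Field k] {L D q : ℕ} [NeZero L] [NeZero (L * q)] [Fact q.Prime] (hD : D ∣ L)
  {S : Finset ℕ} (a : GoodIdx S → k) (hqL : ¬ q ∣ L) (hqS : q ∈ S)

include hqL hqS in
/-- If `q = 0` in `k` and the two transfers do not see a new part, `1 - T'_q ^ 2` is injective. -/
theorem injective_one_sub_sq (hqk : (q : k) = 0) (h2 : (2 : k) ≠ 0) (h3 : Elliptic3 k L)
    (ha : NonEis (L * q) S a)
    (hdim : finrank k (MPart (hDq hD q) (1 : DirichletCharacter k D) (RingHom.id k) a k) ≤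
      2 * finrank k (MPart hD (1 : DirichletCharacter k D) (RingHom.id k) a k)) :
    Function.Injective (1 - partT hD (1 : DirichletCharacter k D) (RingHom.id k) a k q *
      partT hD (1 : DirichletCharacter k D) (RingHom.id k) a k q : Module.End k _) := by
  have := finite_mPart hD (1 : DirichletCharacter k D) (RingHom.id k) a k
  have := finite_mPart (hDq hD q) (1 : DirichletCharacter k D) (RingHom.id k) a k
  have hr := partRaise_injective_field hD a hqL hqS 1 rfl h2 h3 ha
  have hl := partLower_surjective_field hD a hqL hqS 1 rfl h2 h3 ha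
  have hle := LinearMap.finrank_le_finrank_of_injective hr
  have hge := LinearMap.finrank_range_of_inj hr
  have heq : finrank k (MPart (hDq hD q) (1 : DirichletCharacter k D) (RingHom.id k) a k) =
      finrank k (MPart hD (1 : DirichletCharacter k D) (RingHom.id k) a k ×
        MPart hD (1 : DirichletCharacter k D) (RingHom.id k) a k) := by
    refine le_antisymm ?_ hle
    rw [Module.finrank_prod, ← two_mul]
    exact hdim
  have hli : Function.Injective (partLower hD (1 : DirichletCharacter k D) (RingHom.id k) a k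
      hqL hqS) := (LinearMap.injective_iff_surjective_of_finrank_eq_finrank heq).2 hl
  rw [injective_iff_map_eq_zero]
  intro y hy
  rw [LinearMap.sub_apply, Module.End.one_apply, Module.End.mul_apply, sub_eq_zero] at hy
  have h0 : partLower hD (1 : DirichletCharacter k D) (RingHom.id k) a k hqL hqS
      (partRaise hD (1 : DirichletCharacter k D) (RingHom.id k) a k hqL hqS
        (y, -partT hD (1 : DirichletCharacter k D) (RingHom.id k) a k q y)) = 0 := by
    rw [partLower_partRaise, hqk, zero_add, one_smul, map_neg, ← hy, one_smul,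
      add_neg_cancel, add_neg_cancel]
    rfl
  have h1 := hr ((hli (h0.trans (map_zero _).symm)).trans (map_zero _).symm)
  exact congrArg Prod.fst h1

end Square

section Relation

variable {A : Type u} [CommRing A] {L D : ℕ} [NeZero L] (hD : D ∣ L) (ψ : DirichletCharacter A D)
  {S : Finset ℕ} {k : Type*} [Field k] (res : A →+* k) (a : GoodIdx S → k)

theorem toPart_aeval (f : Module.End A (CohL hD ψ A)) (g : Module.End A (MPart hD ψ res a A))
    (h : ∀ y, toPart hD ψ res a A (f y) = g (toPart hD ψ res a A y)) (P : Polynomial A)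
    (y : CohL hD ψ A) :
    toPart hD ψ res a A (Polynomial.aeval f P y) =
      Polynomial.aeval g P (toPart hD ψ res a A y) := by
  induction P using Polynomial.induction_on generalizing y with
  | C c => simp
  | add p q hp hq => simp only [map_add, LinearMap.add_apply, hp, hq]
  | monomial n c ih =>
    simp only [pow_succ, ← mul_assoc, map_mul, Polynomial.aeval_X, Module.End.mul_apply] at ih ⊢
    rw [ih, h]

set_option maxHeartbeats 1200000 in
/-- A polynomial in `T'_q` which is bijective on the part over the residual field gives a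
relation on the cohomology over the coefficients. -/
theorem exists_inverse_relation [IsDomain A] [IsDiscreteValuationRing A]
    [IsAdicComplete (maximalIdeal A) A] (hk : Function.Surjective res) (h2 : IsUnit (2 : A))
    (h3 : Elliptic3 A L) (ha : NonEis L S a) (q : ℕ)
    (hinj : Function.Injective (1 - partT hD (ψ.ringHomComp res) (RingHom.id k) a k q *
      partT hD (ψ.ringHomComp res) (RingHom.id k) a k q : Module.End k _)) :
    ∃ (g : Polynomial A) (t : MvPolynomial (GoodIdx S) A), sysEval res a t ≠ 0 ∧
      ∀ y, cohAct hD ψ S A t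
        (Polynomial.aeval (1 - heckeT' hD ψ A q * heckeT' hD ψ A q)
          (Polynomial.X * g - 1) y) = 0 := by
  classical
  obtain ⟨hfree, hfin⟩ := free_mPart_of_isDomain hD ψ res a ha
  have hc : (RingHom.id k).comp res = res := RingHom.id_comp res
  have hker : RingHom.ker res = maximalIdeal A :=
    IsLocalRing.eq_maximalIdeal (RingHom.ker_isMaximal_of_surjective res hk)
  set T : Module.End A (MPart hD ψ res a A) :=
    1 - partT hD ψ res a A q * partT hD ψ res a A q with hT
  have hkfin := finite_mPart hD (ψ.ringHomComp res) (RingHom.id k) a k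
  have hsur := LinearMap.injective_iff_surjective.1 hinj
  have hTs : Function.Surjective T := by
    have htop : (⊤ : Submodule A (MPart hD ψ res a A)) ≤
        LinearMap.range T ⊔ maximalIdeal A • ⊤ := by
      intro y _
      obtain ⟨x', hx'⟩ := hsur (mapPart hD ψ res a res (RingHom.id k) hc y)
      obtain ⟨x, rfl⟩ := mapPart_surjective hD ψ res a res (RingHom.id k) hc hk h2 h3 x'
      rw [← sub_add_cancel y (T x)]
      refine add_mem (Submodule.mem_sup_right ?_) (Submodule.mem_sup_left ⟨x, rfl⟩)
      rw [← hker, ← mapPart_eq_zero_iff_of_isAdicComplete hD ψ res a res (RingHom.id k) hc hk hk h2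
        h3, map_sub, ← hx', hT]
      simp only [LinearMap.sub_apply, Module.End.one_apply, Module.End.mul_apply, map_sub,
        mapPart_partT, sub_self]
    exact fun y => Submodule.le_of_le_smul_of_le_jacobson_bot Module.Finite.fg_top
      (IsLocalRing.jacobson_eq_maximalIdeal (⊥ : Ideal A) bot_ne_top).ge htop Submodule.mem_top
  have hTb : Function.Bijective T :=
    ⟨OrzechProperty.injective_of_surjective_endomorphism T hTs, hTs⟩
  have hdet : IsUnit (LinearMap.det T) := LinearEquiv.isUnit_det' (LinearEquiv.ofBijective T hTb)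
  have hc0 : IsUnit ((LinearMap.charpoly T).coeff 0) := by
    rw [LinearMap.det_eq_sign_charpoly_coeff] at hdet
    exact isUnit_of_mul_isUnit_right hdet
  obtain ⟨c, hc⟩ := hc0
  set g : Polynomial A := Polynomial.C (-(↑c⁻¹ : A)) * (LinearMap.charpoly T).divX with hg
  have hgT : Polynomial.aeval T (Polynomial.X * g - 1) = 0 := by
    have e : Polynomial.X * g - 1 = Polynomial.C (-(↑c⁻¹ : A)) * LinearMap.charpoly T := by
      conv_rhs => rw [← Polynomial.X_mul_divX_add (LinearMap.charpoly T)]
      rw [hg, mul_add, ← Polynomial.C_mul, ← hc, neg_mul, Units.inv_mul]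
      simp only [map_neg, map_one]
      ring
    rw [e, map_mul, LinearMap.aeval_self_charpoly, mul_zero]
  set F : Module.End A (CohL hD ψ A) :=
    Polynomial.aeval (1 - heckeT' hD ψ A q * heckeT' hD ψ A q) (Polynomial.X * g - 1) with hF
  have hmem : ∀ y, F y ∈ cohKer hD ψ res a A := fun y => by
    have h := toPart_aeval hD ψ res a (1 - heckeT' hD ψ A q * heckeT' hD ψ A q) T
      (fun z => by
        rw [hT]
        simp only [LinearMap.sub_apply, Module.End.one_apply, Module.End.mul_apply, map_sub,
          partT_toPart])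
      (Polynomial.X * g - 1) y
    rw [hgT, LinearMap.zero_apply, ← hF, toPart, Submodule.mkQ_apply,
      Submodule.Quotient.mk_eq_zero] at h
    exact h
  have : Module.Finite A (CohL hD ψ A) := Ribet.Twisted.finite_cohL hD ψ
  obtain ⟨n, y, hy⟩ := Module.Finite.exists_fin (R := A) (M := CohL hD ψ A)
  choose t ht0 htz using fun i => hmem (y i)
  have hcomm : ∀ t', Commute F (cohAct hD ψ S A t') := fun t' => by
    have h1 : Commute (1 - heckeT' hD ψ A q * heckeT' hD ψ A q) (cohAct hD ψ S A t') :=
      (Commute.one_left _).sub_left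
        ((cohAct_comm hD ψ S A q t').mul_left (cohAct_comm hD ψ S A q t'))
    rw [hF]
    induction Polynomial.X * g - 1 using Polynomial.induction_on with
    | C r => rw [Polynomial.aeval_C]; exact Algebra.commute_algebraMap_left r _
    | add p r hp hr => rw [map_add]; exact hp.add_left hr
    | monomial m r ih =>
      rw [pow_succ, ← mul_assoc, map_mul _ (Polynomial.C r * Polynomial.X ^ m) Polynomial.X,
        Polynomial.aeval_X]
      exact ih.mul_left h1
  refine ⟨g, ∏ i, t i, ?_, fun z => ?_⟩
  · rw [map_prod]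
    exact Finset.prod_ne_zero_iff.2 fun i _ => ht0 i
  · have h0 : cohAct hD ψ S A (∏ i, t i) ∘ₗ F = 0 := by
      refine LinearMap.ext_on_range hy fun i => ?_
      rw [LinearMap.comp_apply, LinearMap.zero_apply, ← Finset.prod_erase_mul _ _
        (Finset.mem_univ i), map_mul, Module.End.mul_apply, htz i, map_zero]
    exact LinearMap.congr_fun h0 z

set_option maxHeartbeats 1200000 in
/-- At a congruent eigenclass over an extension the relation gives an inverse. -/
theorem eigen_inverse {K : Type u} [Field K] (φ : A →+* K) (h2 : IsUnit (2 : A))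
    (h3 : Ribet.Avoid.EllipticOK A L) (abar : ℕ → k) (hab : ∀ ℓ : GoodIdx S, abar ℓ = a ℓ)
    {b : ℕ → K} (hcong : IsCongruent φ res abar S b) {q : ℕ} {c : K}
    {x : CohL hD (ψ.ringHomComp φ) K} (hx : x ≠ 0)
    (hxa : ∀ ℓ : GoodIdx S, heckeT' hD (ψ.ringHomComp φ) K ℓ x = b ℓ • x)
    (hxq : heckeT' hD (ψ.ringHomComp φ) K q x = c • x) {g : Polynomial A}
    {t : MvPolynomial (GoodIdx S) A} (ht : sysEval res a t ≠ 0)
    (hrel : ∀ y, cohAct hD ψ S A t
      (Polynomial.aeval (1 - heckeT' hD ψ A q * heckeT' hD ψ A q)
        (Polynomial.X * g - 1) y) = 0) :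
    (1 - c ^ 2) * g.eval₂ φ (1 - c ^ 2) = 1 := by
  set U : Module.End K (CohL hD (ψ.ringHomComp φ) K) :=
    1 - heckeT' hD (ψ.ringHomComp φ) K q * heckeT' hD (ψ.ringHomComp φ) K q with hU
  have hmap : ∀ (P : Polynomial A) (y : CohL hD ψ A),
      cohMap hD ψ φ (Polynomial.aeval (1 - heckeT' hD ψ A q * heckeT' hD ψ A q) P y) =
        Polynomial.aeval U (P.map φ) (cohMap hD ψ φ y) := by
    intro P
    induction P using Polynomial.induction_on with
    | C r => intro y; simp [LinearMap.map_smulₛₗ]
    | add p r hp hr => intro y; simp only [map_add, Polynomial.map_add, LinearMap.add_apply, hp, hr]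
    | monomial m r ih =>
      intro y
      simp only [pow_succ, ← mul_assoc, Polynomial.map_mul, map_mul, Polynomial.map_X,
        Polynomial.aeval_X, Module.End.mul_apply] at ih ⊢
      rw [ih, hU]
      simp only [LinearMap.sub_apply, Module.End.one_apply, Module.End.mul_apply, map_sub,
        cohMap_heckeT']
  have hkill : cohAct hD (ψ.ringHomComp φ) S K (MvPolynomial.map φ t)
      (Polynomial.aeval U ((Polynomial.X * g - 1).map φ) x) = 0 := by
    obtain ⟨n, r, y, rfl⟩ := Ribet.Avoid.exists_sum_smul_redMap hD ψ φ h2 h3 x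
    simp only [map_sum, map_smul]
    refine Finset.sum_eq_zero fun i _ => ?_
    rw [show Ribet.Avoid.redMap hD ψ φ (y i) = cohMap hD ψ φ (y i) from rfl, ← hmap,
      ← cohMap_cohAct, hrel, map_zero, smul_zero]
  have hUx : U x = (1 - c ^ 2) • x := by
    rw [hU, LinearMap.sub_apply, Module.End.one_apply, Module.End.mul_apply, hxq, map_smul, hxq,
      smul_smul, sub_smul, one_smul, sq]
  have heigen : ∀ P : Polynomial K, Polynomial.aeval U P x = P.eval (1 - c ^ 2) • x := by
    intro P
    induction P using Polynomial.induction_on with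
    | C r => simp
    | add p r hp hr => simp only [map_add, LinearMap.add_apply, hp, hr, Polynomial.eval_add,
        add_smul]
    | monomial m r ih =>
      rw [pow_succ, ← mul_assoc, map_mul _ (Polynomial.C r * Polynomial.X ^ m) Polynomial.X,
        Polynomial.aeval_X, Module.End.mul_apply, hUx, map_smul,
        ih, smul_smul, Polynomial.eval_mul_X, mul_comm]
  rw [heigen, map_smul, cohAct_eigen hD (ψ.ringHomComp φ) S hxa, smul_smul, smul_eq_zero] at hkill
  rcases (mul_eq_zero.1 (hkill.resolve_right hx)) with h | h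
  · rw [Polynomial.eval_map, Polynomial.eval₂_sub, Polynomial.eval₂_mul, Polynomial.eval₂_X,
      Polynomial.eval₂_one, sub_eq_zero] at h
    exact h
  · refine absurd ?_ ht
    have h' : MvPolynomial.eval₂Hom φ (fun ℓ : GoodIdx S => b ℓ) t = 0 := by
      rw [← h, evalSystem, MvPolynomial.eval₂Hom_map_hom, RingHom.id_comp]
    have := hcong (RingHom.mem_ker.2 h')
    rw [residualIdeal, RingHom.mem_ker, evalSystem] at this
    rw [← this, sysEval]
    exact congrArg (fun f => MvPolynomial.eval₂Hom res f t) (funext fun ℓ => (hab ℓ).symm)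

end Relation

section Exists

variable {L D : ℕ} [NeZero L] (hD : D ∣ L) {S : Finset ℕ}

/-- A non-zero part gives a congruent eigenclass over an algebraically closed field of
characteristic zero, which is an eigenclass of one more operator. -/
theorem exists_congruent_eigen {O : Type} [CommRing O] [IsLocalRing O] [IsNoetherianRing O]
    [IsAdicComplete (maximalIdeal O) O] (h2 : IsUnit (2 : O))
    (h3 : Ribet.Avoid.EllipticOK O L) (abar : ℕ → ResidueField O)
    (hLS : ∀ q : ℕ, q.Prime → q ∣ L → q ∈ S)
    (hEis : Ribet.Avoid.HasNonEisenstein D abar S) {K : Type} [Field K] [CharZero K]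
    [IsAlgClosed K] (φ : O →+* K) (hφ : Function.Injective φ) (q : ℕ)
    (hne : 0 < finrank (ResidueField O) (MPart hD (1 : DirichletCharacter (ResidueField O) D)
      (RingHom.id _) (fun ℓ : GoodIdx S => abar ℓ) (ResidueField O))) :
    ∃ (b : ℕ → K) (c : K) (x : CohL hD (1 : DirichletCharacter K D) K), x ≠ 0 ∧
      IsCongruent φ (residue O) abar S b ∧
      (∀ ℓ : ℕ, ℓ.Prime → ℓ ∉ S → heckeT' hD (1 : DirichletCharacter K D) K ℓ x = b ℓ • x) ∧
      heckeT' hD (1 : DirichletCharacter K D) K q x = c • x := by
  classical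
  obtain ⟨b, hsys, hcong⟩ : ∃ b : ℕ → K, HasSystem hD (1 : DirichletCharacter K D) S b ∧
      IsCongruent φ (residue O) abar S b := by
    by_contra hno
    push Not at hno
    set κ' : ResidueField O →+* ResidueField (ResidueField O) := residue (ResidueField O)
    set abar' : ℕ → ResidueField (ResidueField O) := fun ℓ => κ' (abar ℓ)
    have h0 := Ribet.Avoid.locAct_pow_eq_zero hD S (residue O) residue_surjective h2 h3
      (1 : DirichletCharacter O D) abar' hLS
      (by
        obtain ⟨ℓ, h1, h1', h1'', h⟩ := hEis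
        exact ⟨ℓ, h1, h1', h1'', fun h' => h (κ'.injective (by
          rw [map_add, map_natCast, map_one]; exact h'))⟩)
      (J := Unit) (fun _ => φ) (fun x hx => (map_eq_zero_iff φ hφ).mp (hx ()))
      (1 : Ribet.Avoid.HeckePoly O S)
      (fun _ b hb hc => by
        rw [MulChar.ringHomComp_one] at hb
        refine absurd ?_ (hno b hb)
        unfold IsCongruent at hc ⊢
        rwa [Ribet.Avoid.residualIdeal_comp] at hc)
    rw [map_one, map_one, one_pow, MulChar.ringHomComp_one] at h0
    have : Subsingleton (LocCoh hD (1 : DirichletCharacter (ResidueField O) D) (ResidueField O) S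
        (residualIdeal κ' abar' S)) :=
      ⟨fun x y => by
        have hx : x = 0 := LinearMap.congr_fun h0 x
        have hy : y = 0 := LinearMap.congr_fun h0 y
        rw [hx, hy]⟩
    have hP : residualIdeal κ' abar' S = residualIdeal (RingHom.id (ResidueField O)) abar S := by
      rw [show κ' = κ'.comp (RingHom.id _) by simp, Ribet.Avoid.residualIdeal_comp]
    rw [finrank_mPart_eq_locCoh hD _ S (RingHom.id _) abar,
      ← Ribet.Avoid.finrank_locCoh_congr hD (1 : DirichletCharacter (ResidueField O) D) S _ _ hP
        (ResidueField O), Module.finrank_zero_of_subsingleton] at hne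
    exact lt_irrefl 0 hne
  obtain ⟨x₀, hx₀, hx₀b⟩ := hsys
  have : FiniteDimensional K (CohL hD (1 : DirichletCharacter K D) K) :=
    Ribet.Twisted.finite_cohL hD _
  let W : Submodule K (CohL hD (1 : DirichletCharacter K D) K) :=
    ⨅ ℓ : GoodIdx S, Module.End.eigenspace (heckeT' hD (1 : DirichletCharacter K D) K ℓ) (b ℓ)
  have hW : ∀ z, z ∈ W ↔ ∀ ℓ : GoodIdx S, heckeT' hD (1 : DirichletCharacter K D) K ℓ z = b ℓ • z :=
    fun z => by simp [W, Submodule.mem_iInf]
  obtain ⟨x, hxW, hx0, hxc⟩ := Ribet.Avoid.Rank.exists_common_eigen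
    (fun _ : Unit => heckeT' hD (1 : DirichletCharacter K D) K q) (fun _ _ => Commute.refl _) W
    (fun _ z hz => (hW _).2 fun ℓ => by
      rw [← Module.End.mul_apply, (Ribet.Twisted.heckeT'_comm hD _ ℓ q).eq, Module.End.mul_apply,
        (hW z).1 hz ℓ, map_smul])
    ((Submodule.ne_bot_iff W).2 ⟨x₀, (hW _).2 fun ℓ => hx₀b ℓ ℓ.2.1 ℓ.2.2, hx₀⟩)
  obtain ⟨c, hc⟩ := hxc ()
  exact ⟨b, c, x, hx0, hcong, fun ℓ h h' => (hW x).1 hxW ⟨ℓ, h, h'⟩, hc⟩

end Exists

end Fermat.Agent.Lifting

end
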