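import Fermat.Agent.Lifting.FSetup
import Fermat.Agent.Lifting.CRaise
import Fermat.Agent.Lifting.EConditions
import Fermat.Agent.Lifting.FBaseTools
import Fermat.Agent.Lifting.FBasePoint
import Fermat.Agent.TW.LocalCondBTame

/-!
# Modularity lifting: the bottom module has a part new at `p`

When `p ∣ N` the part at the residual system grows by more than a factor two from the level
without `p`: otherwise `α^* α` would be bijective, which fails as `T'_p` has residual eigenvalue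
`±1` there (the unit root).
-/

set_option autoImplicit false

noncomputable section

namespace Fermat.Agent.Lifting

open IsLocalRing Module
open Fermat.Agent.Ribet.Twisted (CohL heckeT' HasSystem)

local notation "ℚbar" => AlgebraicClosure ℚ
local notation "Γℚ" => AlgebraicClosure ℚ ≃ₐ[ℚ] AlgebraicClosure ℚ

/-- Leaving out more primes only enlarges the part. -/
theorem exists_ne_zero_of_subset {k : Type*} [Field k] {L : ℕ} [NeZero L] {S₀ S : Finset ℕ}
    (hS : S₀ ⊆ S) (abar : ℕ → k)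
    (h : ∃ x : MPart (one_dvd L) (1 : DirichletCharacter k 1) (RingHom.id k)
      (fun ℓ : GoodIdx S₀ => abar ℓ) k, x ≠ 0) :
    0 < finrank k (MPart (one_dvd L) (1 : DirichletCharacter k 1) (RingHom.id k)
      (fun ℓ : GoodIdx S => abar ℓ) k) := by
  obtain ⟨x, hx⟩ := h
  obtain ⟨y, rfl⟩ := toPart_surjective (one_dvd L) (1 : DirichletCharacter k 1) (RingHom.id k)
    (fun ℓ : GoodIdx S₀ => abar ℓ) k x
  have := finite_mPart (one_dvd L) (1 : DirichletCharacter k 1) (RingHom.id k)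
    (fun ℓ : GoodIdx S => abar ℓ) k
  refine Module.finrank_pos_iff_exists_ne_zero.2
    ⟨toPart (one_dvd L) (1 : DirichletCharacter k 1) (RingHom.id k)
      (fun ℓ : GoodIdx S => abar ℓ) k y, fun h0 => hx ?_⟩
  rw [toPart_eq_zero] at h0 ⊢
  obtain ⟨t, ht, hty⟩ := h0
  let f : GoodIdx S → GoodIdx S₀ := fun ℓ => ⟨ℓ, ℓ.2.1, fun h => ℓ.2.2 (hS h)⟩
  have hf : (cohAct (one_dvd L) (1 : DirichletCharacter k 1) S₀ k).comp (MvPolynomial.rename f) =
      cohAct (one_dvd L) (1 : DirichletCharacter k 1) S k :=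
    MvPolynomial.algHom_ext fun ℓ => by simp [f]
  refine ⟨MvPolynomial.rename f t, ?_, ?_⟩
  · rwa [sysEval, MvPolynomial.coe_eval₂Hom, MvPolynomial.eval₂_rename]
  · rw [← AlgHom.comp_apply, hf, hty]

/-- Trace identity for two upper triangular operators. -/
theorem unitRoot_identity {R : Type} [CommRing R] {V : Type} [AddCommGroup V] [Module R V]
    (b : Basis (Fin 2) R V) {F T : Module.End R V} {z : R}
    (hF : ∀ v ∈ R ∙ b 0, F v ∈ R ∙ b 0) (hFz : ∀ v, F v - z • v ∈ R ∙ b 0)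
    (hT : ∀ v, T v - v ∈ R ∙ b 0) :
    LinearMap.trace R V (F * T) - LinearMap.det T * LinearMap.trace R V F =
      (1 - LinearMap.det T) * z := by
  classical
  have hcoord : ∀ v ∈ R ∙ b 0, b.repr v 1 = 0 := fun v hv => by
    obtain ⟨r, rfl⟩ := Submodule.mem_span_singleton.1 hv
    simp
  have f10 : b.repr (F (b 0)) 1 = 0 := hcoord _ (hF _ (Submodule.mem_span_singleton_self _))
  have f11 : b.repr (F (b 1)) 1 = z := by
    simpa [sub_eq_zero] using hcoord _ (hFz (b 1))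
  have t10 : b.repr (T (b 0)) 1 = 0 := by simpa using hcoord _ (hT (b 0))
  have t11 : b.repr (T (b 1)) 1 = 1 := by simpa [sub_eq_zero] using hcoord _ (hT (b 1))
  rw [LinearMap.trace_eq_matrix_trace R b, LinearMap.trace_eq_matrix_trace R b,
    ← LinearMap.det_toMatrix b, LinearMap.toMatrix_mul, Matrix.det_fin_two]
  simp only [Matrix.trace_fin_two, Matrix.mul_apply, Fin.sum_univ_two, LinearMap.toMatrix_apply,
    f10, f11, t10, t11]
  ring

/-- A congruent eigenclass of a level prime to `p` has `a_p ^ 2` residually `1`. -/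
theorem FSetup.not_isUnit_one_sub_sq (s : FSetup) (hpN : s.p ∣ s.N) {L D : ℕ} [NeZero L]
    {hD : D ∣ L} (hpL : ¬ s.p ∣ L) {S : Finset ℕ} {c : s.Kbar} (P : s.BasePoint hD S c) :
    ¬ IsUnit (1 - P.a s.p ^ 2) := by
  set f := ResidueField.map (algebraMap s.O P.O') with hf
  obtain ⟨ρ, hρ, -, ⟨e⟩, -⟩ := P.point.exists_rep
  have hord : (GaloisRepAdic.ofResidualGaloisRep (s.ρbar.baseChangeAlong f)).IsOrdinaryAt s.p :=
    isOrdinaryAt_residual f s.ρbar _ ⟨ResidualGaloisRep.Equiv.refl _⟩ (s.isOrdinaryAt_ρbar hpN)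
  obtain ⟨U, z, ⟨b, hb⟩, hUD, hUI, hz, hzeq, hUF⟩ :=
    P.point.exists_unitRoot hρ hpL hord P.system (padicPlace s.p) TW.LocalCondB.liesOverPrime_padicPlace'
  subst hb
  have key := unitRoot_identity b
    (hUD _ s.hfrobP.mem_decompositionSubgroup) (hUF _ s.hfrobP) (hUI _ s.htauP)
  have htr : ∀ σ : Γℚ, residue P.O' (LinearMap.trace P.O' ρ.V (ρ.ρ σ)) =
      f (residue s.O (s.rW σ).trace) := fun σ => by
    rw [FSetup.residue_trace_rW, ← Ribet.Avoid.trace_extend,
      show residue P.O' (LinearMap.trace P.O' ρ.V (ρ.ρ σ)) =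
        LinearMap.trace _ _ (ρ.residual.ρ σ) from (LinearMap.trace_baseChange (ρ.ρ σ) _).symm,
      ← LinearMap.trace_conj' (ρ.residual.ρ σ) e.toLinearEquiv]
    congr 1
    refine LinearMap.ext fun v => ?_
    rw [LinearEquiv.conj_apply_apply, e.map_apply, LinearEquiv.apply_symm_apply]
  have hdet : ∀ σ : Γℚ, residue P.O' (LinearMap.det (ρ.ρ σ)) =
      f (residue s.O (s.rW σ).det) := fun σ => by
    rw [FSetup.residue_det_rW, ← Ribet.Avoid.det_extend,
      show residue P.O' (LinearMap.det (ρ.ρ σ)) = LinearMap.det (ρ.residual.ρ σ) from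
        (LinearMap.det_baseChange (ρ.ρ σ)).symm,
      ← LinearMap.det_conj (ρ.residual.ρ σ) e.toLinearEquiv]
    congr 1
    refine LinearMap.ext fun v => ?_
    rw [LinearMap.comp_apply, LinearMap.comp_apply, LinearEquiv.coe_coe, LinearEquiv.coe_coe,
      e.map_apply, LinearEquiv.apply_symm_apply]
  rw [← map_mul] at key
  replace key := congrArg (residue P.O') key
  simp only [RingHom.map_mul, RingHom.map_sub, RingHom.map_one, htr, hdet] at key
  have hW := congrArg (fun x => f (residue s.O x)) (s.hPW hpN)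
  simp only [RingHom.map_mul, RingHom.map_sub, RingHom.map_one] at hW
  rw [hW] at key
  have hd : (1 : ResidueField P.O') - f (residue s.O (s.rW s.tauP).det) ≠ 0 := by
    have h := ((s.hunitP.map (residue s.O)).map f).ne_zero
    rwa [map_sub, map_one, map_sub, map_one] at h
  have hzeps : residue P.O' z = f (residue s.O s.epsP) := (mul_left_cancel₀ hd key).symm
  have hp0 : residue P.O' (s.p : P.O') = 0 := (residue_eq_zero_iff _).2 P.point.p_mem
  have h2 := congrArg (residue P.O') hzeq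
  rw [map_add, map_sub, map_pow, map_mul, map_zero, hp0, add_zero] at h2
  have hz0 : residue P.O' z ≠ 0 := (residue_ne_zero_iff_isUnit z).2 hz
  have hap : residue P.O' (P.a s.p) = residue P.O' z := by
    refine mul_right_cancel₀ hz0 ?_
    linear_combination -h2
  have he2 : f (residue s.O s.epsP) ^ 2 = 1 := by
    rw [← map_pow, ← map_pow, s.hepsP, map_one, map_one]
  intro hu
  refine (residue_ne_zero_iff_isUnit _).2 hu ?_
  rw [map_sub, map_one, map_pow, hap, hzeps, he2, sub_self]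

theorem two_mul_finrank_lt {s : FSetup} {r n : ℕ} (d : FAux s r n) (hpN : s.p ∣ s.N) (L : ℕ)
    [NeZero L] [NeZero (L * s.p)] (hL : L * s.p = d.levQ 0) (hD : d.DQ ∣ L) :
    2 * finrank s.kk (MPart hD (1 : DirichletCharacter s.kk d.DQ) (RingHom.id _)
        (fun ℓ : GoodIdx d.S => s.abar ℓ) s.kk) <
      finrank s.kk (MPart (hDq hD s.p) (1 : DirichletCharacter s.kk d.DQ) (RingHom.id _)
        (fun ℓ : GoodIdx d.S => s.abar ℓ) s.kk) := by
  classical
  have hS : s.S0 ⊆ d.S := Finset.subset_union_left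
  have hpS : s.p ∈ d.S := hS ((s.hS0 s.p).2 (Or.inl rfl))
  have hlev : L * s.p = s.N * s.aux * d.DQ := by rw [hL, FAux.levQ, s.lev_zero]
  have hdiv : ∀ q : ℕ, q.Prime → q ∣ L * s.p → q ∣ s.N * s.aux ∨ ∃ j, q = d.Q j := by
    intro q hq hqd
    rw [hlev] at hqd
    rcases hq.dvd_mul.1 hqd with h | h
    · exact Or.inl h
    · obtain ⟨j, -, hj⟩ := hq.prime.exists_mem_finset_dvd h
      exact Or.inr ⟨j, (Nat.prime_dvd_prime_iff_eq hq (d.prime j)).1 hj⟩
  have hLS' : ∀ q : ℕ, q.Prime → q ∣ L * s.p → q ∈ d.S := fun q hq hqd => by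
    rcases hdiv q hq hqd with h | ⟨j, rfl⟩
    · exact hS ((s.hS0 q).2 (Or.inr (Or.inl ⟨hq, h⟩)))
    · exact Finset.mem_union_right _ (Finset.mem_image_of_mem _ (Finset.mem_univ j))
  have hLS : ∀ q : ℕ, q.Prime → q ∣ L → q ∈ d.S := fun q hq h =>
    hLS' q hq (h.trans (Nat.dvd_mul_right _ _))
  have hsqN : Squarefree (s.N * s.aux) := by
    rcases s.haux with h | ⟨h, -, hN, -⟩
    · rw [h, mul_one]; exact s.hN
    · exact (Nat.squarefree_mul ((h.coprime_iff_not_dvd.2 hN).symm)).2 ⟨s.hN, h.squarefree⟩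
  have hsq : Squarefree (L * s.p) := by
    rw [hlev]
    refine (Nat.squarefree_mul (Nat.Coprime.prod_right fun j _ => ?_)).2
      ⟨hsqN, Finset.squarefree_prod_of_pairwise_isCoprime (fun i _ j _ hij => by
        rw [Function.onFun, ← Nat.coprime_iff_isRelPrime]
        exact (Nat.coprime_primes (d.prime i) (d.prime j)).mpr fun h => hij (d.inj h))
        fun j _ => (d.prime j).squarefree⟩
    exact ((d.prime j).coprime_iff_not_dvd.2 fun h =>
      d.notMem j ((s.hS0 _).2 (Or.inr (Or.inl ⟨d.prime j, h⟩)))).symm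
  have hpL : ¬ s.p ∣ L := fun h =>
    s.hp.out.ne_one (Nat.isUnit_iff.1 (hsq s.p (mul_dvd_mul h dvd_rfl)))
  have hLsq : Squarefree L := hsq.squarefree_of_dvd (Nat.dvd_mul_right _ _)
  have h2 : IsUnit (2 : s.O) := isUnit_two_of_mem s.hp.out s.hp2 s.hpO
  have h3x : IsUnit (3 : s.O) ∨ ∃ x : ℕ, x % 3 = 2 ∧ x.Prime ∧ x ∣ s.N * s.aux ∧ x ∣ L := by
    by_cases hp3 : s.p = 3
    · obtain ⟨x, hx, hxd, hxm⟩ := s.hthree hp3
      refine Or.inr ⟨x, hxm, hx, hxd, ?_⟩
      have hxL : x ∣ L * s.p := hlev ▸ dvd_mul_of_dvd_left hxd _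
      refine (hx.dvd_mul.1 hxL).resolve_right fun h => ?_
      rw [(Nat.prime_dvd_prime_iff_eq hx s.hp.out).1 h, hp3] at hxm
      omega
    · exact Or.inl (by simpa using s.isUnit_natCast Nat.prime_three (Ne.symm hp3))
  have h3 : Ribet.Avoid.EllipticOK s.O L :=
    h3x.imp id fun ⟨x, hx, h, _, hL⟩ => ⟨x, hx, h, hL⟩
  have hEis : ∀ (m : ℕ), 0 < m → Ribet.Avoid.HasNonEisenstein m s.abar d.S := fun m hm => by
    obtain ⟨ℓ, hℓ, hℓS, hℓm, hne⟩ := s.hEis m d.S hm
    exact ⟨ℓ, hℓ, hℓS, hℓm, hne⟩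
  have ha : NonEis (L * s.p) d.S (fun ℓ : GoodIdx d.S => s.abar ℓ) := by
    refine ⟨?_, ?_⟩
    · obtain ⟨ℓ, hℓ, hℓS, hℓm, hne⟩ := hEis (L * s.p) (Nat.pos_of_ne_zero (NeZero.ne _))
      exact ⟨⟨ℓ, hℓ, hℓS⟩, hℓm, hne⟩
    · obtain ⟨ℓ, hℓ, hℓS, hne⟩ := s.hIhara d.S
      exact ⟨⟨ℓ, hℓ, hℓS⟩, fun h => hℓS (hLS' ℓ hℓ h), hne⟩
  have h2k : (2 : s.kk) ≠ 0 := by
    have h := (h2.map (residue s.O)).ne_zero
    rwa [map_ofNat] at h
  have hpk : (s.p : s.kk) = 0 := by
    rw [← map_natCast (residue s.O)]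
    exact (residue_eq_zero_iff _).2 s.hpO
  have hDne : NeZero d.DQ := inferInstance
  by_contra hle
  push Not at hle
  rcases Nat.eq_zero_or_pos (finrank s.kk (MPart hD (1 : DirichletCharacter s.kk d.DQ)
      (RingHom.id _) (fun ℓ : GoodIdx d.S => s.abar ℓ) s.kk)) with h0 | h0
  · -- the residual system occurs at the level with `p`
    rw [h0, mul_zero, Nat.le_zero] at hle
    have : NeZero (s.N * s.aux) := ⟨hsqN.ne_zero⟩
    have hdvd : s.N * s.aux ∣ L * s.p := hlev ▸ Nat.dvd_mul_right _ _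
    have h3N : Ribet.Avoid.EllipticOK s.O (s.N * s.aux) :=
      h3x.imp id fun ⟨x, hx, h, hN, _⟩ => ⟨x, hx, h, hN⟩
    have h3p : Ribet.Avoid.EllipticOK s.O (L * s.p) :=
      h3.imp id fun ⟨x, hx, h, hL⟩ => ⟨x, hx, h, hL.trans (Nat.dvd_mul_right _ _)⟩
    obtain ⟨b, c, x, hx, hcong, hxb, -⟩ := exists_congruent_eigen (one_dvd (s.N * s.aux)) h2 h3N
      s.abar (fun q hq h => hLS' q hq (h.trans hdvd)) (hEis 1 one_pos)
      (algebraMap s.O s.Kbar) s.coeKbar_injective s.p
      (exists_ne_zero_of_subset hS s.abar (s.hres (s.N * s.aux) rfl))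
    have : CharZero (FractionRing s.O) :=
      charZero_of_injective_algebraMap (IsFractionRing.injective s.O (FractionRing s.O))
    have hsys := Ribet.Avoid.hasSystem_of_dvd d.S hdvd hLS' ⟨x, hx, hxb⟩
    have hpos := Ribet.Avoid.finrank_pos_of_system (one_dvd (L * s.p)) d.S h2 h3p (residue s.O)
      residue_surjective (1 : DirichletCharacter s.O 1) s.abar hLS' (algebraMap s.O s.Kbar)
      (a := b) (by rw [MulChar.ringHomComp_one]; exact hsys) hcong
    rw [MulChar.ringHomComp_one, ← Ribet.Avoid.finrank_locCoh_one (hDq hD s.p) d.S s.abar hLS',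
      ← finrank_mPart_eq_locCoh, hle] at hpos
    exact lt_irrefl 0 hpos
  · -- otherwise a congruent eigenvalue of `T'_p` would square to a non-residual `1`
    have hinj : ∀ ψ₀ : DirichletCharacter s.kk d.DQ, ψ₀ = 1 → Function.Injective
        (1 - partT hD ψ₀ (RingHom.id _) (fun ℓ : GoodIdx d.S => s.abar ℓ) s.kk s.p *
          partT hD ψ₀ (RingHom.id _) (fun ℓ : GoodIdx d.S => s.abar ℓ) s.kk s.p :
          Module.End s.kk _) := by
      rintro _ rfl
      exact injective_one_sub_sq hD _ hpL hpS hpk h2k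
        ((h3.elliptic3).map (residue s.O)) ha hle
    obtain ⟨g, t, ht, hrel⟩ := exists_inverse_relation hD (1 : DirichletCharacter s.O d.DQ)
      (residue s.O) (fun ℓ : GoodIdx d.S => s.abar ℓ) residue_surjective h2 h3.elliptic3
      (NonEis.of_mul _ ha) s.p (hinj _ (MulChar.ringHomComp_one _))
    obtain ⟨b, c, x, hx, hcong, hxb, hxc⟩ := exists_congruent_eigen hD h2 h3 s.abar hLS
      (hEis d.DQ (Nat.pos_of_ne_zero (NeZero.ne _)))
      (algebraMap s.O s.Kbar) s.coeKbar_injective s.p h0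
    obtain ⟨P⟩ := s.exists_basePoint hD hLsq hS hLS hcong hx hxb hxc
    have hx' : ∃ x : CohL hD ((1 : DirichletCharacter s.O d.DQ).ringHomComp
        (algebraMap s.O s.Kbar)) s.Kbar, x ≠ 0 ∧
        (∀ ℓ : GoodIdx d.S, heckeT' hD _ s.Kbar ℓ x = b ℓ • x) ∧
        heckeT' hD _ s.Kbar s.p x = c • x := by
      rw [MulChar.ringHomComp_one]
      exact ⟨x, hx, fun ℓ => hxb ℓ ℓ.2.1 ℓ.2.2, hxc⟩
    obtain ⟨y, hy, hyb, hyc⟩ := hx'
    have hinv := eigen_inverse hD (1 : DirichletCharacter s.O d.DQ) (residue s.O)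
      (fun ℓ : GoodIdx d.S => s.abar ℓ) (algebraMap s.O s.Kbar) h2 h3 s.abar (fun _ => rfl) hcong
      hy hyb hyc ht hrel
    refine s.not_isUnit_one_sub_sq hpN hpL P (IsUnit.of_mul_eq_one
      (g.eval₂ (algebraMap s.O P.O') (1 - P.a s.p ^ 2)) (P.emb_inj ?_))
    rw [map_mul, map_one, Polynomial.hom_eval₂, P.emb_comp, map_sub, map_one, map_pow, P.emb_a_p]
    exact hinv

end Fermat.Agent.Lifting

end
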