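import Fermat.Agent.Lifting.BPlaces
import Fermat.Agent.TW.Engine

/-!
# The dimension bound of the gauged generation theorem from the Taylor-Wiles primes

At the places `qs a` where the level is raised the condition is to be a coboundary on the two
tame generators; at the primes of `Smin` the local conditions are arbitrary, of dimension at most
`3 + δ`.  The gauge directions at the places cancel their local invariants.
-/

set_option autoImplicit false
set_option linter.style.haveILetI false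

noncomputable section

open Polynomial

namespace Fermat.Agent.Lifting

open Fermat.Agent

local notation "Γℚ" => AlgebraicClosure ℚ ≃ₐ[ℚ] AlgebraicClosure ℚ

variable {k : Type} [Field k]

/-- Classes of finite level, unramified outside `T`, with conditions `L` at the primes of `S`. -/
def selmerCond (T S : Finset ℕ)
    (L : ∀ (q : ℕ) [Fact q.Prime], Submodule k (TW.GalQp q → Matrix (Fin 2) (Fin 2) k)) :
    Submodule k (Γℚ → Matrix (Fin 2) (Fin 2) k) where
  carrier := {c | c ∈ TW.globalFiniteLevel k ∧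
    (∀ q : ℕ, q.Prime → q ∉ T → ∀ P : ValuationSubring (AlgebraicClosure ℚ), P.LiesOverPrime q →
      ∀ σ ∈ P.inertiaSubgroupIn ℚ, c σ = 0) ∧
    ∀ (q : ℕ) [Fact q.Prime], q ∈ S → TW.resLoc q c ∈ L q}
  add_mem' ha hb := ⟨add_mem ha.1 hb.1, fun q hq hqT P hP σ hσ => by
      simp [ha.2.1 q hq hqT P hP σ hσ, hb.2.1 q hq hqT P hP σ hσ],
    fun q _ hqS => by rw [map_add]; exact add_mem (ha.2.2 q hqS) (hb.2.2 q hqS)⟩
  zero_mem' := ⟨zero_mem _, fun _ _ _ _ _ _ _ => rfl,
    fun q _ _ => by rw [map_zero]; exact zero_mem _⟩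
  smul_mem' t a ha := ⟨Submodule.smul_mem _ t ha.1, fun q hq hqT P hP σ hσ => by
      simp [ha.2.1 q hq hqT P hP σ hσ],
    fun q _ hqS => by rw [map_smul]; exact Submodule.smul_mem _ t (ha.2.2 q hqS)⟩

variable (ρbar : ResidualGaloisRep k)

/-- Coboundaries are global cocycles outside a set containing the ramified primes. -/
theorem adCoboundaries_le_globalCocycles {T : Finset ℕ}
    (hram : ∀ q : ℕ, q.Prime → q ∉ T → ρbar.IsUnramifiedAt q) :
    TW.adCoboundaries (TW.matRep ρbar) ≤ TW.globalCocycles ρbar T := by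
  rintro _ ⟨η, hη, rfl⟩
  replace hη : η.trace = 0 := hη
  set r := TW.matRep ρbar
  obtain ⟨L, hL, hLr⟩ := TW.matRep_factorsThroughFiniteLevel ρbar
  have hone : ∀ s, r s = 1 → r s⁻¹ = 1 := fun s hs => by
    have h : r s⁻¹ * r s = 1 := by rw [← map_mul, inv_mul_cancel, map_one]
    rwa [hs, mul_one] at h
  refine ⟨⟨(TW.mem_adCocycles_iff r _).mpr ⟨fun g => ?_, fun g h => ?_⟩, L, hL, fun g s hs => ?_⟩,
    fun q hq hqT P hP σ hσ => ?_⟩
  · rw [TW.adD_apply, Matrix.trace_sub, Matrix.trace_mul_comm, ← mul_assoc, ← map_mul,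
      inv_mul_cancel, map_one, one_mul, hη, sub_zero]
  · simp only [TW.adD_apply, map_mul, mul_inv_rev, mul_sub, sub_mul, mul_assoc]
    abel
  · have hs1 : r s = 1 := hLr s hs
    simp only [TW.adD_apply, map_mul, mul_inv_rev, hs1, hone s hs1, mul_one, one_mul]
  · have hσ1 : r σ = 1 := (TW.matRep_eq_one_iff ρbar σ).2 (hram q hq hqT P hP σ hσ)
    simp [TW.adD_apply, hσ1, hone σ hσ1]

/-- **The Selmer bound.**  For every level `n` there are auxiliary primes such that the hypothesis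
`hbound` of `exists_surjective_gauged` holds with `g` variables as soon as
`r + 2 + ∑ δ ≤ g + 3` (`g` may be negative: this bounds `r` from below). -/
theorem exists_taylorWilesPrimes_gaugeBound [Finite k] (p : ℕ) [Fact p.Prime] [CharP k p]
    (hp2 : p ≠ 2) (habs : ρbar.IsAbsolutelyIrreducible)
    (hdet : (GaloisRepAdic.ofResidualGaloisRep ρbar).DetIsCyclotomic p)
    (hsplit : ∀ σ : Γℚ, ∃ α β : k, LinearMap.charpoly (ρbar.ρ σ) = (X - C α) * (X - C β))
    (hTW : ∀ (K : Type) [Field K] [Algebra k K] (G : Subgroup Γℚ), G.index = 2 →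
      ∀ V : Submodule K (ρbar.baseChange K).V,
        (∀ σ ∈ G, ∀ x ∈ V, (ρbar.baseChange K).ρ σ x ∈ V) → V = ⊥ ∨ V = ⊤)
    (Smin : Finset ℕ) (hpS : p ∈ Smin) (hSmin : ∀ q ∈ Smin, q.Prime)
    {K : ℕ} (qs : Fin K → ℕ) (hqs : ∀ a, (qs a).Prime) (hqinj : Function.Injective qs)
    (hqSmin : ∀ a, qs a ∉ Smin)
    (hram : ∀ q : ℕ, q.Prime → q ∉ Smin → ρbar.IsUnramifiedAt q) :
    ∃ r : ℕ, ∀ (n : ℕ) (avoid : Finset ℕ), ∃ qv : Fin r → ℕ, Function.Injective qv ∧
      (∀ i, (qv i).Prime ∧ qv i ∉ Smin ∪ Finset.univ.image qs ∪ avoid ∧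
        p ^ (n + 1) ∣ qv i - 1) ∧
      (∀ i, ∀ P : ValuationSubring (AlgebraicClosure ℚ), P.LiesOverPrime (qv i) →
        ∀ φ : Γℚ, P.IsFrobeniusAt φ (qv i) →
          ∃ α β : k, α ≠ β ∧ LinearMap.charpoly (ρbar.ρ φ) = (X - C α) * (X - C β)) ∧
      ∀ (L : ∀ (q : ℕ) [Fact q.Prime], Submodule k (TW.GalQp q → Matrix (Fin 2) (Fin 2) k))
        (δ : ℕ → ℤ),
        (∀ (q : ℕ) [Fact q.Prime], q ∈ Smin →
          TW.adCoboundaries (TW.locRep ρbar q) ≤ L q ∧ FiniteDimensional k (L q) ∧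
            (Module.finrank k (L q) : ℤ) ≤ 3 + δ q) →
        ∀ (φ τ : Fin K → Γℚ),
          (∀ a, haveI := Fact.mk (hqs a); IsPlaceGenerators p (qs a) (φ a) (τ a)) →
        ∀ g : ℤ, (r : ℤ) + ∑ q ∈ Smin, δ q ≤ g + 1 →
        ∀ W : Submodule k (Γℚ → Matrix (Fin 2) (Fin 2) k), FiniteDimensional k W →
          W ≤ (TW.adCocycles (TW.matRep ρbar) ⊓
              selmerCond (Smin ∪ Finset.univ.image qs ∪ Finset.univ.image qv) Smin L) ⊔
            TW.adCoboundaries (TW.matRep ρbar) →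
          (∀ a, ∀ c ∈ W, ∃ η : Matrix (Fin 2) (Fin 2) k, η.trace = 0 ∧
            c (φ a) = TW.adD (TW.matRep ρbar) η (φ a) ∧
            c (τ a) = TW.adD (TW.matRep ρbar) η (τ a)) →
          ((Module.finrank k W +
            ∑ a, Module.finrank k (centralTrZero (TW.matRep ρbar (φ a))) : ℕ) : ℤ) ≤ g + 3 := by
  classical
  set Sq := Finset.univ.image qs with hSq
  obtain ⟨r, hr⟩ := TW.exists_taylorWilesPrimes_finrank_le p hp2 ρbar habs hdet hsplit hTW
    (Smin ∪ Sq) (Finset.mem_union_left _ hpS)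
    (fun q hq => (Finset.mem_union.1 hq).elim (hSmin q) fun h => by
      obtain ⟨a, -, rfl⟩ := Finset.mem_image.1 h
      exact hqs a)
    fun q hq hqS => hram q hq fun h => hqS (Finset.mem_union_left _ h)
  refine ⟨r, fun n avoid => ?_⟩
  obtain ⟨qv, hinj, hqv, hdist, hbound⟩ := hr n avoid
  refine ⟨qv, hinj, hqv, hdist, fun L δ hL φ τ hgen g hg W hWfin hW hWloc => ?_⟩
  haveI := hWfin
  set T := Smin ∪ Sq ∪ Finset.univ.image qv with hT
  have h2 : (2 : k) ≠ 0 := fun h => hp2 ((Nat.prime_dvd_prime_iff_eq (Fact.out : p.Prime)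
    Nat.prime_two).mp ((CharP.cast_eq_zero_iff k p 2).mp (by exact_mod_cast h)))
  -- the local conditions at all the primes
  let L' : ∀ (q : ℕ) [Fact q.Prime], Submodule k (TW.GalQp q → Matrix (Fin 2) (Fin 2) k) :=
    fun q _ => if q ∈ Smin then L q else TW.adCoboundaries (TW.locRep ρbar q)
  let h0 : ℕ → ℕ := fun q => if h : q.Prime then
    (haveI := Fact.mk h; Module.finrank k (TW.adInvariants (TW.locRep ρbar q))) else 0
  let δ' : ℕ → ℤ := fun q => if q ∈ Smin then δ q else -(h0 q : ℤ)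
  have hL' : ∀ (q : ℕ) [Fact q.Prime], q ∈ Smin ∪ Sq →
      TW.adCoboundaries (TW.locRep ρbar q) ≤ L' q ∧ FiniteDimensional k (L' q) ∧
        (Module.finrank k (L' q) : ℤ) ≤ 3 + δ' q := by
    intro q hqF hq
    by_cases h : q ∈ Smin
    · rw [show L' q = L q from if_pos h, show δ' q = δ q from if_pos h]
      exact hL q h
    · rw [show L' q = TW.adCoboundaries (TW.locRep ρbar q) from if_neg h,
        show δ' q = -(Module.finrank k (TW.adInvariants (TW.locRep ρbar q)) : ℤ) from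
          (if_neg h).trans (by rw [show h0 q = _ from dif_pos hqF.out])]
      haveI : FiniteDimensional k (TW.adCoboundaries (TW.locRep ρbar q)) := by
        unfold TW.adCoboundaries; infer_instance
      refine ⟨le_rfl, inferInstance, ?_⟩
      have := congrArg (Nat.cast : ℕ → ℤ)
        (TW.finrank_adCoboundaries_add_adInvariants (TW.locRep ρbar q) h2)
      push_cast at this
      linarith
  have hcob : TW.adCoboundaries (TW.matRep ρbar) ≤ TW.globalCocycles ρbar T :=
    adCoboundaries_le_globalCocycles ρbar fun q hq hqT => hram q hq fun h =>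
      hqT (Finset.mem_union_left _ (Finset.mem_union_left _ h))
  have hcobloc : ∀ (q : ℕ) [Fact q.Prime], ∀ c ∈ TW.adCoboundaries (TW.matRep ρbar),
      TW.resLoc q c ∈ TW.adCoboundaries (TW.locRep ρbar q) := by
    rintro q _ _ ⟨η, hη, rfl⟩
    exact ⟨η, hη, funext fun x => by simp [TW.resLoc, TW.locRep, LinearMap.funLeft, map_inv]⟩
  have hWT : W ≤ TW.globalCocycles ρbar T := hW.trans
    (sup_le (fun c hc => ⟨⟨hc.1, hc.2.1⟩, hc.2.2.1⟩) hcob)
  have hWL : ∀ (q : ℕ) [Fact q.Prime], q ∈ Smin ∪ Sq → ∀ c ∈ W, TW.resLoc q c ∈ L' q := by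
    intro q hqF hq c hc
    by_cases h : q ∈ Smin
    · simp only [L', if_pos h]
      obtain ⟨c₁, hc₁, c₂, hc₂, rfl⟩ := Submodule.mem_sup.mp (hW hc)
      rw [map_add]
      exact add_mem (hc₁.2.2.2 q h) ((hL q h).1 (hcobloc q c₂ hc₂))
    · simp only [L', if_neg h]
      obtain ⟨a, -, rfl⟩ := Finset.mem_image.1 ((Finset.mem_union.1 hq).resolve_left h)
      obtain ⟨η, hη, h1, h2⟩ := hWloc a c hc
      exact resLoc_mem_adCoboundaries (hgen a) ρbar
        (fun x hx => (TW.matRep_eq_one_iff ρbar x).2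
          (hram _ (hqs a) (hqSmin a) _ (padicPlace_liesOverPrime (qs a)) x hx))
        (hWT hc).1 hη h1 h2
  obtain ⟨hfin, hle⟩ := hbound L' δ' hL' W hWT hWL
  haveI := hfin
  have h1 := Submodule.finrank_mono (le_sup_left : W ≤ W ⊔ TW.adCoboundaries (TW.matRep ρbar))
  have hsum : ∑ q ∈ Smin ∪ Sq, δ' q = (∑ q ∈ Smin, δ q) - ∑ a, (h0 (qs a) : ℤ) := by
    rw [Finset.sum_union (Finset.disjoint_right.2 fun q hq h => by
      obtain ⟨a, -, rfl⟩ := Finset.mem_image.1 hq
      exact hqSmin a h), hSq, Finset.sum_image (fun a _ b _ h => hqinj h),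
      sub_eq_add_neg, ← Finset.sum_neg_distrib]
    exact congrArg₂ _ (Finset.sum_congr rfl fun q hq => if_pos hq)
      (Finset.sum_congr rfl fun a _ => if_neg (hqSmin a))
  have hcentral : ∀ a, Module.finrank k (centralTrZero (TW.matRep ρbar (φ a))) ≤ h0 (qs a) := by
    intro a
    haveI := Fact.mk (hqs a)
    simp only [h0, dif_pos (hqs a)]
    exact Submodule.finrank_mono (centralTrZero_le_adInvariants (hgen a) ρbar
      fun x hx => (TW.matRep_eq_one_iff ρbar x).2
        (hram _ (hqs a) (hqSmin a) _ (padicPlace_liesOverPrime (qs a)) x hx))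
  have hsum2 : (∑ a, Module.finrank k (centralTrZero (TW.matRep ρbar (φ a))) : ℕ) ≤
      ∑ a, h0 (qs a) := Finset.sum_le_sum fun a _ => hcentral a
  rw [hsum, ← Nat.cast_sum] at hle
  omega

end Fermat.Agent.Lifting
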