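import Fermat.Agent.Lifting.FSetup
import Fermat.Agent.Lifting.BGaugeDefs
import Fermat.Agent.TW.Engine
import Fermat.Agent.TW.LocalAux
import Fermat.Agent.TW.LocalFlatBaer
import Fermat.Agent.Lifting.FSelmer
import Fermat.Agent.Ribet.Local
import Fermat.Agent.Ribet.Avoid.AuxPrimes
import Fermat.Agent.TW.LocalFlatBound

/-!
# Modularity lifting: the tangent bounds of the two worlds and the Taylor-Wiles primes
-/

set_option autoImplicit false

noncomputable section

namespace Fermat.Agent.Lifting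

open IsLocalRing Module

local notation "Γℚ" => AlgebraicClosure ℚ ≃ₐ[ℚ] AlgebraicClosure ℚ

namespace FSetup

variable (s : FSetup)

/-- The global adjoint functions. -/
abbrev Fun : Type := Γℚ → Matrix (Fin 2) (Fin 2) s.kk

/-- `c` unipotent at the ramified primes of `N` other than `p`. -/
def unipCond : Submodule s.kk s.Fun :=
  ⨅ (x : ℕ) (hx : x.Prime) (_ : x ∣ s.N ∧ x ≠ s.p),
    haveI : Fact x.Prime := ⟨hx⟩
    (TW.unipotentLocal x (TW.locRep s.ρbar x)).comap (TW.resLoc x)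

/-- The condition of the main world at `p`. -/
def mainPCond : Submodule s.kk s.Fun :=
  if s.p ∣ s.N then (TW.ordLocal s.p (TW.locRep s.ρbar s.p)).comap (TW.resLoc s.p)
  else (TW.flatLocal s.p (TW.locRep s.ρbar s.p)).comap (TW.resLoc s.p)

/-- The element whose trace is the unit root minus its value in the strict world. -/
def uSum : Γℚ →₀ s.O :=
  (↑(s.hunitP.unit⁻¹) : s.O) •
    (Finsupp.single (s.frobP * s.tauP) 1 - Finsupp.single s.frobP (s.rW s.tauP).det)

/-- The linear form of `u` on functions. -/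
def uForm : s.Fun →ₗ[s.kk] s.kk where
  toFun c := cocycleSum (TW.matRep s.ρbar) s.uSum c
  map_add' c c' := by
    simp only [cocycleSum, Pi.add_apply, add_mul, Matrix.trace_add, mul_add, Finsupp.sum_add]
  map_smul' e c := by
    simp only [cocycleSum, Pi.smul_apply, smul_mul_assoc, Matrix.trace_smul, smul_eq_mul,
      RingHom.id_apply, Finsupp.mul_sum]
    exact Finsupp.sum_congr fun γ _ => by ring

/-- The condition of the other world at `p`: flat and `u = 0`. -/
def othPCond : Submodule s.kk s.Fun :=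
  (TW.flatLocal s.p (TW.locRep s.ρbar s.p)).comap (TW.resLoc s.p) ⊓ LinearMap.ker s.uForm

/-- `W` satisfies a bound `g`: the classes which are coboundaries at the places. -/
def Bounded (C : Submodule s.kk s.Fun) (g : ℕ) : Prop :=
  ∀ W : Submodule s.kk s.Fun, FiniteDimensional s.kk W →
    W ≤ (TW.adCocycles (TW.matRep s.ρbar) ⊓ C) ⊔ TW.adCoboundaries (TW.matRep s.ρbar) →
    (∀ a, ∀ c ∈ W, ∃ η : Matrix (Fin 2) (Fin 2) s.kk, η.trace = 0 ∧
      c (s.phi a) = TW.adD (TW.matRep s.ρbar) η (s.phi a) ∧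
      c (s.tau a) = TW.adD (TW.matRep s.ρbar) η (s.tau a)) →
    finrank s.kk W +
      ∑ a, finrank s.kk (centralTrZero (TW.matRep s.ρbar (s.phi a))) ≤ g + 3

end FSetup

/-- The tangent bounds at one level. -/
structure FAux.HasBound {s : FSetup} {r n : ℕ} (d : FAux s r n) : Prop where
  main : s.Bounded (TW.globalCocycles s.ρbar d.S ⊓ s.unipCond ⊓ s.mainPCond) r
  other : s.p ∣ s.N →
    s.Bounded (TW.globalCocycles s.ρbar d.S ⊓ s.unipCond ⊓ s.othPCond) (r - 1)

/-- An element of the local Galois group inducing a Frobenius at the chosen place is one. -/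
theorem isFrobQp_of_isFrobeniusAt {q : ℕ} [Fact q.Prime] {F : TW.GalQp q}
    (hσ : (padicPlace q).IsFrobeniusAt (localGaloisToGlobal q F) q) :
    TW.LocalCondB.IsFrobQp q F := by
  intro y hy
  obtain ⟨a, ha⟩ := PoitouTate.exists_global_norm_sub_lt (q := ⟨q, Fact.out⟩) y one_pos
  have h1 : ‖padicEmbedding q a‖ ≤ 1 := by
    have h2 := IsUltrametricDist.norm_add_le_max (padicEmbedding q a - y) y
    rw [sub_add_cancel] at h2
    exact h2.trans (max_le ((norm_sub_rev _ _).trans_lt ha).le hy)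
  have haP : a ∈ padicPlace q := by
    rw [mem_padicPlace_iff]
    exact_mod_cast h1
  have h3 := TW.LocalCondB.smul_sub_pow_mem_nonunits hσ haP
  rw [TW.mem_padicPlace_nonunits_iff, map_sub, padicEmbedding_localGaloisToGlobal, map_pow] at h3
  have e : F y - y ^ q = F (y - padicEmbedding q a) +
      ((F (padicEmbedding q a) - padicEmbedding q a ^ q) + (padicEmbedding q a ^ q - y ^ q)) := by
    rw [map_sub]; ring
  rw [e]
  refine lt_of_le_of_lt (IsUltrametricDist.norm_add_le_max _ _) (max_lt ?_ ?_)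
  · rw [TW.norm_galQp]; exact ha
  · exact lt_of_le_of_lt (IsUltrametricDist.norm_add_le_max _ _)
      (max_lt h3 (TW.LocalCondB.norm_pow_sub_pow_lt h1 hy ((norm_sub_rev _ _).trans_lt ha) q))

/-- The stable line of the residual representation at `p`. -/
theorem exists_residual_line (s : FSetup) (hpN : s.p ∣ s.N) :
    ∃ v : Fin 2 → s.kk, v ≠ 0 ∧
      (∀ g, (TW.locRep s.ρbar s.p g).mulVec v ∈ s.kk ∙ v) ∧
      ∀ g ∈ TW.inertiaQp s.p, ∀ w, (TW.locRep s.ρbar s.p g).mulVec w - w ∈ s.kk ∙ v := by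
  obtain ⟨L, ⟨b, hb⟩, hD, hI, -⟩ :=
    (s.hordW hpN).2 (padicPlace s.p) (padicPlace_liesOverPrime s.p)
  have hdecomp : ∀ g : TW.GalQp s.p, ∀ w : Fin 2 → s.O,
      (residue s.O) ∘ ((s.rW (localGaloisToGlobal s.p g)).mulVec w) =
        (TW.locRep s.ρbar s.p g).mulVec ((residue s.O) ∘ w) := fun g w => funext fun i => by
    rw [Function.comp_apply, RingHom.map_mulVec, s.hred]
    rfl
  have hline : ∀ y ∈ L, (residue s.O) ∘ (y : Fin 2 → s.O) ∈
      s.kk ∙ ((residue s.O) ∘ (b 0 : Fin 2 → s.O)) := by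
    intro y hy
    rw [hb] at hy
    obtain ⟨e, he⟩ := Submodule.mem_span_singleton.mp hy
    refine Submodule.mem_span_singleton.mpr ⟨residue s.O e, funext fun i => ?_⟩
    show residue s.O e * _ = _
    rw [Function.comp_apply, ← map_mul]
    exact congrArg (residue s.O) (congrFun he i)
  refine ⟨(residue s.O) ∘ (b 0 : Fin 2 → s.O), ?_, fun g => ?_, fun g hg w => ?_⟩
  · intro h
    have hm : ∀ i, (b 0 : Fin 2 → s.O) i ∈ maximalIdeal s.O := fun i =>
      (residue_eq_zero_iff _).mp (congrFun h i)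
    let b' : Basis (Fin 2) s.O (Fin 2 → s.O) := b
    have h1 : b'.repr (b' 0) 0 ∈ maximalIdeal s.O := by
      rw [← Finset.univ_sum_single (b' 0), map_sum, Finsupp.coe_finsetSum, Finset.sum_apply]
      refine sum_mem fun i _ => ?_
      rw [show Pi.single i (b' 0 i) = b' 0 i • (Pi.single i 1 : Fin 2 → s.O) by
        rw [← Pi.single_smul, smul_eq_mul, mul_one], map_smul, Finsupp.smul_apply, smul_eq_mul]
      exact Ideal.mul_mem_right _ _ (hm i)
    rw [b'.repr_self, Finsupp.single_eq_same] at h1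
    exact (maximalIdeal.isMaximal s.O).ne_top ((Ideal.eq_top_iff_one _).mpr h1)
  · rw [← hdecomp]
    exact hline _ (hD _ (localGaloisToGlobal_mem_decompositionSubgroup s.p g) _
      (hb ▸ Submodule.mem_span_singleton_self (b 0)))
  · choose w' hw' using fun i => residue_surjective (w i)
    have hw : (residue s.O) ∘ w' = w := funext hw'
    have hsub := hI _ (TW.localGaloisToGlobal_mem_inertia s.p hg) w'
    have h2 := hline _ hsub
    rw [← hw, ← hdecomp]
    convert h2 using 1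
    funext i
    exact (map_sub (residue s.O) _ _).symm

/-- Flat classes with fixed unit root: `h⁰`. -/
theorem finrank_flat_unitRoot_le (s : FSetup) (hpN : s.p ∣ s.N) :
    ∃ L : Submodule s.kk (TW.GalQp s.p → Matrix (Fin 2) (Fin 2) s.kk),
      TW.adCoboundaries (TW.locRep s.ρbar s.p) ≤ L ∧ FiniteDimensional s.kk L ∧
      finrank s.kk L ≤ 3 ∧
      ∀ c ∈ TW.adCocycles (TW.matRep s.ρbar),
        c ∈ TW.globalFiniteLevel s.kk → c ∈ s.othPCond → TW.resLoc s.p c ∈ L := by
  haveI : CharP s.kk s.p := (CharP.charP_iff_prime_eq_zero s.hp.out).mpr (by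
    rw [← map_natCast (residue s.O), residue_eq_zero_iff]; exact s.hpO)
  obtain ⟨v, hv, hstab, hquot⟩ := exists_residual_line s hpN
  obtain ⟨F, hF⟩ := TW.exists_localGaloisToGlobal_eq s.p s.hfrobP.mem_decompositionSubgroup
  obtain ⟨t, ht, htτ⟩ := TW.exists_inertiaQp_eq s.p s.htauP
  have hdet : (TW.locRep s.ρbar s.p t).det = residue s.O (s.rW s.tauP).det := by
    show (TW.matRep s.ρbar (localGaloisToGlobal s.p t)).det = _
    rw [htτ, ← s.hred, ← RingHom.mapMatrix_apply, ← RingHom.map_det]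
  have hχ : (TW.locRep s.ρbar s.p t).det ≠ 1 := fun h => by
    have h1 := s.hunitP.map (residue s.O)
    rw [map_sub, map_one, ← hdet, h, sub_self] at h1
    exact not_isUnit_zero h1
  obtain ⟨h1, h2⟩ := TW.finrank_flatULocal_le s.hp2 (Ribet.isFiniteLevel_locRep s.ρbar s.p)
    (Ribet.det_locRep_eq s.ρbar s.p s.hdet) hv hstab hquot
    (isFrobQp_of_isFrobeniusAt (by rw [hF]; exact s.hfrobP)) ht hχ
  refine ⟨_, TW.adCoboundaries_le_flatULocal _ F t, h1, h2, fun c _ _ hc => ⟨hc.1, ?_⟩⟩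
  have hu : s.uForm c = 0 := hc.2
  have hcs : s.uForm c = residue s.O (↑(s.hunitP.unit⁻¹) : s.O) *
      ((c (s.frobP * s.tauP) * TW.matRep s.ρbar (s.frobP * s.tauP)).trace -
        residue s.O (s.rW s.tauP).det * (c s.frobP * TW.matRep s.ρbar s.frobP).trace) := by
    show cocycleSum (TW.matRep s.ρbar) s.uSum c = _
    rw [cocycleSum, FSetup.uSum, Finsupp.sum_smul_index' (fun _ => by simp)]
    simp only [smul_eq_mul, map_mul, mul_assoc, ← Finsupp.mul_sum]
    rw [Finsupp.sum_sub_index (fun _ a b => by rw [map_sub, sub_mul]),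
      Finsupp.sum_single_index (by simp), Finsupp.sum_single_index (by simp), map_one, one_mul,
      map_mul (TW.matRep s.ρbar)]
  rw [hcs] at hu
  replace hu := (mul_eq_zero.mp hu).resolve_left ((s.hunitP.unit⁻¹).isUnit.map (residue s.O)).ne_zero
  show (TW.locRep s.ρbar s.p t).det *
      (c (localGaloisToGlobal s.p F) * TW.matRep s.ρbar (localGaloisToGlobal s.p F)).trace -
      (c (localGaloisToGlobal s.p (F * t)) *
        TW.matRep s.ρbar (localGaloisToGlobal s.p (F * t))).trace = 0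
  rw [hdet, map_mul, hF, htτ]
  linear_combination -hu

namespace FSetup

variable (s : FSetup)

instance instCharP : CharP s.kk s.p := (CharP.charP_iff_prime_eq_zero s.hp.out).mpr (by
  rw [← map_natCast (residue s.O), residue_eq_zero_iff]; exact s.hpO)

/-- The primes with a prescribed local condition. -/
def Smin : Finset ℕ := s.S0.filter fun x => ∀ a, s.q a ≠ x

theorem mem_Smin_iff {x : ℕ} :
    x ∈ s.Smin ↔ (x = s.p ∨ (x.Prime ∧ x ∣ s.N * s.aux)) ∧ ∀ a, s.q a ≠ x := by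
  rw [Smin, Finset.mem_filter, s.hS0]
  constructor
  · rintro ⟨h, h'⟩
    refine ⟨?_, h'⟩
    rcases h with h | h | ⟨a, ha⟩
    · exact Or.inl h
    · exact Or.inr h
    · exact absurd ha (h' a)
  · rintro ⟨h, h'⟩
    exact ⟨h.elim Or.inl fun h => Or.inr (Or.inl h), h'⟩

theorem p_mem_Smin : s.p ∈ s.Smin := s.mem_Smin_iff.mpr ⟨Or.inl rfl, fun a => (s.hq a).2.1⟩

theorem prime_of_mem_Smin {x : ℕ} (hx : x ∈ s.Smin) : x.Prime := by
  rcases (s.mem_Smin_iff.mp hx).1 with rfl | h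
  · exact s.hp.out
  · exact h.1

theorem Smin_union : s.Smin ∪ Finset.univ.image s.q = s.S0 := by
  ext x
  rw [Finset.mem_union, Finset.mem_image, Smin, Finset.mem_filter]
  constructor
  · rintro (h | ⟨a, -, rfl⟩)
    · exact h.1
    · exact (s.hS0 _).mpr (Or.inr (Or.inr ⟨a, rfl⟩))
  · intro h
    by_cases h' : ∀ a, s.q a ≠ x
    · exact Or.inl ⟨h, h'⟩
    · push Not at h'
      obtain ⟨a, ha⟩ := h'
      exact Or.inr ⟨a, Finset.mem_univ a, ha⟩

theorem isUnramifiedAt_of_not_dvd {x : ℕ} (hx : x.Prime) (hxp : x ≠ s.p) (hxN : ¬ x ∣ s.N) :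
    s.ρbar.IsUnramifiedAt x := by
  by_cases h : ∀ a, s.q a ≠ x
  · intro P hP σ hσ
    have h1 : Matrix.toLinAlgEquiv' (s.rW σ) = 1 := s.hunrW x hx hxp hxN h P hP σ hσ
    have h2 : s.rW σ = 1 := Matrix.toLinAlgEquiv'.injective (by rw [h1, map_one])
    rw [← TW.matRep_eq_one_iff, ← s.hred, h2]
    exact Matrix.map_one _ (map_zero _) (map_one _)
  · push Not at h
    obtain ⟨a, rfl⟩ := h
    exact s.hresq a

theorem isUnramifiedAt_of_not_mem {x : ℕ} (hx : x.Prime) (hxS : x ∉ s.Smin) :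
    s.ρbar.IsUnramifiedAt x := by
  by_cases h : ∀ a, s.q a ≠ x
  · exact s.isUnramifiedAt_of_not_dvd hx (fun h' => hxS (h' ▸ s.p_mem_Smin)) fun h' =>
      hxS (s.mem_Smin_iff.mpr ⟨Or.inr ⟨hx, h'.mul_right _⟩, h⟩)
  · push Not at h
    obtain ⟨a, rfl⟩ := h
    exact s.hresq a

theorem charpoly_locRep_inertia {x : ℕ} [Fact x.Prime] (hxN : x ∣ s.N) (hxp : x ≠ s.p)
    {g : TW.GalQp x} (hg : g ∈ TW.inertiaQp x) :
    (TW.locRep s.ρbar x g).charpoly = (Polynomial.X - 1) ^ 2 := by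
  have h : LinearMap.charpoly (Matrix.toLin' (s.rW (localGaloisToGlobal x g))) =
      (Polynomial.X - 1) ^ 2 :=
    s.hunipW x Fact.out hxN hxp (padicPlace x) (padicPlace_liesOverPrime x) _
      (TW.localGaloisToGlobal_mem_inertia x hg)
  rw [Matrix.charpoly_toLin'] at h
  show (TW.matRep s.ρbar (localGaloisToGlobal x g)).charpoly = _
  rw [← s.hred, Matrix.charpoly_map, h]
  simp

theorem trace_locRep_frob {x : ℕ} [Fact x.Prime] (hx : x = s.aux) {F : TW.GalQp x}
    (hF : TW.LocalCondB.IsFrobQp x F) : (TW.locRep s.ρbar x F).trace ≠ 0 := by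
  subst hx
  have h := (s.hauxres (Fact.out : s.aux.Prime).ne_one).2 _ (padicPlace_liesOverPrime s.aux) _
    hF.isFrobeniusAt
  rw [LinearMap.trace_eq_matrix_trace s.kk (TW.residualBasis s.ρbar)] at h
  exact h

/-- The local space at a prime of `Smin` other than `p`. -/
def auxLocal (x : ℕ) [Fact x.Prime] : Submodule s.kk (TW.GalQp x → Matrix (Fin 2) (Fin 2) s.kk) :=
  if x ∣ s.N then TW.unipotentLocal x (TW.locRep s.ρbar x)
  else TW.ctsCocycles x (TW.locRep s.ρbar x)

theorem finrank_auxLocal_le {x : ℕ} [Fact x.Prime] (hxS : x ∈ s.Smin) (hxp : x ≠ s.p) :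
    TW.adCoboundaries (TW.locRep s.ρbar x) ≤ s.auxLocal x ∧ FiniteDimensional s.kk (s.auxLocal x) ∧
      finrank s.kk (s.auxLocal x) ≤ 3 := by
  have hfin := Ribet.isFiniteLevel_locRep s.ρbar x
  by_cases hxN : x ∣ s.N
  · rw [auxLocal, if_pos hxN]
    obtain ⟨h1, h2⟩ := TW.finrank_unipotentLocal_le s.p x (TW.locRep s.ρbar x) s.hp2 hxp hfin
      (fun g hg => s.charpoly_locRep_inertia hxN hxp hg)
      (Ribet.exists_locRep_ne_one s.ρbar x (s.hminres x Fact.out hxN hxp))
    exact ⟨le_sup_right, h1, h2⟩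
  · rw [auxLocal, if_neg hxN]
    obtain ⟨h | ⟨-, h⟩, -⟩ := s.mem_Smin_iff.mp hxS
    · exact absurd h hxp
    obtain ⟨F, hF⟩ := TW.LocalCondB.exists_isFrobQp (q := x)
    have hx1 : x = s.aux := by
      have h' := ((Fact.out : x.Prime).dvd_mul.mp h).resolve_left hxN
      rcases s.haux with ha | ⟨ha, -⟩
      · rw [ha, Nat.dvd_one] at h'; exact absurd h' (Fact.out : x.Prime).ne_one
      · exact (Nat.prime_dvd_prime_iff_eq Fact.out ha).mp h'
    have hunr : ∀ g ∈ TW.inertiaQp x, TW.locRep s.ρbar x g = 1 := fun g hg =>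
      (TW.matRep_eq_one_iff s.ρbar _).mpr (s.isUnramifiedAt_of_not_dvd Fact.out hxp hxN _
        (padicPlace_liesOverPrime x) _ (TW.localGaloisToGlobal_mem_inertia x hg))
    obtain ⟨h1, h2⟩ := TW.finrank_ctsCocycles_le_of_trace_ne_zero s.p x (TW.locRep s.ρbar x) s.hp2
      hxp (hx1 ▸ (s.hauxres (hx1 ▸ (Fact.out : x.Prime).ne_one)).1) hfin hunr F hF
      (s.trace_locRep_frob hx1 hF)
    refine ⟨?_, h1, h2⟩
    rintro _ ⟨M, -, rfl⟩
    exact TW.adD_mem_ctsCocycles hfin M

theorem two_ne_zero_kk : (2 : s.kk) ≠ 0 := fun h => by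
  have h4 := (CharP.cast_eq_zero_iff s.kk s.p 2).mp (by exact_mod_cast h)
  exact s.hp2 ((Nat.prime_dvd_prime_iff_eq s.hp.out Nat.prime_two).mp h4)

theorem finrank_adCoboundaries : FiniteDimensional s.kk (TW.adCoboundaries (TW.matRep s.ρbar)) ∧
    finrank s.kk (TW.adCoboundaries (TW.matRep s.ρbar)) = 3 := by
  have h : TW.adInvariants (TW.matRep s.ρbar) = ⊥ := (Submodule.eq_bot_iff _).mpr fun M hM =>
    Ribet.Avoid.eq_zero_of_forall_commute s.ρbar s.habs s.two_ne_zero_kk M hM.1 hM.2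
  have h2 := TW.finrank_adCoboundaries_add_adInvariants (TW.matRep s.ρbar) s.two_ne_zero_kk
  rw [h, finrank_bot, add_zero] at h2
  exact ⟨by unfold TW.adCoboundaries; infer_instance, h2⟩

theorem localGlobal_adCoboundaries (x : ℕ) [Fact x.Prime] :
    ∀ c ∈ TW.adCoboundaries (TW.matRep s.ρbar),
      TW.resLoc x c ∈ TW.adCoboundaries (TW.locRep s.ρbar x) := by
  rintro _ ⟨η, hη, rfl⟩
  exact ⟨η, hη, funext fun g => by simp [TW.resLoc, TW.locRep, LinearMap.funLeft, map_inv]⟩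

/-- The other world's space at a prime `x`. -/
def othLocal (x : ℕ) [Fact x.Prime] : Submodule s.kk (TW.GalQp x → Matrix (Fin 2) (Fin 2) s.kk) :=
  ((TW.adCocycles (TW.matRep s.ρbar) ⊓ TW.globalFiniteLevel s.kk ⊓ s.othPCond).map (TW.resLoc x)) ⊔
    TW.adCoboundaries (TW.locRep s.ρbar x)

theorem finrank_othLocal_le (hpN : s.p ∣ s.N) :
    FiniteDimensional s.kk (s.othLocal s.p) ∧ finrank s.kk (s.othLocal s.p) ≤ 3 := by
  obtain ⟨L, hB, hfin, hle, hmem⟩ := finrank_flat_unitRoot_le s hpN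
  have h : s.othLocal s.p ≤ L := sup_le (by
    rintro _ ⟨c, hc, rfl⟩
    exact hmem c hc.1.1 hc.1.2 hc.2) hB
  exact ⟨Submodule.finiteDimensional_of_le h, (Submodule.finrank_mono h).trans hle⟩

/-- The main world's space at a prime `x`. -/
def mainLocal (x : ℕ) [Fact x.Prime] : Submodule s.kk (TW.GalQp x → Matrix (Fin 2) (Fin 2) s.kk) :=
  if s.p ∣ s.N then TW.ordLocal x (TW.locRep s.ρbar x) else TW.flatLocal x (TW.locRep s.ρbar x)

theorem finrank_mainLocal_le :
    TW.adCoboundaries (TW.locRep s.ρbar s.p) ≤ s.mainLocal s.p ∧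
      FiniteDimensional s.kk (s.mainLocal s.p) ∧ finrank s.kk (s.mainLocal s.p) ≤ 4 := by
  have hfin := Ribet.isFiniteLevel_locRep s.ρbar s.p
  have hdet := Ribet.det_locRep_eq s.ρbar s.p s.hdet
  by_cases hpN : s.p ∣ s.N
  · rw [mainLocal, if_pos hpN]
    obtain ⟨h1, h2⟩ := TW.finrank_ordLocal_le s.p _ s.hp2 hfin hdet
    exact ⟨le_sup_right, h1, h2⟩
  · rw [mainLocal, if_neg hpN]
    obtain ⟨h1, h2⟩ := TW.finrank_flatLocal_le s.p _ s.hp2 hfin hdet fun g => by
      obtain ⟨α, β, h⟩ := s.hsplit (localGaloisToGlobal s.p g)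
      exact ⟨α, β, (TW.charpoly_matRep s.ρbar _).trans h⟩
    exact ⟨le_sup_right, h1, h2⟩

/-- The conditions at all the primes of `Smin`, with `Lp` at `p`. -/
def condAt (Lp : ∀ (x : ℕ) [Fact x.Prime],
      Submodule s.kk (TW.GalQp x → Matrix (Fin 2) (Fin 2) s.kk))
    (x : ℕ) [Fact x.Prime] : Submodule s.kk (TW.GalQp x → Matrix (Fin 2) (Fin 2) s.kk) :=
  if x = s.p then Lp x else s.auxLocal x

/-- The bound given by the engine for one choice of the space at `p`. -/
theorem bounded_of_engine {r n : ℕ} (d : FAux s r n)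
    (heng : ∀ (L : ∀ (x : ℕ) [Fact x.Prime],
        Submodule s.kk (TW.GalQp x → Matrix (Fin 2) (Fin 2) s.kk)) (δ : ℕ → ℤ),
      (∀ (x : ℕ) [Fact x.Prime], x ∈ s.Smin →
        TW.adCoboundaries (TW.locRep s.ρbar x) ≤ L x ∧ FiniteDimensional s.kk (L x) ∧
          (finrank s.kk (L x) : ℤ) ≤ 3 + δ x) →
      ∀ g : ℤ, (r : ℤ) + ∑ x ∈ s.Smin, δ x ≤ g + 1 →
      ∀ W : Submodule s.kk s.Fun, FiniteDimensional s.kk W →
        W ≤ (TW.adCocycles (TW.matRep s.ρbar) ⊓
            selmerCond (s.Smin ∪ Finset.univ.image s.q ∪ Finset.univ.image d.Q) s.Smin L) ⊔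
          TW.adCoboundaries (TW.matRep s.ρbar) →
        (∀ a, ∀ c ∈ W, ∃ η : Matrix (Fin 2) (Fin 2) s.kk, η.trace = 0 ∧
          c (s.phi a) = TW.adD (TW.matRep s.ρbar) η (s.phi a) ∧
          c (s.tau a) = TW.adD (TW.matRep s.ρbar) η (s.tau a)) →
        ((finrank s.kk W +
          ∑ a, finrank s.kk (centralTrZero (TW.matRep s.ρbar (s.phi a))) : ℕ) : ℤ) ≤ g + 3)
    (Lp : ∀ (x : ℕ) [Fact x.Prime],
      Submodule s.kk (TW.GalQp x → Matrix (Fin 2) (Fin 2) s.kk)) (e g : ℕ)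
    (hLp : TW.adCoboundaries (TW.locRep s.ρbar s.p) ≤ Lp s.p ∧ FiniteDimensional s.kk (Lp s.p) ∧
      finrank s.kk (Lp s.p) ≤ 3 + e)
    (P : Submodule s.kk s.Fun)
    (hP : ∀ c ∈ TW.adCocycles (TW.matRep s.ρbar), c ∈ TW.globalFiniteLevel s.kk → c ∈ P →
      TW.resLoc s.p c ∈ Lp s.p)
    (hg : r + e ≤ g + 1) :
    s.Bounded (TW.globalCocycles s.ρbar d.S ⊓ s.unipCond ⊓ P) g := by
  intro W hW hWle hWloc
  have key := heng (s.condAt Lp) (fun x => if x = s.p then (e : ℤ) else 0) ?_ g ?_ W hW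
    (hWle.trans (sup_le_sup_right (inf_le_inf_left _ ?_) _)) hWloc
  · exact_mod_cast key
  · intro x _ hxS
    by_cases hxp : x = s.p
    · subst hxp
      rw [show s.condAt Lp s.p = Lp s.p from if_pos rfl, if_pos rfl]
      exact ⟨hLp.1, hLp.2.1, by exact_mod_cast hLp.2.2⟩
    · rw [show s.condAt Lp x = s.auxLocal x from if_neg hxp, if_neg hxp, add_zero]
      obtain ⟨h1, h2, h3⟩ := s.finrank_auxLocal_le hxS hxp
      exact ⟨h1, h2, by exact_mod_cast h3⟩
  · rw [Finset.sum_ite_eq' s.Smin s.p (fun _ => (e : ℤ)), if_pos s.p_mem_Smin]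
    exact_mod_cast hg
  · rintro c ⟨⟨hc, hu⟩, hcP⟩
    refine ⟨hc.1.2, fun q hq hqT => hc.2 q hq ?_, fun x hxF hxS => ?_⟩
    · rwa [FAux.S, ← s.Smin_union]
    · by_cases hxp : x = s.p
      · subst hxp
        rw [show s.condAt Lp s.p = Lp s.p from if_pos rfl]
        exact hP c hc.1.1 hc.1.2 hcP
      · rw [show s.condAt Lp x = s.auxLocal x from if_neg hxp, auxLocal]
        by_cases hxN : x ∣ s.N
        · rw [if_pos hxN]
          rw [SetLike.mem_coe, unipCond, Submodule.mem_iInf] at hu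
          have h1 := hu x
          rw [Submodule.mem_iInf] at h1
          have h2 := h1 hxF.out
          rw [Submodule.mem_iInf] at h2
          exact h2 ⟨hxN, hxp⟩
        · rw [if_neg hxN]
          exact Ribet.resLoc_mem_ctsCocycles s.ρbar x hc

end FSetup

/-- **Taylor-Wiles primes with both bounds**, with one `r` for all levels. -/
theorem exists_fAux (s : FSetup) :
    ∃ r : ℕ, (s.p ∣ s.N → 1 ≤ r) ∧ ∀ (n : ℕ) (avoid : Finset ℕ),
      ∃ d : FAux s r n, (∀ j, d.Q j ∉ avoid) ∧ d.HasBound := by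
  classical
  obtain ⟨r, hr⟩ := exists_taylorWilesPrimes_gaugeBound s.ρbar s.p s.hp2 s.habs s.hdet s.hsplit
    s.hTW s.Smin s.p_mem_Smin (fun x hx => s.prime_of_mem_Smin hx) s.q (fun a => (s.hq a).1)
    s.q_inj (fun a h => (s.mem_Smin_iff.mp h).2 a rfl)
    fun x hx hxS => s.isUnramifiedAt_of_not_mem hx hxS
  refine ⟨r, fun hpN => ?_, fun n avoid => ?_⟩
  · -- the bound with the coboundaries alone
    by_contra hr0
    obtain ⟨qv, -, -, -, hb⟩ := hr 0 ∅
    obtain ⟨hBfin, hB3⟩ := s.finrank_adCoboundaries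
    have key := hb (s.condAt fun x _ => s.othLocal x) (fun _ => 0) ?_ s.phi s.tau
      (fun a => @FSetup.hgen s a ⟨(s.hq a).1⟩) (-1) ?_ (TW.adCoboundaries (TW.matRep s.ρbar))
      hBfin le_sup_right ?_
    · have key' := (Int.ofNat_le.mpr (Nat.le_add_right _ _)).trans key
      rw [hB3] at key'
      omega
    · intro x _ hxS
      simp only [add_zero]
      by_cases hxp : x = s.p
      · subst hxp
        rw [show s.condAt (fun y _ => s.othLocal y) s.p = s.othLocal s.p from if_pos rfl]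
        obtain ⟨h1, h2⟩ := s.finrank_othLocal_le hpN
        exact ⟨le_sup_right, h1, by exact_mod_cast h2⟩
      · rw [show s.condAt (fun y _ => s.othLocal y) x = s.auxLocal x from if_neg hxp]
        obtain ⟨h1, h2, h3⟩ := s.finrank_auxLocal_le hxS hxp
        exact ⟨h1, h2, by exact_mod_cast h3⟩
    · simp only [Finset.sum_const_zero, add_zero]
      omega
    · rintro a c ⟨η, hη, rfl⟩
      exact ⟨η, hη, rfl, rfl⟩
  obtain ⟨qv, hinj, hq, hdist, hb⟩ := hr n (avoid ∪ s.S0)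
  have hgen : ∀ j, ∃ (τ : Γℚ) (c : ℕ), (∀ [Fact (qv j).Prime],
      τ ∈ (padicPlace (qv j)).inertiaSubgroupIn ℚ) ∧
      (∀ μ : AlgebraicClosure ℚ, μ ^ qv j = 1 → τ μ = μ ^ c) ∧
      orderOf ((c : ℕ) : ZMod (qv j)) = qv j - 1 := by
    intro j
    haveI := Fact.mk (hq j).1
    have hne : qv j ≠ s.p := fun h => (hq j).2.1 (Finset.mem_union_left _
      (Finset.mem_union_left _ (h ▸ s.p_mem_Smin)))
    obtain ⟨-, τ, -, -, hτ, ⟨c, hc, hord⟩, -⟩ := Ribet.exists_tame_generators s.hp.out (hq j).1 hne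
      (padicPlace (qv j)) (padicPlace_liesOverPrime (qv j))
    exact ⟨τ, c, hτ, hc, hord⟩
  choose tauQ gen htau hgenspec hord using hgen
  let d : FAux s r n :=
    { Q := qv, inj := hinj, prime := fun j => (hq j).1
      notMem := fun j h => (hq j).2.1 (Finset.mem_union_right _ (Finset.mem_union_right _ h))
      dvd := fun j => (hq j).2.2, distinct := hdist
      tauQ := tauQ, gen := gen, tauQ_mem := fun j => htau j
      gen_spec := hgenspec, gen_order := hord }
  have heng := fun L δ hL g hg => hb L δ hL s.phi s.tau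
    (fun a => @FSetup.hgen s a ⟨(s.hq a).1⟩) g hg
  refine ⟨d, fun j h => (hq j).2.1 (Finset.mem_union_right _ (Finset.mem_union_left _ h)),
    ⟨?_, fun hpN => ?_⟩⟩
  · exact s.bounded_of_engine d heng (fun x _ => s.mainLocal x) 1 r s.finrank_mainLocal_le
      s.mainPCond (fun c _ _ hc => by
        simp only [FSetup.mainPCond, FSetup.mainLocal] at hc ⊢
        split <;> rename_i h
        · rw [if_pos h] at hc; exact hc
        · rw [if_neg h] at hc; exact hc) le_rfl
  · obtain ⟨h1, h2⟩ := s.finrank_othLocal_le hpN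
    exact s.bounded_of_engine d heng (fun x _ => s.othLocal x) 0 (r - 1)
      ⟨le_sup_right, h1, h2⟩ s.othPCond
      (fun c hc hlev hP => Submodule.mem_sup_left ⟨c, ⟨⟨hc, hlev⟩, hP⟩, rfl⟩) (by omega)

end Fermat.Agent.Lifting
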