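import Fermat.Agent.Lifting.FCoordsBuild

/-!
# Modularity lifting: existence of coordinates
-/

set_option autoImplicit false

noncomputable section

namespace Fermat.Agent.Lifting

variable {s : FSetup} {r n : ℕ}

/-- **Coordinates exist** when the tangent bounds hold. -/
theorem exists_fCoords (d : FAux s r n) (hb : d.HasBound) (hr : s.p ∣ s.N → 1 ≤ r) :
    Nonempty (FCoords d) :=
  have _ := hr
  nonempty_fCoords d hb

end Fermat.Agent.Lifting
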