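import Fermat.Agent.Lifting.BPlaces
import Fermat.Agent.Deform.MatrixRep
import Fermat.Agent.Datum.Roots
import Fermat.Agent.TW.AdjointBasic
import Fermat.Prelude.Def_GaloisRep_LocalConditions

/-!
# The matrices of a representation at a place with unipotent inertia
-/

set_option autoImplicit false
set_option linter.style.haveILetI false

noncomputable section

namespace Fermat.Agent.Lifting

open IsLocalRing Fermat.Agent.Deform

local notation "ℚbar" => AlgebraicClosure ℚ

theorem det_toRep_matrix {C : Type} [CommRing C] [IsLocalRing C] (r : Γ →* M2 C) (hr : MCont r) (σ : Γ) :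
    LinearMap.det ((toRep r hr).ρ σ) = (r σ).det := LinearMap.det_toLin' _

theorem trace_toRep_matrix {C : Type} [CommRing C] [IsLocalRing C] (r : Γ →* M2 C) (hr : MCont r)
    (σ : Γ) : LinearMap.trace C _ ((toRep r hr).ρ σ) = (r σ).trace := Matrix.trace_toLin'_eq _

variable {C : Type} [CommRing C] [IsLocalRing C] [IsNoetherianRing C]
  [IsAdicComplete (maximalIdeal C) C] [Finite (ResidueField C)]
  {r : Γ →* M2 C} {hr : MCont r} {p q : ℕ}

omit [IsNoetherianRing C] [Finite (ResidueField C)] in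
/-- A value of the cyclotomic character is the determinant. -/
theorem det_eq_natCast_of_cyclotomic (hdet : (toRep r hr).DetIsCyclotomic p) (σ : Γ) (a : ℕ)
    (h : ∀ (m : ℕ) (μ : ℚbar), μ ^ p ^ m = 1 → σ μ = μ ^ a) : (r σ).det = (a : C) := by
  rw [← sub_eq_zero]
  refine IsHausdorff.haus (inferInstance : IsHausdorff (maximalIdeal C) C) _ fun m => ?_
  rw [SModEq.zero, smul_eq_mul, Ideal.mul_top]
  have h1 := hdet.2 m σ a (h m)
  rw [det_toRep_matrix] at h1
  refine (Ideal.span_singleton_le_iff_mem (maximalIdeal C ^ m)).mpr ?_ h1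
  rw [Nat.cast_pow]
  exact Ideal.pow_mem_pow hdet.1 m

omit [IsNoetherianRing C] [Finite (ResidueField C)] in
theorem det_eq_one_of_inertia (hdet : (toRep r hr).DetIsCyclotomic p) (hp : p.Prime)
    (hq : q.Prime) (hqp : q ≠ p) {A : ValuationSubring ℚbar} (hA : A.LiesOverPrime q) {g : Γ}
    (hg : g ∈ A.inertiaSubgroupIn ℚ) : (r g).det = 1 := by
  rw [det_eq_natCast_of_cyclotomic hdet g 1 fun m μ hμ => ?_, Nat.cast_one]
  rw [pow_one]
  exact Datum.inertia_apply_root hA hg (((Nat.coprime_primes hq hp).mpr hqp).pow_right m)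
    (pow_ne_zero _ hp.ne_zero) hμ

omit [IsNoetherianRing C] [Finite (ResidueField C)] in
theorem det_frobenius_eq (hdet : (toRep r hr).DetIsCyclotomic p) (hp : p.Prime) (hq : q.Prime)
    (hqp : q ≠ p) {A : ValuationSubring ℚbar} (hA : A.LiesOverPrime q) {g : Γ}
    (hg : A.IsFrobeniusAt g q) : (r g).det = (q : C) :=
  det_eq_natCast_of_cyclotomic hdet g q fun m _ hμ => Datum.frobenius_apply_root hA hg
    (((Nat.coprime_primes hq hp).mpr hqp).pow_right m) (pow_ne_zero _ hp.ne_zero) hμ

omit [IsNoetherianRing C] [IsAdicComplete (maximalIdeal C) C] [Finite (ResidueField C)] in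
/-- Unipotent inertia: trace two and determinant one. -/
theorem trace_det_of_unipotent (hu : (toRep r hr).IsUnipotentOnInertiaAt q)
    {A : ValuationSubring ℚbar} (hA : A.LiesOverPrime q) {g : Γ}
    (hg : g ∈ A.inertiaSubgroupIn ℚ) : (r g).trace = 2 ∧ (r g).det = 1 := by
  have h : (r g).charpoly = (Polynomial.X - 1) ^ 2 := by
    rw [← hu A hA g hg, ← LinearMap.charpoly_toMatrix _ (stdBasis r hr), ← repMat_apply,
      repMat_toRep]
  rw [Matrix.charpoly_fin_two] at h
  have h1 := congrArg (fun P => Polynomial.coeff P 1) h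
  have h0 := congrArg (fun P => Polynomial.coeff P 0) h
  simp [Polynomial.coeff_one, sub_sq, Polynomial.coeff_X_pow] at h1 h0
  exact ⟨h1, h0⟩

omit [IsLocalRing C] [IsNoetherianRing C] [IsAdicComplete (maximalIdeal C) C]
  [Finite (ResidueField C)] in
/-- Cayley-Hamilton for trace `2` and determinant `1`. -/
theorem sub_one_mul_self_of_trace {M : M2 C} (ht : M.trace = 2) (hd : M.det = 1) :
    (M - 1) * (M - 1) = 0 := by
  have h := TW.sq_eq_fin_two M
  rw [ht, hd] at h
  rw [sub_mul, mul_sub, mul_sub, one_mul, one_mul, mul_one, h]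
  module

omit [IsLocalRing C] [IsNoetherianRing C] [IsAdicComplete (maximalIdeal C) C]
  [Finite (ResidueField C)] in
theorem pow_eq_of_sub_one_sq {M : M2 C} (h : (M - 1) * (M - 1) = 0) (k : ℕ) :
    M ^ k = 1 + (k : C) • (M - 1) := by
  induction k with
  | zero => simp
  | succ k ih =>
    have hM : M = 1 + (M - 1) := by abel
    rw [pow_succ, ih, Nat.cast_succ]
    nth_rw 2 [hM]
    rw [mul_add, mul_one, add_mul, one_mul, smul_mul_assoc, h, smul_zero, add_zero, add_smul,
      one_smul, ← add_assoc]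

omit [IsAdicComplete (maximalIdeal C) C] in
/-- **The tame relation**: `φ N = q N φ` for the nilpotent logarithm `N` of `τ`. -/
theorem frob_mul_mono {φ τ : Γ} [Fact q.Prime]
    (hgen : IsPlaceGenerators p q φ τ) (hpC : (p : C) ∈ maximalIdeal C)
    (hu : (toRep r hr).IsUnipotentOnInertiaAt q) :
    r φ * (r τ - 1) = (q : C) • ((r τ - 1) * r φ) := by
  have hinertia : ∀ g ∈ (padicPlace q).inertiaSubgroupIn ℚ, ∀ k : ℕ,
      r g ^ k = 1 + (k : C) • (r g - 1) := fun g hg k => by
    obtain ⟨ht, hd⟩ := trace_det_of_unipotent hu (padicPlace_liesOverPrime q) hg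
    exact pow_eq_of_sub_one_sq (sub_one_mul_self_of_trace ht hd) k
  have key : r (φ * τ * φ⁻¹) = r (τ ^ q) := by
    ext i j
    rw [← sub_eq_zero]
    refine IsHausdorff.haus (inferInstance : IsHausdorff (maximalIdeal C) C) _ fun m => ?_
    rw [SModEq.zero, smul_eq_mul, Ideal.mul_top]
    haveI : Finite (C ⧸ maximalIdeal C) := inferInstanceAs (Finite (ResidueField C))
    haveI : Finite (C ⧸ maximalIdeal C ^ m) :=
      Ideal.finite_quotient_pow (IsNoetherian.noetherian (maximalIdeal C)) m
    set I := maximalIdeal C ^ m with hI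
    let π : M2 C →+* M2 (C ⧸ I) := (Ideal.Quotient.mk I).mapMatrix
    let f : Γ →* (M2 (C ⧸ I))ˣ := MonoidHom.toHomUnits (π.toMonoidHom.comp r)
    have hf : ∀ g, ((f g : (M2 (C ⧸ I))ˣ) : M2 (C ⧸ I)) = π (r g) := fun g => rfl
    obtain ⟨L, hL, hLr⟩ := hr m
    obtain ⟨h, -, -⟩ := hgen.relation _ f ⟨L, hL, fun g hg => Units.ext <| Matrix.ext fun a b => by
      rw [hf, Units.val_one, ← map_one π]
      exact Ideal.Quotient.eq.mpr (hLr g hg a b)⟩ fun g hg => ⟨m, Units.ext <| by
        rw [Units.val_pow_eq_pow_val, hf, ← map_pow, hinertia g hg, Units.val_one, ← map_one π]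
        refine Matrix.ext fun a b => Ideal.Quotient.eq.mpr ?_
        rw [Matrix.add_apply, add_sub_cancel_left, Matrix.smul_apply, smul_eq_mul]
        refine Ideal.mul_mem_right _ _ ?_
        rw [Nat.cast_pow]
        exact Ideal.pow_mem_pow hpC m⟩
    rw [← map_inv, ← map_mul, ← map_mul, ← map_pow] at h
    have h' := congrArg Units.val h
    rw [hf, hf] at h'
    exact Ideal.Quotient.eq.mp (congrFun (congrFun h' i) j)
  rw [map_pow, hinertia τ hgen.tau_mem] at key
  have h2 : r φ * r τ = (1 + (q : C) • (r τ - 1)) * r φ := by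
    rw [← key, ← map_mul, ← map_mul, inv_mul_cancel_right]
  rw [mul_sub, mul_one, h2, add_mul, one_mul, smul_mul_assoc, add_sub_cancel_left]

end Fermat.Agent.Lifting
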