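import Fermat.Agent.Lifting.FSetup
import Fermat.Agent.Lifting.FCoordsPlace
import Fermat.Agent.Ribet.Avoid.CoordsProduct

/-!
# The unit root of a strictly ordinary representation
-/

set_option autoImplicit false
set_option linter.style.haveILetI false

noncomputable section

namespace Fermat.Agent.Lifting

open IsLocalRing Module Fermat.Agent.Deform

local notation "ℚbar" => AlgebraicClosure ℚ

variable {C : Type} [CommRing C] [IsLocalRing C] [IsHausdorff (maximalIdeal C) C] {p : ℕ}
  [Fact p.Prime]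

/-- **The sign on the unramified quotient**: if the trace of `φ τ` minus `det τ` times the trace
of `φ` is residually `(1 - det τ) e` with `e² = 1`, the equality holds exactly. -/
theorem unitRoot_eq_of_strictOrdinary (R : GaloisRepAdic C) (hdet : R.DetIsCyclotomic p)
    (hord : R.IsStrictOrdinaryAt p) (h2 : IsUnit (2 : C)) {φ τ : Γ}
    (hφ : φ ∈ (padicPlace p).decompositionSubgroup ℚ)
    (hτ : τ ∈ (padicPlace p).inertiaSubgroupIn ℚ)
    (hu : IsUnit (1 - LinearMap.det (R.ρ τ))) (e : C) (he : e ^ 2 = 1)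
    (hres : LinearMap.trace C R.V (R.ρ (φ * τ)) -
      LinearMap.det (R.ρ τ) * LinearMap.trace C R.V (R.ρ φ) -
      (1 - LinearMap.det (R.ρ τ)) * e ∈ maximalIdeal C) :
    LinearMap.trace C R.V (R.ρ (φ * τ)) - LinearMap.det (R.ρ τ) * LinearMap.trace C R.V (R.ρ φ) =
      (1 - LinearMap.det (R.ρ τ)) * e := by
  obtain ⟨L, ⟨bL, hL⟩, -, hI, hχ⟩ := hord.2 _ (padicPlace_liesOverPrime p)
  subst hL
  obtain ⟨x, z, hx, hz, hxz⟩ := hχ φ hφ
  obtain ⟨x', z', hx', hz', -⟩ := hχ τ (Ribet.Avoid.Product.mem_decomposition_of_mem_inertia hτ)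
  have hspan : ∀ c : C, c • bL 1 ∈ C ∙ bL 0 → c = 0 := fun c hc => by
    obtain ⟨y, hy⟩ := Submodule.mem_span_singleton.mp hc
    simpa [Finsupp.single_apply] using (congrArg (fun v => bL.repr v 1) hy).symm
  -- inertia acts trivially on the quotient
  have hz1 : z' = 1 := sub_eq_zero.mp (hspan _ (by
    have h := Submodule.sub_mem _ (hI τ hτ (bL 1)) (hz' (bL 1))
    rw [sub_sub_sub_cancel_left] at h
    rwa [sub_smul, one_smul]))
  have e0 : R.ρ φ (bL 0) = x • bL 0 := hx _ (Submodule.mem_span_singleton_self _)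
  have e0' : R.ρ τ (bL 0) = x' • bL 0 := hx' _ (Submodule.mem_span_singleton_self _)
  obtain ⟨y, hy⟩ := Submodule.mem_span_singleton.mp (hz (bL 1))
  obtain ⟨y', hy'⟩ := Submodule.mem_span_singleton.mp (hz' (bL 1))
  have e1 : R.ρ φ (bL 1) = z • bL 1 + y • bL 0 := by rw [hy]; abel
  have e1' : R.ρ τ (bL 1) = bL 1 + y' • bL 0 := by rw [hy', hz1, one_smul]; abel
  have hM : LinearMap.toMatrix bL bL (R.ρ φ) = !![x, y; 0, z] := by
    ext i j
    fin_cases i <;> fin_cases j <;> simp [LinearMap.toMatrix_apply, e0, e1]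
  have hN : LinearMap.toMatrix bL bL (R.ρ τ) = !![x', y'; 0, 1] := by
    ext i j
    fin_cases i <;> fin_cases j <;> simp [LinearMap.toMatrix_apply, e0', e1']
  have hdφ : LinearMap.det (R.ρ φ) = x * z := by
    rw [← LinearMap.det_toMatrix bL, hM, Matrix.det_fin_two_of, mul_zero, sub_zero]
  have hdτ : LinearMap.det (R.ρ τ) = x' := by
    rw [← LinearMap.det_toMatrix bL, hN, Matrix.det_fin_two_of, mul_zero, sub_zero, mul_one]
  have key : LinearMap.trace C R.V (R.ρ (φ * τ)) -
      LinearMap.det (R.ρ τ) * LinearMap.trace C R.V (R.ρ φ) =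
      (1 - LinearMap.det (R.ρ τ)) * z := by
    rw [hdτ, map_mul, LinearMap.trace_eq_matrix_trace C bL, LinearMap.trace_eq_matrix_trace C bL,
      LinearMap.toMatrix_mul, hM, hN, Matrix.trace_fin_two, Matrix.trace_fin_two]
    simp [Matrix.mul_apply, Fin.sum_univ_two]
    ring
  -- the quotient character squares to one
  have hz2 : z ^ 2 = 1 := by
    rw [← sub_eq_zero]
    refine IsHausdorff.haus (inferInstance : IsHausdorff (maximalIdeal C) C) _ fun m => ?_
    rw [SModEq.zero, smul_eq_mul, Ideal.mul_top]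
    haveI : NeZero (p ^ (m + 1)) := ⟨pow_ne_zero _ (Fact.out : p.Prime).ne_zero⟩
    obtain ⟨a, ha⟩ := Ribet.Avoid.Product.exists_exponent φ (m := p ^ (m + 1))
    have h1 := hdet.2 (m + 1) φ a ha
    have h2 := hxz (m + 1) a ha
    rw [hdφ] at h1
    have hle : Ideal.span {((p ^ (m + 1) : ℕ) : C)} ≤ maximalIdeal C ^ (m + 1) := by
      rw [Ideal.span_singleton_le_iff_mem, Nat.cast_pow]
      exact Ideal.pow_mem_pow hdet.1 _
    have h3 : (a : C) * (z ^ 2 - 1) ∈ maximalIdeal C ^ (m + 1) := by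
      have h4 := sub_mem (hle h1) (Ideal.mul_mem_right z _ (hle h2))
      have e : (a : C) * (z ^ 2 - 1) = x * z - (a : C) - (x - (a : C) * z) * z := by ring
      rw [e]
      exact h4
    have hau : IsUnit (a : C) := by
      have hxzu : IsUnit (x * z) := hdφ ▸ (Group.isUnit φ).map (LinearMap.det.comp R.ρ)
      by_contra h
      have := sub_mem ((Ideal.pow_le_self m.succ_ne_zero) (hle h1))
        (neg_mem ((IsLocalRing.mem_maximalIdeal _).mpr h))
      rw [sub_neg_eq_add, sub_add_cancel] at this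
      exact this hxzu
    exact Ideal.pow_le_pow_right m.le_succ (((Ideal.unit_mul_mem_iff_mem _ hau).mp h3))
  have hze : z = e := by
    have h1 : (1 - LinearMap.det (R.ρ τ)) * (z - e) ∈ maximalIdeal C := by
      rw [key] at hres
      rwa [mul_sub]
    have h2' : z - e ∈ maximalIdeal C := (Ideal.unit_mul_mem_iff_mem _ hu).mp h1
    have h3 : IsUnit (z + e) := by
      by_contra h
      have h4 := sub_mem ((IsLocalRing.mem_maximalIdeal _).mpr h) h2'
      rw [add_sub_sub_cancel, ← two_mul] at h4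
      have he' : IsUnit e := IsUnit.of_mul_eq_one e (by rw [← sq, he])
      exact h4 (h2.mul he')
    refine sub_eq_zero.mp (h3.mul_right_eq_zero.mp ?_)
    linear_combination hz2 - he
  rw [key, hze]

end Fermat.Agent.Lifting
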