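import Fermat.Agent.Lifting.FCoordsMain

/-!
# Assembly of the coordinates of one level
-/

set_option autoImplicit false
set_option linter.style.haveILetI false

noncomputable section

namespace Fermat.Agent.Lifting

open IsLocalRing MvPowerSeries Fermat.Agent.Deform

/-- The constant term of a gauge series over the constants. -/
def gaugeZero (O : Type) [CommRing O] (K : ℕ) : GaugeRing O K →ₐ[O] O :=
  { (constantCoeff : GaugeRing O K →+* O) with
    commutes' := fun t => by
      show constantCoeff (algebraMap O (GaugeRing O K) t) = _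
      rw [MvPowerSeries.algebraMap_apply, constantCoeff_C] }

variable {s : FSetup} {r n : ℕ} {d : FAux s r n}

namespace FTraceRing

variable (W : FTraceRing d)

theorem psi_trace (g : Γ) : W.psi (W.rep g).trace = residue s.O (s.rW g).trace := by
  rw [AddMonoidHom.map_trace W.psi, W.red, ← s.hred]
  exact (AddMonoidHom.map_trace (residue s.O) (s.rW g)).symm

theorem trace_rW_tauQ (d : FAux s r n) (j : Fin r) : (s.rW (d.tauQ j)).trace = 2 := by
  haveI : Fact (d.Q j).Prime := ⟨d.prime j⟩
  have h0 := d.notMem j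
  rw [s.hS0] at h0
  push Not at h0
  have h1 := s.hunrW _ (d.prime j) h0.1
    (fun h => h0.2.1 (d.prime j) (dvd_mul_of_dvd_left h _)) h0.2.2 _
    (padicPlace_liesOverPrime _) _ (d.tauQ_mem j)
  have h2 : s.rW (d.tauQ j) = 1 := Matrix.toLin'.injective (h1.trans Matrix.toLin'_one.symm)
  rw [h2, Matrix.trace_one, Fintype.card_fin, Nat.cast_two]

theorem coord_mem (v : Fin s.K × Bool × Fin 2 × Fin 2) :
    W.coord v ∈ maximalIdeal (GaugeRing W.T s.K) :=
  (gaugeVars_mem W.rep W.psi (TW.matRep s.ρbar) W.red s.frame s.centreAt s.phi s.tau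
    s.hphi s.matRep_tau (ι := Empty) Empty.elim (fun i => i.elim)) (Sum.inl v)

/-- The other world, also when it is empty. -/
theorem exists_otherVars (hb : d.HasBound) :
    ∃ (x : Fin (r - 1) → GaugeRing W.T s.K)
      (hv : ∀ v, Sum.elim W.coord (Sum.elim x fun _ : Unit => C W.uT) v ∈
        maximalIdeal (GaugeRing W.T s.K)),
      ∀ a : GaugeRing W.T s.K, ∃ f : MvPowerSeries
          ((Fin s.K × Bool × Fin 2 × Fin 2) ⊕ (Fin (r - 1) ⊕ Unit)) s.O,
        (a ∈ maximalIdeal (GaugeRing W.T s.K) → constantCoeff f ∈ maximalIdeal s.O) ∧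
        ∀ X : FPack d, X.IsOther →
          gaugeMap (W.hom X.R) s.K (Deform.pev (maximalIdeal (GaugeRing W.T s.K)) _ hv f) =
            gaugeMap (W.hom X.R) s.K a := by
  by_cases hp : s.p ∣ s.N
  · exact W.exists_otherWorld hb hp
  · refine ⟨0, ?_, fun a => ⟨0, fun _ => by rw [map_zero]; exact Ideal.zero_mem _,
      fun X hX => absurd hX.1 hp⟩⟩
    rintro (v | j | j)
    · exact W.coord_mem v
    · exact Ideal.zero_mem _
    · exact Ribet.C_mem_maximalIdeal ((mem_maximalIdeal_iff_algHom W.psi _).mpr W.psi_uT)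

variable {i : Fin (s.K + 1)} {P : d.Pt i} (R : FRep P)

theorem gauged_hom_relation (a : Fin s.K) :
    (gauged (pushRep W.rep (W.hom R)) s.frame a (s.phi a)).det = C (s.q a : R.O') ∧
    (gauged (pushRep W.rep (W.hom R)) s.frame a (s.tau a) - 1).trace = 0 ∧
    (gauged (pushRep W.rep (W.hom R)) s.frame a (s.tau a) - 1).det = 0 ∧
    gauged (pushRep W.rep (W.hom R)) s.frame a (s.phi a) *
        (gauged (pushRep W.rep (W.hom R)) s.frame a (s.tau a) - 1) =
      (s.q a : Matrix (Fin 2) (Fin 2) (GaugeRing R.O' s.K)) *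
        ((gauged (pushRep W.rep (W.hom R)) s.frame a (s.tau a) - 1) *
          gauged (pushRep W.rep (W.hom R)) s.frame a (s.phi a)) := by
  obtain ⟨ht, hd, hrel⟩ := W.hom_place R a
  set r' := pushRep W.rep (W.hom R)
  have hG : (gauged r' s.frame a (s.tau a)).trace = 2 := by
    rw [trace_gauged, ht, map_ofNat]
  have hG1 : (gauged r' s.frame a (s.tau a)).det = 1 := by rw [det_gauged, hd, map_one]
  refine ⟨by rw [det_gauged, W.det_hom_phi], ?_, ?_, ?_⟩
  · rw [Matrix.trace_sub, hG, Matrix.trace_one, Fintype.card_fin, Nat.cast_two, sub_self]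
  · rw [Matrix.trace_fin_two] at hG
    rw [Matrix.det_fin_two] at hG1 ⊢
    simp only [Matrix.sub_apply, Matrix.one_apply_eq, Matrix.one_apply_ne (one_ne_zero : (1 : Fin 2) ≠ 0),
      Matrix.one_apply_ne (zero_ne_one : (0 : Fin 2) ≠ 1), sub_zero]
    linear_combination hG1 - hG
  · obtain ⟨Φ, hΦ⟩ := exists_gaugedHom r' s.frame a
    rw [hΦ, hΦ, ← map_one Φ, ← map_sub, ← map_mul, ← map_mul, ← map_natCast Φ, ← map_mul, hrel]
    congr 1
    rw [Nat.cast_smul_eq_nsmul, nsmul_eq_mul]

end FTraceRing

section Assembly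

variable (W : FTraceRing d)

/-- Values of all the variables. -/
def valOf (xm : Fin r → GaugeRing W.T s.K) (xo : Fin (r - 1) → GaugeRing W.T s.K) :
    (s.shape r).Var → GaugeRing W.T s.K :=
  Sum.elim W.coord (Sum.elim xm (Sum.elim (Sum.elim xo fun _ => C W.uT)
    (Sum.elim (fun j => C ((W.rep (d.tauQ j)).trace - 2)) X)))

/-- The operators of the variables. -/
def opOf (xm : Fin r → GaugeRing W.T s.K) (xo : Fin (r - 1) → GaugeRing W.T s.K) :
    (s.shape r).Var → d.Ops :=
  Sum.elim (fun v => (W.exists_op (valOf W xm xo (Sum.inl v))).choose)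
    (Sum.elim (fun v => (W.exists_op (valOf W xm xo (Sum.inr (Sum.inl v)))).choose)
      (Sum.elim (fun v => (W.exists_op (valOf W xm xo (Sum.inr (Sum.inr (Sum.inl v))))).choose)
        (Sum.elim (fun j => (W.exists_op
            (valOf W xm xo (Sum.inr (Sum.inr (Sum.inr (Sum.inl j)))))).choose)
          fun v => MvPolynomial.C (MvPowerSeries.X v))))

theorem opEval_opOf (xm : Fin r → GaugeRing W.T s.K) (xo : Fin (r - 1) → GaugeRing W.T s.K)
    {i : Fin (s.K + 1)} {P : d.Pt i} (R : FRep P) (v : (s.shape r).Var) :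
    R.opEval (opOf W xm xo v) = gaugeMap (W.hom R) s.K (valOf W xm xo v) := by
  rcases v with v | v | v | j | v
  · exact (W.exists_op _).choose_spec.1 R
  · exact (W.exists_op _).choose_spec.1 R
  · exact (W.exists_op _).choose_spec.1 R
  · exact (W.exists_op _).choose_spec.1 R
  · exact W.opEval_gauge R v

theorem valOf_mem (xm : Fin r → GaugeRing W.T s.K) (xo : Fin (r - 1) → GaugeRing W.T s.K)
    (hm : ∀ j, xm j ∈ maximalIdeal (GaugeRing W.T s.K))
    (ho : ∀ j, xo j ∈ maximalIdeal (GaugeRing W.T s.K)) (v : (s.shape r).Var) :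
    valOf W xm xo v ∈ maximalIdeal (GaugeRing W.T s.K) := by
  rcases v with v | v | (v | v) | j | v
  · exact W.coord_mem v
  · exact hm v
  · exact ho v
  · exact Ribet.C_mem_maximalIdeal ((mem_maximalIdeal_iff_algHom W.psi _).mpr W.psi_uT)
  · refine Ribet.C_mem_maximalIdeal ((mem_maximalIdeal_iff_algHom W.psi _).mpr ?_)
    rw [map_sub, map_ofNat, W.psi_trace, FTraceRing.trace_rW_tauQ, map_ofNat, sub_self]
  · exact Ribet.X_mem_maximalIdeal v

theorem opRes_opOf (xm : Fin r → GaugeRing W.T s.K) (xo : Fin (r - 1) → GaugeRing W.T s.K)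
    (hm : ∀ j, xm j ∈ maximalIdeal (GaugeRing W.T s.K))
    (ho : ∀ j, xo j ∈ maximalIdeal (GaugeRing W.T s.K)) (v : (s.shape r).Var) :
    d.opRes (opOf W xm xo v) = 0 := by
  rcases v with v | v | v | j | v
  · exact (W.exists_op _).choose_spec.2 (valOf_mem W xm xo hm ho _)
  · exact (W.exists_op _).choose_spec.2 (valOf_mem W xm xo hm ho _)
  · exact (W.exists_op _).choose_spec.2 (valOf_mem W xm xo hm ho _)
  · exact (W.exists_op _).choose_spec.2 (valOf_mem W xm xo hm ho _)
  · exact FTraceRing.opRes_gauge v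

end Assembly

/-- The assembly of the coordinates. -/
theorem nonempty_fCoords (d : FAux s r n) (hb : d.HasBound) : Nonempty (FCoords d) := by
  classical
  obtain ⟨W, hnorm⟩ := exists_fTraceRing_normal d
  obtain ⟨xm, hvm, hmain⟩ := W.exists_mainWorld hnorm hb
  obtain ⟨xo, hvo, hoth⟩ := W.exists_otherVars hb
  have hxm : ∀ j, xm j ∈ maximalIdeal (GaugeRing W.T s.K) := fun j => hvm (Sum.inr j)
  have hxo : ∀ j, xo j ∈ maximalIdeal (GaugeRing W.T s.K) := fun j => hvo (Sum.inr (Sum.inl j))
  choose fm hfm0 hfm hfmT using hmain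
  choose fo hfo0 hfo using hoth
  set val := valOf W xm xo with hval
  have hvalmem : ∀ v, val v ∈ maximalIdeal (GaugeRing W.T s.K) := valOf_mem W xm xo hxm hxo
  let worlds : Worlds s.O (s.shape r) :=
    { psi := Sum.elim (Sum.elim (fun j => fm (val (Sum.inr (Sum.inr (Sum.inl (Sum.inl j))))))
          fun _ => 0) fun j => fm (val (Sum.inr (Sum.inr (Sum.inr j))))
      phi := fun v => fo (val (Sum.inr (Sum.map id Sum.inr v)))
      psi_mem := by
        rintro ((j | ⟨⟩) | j)
        · exact (IsLocalRing.mem_maximalIdeal _).mp (hfm0 _ (hvalmem _))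
        · simp
        · exact (IsLocalRing.mem_maximalIdeal _).mp (hfm0 _ (hvalmem _))
      phi_mem := fun v => (IsLocalRing.mem_maximalIdeal _).mp (hfo0 _ (hvalmem _))
      psi_u := rfl }
  -- evaluation at a point
  have hpe : ∀ {i : Fin (s.K + 1)} {P : d.Pt i} (R : FRep P) (f : (s.shape r).Big s.O),
      R.pe (opOf W xm xo) (opRes_opOf W xm xo hxm hxo) f =
        gaugeMap (W.hom R) s.K (Deform.pev (maximalIdeal (GaugeRing W.T s.K)) val hvalmem f) := by
    intro i P R
    have h : R.pe (opOf W xm xo) (opRes_opOf W xm xo hxm hxo) =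
        (gaugeMap (W.hom R) s.K).comp
          (Deform.pev (maximalIdeal (GaugeRing W.T s.K)) val hvalmem) := by
      refine Deform.algHom_ext_of_X (maximalIdeal (MvPowerSeries s.YVar R.O')) _ _ (fun v => ?_)
        fun v => ?_
      · rw [FRep.pe, Deform.pev_X]
        exact R.opEval_mem (opRes_opOf W xm xo hxm hxo v)
      · rw [FRep.pe, Deform.pev_X, AlgHom.comp_apply, Deform.pev_X]
        exact opEval_opOf W xm xo R v
    exact DFunLike.congr_fun h
  have hmainIncl : ∀ g : (s.shape r).MainRing s.O,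
      Deform.pev (maximalIdeal (GaugeRing W.T s.K)) val hvalmem ((s.shape r).mainIncl g) =
        Deform.pev (maximalIdeal (GaugeRing W.T s.K)) (Sum.elim W.coord xm) hvm g := by
    intro g
    have hh : (fun v => val ((s.shape r).mainVar v)) = Sum.elim W.coord xm :=
      funext fun v => by rcases v with v | v <;> rfl
    have h := map_pev_varIncl (AlgHom.id s.O (GaugeRing W.T s.K)) val hvalmem (s.shape r).mainVar
      (fun v => hvalmem _) g
    exact h.trans (DFunLike.congr_fun (pev_congr hh _ hvm) g)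
  have hothIncl : ∀ g : (s.shape r).OthRing s.O,
      Deform.pev (maximalIdeal (GaugeRing W.T s.K)) val hvalmem ((s.shape r).othIncl g) =
        Deform.pev (maximalIdeal (GaugeRing W.T s.K))
          (Sum.elim W.coord (Sum.elim xo fun _ : Unit => C W.uT)) hvo g := by
    intro g
    have hh : (fun v => val ((s.shape r).othVar v)) =
        Sum.elim W.coord (Sum.elim xo fun _ : Unit => C W.uT) :=
      funext fun v => by rcases v with v | v | v <;> rfl
    have h := map_pev_varIncl (AlgHom.id s.O (GaugeRing W.T s.K)) val hvalmem (s.shape r).othVar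
      (fun v => hvalmem _) g
    exact h.trans (DFunLike.congr_fun (pev_congr hh _ hvo) g)
  -- the relations of the two worlds
  have hmainGen : ∀ {i : Fin (s.K + 1)} {P : d.Pt i} (R : FRep P), FPack.IsMain ⟨i, P, R⟩ →
      ∀ v, R.pe (opOf W xm xo) (opRes_opOf W xm xo hxm hxo) (worlds.mainGen v) = 0 := by
    intro i P R hR v
    rw [Worlds.mainGen, map_sub, hpe, hpe, hmainIncl, Deform.pev_X, sub_eq_zero]
    rcases v with (j | ⟨⟩) | j
    · exact (hfm _ ⟨i, P, R⟩ hR).symm
    · show gaugeMap (W.hom R) s.K (C W.uT) = gaugeMap (W.hom R) s.K (Deform.pev _ _ hvm 0)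
      erw [map_zero, map_zero]
      rw [gaugeMap_C, W.hom_uT (X := ⟨i, P, R⟩) hR, map_zero]
    · exact (hfm _ ⟨i, P, R⟩ hR).symm
  have hothGen : ∀ {i : Fin (s.K + 1)} {P : d.Pt i} (R : FRep P), FPack.IsOther ⟨i, P, R⟩ →
      ∀ g ∈ worlds.othGen, R.pe (opOf W xm xo) (opRes_opOf W xm xo hxm hxo) g = 0 := by
    intro i P R hR g hg
    rw [Worlds.othGen, if_pos (show (s.shape r).flat = true from decide_eq_true hR.1)] at hg
    obtain ⟨v, rfl⟩ := hg
    rw [map_sub, hpe, hpe, hothIncl, Deform.pev_X, sub_eq_zero]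
    exact (hfo _ ⟨i, P, R⟩ hR).symm
  have hdicho : ∀ {i : Fin (s.K + 1)} {P : d.Pt i} (R : FRep P),
      FPack.IsMain ⟨i, P, R⟩ ∨ FPack.IsOther ⟨i, P, R⟩ := by
    intro i P R
    by_cases h : FPack.IsMain ⟨i, P, R⟩
    · exact Or.inl h
    · rw [FPack.IsMain, Classical.not_imp] at h
      exact Or.inr ⟨h.1, (R.flat_or_strict h.1).resolve_right h.2⟩
  -- the matrices at the places
  have hfrob : ∀ {i : Fin (s.K + 1)} {P : d.Pt i} (R : FRep P) (a : Fin s.K),
      ((s.places r).frob a).map (R.pe (opOf W xm xo) (opRes_opOf W xm xo hxm hxo)) =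
        gauged (pushRep W.rep (W.hom R)) s.frame a (s.phi a) := by
    intro i P R a
    refine Matrix.ext fun k l => ?_
    rw [Matrix.map_apply, Places.frob, Matrix.of_apply, hpe, map_add, map_add, Deform.pev_X,
      show (C ((s.places r).centre a k l) : (s.shape r).Big s.O) = algebraMap s.O _ _ from rfl,
      AlgHom.commutes, AlgHom.commutes]
    show _ + gaugeMap (W.hom R) s.K (W.coord (a, true, k, l)) = _
    rw [gaugeCoord_map]
    show _ + (gauged (pushRep W.rep (W.hom R)) s.frame a (s.phi a) -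
      gaugeConst R.O' s.K (s.centreAt a)) k l = _
    rw [Matrix.sub_apply, gaugeConst_eq, Matrix.map_apply]
    exact add_sub_cancel _ _
  have hmono : ∀ {i : Fin (s.K + 1)} {P : d.Pt i} (R : FRep P) (a : Fin s.K),
      ((s.places r).mono a).map (R.pe (opOf W xm xo) (opRes_opOf W xm xo hxm hxo)) =
        gauged (pushRep W.rep (W.hom R)) s.frame a (s.tau a) - 1 := by
    intro i P R a
    refine Matrix.ext fun k l => ?_
    rw [Matrix.map_apply, Places.mono, Matrix.of_apply, hpe, Deform.pev_X]
    exact gaugeCoord_map W.rep s.frame (W.hom R) s.centreAt s.phi s.tau (a, false, k, l)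
  have hdisc : ∀ {i : Fin (s.K + 1)} {P : d.Pt i} (R : FRep P) (a : Fin s.K),
      R.pe (opOf W xm xo) (opRes_opOf W xm xo hxm hxo) ((s.places r).disc a) =
        C (((s.q a : R.O') + 1) ^ 2 - (R.rep (s.phi a)).trace ^ 2) := by
    intro i P R a
    rw [Places.disc, map_sub, map_pow, map_pow,
      AddMonoidHom.map_trace (R.pe (opOf W xm xo) (opRes_opOf W xm xo hxm hxo)), hfrob,
      trace_gauged, pushRep_apply, ← AddMonoidHom.map_trace (W.hom R), W.trace_hom, map_sub,
      map_pow, map_pow, show (C (((s.places r).q a : s.O) + 1) : (s.shape r).Big s.O) =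
        algebraMap s.O _ ((s.q a : s.O) + 1) from rfl, AlgHom.commutes,
      MvPowerSeries.algebraMap_apply, map_add (algebraMap s.O R.O'), map_natCast, map_one]
  refine ⟨{
    worlds := worlds
    wGlob := fun j => gaugeZero s.O s.K (gaugeMap W.tgt s.K (xm j))
    wGlob_mem := fun j => ?_
    trace := fun ℓ => (s.shape r).mainIncl (fm (C (W.ev (MvPolynomial.X ℓ))))
    op := opOf W xm xo
    op_mem := opRes_opOf W xm xo hxm hxo
    op_gauge := fun v => rfl
    local_rel := fun i P R a f hf => ?_
    unr_rel := fun i P R a ha f hf => ?_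
    disc_new := fun i P R a ha hnew => ?_
    disc_old := fun a P R c hc => ?_
    world_rel := fun i P R v g hg => ?_
    main_rel := fun i P R h v => hmainGen R (fun hp => ?_) v
    diamond_rel := fun i P R j => ?_
    trace_rel := fun i P R ℓ g hg => ?_
    wPoint := fun hm => ?_ }⟩
  · haveI := W.isLocalHom_tgt
    have h1 : gaugeMap W.tgt s.K (xm j) ∈ maximalIdeal (GaugeRing s.O s.K) := by
      rw [Ribet.mem_maximalIdeal_iff_constantCoeff, MvPowerSeries.mapAlgHom_apply,
        MvPowerSeries.constantCoeff_map]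
      exact map_nonunit (W.tgt : W.T →+* s.O) _
        ((Ribet.mem_maximalIdeal_iff_constantCoeff _).mp (hxm j))
    exact (Ribet.mem_maximalIdeal_iff_constantCoeff _).mp h1
  · obtain ⟨hd, ht, hd0, hrel⟩ := W.gauged_hom_relation R a
    set Φ := R.pe (opOf W xm xo) (opRes_opOf W xm xo hxm hxo) with hΦ
    simp only [Places.localRels, Set.mem_union, Set.mem_insert_iff, Set.mem_singleton_iff,
      Set.mem_range] at hf
    rcases hf with (rfl | rfl | rfl) | ⟨⟨k, l⟩, rfl⟩
    · rw [map_sub, AlgHom.map_det, AlgHom.mapMatrix_apply, hfrob, hd, sub_eq_zero,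
        show (C ((s.places r).q a : s.O) : (s.shape r).Big s.O) = algebraMap s.O _ _ from rfl,
        AlgHom.commutes, MvPowerSeries.algebraMap_apply, map_natCast, map_natCast, map_natCast]
      rfl
    · rw [AddMonoidHom.map_trace Φ, hmono, ht]
    · rw [AlgHom.map_det, AlgHom.mapMatrix_apply, hmono, hd0]
    · have h1 : ((s.places r).frob a * (s.places r).mono a -
          (C ((s.places r).q a : s.O) : (s.shape r).Big s.O) •
            ((s.places r).mono a * (s.places r).frob a)).map Φ = 0 := by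
        have e : (C ((s.places r).q a : s.O) : (s.shape r).Big s.O) = ((s.q a : ℕ) : _) := by
          rw [map_natCast]; rfl
        rw [e, Nat.cast_smul_eq_nsmul, nsmul_eq_mul]
        show Φ.mapMatrix _ = 0
        rw [map_sub, map_mul, map_mul, map_mul, map_natCast, AlgHom.mapMatrix_apply,
          AlgHom.mapMatrix_apply, hfrob, hmono, hrel, sub_self]
      exact congrFun (congrFun h1 k) l
  · simp only [Places.unrRels, Set.mem_range] at hf
    obtain ⟨⟨k, l⟩, rfl⟩ := hf
    haveI : Fact (s.q a).Prime := ⟨(s.hq a).1⟩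
    have h := congrFun (congrFun (hmono R a) k) l
    rw [Matrix.map_apply] at h
    rw [h, gauged_eq_one_of_eq_one _ _ a (W.pushRep_eq_one R (FTraceRing.rep_eq_one_of_unramified R (s.hq a).1
      (s.hq a).2.1 (d.not_dvd_levQ_q i a ha) (padicPlace_liesOverPrime _) (s.hgen a).tau_mem)),
      sub_self]
    rfl
  · rw [hdisc, R.trace_new a ha hnew, sub_self, map_zero]
  · rw [hdisc, R.emb_inj (R.trace_old a rfl _ hc)]
  · rcases hdicho R with h | h
    · rw [map_mul, hmainGen R h v, zero_mul]
    · rw [map_mul, hothGen R h g hg, mul_zero]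
  · exact R.strict_new hp (h.resolve_left (fun hn => hn hp))
  · rw [hpe]
    erw [map_add (Deform.pev (maximalIdeal (GaugeRing W.T s.K)) val hvalmem), map_ofNat,
      Deform.pev_X]
    show C (R.u j) ^ 2 - gaugeMap (W.hom R) s.K (2 + C ((W.rep (d.tauQ j)).trace - 2)) *
      C (R.u j) + 1 = 0
    rw [map_add, map_ofNat, gaugeMap_C, map_sub, map_ofNat, W.trace_hom, map_sub, map_ofNat,
      add_sub_cancel, ← map_mul, R.tauQ j, map_add, map_pow, map_one]
    ring
  · rcases hdicho R with h | h
    · rw [map_mul, hpe _ ((s.shape r).mainIncl _), hmainIncl, hfm _ ⟨i, P, R⟩ h, gaugeMap_C,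
        W.hom_ev]
    · rw [map_mul, hothGen R h g hg, mul_zero, mul_zero]
  · set w : (Fin s.K × Bool × Fin 2 × Fin 2) ⊕ Fin r → s.O :=
      Sum.elim s.wLoc fun j => gaugeZero s.O s.K (gaugeMap W.tgt s.K (xm j)) with hw
    set χ := (gaugeZero s.O s.K).comp (gaugeMap W.tgt s.K) with hχ
    have hcoord : ∀ v, χ (W.coord v) = s.wLoc v := by
      rintro ⟨a, b, k, l⟩
      show constantCoeff (gaugeMap W.tgt s.K (W.coord (a, b, k, l))) = _
      rw [gaugeCoord_map, W.pushRep_tgt hnorm]
      have h := fun γ => congrFun (congrFun (constantCoeff_gauged s.rW s.frame a γ) k) l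
      simp only [Matrix.map_apply, Algebra.algebraMap_self, RingHom.coe_id, Matrix.map_id] at h
      cases b
      · show constantCoeff ((gauged s.rW s.frame a (s.tau a) - 1) k l) =
          (((s.frame a)⁻¹).val * s.rW (s.tau a) * (s.frame a).val - 1) k l
        rw [Matrix.sub_apply, Matrix.sub_apply, map_sub, h]
        by_cases hkl : k = l
        · subst hkl; simp
        · simp [Matrix.one_apply_ne hkl]
      · show constantCoeff ((gauged s.rW s.frame a (s.phi a) -
            gaugeConst s.O s.K (s.centreAt a)) k l) =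
          (((s.frame a)⁻¹).val * s.rW (s.phi a) * (s.frame a).val -
            frobCentre (s.q a) (s.eps a) (s.beta a)) k l
        rw [Matrix.sub_apply, Matrix.sub_apply, map_sub, h]
        simp [gaugeConst, FSetup.centreAt]
    have hχm : ∀ g : MvPowerSeries ((Fin s.K × Bool × Fin 2 × Fin 2) ⊕ Fin r) s.O,
        Deform.pev (maximalIdeal s.O) w hm g =
        χ (Deform.pev (maximalIdeal (GaugeRing W.T s.K)) (Sum.elim W.coord xm) hvm g) := by
      have e : χ.comp (Deform.pev (maximalIdeal (GaugeRing W.T s.K)) (Sum.elim W.coord xm) hvm) =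
          Deform.pev (maximalIdeal s.O) w hm := by
        have hv : ∀ v, χ (Sum.elim W.coord xm v) = w v := by
          rintro (v | v)
          · exact hcoord v
          · rfl
        refine Deform.algHom_ext_of_X (maximalIdeal s.O) _ _ (fun v => ?_) fun v => ?_
        · rw [AlgHom.comp_apply, Deform.pev_X, hv]
          exact hm v
        · rw [AlgHom.comp_apply, Deform.pev_X, hv]
          exact (Deform.pev_X (maximalIdeal s.O) w hm v).symm
      exact fun g => (DFunLike.congr_fun e g).symm
    have hfmT' : ∀ a, χ (Deform.pev (maximalIdeal (GaugeRing W.T s.K)) (Sum.elim W.coord xm) hvm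
        (fm a)) = χ a := fun a => congrArg (gaugeZero s.O s.K) (hfmT a)
    refine ⟨fun j => ?_, fun ℓ => ⟨fm (C (W.ev (MvPolynomial.X ℓ))), ?_, ?_⟩⟩
    · show Deform.pev (maximalIdeal s.O) w hm (fm (val (Sum.inr (Sum.inr (Sum.inr j))))) = 0
      rw [hχm, hfmT']
      rcases j with j | v
      · show constantCoeff (gaugeMap W.tgt s.K (C ((W.rep (d.tauQ j)).trace - 2))) = 0
        rw [gaugeMap_C, constantCoeff_C, map_sub, map_ofNat, AddMonoidHom.map_trace W.tgt, hnorm,
          FTraceRing.trace_rW_tauQ, sub_self]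
      · show constantCoeff (gaugeMap W.tgt s.K (X v)) = 0
        rw [gaugeMap_X, constantCoeff_X]
    · rw [sub_self]
      exact Ideal.zero_mem _
    · show Deform.pev (maximalIdeal s.O) w hm (fm (C (W.ev (MvPolynomial.X ℓ)))) = _
      rw [hχm, hfmT']
      show constantCoeff (gaugeMap W.tgt s.K (C (W.ev (MvPolynomial.X ℓ)))) = _
      rw [gaugeMap_C, constantCoeff_C, W.tgt_ev]

end Fermat.Agent.Lifting
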