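import Fermat.Agent.Lifting.FPoints
import Fermat.Agent.Lifting.FBound
import Fermat.Agent.Lifting.BGauge
import Fermat.Agent.Ribet.TraceRepGalois

/-!
# Modularity lifting: coordinates on the trace rings of one level

`FCoords` gives for every variable of the big ring an element of the polynomial ring on the good
primes over `O[Δ][[Y]]`; on every point the resulting series satisfy the relations of the
patching data.
-/

set_option autoImplicit false

noncomputable section

namespace Fermat.Agent.Lifting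

open IsLocalRing MvPowerSeries
open Fermat.Agent.Ribet.Avoid (Univ)

variable {s : FSetup} {r n : ℕ}

/-- The gauge variables. -/
abbrev FSetup.YVar (s : FSetup) : Type := Fin s.K × Fin 3

namespace FAux

variable (d : FAux s r n)

/-- The coefficients `O[Δ]`. -/
abbrev UC (_d : FAux s r n) : Type := Univ s.O (s.p ^ (n + 1)) r

instance : NeZero (s.p ^ (n + 1)) := ⟨pow_ne_zero _ s.hp.out.ne_zero⟩

/-- The operators: polynomials in the good primes over `O[Δ][[Y]]`. -/
abbrev Ops : Type := MvPolynomial (GoodIdx d.S) (MvPowerSeries s.YVar d.UC)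

/-- The residual value of an operator. -/
def opRes : d.Ops →+* s.kk :=
  MvPolynomial.eval₂Hom
    (((residue s.O).comp
        (Univ.eval (fun _ : Fin r => (1 : s.O)) fun _ => one_pow _ :
          d.UC →ₐ[s.O] s.O).toRingHom).comp MvPowerSeries.constantCoeff)
    fun ℓ => s.abar ℓ

end FAux

namespace FRep

variable {d : FAux s r n} {i : Fin (s.K + 1)} {P : d.Pt i} (R : FRep P)

/-- The value of an operator at a point. -/
def opEval : d.Ops →+* MvPowerSeries s.YVar R.O' :=
  MvPolynomial.eval₂Hom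
    (MvPowerSeries.map (Univ.eval R.u R.hu : d.UC →ₐ[s.O] R.O').toRingHom)
    fun ℓ => MvPowerSeries.C (R.a ℓ)

/-- An operator residually zero is small at every point. -/
theorem opEval_mem {h : d.Ops} (hh : d.opRes h = 0) :
    R.opEval h ∈ maximalIdeal (MvPowerSeries s.YVar R.O') := by
  set ι := ResidueField.map (algebraMap s.O R.O') with hι
  have : CharP (ResidueField R.O') s.p := charP_of_injective_ringHom ι.injective s.p
  have hu : ∀ j, residue R.O' (R.u j) = 1 := fun j => by
    have h1 : residue R.O' (R.u j) ^ s.p ^ (n + 1) = 1 := by rw [← map_pow, R.hu, map_one]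
    rw [← sub_eq_zero]
    refine eq_zero_of_pow_eq_zero (n := s.p ^ (n + 1)) ?_
    rw [sub_pow_char_pow, h1, one_pow, sub_self]
  have hU : (residue R.O').comp (Univ.eval R.u R.hu : d.UC →ₐ[s.O] R.O').toRingHom =
      ι.comp ((residue s.O).comp (Univ.eval (fun _ : Fin r => (1 : s.O)) fun _ => one_pow _ :
        d.UC →ₐ[s.O] s.O).toRingHom) := by
    refine MonoidAlgebra.ringHom_ext (fun t => ?_) fun g => ?_
    · simp [Univ.eval, MonoidAlgebra.lift_single, Algebra.smul_def, hι]
    · simp [Univ.eval, MonoidAlgebra.lift_single, Univ.groupHom, hu]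
  have key : ((residue R.O').comp MvPowerSeries.constantCoeff).comp R.opEval =
      ι.comp d.opRes := by
    refine MvPolynomial.ringHom_ext (fun t => ?_) fun ℓ => ?_
    · simp only [RingHom.comp_apply, FRep.opEval, FAux.opRes, MvPolynomial.eval₂Hom_C,
        MvPowerSeries.constantCoeff_map]
      exact DFunLike.congr_fun hU _
    · simp only [RingHom.comp_apply, FRep.opEval, FAux.opRes, MvPolynomial.eval₂Hom_X',
        MvPowerSeries.constantCoeff_C]
      exact R.residue_a ℓ.1 ℓ.2.1 ℓ.2.2
  have h2 := DFunLike.congr_fun key h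
  simp only [RingHom.comp_apply, hh, map_zero] at h2
  rw [Ribet.mem_maximalIdeal_iff_constantCoeff, ← residue_eq_zero_iff]
  exact h2

/-- The values of series in the operators `op`. -/
def pe (op : (s.shape r).Var → d.Ops) (hop : ∀ v, d.opRes (op v) = 0) :
    (s.shape r).Big s.O →ₐ[s.O] MvPowerSeries s.YVar R.O' :=
  Deform.pev (maximalIdeal _) (fun v => R.opEval (op v)) fun v => R.opEval_mem (hop v)

end FRep

/-- Coordinates at one level. -/
structure FCoords (d : FAux s r n) where
  /-- the relations of the worlds -/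
  worlds : Worlds s.O (s.shape r)
  /-- the target in the global variables -/
  wGlob : Fin r → s.O
  wGlob_mem : ∀ j, wGlob j ∈ maximalIdeal s.O
  /-- series giving the eigenvalues -/
  trace : GoodIdx d.S → (s.shape r).Big s.O
  /-- the values of the variables -/
  op : (s.shape r).Var → d.Ops
  op_mem : ∀ v, d.opRes (op v) = 0
  op_gauge : ∀ v : s.YVar,
    op (Sum.inr (Sum.inr (Sum.inr (Sum.inr v)))) = MvPolynomial.C (MvPowerSeries.X v)
  local_rel : ∀ i (P : d.Pt i) (R : FRep P) (a : Fin s.K),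
    ∀ f ∈ (s.places r).localRels a, R.pe op op_mem f = 0
  unr_rel : ∀ i (P : d.Pt i) (R : FRep P) (a : Fin s.K), (i : ℕ) ≤ a →
    ∀ f ∈ (s.places r).unrRels a, R.pe op op_mem f = 0
  disc_new : ∀ i (P : d.Pt i) (R : FRep P) (a : Fin s.K), (a : ℕ) < i → P.NewAt (s.q a) →
    R.pe op op_mem ((s.places r).disc a) = 0
  disc_old : ∀ (a : Fin s.K) (P : d.Pt a.castSucc) (R : FRep P) (c : R.O'),
    P.HasEigen (s.q a) (R.emb c) →
      R.pe op op_mem ((s.places r).disc a) =
        MvPowerSeries.C (((s.q a : R.O') + 1) ^ 2 - c ^ 2)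
  world_rel : ∀ i (P : d.Pt i) (R : FRep P) v, ∀ g ∈ worlds.othGen,
    R.pe op op_mem (worlds.mainGen v * g) = 0
  main_rel : ∀ i (P : d.Pt i) (R : FRep P),
    (¬ s.p ∣ s.N ∨ P.NewAt s.p) → ∀ v, R.pe op op_mem (worlds.mainGen v) = 0
  diamond_rel : ∀ i (P : d.Pt i) (R : FRep P) (j : Fin r),
    MvPowerSeries.C (R.u j) ^ 2 -
      R.pe op op_mem (2 + X (Sum.inr (Sum.inr (Sum.inr (Sum.inl j))))) *
        MvPowerSeries.C (R.u j) + 1 = 0
  trace_rel : ∀ i (P : d.Pt i) (R : FRep P) (ℓ : GoodIdx d.S), ∀ g ∈ worlds.othGen,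
    R.pe op op_mem (trace ℓ * g) = MvPowerSeries.C (R.a ℓ) * R.pe op op_mem g
  wPoint : ∀ (hm : ∀ v, Sum.elim s.wLoc wGlob v ∈ maximalIdeal s.O),
    (∀ j : (s.shape r).SVar,
      Deform.pev (maximalIdeal s.O) (Sum.elim s.wLoc wGlob) hm (worlds.psi (Sum.inr j)) = 0) ∧
    ∀ ℓ : GoodIdx d.S, ∃ f : (s.shape r).MainRing s.O,
      trace ℓ - (s.shape r).mainIncl f ∈ Ideal.span (Set.range worlds.mainGen) ∧
      Deform.pev (maximalIdeal s.O) (Sum.elim s.wLoc wGlob) hm f = s.aW ℓ

end Fermat.Agent.Lifting
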