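import Fermat.Agent.Lifting.BGaugeLemmas
import Fermat.Agent.Deform.MatrixRep

/-!
# Naturality and invariants of the gauged coordinates
-/

set_option autoImplicit false
set_option linter.style.haveILetI false

noncomputable section

namespace Fermat.Agent.Lifting

open IsLocalRing MvPowerSeries

variable {O : Type} [CommRing O] {T S : Type} [CommRing T] [Algebra O T] [CommRing S]
  [Algebra O S] {G : Type} [Group G] {K : ℕ}
  (ρ : G →* Matrix (Fin 2) (Fin 2) T) (P : Fin K → GL (Fin 2) O)

/-- Change of coefficients in the gauge ring. -/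
abbrev gaugeMap (π : T →ₐ[O] S) (K : ℕ) : GaugeRing T K →ₐ[O] GaugeRing S K :=
  MvPowerSeries.mapAlgHom π

theorem gaugeMap_C (π : T →ₐ[O] S) (t : T) :
    gaugeMap π K (C t) = C (π t) := MvPowerSeries.map_C (π : T →+* S) t

theorem gaugeMap_X (π : T →ₐ[O] S) (v : Fin K × Fin 3) : gaugeMap π K (X v) = X v :=
  MvPowerSeries.map_X (π : T →+* S) v

theorem gaugeMap_surjective (π : T →ₐ[O] S) (h : Function.Surjective π) :
    Function.Surjective (gaugeMap π K) := fun f => by
  choose g hg using fun d => h (coeff d f)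
  exact ⟨g, MvPowerSeries.ext fun d => (MvPowerSeries.coeff_map (π : T →+* S) d g).trans (hg d)⟩

theorem gaugeMap_eq_zero_iff (π : T →ₐ[O] S) (f : GaugeRing T K) :
    gaugeMap π K f = 0 ↔ ∀ d, π (coeff d f) = 0 := by
  rw [MvPowerSeries.ext_iff]
  simp [MvPowerSeries.mapAlgHom_apply, MvPowerSeries.coeff_map]

/-- The represented matrices, pushed forward. -/
def pushRep (π : T →ₐ[O] S) : G →* Matrix (Fin 2) (Fin 2) S :=
  (π : T →+* S).mapMatrix.toMonoidHom.comp ρ

theorem pushRep_apply (π : T →ₐ[O] S) (γ : G) : pushRep ρ π γ = (ρ γ).map π := rfl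

theorem gauged_mul (a : Fin K) (γ δ : G) :
    gauged ρ P a (γ * δ) = gauged ρ P a γ * gauged ρ P a δ := by
  have hu := isUnit_det_gaugeMat (T := T) (K := K) a
  have hP : gaugeConst T K (P a).val * gaugeConst T K ((P a)⁻¹ : GL (Fin 2) O).val = 1 := by
    rw [gaugeConst, gaugeConst, ← Matrix.map_mul, ← Matrix.map_mul, Units.mul_inv,
      Matrix.map_one _ (map_zero _) (map_one _), Matrix.map_one _ (map_zero _) (map_one _)]
  simp only [gauged, map_mul, Matrix.map_mul]
  set Y := gaugeMat fun i => (X (a, i) : GaugeRing T K)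
  set Q := gaugeConst T K ((P a)⁻¹ : GL (Fin 2) O).val
  set Q' := gaugeConst T K (P a).val
  set A := (ρ γ).map (C : T →+* GaugeRing T K)
  set B := (ρ δ).map (C : T →+* GaugeRing T K)
  calc Y * (Q * (A * B) * Q') * Y⁻¹ = Y * Q * A * (Q' * Q) * B * Q' * Y⁻¹ := by
        rw [hP, mul_one]; simp only [mul_assoc]
    _ = Y * (Q * A * Q') * (Y⁻¹ * Y) * (Q * B * Q') * Y⁻¹ := by
        rw [Matrix.nonsing_inv_mul _ hu, mul_one]; simp only [mul_assoc]
    _ = _ := by simp only [mul_assoc]

theorem gauged_eq_one_of_eq_one (a : Fin K) {γ : G} (h : ρ γ = 1) : gauged ρ P a γ = 1 := by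
  have hu := isUnit_det_gaugeMat (T := T) (K := K) a
  rw [gauged, h, Matrix.map_one _ (map_zero _) (map_one _), mul_one]
  rw [gaugeConst, gaugeConst, ← Matrix.map_mul, ← Matrix.map_mul, Units.inv_mul,
    Matrix.map_one _ (map_zero _) (map_one _), Matrix.map_one _ (map_zero _) (map_one _), mul_one,
    Matrix.mul_nonsing_inv _ hu]

theorem det_gauged (a : Fin K) (γ : G) : (gauged ρ P a γ).det = C (ρ γ).det := by
  have hu := isUnit_det_gaugeMat (T := T) (K := K) a
  have hP : (gaugeConst T K ((P a)⁻¹ : GL (Fin 2) O).val).det *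
      (gaugeConst T K (P a).val).det = 1 := by
    rw [← Matrix.det_mul, gaugeConst, gaugeConst, ← Matrix.map_mul, ← Matrix.map_mul,
      Units.inv_mul, Matrix.map_one _ (map_zero _) (map_one _),
      Matrix.map_one _ (map_zero _) (map_one _), Matrix.det_one]
  rw [gauged, Matrix.det_conj ((Matrix.isUnit_iff_isUnit_det _).mpr hu), Matrix.det_mul,
    Matrix.det_mul, mul_right_comm, hP, one_mul]
  exact (RingHom.map_det (C : T →+* GaugeRing T K) (ρ γ)).symm

theorem trace_gauged (a : Fin K) (γ : G) : (gauged ρ P a γ).trace = C (ρ γ).trace := by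
  have hu := isUnit_det_gaugeMat (T := T) (K := K) a
  rw [gauged, Matrix.trace_mul_cycle, Matrix.nonsing_inv_mul _ hu, one_mul, Matrix.trace_mul_cycle,
    gaugeConst, gaugeConst, ← Matrix.map_mul, ← Matrix.map_mul, ← Matrix.map_mul, Units.mul_inv,
    Matrix.map_one _ (map_zero _) (map_one _), one_mul]
  exact (AddMonoidHom.map_trace (C : T →+* GaugeRing T K) (ρ γ)).symm

theorem gauged_map [IsLocalRing O] (π : T →ₐ[O] S) (a : Fin K) (γ : G) :
    (gauged ρ P a γ).map (gaugeMap π K) = gauged (pushRep ρ π) P a γ := by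
  have hu := isUnit_det_gaugeMat (T := T) (K := K) a
  have hY : (gaugeMat fun i => (X (a, i) : GaugeRing T K)).map (gaugeMap π K) =
      gaugeMat fun i => (X (a, i) : GaugeRing S K) := by
    rw [← AlgHom.coe_toRingHom, gaugeMat_map]
    exact congrArg gaugeMat (funext fun i => gaugeMap_X π (a, i))
  have hc : ∀ M : Matrix (Fin 2) (Fin 2) O,
      (gaugeConst T K M).map (gaugeMap π K) = gaugeConst S K M := fun M => by
    ext i j
    simp [gaugeConst, MvPowerSeries.mapAlgHom_apply, MvPowerSeries.map_C]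
  have hρ : ((ρ γ).map (C : T →+* GaugeRing T K)).map (gaugeMap π K) =
      (pushRep ρ π γ).map (C : S →+* GaugeRing S K) := by
    ext i j
    simp [pushRep_apply, MvPowerSeries.mapAlgHom_apply, MvPowerSeries.map_C]
  have h := congrArg (fun M => M.map (gaugeMap π K)) (gauged_mul_gaugeMat ρ P a γ)
  simp only [framed, Matrix.map_mul, hY, hc, hρ] at h
  rw [gauged.eq_def (pushRep ρ π), ← h,
    Matrix.mul_nonsing_inv_cancel_right _ _ (isUnit_det_gaugeMat (T := S) (K := K) a)]

theorem gaugeCoord_map [IsLocalRing O] (π : T →ₐ[O] S) (Z : Fin K → Matrix (Fin 2) (Fin 2) O) (φ τ : Fin K → G)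
    (v : Fin K × Bool × Fin 2 × Fin 2) :
    gaugeMap π K (gaugeCoord ρ P Z φ τ v) = gaugeCoord (pushRep ρ π) P Z φ τ v := by
  obtain ⟨a, b, i, j⟩ := v
  cases b
  · show gaugeMap π K ((gauged ρ P a (τ a) - 1) i j) = (gauged (pushRep ρ π) P a (τ a) - 1) i j
    rw [Matrix.sub_apply, Matrix.sub_apply, map_sub, ← gauged_map, Matrix.map_apply]
    by_cases hij : i = j
    · subst hij; simp
    · simp [Matrix.one_apply_ne hij]
  · show gaugeMap π K ((gauged ρ P a (φ a) - gaugeConst T K (Z a)) i j) =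
      (gauged (pushRep ρ π) P a (φ a) - gaugeConst S K (Z a)) i j
    rw [Matrix.sub_apply, Matrix.sub_apply, map_sub, ← gauged_map, Matrix.map_apply]
    simp [gaugeConst, MvPowerSeries.mapAlgHom_apply, MvPowerSeries.map_C]

end Fermat.Agent.Lifting
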