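import Fermat.Agent.Lifting.FTangentFlat

/-!
# Strictly ordinary representations give ordinary tangent cocycles
-/

set_option autoImplicit false
set_option linter.style.haveILetI false

noncomputable section

namespace Fermat.Agent.Lifting

open IsLocalRing Module Fermat.Agent Fermat.Agent.Deform

local notation "Γℚ" => AlgebraicClosure ℚ ≃ₐ[ℚ] AlgebraicClosure ℚ

variable {O : Type} [CommRing O] [IsLocalRing O]
variable {T : Type} [CommRing T] [IsLocalRing T] [Algebra O T]
variable {ψ : T →ₐ[O] ResidueField O} {f : T →ₗ[O] ResidueField O}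
variable (R : GaloisRepAdic T) (b : Basis (Fin 2) T R.V) {ρbar : ResidualGaloisRep (ResidueField O)}

/-- **The strict ordinary condition on tangent cocycles.** -/
theorem resLoc_tangentCocycle_mem_ordLocal (p : ℕ) [Fact p.Prime] (hp2 : p ≠ 2)
    (hr0 : ∀ γ, (repMat b R.ρ γ).map ψ = TW.matRep ρbar γ)
    (hdetc : ∀ γ, ∃ t : O, (repMat b R.ρ γ).det = algebraMap O T t)
    (hdet : R.DetIsCyclotomic p) (hord : R.IsStrictOrdinaryAt p) (hf : IsTangent ψ f) :
    TW.resLoc p (tangentCocycle (repMat b R.ρ) (TW.matRep ρbar) f) ∈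
      TW.ordLocal p (TW.locRep ρbar p) := by
  have hp : p.Prime := Fact.out
  have hψp : ψ (p : T) = 0 := (mem_maximalIdeal_iff_algHom ψ _).1 hord.1
  have hpk : ((p : ℕ) : ResidueField O) = 0 := by rwa [map_natCast] at hψp
  have hchar : CharP (ResidueField O) p :=
    (CharP.charP_iff_prime_eq_zero hp).mpr hpk
  have h2k : (2 : ResidueField O) ≠ 0 := fun h => by
    have h' := (CharP.cast_eq_zero_iff (ResidueField O) p 2).mp (by exact_mod_cast h)
    exact hp2 ((Nat.prime_dvd_prime_iff_eq hp Nat.prime_two).mp h')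
  have hfnat : ∀ n : ℕ, f (n : T) = 0 := fun n => by
    rw [← map_natCast (algebraMap O T)]
    exact hf.map_algebraMap n
  have hfker : ∀ t ∈ Ideal.span {(p : T)}, f t = 0 := fun t ht => by
    obtain ⟨u, rfl⟩ := Ideal.mem_span_singleton'.mp ht
    rw [hf.map_mul, hψp, hfnat, mul_zero, zero_mul, add_zero]
  set c := tangentCocycle (repMat b R.ρ) (TW.matRep ρbar) f with hc
  obtain ⟨L, ⟨bL, hL⟩, hD, hI, hχ⟩ := hord.2 _ (padicPlace_liesOverPrime p)
  subst hL
  have hcol : ∀ σ (v : R.V),
      b.equivFun (R.ρ σ v) = (repMat b R.ρ σ).mulVec (b.equivFun v) := fun σ v =>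
    (LinearMap.toMatrix_mulVec_repr b b (R.ρ σ) v).symm
  let vR : Fin 2 → T := b.equivFun (bL 0)
  let v0 : Fin 2 → ResidueField O := ψ ∘ vR
  let v1 : Fin 2 → ResidueField O := f ∘ vR
  have hv0 : v0 ≠ 0 := fun h => by
    have h1 : bL 0 ∈ maximalIdeal T • (⊤ : Submodule T R.V) :=
      mem_smul_top_of_forall b _ fun i => (mem_maximalIdeal_iff_algHom ψ _).2 (congrFun h i)
    have h2 := repr_mem_of_mem_smul_top bL _ h1 0
    rw [Basis.repr_self, Finsupp.single_eq_same] at h2
    exact h2 isUnit_one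
  obtain ⟨M, hMt, hM⟩ := TW.exists_trZero_mulVec_eq v0 v1 hv0
  have hcts : TW.resLoc p c + TW.adD (TW.locRep ρbar p) M ∈
      TW.ctsCocycles p (TW.locRep ρbar p) := by
    rw [← TW.resLoc_adD, ← map_add]
    exact TW.resLoc_mem_ctsCocycles ρbar p (add_mem
      ⟨tangentCocycle_mem hr0 hdetc hf,
        tangentCocycle_mem_globalFiniteLevel hr0 (exists_level_of_basis R b 2) hf⟩
      ⟨TW.adD_mem_adCocycles_any _ _, TW.adD_matRep_mem_globalFiniteLevel ρbar M⟩)
  -- lifts of residual vectors
  have hlift : ∀ w : Fin 2 → ResidueField O, ∃ W : R.V,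
      ψ ∘ b.equivFun W = w ∧ f ∘ b.equivFun W = 0 := by
    intro w
    choose c hc using fun i => residue_surjective (w i)
    refine ⟨b.equivFun.symm fun i => algebraMap O T (c i), ?_, ?_⟩
    · funext i
      simp only [Function.comp_apply, LinearEquiv.apply_symm_apply, algHom_algebraMap_eq_residue, hc]
    · funext i
      simp only [Function.comp_apply, LinearEquiv.apply_symm_apply, hf.map_algebraMap, Pi.zero_apply]
  -- applying `π` and `δ` to membership in the line
  have hline : ∀ (σ : Γ) (W : R.V) (z : T),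
      R.ρ σ W - z • W ∈ Submodule.span T {bL 0} →
      f z = 0 → f ∘ b.equivFun W = 0 → ∃ α β : ResidueField O,
        (TW.matRep ρbar σ).mulVec (ψ ∘ b.equivFun W) - ψ z • (ψ ∘ b.equivFun W) = β • v0 ∧
        ((repMat b R.ρ σ).map f).mulVec (ψ ∘ b.equivFun W) = α • v0 + β • v1 := by
    intro σ W z hW hz hW0
    obtain ⟨y, hy⟩ := Submodule.mem_span_singleton.mp hW
    have h1 : (repMat b R.ρ σ).mulVec (b.equivFun W) - z • b.equivFun W = y • vR := by
      rw [← hcol, ← map_smul, ← map_sub, ← hy, map_smul]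
    refine ⟨f y, ψ y, ?_, ?_⟩
    · funext i
      have h2 := congrArg ψ (congrFun h1 i)
      simp only [Pi.sub_apply, Pi.smul_apply, smul_eq_mul, map_sub, map_mul] at h2
      rw [point_map_mulVec, hr0] at h2
      exact h2
    · have h3 := tangent_map_mulVec hf (repMat b R.ρ σ) (b.equivFun W)
      rw [hW0, Matrix.mulVec_zero, add_zero] at h3
      rw [← h3]
      funext i
      have h2 := congrArg f (congrFun h1 i)
      have h4 : f (b.equivFun W i) = 0 := congrFun hW0 i
      simp only [Pi.sub_apply, Pi.smul_apply, smul_eq_mul, map_sub, hf.map_mul, hz, h4,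
        mul_zero, add_zero, sub_zero] at h2
      simp only [Function.comp_apply, Pi.add_apply, Pi.smul_apply, smul_eq_mul, v0, v1, h2]
      ring
  -- the two characters are constant to first order
  have hkey : ∀ σ ∈ (padicPlace p).decompositionSubgroup ℚ, ∃ x z : T,
      ψ x ≠ 0 ∧ f z = 0 ∧
      (∀ W, R.ρ σ W - z • W ∈ Submodule.span T {bL 0}) ∧
      (TW.matRep ρbar σ).mulVec v0 = ψ x • v0 ∧
      ((repMat b R.ρ σ).map f).mulVec v0 + (TW.matRep ρbar σ).mulVec v1 = ψ x • v1 := by
    intro σ hσ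
    obtain ⟨x, z, hx, hz, hxz⟩ := hχ σ hσ
    obtain ⟨a, hpa, ha⟩ := TW.exists_natCast_cyclotomic p σ
    have hak : ((a : ℕ) : ResidueField O) ≠ 0 := fun h =>
      hpa ((CharP.cast_eq_zero_iff (ResidueField O) p a).mp h)
    have h0 : R.ρ σ (bL 0) = x • bL 0 := hx _ (Submodule.mem_span_singleton_self _)
    obtain ⟨y1, hy1⟩ := Submodule.mem_span_singleton.mp (hz (bL 1))
    have h1 : R.ρ σ (bL 1) = z • bL 1 + y1 • bL 0 := eq_add_of_sub_eq' hy1.symm
    have hdetσ : LinearMap.det (R.ρ σ) = x * z := by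
      rw [← LinearMap.det_toMatrix bL, Matrix.det_fin_two]
      simp [LinearMap.toMatrix_apply, h0, h1]
    have hd := hdet.2 1 σ a ha
    have hx' := hxz 1 a ha
    rw [pow_one, hdetσ] at hd
    rw [pow_one] at hx'
    have d1 := hfker _ hd
    have d2 := hfker _ hx'
    have hker : ∀ t ∈ Ideal.span {(p : T)}, ψ t = 0 := fun t ht => by
      obtain ⟨u, rfl⟩ := Ideal.mem_span_singleton'.mp ht
      rw [map_mul, hψp, mul_zero]
    have e1 := hker _ hd
    have e2 := hker _ hx'
    rw [map_sub, map_mul, map_natCast, sub_eq_zero] at e1 e2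
    rw [map_sub, hf.map_mul, hfnat, sub_zero] at d1
    rw [map_sub, hf.map_mul, hfnat, mul_zero, add_zero, map_natCast,
      sub_eq_zero] at d2
    have hzz : ψ z ≠ 0 := fun h => by
      rw [h, mul_zero] at e1
      exact hak e1.symm
    have hxx : ψ x ≠ 0 := fun h => by
      rw [h, zero_mul] at e1
      exact hak e1.symm
    have hfz : f z = 0 := by
      have h3 : (2 * (a : ResidueField O) * ψ z) * f z = 0 := by
        linear_combination d1 - ψ z * d2 - f z * e2
      exact (mul_eq_zero.mp h3).resolve_left (mul_ne_zero (mul_ne_zero h2k hak) hzz)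
    have hfx : f x = 0 := by rw [d2, hfz, mul_zero]
    refine ⟨x, z, hxx, hfz, hz, ?_, ?_⟩
    · have h2 : (repMat b R.ρ σ).mulVec vR = x • vR := by rw [← hcol, h0, map_smul]
      funext i
      have h3 := congrArg ψ (congrFun h2 i)
      rw [point_map_mulVec, hr0] at h3
      simpa [v0] using h3
    · have h2 : (repMat b R.ρ σ).mulVec vR = x • vR := by rw [← hcol, h0, map_smul]
      have h3 := tangent_map_mulVec hf (repMat b R.ρ σ) vR
      rw [hr0, h2] at h3
      refine h3.symm.trans ?_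
      funext i
      simp [v1, hf.map_mul, hfx]
  have hinv : ∀ σ u, (TW.matRep ρbar σ).mulVec ((TW.matRep ρbar σ⁻¹).mulVec u) = u := fun σ u => by
    rw [Matrix.mulVec_mulVec, ← map_mul, mul_inv_cancel, map_one, Matrix.one_mulVec]
  have hc' : ∀ g, ∀ w : Fin 2 → ResidueField O,
      ((TW.resLoc p c + TW.adD (TW.locRep ρbar p) M) g).mulVec
          ((TW.matRep ρbar (localGaloisToGlobal p g)).mulVec w) =
        ((repMat b R.ρ (localGaloisToGlobal p g)).map f).mulVec w +
          (TW.matRep ρbar (localGaloisToGlobal p g)).mulVec (M.mulVec w) -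
          M.mulVec ((TW.matRep ρbar (localGaloisToGlobal p g)).mulVec w) := by
    intro g w
    show (c (localGaloisToGlobal p g) + TW.adD (TW.locRep ρbar p) M g).mulVec _ = _
    rw [Matrix.add_mulVec, Matrix.mulVec_mulVec, tangentCocycle_mul_self, TW.adD_apply,
      Matrix.sub_mulVec]
    show _ + ((TW.matRep ρbar (localGaloisToGlobal p g) * M *
      TW.matRep ρbar (localGaloisToGlobal p g⁻¹)).mulVec _ - _) = _
    rw [map_inv, Matrix.mulVec_mulVec _ (TW.matRep ρbar (localGaloisToGlobal p g) * M *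
      TW.matRep ρbar (localGaloisToGlobal p g)⁻¹), mul_assoc _ (TW.matRep ρbar _⁻¹), ← map_mul,
      inv_mul_cancel, map_one, mul_one, ← Matrix.mulVec_mulVec w, ← add_sub_assoc]
  have hmem : TW.resLoc p c + TW.adD (TW.locRep ρbar p) M ∈ TW.ordCocycles p (TW.locRep ρbar p) := by
    refine Submodule.subset_span ⟨hcts, v0, hv0, fun g => ?_, fun g hg w => ?_, fun g => ?_,
      fun g w => ?_⟩
    · obtain ⟨x, z, -, -, -, h, -⟩ := hkey _ (localGaloisToGlobal_mem_decompositionSubgroup p g)
      exact Submodule.mem_span_singleton.mpr ⟨ψ x, h.symm⟩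
    · obtain ⟨W, hW, hW0⟩ := hlift w
      obtain ⟨α, β, h1, -⟩ := hline _ W 1
        (by rw [one_smul]; exact hI _ (TW.localGaloisToGlobal_mem_inertiaSubgroupIn p hg) W)
        hf.map_one hW0
      rw [hW, map_one, one_smul] at h1
      exact Submodule.mem_span_singleton.mpr ⟨β, h1.symm⟩
    · obtain ⟨x, z, hxx, -, -, h, h'⟩ := hkey _ (localGaloisToGlobal_mem_decompositionSubgroup p g)
      have h1 := hc' g v0
      rw [h, Matrix.mulVec_smul, Matrix.mulVec_smul, hM, h', sub_self] at h1
      exact (smul_eq_zero.mp h1).resolve_left hxx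
    · obtain ⟨x, z, -, hz0, hz, -, -⟩ := hkey _ (localGaloisToGlobal_mem_decompositionSubgroup p g)
      rw [← hinv (localGaloisToGlobal p g) w, hc']
      set u := (TW.matRep ρbar (localGaloisToGlobal p g)⁻¹).mulVec w
      obtain ⟨W, hW, hW0⟩ := hlift u
      obtain ⟨α, β, h1, h2⟩ := hline _ W z (hz W) hz0 hW0
      obtain ⟨W', hW', hW0'⟩ := hlift (M.mulVec u)
      obtain ⟨α', β', h1', -⟩ := hline _ W' z (hz W') hz0 hW0'
      rw [hW] at h1 h2
      rw [hW'] at h1'
      refine Submodule.mem_span_singleton.mpr ⟨α + β', ?_⟩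
      rw [sub_eq_iff_eq_add] at h1 h1'
      rw [h2, h1, h1', Matrix.mulVec_add, Matrix.mulVec_smul, Matrix.mulVec_smul, hM]
      funext i
      simp only [Pi.add_apply, Pi.sub_apply, Pi.smul_apply, smul_eq_mul]
      ring
  refine Submodule.mem_sup.mpr ⟨_, hmem, -(TW.adD (TW.locRep ρbar p) M), ?_, by abel⟩
  exact neg_mem (Submodule.mem_map_of_mem (LinearMap.mem_ker.mpr hMt))

end Fermat.Agent.Lifting
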