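import Fermat.Agent.Lifting.FCoordsWorld
import Fermat.Agent.Lifting.FCoordsAtP
import Fermat.Agent.Lifting.FTangentOrd
import Fermat.Agent.Ribet.Avoid.CoordsProduct

/-!
# The conditions at `p` of the two worlds
-/

set_option autoImplicit false
set_option linter.style.haveILetI false

noncomputable section

namespace Fermat.Agent.Lifting

open IsLocalRing Fermat.Agent.Deform Module

namespace FSetup

variable (s : FSetup) {T : Type} [CommRing T] [IsLocalRing T] [IsNoetherianRing T]
  [Algebra s.O T] [Module.Finite s.O T] [IsAdicComplete (maximalIdeal T) T]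
  (ψ : T →ₐ[s.O] s.kk) {rep : Γ →* M2 T} (hrep : MCont rep)
  {ι : Type} [Nonempty ι] {E : ι → Type} [∀ i, CommRing (E i)] [∀ i, IsLocalRing (E i)]
  [∀ i, Algebra s.O (E i)] (hom : ∀ i, T →ₐ[s.O] E i)
  (hloc : ∀ i, IsLocalHom (hom i : T →+* E i))

omit [IsNoetherianRing T] [Module.Finite s.O T] [IsAdicComplete (maximalIdeal T) T] in
/-- The base change of the representation of a world to a point. -/
theorem isEquiv_worldRep_baseChange (i : ι) :
    ((toRep (s.worldRep hom rep) (s.mcont_worldRep ψ hrep hom)).baseChangeAlong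
      (worldHom hom i : WorldRing hom →+* E i) (isLocalHom_worldHom hom hloc i)).IsEquiv
      (toRep (pushRep rep (hom i)) (mcont_mapRep (hom i : T →+* E i) (hloc i) rep hrep)) := by
  have h := isEquiv_baseChangeAlong_toRep (worldHom hom i : WorldRing hom →+* E i)
    (isLocalHom_worldHom hom hloc i) (s.worldRep hom rep) (s.mcont_worldRep ψ hrep hom)
  exact h

omit [Module.Finite s.O T] [IsAdicComplete (maximalIdeal T) T] [IsNoetherianRing T] in
include ψ in
theorem detIsCyclotomic_worldRep (hdet : (toRep rep hrep).DetIsCyclotomic s.p) :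
    (toRep (s.worldRep hom rep) (s.mcont_worldRep ψ hrep hom)).DetIsCyclotomic s.p := by
  refine ⟨?_, fun n σ a ha => ?_⟩
  · rw [mem_maximalIdeal_iff_algHom (worldPoint hom ψ), map_natCast]
    simpa only [map_natCast] using (mem_maximalIdeal_iff_algHom ψ _).mp hdet.1
  · have h := hdet.2 n σ a ha
    rw [det_toRep_matrix] at h ⊢
    have h1 := Ideal.mem_map_of_mem (worldMk hom : T →+* WorldRing hom) h
    rw [Ideal.map_span, Set.image_singleton, map_natCast, map_sub, map_natCast,
      RingHom.map_det] at h1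
    exact h1

omit [IsNoetherianRing T] [Module.Finite s.O T] [IsAdicComplete (maximalIdeal T) T] in
/-- Strict ordinarity of the main world. -/
theorem isStrictOrdinaryAt_worldRep [∀ i, IsNoetherianRing (E i)]
    (hdet : (toRep rep hrep).DetIsCyclotomic s.p)
    (h : ∀ i, (toRep (pushRep rep (hom i))
      (mcont_mapRep (hom i : T →+* E i) (hloc i) rep hrep)).IsStrictOrdinaryAt s.p) :
    (toRep (s.worldRep hom rep) (s.mcont_worldRep ψ hrep hom)).IsStrictOrdinaryAt s.p := by
  refine Ribet.Avoid.isStrictOrdinaryAt_of_jointlyInjective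
    (fun i => (worldHom hom i : WorldRing hom →+* E i)) (isLocalHom_worldHom hom hloc)
    (worldHom_injective hom) _ s.p s.hp2 (s.detIsCyclotomic_worldRep ψ hrep hom hdet) fun i => ?_
  obtain ⟨e⟩ := s.isEquiv_worldRep_baseChange ψ hrep hom hloc i
  exact ETransfer.isStrictOrdinaryAt_of_equiv e.symm (h i)

omit [IsNoetherianRing T] [IsAdicComplete (maximalIdeal T) T] in
/-- Flatness of a world. -/
theorem isFlatAt_worldRep [Finite ι] [∀ i, Module.Finite s.O (E i)]
    (hlocO : ∀ i, IsLocalHom (algebraMap s.O (E i)))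
    (h : ∀ i, (toRep (pushRep rep (hom i))
      (mcont_mapRep (hom i : T →+* E i) (hloc i) rep hrep)).IsFlatAt s.p) :
    (toRep (s.worldRep hom rep) (s.mcont_worldRep ψ hrep hom)).IsFlatAt s.p := by
  haveI := isLocalHom_worldRing hom ψ
  refine Ribet.Avoid.isFlatAt_of_jointlyInjective (worldHom hom) (isLocalHom_worldHom hom hloc)
    (worldHom_injective hom) _ s.p hlocO fun i => ?_
  obtain ⟨e⟩ := s.isEquiv_worldRep_baseChange ψ hrep hom hloc i
  exact ETransfer.isFlatAt_of_equiv e.symm (h i)

/-- The tangent cocycles of a strictly ordinary world are ordinary. -/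
theorem tangentCocycle_worldRep_mem_ord [∀ i, IsNoetherianRing (E i)]
    (hred : ∀ γ, (rep γ).map ψ = TW.matRep s.ρbar γ)
    (hdetc : ∀ γ, ∃ t : s.O, (rep γ).det = algebraMap s.O T t)
    (hdet : (toRep rep hrep).DetIsCyclotomic s.p)
    (h : ∀ i, (toRep (pushRep rep (hom i))
      (mcont_mapRep (hom i : T →+* E i) (hloc i) rep hrep)).IsStrictOrdinaryAt s.p)
    (f : WorldRing hom →ₗ[s.O] s.kk) (hf : IsTangent (worldPoint hom ψ) f) :
    TW.resLoc s.p (tangentCocycle (s.worldRep hom rep) (TW.matRep s.ρbar) f) ∈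
      TW.ordLocal s.p (TW.locRep s.ρbar s.p) := by
  have key := resLoc_tangentCocycle_mem_ordLocal (ψ := worldPoint hom ψ) (ρbar := s.ρbar)
    (toRep (s.worldRep hom rep) (s.mcont_worldRep ψ hrep hom)) (stdBasis _ _) s.p s.hp2
    (fun γ => by rw [repMat_toRep, ← hred γ]; rfl)
    (fun γ => by
      obtain ⟨t, ht⟩ := hdetc γ
      refine ⟨t, ?_⟩
      rw [repMat_toRep, ← (worldMk hom).commutes t, ← ht]
      exact (RingHom.map_det (worldMk hom : T →+* WorldRing hom) (rep γ)).symm)
    (s.detIsCyclotomic_worldRep ψ hrep hom hdet)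
    (s.isStrictOrdinaryAt_worldRep ψ hrep hom hloc hdet h) hf
  rwa [repMat_toRep] at key

/-- The tangent cocycles of a flat world are flat. -/
theorem tangentCocycle_worldRep_mem_flat [Finite ι] [∀ i, Module.Finite s.O (E i)]
    (hlocO : ∀ i, IsLocalHom (algebraMap s.O (E i)))
    (hred : ∀ γ, (rep γ).map ψ = TW.matRep s.ρbar γ)
    (hdetc : ∀ γ, ∃ t : s.O, (rep γ).det = algebraMap s.O T t)
    (h : ∀ i, (toRep (pushRep rep (hom i))
      (mcont_mapRep (hom i : T →+* E i) (hloc i) rep hrep)).IsFlatAt s.p)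
    (f : WorldRing hom →ₗ[s.O] s.kk) (hf : IsTangent (worldPoint hom ψ) f) :
    TW.resLoc s.p (tangentCocycle (s.worldRep hom rep) (TW.matRep s.ρbar) f) ∈
      TW.flatLocal s.p (TW.locRep s.ρbar s.p) := by
  have key := resLoc_tangentCocycle_mem_flatLocal (ψ := worldPoint hom ψ) (ρbar := s.ρbar)
    (toRep (s.worldRep hom rep) (s.mcont_worldRep ψ hrep hom)) (stdBasis _ _) s.p
    (fun γ => by rw [repMat_toRep, ← hred γ]; rfl)
    (fun γ => by
      obtain ⟨t, ht⟩ := hdetc γ
      refine ⟨t, ?_⟩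
      rw [repMat_toRep, ← (worldMk hom).commutes t, ← ht]
      exact (RingHom.map_det (worldMk hom : T →+* WorldRing hom) (rep γ)).symm)
    (s.isFlatAt_worldRep ψ hrep hom hloc hlocO h) hf
  rwa [repMat_toRep] at key

end FSetup

end Fermat.Agent.Lifting
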