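import Fermat.Agent.Lifting.BCotangent

/-!
# Dependent variables of a world

`Φ` evaluates all the variables `κ` in the joint ring `A`; the variables `e : ι → κ` of one world
generate its quotient `π : A → B`.  Then every element of the maximal ideal is a series in these
variables modulo the kernel, with constant term in the maximal ideal.
-/

set_option autoImplicit false
set_option linter.style.haveILetI false

noncomputable section

namespace Fermat.Agent.Lifting

open IsLocalRing MvPowerSeries

variable {O : Type} [CommRing O] [IsLocalRing O] [IsAdicComplete (maximalIdeal O) O]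
variable {A B : Type} [CommRing A] [IsLocalRing A] [Algebra O A]
  [IsAdicComplete (maximalIdeal A) A] [CommRing B] [IsLocalRing B] [Algebra O B]
  [IsAdicComplete (maximalIdeal B) B]
variable {ι κ : Type} [Finite ι] [Finite κ]

/-- The inclusion of the series in the variables of a world. -/
def varIncl (e : ι → κ) : MvPowerSeries ι O →ₐ[O] MvPowerSeries κ O :=
  haveI : IsAdicComplete (Deform.varIdeal κ O) (MvPowerSeries κ O) :=
    inferInstanceAs (IsAdicComplete (Ideal.span (Set.range (X : κ → MvPowerSeries κ O))) _)
  Deform.pev (Deform.varIdeal κ O) (fun v => X (e v)) fun v => Ideal.subset_span ⟨e v, rfl⟩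

omit [IsLocalRing O] [IsAdicComplete (maximalIdeal O) O] in
theorem varIncl_X (e : ι → κ) (v : ι) : varIncl (O := O) e (X v) = X (e v) := by
  haveI : IsAdicComplete (Deform.varIdeal κ O) (MvPowerSeries κ O) :=
    inferInstanceAs (IsAdicComplete (Ideal.span (Set.range (X : κ → MvPowerSeries κ O))) _)
  exact Deform.pev_X _ _ _ v

variable (π : A →ₐ[O] B) (val : κ → A) (hval : ∀ v, val v ∈ maximalIdeal A) (e : ι → κ)
  (hB : ∀ v, π (val (e v)) ∈ maximalIdeal B)

/-- Evaluation of an included series, seen in the quotient. -/
theorem map_pev_varIncl (f : MvPowerSeries ι O) :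
    π (Deform.pev (maximalIdeal A) val hval (varIncl e f)) =
      Deform.pev (maximalIdeal B) (fun v => π (val (e v))) hB f := by
  have h : π.comp ((Deform.pev (maximalIdeal A) val hval).comp (varIncl e)) =
      Deform.pev (maximalIdeal B) (fun v => π (val (e v))) hB := by
    refine Deform.algHom_ext_of_X (maximalIdeal B) _ _ (fun v => ?_) fun v => ?_ <;>
      simp [varIncl_X, Deform.pev_X, hB]
  exact DFunLike.congr_fun h f

/-- **Dependent variables**: modulo the kernel of the world every element of the maximal ideal
is a series in the variables of the world with small constant term. -/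
theorem exists_worldSeries (χ : B →ₐ[O] ResidueField O)
    (hsurj : Function.Surjective (Deform.pev (maximalIdeal B) (fun v => π (val (e v))) hB :
      MvPowerSeries ι O →ₐ[O] B))
    {a : A} (ha : π a ∈ maximalIdeal B) :
    ∃ f : MvPowerSeries ι O, constantCoeff f ∈ maximalIdeal O ∧
      π (Deform.pev (maximalIdeal A) val hval (varIncl e f)) = π a := by
  obtain ⟨f, hf⟩ := hsurj (π a)
  refine ⟨f, ?_, by rw [map_pev_varIncl π val hval e hB, hf]⟩
  set F : MvPowerSeries ι O →ₐ[O] B :=
    Deform.pev (maximalIdeal B) (fun v => π (val (e v))) hB with hF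
  have hsmall : F (f - C (constantCoeff f)) ∈ maximalIdeal B := by
    have h1 : (Deform.varIdeal ι O).map (F : MvPowerSeries ι O →+* B) ≤ maximalIdeal B := by
      rw [Deform.varIdeal, Ideal.map_span, Ideal.span_le]
      rintro _ ⟨_, ⟨v, rfl⟩, rfl⟩
      show F (X v) ∈ maximalIdeal B
      rw [hF, Deform.pev_X]
      exact hB v
    exact h1 (Ideal.mem_map_of_mem _ (Deform.sub_C_constantCoeff_mem f))
  refine mem_of_algebraMap_mem χ ?_
  have hC : F (C (constantCoeff f)) = algebraMap O B (constantCoeff f) := by
    rw [← F.commutes]; rfl
  rw [← hC, ← sub_sub_cancel (F f) (F (C (constantCoeff f))), ← map_sub]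
  exact Ideal.sub_mem _ (by rw [hF, hf]; exact ha) hsmall

/-- The trace series: every element agrees, in the world, with an included series. -/
theorem exists_traceSeries
    (hsurj : Function.Surjective (Deform.pev (maximalIdeal B) (fun v => π (val (e v))) hB :
      MvPowerSeries ι O →ₐ[O] B)) (a : A) :
    ∃ f : MvPowerSeries ι O,
      π (Deform.pev (maximalIdeal A) val hval (varIncl e f)) = π a := by
  obtain ⟨f, hf⟩ := hsurj (π a)
  exact ⟨f, by rw [map_pev_varIncl π val hval e hB, hf]⟩

omit [IsLocalRing O] [IsAdicComplete (maximalIdeal O) O] [IsLocalRing A]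
  [IsAdicComplete (maximalIdeal A) A] [IsLocalRing B] [IsAdicComplete (maximalIdeal B) B] in
/-- Products of elements dying in two worlds are nilpotent as soon as the common kernel is nil. -/
theorem isNilpotent_mul_of_worlds {B' : Type} [CommRing B'] [Algebra O B'] (π' : A →ₐ[O] B')
    (hker : ∀ z, π z = 0 → π' z = 0 → IsNilpotent z) {x y : A} (hx : π x = 0) (hy : π' y = 0) :
    IsNilpotent (x * y) :=
  hker _ (by rw [map_mul, hx, zero_mul]) (by rw [map_mul, hy, mul_zero])

end Fermat.Agent.Lifting
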