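import Fermat.Agent.Lifting.FCoordsSelect
import Fermat.Agent.Lifting.FCoordsWorldP
import Fermat.Agent.Lifting.FWorld

/-!
# The main and the other world of one level
-/

set_option autoImplicit false
set_option linter.style.haveILetI false

noncomputable section

namespace Fermat.Agent.Lifting

open IsLocalRing MvPowerSeries Fermat.Agent.Deform Module

local notation "ℚbar" => AlgebraicClosure ℚ

variable {s : FSetup} {r n : ℕ} {d : FAux s r n}

/-- Coefficient rings of a selection together with the target. -/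
def FamO {ι : Type} (sel : ι → FPack d) : Option ι → Type
  | none => s.O
  | some k => (sel k).R.O'

namespace FamO

variable {ι : Type} (sel : ι → FPack d)

instance instCommRing : ∀ k, CommRing (FamO sel k)
  | none => inferInstanceAs (CommRing s.O)
  | some k => inferInstanceAs (CommRing (sel k).R.O')

instance instLocalRing : ∀ k, IsLocalRing (FamO sel k)
  | none => inferInstanceAs (IsLocalRing s.O)
  | some k => inferInstanceAs (IsLocalRing (sel k).R.O')

instance instNoetherian : ∀ k, IsNoetherianRing (FamO sel k)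
  | none => inferInstanceAs (IsNoetherianRing s.O)
  | some k => inferInstanceAs (IsNoetherianRing (sel k).R.O')

instance instAlgebra : ∀ k, Algebra s.O (FamO sel k)
  | none => inferInstanceAs (Algebra s.O s.O)
  | some k => inferInstanceAs (Algebra s.O (sel k).R.O')

instance instFinite : ∀ k, Module.Finite s.O (FamO sel k)
  | none => inferInstanceAs (Module.Finite s.O s.O)
  | some k => inferInstanceAs (Module.Finite s.O (sel k).R.O')

theorem isLocalHom_algebraMap : ∀ k, IsLocalHom (algebraMap s.O (FamO sel k))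
  | none => ⟨fun _ h => h⟩
  | some k => (sel k).R.instLocal

/-- The maps from the trace ring. -/
def hom (W : FTraceRing d) : ∀ k, W.T →ₐ[s.O] FamO sel k
  | none => W.tgt
  | some k => W.hom (sel k).R

theorem isLocalHom_hom (W : FTraceRing d) :
    ∀ k, IsLocalHom (hom sel W k : W.T →+* FamO sel k)
  | none => W.isLocalHom_tgt
  | some k => W.isLocalHom_hom (sel k).R

end FamO

theorem toRep_congr_rep {A : Type} [CommRing A] [IsLocalRing A] {r₁ r₂ : Γ →* M2 A} (h : r₁ = r₂)
    (h₁ : MCont r₁) (h₂ : MCont r₂) : toRep r₁ h₁ = toRep r₂ h₂ := by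
  subst h
  rfl

theorem pev_congr {𝒪 A ι : Type} [CommRing 𝒪] [CommRing A] [Algebra 𝒪 A] [Finite ι] {I : Ideal A}
    [IsAdicComplete I A] {a b : ι → A} (h : a = b) (ha : ∀ v, a v ∈ I) (hb : ∀ v, b v ∈ I) :
    (Deform.pev I a ha : MvPowerSeries ι 𝒪 →ₐ[𝒪] A) = Deform.pev I b hb := by
  subst h
  rfl

/-- The points of the main world. -/
def FPack.IsMain (X : FPack d) : Prop :=
  s.p ∣ s.N → (toRep X.R.rep X.R.hrep).IsStrictOrdinaryAt s.p

/-- The points of the other world. -/
def FPack.IsOther (X : FPack d) : Prop :=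
  s.p ∣ s.N ∧ (toRep X.R.rep X.R.hrep).IsFlatAt s.p

theorem traceSum_uSum {T : Type} [CommRing T] [Algebra s.O T] (ρ : Γ →* M2 T) :
    traceSum ρ s.uSum = algebraMap s.O T (↑(s.hunitP.unit⁻¹)) *
      ((ρ (s.frobP * s.tauP)).trace -
        algebraMap s.O T (s.rW s.tauP).det * (ρ s.frobP).trace) := by
  rw [traceSum, FSetup.uSum]
  generalize (↑(s.hunitP.unit⁻¹) : s.O) = c
  rw [Finsupp.sum_smul_index' (fun γ => by rw [map_zero, zero_mul]),
    sub_eq_add_neg (Finsupp.single (s.frobP * s.tauP) (1 : s.O)), ← Finsupp.single_neg,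
    Finsupp.sum_add_index' (fun γ => by rw [smul_zero, map_zero, zero_mul])
      (fun γ a b => by rw [smul_add, map_add, add_mul]),
    Finsupp.sum_single_index (by rw [smul_zero, map_zero, zero_mul]),
    Finsupp.sum_single_index (by rw [smul_zero, map_zero, zero_mul])]
  simp only [smul_eq_mul, map_mul (algebraMap s.O T), map_neg, map_one]
  ring

namespace FTraceRing

variable (W : FTraceRing d)

/-- The unit root minus its value in the strict world. -/
def uT : W.T :=
  if s.p ∣ s.N then traceSum W.rep s.uSum - algebraMap s.O W.T s.epsP else 0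

theorem psi_uT : W.psi W.uT = 0 := by
  unfold uT
  split_ifs with hp
  · have ht : ∀ g, W.psi (W.rep g).trace = residue s.O (s.rW g).trace := fun g => by
      rw [AddMonoidHom.map_trace W.psi, W.red, ← s.hred]
      exact (AddMonoidHom.map_trace (residue s.O) (s.rW g)).symm
    rw [map_sub, traceSum_uSum, map_mul W.psi, map_sub, map_mul W.psi, AlgHom.commutes, AlgHom.commutes,
      AlgHom.commutes, ht, ht, ResidueField.algebraMap_eq, ← map_mul, ← map_sub, ← map_mul,
      ← map_sub, s.hPW hp, ← mul_assoc, IsUnit.val_inv_mul, one_mul, sub_self, map_zero]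
  · exact map_zero _

theorem hom_uT {X : FPack d} (hX : X.IsMain) : W.hom X.R W.uT = 0 := by
  by_cases hp : s.p ∣ s.N
  swap
  · rw [uT, if_neg hp, map_zero]
  have hord := hX hp
  obtain ⟨e⟩ := W.isEquiv_hom X.R
  have hu2 : IsUnit (2 : X.R.O') := by
    have h : IsUnit (2 : s.O) := by
      rw [← residue_ne_zero_iff_isUnit, map_ofNat]
      exact s.two_ne_zero_kk
    simpa only [map_ofNat] using h.map (algebraMap s.O X.R.O')
  set r' := pushRep W.rep (W.hom X.R) with hr'
  have hd : (r' s.tauP).det = algebraMap s.O X.R.O' (s.rW s.tauP).det := by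
    rw [← (W.hom X.R).commutes, ← W.det_base]
    exact (RingHom.map_det (W.hom X.R : W.T →+* X.R.O') _).symm
  have hsum : W.hom X.R W.uT = algebraMap s.O X.R.O' (↑(s.hunitP.unit⁻¹)) *
      ((r' (s.frobP * s.tauP)).trace - (r' s.tauP).det * (r' s.frobP).trace) -
      algebraMap s.O X.R.O' s.epsP := by
    rw [uT, if_pos hp, map_sub, traceSum_uSum, map_mul (W.hom X.R), map_sub, map_mul (W.hom X.R), AlgHom.commutes,
      AlgHom.commutes, AlgHom.commutes, hd, hr', pushRep_apply, pushRep_apply,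
      ← AddMonoidHom.map_trace (W.hom X.R), ← AddMonoidHom.map_trace (W.hom X.R)]
  have hmem : W.hom X.R W.uT ∈ maximalIdeal X.R.O' := by
    haveI := W.isLocalHom_hom X.R
    exact map_nonunit (W.hom X.R : W.T →+* X.R.O') _
      ((mem_maximalIdeal_iff_algHom W.psi _).mpr W.psi_uT)
  have hunit : IsUnit (1 - (r' s.tauP).det) := by
    rw [hd, ← map_one (algebraMap s.O X.R.O'), ← map_sub]
    exact s.hunitP.map _
  have hinv : algebraMap s.O X.R.O' (↑(s.hunitP.unit⁻¹)) * (1 - (r' s.tauP).det) = 1 := by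
    rw [hd, ← map_one (algebraMap s.O X.R.O'), ← map_sub, ← map_mul, IsUnit.val_inv_mul, map_one]
  have key := unitRoot_eq_of_strictOrdinary (toRep r' (W.mcont_hom X.R))
    (ETransfer.detIsCyclotomic_of_equiv e.symm X.R.det)
    (ETransfer.isStrictOrdinaryAt_of_equiv e.symm hord) hu2
    s.hfrobP.mem_decompositionSubgroup s.htauP (by rw [det_toRep_matrix]; exact hunit)
    (algebraMap s.O X.R.O' s.epsP) (by rw [← map_pow, s.hepsP, map_one]) (by
      rw [det_toRep_matrix, trace_toRep_matrix, trace_toRep_matrix]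
      have h := Ideal.mul_mem_left _ (1 - (r' s.tauP).det) hmem
      rw [hsum, mul_sub, ← mul_assoc, mul_comm (1 - _) (algebraMap _ _ _), hinv, one_mul] at h
      exact h)
  rw [det_toRep_matrix, trace_toRep_matrix, trace_toRep_matrix] at key
  rw [hsum, key, ← mul_assoc, hinv, one_mul, sub_self]

theorem det_const (g : Γ) : ∃ t : s.O, (W.rep g).det = algebraMap s.O W.T t := ⟨_, W.det_base g⟩

theorem gen' (x : W.T) : ∃ y ∈ Algebra.adjoin s.O (Set.range fun γ => (W.rep γ).trace),
    x - y ∈ maximalIdeal W.T ^ 2 := ⟨x, W.gen x, by rw [sub_self]; exact Ideal.zero_mem _⟩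

/-- The local coordinates. -/
abbrev coord : Fin s.K × Bool × Fin 2 × Fin 2 → GaugeRing W.T s.K :=
  gaugeCoord W.rep s.frame s.centreAt s.phi s.tau

theorem hom_unr {i : Fin (s.K + 1)} {P : d.Pt i} (R : FRep P) {x : ℕ} (hx : x.Prime)
    (h : x ∉ d.S) {A : ValuationSubring ℚbar} (hA : A.LiesOverPrime x) {g : Γ}
    (hg : g ∈ A.inertiaSubgroupIn ℚ) : pushRep W.rep (W.hom R) g = 1 :=
  W.pushRep_eq_one R (rep_eq_one_of_unramified R hx (fun e => h (e ▸ d.p_mem_S))
    (d.not_dvd_levQ i hx h) hA hg)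

theorem tgt_unr (hnorm : ∀ g, (W.rep g).map W.tgt = s.rW g) {x : ℕ} (hx : x.Prime)
    (h : x ∉ s.S0) {A : ValuationSubring ℚbar} (hA : A.LiesOverPrime x) {g : Γ}
    (hg : g ∈ A.inertiaSubgroupIn ℚ) : pushRep W.rep W.tgt g = 1 := by
  rw [s.hS0] at h
  push Not at h
  have h1 := s.hunrW x hx h.1 (fun hN => h.2.1 hx (dvd_mul_of_dvd_left hN _)) h.2.2 A hA g hg
  rw [pushRep_apply, hnorm]
  exact Matrix.toLin'.injective (h1.trans Matrix.toLin'_one.symm)

theorem hom_unip {i : Fin (s.K + 1)} {P : d.Pt i} (R : FRep P) {x : ℕ} [Fact x.Prime]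
    (hN : x ∣ s.N) (hxp : x ≠ s.p) {g : Γ} (hg : g ∈ (padicPlace x).inertiaSubgroupIn ℚ) :
    (pushRep W.rep (W.hom R) g).trace = 2 :=
  (trace_det_of_unipotent (W.isUnipotent_hom R Fact.out hxp (Or.inl hN))
    (padicPlace_liesOverPrime _) hg).1

theorem pushRep_tgt (hnorm : ∀ g, (W.rep g).map W.tgt = s.rW g) :
    pushRep W.rep W.tgt = s.rW := MonoidHom.ext fun g => hnorm g

theorem tgt_unip (hnorm : ∀ g, (W.rep g).map W.tgt = s.rW g) {x : ℕ} [Fact x.Prime]
    (hN : x ∣ s.N) (hxp : x ≠ s.p) {g : Γ} (hg : g ∈ (padicPlace x).inertiaSubgroupIn ℚ) :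
    (pushRep W.rep W.tgt g).trace = 2 := by
  rw [W.pushRep_tgt hnorm]
  exact (trace_det_of_unipotent (s.hunipW x Fact.out hN hxp) (padicPlace_liesOverPrime _) hg).1

/-- **The main world.** -/
theorem exists_mainWorld (hnorm : ∀ g, (W.rep g).map W.tgt = s.rW g) (hb : d.HasBound) :
    ∃ (x : Fin r → GaugeRing W.T s.K)
      (hv : ∀ v, Sum.elim W.coord x v ∈ maximalIdeal (GaugeRing W.T s.K)),
      ∀ a : GaugeRing W.T s.K, ∃ f : MvPowerSeries ((Fin s.K × Bool × Fin 2 × Fin 2) ⊕ Fin r) s.O,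
        (a ∈ maximalIdeal (GaugeRing W.T s.K) → constantCoeff f ∈ maximalIdeal s.O) ∧
        (∀ X : FPack d, X.IsMain →
          gaugeMap (W.hom X.R) s.K (Deform.pev (maximalIdeal (GaugeRing W.T s.K)) _ hv f) =
            gaugeMap (W.hom X.R) s.K a) ∧
        gaugeMap W.tgt s.K (Deform.pev (maximalIdeal (GaugeRing W.T s.K)) _ hv f) =
          gaugeMap W.tgt s.K a := by
  obtain ⟨ι, hι, sel, hsel, hcov⟩ := W.exists_select FPack.IsMain
  have hP : ∀ f, IsTangent (worldPoint (FamO.hom sel W) W.psi) f →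
      tangentCocycle (s.worldRep (FamO.hom sel W) W.rep) (TW.matRep s.ρbar) f ∈ s.mainPCond := by
    intro f hf
    unfold FSetup.mainPCond
    split_ifs with hp
    · refine s.tangentCocycle_worldRep_mem_ord W.psi W.hrep _ (FamO.isLocalHom_hom sel W) W.red
        W.det_const W.det (fun k => ?_) f hf
      match k with
      | none =>
        have h : (toRep (pushRep W.rep W.tgt) (mcont_mapRep (W.tgt : W.T →+* s.O) W.isLocalHom_tgt
            W.rep W.hrep)).IsStrictOrdinaryAt s.p := by
          rw [toRep_congr_rep (W.pushRep_tgt hnorm) _ s.hrW]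
          exact s.hordW hp
        exact h
      | some k =>
        obtain ⟨e⟩ := W.isEquiv_hom (sel k).R
        exact ETransfer.isStrictOrdinaryAt_of_equiv e.symm (hsel k hp)
    · refine s.tangentCocycle_worldRep_mem_flat W.psi W.hrep _ (FamO.isLocalHom_hom sel W)
        (FamO.isLocalHom_algebraMap sel) W.red W.det_const (fun k => ?_) f hf
      match k with
      | none =>
        have h : (toRep (pushRep W.rep W.tgt) (mcont_mapRep (W.tgt : W.T →+* s.O) W.isLocalHom_tgt
            W.rep W.hrep)).IsFlatAt s.p := by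
          rw [toRep_congr_rep (W.pushRep_tgt hnorm) _ s.hrW]
          exact s.hflatW hp
        exact h
      | some k =>
        obtain ⟨e⟩ := W.isEquiv_hom (sel k).R
        exact ETransfer.isFlatAt_of_equiv e.symm ((sel k).R.flat hp)
  obtain ⟨x, hv, hx⟩ := s.exists_worldVars W.psi W.rep W.hrep (FamO.hom sel W) W.red W.det_const
    W.gen' d.S
    (fun k x hx h A hA g hg => by
      match k with
      | none => exact W.tgt_unr hnorm hx (fun h0 => h (Finset.mem_union_left _ h0)) hA hg
      | some k => exact W.hom_unr (sel k).R hx h hA hg)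
    (fun k x _ hN hxp g hg => by
      match k with
      | none => exact W.tgt_unip hnorm hN hxp hg
      | some k => exact W.hom_unip (sel k).R hN hxp hg)
    (J := Empty) Empty.elim (fun j => j.elim) Empty.elim (fun j => j.elim) _ hP r
    (fun V hV hle hloc _ => hb.main V hV hle hloc)
  have hv' : ∀ v, Sum.elim W.coord x v ∈ maximalIdeal (GaugeRing W.T s.K) := by
    rintro (v | j)
    · exact hv (Sum.inl v)
    · exact hv (Sum.inr (Sum.inl j))
  refine ⟨x, hv', fun a => ?_⟩
  obtain ⟨f, hf0, hf⟩ := hx a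
  let e : (Fin s.K × Bool × Fin 2 × Fin 2) ⊕ (Fin r ⊕ Empty) →
      (Fin s.K × Bool × Fin 2 × Fin 2) ⊕ Fin r := Sum.map id (Sum.elim id Empty.elim)
  have hval : ∀ v, (AlgHom.id s.O (GaugeRing W.T s.K)) (Sum.elim W.coord x (e v)) =
      Sum.elim W.coord (Sum.elim x fun j => C (Empty.elim j : W.T)) v := by
    rintro (v | j | j)
    · rfl
    · rfl
    · exact j.elim
  have hpev : Deform.pev (maximalIdeal (GaugeRing W.T s.K)) _ hv' (varIncl e f) =
      Deform.pev (maximalIdeal (GaugeRing W.T s.K)) _ hv f := by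
    have h := map_pev_varIncl (AlgHom.id s.O (GaugeRing W.T s.K)) _ hv' e
      (fun v => by rw [hval]; exact hv v) f
    rw [AlgHom.id_apply] at h
    rw [h]
    exact DFunLike.congr_fun (pev_congr (funext hval) _ hv) f
  refine ⟨varIncl e f, fun ha => ?_, fun X hX => ?_, ?_⟩
  · have h1 := point_pev_eq_residue (gaugePoint W.psi s.K) _ hv' (varIncl e f)
    have h2 := point_pev_eq_residue (gaugePoint W.psi s.K) _ hv f
    rw [hpev, h2] at h1
    have h3 : residue s.O (constantCoeff f) = 0 := Ideal.Quotient.eq_zero_iff_mem.mpr (hf0 ha)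
    exact Ideal.Quotient.eq_zero_iff_mem.mp (h1.symm.trans h3)
  · obtain ⟨k, hk⟩ := hcov X hX
    have h0 : gaugeMap (W.hom (sel k).R) s.K (Deform.pev (maximalIdeal (GaugeRing W.T s.K)) _ hv f) =
        gaugeMap (W.hom (sel k).R) s.K a := hf (some k)
    rw [hpev, ← sub_eq_zero, ← map_sub, gaugeMap_eq_zero_iff]
    intro c
    rw [hk]
    refine (gaugeMap_eq_zero_iff _ _).mp ?_ c
    rw [map_sub, sub_eq_zero]
    exact h0
  · rw [hpev]
    exact hf none

/-- **The other world.** -/
theorem exists_otherWorld (hb : d.HasBound) (hp : s.p ∣ s.N) :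
    ∃ (x : Fin (r - 1) → GaugeRing W.T s.K)
      (hv : ∀ v, Sum.elim W.coord (Sum.elim x fun _ : Unit => C W.uT) v ∈
        maximalIdeal (GaugeRing W.T s.K)),
      ∀ a : GaugeRing W.T s.K, ∃ f : MvPowerSeries
          ((Fin s.K × Bool × Fin 2 × Fin 2) ⊕ (Fin (r - 1) ⊕ Unit)) s.O,
        (a ∈ maximalIdeal (GaugeRing W.T s.K) → constantCoeff f ∈ maximalIdeal s.O) ∧
        ∀ X : FPack d, X.IsOther →
          gaugeMap (W.hom X.R) s.K (Deform.pev (maximalIdeal (GaugeRing W.T s.K)) _ hv f) =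
            gaugeMap (W.hom X.R) s.K a := by
  obtain ⟨ι, hι, sel, hsel, hcov⟩ := W.exists_select FPack.IsOther
  rcases isEmpty_or_nonempty ι with hempty | hne
  · refine ⟨0, ?_, fun a => ⟨0, fun _ => by rw [map_zero]; exact Ideal.zero_mem _, fun X hX => ?_⟩⟩
    · rintro (v | j | j)
      · exact (gaugeVars_mem W.rep W.psi (TW.matRep s.ρbar) W.red s.frame s.centreAt s.phi s.tau
          s.hphi s.matRep_tau (ι := Empty) Empty.elim (fun i => i.elim)) (Sum.inl v)
      · exact Ideal.zero_mem _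
      · exact Ribet.C_mem_maximalIdeal ((mem_maximalIdeal_iff_algHom W.psi _).mpr W.psi_uT)
    · exact isEmptyElim (hcov X hX).choose
  obtain ⟨x, hv, hx⟩ := s.exists_worldVars W.psi W.rep W.hrep (fun k => W.hom (sel k).R) W.red
    W.det_const W.gen' d.S
    (fun k x hx h A hA g hg => W.hom_unr (sel k).R hx h hA hg)
    (fun k x _ hN hxp g hg => W.hom_unip (sel k).R hN hxp hg)
    (J := Unit) (fun _ => W.uT) (fun _ => W.psi_uT) (fun _ => s.uSum)
    (fun _ => ⟨-s.epsP, by rw [uT, if_pos hp, map_neg, neg_add_eq_sub]⟩)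
    ((TW.flatLocal s.p (TW.locRep s.ρbar s.p)).comap (TW.resLoc s.p))
    (fun f hf => s.tangentCocycle_worldRep_mem_flat W.psi W.hrep _
      (fun k => W.isLocalHom_hom (sel k).R) (fun k => (sel k).R.instLocal) W.red W.det_const
      (fun k => by
        obtain ⟨e⟩ := W.isEquiv_hom (sel k).R
        exact ETransfer.isFlatAt_of_equiv e.symm (hsel k).2) f hf)
    (r - 1)
    (fun V hV hle hloc hu => hb.other hp V hV (fun c hc => by
      obtain ⟨c₁, hc₁, c₂, hc₂, rfl⟩ := Submodule.mem_sup.mp (hle hc)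
      obtain ⟨M, hM, rfl⟩ := hc₂
      refine Submodule.mem_sup.mpr ⟨c₁, ⟨hc₁.1, hc₁.2.1, hc₁.2.2, ?_⟩, _, ⟨M, hM, rfl⟩, rfl⟩
      have h1 : s.uForm (c₁ + TW.adD (TW.matRep s.ρbar) M) = 0 := hu () _ hc
      rw [map_add, show s.uForm (TW.adD (TW.matRep s.ρbar) M) = 0 from s.cocycleSum_adD _ M,
        add_zero] at h1
      exact h1) hloc)
  refine ⟨x, hv, fun a => ?_⟩
  obtain ⟨f, hf0, hf⟩ := hx a
  refine ⟨f, hf0, fun X hX => ?_⟩
  obtain ⟨k, hk⟩ := hcov X hX
  rw [← sub_eq_zero, ← map_sub, gaugeMap_eq_zero_iff]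
  intro c
  rw [hk]
  refine (gaugeMap_eq_zero_iff _ _).mp ?_ c
  rw [map_sub, sub_eq_zero]
  exact hf k

end FTraceRing

end Fermat.Agent.Lifting
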