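import Fermat.Agent.Lifting.FCoordsVal

/-!
# Modularity lifting: the trace ring of one level

`FTraceRing d` is the subring generated by the eigenvalues in the product of the coefficient
rings of all the points of the level and of the target, with its representation.
-/

set_option autoImplicit false
set_option linter.style.haveILetI false

noncomputable section

namespace Fermat.Agent.Lifting

open IsLocalRing

local notation "ℚbar" => AlgebraicClosure ℚ
local notation "Γℚ" => AlgebraicClosure ℚ ≃ₐ[ℚ] AlgebraicClosure ℚ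

variable {s : FSetup} {r n : ℕ}

/-- The trace ring of one level. -/
structure FTraceRing (d : FAux s r n) : Type 1 where
  /-- the ring -/
  T : Type
  [instCommRing : CommRing T]
  [instLocalRing : IsLocalRing T]
  [instNoetherian : IsNoetherianRing T]
  [instComplete : IsAdicComplete (maximalIdeal T) T]
  [instAlgebra : Algebra s.O T]
  [instFinite : Module.Finite s.O T]
  [instLocal : IsLocalHom (algebraMap s.O T)]
  /-- the residual point -/
  psi : T →ₐ[s.O] s.kk
  /-- the representation -/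
  rep : Γℚ →* Matrix (Fin 2) (Fin 2) T
  hrep : Deform.MCont rep
  red : ∀ g, (rep g).map psi = TW.matRep s.ρbar g
  det : (Deform.toRep rep hrep).DetIsCyclotomic s.p
  det_base : ∀ g, (rep g).det = algebraMap s.O T (s.rW g).det
  /-- the eigenvalues -/
  ev : MvPolynomial (GoodIdx d.S) s.O →ₐ[s.O] T
  ev_surjective : Function.Surjective ev
  psi_ev : ∀ ℓ, psi (ev (MvPolynomial.X ℓ)) = s.abar ℓ
  gen : ∀ x : T, x ∈ Algebra.adjoin s.O (Set.range fun g => (rep g).trace)
  /-- the points -/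
  hom : ∀ {i : Fin (s.K + 1)} {P : d.Pt i} (R : FRep P), T →ₐ[s.O] R.O'
  hom_ev : ∀ {i : Fin (s.K + 1)} {P : d.Pt i} (R : FRep P) (ℓ : GoodIdx d.S),
    hom R (ev (MvPolynomial.X ℓ)) = R.a ℓ
  /-- the target -/
  tgt : T →ₐ[s.O] s.O
  tgt_ev : ∀ ℓ : GoodIdx d.S, tgt (ev (MvPolynomial.X ℓ)) = s.aW ℓ
  eq_zero : ∀ x : T, (∀ {i : Fin (s.K + 1)} {P : d.Pt i} (R : FRep P), hom R x = 0) →
    tgt x = 0 → x = 0
  conj : ∀ {i : Fin (s.K + 1)} {P : d.Pt i} (R : FRep P), ∃ M : GL (Fin 2) R.O',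
    M.val.map (residue R.O') = 1 ∧
      ∀ g, R.rep g = M.val * (rep g).map (hom R) * (M⁻¹).val
  conj_tgt : ∃ M : GL (Fin 2) s.O, M.val.map (residue s.O) = 1 ∧
    ∀ g, s.rW g = M.val * (rep g).map tgt * (M⁻¹).val

attribute [instance] FTraceRing.instCommRing FTraceRing.instLocalRing FTraceRing.instNoetherian
  FTraceRing.instComplete FTraceRing.instAlgebra FTraceRing.instFinite FTraceRing.instLocal


theorem pi_single_mem_smul_top {R : Type*} [CommRing R] {ι : Type*} [DecidableEq ι]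
    {M : ι → Type*} [∀ i, AddCommGroup (M i)] [∀ i, Module R (M i)] (I : Ideal R) (i : ι)
    {x : M i} (hx : x ∈ I • (⊤ : Submodule R (M i))) :
    (Pi.single i x : ∀ i, M i) ∈ I • (⊤ : Submodule R (∀ i, M i)) := by
  have h := Submodule.mem_map_of_mem (f := LinearMap.single R M i) hx
  rw [Submodule.map_smul''] at h
  exact Submodule.smul_mono le_rfl le_top h

/-- A matrix form of a representation with prescribed exact reduction. -/
theorem exists_repMat_red {k : Type} [Field k] (ρbar : ResidualGaloisRep k) {T : Type} [CommRing T]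
    [IsLocalRing T] (ι : k →+* ResidueField T) (ρ : GaloisRepAdic T)
    (h : ρ.residual.IsEquiv (ρbar.baseChangeAlong ι)) :
    ∃ rep : Γℚ →* Matrix (Fin 2) (Fin 2) T, Deform.MCont rep ∧
      (∀ g, (rep g).map (residue T) = (TW.matRep ρbar g).map ι) ∧
      ∀ g, (rep g).charpoly = LinearMap.charpoly (ρ.ρ g) := by
  let b0 := Deform.repBasis ρ
  let r0 := Deform.repMat b0 ρ.ρ
  have hr0 := Deform.mcont_repMat ρ b0
  obtain ⟨e1⟩ := Deform.isEquiv_toRep ρ b0
  obtain ⟨e2⟩ := h
  obtain ⟨M, hM, hMr⟩ := (Deform.residual_isEquiv_iff r0 hr0 ρbar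
    (TW.residualBasis ρbar) ι).mp ⟨e1.symm.residual.trans e2⟩
  choose N hN using fun i j => residue_surjective (M i j)
  have hNM : (Matrix.of N).map (residue T) = M := Matrix.ext fun i j => hN i j
  have hNu : IsUnit (Matrix.of N) := by
    rw [Matrix.isUnit_iff_isUnit_det] at hM ⊢
    rw [← isUnit_map_iff (residue T), RingHom.map_det, RingHom.mapMatrix_apply, hNM]
    exact hM
  obtain ⟨u, hu⟩ := hNu
  refine ⟨Deform.conjRep u r0, Deform.mcont_conjRep u r0 hr0, fun g => ?_, fun g => ?_⟩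
  · rw [Deform.conjRep_apply, Matrix.map_mul, Matrix.map_mul, hu, hNM, hMr g, mul_assoc, ← hNM,
      ← hu, ← Matrix.map_mul, Units.mul_inv, Matrix.map_one _ (map_zero _) (map_one _), mul_one]
    rfl
  · rw [Deform.conjRep_apply, Matrix.coe_units_inv, Matrix.charpoly_units_conj, ← LinearMap.charpoly_toMatrix (ρ.ρ g) b0]
    rfl

/-- **The trace ring exists.** -/
theorem exists_fTraceRing (d : FAux s r n) : Nonempty (FTraceRing d) := by
  classical
  -- finitely many values
  let KS := fun i : Fin (s.K + 1) => {x : (Fin r → s.Kbar) × (GoodIdx d.S → s.Kbar) |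
    ∃ P : d.Pt i, x = (P.u, fun ℓ => P.a ℓ.1)}
  haveI : ∀ i, Finite (KS i) := fun i => (finite_pts d i).to_subtype
  let pt : ∀ x : (i : Fin (s.K + 1)) × KS i, d.Pt x.1 := fun x => Classical.choose x.2.2
  let fr : ∀ x, FRep (pt x) := fun x => Classical.choice (exists_fRep (pt x))
  let ι := Option ((i : Fin (s.K + 1)) × KS i)
  let V : ι → FVal d := fun o => o.elim d.targetVal fun x => (fr x).toVal
  haveI : Fintype ι := Fintype.ofFinite ι
  let aTup : GoodIdx d.S → ∀ o, (V o).B := fun ℓ o => (V o).a ℓ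
  let evP : MvPolynomial (GoodIdx d.S) s.O →ₐ[s.O] ∀ o, (V o).B := MvPolynomial.aeval aTup
  let T : Subalgebra s.O (∀ o, (V o).B) := evP.range
  let ev : MvPolynomial (GoodIdx d.S) s.O →ₐ[s.O] T := evP.rangeRestrict
  have hevs : Function.Surjective ev := evP.rangeRestrict_surjective
  let pr : ∀ o, T →ₐ[s.O] (V o).B := fun o => (Pi.evalAlgHom s.O (fun o => (V o).B) o).comp T.val
  have hpr : ∀ o (f : MvPolynomial (GoodIdx d.S) s.O),
      pr o (ev f) = MvPolynomial.aeval (fun ℓ : GoodIdx d.S => (V o).a ℓ) f := by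
    intro o f
    have h : ((pr o).comp ev) = MvPolynomial.aeval (fun ℓ : GoodIdx d.S => (V o).a ℓ) := by
      refine MvPolynomial.algHom_ext fun ℓ => ?_
      show evP (MvPolynomial.X ℓ) o = _
      rw [MvPolynomial.aeval_X, MvPolynomial.aeval_X]
    exact DFunLike.congr_fun h f
  haveI : Module.Finite s.O (∀ o, (V o).B) := Module.Finite.pi
  haveI hfinT : Module.Finite s.O T :=
    Module.Finite.of_injective T.val.toLinearMap Subtype.val_injective
  haveI hnoethT : IsNoetherianRing T := IsNoetherianRing.of_finite s.O T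
  let tgt : T →ₐ[s.O] s.O := pr none
  let psi : T →ₐ[s.O] s.kk := (IsScalarTower.toAlgHom s.O s.O s.kk).comp tgt
  have hpsi : ∀ x, psi x = residue s.O (tgt x) := fun x => rfl
  have hpsiX : ∀ ℓ, psi (ev (MvPolynomial.X ℓ)) = s.abar ℓ := fun ℓ => by
    rw [hpsi, show tgt (ev (MvPolynomial.X ℓ)) = s.aW ℓ from
      (hpr none _).trans (MvPolynomial.aeval_X _ _)]
    rfl
  -- maps to values reduce to `psi`
  have hredg : ∀ (W : FVal d) (φ : T →ₐ[s.O] W.B),
      (∀ ℓ, φ (ev (MvPolynomial.X ℓ)) = W.a ℓ) → ∀ x, residue W.B (φ x) =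
        ResidueField.map (algebraMap s.O W.B) (psi x) := by
    intro W φ hφ x
    obtain ⟨f, rfl⟩ := hevs x
    have h : (((residue W.B).comp (φ : T →+* W.B)).comp (ev : MvPolynomial (GoodIdx d.S) s.O →+* T)) =
        ((ResidueField.map (algebraMap s.O W.B)).comp (psi : T →+* s.kk)).comp
          (ev : MvPolynomial (GoodIdx d.S) s.O →+* T) := by
      refine MvPolynomial.ringHom_ext (fun c => ?_) fun ℓ => ?_
      · show residue W.B (φ (ev (MvPolynomial.C c))) =
          ResidueField.map (algebraMap s.O W.B) (psi (ev (MvPolynomial.C c)))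
        rw [← MvPolynomial.algebraMap_eq, AlgHom.commutes, AlgHom.commutes, AlgHom.commutes]
        rfl
      · show residue W.B (φ (ev (MvPolynomial.X ℓ))) =
          ResidueField.map (algebraMap s.O W.B) (psi (ev (MvPolynomial.X ℓ)))
        rw [hφ, W.residue_a ℓ ℓ.2.1 ℓ.2.2, hpsiX]
    exact DFunLike.congr_fun h f
  have hprX : ∀ o (ℓ : GoodIdx d.S), pr o (ev (MvPolynomial.X ℓ)) = (V o).a ℓ := fun o ℓ =>
    (hpr o _).trans (MvPolynomial.aeval_X _ _)
  have hunit : ∀ x : T, psi x ≠ 0 → IsUnit x := by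
    intro x hx
    have hall : IsUnit (x : ∀ o, (V o).B) := Pi.isUnit_iff.2 fun o => by
      refine (residue_ne_zero_iff_isUnit _).1 ?_
      rw [show (x : ∀ o, (V o).B) o = pr o x from rfl, hredg (V o) (pr o) (hprX o) x]
      exact (map_ne_zero _).2 hx
    haveI : Algebra.IsIntegral T (∀ o, (V o).B) := ⟨fun y =>
      (Algebra.IsIntegral.isIntegral (R := s.O) y).tower_top⟩
    haveI : IsLocalHom (algebraMap T (∀ o, (V o).B)) :=
      RingHom.IsIntegral.isLocalHom Algebra.IsIntegral.isIntegral Subtype.val_injective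
    exact isUnit_of_map_unit (algebraMap T (∀ o, (V o).B)) x hall
  haveI hnt : Nontrivial T := psi.toRingHom.domain_nontrivial
  haveI hlocT : IsLocalRing T := IsLocalRing.of_nonunits_add fun x y hx hy hxy => by
    have hx0 : psi x = 0 := not_not.1 fun h => hx (hunit x h)
    have hy0 : psi y = 0 := not_not.1 fun h => hy (hunit y h)
    have h := hxy.map psi
    rw [map_add, hx0, hy0, add_zero] at h
    exact not_isUnit_zero h
  haveI hlocOT : IsLocalHom (algebraMap s.O T) := ⟨fun c hc => by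
    have := hc.map tgt
    rwa [AlgHom.commutes] at this⟩
  haveI hcompT : IsAdicComplete (maximalIdeal T) T :=
    IsLocalRing.isAdicComplete_of_module_finite (𝒪 := s.O)
  have hloc : ∀ (W : FVal d) (φ : T →ₐ[s.O] W.B),
      (∀ ℓ, φ (ev (MvPolynomial.X ℓ)) = W.a ℓ) → IsLocalHom (φ : T →+* W.B) := by
    intro W φ hφ
    refine ⟨fun x hx => hunit x fun h0 => ?_⟩
    have h := hredg W φ hφ x
    rw [h0, map_zero] at h
    exact (residue_ne_zero_iff_isUnit _).2 hx h
  have hmk : ∀ x : T, residue T x =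
      ResidueField.map (algebraMap s.O T) (psi x) := fun x => by
    rw [hpsi, ResidueField.map_residue, ← sub_eq_zero, ← map_sub, residue_eq_zero_iff]
    intro h
    have := h.map tgt
    rw [map_sub, AlgHom.commutes, Algebra.algebraMap_self_apply, sub_self] at this
    exact not_isUnit_zero this
  let κ : s.kk →+* ResidueField T := ResidueField.map (algebraMap s.O T)
  have hκ : Function.Bijective κ := ⟨κ.injective, fun x => by
    obtain ⟨y, rfl⟩ := residue_surjective x
    exact ⟨_, (hmk y).symm⟩⟩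
  letI : Algebra s.kk (ResidueField T) := κ.toAlgebra
  let ρbarT : ResidualGaloisRep (ResidueField T) := s.ρbar.baseChangeAlong κ
  have hoddT : ρbarT.IsOdd := fun c hc hc1 => by
    show LinearMap.det ((s.ρbar.ρ c).baseChange (ResidueField T)) = -1
    rw [LinearMap.det_baseChange, s.hodd c hc hc1, map_neg, map_one]
  have habsT : ρbarT.IsAbsolutelyIrreducible :=
    isAbsolutelyIrreducible_baseChangeAlong κ hκ.2 s.ρbar s.habs
  have hpT : (s.p : T) ∈ maximalIdeal T := by
    rw [← map_natCast (algebraMap s.O T) s.p]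
    exact map_nonunit (algebraMap s.O T) (s.p : s.O) s.hpO
  -- the eigenvalues in `T`
  let aT : ℕ → T := fun ℓ => if h : ℓ.Prime ∧ ℓ ∉ d.S then ev (MvPolynomial.X ⟨ℓ, h⟩) else 0
  have haT : ∀ ℓ : GoodIdx d.S, aT ℓ = ev (MvPolynomial.X ℓ) := fun ℓ => dif_pos ℓ.2
  have hrW : ∀ ℓ : ℕ, ℓ.Prime → ℓ ∉ d.S → ∀ A : ValuationSubring ℚbar, A.LiesOverPrime ℓ →
      ∀ σ : Γℚ, A.IsFrobeniusAt σ ℓ →
        (s.rW σ).trace = s.aW ℓ ∧ (s.rW σ).det = (ℓ : s.O) := by
    intro ℓ hℓ hℓS A hA σ hσ
    obtain ⟨ht, hd⟩ := CondLevel.trace_det_of_charpoly_eq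
      (Deform.stdBasis s.rW s.hrW) _
      (s.hfrobW ℓ hℓ (fun h => hℓS (Finset.mem_union_left _ h)) A hA σ hσ)
    rw [LinearMap.trace_eq_matrix_trace _ (Deform.stdBasis s.rW s.hrW), ← Deform.repMat_apply,
      Deform.repMat_toRep] at ht
    rw [← LinearMap.det_toMatrix (Deform.stdBasis s.rW s.hrW), ← Deform.repMat_apply,
      Deform.repMat_toRep] at hd
    exact ⟨ht, hd⟩
  choose e he using fun o => (V o).exists_pow_le
  let emax := ∑ o, e o
  have hcomp : ∀ (m : ℕ) o (x : (V o).B), x ∈ maximalIdeal ((V o).B) ^ (emax * m) →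
      x ∈ maximalIdeal s.O ^ m • (⊤ : Submodule s.O ((V o).B)) := by
    intro m o x hx
    rw [Ideal.smul_top_eq_map, Submodule.restrictScalars_mem, Ideal.map_pow]
    refine Ideal.pow_right_mono (he o) m ?_
    rw [← pow_mul]
    exact Ideal.pow_le_pow_right (Nat.mul_le_mul_right m
      (Finset.single_le_sum (fun o _ => Nat.zero_le (e o)) (Finset.mem_univ o))) hx
  have hpowpos : ∀ o (m : ℕ), ∀ x ∈ maximalIdeal ((V o).B) ^ (emax * m),
      (Pi.single o x : ∀ o, (V o).B) ∈ maximalIdeal s.O ^ m • (⊤ : Submodule s.O (∀ o, (V o).B)) :=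
    fun o m x hx => pi_single_mem_smul_top _ o (hcomp m o x hx)
  obtain ⟨ρT, hρT, hresT, -, -⟩ := exists_rep_of_family
    (isUnit_two_of_mem s.hp.out s.hp2 hpT) ρbarT habsT hoddT (ι := ι) (fun o => (V o).B)
    (fun o => (pr o : T →+* (V o).B)) (fun x hx => Subtype.ext (funext hx))
    (fun m => by
      obtain ⟨c, hc⟩ := Ideal.exists_pow_inf_eq_pow_smul (maximalIdeal s.O)
        (N := Subalgebra.toSubmodule T)
      refine ⟨emax * (m + c), fun x hx => ?_⟩
      have hxM : (x : ∀ o, (V o).B) ∈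
          maximalIdeal s.O ^ (m + c) • (⊤ : Submodule s.O (∀ o, (V o).B)) ⊓ Subalgebra.toSubmodule T := by
        refine ⟨?_, x.2⟩
        show (x : ∀ o, (V o).B) ∈ maximalIdeal s.O ^ (m + c) • (⊤ : Submodule s.O (∀ o, (V o).B))
        rw [← Finset.univ_sum_single (x : ∀ o, (V o).B)]
        exact Submodule.sum_mem _ fun o _ => hpowpos o _ _ (hx o)
      rw [hc (m + c) (Nat.le_add_left c m), Nat.add_sub_cancel] at hxM
      have hle : maximalIdeal s.O ^ c • (⊤ : Submodule s.O (∀ o, (V o).B)) ⊓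
          Subalgebra.toSubmodule T ≤ (⊤ : Submodule s.O T).map T.val.toLinearMap :=
        fun z hz => ⟨⟨z, hz.2⟩, trivial, rfl⟩
      have h1 := Submodule.smul_mono (le_refl (maximalIdeal s.O ^ m)) hle hxM
      rw [← Submodule.map_smul'', Ideal.smul_top_eq_map] at h1
      obtain ⟨x', hx', hxx⟩ := h1
      rw [show x = x' from (Subtype.ext hxx).symm]
      have h2 : ((maximalIdeal s.O) ^ m).map (algebraMap s.O T) ≤ maximalIdeal T ^ m := by
        rw [Ideal.map_pow]
        exact Ideal.pow_right_mono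
          (show (maximalIdeal s.O).map (algebraMap s.O T) ≤ maximalIdeal T from
            Ideal.map_le_iff_le_comap.2 fun b hb => map_nonunit (algebraMap s.O T) b hb) m
      exact h2 hx')
    (fun y hy => by
      have hy' : y ∈ Subalgebra.toSubmodule T := by
        refine mem_of_forall_mem_sup_pow _ y fun m => ?_
        obtain ⟨x, hx⟩ := hy (emax * m)
        rw [show y = (x : ∀ o, (V o).B) - ((x : ∀ o, (V o).B) - y) by abel]
        refine Submodule.sub_mem _ (Submodule.mem_sup_left x.2) (Submodule.mem_sup_right ?_)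
        rw [← Finset.univ_sum_single ((x : ∀ o, (V o).B) - y)]
        exact Submodule.sum_mem _ fun o _ => hpowpos o _ _ (hx o)
      exact ⟨⟨y, hy'⟩, fun o => rfl⟩)
    (fun o => Deform.toRep (V o).rep (V o).hrep) aT d.S
    (fun o ℓ hℓ hℓS A hA σ hσ => by
      rw [(V o).frob ℓ hℓ hℓS A hA σ hσ]
      beta_reduce
      rw [show (pr o : T →+* (V o).B) (aT ℓ) = (V o).a ℓ from
        (congrArg (pr o) (haT ⟨ℓ, hℓ, hℓS⟩)).trans (hprX o ⟨ℓ, hℓ, hℓS⟩)])
    (fun ℓ hℓ hℓS A hA σ hσ => by
      obtain ⟨h1, h2⟩ := hrW ℓ hℓ hℓS A hA σ hσ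
      refine ⟨?_, ?_⟩
      · rw [show aT ℓ = _ from haT ⟨ℓ, hℓ, hℓS⟩, hmk, hpsiX]
        refine Eq.trans ?_ (LinearMap.trace_baseChange (s.ρbar.ρ σ) (ResidueField T)).symm
        show κ _ = κ _
        congr 1
        rw [LinearMap.trace_eq_matrix_trace _ (TW.residualBasis s.ρbar)]
        show residue s.O (s.aW ℓ) = (TW.matRep s.ρbar σ).trace
        rw [← s.hred σ, ← h1]
        simp [Matrix.trace_fin_two]
      · show LinearMap.det ((s.ρbar.ρ σ).baseChange (ResidueField T)) = _
        rw [LinearMap.det_baseChange, ← TW.det_matRep, ← s.hred σ,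
          show Matrix.det ((s.rW σ).map (residue s.O)) = residue s.O (s.rW σ).det from
            ((residue s.O).map_det _).symm, h2, map_natCast, map_natCast])
  -- a basis lifting the chosen residual basis
  obtain ⟨rep, hrep, hrepκ, hrepc⟩ := exists_repMat_red s.ρbar κ ρT hresT
  have hred : ∀ g, (rep g).map psi = TW.matRep s.ρbar g := by
    intro g
    ext i j
    refine κ.injective ?_
    rw [Matrix.map_apply, ← hmk]
    exact congrFun (congrFun (hrepκ g) i) j
  have hfrobrep : ∀ ℓ : ℕ, ℓ.Prime → ℓ ∉ d.S → ∀ A : ValuationSubring ℚbar, A.LiesOverPrime ℓ →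
      ∀ σ : Γℚ, A.IsFrobeniusAt σ ℓ → (rep σ).charpoly =
        Polynomial.X ^ 2 - Polynomial.C (aT ℓ) * Polynomial.X + Polynomial.C (ℓ : T) :=
    fun ℓ hℓ hℓS A hA σ hσ => (hrepc σ).trans (hρT ℓ hℓ hℓS A hA σ hσ)
  -- conjugation to the values
  have hconj : ∀ (W : FVal d) (φ : T →ₐ[s.O] W.B),
      (∀ ℓ, φ (ev (MvPolynomial.X ℓ)) = W.a ℓ) → ∃ M : GL (Fin 2) W.B,
        M.val.map (residue W.B) = 1 ∧ ∀ g, W.rep g = M.val * (rep g).map φ * (M⁻¹).val := by
    intro W φ hφ
    refine W.exists_conj (Deform.mapRep (φ : T →+* W.B) rep)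
      (Deform.mcont_mapRep _ (hloc W φ hφ) rep hrep) (fun g => ?_) fun ℓ hℓ hℓS A hA σ hσ => ?_
    · ext i j
      show residue W.B (φ (rep g i j)) = _
      rw [hredg W φ hφ, ← hred g]
      rfl
    · rw [← LinearMap.charpoly_toMatrix _ (Deform.stdBasis _
          (Deform.mcont_mapRep _ (hloc W φ hφ) rep hrep)), ← Deform.repMat_apply,
        Deform.repMat_toRep, Deform.mapRep_apply, Matrix.charpoly_map,
        hfrobrep ℓ hℓ hℓS A hA σ hσ]
      simp only [Polynomial.map_add, Polynomial.map_sub, Polynomial.map_pow, Polynomial.map_X,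
        Polynomial.map_mul, Polynomial.map_C]
      rw [show (φ : T →+* W.B) (aT ℓ) = W.a ℓ from
        (congrArg φ (haT ⟨ℓ, hℓ, hℓS⟩)).trans (hφ ⟨ℓ, hℓ, hℓS⟩), map_natCast]
  have hdetbase : ∀ g, (rep g).det = algebraMap s.O T (s.rW g).det := by
    intro g
    refine Subtype.ext (funext fun o => ?_)
    obtain ⟨M, -, hM⟩ := hconj (V o) (pr o) (hprX o)
    have h1 : ((rep g).map (pr o)).det = algebraMap s.O ((V o).B) (s.rW g).det := by
      refine Eq.trans ?_ ((V o).det_rep g)
      rw [hM g]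
      exact (Matrix.det_units_conj M ((rep g).map (pr o))).symm
    show pr o (rep g).det = pr o (algebraMap s.O T (s.rW g).det)
    rw [AlgHom.commutes, ← h1]
    exact (pr o : T →+* (V o).B).map_det _
  have hdet : (Deform.toRep rep hrep).DetIsCyclotomic s.p := by
    refine ⟨hpT, fun m σ a ha => ?_⟩
    have h := Ideal.mem_map_of_mem (algebraMap s.O T) (s.hdetW.2 m σ a ha)
    rw [map_sub, Ideal.map_span, Set.image_singleton, map_natCast, map_natCast, det_toRep,
      ← hdetbase σ] at h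
    rwa [det_toRep]
  have hgen : ∀ x : T, x ∈ Algebra.adjoin s.O (Set.range fun g => (rep g).trace) := by
    intro x
    obtain ⟨f, rfl⟩ := hevs x
    induction f using MvPolynomial.induction_on with
    | C c =>
      rw [← MvPolynomial.algebraMap_eq, AlgHom.commutes]
      exact Subalgebra.algebraMap_mem _ c
    | add f g hf hg => rw [map_add]; exact add_mem hf hg
    | mul_X f ℓ hf =>
      rw [map_mul]
      refine mul_mem hf (Algebra.subset_adjoin ?_)
      obtain ⟨A, σ, hA, hσ⟩ := Galois.exists_valuationSubring_isFrobeniusAt ℓ.2.1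
      refine ⟨σ, ?_⟩
      have h1 := hfrobrep ℓ ℓ.2.1 ℓ.2.2 A hA σ hσ
      show (rep σ).trace = _
      rw [← haT, Matrix.trace_eq_neg_charpoly_coeff, h1]
      simp [Polynomial.coeff_X_pow]
  -- the maps to all the points
  have hkey : ∀ {i : Fin (s.K + 1)} {P : d.Pt i} (R : FRep P),
      ∀ f, ev f = 0 → MvPolynomial.aeval (fun ℓ : GoodIdx d.S => R.a ℓ) f = 0 := by
    intro i P R f hf
    let x : (i : Fin (s.K + 1)) × KS i := ⟨i, ⟨(P.u, fun ℓ => P.a ℓ.1), P, rfl⟩⟩
    have hP : (P.u, fun ℓ : GoodIdx d.S => P.a ℓ.1) = ((pt x).u, fun ℓ => (pt x).a ℓ.1) :=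
      Classical.choose_spec x.2.2
    have h0 : MvPolynomial.aeval (fun ℓ : GoodIdx d.S => (fr x).a ℓ) f = 0 :=
      (hpr (some x) f).symm.trans (by rw [hf, map_zero]; rfl)
    refine R.emb_inj ?_
    rw [map_zero, MvPolynomial.aeval_def, MvPolynomial.hom_eval₂, R.emb_comp]
    have h1 := congrArg (fr x).emb h0
    rw [map_zero, MvPolynomial.aeval_def, MvPolynomial.hom_eval₂, (fr x).emb_comp] at h1
    refine Eq.trans ?_ h1
    congr 1
    funext ℓ
    rw [R.emb_a ℓ ℓ.2.1 ℓ.2.2,
      (fr x).emb_a ℓ ℓ.2.1 ℓ.2.2]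
    exact congrFun (congrArg Prod.snd hP) ℓ
  have hex : ∀ {i : Fin (s.K + 1)} {P : d.Pt i} (R : FRep P), ∃ φ : T →ₐ[s.O] R.O',
      ∀ f, φ (ev f) = MvPolynomial.aeval (fun ℓ : GoodIdx d.S => R.a ℓ) f := by
    intro i P R
    let q := MvPolynomial.aeval (R := s.O) (fun ℓ : GoodIdx d.S => R.a ℓ)
    refine ⟨(Ideal.Quotient.liftₐ (RingHom.ker ev) q (fun f hf => hkey R f hf)).comp
      (Ideal.quotientKerAlgEquivOfSurjective hevs).symm.toAlgHom, fun f => ?_⟩
    rw [AlgHom.comp_apply, show (Ideal.quotientKerAlgEquivOfSurjective hevs).symm.toAlgHom (ev f) =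
      Ideal.Quotient.mk _ f from
        (AlgEquiv.symm_apply_eq _).2 (Ideal.quotientKerAlgEquivOfSurjective_apply hevs f).symm]
    rfl
  choose hom hhom using fun {i : Fin (s.K + 1)} {P : d.Pt i} (R : FRep P) => hex R
  have hhomX : ∀ {i : Fin (s.K + 1)} {P : d.Pt i} (R : FRep P) (ℓ : GoodIdx d.S),
      hom R (ev (MvPolynomial.X ℓ)) = R.a ℓ := fun R ℓ =>
    (hhom R _).trans (MvPolynomial.aeval_X _ _)
  refine ⟨{
    T := T
    psi := psi
    rep := rep
    hrep := hrep
    red := hred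
    det := hdet
    det_base := hdetbase
    ev := ev
    ev_surjective := hevs
    psi_ev := hpsiX
    gen := hgen
    hom := hom
    hom_ev := hhomX
    tgt := tgt
    tgt_ev := fun ℓ => hprX none ℓ
    eq_zero := ?_
    conj := fun R => hconj R.toVal (hom R) (hhomX R)
    conj_tgt := hconj d.targetVal tgt (hprX none) }⟩
  intro x hx hx0
  obtain ⟨f, rfl⟩ := hevs x
  refine Subtype.ext (funext fun o => ?_)
  rcases o with _ | y
  · exact hx0
  · exact (hpr (some y) f).trans ((hhom (fr y) f).symm.trans (hx (fr y)))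

end Fermat.Agent.Lifting
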