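import Fermat.Agent.Lifting.FCoordsDefs
import Fermat.Agent.Lifting.FCoordsRing
import Fermat.Agent.Lifting.FCoordsGauge

/-!
# Operators with given values in the gauged trace ring
-/

set_option autoImplicit false
set_option linter.style.haveILetI false

noncomputable section

namespace Fermat.Agent.Lifting

open IsLocalRing MvPowerSeries

variable {s : FSetup} {r n : ℕ} {d : FAux s r n} (W : FTraceRing d)

namespace FTraceRing

/-- Operators with constant coefficients. -/
abbrev Ops0 (_W : FTraceRing d) : Type := MvPolynomial (GoodIdx d.S) (MvPowerSeries s.YVar s.O)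

/-- Their values in the gauged trace ring. -/
def ev0 : W.Ops0 →+* GaugeRing W.T s.K :=
  MvPolynomial.eval₂Hom (MvPowerSeries.map (algebraMap s.O W.T))
    fun ℓ => C (W.ev (MvPolynomial.X ℓ))

theorem ev0_map_C (f : MvPolynomial (GoodIdx d.S) s.O) :
    W.ev0 (MvPolynomial.map C f) = C (W.ev f) := by
  have h : W.ev0.comp (MvPolynomial.map C) =
      (C : W.T →+* GaugeRing W.T s.K).comp (W.ev : MvPolynomial (GoodIdx d.S) s.O →+* W.T) := by
    refine MvPolynomial.ringHom_ext (fun t => ?_) fun ℓ => ?_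
    · simp only [RingHom.comp_apply, MvPolynomial.map_C, ev0, MvPolynomial.eval₂Hom_C,
        MvPowerSeries.map_C, RingHom.coe_coe]
      rw [← MvPolynomial.algebraMap_eq, AlgHom.commutes]
    · simp [ev0]
  exact DFunLike.congr_fun h f

theorem ev0_surjective : Function.Surjective W.ev0 := by
  intro a
  obtain ⟨m, b, hb⟩ := Module.Finite.exists_fin' s.O W.T
  choose f hf using fun k => W.ev_surjective (b (Pi.single k 1))
  choose c hc using fun e => hb (coeff e a)
  let cs : Fin m → MvPowerSeries s.YVar s.O := fun k e => c e k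
  refine ⟨∑ k : Fin m, MvPolynomial.map (C : s.O →+* MvPowerSeries s.YVar s.O) (f k) *
    MvPolynomial.C (cs k), MvPowerSeries.ext fun e => ?_⟩
  rw [map_sum, map_sum, ← hc e]
  conv_rhs => rw [pi_eq_sum_univ' (c e), map_sum]
  refine Finset.sum_congr rfl fun k _ => ?_
  rw [map_mul, W.ev0_map_C, hf, ev0, MvPolynomial.eval₂Hom_C, MvPowerSeries.coeff_C_mul,
    MvPowerSeries.coeff_map, mul_comm, ← Algebra.smul_def]
  rw [map_smul]
  rfl

/-- The inclusion in the operators. -/
def incl0 : W.Ops0 →+* d.Ops :=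
  MvPolynomial.map (MvPowerSeries.map (algebraMap s.O d.UC))

theorem opEval_incl0 {i : Fin (s.K + 1)} {P : d.Pt i} (R : FRep P) (h : W.Ops0) :
    R.opEval (W.incl0 h) = gaugeMap (W.hom R) s.K (W.ev0 h) := by
  have e : R.opEval.comp W.incl0 =
      (gaugeMap (W.hom R) s.K).toRingHom.comp W.ev0 := by
    refine MvPolynomial.ringHom_ext (fun t => MvPowerSeries.ext fun k => ?_) fun ℓ => ?_
    · simp [incl0, FRep.opEval, ev0, MvPowerSeries.mapAlgHom_apply, MvPowerSeries.coeff_map]
    · simp [incl0, FRep.opEval, ev0, MvPowerSeries.mapAlgHom_apply, W.hom_ev]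
  exact DFunLike.congr_fun e h

theorem opRes_incl0 (h : W.Ops0) :
    d.opRes (W.incl0 h) = gaugePoint W.psi s.K (W.ev0 h) := by
  have e : d.opRes.comp W.incl0 = (gaugePoint W.psi s.K).toRingHom.comp W.ev0 := by
    refine MvPolynomial.ringHom_ext (fun t => ?_) fun ℓ => ?_
    · simp [incl0, FAux.opRes, ev0, MvPowerSeries.constantCoeff_map, Ribet.Avoid.Univ.eval,
        MonoidAlgebra.lift_single]
    · simp [incl0, FAux.opRes, ev0, W.psi_ev]
  exact DFunLike.congr_fun e h

/-- **Lifting**: every element of the gauged trace ring is the value of an operator. -/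
theorem exists_op (a : GaugeRing W.T s.K) : ∃ h : d.Ops,
    (∀ {i : Fin (s.K + 1)} {P : d.Pt i} (R : FRep P), R.opEval h = gaugeMap (W.hom R) s.K a) ∧
      (a ∈ maximalIdeal (GaugeRing W.T s.K) → d.opRes h = 0) := by
  obtain ⟨h, rfl⟩ := W.ev0_surjective a
  exact ⟨W.incl0 h, fun R => W.opEval_incl0 R h, fun ha => by
    rw [W.opRes_incl0]; exact (mem_maximalIdeal_iff_algHom _ _).mp ha⟩

theorem opEval_gauge {i : Fin (s.K + 1)} {P : d.Pt i} (R : FRep P) (v : s.YVar) :
    R.opEval (MvPolynomial.C (MvPowerSeries.X v)) = gaugeMap (W.hom R) s.K (X v) := by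
  rw [FRep.opEval, MvPolynomial.eval₂Hom_C, MvPowerSeries.map_X]
  exact (gaugeMap_X (W.hom R) v).symm

theorem opRes_gauge (v : s.YVar) : d.opRes (MvPolynomial.C (MvPowerSeries.X v)) = 0 := by
  simp [FAux.opRes]

end FTraceRing

end Fermat.Agent.Lifting
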