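import Fermat.Agent.Lifting.FCoordsOps
import Fermat.Agent.Lifting.FCoordsPlace
import Fermat.Agent.Lifting.ETransfer

/-!
# The trace ring at one point and at the target
-/

set_option autoImplicit false
set_option linter.style.haveILetI false

noncomputable section

namespace Fermat.Agent.Lifting

open IsLocalRing MvPowerSeries Fermat.Agent.Deform

/-- An algebra map from a local ring, finite over the constants, is local. -/
theorem isLocalHom_of_finite {O T E : Type} [CommRing O] [IsLocalRing O] [CommRing T]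
    [IsLocalRing T] [Algebra O T] [Module.Finite O T] [CommRing E] [IsLocalRing E] [Algebra O E]
    [IsLocalHom (algebraMap O E)] (f : T →ₐ[O] E) : IsLocalHom (f : T →+* E) := by
  constructor
  intro x hx
  haveI : ((maximalIdeal E).comap (f : T →+* E)).IsPrime := Ideal.IsPrime.comap _
  have hmax : ((maximalIdeal E).comap (f : T →+* E)).IsMaximal := by
    refine Ideal.isMaximal_of_isIntegral_of_isMaximal_comap _ ?_ (R := O)
    rw [Ideal.comap_comap, f.comp_algebraMap]
    have h : (maximalIdeal E).comap (algebraMap O E) = maximalIdeal O :=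
      IsLocalRing.maximalIdeal_comap _
    rw [h]
    exact maximalIdeal.isMaximal O
  by_contra h
  have h1 : x ∈ maximalIdeal T := h
  rw [← IsLocalRing.eq_maximalIdeal hmax] at h1
  exact h1 hx

theorem exists_gaugedHom {O T G : Type} [CommRing O] [CommRing T] [Algebra O T] [Group G]
    {K : ℕ} (ρ : G →* Matrix (Fin 2) (Fin 2) T) (P : Fin K → GL (Fin 2) O) (a : Fin K) :
    ∃ Φ : Matrix (Fin 2) (Fin 2) T →+* Matrix (Fin 2) (Fin 2) (GaugeRing T K),
      ∀ γ, gauged ρ P a γ = Φ (ρ γ) := by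
  have hY := isUnit_det_gaugeMat (T := T) (K := K) a
  set Y := gaugeMat fun i => (X (a, i) : GaugeRing T K)
  set Q := gaugeConst T K ((P a)⁻¹ : GL (Fin 2) O).val
  set Q' := gaugeConst T K (P a).val
  have hQ : Q' * Q = 1 := by
    show gaugeConst T K (P a).val * gaugeConst T K ((P a)⁻¹ : GL (Fin 2) O).val = 1
    rw [gaugeConst, gaugeConst, ← Matrix.map_mul, ← Matrix.map_mul, Units.mul_inv,
      Matrix.map_one _ (map_zero _) (map_one _), Matrix.map_one _ (map_zero _) (map_one _)]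
  have hQ' : Q * Q' = 1 := mul_eq_one_comm.mp hQ
  have hYY : Y⁻¹ * Y = 1 := Matrix.nonsing_inv_mul _ hY
  have hYY' : Y * Y⁻¹ = 1 := Matrix.mul_nonsing_inv _ hY
  refine ⟨{ toFun := fun M => Y * (Q * M.map (C : T →+* GaugeRing T K) * Q') * Y⁻¹
            map_one' := ?_, map_mul' := fun M N => ?_, map_zero' := ?_
            map_add' := fun M N => ?_ }, fun γ => rfl⟩
  · rw [Matrix.map_one _ (map_zero _) (map_one _), mul_one, hQ', mul_one, hYY']
  · rw [Matrix.map_mul]
    simp only [mul_assoc]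
    rw [← mul_assoc Y⁻¹ Y, hYY, one_mul, ← mul_assoc Q' Q, hQ, one_mul]
  · rw [Matrix.map_zero _ (map_zero _), mul_zero, zero_mul, mul_zero, zero_mul]
  · rw [Matrix.map_add _ (map_add _)]
    simp only [mul_add, add_mul]

theorem constantCoeff_gauged {O T G : Type} [CommRing O] [IsLocalRing O] [CommRing T] [Algebra O T]
    [Group G] {K : ℕ} (ρ : G →* Matrix (Fin 2) (Fin 2) T) (P : Fin K → GL (Fin 2) O) (a : Fin K)
    (γ : G) : (gauged ρ P a γ).map constantCoeff =
      ((P a)⁻¹ : GL (Fin 2) O).val.map (algebraMap O T) * ρ γ * (P a).val.map (algebraMap O T) := by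
  have hY : (gaugeMat fun i => (X (a, i) : GaugeRing T K)).map constantCoeff = 1 := by
    ext i j
    fin_cases i <;> fin_cases j <;> simp [gaugeMat, gaugeTr]
  have hc : ∀ M : Matrix (Fin 2) (Fin 2) T,
      (M.map (C : T →+* GaugeRing T K)).map constantCoeff = M := fun M => by
    ext i j
    simp
  have h := congrArg (fun M => M.map constantCoeff) (gauged_mul_gaugeMat ρ P a γ)
  simpa only [Matrix.map_mul, hY, one_mul, mul_one, framed, gaugeConst, hc] using h

variable {s : FSetup} {r n : ℕ} {d : FAux s r n} (W : FTraceRing d)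

theorem FAux.not_dvd_levQ (d : FAux s r n) (i : Fin (s.K + 1)) {x : ℕ} (hx : x.Prime)
    (h0 : x ∉ d.S) : ¬ x ∣ d.levQ i := by
  intro h
  refine h0 ?_
  rw [FAux.S, Finset.mem_union, s.hS0]
  rw [FAux.levQ, FSetup.lev, FAux.DQ, hx.dvd_mul, hx.dvd_mul, hx.prime.dvd_finsetProd_iff,
    hx.prime.dvd_finsetProd_iff] at h
  rcases h with (h | ⟨a, -, h⟩) | ⟨j, -, h⟩
  · exact Or.inl (Or.inr (Or.inl ⟨hx, h⟩))
  · exact Or.inl (Or.inr (Or.inr ⟨_, ((Nat.prime_dvd_prime_iff_eq hx (s.hq _).1).mp h).symm⟩))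
  · exact Or.inr (Finset.mem_image.mpr
      ⟨j, Finset.mem_univ _, ((Nat.prime_dvd_prime_iff_eq hx (d.prime j)).mp h).symm⟩)

theorem FAux.p_mem_S (d : FAux s r n) : s.p ∈ d.S :=
  Finset.mem_union_left _ ((s.hS0 _).mpr (Or.inl rfl))

theorem FAux.not_dvd_levQ_q (d : FAux s r n) (i : Fin (s.K + 1)) (a : Fin s.K)
    (ha : (i : ℕ) ≤ a) : ¬ s.q a ∣ d.levQ i := by
  intro h
  have hq := (s.hq a).1
  rw [FAux.levQ, FSetup.lev, FAux.DQ, hq.dvd_mul, hq.dvd_mul, hq.prime.dvd_finsetProd_iff,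
    hq.prime.dvd_finsetProd_iff, hq.dvd_mul] at h
  rcases h with ((h | h) | ⟨b, -, h⟩) | ⟨j, -, h⟩
  · exact (s.hq a).2.2 h
  · rcases s.haux with h1 | ⟨h1, -, -, h4⟩
    · exact hq.one_lt.ne' (Nat.dvd_one.mp (h1 ▸ h))
    · exact h4 a ((Nat.prime_dvd_prime_iff_eq hq h1).mp h)
  · have h1 := congrArg Fin.val (s.q_inj ((Nat.prime_dvd_prime_iff_eq hq (s.hq _).1).mp h))
    simp only [Fin.val_castLE] at h1
    omega
  · exact d.notMem j ((Nat.prime_dvd_prime_iff_eq hq (d.prime j)).mp h ▸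
      (s.hS0 _).mpr (Or.inr (Or.inr ⟨a, rfl⟩)))

namespace FTraceRing

variable {i : Fin (s.K + 1)} {P : d.Pt i} (R : FRep P)

theorem isLocalHom_hom : IsLocalHom (W.hom R : W.T →+* R.O') := isLocalHom_of_finite _

theorem isLocalHom_tgt : IsLocalHom (W.tgt : W.T →+* s.O) := by
  haveI : IsLocalHom (algebraMap s.O s.O) := ⟨fun _ h => h⟩
  exact isLocalHom_of_finite _

theorem mcont_hom : MCont (pushRep W.rep (W.hom R)) :=
  mcont_mapRep (W.hom R : W.T →+* R.O') (W.isLocalHom_hom R) W.rep W.hrep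

/-- The trace ring representation at a point is equivalent to the one of the point. -/
theorem isEquiv_hom :
    (toRep (pushRep W.rep (W.hom R)) (W.mcont_hom R)).IsEquiv (toRep R.rep R.hrep) := by
  obtain ⟨M, -, hM⟩ := W.conj R
  refine (isEquiv_toRep_iff _ _ _ _).mpr ⟨M.val, M.isUnit, fun σ => ?_⟩
  rw [hM, pushRep_apply, mul_assoc _ _ M.val, Units.inv_mul, mul_one]

theorem trace_hom (g : Γ) : W.hom R (W.rep g).trace = (R.rep g).trace := by
  obtain ⟨M, -, hM⟩ := W.conj R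
  rw [hM, Matrix.trace_mul_cycle, Units.inv_mul, one_mul]
  exact AddMonoidHom.map_trace (W.hom R : W.T →+* R.O') (W.rep g)

theorem pushRep_eq_one {g : Γ} (h : R.rep g = 1) : pushRep W.rep (W.hom R) g = 1 := by
  obtain ⟨M, -, hM⟩ := W.conj R
  rw [hM, Units.mul_inv_eq_iff_eq_mul, one_mul] at h
  rw [pushRep_apply]
  exact M.isUnit.mul_left_cancel (h.trans (mul_one _).symm)

theorem rep_eq_one_of_unramified {x : ℕ} (hx : x.Prime) (hxp : x ≠ s.p) (hl : ¬ x ∣ d.levQ i)
    {A : ValuationSubring (AlgebraicClosure ℚ)} (hA : A.LiesOverPrime x) {g : Γ}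
    (hg : g ∈ A.inertiaSubgroupIn ℚ) : R.rep g = 1 := by
  have h := R.unramified x hx hxp hl A hA g hg
  rw [toRep_ρ] at h
  exact Matrix.toLin'.injective (h.trans Matrix.toLin'_one.symm)

theorem det_hom_phi (a : Fin s.K) :
    (pushRep W.rep (W.hom R) (s.phi a)).det = (s.q a : R.O') := by
  haveI : Fact (s.q a).Prime := ⟨(s.hq a).1⟩
  obtain ⟨e⟩ := W.isEquiv_hom R
  exact det_frobenius_eq (ETransfer.detIsCyclotomic_of_equiv e.symm R.det) s.hp.out (s.hq a).1
    (s.hq a).2.1 (padicPlace_liesOverPrime _) (s.hgen a).frob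

theorem isUnipotent_hom {x : ℕ} (hx : x.Prime) (hxp : x ≠ s.p) (hxN : x ∣ s.N ∨ ∃ a, s.q a = x) :
    (toRep (pushRep W.rep (W.hom R)) (W.mcont_hom R)).IsUnipotentOnInertiaAt x := by
  obtain ⟨e⟩ := W.isEquiv_hom R
  exact ETransfer.isUnipotentOnInertiaAt_of_equiv e.symm (R.unipotent x hx hxp hxN)

/-- The matrices at a place: trace and determinant of `τ`, and the tame relation. -/
theorem hom_place (a : Fin s.K) :
    (pushRep W.rep (W.hom R) (s.tau a)).trace = 2 ∧
    (pushRep W.rep (W.hom R) (s.tau a)).det = 1 ∧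
    pushRep W.rep (W.hom R) (s.phi a) * (pushRep W.rep (W.hom R) (s.tau a) - 1) =
      (s.q a : R.O') • ((pushRep W.rep (W.hom R) (s.tau a) - 1) *
        pushRep W.rep (W.hom R) (s.phi a)) := by
  haveI : Fact (s.q a).Prime := ⟨(s.hq a).1⟩
  have hu := W.isUnipotent_hom R (s.hq a).1 (s.hq a).2.1 (Or.inr ⟨a, rfl⟩)
  obtain ⟨ht, hd⟩ := trace_det_of_unipotent hu (padicPlace_liesOverPrime _) (s.hgen a).tau_mem
  exact ⟨ht, hd, frob_mul_mono (s.hgen a) R.det.1 hu⟩

end FTraceRing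

end Fermat.Agent.Lifting
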