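import Fermat.Agent.Lifting.FCoordsPoint

/-!
# The normalised trace ring and the selection of finitely many points
-/

set_option autoImplicit false
set_option linter.style.haveILetI false

noncomputable section

namespace Fermat.Agent.Lifting

open IsLocalRing Fermat.Agent.Deform

variable {s : FSetup} {r n : ℕ}

/-- The trace ring can be normalised so that the target is exactly `rW`. -/
theorem exists_fTraceRing_normal (d : FAux s r n) :
    ∃ W : FTraceRing d, ∀ g, (W.rep g).map W.tgt = s.rW g := by
  obtain ⟨W⟩ := exists_fTraceRing d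
  obtain ⟨M, hM1, hM⟩ := W.conj_tgt
  let u : (M2 W.T)ˣ := Units.map (algebraMap s.O W.T).mapMatrix.toMonoidHom M
  have hu : ∀ {E : Type} [CommRing E] [Algebra s.O E] (f : W.T →ₐ[s.O] E),
      (u : M2 W.T).map f = M.val.map (algebraMap s.O E) ∧
        ((u⁻¹ : (M2 W.T)ˣ) : M2 W.T).map f = (M⁻¹).val.map (algebraMap s.O E) := fun f =>
    ⟨Matrix.ext fun i j => f.commutes _, Matrix.ext fun i j => f.commutes _⟩
  have hpsi : ∀ g, (conjRep u W.rep g).map W.psi = TW.matRep s.ρbar g := fun g => by
    rw [conjRep_apply, Matrix.map_mul, Matrix.map_mul, (hu W.psi).1, (hu W.psi).2, W.red]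
    have h1 : M.val.map (algebraMap s.O s.kk) = 1 := hM1
    have h2 : (M⁻¹).val.map (algebraMap s.O s.kk) = 1 := by
      have h3 := congrArg (fun A => A.map (algebraMap s.O s.kk)) (Units.mul_inv M)
      simp only [Matrix.map_mul, h1, one_mul,
        Matrix.map_one _ (map_zero _) (map_one _)] at h3
      exact h3
    rw [h1, h2, one_mul, mul_one]
  have htr : ∀ g, (conjRep u W.rep g).trace = (W.rep g).trace := fun g => by
    rw [conjRep_apply, Matrix.trace_mul_cycle, Units.inv_mul, one_mul]
  have hdet : ∀ g, (conjRep u W.rep g).det = (W.rep g).det := fun g => by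
    rw [conjRep_apply]
    exact Matrix.det_units_conj u _
  refine ⟨{ W with
    rep := conjRep u W.rep
    hrep := mcont_conjRep u W.rep W.hrep
    red := hpsi
    det := ?_
    det_base := fun g => by rw [hdet, W.det_base]
    gen := fun x => by simpa only [htr] using W.gen x
    conj := fun R => ?_
    conj_tgt := ⟨1, Matrix.map_one _ (map_zero _) (map_one _), fun g => ?_⟩ }, fun g => ?_⟩
  · obtain ⟨e⟩ := isEquiv_conjRep u W.rep W.hrep
    exact ETransfer.detIsCyclotomic_of_equiv e W.det
  · obtain ⟨A, hA1, hA⟩ := W.conj R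
    let v : GL (Fin 2) R.O' := Units.map (algebraMap s.O R.O').mapMatrix.toMonoidHom M
    refine ⟨A * v⁻¹, ?_, fun g => ?_⟩
    · have hv : v.val.map (residue R.O') = 1 := by
        refine Matrix.ext fun i j => ?_
        have h := congrFun (congrFun hM1 i) j
        show residue R.O' (algebraMap s.O R.O' (M.val i j)) = _
        rw [← ResidueField.map_residue, show residue s.O (M.val i j) = _ from h]
        by_cases hij : i = j
        · subst hij; simp
        · simp [Matrix.one_apply_ne hij]
      have hv' : (v⁻¹).val.map (residue R.O') = 1 := by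
        have h3 := congrArg (fun B => B.map (residue R.O')) (Units.mul_inv v)
        simp only [Matrix.map_mul, hv, one_mul, Matrix.map_one _ (map_zero _) (map_one _)] at h3
        exact h3
      rw [Units.val_mul, Matrix.map_mul, hA1, hv', one_mul]
    · rw [hA, conjRep_apply, Matrix.map_mul, Matrix.map_mul, (hu (W.hom R)).1, (hu (W.hom R)).2]
      show _ = (A.val * (v⁻¹).val) * (v.val * (W.rep g).map (W.hom R) * (v⁻¹).val) *
        ((A * v⁻¹)⁻¹).val
      rw [mul_inv_rev, inv_inv, Units.val_mul]
      simp only [mul_assoc, Units.inv_mul_cancel_left]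
  · rw [inv_one, Units.val_one, one_mul, mul_one]
    show _ = (conjRep u W.rep g).map W.tgt
    rw [conjRep_apply, Matrix.map_mul, Matrix.map_mul, (hu W.tgt).1, (hu W.tgt).2, hM g]
    simp
  · show (conjRep u W.rep g).map W.tgt = s.rW g
    rw [conjRep_apply, Matrix.map_mul, Matrix.map_mul, (hu W.tgt).1, (hu W.tgt).2, hM g]
    simp

/-- A point together with a representation. -/
structure FPack (d : FAux s r n) : Type 1 where
  /-- the stage -/
  i : Fin (s.K + 1)
  /-- the point -/
  P : d.Pt i
  /-- its representation -/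
  R : FRep P

namespace FTraceRing

variable {d : FAux s r n} (W : FTraceRing d)

theorem emb_hom_congr (X Y : FPack d) (h : ∀ ℓ : GoodIdx d.S, X.P.a ℓ = Y.P.a ℓ) (x : W.T) :
    X.R.emb (W.hom X.R x) = Y.R.emb (W.hom Y.R x) := by
  obtain ⟨f, rfl⟩ := W.ev_surjective x
  have e : (X.R.emb.comp (W.hom X.R : W.T →+* X.R.O')).comp
      (W.ev : MvPolynomial (GoodIdx d.S) s.O →+* W.T) =
      (Y.R.emb.comp (W.hom Y.R : W.T →+* Y.R.O')).comp
      (W.ev : MvPolynomial (GoodIdx d.S) s.O →+* W.T) := by
    refine MvPolynomial.ringHom_ext (fun t => ?_) fun ℓ => ?_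
    · simp only [RingHom.comp_apply, RingHom.coe_coe, ← MvPolynomial.algebraMap_eq,
        AlgHom.commutes]
      exact (DFunLike.congr_fun X.R.emb_comp t).trans (DFunLike.congr_fun Y.R.emb_comp t).symm
    · simp only [RingHom.comp_apply, RingHom.coe_coe, W.hom_ev,
        X.R.emb_a _ ℓ.2.1 ℓ.2.2, Y.R.emb_a _ ℓ.2.1 ℓ.2.2, h]
  exact DFunLike.congr_fun e f

/-- **Selection**: finitely many points with a property have the same kernels as all of them. -/
theorem exists_select (Q : FPack d → Prop) :
    ∃ (ι : Type) (_ : Finite ι) (sel : ι → FPack d), (∀ k, Q (sel k)) ∧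
      ∀ X, Q X → ∃ k, ∀ x, W.hom X.R x = 0 ↔ W.hom (sel k).R x = 0 := by
  let A : Set (GoodIdx d.S → s.Kbar) := {v | ∃ X : FPack d, Q X ∧ v = fun ℓ => X.P.a ℓ.1}
  have hA : A.Finite := by
    refine (Set.finite_iUnion fun i => (finite_pts d i).image Prod.snd).subset ?_
    rintro v ⟨X, -, rfl⟩
    exact Set.mem_iUnion.mpr ⟨X.i, ⟨_, ⟨X.P, rfl⟩, rfl⟩⟩
  choose sel hsel using fun v : A => v.2
  refine ⟨A, hA.to_subtype, sel, fun k => (hsel k).1, fun X hX => ?_⟩
  refine ⟨⟨_, X, hX, rfl⟩, fun x => ?_⟩
  have h := W.emb_hom_congr X (sel ⟨_, X, hX, rfl⟩)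
    (fun ℓ => congrFun (hsel ⟨_, X, hX, rfl⟩).2 ℓ) x
  constructor <;> intro h0
  · rw [h0, map_zero] at h
    exact (sel _).R.emb_inj (h.symm.trans (map_zero _).symm)
  · rw [h0, map_zero] at h
    exact X.R.emb_inj (h.trans (map_zero _).symm)

end FTraceRing

end Fermat.Agent.Lifting
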