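import Fermat.Agent.Lifting.FPoints
import Fermat.Agent.Lifting.EDatum
import Fermat.Agent.Deform.Burnside

/-!
# Modularity lifting: values of one level

A value is what the trace ring uses of a point or of the target.
-/

set_option autoImplicit false
set_option linter.style.haveILetI false

noncomputable section

namespace Fermat.Agent.Lifting

open IsLocalRing

local notation "ℚbar" => AlgebraicClosure ℚ
local notation "Γℚ" => AlgebraicClosure ℚ ≃ₐ[ℚ] AlgebraicClosure ℚ

variable {s : FSetup} {r n : ℕ}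

/-- A value of one level. -/
structure FVal (d : FAux s r n) : Type 1 where
  /-- the coefficients -/
  B : Type
  [instCommRing : CommRing B]
  [instDomain : IsDomain B]
  [instDVR : IsDiscreteValuationRing B]
  [instComplete : IsAdicComplete (maximalIdeal B) B]
  [instCharZero : CharZero B]
  [instAlgebra : Algebra s.O B]
  [instModuleFinite : Module.Finite s.O B]
  [instLocal : IsLocalHom (algebraMap s.O B)]
  /-- the eigenvalues -/
  a : ℕ → B
  residue_a : ∀ ℓ : ℕ, ℓ.Prime → ℓ ∉ d.S →
    residue B (a ℓ) = ResidueField.map (algebraMap s.O B) (s.abar ℓ)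
  /-- the representation -/
  rep : Γℚ →* Matrix (Fin 2) (Fin 2) B
  hrep : Deform.MCont rep
  red : ∀ g, (rep g).map (residue B) =
    (TW.matRep s.ρbar g).map (ResidueField.map (algebraMap s.O B))
  frob : HasFrobPoly (Deform.toRep rep hrep) d.S a
  det : (Deform.toRep rep hrep).DetIsCyclotomic s.p

attribute [instance] FVal.instCommRing FVal.instDomain FVal.instDVR FVal.instComplete
  FVal.instCharZero FVal.instAlgebra FVal.instModuleFinite FVal.instLocal

/-- The value of a point. -/
def FRep.toVal {d : FAux s r n} {i : Fin (s.K + 1)} {P : d.Pt i} (R : FRep P) : FVal d where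
  B := R.O'
  a := R.a
  residue_a := R.residue_a
  rep := R.rep
  hrep := R.hrep
  red := R.red
  frob := R.frob
  det := R.det

theorem residueFieldMap_self (x : s.kk) :
    ResidueField.map (algebraMap s.O s.O) x = x := by
  obtain ⟨y, rfl⟩ := residue_surjective x
  rfl

/-- The value of the target. -/
def FAux.targetVal (d : FAux s r n) : FVal d where
  B := s.O
  instModuleFinite := Module.Finite.self s.O
  instLocal := ⟨fun x hx => by simpa using hx⟩
  a := s.aW
  residue_a := fun ℓ _ _ => (residueFieldMap_self (s.abar ℓ)).symm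
  rep := s.rW
  hrep := s.hrW
  red := fun g => by
    ext i j
    rw [s.hred g, Matrix.map_apply, residueFieldMap_self]
  frob := fun ℓ hℓ hℓS => s.hfrobW ℓ hℓ fun h => hℓS (Finset.mem_union_left _ h)
  det := s.hdetW

/-- A cyclotomic exponent at a level. -/
theorem exists_natCast_cyclotomic_pow (p : ℕ) [Fact p.Prime] (m : ℕ) (σ : Γℚ) :
    ∃ a : ℕ, ∀ μ : ℚbar, μ ^ p ^ m = 1 → σ μ = μ ^ a := by
  haveI : NeZero (p ^ m) := ⟨pow_ne_zero _ (Fact.out : p.Prime).ne_zero⟩
  obtain ⟨ζ, hζ⟩ := HasEnoughRootsOfUnity.exists_primitiveRoot ℚbar (p ^ m)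
  have hσζ : (σ ζ) ^ (p ^ m) = 1 := by rw [← map_pow, hζ.pow_eq_one, map_one]
  obtain ⟨a, -, ha⟩ := hζ.eq_pow_of_pow_eq_one hσζ
  refine ⟨a, fun μ hμ => ?_⟩
  obtain ⟨i, -, rfl⟩ := hζ.eq_pow_of_pow_eq_one hμ
  rw [map_pow, ← ha, ← pow_mul, ← pow_mul, mul_comm]

theorem det_toRep {A : Type} [CommRing A] [IsLocalRing A] (r : Γℚ →* Matrix (Fin 2) (Fin 2) A)
    (hr : Deform.MCont r) (σ : Γℚ) : LinearMap.det ((Deform.toRep r hr).ρ σ) = (r σ).det := by
  rw [← LinearMap.det_toMatrix (Deform.stdBasis r hr), ← Deform.repMat_apply, Deform.repMat_toRep]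

namespace FVal

variable {d : FAux s r n} (V : FVal d)

theorem natCast_p_mem : (s.p : V.B) ∈ maximalIdeal V.B := by
  rw [← map_natCast (algebraMap s.O V.B) s.p]
  exact map_nonunit _ _ s.hpO

/-- The determinant of every value is that of the target. -/
theorem det_rep (σ : Γℚ) : (V.rep σ).det = algebraMap s.O V.B (s.rW σ).det := by
  refine Deform.eq_of_forall_sub_mem_pow (maximalIdeal V.B) fun m => ?_
  obtain ⟨a, ha⟩ := exists_natCast_cyclotomic_pow s.p m σ
  have hle : Ideal.span {((s.p ^ m : ℕ) : V.B)} ≤ maximalIdeal V.B ^ m := by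
    rw [Ideal.span_singleton_le_iff_mem, Nat.cast_pow]
    exact Ideal.pow_mem_pow V.natCast_p_mem m
  have h1 := hle (V.det.2 m σ a ha)
  have h2 := Ideal.mem_map_of_mem (algebraMap s.O V.B) (s.hdetW.2 m σ a ha)
  rw [map_sub, Ideal.map_span, Set.image_singleton, map_natCast, map_natCast] at h2
  have h3 := Ideal.sub_mem _ h1 (hle h2)
  rw [det_toRep, det_toRep, sub_sub_sub_cancel_right] at h3
  exact h3

/-- A power of the maximal ideal is in the extended maximal ideal. -/
theorem exists_pow_le : ∃ e : ℕ,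
    maximalIdeal V.B ^ e ≤ (maximalIdeal s.O).map (algebraMap s.O V.B) := by
  obtain ⟨ϖ, hϖ⟩ := IsDiscreteValuationRing.exists_irreducible V.B
  have hne : Ideal.span {(s.p : V.B)} ≠ ⊥ := by
    simpa using (Nat.cast_ne_zero (R := V.B)).mpr s.hp.out.ne_zero
  obtain ⟨e, he⟩ := IsDiscreteValuationRing.ideal_eq_span_pow_irreducible hne hϖ
  refine ⟨e, ?_⟩
  rw [hϖ.maximalIdeal_eq, Ideal.span_singleton_pow, ← he, Ideal.span_singleton_le_iff_mem,
    ← map_natCast (algebraMap s.O V.B) s.p]
  exact Ideal.mem_map_of_mem _ s.hpO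

/-- The residual representation of a value is absolutely irreducible. -/
theorem residual_absIrr (r' : Γℚ →* Matrix (Fin 2) (Fin 2) V.B) (hr' : Deform.MCont r')
    (hred : ∀ g, (r' g).map (residue V.B) =
      (TW.matRep s.ρbar g).map (ResidueField.map (algebraMap s.O V.B))) :
    (Deform.toRep r' hr').residual.IsAbsolutelyIrreducible := by
  let κ := ResidueField.map (algebraMap s.O V.B)
  have he : (Deform.toRep r' hr').residual.IsEquiv (s.ρbar.baseChangeAlong κ) :=
    (Deform.residual_isEquiv_iff r' hr' s.ρbar (TW.residualBasis s.ρbar) κ).mpr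
      ⟨1, isUnit_one, fun σ => by rw [one_mul, mul_one, hred]; rfl⟩
  refine isAbsolutelyIrreducible_of_equiv he ?_
  letI : Algebra s.kk (ResidueField V.B) := κ.toAlgebra
  refine RepLemmas.isAbsolutelyIrreducible_of_span_eq_top _ ?_
  let b := TW.residualBasis s.ρbar
  let b' : Module.Basis (Fin 2) (ResidueField V.B) (s.ρbar.baseChangeAlong κ).V :=
    Algebra.TensorProduct.basis (ResidueField V.B) b
  refine (RepLemmas.span_range_toMatrixHom_eq_top_iff b' _).1 (eq_top_iff.2 fun X _ => ?_)
  have h0 := (RepLemmas.span_range_toMatrixHom_eq_top_iff b s.ρbar.ρ).2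
    (RepLemmas.residual_span_eq_top_of_isAbsolutelyIrreducible s.ρbar s.habs)
  have hmap : ∀ Y : Matrix (Fin 2) (Fin 2) s.kk,
      Y.map κ ∈ Submodule.span (ResidueField V.B)
        (Set.range (RepLemmas.toMatrixHom b' (s.ρbar.baseChangeAlong κ).ρ)) := by
    intro Y
    have hY : Y ∈ Submodule.span s.kk (Set.range (RepLemmas.toMatrixHom b s.ρbar.ρ)) := by
      rw [h0]; trivial
    induction hY using Submodule.span_induction with
    | mem y hy =>
      obtain ⟨σ, rfl⟩ := hy
      exact Submodule.subset_span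
        ⟨σ, Deform.toMatrix_baseChange_endo (ResidueField V.B) b (s.ρbar.ρ σ)⟩
    | zero => simp
    | add y z _ _ hy hz => rw [Matrix.map_add _ (map_add κ)]; exact add_mem hy hz
    | smul c y _ hy =>
      rw [show (c • y).map κ = κ c • y.map κ by ext i j; simp]
      exact Submodule.smul_mem _ _ hy
  rw [Matrix.matrix_eq_sum_single X]
  refine Submodule.sum_mem _ fun i _ => Submodule.sum_mem _ fun j _ => ?_
  have h1 : Matrix.single i j (X i j) = X i j • (Matrix.single i j (1 : s.kk)).map κ := by
    ext u v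
    simp [Matrix.single_apply]
  rw [h1]
  exact Submodule.smul_mem _ _ (hmap _)

/-- A representation with the eigenvalues of a value and its exact reduction is conjugate to it by
a matrix which is `1` modulo the maximal ideal. -/
theorem exists_conj (r' : Γℚ →* Matrix (Fin 2) (Fin 2) V.B) (hr' : Deform.MCont r')
    (hred : ∀ g, (r' g).map (residue V.B) =
      (TW.matRep s.ρbar g).map (ResidueField.map (algebraMap s.O V.B)))
    (hfrob : HasFrobPoly (Deform.toRep r' hr') d.S V.a) :
    ∃ M : GL (Fin 2) V.B, M.val.map (residue V.B) = 1 ∧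
      ∀ g, V.rep g = M.val * r' g * (M⁻¹).val := by
  have habs := V.residual_absIrr r' hr' hred
  obtain ⟨M, hM, hMr⟩ := (Deform.isEquiv_toRep_iff r' V.rep hr' V.hrep).mp
    (isEquiv_of_hasFrobPoly hfrob V.frob habs)
  let κ := ResidueField.map (algebraMap s.O V.B)
  have hcomm : ∀ X : Matrix (Fin 2) (Fin 2) s.kk,
      M.map (residue V.B) * X.map κ = X.map κ * M.map (residue V.B) := by
    intro X
    have hX : X ∈ Submodule.span s.kk (Set.range (Deform.repMat (TW.residualBasis s.ρbar)
        s.ρbar.ρ)) := by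
      rw [Deform.span_range_repMat_eq_top s.ρbar s.habs]; trivial
    induction hX using Submodule.span_induction with
    | mem x hx =>
      obtain ⟨g, rfl⟩ := hx
      have h1 := congrArg (fun Y : Matrix (Fin 2) (Fin 2) V.B => Y.map (residue V.B)) (hMr g)
      simp only [Matrix.map_mul, hred, V.red] at h1
      exact h1
    | zero => simp
    | add x y _ _ hx hy => rw [Matrix.map_add _ (map_add κ), mul_add, add_mul, hx, hy]
    | smul c x _ hx =>
      rw [show (c • x).map κ = κ c • x.map κ by ext i j; simp, mul_smul_comm, smul_mul_assoc, hx]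
  have hscal : ∃ c : ResidueField V.B, M.map (residue V.B) = c • 1 := by
    refine RepLemmas.exists_eq_scalar_of_commute
      (fun X : Matrix (Fin 2) (Fin 2) s.kk => X.map κ) (eq_top_iff.2 fun X _ => ?_) _ hcomm
    rw [Matrix.matrix_eq_sum_single X]
    refine Submodule.sum_mem _ fun i _ => Submodule.sum_mem _ fun j _ => ?_
    have h1 : Matrix.single i j (X i j) = X i j • (Matrix.single i j (1 : s.kk)).map κ := by
      ext u v
      simp [Matrix.single_apply]
    rw [h1]
    exact Submodule.smul_mem _ _ (Submodule.subset_span ⟨_, rfl⟩)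
  obtain ⟨c, hc⟩ := hscal
  obtain ⟨c', hc'⟩ := residue_surjective c
  have hc0 : c ≠ 0 := fun h => by
    have h1 : IsUnit (M.map (residue V.B)) := hM.map (residue V.B).mapMatrix
    rw [hc, h, zero_smul] at h1
    exact not_isUnit_zero h1
  have hu : IsUnit c' := (residue_ne_zero_iff_isUnit c').1 (hc' ▸ hc0)
  obtain ⟨u, rfl⟩ := hu
  have hunit : IsUnit ((↑u⁻¹ : V.B) • M) := by
    rw [← Units.smul_def]
    exact hM.smul u⁻¹
  obtain ⟨G, hG⟩ := hunit
  refine ⟨G, ?_, fun g => ?_⟩
  · have hres : residue V.B (↑u⁻¹ : V.B) * c = 1 := by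
      rw [← hc', ← map_mul, Units.inv_mul, map_one]
    rw [hG]
    ext i j
    have h1 := congrFun (congrFun hc i) j
    rw [Matrix.map_apply] at h1 ⊢
    rw [Matrix.smul_apply, smul_eq_mul, map_mul, h1, Matrix.smul_apply, smul_eq_mul, ← mul_assoc,
      hres, one_mul]
  · have h1 : G.val * r' g = V.rep g * G.val := by
      rw [hG, smul_mul_assoc, mul_smul_comm, hMr g]
    rw [h1, mul_assoc, ← Units.val_mul, mul_inv_cancel, Units.val_one, mul_one]

end FVal

end Fermat.Agent.Lifting
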