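import Fermat.Agent.Lifting.FTangent
import Fermat.Agent.TW.TangentCLocal
import Fermat.Agent.TW.TangentCModel
import Fermat.Agent.Deform.MatrixRep
import Fermat.Prelude.Def_GaloisRep_Flat

/-!
# Flat representations give flat tangent cocycles
-/

set_option autoImplicit false
set_option linter.style.haveILetI false

noncomputable section

namespace Fermat.Agent.Lifting

open IsLocalRing Module Fermat.Agent Fermat.Agent.Deform

local notation "Γℚ" => AlgebraicClosure ℚ ≃ₐ[ℚ] AlgebraicClosure ℚ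

variable {O : Type} [CommRing O] [IsLocalRing O]
variable {T : Type} [CommRing T] [IsLocalRing T] [Algebra O T]
variable {ψ : T →ₐ[O] ResidueField O} {f : T →ₗ[O] ResidueField O}

omit [IsLocalRing T] in
theorem point_map_mulVec (X : Matrix (Fin 2) (Fin 2) T) (y : Fin 2 → T) (i : Fin 2) :
    ψ (X.mulVec y i) = (X.map ψ).mulVec (ψ ∘ y) i := by
  simp [Matrix.mulVec, dotProduct]

omit [IsLocalRing T] in
theorem tangent_map_mulVec (hf : IsTangent ψ f) (X : Matrix (Fin 2) (Fin 2) T) (y : Fin 2 → T) :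
    f ∘ X.mulVec y = (X.map f).mulVec (ψ ∘ y) + (X.map ψ).mulVec (f ∘ y) := by
  funext i
  simp only [Function.comp_apply, Pi.add_apply, Matrix.mulVec, dotProduct, Fin.sum_univ_two,
    Matrix.map_apply, map_add, hf.map_mul]
  ring

omit [IsLocalRing T] in
/-- A non-zero tangent vector and the point take all pairs of values. -/
theorem exists_tangent_value (hf : IsTangent ψ f) (h0 : f ≠ 0) (u v : ResidueField O) :
    ∃ z : T, ψ z = u ∧ f z = v := by
  obtain ⟨x, hx⟩ : ∃ x, f x ≠ 0 := by
    by_contra! h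
    exact h0 (LinearMap.ext h)
  obtain ⟨t, ht⟩ := residue_surjective (ψ x)
  obtain ⟨a, ha⟩ := residue_surjective u
  obtain ⟨c, hc⟩ := residue_surjective (v * (f x)⁻¹)
  refine ⟨algebraMap O T a + algebraMap O T c * (x - algebraMap O T t), ?_, ?_⟩
  · simp only [map_add, map_mul, map_sub, algHom_algebraMap_eq_residue, ht, ha, sub_self,
      mul_zero, add_zero]
  · simp only [map_add, map_sub, hf.map_mul, hf.map_algebraMap, algHom_algebraMap_eq_residue, hc,
      mul_zero, add_zero, zero_add, sub_zero]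
    rw [mul_assoc, inv_mul_cancel₀ hx, mul_one]

variable (R : GaloisRepAdic T) (b : Basis (Fin 2) T R.V) {ρbar : ResidualGaloisRep (ResidueField O)}

omit [IsLocalRing O] [Algebra O T] in
/-- Continuity in a basis. -/
theorem exists_level_of_basis (n : ℕ) :
    ∃ E : IntermediateField ℚ (AlgebraicClosure ℚ), FiniteDimensional ℚ E ∧
      ∀ σ : Γℚ, (∀ x ∈ E, σ x = x) → ∀ i j, (repMat b R.ρ σ - 1) i j ∈ maximalIdeal T ^ n := by
  obtain ⟨E, hE, h⟩ := R.isAdicContinuous n
  refine ⟨E, hE, fun σ hσ i j => ?_⟩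
  have := repr_mem_of_mem_smul_top b _ (h σ hσ (b j)) i
  simpa [repMat_apply, LinearMap.toMatrix_apply, Finsupp.single_apply, Matrix.one_apply, eq_comm]
    using this

/-- The global action on pairs of a first order deformation. -/
def tangentPair {T : Type} [CommRing T] [Algebra O T] (ρ : Γℚ →* Matrix (Fin 2) (Fin 2) T)
    (r0 : Γℚ →* Matrix (Fin 2) (Fin 2) (ResidueField O)) (f : T →ₗ[O] ResidueField O) (σ : Γℚ)
    (v : (Fin 2 → ResidueField O) × (Fin 2 → ResidueField O)) :
    (Fin 2 → ResidueField O) × (Fin 2 → ResidueField O) :=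
  ((r0 σ).mulVec v.1, (r0 σ).mulVec v.2 + ((ρ σ).map f).mulVec v.1)

theorem hasFlatModel_tangentPair [Finite (ResidueField O)] (p : ℕ)
    (hr0 : ∀ γ, (repMat b R.ρ γ).map ψ = TW.matRep ρbar γ) (hflat : R.IsFlatAt p)
    (hf : IsTangent ψ f) (h0 : f ≠ 0) :
    FlatModel.HasFlatModel p ((Fin 2 → ResidueField O) × (Fin 2 → ResidueField O))
      (tangentPair (repMat b R.ρ) (TW.matRep ρbar) f) := by
  let I : Ideal T :=
    { carrier := {x | ψ x = 0 ∧ f x = 0}
      add_mem' := fun {x y} hx hy => ⟨by rw [map_add, hx.1, hy.1, add_zero],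
        by rw [map_add, hx.2, hy.2, add_zero]⟩
      zero_mem' := ⟨map_zero _, map_zero f⟩
      smul_mem' := fun a x hx => ⟨by rw [smul_eq_mul, map_mul, hx.1, mul_zero],
        by rw [smul_eq_mul, hf.map_mul, hx.1, hx.2, mul_zero, zero_mul, add_zero]⟩ }
  have hI : Finite (T ⧸ I) := by
    let g : T ⧸ I → ResidueField O × ResidueField O :=
      Quotient.lift (fun x => (ψ x, f x)) fun x y hxy => by
        obtain ⟨h1, h2⟩ : x - y ∈ I := (Submodule.quotientRel_def I).mp hxy
        rw [map_sub, sub_eq_zero] at h1 h2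
        exact Prod.ext h1 h2
    refine Finite.of_injective g fun x y hxy => ?_
    obtain ⟨x, rfl⟩ := Ideal.Quotient.mk_surjective x
    obtain ⟨y, rfl⟩ := Ideal.Quotient.mk_surjective y
    have h1 := congrArg Prod.fst hxy
    have h2 := congrArg Prod.snd hxy
    change ψ x = ψ y at h1
    change f x = f y at h2
    exact Ideal.Quotient.eq.mpr
      ⟨by rw [map_sub, h1, sub_self], by rw [map_sub, h2, sub_self]⟩
  obtain ⟨H, hH1, hH2, hfin, hflat', hcc, e, headd, heσ⟩ := hflat.2 I hI
  let Φ : R.V →+ (Fin 2 → ResidueField O) × (Fin 2 → ResidueField O) :=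
    { toFun := fun v => (ψ ∘ b.equivFun v, f ∘ b.equivFun v)
      map_zero' := by
        refine Prod.ext ?_ ?_ <;> funext i <;> simp
      map_add' := fun v w => by
        refine Prod.ext ?_ ?_ <;> funext i <;> simp }
  have hψs : Function.Surjective Φ := fun t => by
    choose y hy1 hy2 using fun i => exists_tangent_value hf h0 (t.1 i) (t.2 i)
    refine ⟨b.equivFun.symm y, Prod.ext (funext fun i => ?_) (funext fun i => ?_)⟩
    · show ψ (b.equivFun (b.equivFun.symm y) i) = _
      rw [LinearEquiv.apply_symm_apply, hy1]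
    · show f (b.equivFun (b.equivFun.symm y) i) = _
      rw [LinearEquiv.apply_symm_apply, hy2]
  have hker : ∀ v, Φ v = 0 ↔ v ∈ I • (⊤ : Submodule T R.V) := fun v => by
    constructor
    · intro hv
      exact mem_smul_top_of_forall b I fun i =>
        ⟨congrFun (congrArg Prod.fst hv) i, congrFun (congrArg Prod.snd hv) i⟩
    · intro hv
      refine Prod.ext (funext fun i => ?_) (funext fun i => ?_)
      · exact (repr_mem_of_mem_smul_top b I hv i).1
      · exact (repr_mem_of_mem_smul_top b I hv i).2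
  let Φ' : (R.V ⧸ (I • (⊤ : Submodule T R.V))) →
      (Fin 2 → ResidueField O) × (Fin 2 → ResidueField O) :=
    Quotient.lift Φ fun v w hvw => by
      have h1 : v - w ∈ I • (⊤ : Submodule T R.V) :=
        (Submodule.quotientRel_def (I • (⊤ : Submodule T R.V))).mp hvw
      rw [← sub_eq_zero, ← map_sub]
      exact (hker _).mpr h1
  have hmk : ∀ v, Φ' (Submodule.Quotient.mk v) = Φ v := fun v => rfl
  have hbij : Function.Bijective Φ' := by
    refine ⟨fun x y hxy => ?_, fun y => ?_⟩
    · obtain ⟨x, rfl⟩ := Submodule.Quotient.mk_surjective _ x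
      obtain ⟨y, rfl⟩ := Submodule.Quotient.mk_surjective _ y
      rw [hmk, hmk, ← sub_eq_zero, ← map_sub, hker] at hxy
      exact (Submodule.Quotient.eq _).mpr hxy
    · obtain ⟨v, rfl⟩ := hψs y
      exact ⟨Submodule.Quotient.mk v, rfl⟩
  refine ⟨H, hH1, hH2, hfin, hflat', hcc, e.trans (Equiv.ofBijective Φ' hbij),
    fun u w => ?_, fun σ u w huw => ?_⟩
  · show Φ' (e (u * w)) = Φ' (e u) + Φ' (e w)
    rw [headd]
    obtain ⟨v, hv⟩ := Submodule.Quotient.mk_surjective _ (e u)
    obtain ⟨z, hw⟩ := Submodule.Quotient.mk_surjective _ (e w)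
    rw [← hv, ← hw, ← Submodule.Quotient.mk_add, hmk, hmk, hmk, map_add]
  · show Φ' (e w) = tangentPair (repMat b R.ρ) (TW.matRep ρbar) f σ (Φ' (e u))
    rw [heσ σ u w huw]
    obtain ⟨v, hv⟩ := Submodule.Quotient.mk_surjective _ (e u)
    rw [← hv]
    show Φ (R.ρ σ v) = tangentPair (repMat b R.ρ) (TW.matRep ρbar) f σ (Φ v)
    have hcol : b.equivFun (R.ρ σ v) = (repMat b R.ρ σ).mulVec (b.equivFun v) :=
      (LinearMap.toMatrix_mulVec_repr b b (R.ρ σ) v).symm
    refine Prod.ext ?_ ?_
    · show ψ ∘ b.equivFun (R.ρ σ v) = (TW.matRep ρbar σ).mulVec (ψ ∘ b.equivFun v)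
      funext i
      rw [hcol, Function.comp_apply, point_map_mulVec, hr0]
    · show f ∘ b.equivFun (R.ρ σ v) = (TW.matRep ρbar σ).mulVec (f ∘ b.equivFun v) +
        ((repMat b R.ρ σ).map f).mulVec (ψ ∘ b.equivFun v)
      rw [hcol, tangent_map_mulVec hf, hr0, add_comm]


/-- **The flat condition on tangent cocycles.** -/
theorem resLoc_tangentCocycle_mem_flatLocal [Finite (ResidueField O)] (p : ℕ) [Fact p.Prime]
    (hr0 : ∀ γ, (repMat b R.ρ γ).map ψ = TW.matRep ρbar γ)
    (hdet : ∀ γ, ∃ t : O, (repMat b R.ρ γ).det = algebraMap O T t)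
    (hflat : R.IsFlatAt p) (hf : IsTangent ψ f) :
    TW.resLoc p (tangentCocycle (repMat b R.ρ) (TW.matRep ρbar) f) ∈
      TW.flatLocal p (TW.locRep ρbar p) := by
  by_cases h0 : f = 0
  · have hz : tangentCocycle (repMat b R.ρ) (TW.matRep ρbar) f = 0 := by
      funext γ
      have h1 : (repMat b R.ρ γ).map f = 0 := by ext i j; simp [h0]
      rw [tangentCocycle, h1, zero_mul, Pi.zero_apply]
    rw [hz, map_zero]
    exact Submodule.zero_mem _
  refine Submodule.mem_sup_left (Submodule.subset_span ⟨TW.resLoc_mem_ctsCocycles ρbar p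
    ⟨tangentCocycle_mem hr0 hdet hf,
      tangentCocycle_mem_globalFiniteLevel hr0 (exists_level_of_basis R b 2) hf⟩, ?_⟩)
  have he : (fun g v => tangentPair (repMat b R.ρ) (TW.matRep ρbar) f
      (localGaloisToGlobal p g) v) = TW.liftAct (TW.locRep ρbar p)
        (TW.resLoc p (tangentCocycle (repMat b R.ρ) (TW.matRep ρbar) f)) := by
    funext g v
    refine Prod.ext rfl ?_
    show _ = (TW.matRep ρbar (localGaloisToGlobal p g)).mulVec v.2 +
      (tangentCocycle (repMat b R.ρ) (TW.matRep ρbar) f (localGaloisToGlobal p g)).mulVec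
        ((TW.matRep ρbar (localGaloisToGlobal p g)).mulVec v.1)
    rw [Matrix.mulVec_mulVec, tangentCocycle_mul_self]
    rfl
  rw [← he]
  exact TW.hasLocalModel_of_hasFlatModel (hasFlatModel_tangentPair R b p hr0 hflat hf h0)

end Fermat.Agent.Lifting
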