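import Fermat.Agent.Lifting.FBound
import Fermat.Agent.Lifting.BGauge
import Fermat.Agent.Lifting.FTangentFlat
import Fermat.Agent.Lifting.FCoordsGauge
import Fermat.Agent.Lifting.FCoordsPlace
import Fermat.Prelude.Thm_IsLocalRing_isAdicComplete_of_module_finite

/-!
# The variables of one world

A world is a finite family of points of the coefficient ring `T`; the image of `T` in the product
satisfies their local conditions, so the gauged generation theorem applies to it, and every
element of `T[[Y]]` agrees on the points of the world with a series in the chosen variables.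
-/

set_option autoImplicit false
set_option linter.style.haveILetI false

noncomputable section

namespace Fermat.Agent.Lifting

open IsLocalRing MvPowerSeries Fermat.Agent.Deform Module

namespace FSetup

variable (s : FSetup)

theorem eq_zero_of_commute_matRep (M : Matrix (Fin 2) (Fin 2) s.kk) (ht : M.trace = 0)
    (hc : ∀ γ, TW.matRep s.ρbar γ * M = M * TW.matRep s.ρbar γ) : M = 0 :=
  Ribet.Avoid.eq_zero_of_forall_commute s.ρbar s.habs s.two_ne_zero_kk M ht hc

theorem matRep_tau (a : Fin s.K) : TW.matRep s.ρbar (s.tau a) = 1 := by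
  haveI : Fact (s.q a).Prime := ⟨(s.hq a).1⟩
  exact (TW.matRep_eq_one_iff _ _).mpr
    (s.hresq a _ (padicPlace_liesOverPrime _) _ (s.hgen a).tau_mem)

/-- The centre of Frobenius at the place `a`. -/
def centreAt (a : Fin s.K) : Matrix (Fin 2) (Fin 2) s.O :=
  frobCentre (s.q a) (s.eps a) (s.beta a)

theorem cocycleSum_adD (sm : Γ →₀ s.O) (M : Matrix (Fin 2) (Fin 2) s.kk) :
    cocycleSum (TW.matRep s.ρbar) sm (TW.adD (TW.matRep s.ρbar) M) = 0 := by
  exact Finset.sum_eq_zero fun γ _ => by simp only [trace_adD_mul, mul_zero]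

end FSetup

/-- The value of a series at the closed point is its residual constant term. -/
theorem point_pev_eq_residue {O A ι : Type} [CommRing O] [IsLocalRing O] [CommRing A]
    [IsLocalRing A] [Algebra O A] [IsAdicComplete (maximalIdeal A) A] [Finite ι]
    (χ : A →ₐ[O] ResidueField O) (val : ι → A) (hv : ∀ v, val v ∈ maximalIdeal A)
    (f : MvPowerSeries ι O) :
    χ (Deform.pev (maximalIdeal A) val hv f) = residue O (constantCoeff f) := by
  set F : MvPowerSeries ι O →ₐ[O] A := Deform.pev (maximalIdeal A) val hv with hF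
  have h1 : (Deform.varIdeal ι O).map (F : MvPowerSeries ι O →+* A) ≤ maximalIdeal A := by
    rw [Deform.varIdeal, Ideal.map_span, Ideal.span_le]
    rintro _ ⟨_, ⟨v, rfl⟩, rfl⟩
    show F (X v) ∈ maximalIdeal A
    rw [hF, Deform.pev_X]
    exact hv v
  have h2 := (mem_maximalIdeal_iff_algHom χ _).mp
    (h1 (Ideal.mem_map_of_mem _ (Deform.sub_C_constantCoeff_mem f)))
  change χ (F (f - C (constantCoeff f))) = 0 at h2
  rw [map_sub, map_sub, sub_eq_zero] at h2
  rw [h2, show F (C (constantCoeff f)) = algebraMap O A (constantCoeff f) by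
    rw [← F.commutes]; rfl, algHom_algebraMap_eq_residue]

section WorldRing

variable {O : Type} [CommRing O] [IsLocalRing O] {T : Type} [CommRing T] [IsLocalRing T]
  [Algebra O T] {ι : Type} {C : ι → Type} [∀ i, CommRing (C i)] [∀ i, IsLocalRing (C i)]
  [∀ i, Algebra O (C i)] (hom : ∀ i, T →ₐ[O] C i)

/-- The relations of a family of points. -/
def worldIdeal : Ideal T := ⨅ i, RingHom.ker (hom i)

/-- The image of `T` in the family. -/
abbrev WorldRing : Type := T ⧸ worldIdeal hom

omit [IsLocalRing O] [IsLocalRing T] [∀ i, IsLocalRing (C i)] in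
theorem mem_worldIdeal_iff (x : T) : x ∈ worldIdeal hom ↔ ∀ i, hom i x = 0 := by
  simp [worldIdeal, Submodule.mem_iInf]

instance nontrivial_worldRing [Nonempty ι] : Nontrivial (WorldRing hom) :=
  Ideal.Quotient.nontrivial_iff.mpr fun h => by
    have h1 := (mem_worldIdeal_iff hom 1).mp (h ▸ Submodule.mem_top) (Classical.arbitrary ι)
    rw [map_one] at h1
    exact one_ne_zero h1

instance isLocalRing_worldRing [Nonempty ι] : IsLocalRing (WorldRing hom) :=
  IsLocalRing.of_surjective' (Ideal.Quotient.mk (worldIdeal hom)) Ideal.Quotient.mk_surjective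

/-- The quotient map of a world. -/
def worldMk : T →ₐ[O] WorldRing hom := Ideal.Quotient.mkₐ O (worldIdeal hom)

omit [IsLocalRing O] [IsLocalRing T] [∀ i, IsLocalRing (C i)] in
theorem worldMk_surjective : Function.Surjective (worldMk hom) := Ideal.Quotient.mk_surjective

/-- A point of a world. -/
def worldHom (i : ι) : WorldRing hom →ₐ[O] C i :=
  Ideal.Quotient.liftₐ (worldIdeal hom) (hom i) fun x hx => (mem_worldIdeal_iff hom x).mp hx i

omit [IsLocalRing O] [IsLocalRing T] [∀ i, IsLocalRing (C i)] in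
theorem worldHom_worldMk (i : ι) (x : T) : worldHom hom i (worldMk hom x) = hom i x := rfl

omit [IsLocalRing O] [IsLocalRing T] [∀ i, IsLocalRing (C i)] in
theorem worldHom_injective (b : WorldRing hom) (h : ∀ i, worldHom hom i b = 0) : b = 0 := by
  obtain ⟨x, rfl⟩ := worldMk_surjective hom b
  exact Ideal.Quotient.eq_zero_iff_mem.mpr ((mem_worldIdeal_iff hom x).mpr h)

omit [IsLocalRing O] [∀ i, IsLocalRing (C i)] in
theorem worldIdeal_le_maximalIdeal [Nonempty ι] [∀ i, Nontrivial (C i)] :
    worldIdeal hom ≤ maximalIdeal T :=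
  le_maximalIdeal fun h => by
    have h1 := (mem_worldIdeal_iff hom 1).mp (h ▸ Submodule.mem_top) (Classical.arbitrary ι)
    rw [map_one] at h1
    exact one_ne_zero h1

variable (ψ : T →ₐ[O] ResidueField O)

/-- The closed point of a world. -/
def worldPoint [Nonempty ι] : WorldRing hom →ₐ[O] ResidueField O :=
  Ideal.Quotient.liftₐ (worldIdeal hom) ψ fun _ hx =>
    (mem_maximalIdeal_iff_algHom ψ _).mp (worldIdeal_le_maximalIdeal hom hx)

theorem worldPoint_worldMk [Nonempty ι] (x : T) : worldPoint hom ψ (worldMk hom x) = ψ x := rfl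

include ψ in
theorem isLocalHom_worldRing [Nonempty ι] : IsLocalHom (algebraMap O (WorldRing hom)) :=
  ⟨fun t ht => by
    have h := (ht.map (worldPoint hom ψ)).ne_zero
    rw [AlgHom.commutes, ResidueField.algebraMap_eq] at h
    exact (residue_ne_zero_iff_isUnit t).mp h⟩

theorem isLocalHom_worldMk (ψ : T →ₐ[O] ResidueField O) [Nonempty ι] :
    IsLocalHom (worldMk hom : T →+* WorldRing hom) :=
  ⟨fun x hx => by
    by_contra h
    have h1 : IsUnit (worldPoint hom ψ (worldMk hom x)) := hx.map (worldPoint hom ψ)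
    rw [worldPoint_worldMk, (mem_maximalIdeal_iff_algHom ψ x).mp h] at h1
    exact not_isUnit_zero h1⟩

omit [IsLocalRing O] [IsLocalRing T] [∀ i, IsLocalRing (C i)] in
theorem isLocalHom_worldHom (hloc : ∀ i, IsLocalHom (hom i : T →+* C i)) (i : ι) :
    IsLocalHom (worldHom hom i : WorldRing hom →+* C i) :=
  ⟨fun b hb => by
    obtain ⟨x, rfl⟩ := worldMk_surjective hom b
    haveI := hloc i
    exact (isUnit_of_map_unit (hom i : T →+* C i) x hb).map (worldMk hom)⟩

end WorldRing

namespace FSetup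

variable (s : FSetup) {T : Type} [CommRing T] [IsLocalRing T] [IsNoetherianRing T]
  [Algebra s.O T] [Module.Finite s.O T] [IsAdicComplete (maximalIdeal T) T]
  (ψ : T →ₐ[s.O] s.kk) {rep : Γ →* M2 T} (hrep : MCont rep)
  {ι : Type} [Nonempty ι] {E : ι → Type} [∀ i, CommRing (E i)] [∀ i, IsLocalRing (E i)]
  [∀ i, Algebra s.O (E i)] (hom : ∀ i, T →ₐ[s.O] E i)

/-- The representation of a world. -/
abbrev worldRep (rep : Γ →* M2 T) : Γ →* M2 (WorldRing hom) := pushRep rep (worldMk hom)

omit [IsNoetherianRing T] [Module.Finite s.O T] [IsAdicComplete (maximalIdeal T) T] in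
include hrep ψ in
theorem mcont_worldRep : MCont (s.worldRep hom rep) :=
  mcont_mapRep (worldMk hom : T →+* WorldRing hom) (isLocalHom_worldMk hom ψ) rep hrep

omit [IsLocalRing T] [IsNoetherianRing T] [Module.Finite s.O T]
  [IsAdicComplete (maximalIdeal T) T] [Nonempty ι] [∀ i, IsLocalRing (E i)] in
/-- A representation of a point is the push-forward of the one of the world. -/
theorem pushRep_worldHom (i : ι) :
    pushRep (s.worldRep hom rep) (worldHom hom i) = pushRep rep (hom i) :=
  MonoidHom.ext fun _ => Matrix.ext fun _ _ => rfl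

variable (rep)

include hrep in
/-- **The variables of one world.**  Every element of `T[[Y]]` agrees on the points of the world
with a series in the local coordinates, `g` chosen variables and the `u j`. -/
theorem exists_worldVars (hred : ∀ γ, (rep γ).map ψ = TW.matRep s.ρbar γ)
    (hdet : ∀ γ, ∃ t : s.O, (rep γ).det = algebraMap s.O T t)
    (hgen : ∀ x : T, ∃ y ∈ Algebra.adjoin s.O (Set.range fun γ => (rep γ).trace),
      x - y ∈ maximalIdeal T ^ 2)
    (S : Finset ℕ)
    (hunr : ∀ i x, x.Prime → x ∉ S → ∀ A : ValuationSubring (AlgebraicClosure ℚ),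
      A.LiesOverPrime x → ∀ σ ∈ A.inertiaSubgroupIn ℚ, pushRep rep (hom i) σ = 1)
    (hunip : ∀ i x, ∀ [Fact x.Prime], x ∣ s.N → x ≠ s.p →
      ∀ σ ∈ (padicPlace x).inertiaSubgroupIn ℚ, (pushRep rep (hom i) σ).trace = 2)
    {J : Type} [Finite J] (u : J → T) (hu : ∀ j, ψ (u j) = 0) (sm : J → Γ →₀ s.O)
    (hus : ∀ j, ∃ e : s.O, u j = algebraMap s.O T e + traceSum rep (sm j))
    (PC : Submodule s.kk s.Fun)
    (hP : ∀ f, IsTangent (worldPoint hom ψ) f →
      tangentCocycle (s.worldRep hom rep) (TW.matRep s.ρbar) f ∈ PC)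
    (g : ℕ)
    (hbound : ∀ W : Submodule s.kk s.Fun, FiniteDimensional s.kk W →
      W ≤ (TW.adCocycles (TW.matRep s.ρbar) ⊓ (TW.globalCocycles s.ρbar S ⊓ s.unipCond ⊓ PC)) ⊔
        TW.adCoboundaries (TW.matRep s.ρbar) →
      (∀ a, ∀ c ∈ W, ∃ η : Matrix (Fin 2) (Fin 2) s.kk, η.trace = 0 ∧
        c (s.phi a) = TW.adD (TW.matRep s.ρbar) η (s.phi a) ∧
        c (s.tau a) = TW.adD (TW.matRep s.ρbar) η (s.tau a)) →
      (∀ j, ∀ c ∈ W, cocycleSum (TW.matRep s.ρbar) (sm j) c = 0) →
      finrank s.kk W +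
        ∑ a, finrank s.kk (centralTrZero (TW.matRep s.ρbar (s.phi a))) ≤ g + 3) :
    ∃ (x : Fin g → GaugeRing T s.K)
      (hv : ∀ v, Sum.elim (gaugeCoord rep s.frame s.centreAt s.phi s.tau)
        (Sum.elim x fun j => C (u j)) v ∈ maximalIdeal (GaugeRing T s.K)),
      ∀ a : GaugeRing T s.K, ∃ f : MvPowerSeries
          ((Fin s.K × Bool × Fin 2 × Fin 2) ⊕ (Fin g ⊕ J)) s.O,
        (a ∈ maximalIdeal (GaugeRing T s.K) → constantCoeff f ∈ maximalIdeal s.O) ∧
        ∀ i, gaugeMap (hom i) s.K (Deform.pev (maximalIdeal (GaugeRing T s.K)) _ hv f) =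
          gaugeMap (hom i) s.K a := by
  classical
  haveI := isLocalHom_worldRing hom ψ
  haveI : IsAdicComplete (maximalIdeal (WorldRing hom)) (WorldRing hom) :=
    IsLocalRing.isAdicComplete_of_module_finite (𝒪 := s.O)
  have hr0 : ∀ γ, (s.worldRep hom rep γ).map (worldPoint hom ψ) = TW.matRep s.ρbar γ := fun γ => by
    rw [← hred γ]
    rfl
  have hdetW : ∀ γ, ∃ t : s.O, (s.worldRep hom rep γ).det = algebraMap s.O (WorldRing hom) t :=
    fun γ => by
      obtain ⟨t, ht⟩ := hdet γ
      refine ⟨t, ?_⟩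
      rw [← (worldMk hom).commutes t, ← ht]
      exact (RingHom.map_det (worldMk hom : T →+* WorldRing hom) (rep γ)).symm
  have htr : ∀ γ, (s.worldRep hom rep γ).trace = worldMk hom (rep γ).trace := fun γ =>
    (AddMonoidHom.map_trace (worldMk hom : T →+* WorldRing hom) (rep γ)).symm
  have hgenW : ∀ b : WorldRing hom, ∃ y ∈ Algebra.adjoin s.O
      (Set.range fun γ => (s.worldRep hom rep γ).trace),
      b - y ∈ maximalIdeal (WorldRing hom) ^ 2 := fun b => by
    obtain ⟨a, rfl⟩ := worldMk_surjective hom b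
    obtain ⟨y, hy, hy2⟩ := hgen a
    have hle : Algebra.adjoin s.O (Set.range fun γ => (rep γ).trace) ≤
        (Algebra.adjoin s.O (Set.range fun γ => (s.worldRep hom rep γ).trace)).comap
          (worldMk hom) := by
      refine Algebra.adjoin_le ?_
      rintro _ ⟨γ, rfl⟩
      exact Algebra.subset_adjoin ⟨γ, htr γ⟩
    refine ⟨worldMk hom y, hle hy, ?_⟩
    rw [← map_sub]
    haveI := isLocalHom_worldMk hom ψ
    have hmap : (maximalIdeal T).map (worldMk hom : T →+* WorldRing hom) ≤
        maximalIdeal (WorldRing hom) :=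
      Ideal.map_le_iff_le_comap.mpr fun z hz =>
        Ideal.mem_comap.mpr (map_nonunit (worldMk hom : T →+* WorldRing hom) z hz)
    refine (show ((maximalIdeal T) ^ 2).map (worldMk hom : T →+* WorldRing hom) ≤
      maximalIdeal (WorldRing hom) ^ 2 from ?_) (Ideal.mem_map_of_mem _ hy2)
    rw [Ideal.map_pow]
    exact Ideal.pow_right_mono hmap 2
  have hlev : ∃ L : IntermediateField ℚ (AlgebraicClosure ℚ), FiniteDimensional ℚ L ∧
      ∀ σ : Γ, (∀ x ∈ L, σ x = x) →
        ∀ i j, (s.worldRep hom rep σ - 1) i j ∈ maximalIdeal (WorldRing hom) ^ 2 :=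
    s.mcont_worldRep ψ hrep hom 2
  have hCond : ∀ f, IsTangent (worldPoint hom ψ) f →
      tangentCocycle (s.worldRep hom rep) (TW.matRep s.ρbar) f ∈
        TW.globalCocycles s.ρbar S ⊓ s.unipCond ⊓ PC := by
    intro f hf
    refine ⟨⟨⟨⟨tangentCocycle_mem hr0 hdetW hf, tangentCocycle_mem_globalFiniteLevel hr0 hlev hf⟩,
      fun x hx hxS A hA σ hσ => tangentCocycle_eq_zero_of_rep_eq_one hf ?_⟩, ?_⟩, hP f hf⟩
    · refine Matrix.ext fun k l => sub_eq_zero.mp (worldHom_injective hom _ fun i => ?_)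
      have h := congrFun (congrFun (hunr i x hx hxS A hA σ hσ) k) l
      rw [← s.pushRep_worldHom hom] at h
      rw [map_sub, show worldHom hom i (s.worldRep hom rep σ k l) = _ from h, sub_eq_zero]
      by_cases hkl : k = l
      · subst hkl; simp
      · simp [Matrix.one_apply_ne hkl]
    · refine Submodule.mem_iInf _ |>.mpr fun x => Submodule.mem_iInf _ |>.mpr fun hx =>
        Submodule.mem_iInf _ |>.mpr fun hxN => ?_
      haveI : Fact x.Prime := ⟨hx⟩
      refine resLoc_tangentCocycle_mem_unipotentLocal x hr0 hdetW hlev (fun σ hσ => ?_) hf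
      refine sub_eq_zero.mp (worldHom_injective hom _ fun i => ?_)
      have h := hunip i x hxN.1 hxN.2 σ hσ
      rw [← s.pushRep_worldHom hom] at h
      have h1 : (pushRep (s.worldRep hom rep) (worldHom hom i) σ).trace =
          worldHom hom i (s.worldRep hom rep σ).trace := by
        rw [pushRep_apply, Matrix.trace_fin_two, Matrix.trace_fin_two, map_add]
        rfl
      rw [map_sub, map_ofNat, ← h1, h, sub_self]
  obtain ⟨x', hv', hsurj⟩ := exists_surjective_gauged (s.worldRep hom rep) (worldPoint hom ψ)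
    (TW.matRep s.ρbar) hr0 s.two_ne_zero_kk s.eq_zero_of_commute_matRep hdetW hgenW s.frame
    s.centreAt s.phi s.tau s.hphi s.matRep_tau (fun j => worldMk hom (u j))
    (fun j => (mem_maximalIdeal_iff_algHom (worldPoint hom ψ) _).mpr
      ((worldPoint_worldMk hom ψ (u j)).trans (hu j)))
    sm (fun j => by
      obtain ⟨e, he⟩ := hus j
      refine ⟨e, ?_⟩
      rw [he, map_add, AlgHom.commutes, traceSum, traceSum, map_finsuppSum]
      refine congrArg (_ + ·) (Finsupp.sum_congr fun γ _ => ?_)
      rw [map_mul, AlgHom.commutes, htr])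
    _ hCond g hbound
  set π := gaugeMap (worldMk hom) s.K with hπ
  have hπmem : ∀ f : GaugeRing T s.K,
      π f ∈ maximalIdeal (GaugeRing (WorldRing hom) s.K) ↔
        f ∈ maximalIdeal (GaugeRing T s.K) := fun f => by
    have h : gaugePoint (worldPoint hom ψ) s.K (π f) = gaugePoint ψ s.K f := by
      rw [gaugePoint_apply, gaugePoint_apply, ← worldPoint_worldMk hom ψ]
      congr 1
    rw [mem_maximalIdeal_iff_algHom (gaugePoint (worldPoint hom ψ) s.K),
      mem_maximalIdeal_iff_algHom (gaugePoint ψ s.K), h]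
  choose x hx using fun j => gaugeMap_surjective (K := s.K) (worldMk hom) (worldMk_surjective hom) (x' j)
  have hval : ∀ v, π (Sum.elim (gaugeCoord rep s.frame s.centreAt s.phi s.tau)
      (Sum.elim x fun j => C (u j)) v) =
      Sum.elim (gaugeCoord (s.worldRep hom rep) s.frame s.centreAt s.phi s.tau)
        (Sum.elim x' fun j => C (worldMk hom (u j))) v := by
    rintro (v | j | j)
    · exact gaugeCoord_map rep s.frame (worldMk hom) s.centreAt s.phi s.tau v
    · exact hx j
    · exact gaugeMap_C (worldMk hom) (u j)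
  have hv : ∀ v, Sum.elim (gaugeCoord rep s.frame s.centreAt s.phi s.tau)
      (Sum.elim x fun j => C (u j)) v ∈ maximalIdeal (GaugeRing T s.K) := fun v =>
    (hπmem _).mp (by rw [hval]; exact hv' v)
  have hB : ∀ v, π (Sum.elim (gaugeCoord rep s.frame s.centreAt s.phi s.tau)
      (Sum.elim x fun j => C (u j)) v) ∈ maximalIdeal (GaugeRing (WorldRing hom) s.K) := fun v =>
    (hπmem _).mpr (hv v)
  have hcomp : π.comp (Deform.pev (maximalIdeal (GaugeRing T s.K)) _ hv) =
      Deform.pev (maximalIdeal (GaugeRing (WorldRing hom) s.K)) _ hv' := by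
    refine Deform.algHom_ext_of_X (maximalIdeal (GaugeRing (WorldRing hom) s.K)) _ _
      (fun v => ?_) fun v => ?_
    · rw [AlgHom.comp_apply, Deform.pev_X]
      exact hB v
    · rw [AlgHom.comp_apply, Deform.pev_X, Deform.pev_X, hval]
  refine ⟨x, hv, fun a => ?_⟩
  obtain ⟨f, hf⟩ := hsurj (π a)
  refine ⟨f, fun ha => ?_, fun i => ?_⟩
  · have h0 : gaugePoint (worldPoint hom ψ) s.K (π a) = 0 :=
      (mem_maximalIdeal_iff_algHom _ _).mp ((hπmem a).mpr ha)
    rw [← hf, point_pev_eq_residue (gaugePoint (worldPoint hom ψ) s.K) _ hv' f] at h0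
    exact Ideal.Quotient.eq_zero_iff_mem.mp h0
  · have h1 : π (Deform.pev (maximalIdeal (GaugeRing T s.K)) _ hv f) = π a :=
      (DFunLike.congr_fun hcomp f).trans hf
    have h2 : ∀ b, gaugeMap (hom i) s.K b = gaugeMap (worldHom hom i) s.K (π b) := fun b =>
      MvPowerSeries.ext fun d => by
        simp [hπ, MvPowerSeries.mapAlgHom_apply, MvPowerSeries.coeff_map, worldHom_worldMk]
    rw [h2, h2, h1]

end FSetup

end Fermat.Agent.Lifting
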