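import Fermat.Agent.Lifting.CMod
import Fermat.Agent.Lifting.CHom
import Fermat.Agent.HeckeCohom.Faithful
import Fermat.Agent.CondLevel.Raise
import Fermat.Agent.Eigen.EigenHom
import Fermat.Agent.Integral.Main
import Mathlib.FieldTheory.IsAlgClosed.AlgebraicClosure

/-!
# An eigenform congruent to a residual system gives a non-zero part at the system

The eigen-functional of the reduced character of the Hecke algebra, pushed into the residual
field by a linear form, is an eigenclass of the good operators; it survives in the part at its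
own system.
-/

set_option autoImplicit false

noncomputable section

namespace Fermat.Agent.Lifting

open CongruenceSubgroup ModularFormClass
open Fermat.Agent.Ribet.Twisted (CohL heckeT')

local notation "Zbar" => integralClosure ℤ ℂ

section EigenPart

variable {A : Type*} [CommRing A] {L D : ℕ} [NeZero L] (hD : D ∣ L) (ψ : DirichletCharacter A D)
  {S : Finset ℕ}

/-- An eigenvector of the good operators is an eigenvector of the algebra they generate. -/
theorem cohAct_of_eigen (M : Type*) [AddCommGroup M] [Module A M] (c : GoodIdx S → A)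
    {x : CohL hD ψ M} (hx : ∀ ℓ : GoodIdx S, heckeT' hD ψ M ℓ x = c ℓ • x)
    (t : MvPolynomial (GoodIdx S) A) :
    cohAct hD ψ S M t x = MvPolynomial.eval c t • x := by
  induction t using MvPolynomial.induction_on with
  | C r => rw [cohAct_C, MvPolynomial.eval_C]
  | add p q hp hq => rw [map_add, map_add, LinearMap.add_apply, hp, hq, add_smul]
  | mul_X p m hp =>
    rw [map_mul, cohAct_X, Module.End.mul_apply, hx m, map_smul, hp, smul_smul, map_mul,
      MvPolynomial.eval_X, mul_comm]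

end EigenPart

/-- A non-zero eigenclass over a field is non-zero in the part at its system. -/
theorem toPart_ne_zero_of_eigen {k : Type*} [Field k] {L D : ℕ} [NeZero L] (hD : D ∣ L)
    (ψ : DirichletCharacter k D) {S : Finset ℕ} (a : GoodIdx S → k) (M : Type*) [AddCommGroup M]
    [Module k M] {x : CohL hD ψ M} (hx0 : x ≠ 0)
    (hx : ∀ ℓ : GoodIdx S, heckeT' hD ψ M ℓ x = a ℓ • x) :
    toPart hD ψ (RingHom.id k) a M x ≠ 0 := by
  intro h
  obtain ⟨t, ht, htx⟩ := (toPart_eq_zero hD ψ (RingHom.id k) a M).1 h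
  rw [cohAct_of_eigen hD ψ M a hx t] at htx
  exact ht ((smul_eq_zero.1 htx).resolve_right hx0)

/-- An eigenclass among the homomorphisms to the field gives a non-zero part at the system. -/
theorem exists_mPart_ne_zero_of_hom {k : Type*} [Field k] {L : ℕ} [NeZero L] {S : Finset ℕ}
    (a : GoodIdx S → k) {φ : Additive (Gamma0 L) →+ k} (hφ : φ ≠ 0)
    (h : ∀ ℓ : GoodIdx S, HeckeCohom.heckeHom L k k ⟨ℓ.1, ℓ.2.1⟩ φ = a ℓ • φ) :
    ∃ x : MPart (one_dvd L) (1 : DirichletCharacter k 1) (RingHom.id k) a k, x ≠ 0 := by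
  obtain ⟨x, rfl⟩ := homL_surjective (A := k) (one_dvd L) (M := k) φ
  have hx : x ≠ 0 := fun h0 => hφ (by rw [h0, map_zero])
  refine ⟨toPart (one_dvd L) (1 : DirichletCharacter k 1) (RingHom.id k) a k x,
    toPart_ne_zero_of_eigen (one_dvd L) _ a k hx fun ℓ => homL_injective (one_dvd L) ?_⟩
  rw [homL_heckeT' (one_dvd L) ⟨ℓ.1, ℓ.2.1⟩ (fun h1 => ℓ.2.1.ne_one (Nat.dvd_one.1 h1)) x,
    h ℓ, map_smul]

/-- **A congruent eigenform gives the residual system.**  `θ` is a place of `ℂ` restricted to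
the algebraic integers, with values in an extension `K` of the residual field `k`. -/
theorem exists_mPart_ne_zero_of_eigenform_hom {k : Type*} [Field k] {K : Type*} [Field K]
    [Algebra k K] {M L : ℕ} [NeZero L] (hML : M ∣ L) {f : CuspForm (Gamma0 M) 2}
    (hf : f.IsNormalizedEigenform) (θ : Zbar →+* K) {S : Finset ℕ}
    (hS : ∀ ℓ : ℕ, ℓ.Prime → ℓ ∣ L → ℓ ∈ S) (a : GoodIdx S → k)
    (hc : ∀ ℓ : GoodIdx S, ∃ b : Zbar, (b : ℂ) = qCoeff f ℓ.1 ∧ θ b = algebraMap k K (a ℓ)) :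
    ∃ x : MPart (one_dvd L) (1 : DirichletCharacter k 1) (RingHom.id k) a k, x ≠ 0 := by
  obtain ⟨g, hg, hgf⟩ := CondLevel.exists_eigenform_of_dvd hML hf
  haveI := HeckeCohom.heckeAlgebra_two_finite L
  set χ : CuspForm.heckeAlgebra L 2 ∅ →+* Zbar := (Eigen.eigenChar g hg ∅).codRestrict Zbar
    (fun t => map_isIntegral_int (Eigen.eigenChar g hg ∅) (Algebra.IsIntegral.isIntegral t))
    with hχ
  obtain ⟨φ, hφ, hφt⟩ := HeckeCohom.exists_eigenvector (θ.comp χ)
  obtain ⟨v, hv⟩ : ∃ v, (φ : Additive (Gamma0 L) →+ K) v ≠ 0 := by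
    by_contra hall
    push Not at hall
    exact hφ (Subtype.ext (AddMonoidHom.ext hall))
  obtain ⟨r, hr⟩ := Module.Projective.exists_dual_ne_zero k hv
  refine exists_mPart_ne_zero_of_hom a (φ := r.toAddMonoidHom.comp φ.1)
    (fun h0 => hr (DFunLike.congr_fun h0 v)) fun ℓ => ?_
  have hℓL : ¬ ℓ.1 ∣ L := fun h => ℓ.2.2 (hS _ ℓ.2.1 h)
  obtain ⟨b, hb, hθ⟩ := hc ℓ
  have e : χ (CuspForm.heckeAlgebra.T ℓ.2.1 hℓL (Set.notMem_empty _)) = b := by
    apply Subtype.ext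
    rw [hb, ← hgf ℓ.1 ℓ.2.1 hℓL]
    exact Eigen.eigenChar_T hg _ _ _
  have h1 := hφt (CuspForm.heckeAlgebra.T ℓ.2.1 hℓL (Set.notMem_empty _))
  rw [HeckeCohom.heckeAct_T, RingHom.comp_apply, e, hθ] at h1
  have h2 : HeckeCohom.heckeHom L K K ⟨ℓ.1, ℓ.2.1⟩ φ.1 = algebraMap k K (a ℓ) • φ.1 :=
    congrArg Subtype.val h1
  rw [← HeckeCohom.comp_heckeHom (R := K) r.toAddMonoidHom ⟨ℓ.1, ℓ.2.1⟩ φ.1, h2]
  refine AddMonoidHom.ext fun w => ?_
  show r (algebraMap k K (a ℓ) * φ.1 w) = a ℓ * r (φ.1 w)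
  rw [← Algebra.smul_def, map_smul, smul_eq_mul]

/-- The same for integral eigenvalues and a prime of the algebraic integers over `p`. -/
theorem exists_mPart_ne_zero_of_eigenform {k : Type*} [Field k] {p : ℕ} [Fact p.Prime]
    (hpk : (p : k) = 0) {M L : ℕ} [NeZero L] (hML : M ∣ L) {f : CuspForm (Gamma0 M) 2}
    (hf : f.IsNormalizedEigenform) (𝔪 : Ideal Zbar) [𝔪.IsMaximal] (hpm : (p : Zbar) ∈ 𝔪)
    {S : Finset ℕ} (hS : ∀ ℓ : ℕ, ℓ.Prime → ℓ ∣ L → ℓ ∈ S) (c : ℕ → ℤ)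
    (hc : ∀ ℓ : ℕ, ℓ.Prime → ℓ ∉ S → ∃ b : Zbar, (b : ℂ) = qCoeff f ℓ ∧ b - (c ℓ : Zbar) ∈ 𝔪) :
    ∃ x : MPart (one_dvd L) (1 : DirichletCharacter k 1) (RingHom.id k)
      (fun ℓ : GoodIdx S => (c ℓ : k)) k, x ≠ 0 := by
  letI := Ideal.Quotient.field 𝔪
  haveI : CharP k p := (CharP.charP_iff_prime_eq_zero Fact.out).mpr hpk
  haveI : CharP (Zbar ⧸ 𝔪) p := (CharP.charP_iff_prime_eq_zero Fact.out).mpr
    (by rw [← map_natCast (Ideal.Quotient.mk 𝔪)]; exact Ideal.Quotient.eq_zero_iff_mem.mpr hpm)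
  letI := ZMod.algebra (Zbar ⧸ 𝔪) p
  letI := ZMod.algebra k p
  letI : Algebra (ZMod p) (AlgebraicClosure k) := ZMod.algebra _ p
  haveI : Algebra.IsIntegral (ZMod p) (Zbar ⧸ 𝔪) := by
    refine ⟨fun y => ?_⟩
    obtain ⟨b, rfl⟩ := Ideal.Quotient.mk_surjective y
    obtain ⟨P, hP, hPb⟩ : IsIntegral ℤ b := Algebra.IsIntegral.isIntegral b
    refine ⟨P.map (Int.castRingHom (ZMod p)), hP.map _, ?_⟩
    rw [Polynomial.eval₂_map]
    have h := congrArg (Ideal.Quotient.mk 𝔪) hPb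
    rw [Polynomial.hom_eval₂, map_zero] at h
    rw [RingHom.ext_int ((algebraMap (ZMod p) (Zbar ⧸ 𝔪)).comp (Int.castRingHom (ZMod p)))
      ((Ideal.Quotient.mk 𝔪).comp (algebraMap ℤ Zbar))]
    exact h
  let ι : (Zbar ⧸ 𝔪) →ₐ[ZMod p] AlgebraicClosure k := IsAlgClosed.lift
  refine exists_mPart_ne_zero_of_eigenform_hom (K := AlgebraicClosure k) hML hf
    (ι.toRingHom.comp (Ideal.Quotient.mk 𝔪)) hS _ fun ℓ => ?_
  obtain ⟨b, hb, hbc⟩ := hc ℓ.1 ℓ.2.1 ℓ.2.2
  refine ⟨b, hb, ?_⟩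
  rw [← Ideal.Quotient.eq] at hbc
  rw [RingHom.comp_apply, hbc, map_intCast, map_intCast, map_intCast]

end Fermat.Agent.Lifting

end
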