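import Fermat.Agent.Ribet.FreyTorsion

/-!
# A prime with `a_ℓ² ≢ (ℓ + 1)² (mod p)`

An odd irreducible two dimensional representation has an element `g` with
`tr g ^ 2 ≠ (det g + 1) ^ 2`.
-/

set_option autoImplicit false

noncomputable section

namespace Fermat.Agent.Lifting.FromCurve

open Matrix

local notation "ℚbar" => AlgebraicClosure ℚ
local notation "Γℚ" => AlgebraicClosure ℚ ≃ₐ[ℚ] AlgebraicClosure ℚ

variable {F : Type*} [Field F]

/-- The polarised Cayley–Hamilton identity. -/
theorem mul_add_mul_fin_two (A B : Matrix (Fin 2) (Fin 2) F) :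
    A * B + B * A = A.trace • B + B.trace • A + ((A * B).trace - A.trace * B.trace) • 1 := by
  ext i j
  fin_cases i <;> fin_cases j <;>
    simp [Matrix.mul_apply, Fin.sum_univ_two, trace_fin_two] <;> ring

/-- Cayley–Hamilton. -/
theorem mul_self_fin_two (A : Matrix (Fin 2) (Fin 2) F) :
    A * A = A.trace • A - A.det • 1 := by
  ext i j
  fin_cases i <;> fin_cases j <;>
    simp [Matrix.mul_apply, Fin.sum_univ_two, trace_fin_two, det_fin_two] <;> ring

/-- The kernel of a nonzero singular matrix is a line. -/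
theorem exists_smul_of_mulVec_eq_zero {N : Matrix (Fin 2) (Fin 2) F} (hN : N ≠ 0) {v x : Fin 2 → F}
    (hv0 : v ≠ 0) (hv : N *ᵥ v = 0) (hx : N *ᵥ x = 0) : ∃ a : F, x = a • v := by
  have hv' : ∀ i, N i 0 * v 0 + N i 1 * v 1 = 0 := fun i => by
    simpa [mulVec, dotProduct, Fin.sum_univ_two] using congrFun hv i
  have hx' : ∀ i, N i 0 * x 0 + N i 1 * x 1 = 0 := fun i => by
    simpa [mulVec, dotProduct, Fin.sum_univ_two] using congrFun hx i
  have hD : v 0 * x 1 - v 1 * x 0 = 0 := by
    by_contra h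
    apply hN
    ext i j
    refine (mul_eq_zero.mp ?_).resolve_right h
    fin_cases j
    · simp only [Fin.zero_eta, Fin.isValue]
      linear_combination x 1 * hv' i - v 1 * hx' i
    · simp only [Fin.mk_one, Fin.isValue]
      linear_combination v 0 * hx' i - x 0 * hv' i
  by_cases h0 : v 0 = 0
  · have h1 : v 1 ≠ 0 := fun h1 => hv0 (funext fun i => by fin_cases i <;> simp [h0, h1])
    refine ⟨x 1 / v 1, funext fun i => ?_⟩
    fin_cases i <;> simp only [Fin.zero_eta, Fin.mk_one, Fin.isValue, Pi.smul_apply, smul_eq_mul]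
    · rw [h0] at hD ⊢
      field_simp
      linear_combination -hD
    · field_simp
  · refine ⟨x 0 / v 0, funext fun i => ?_⟩
    fin_cases i <;> simp only [Fin.zero_eta, Fin.mk_one, Fin.isValue, Pi.smul_apply, smul_eq_mul]
    · field_simp
    · field_simp
      linear_combination hD

/-- An odd irreducible representation in `GL₂` has an element with
`trace ^ 2 ≠ (det + 1) ^ 2`. -/
theorem exists_trace_sq_ne_matrix (h2 : (2 : F) ≠ 0) {Γ : Type*} [Group Γ]
    (r : Γ →* Matrix (Fin 2) (Fin 2) F)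
    (hirr : ∀ v : Fin 2 → F, v ≠ 0 → ∃ g, ∀ a : F, r g *ᵥ v ≠ a • v)
    {c : Γ} (hc : c * c = 1) (hdc : (r c).det = -1) (hnc : ¬ ∀ g, r g * r c = r c * r g) :
    ∃ g, (r g).trace ^ 2 ≠ ((r g).det + 1) ^ 2 := by
  by_contra hall
  push Not at hall
  have : NeZero (2 : F) := ⟨h2⟩
  have hCC : r c * r c = 1 := by rw [← map_mul, hc, map_one]
  have hC0 : (r c).trace = 0 := by
    have h := hall c
    rw [hdc, neg_add_cancel, zero_pow two_ne_zero] at h
    exact pow_eq_zero_iff two_ne_zero |>.mp h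
  have hinv : ∀ h, r h * r h⁻¹ = 1 := fun h => by rw [← map_mul, mul_inv_cancel, map_one]
  have hdinv : ∀ h, (r h).det = 1 → (r h⁻¹).det = 1 := fun h hd => by
    have := congrArg Matrix.det (hinv h)
    rwa [det_mul, hd, one_mul, det_one] at this
  -- conjugation by `c` inverts the elements of determinant `1`
  have hconj : ∀ h, (r h).det = 1 → r c * r h * r c = r h⁻¹ := by
    intro h hd
    have hCA : (r c * r h).trace = 0 := by
      have h' := hall (c * h)
      rw [map_mul, det_mul, hdc, hd, neg_one_mul, neg_add_cancel, zero_pow two_ne_zero] at h'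
      exact pow_eq_zero_iff two_ne_zero |>.mp h'
    have e := mul_add_mul_fin_two (r c) (r h)
    rw [hC0, hCA, zero_mul, sub_zero, zero_smul, zero_smul, zero_add, add_zero] at e
    have e2 : r h⁻¹ = (r h).trace • 1 - r h := by
      have e3 : r h * ((r h).trace • 1 - r h) = 1 := by
        rw [mul_sub, mul_smul_comm, mul_one, mul_self_fin_two (r h), hd, one_smul, sub_sub_cancel]
      calc r h⁻¹ = r h⁻¹ * (r h * ((r h).trace • 1 - r h)) := by rw [e3, mul_one]
        _ = (r h).trace • 1 - r h := by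
          rw [← mul_assoc, ← map_mul, inv_mul_cancel, map_one, one_mul]
    rw [eq_sub_of_add_eq e, sub_mul, mul_assoc, hCC, mul_one, smul_mul_assoc, hCC, e2]
  have hcomm : ∀ h h', (r h).det = 1 → (r h').det = 1 → r h * r h' = r h' * r h := by
    have key : ∀ h h', (r h).det = 1 → (r h').det = 1 → r h⁻¹ * r h'⁻¹ = r h'⁻¹ * r h⁻¹ := by
      intro h h' hd hd'
      have e := hconj (h * h') (by rw [map_mul, det_mul, hd, hd', one_mul])
      calc r h⁻¹ * r h'⁻¹ = r c * r h * (r c * r c) * r h' * r c := by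
            rw [← hconj h hd, ← hconj h' hd']; simp only [mul_assoc]
        _ = r c * r (h * h') * r c := by rw [hCC, mul_one, map_mul]; simp only [mul_assoc]
        _ = r h'⁻¹ * r h⁻¹ := by rw [e, _root_.mul_inv_rev, map_mul]
    intro h h' hd hd'
    have := key h⁻¹ h'⁻¹ (hdinv h hd) (hdinv h' hd')
    rwa [inv_inv, inv_inv] at this
  -- the nilpotent parts
  let N : Γ → Matrix (Fin 2) (Fin 2) F := fun h => r h - ((r h).trace / 2) • 1
  have hμ : ∀ h, (r h).det = 1 → ((r h).trace / 2) ^ 2 = 1 := fun h hd => by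
    rw [div_pow, hall h, hd, one_add_one_eq_two]
    exact div_self (pow_ne_zero 2 h2)
  have hN2 : ∀ h, (r h).det = 1 → N h * N h = 0 := by
    intro h hd
    have e : N h * N h = r h * r h - (r h).trace • r h + ((r h).trace / 2) ^ 2 • 1 := by
      simp only [N, mul_sub, sub_mul, mul_smul_comm, smul_mul_assoc, mul_one, one_mul, smul_sub,
        smul_smul]
      rw [pow_two, show (r h).trace • r h = ((r h).trace / 2) • r h + ((r h).trace / 2) • r h by
        rw [← add_smul, add_halves]]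
      abel
    rw [e, mul_self_fin_two, hμ h hd, hd]
    abel
  by_cases hsc : ∀ h, (r h).det = 1 → N h = 0
  · refine hnc fun g => ?_
    set h := g * c * g⁻¹ * c with hhdef
    have hdg : (r g).det * (r g⁻¹).det = 1 := by rw [← det_mul, hinv, det_one]
    have hd : (r h).det = 1 := by
      simp only [hhdef, map_mul, det_mul, hdc]
      linear_combination hdg
    have hh : r h = ((r h).trace / 2) • 1 := sub_eq_zero.mp (hsc h hd)
    have hgc : r g * r c = ((r h).trace / 2) • (r c * r g) := by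
      rw [← map_mul, ← map_mul, show g * c = h * (c * g) by
        rw [hhdef]; simp only [mul_assoc, ← mul_assoc c c g, hc, one_mul, inv_mul_cancel, mul_one],
        map_mul r h, hh, smul_mul_assoc, one_mul, ← hh]
    rcases sq_eq_one_iff.mp (hμ h hd) with h1 | h1
    · rw [hgc, h1, one_smul]
    · exfalso
      rw [h1, neg_one_smul] at hgc
      have htr : (r g).trace = 0 := by
        have e : (r g).trace = -(r g).trace := by
          conv_lhs => rw [← mul_one (r g), ← hCC, ← mul_assoc, hgc, neg_mul, trace_neg,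
            Matrix.trace_mul_cycle, hCC, one_mul]
        have : (2 : F) * (r g).trace = 0 := by linear_combination e
        exact (mul_eq_zero.mp this).resolve_left h2
      have hdg' : (r g).det = -1 := by
        have h' := hall g
        rw [htr, zero_pow two_ne_zero] at h'
        exact eq_neg_of_add_eq_zero_left (pow_eq_zero_iff two_ne_zero |>.mp h'.symm)
      have hdcg : (r (c * g)).det = 1 := by rw [map_mul, det_mul, hdc, hdg', neg_one_mul, neg_neg]
      have hν : r c * r g = ((r (c * g)).trace / 2) • 1 := by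
        rw [← map_mul]; exact sub_eq_zero.mp (hsc _ hdcg)
      have hg : r g = ((r (c * g)).trace / 2) • r c := by
        rw [← one_mul (r g), ← hCC, mul_assoc, hν, mul_smul_comm, mul_one]
      rw [hg, smul_mul_assoc, mul_smul_comm, hCC] at hgc
      have h00 := congrFun (congrFun hgc 0) 0
      simp [-map_mul] at h00
      have hν0 : (r (c * g)).trace / 2 ≠ 0 := fun h0 => by
        have := hμ _ hdcg
        rw [h0, zero_pow two_ne_zero] at this
        exact zero_ne_one this
      exact mul_ne_zero h2 hν0 (by linear_combination h00)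
  · push Not at hsc
    obtain ⟨h, hd, hN0⟩ := hsc
    obtain ⟨w, hw⟩ : ∃ w, N h *ᵥ w ≠ 0 := by
      by_contra hcon
      push Not at hcon
      exact hN0 (ext_of_mulVec_single fun i => by rw [hcon, Matrix.zero_mulVec])
    set v := N h *ᵥ w with hvdef
    have hNv : N h *ᵥ v = 0 := by rw [hvdef, mulVec_mulVec, hN2 h hd, zero_mulVec]
    obtain ⟨g, hg⟩ := hirr v hw
    have hd' : (r (g⁻¹ * h * g)).det = 1 := by
      have e : (r g⁻¹).det * (r g).det = 1 := by rw [← det_mul, ← map_mul, inv_mul_cancel, map_one, det_one]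
      rw [map_mul, map_mul, det_mul, det_mul, hd, mul_one, e]
    have htr' : (r (g⁻¹ * h * g)).trace = (r h).trace := by
      rw [map_mul, map_mul, trace_mul_cycle, hinv, one_mul]
    have hN' : N (g⁻¹ * h * g) = r g⁻¹ * N h * r g := by
      simp only [N]
      rw [htr']
      simp only [map_mul, mul_sub, sub_mul, mul_smul_comm, smul_mul_assoc, mul_one]
      rw [← map_mul r g⁻¹ g, inv_mul_cancel, map_one]
    have hNN : N h * N (g⁻¹ * h * g) = N (g⁻¹ * h * g) * N h := by
      simp only [N, mul_sub, sub_mul, mul_smul_comm, smul_mul_assoc, mul_one, one_mul, smul_sub,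
        smul_smul, hcomm h _ hd hd', mul_comm ((r (g⁻¹ * h * g)).trace / 2)]
      abel
    obtain ⟨a, ha⟩ := exists_smul_of_mulVec_eq_zero hN0 hw hNv
      (x := N (g⁻¹ * h * g) *ᵥ v)
      (by rw [mulVec_mulVec, hNN, ← mulVec_mulVec, hNv, mulVec_zero])
    have ha0 : a = 0 := by
      have e : (0 : Fin 2 → F) = (a * a) • v :=
        calc (0 : Fin 2 → F) = N (g⁻¹ * h * g) *ᵥ (N (g⁻¹ * h * g) *ᵥ v) := by
              rw [mulVec_mulVec, hN2 _ hd', zero_mulVec]
          _ = (a * a) • v := by rw [ha, mulVec_smul, ha, smul_smul]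
      exact mul_self_eq_zero.mp ((smul_eq_zero.mp e.symm).resolve_right hw)
    rw [ha0, zero_smul, hN', ← mulVec_mulVec, ← mulVec_mulVec] at ha
    have h0 := congrArg (r g *ᵥ ·) ha
    rw [mulVec_zero, mulVec_mulVec, hinv, one_mulVec] at h0
    obtain ⟨b, hb⟩ := exists_smul_of_mulVec_eq_zero hN0 hw hNv h0
    exact hg b hb

/-- The condition `tr ^ 2 = (det + 1) ^ 2` passes to powers. -/
theorem trace_sq_pow (h2 : (2 : F) ≠ 0) (A : Matrix (Fin 2) (Fin 2) F)
    (h : A.trace ^ 2 = (A.det + 1) ^ 2) (k : ℕ) :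
    (A ^ k).trace ^ 2 = ((A ^ k).det + 1) ^ 2 := by
  obtain ⟨ε, hε, ht⟩ : ∃ ε : F, ε ^ 2 = 1 ∧ A.trace = ε * (A.det + 1) := by
    rcases sq_eq_sq_iff_eq_or_eq_neg.mp h with h' | h'
    · exact ⟨1, one_pow 2, by rw [h', one_mul]⟩
    · exact ⟨-1, by ring, by rw [h']; ring⟩
  have key : (A ^ k).trace = ε ^ k * (A.det ^ k + 1) ∧
      (A ^ (k + 1)).trace = ε ^ (k + 1) * (A.det ^ (k + 1) + 1) := by
    induction k with
    | zero =>
      refine ⟨?_, by rw [zero_add, pow_one, pow_one, pow_one, ht]⟩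
      rw [pow_zero, pow_zero, pow_zero, trace_one, Fintype.card_fin]
      norm_num
    | succ k ih =>
      refine ⟨ih.2, ?_⟩
      have e : A ^ (k + 1 + 1) = A.trace • A ^ (k + 1) - A.det • A ^ k := by
        rw [pow_succ A (k + 1), pow_succ A k, mul_assoc, mul_self_fin_two, mul_sub, mul_smul_comm,
          mul_smul_comm, mul_one]
      rw [e, trace_sub, trace_smul, trace_smul, ih.1, ih.2, ht, smul_eq_mul, smul_eq_mul]
      linear_combination (A.det * ε ^ k * (A.det ^ k + 1)) * hε
  rw [key.1, det_pow, mul_pow, ← pow_mul, mul_comm k 2, pow_mul, hε, one_pow, one_mul]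

section Curve

variable {W : WeierstrassCurve ℤ} {p : ℕ} [Fact p.Prime]

open scoped WeierstrassCurve.Affine in
/-- Some good prime `ℓ` outside a given set has `a_ℓ² ≢ (ℓ + 1)² (mod p)`. -/
theorem exists_prime_ap_sq_ne (hΔ : W.Δ ≠ 0) (hp2 : p ≠ 2) (hirr : W.ModRepIsIrreducible p)
    (T : Finset ℕ) :
    ∃ ℓ : ℕ, ℓ.Prime ∧ ℓ ∉ T ∧ ℓ ≠ p ∧ W.IsGoodPrimeFor ℓ ∧
      ((W.apOfModel ℓ : ℤ) : ZMod p) ^ 2 ≠ ((ℓ : ZMod p) + 1) ^ 2 := by
  classical
  have hp : p.Prime := Fact.out
  have hV := finrank_tors (p := p) hΔ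
  haveI : Module.Finite (ZMod p) (Tors W p) := Module.finite_of_finrank_eq_succ hV
  haveI := isElliptic_tors hΔ
  set f := torsRep W p
  let b : Module.Basis (Fin 2) (ZMod p) (Tors W p) := Module.finBasisOfFinrankEq _ _ hV
  let r : Γℚ →* Matrix (Fin 2) (Fin 2) (ZMod p) :=
    (LinearMap.toMatrixAlgEquiv b).toAlgHom.toRingHom.toMonoidHom.comp f
  have hr : ∀ σ, r σ = LinearMap.toMatrix b b (f σ) := fun σ => rfl
  have htr : ∀ σ, (r σ).trace = LinearMap.trace _ _ (f σ) := fun σ => by
    rw [hr, LinearMap.trace_eq_matrix_trace (ZMod p) b]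
  have hdet : ∀ σ, (r σ).det = LinearMap.det (f σ) := fun σ => LinearMap.det_toMatrix b (f σ)
  have hirr' : ∀ v : Fin 2 → ZMod p, v ≠ 0 → ∃ g, ∀ a : ZMod p, r g *ᵥ v ≠ a • v := by
    intro v hv
    by_contra hcon
    push Not at hcon
    set x := b.equivFun.symm v
    have hx0 : x ≠ 0 := fun h => hv (b.equivFun.symm.map_eq_zero_iff.mp h)
    have hU : ∀ σ, ∀ y ∈ Submodule.span (ZMod p) {x}, f σ y ∈ Submodule.span (ZMod p) {x} := by
      intro σ y hy
      obtain ⟨a, rfl⟩ := Submodule.mem_span_singleton.mp hy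
      obtain ⟨e, he⟩ := hcon σ
      rw [map_smul]
      refine Submodule.smul_mem _ a (Submodule.mem_span_singleton.mpr ⟨e, b.equivFun.injective ?_⟩)
      have hxv : ⇑(b.repr x) = v := b.equivFun.apply_symm_apply v
      rw [map_smul]
      show e • ⇑(b.repr x) = ⇑(b.repr (f σ x))
      rw [← LinearMap.toMatrix_mulVec_repr b b (f σ) x, hxv, ← hr, he]
    have h1 : Module.finrank (ZMod p) (Submodule.span (ZMod p) {x}) = 1 := finrank_span_singleton hx0
    rcases hirr.2 _ hU with h | h <;> rw [h] at h1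
    · rw [finrank_bot] at h1; exact zero_ne_one h1
    · rw [finrank_top, hV] at h1; exact absurd h1 (by norm_num)
  obtain ⟨c, hcc, hc⟩ := CondLevel.exists_involution
  have hdc := CondLevel.det_torsRep_involution hΔ hp2 c hcc hc
  obtain ⟨σ, hσ⟩ := exists_trace_sq_ne_matrix (two_ne_zero_zmod hp2) r hirr' hcc
    ((hdet c).trans hdc) fun hcomm => Ribet.not_commute_of_irreducible hV (two_ne_zero_zmod hp2) f
      hirr.2 hcc hdc fun g => (LinearMap.toMatrixAlgEquiv b).injective (by
        rw [map_mul (LinearMap.toMatrixAlgEquiv b), map_mul (LinearMap.toMatrixAlgEquiv b)]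
        exact hcomm g)
  obtain ⟨L, hL, hfix⟩ := EC.exists_finiteDimensional_fixing_torsionBy
    (W := (W.map (Int.castRingHom ℚ)).toAffine) hp.ne_zero
  obtain ⟨ℓ, hℓ, hℓS, A, hA, τ, hτ, ⟨k, hk⟩, -⟩ := Density.exists_frobenius_pow σ L
    (T ∪ {p} ∪ W.Δ.natAbs.primeFactors)
  simp only [Finset.mem_union, Finset.mem_singleton, Nat.mem_primeFactors, not_or, not_and] at hℓS
  obtain ⟨⟨hℓT, hℓp⟩, hℓΔ⟩ := hℓS
  have hg : W.IsGoodPrimeFor ℓ := fun h =>
    hℓΔ hℓ (Int.natCast_dvd.mp h) (Int.natAbs_ne_zero.mpr hΔ)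
  refine ⟨ℓ, hℓ, hℓT, hℓp, hg, fun heq => hσ ?_⟩
  have hfk : r σ = r τ ^ k := by
    have h1 : f ((τ ^ k)⁻¹ * σ) = 1 := LinearMap.ext fun P => hfix _ (fun x hx => by
      rw [AlgEquiv.mul_apply, hk x hx, ← AlgEquiv.mul_apply, inv_mul_cancel, AlgEquiv.one_apply]) P
    have h2 : r ((τ ^ k)⁻¹ * σ) = 1 := by rw [hr, h1, LinearMap.toMatrix_one]
    rw [← map_pow]
    conv_lhs => rw [← mul_inv_cancel_left (τ ^ k) σ, map_mul, h2, mul_one]
  have hch : (f τ).charpoly = _ := ECRed.charpoly_frobenius hℓ hA hg hτ (Ne.symm hℓp)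
  have ht : (r τ).trace = ((W.apOfModel ℓ : ℤ) : ZMod p) := by
    rw [htr]
    exact ECRed.galoisTrace_frobenius_prime hℓ hA hg hτ hp (Ne.symm hℓp)
  have hd : (r τ).det = (ℓ : ZMod p) := by
    rw [hdet, LinearMap.det_eq_sign_charpoly_coeff, hch, hV]
    simp
  rw [hfk]
  exact trace_sq_pow (two_ne_zero_zmod hp2) _ (by rw [ht, hd, heq]) k

end Curve

end Fermat.Agent.Lifting.FromCurve
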