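import Fermat.Agent.Lifting.BFlat
import Fermat.Agent.Lifting.ETransfer
import Fermat.Agent.Deform.MatrixRep
import Fermat.Agent.TW.GlobalDefs
import Fermat.Agent.Ribet.FreyTorsion

/-!
# The residual representation of the `λ`-adic representation of a curve

`curveBar` is the residual representation of `TateFrame.galoisRep`; `exists_residual_frame` gives
a frame `G` in which the reduction of `TateFrame.repConj` is the matrix of `curveBar` in
`TW.residualBasis`.
-/

set_option autoImplicit false
set_option linter.style.haveILetI false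

noncomputable section

open scoped Matrix WeierstrassCurve.Affine TensorProduct
open Module IsLocalRing Polynomial

namespace Fermat.Agent.Lifting

local notation "Γℚ" => AlgebraicClosure ℚ ≃ₐ[ℚ] AlgebraicClosure ℚ
local notation "ℚbar" => AlgebraicClosure ℚ

namespace TateFrame

variable {W : WeierstrassCurve ℤ} {p : ℕ} [Fact p.Prime] (F : TateFrame W p)
  (O : Type) [CommRing O] [IsDomain O] [IsDiscreteValuationRing O]
  [IsAdicComplete (maximalIdeal O) O] (hpO : (p : O) ∈ maximalIdeal O) (hΔ : W.Δ ≠ 0)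

/-- The residual representation. -/
abbrev curveBar : ResidualGaloisRep (ResidueField O) := (F.galoisRep O hpO hΔ).residual

/-- The frame of the residual basis. -/
theorem exists_residual_frame : ∃ G : GL (Fin 2) O, ∀ σ,
    (F.repConj O hpO G σ).map (residue O) = TW.matRep (F.curveBar O hpO hΔ) σ := by
  classical
  let bA : Basis (Fin 2) (ResidueField O) (F.curveBar O hpO hΔ).V :=
    Algebra.TensorProduct.basis (ResidueField O) (Pi.basisFun O (Fin 2))
  let rb := TW.residualBasis (F.curveBar O hpO hΔ)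
  have hA : ∀ σ, LinearMap.toMatrix bA bA ((F.curveBar O hpO hΔ).ρ σ) =
      (F.rep O hpO σ).map (residue O) := fun σ => by
    refine (Deform.toMatrix_baseChange_endo (ResidueField O) (Pi.basisFun O (Fin 2))
      ((F.galoisRep O hpO hΔ).ρ σ)).trans ?_
    congr 1
    exact LinearMap.toMatrix'_toLin' (F.rep O hpO σ)
  choose g hg using fun i j => residue_surjective (R := O) (bA.toMatrix rb i j)
  let g' : Matrix (Fin 2) (Fin 2) O := Matrix.of g
  have hgm : g'.map (residue O) = bA.toMatrix rb := Matrix.ext fun i j => hg i j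
  have hu : IsUnit g' := by
    rw [Matrix.isUnit_iff_isUnit_det]
    by_contra h
    have h0 : residue O g'.det = 0 :=
      (residue_eq_zero_iff _).2 ((IsLocalRing.mem_maximalIdeal _).2 h)
    rw [RingHom.map_det, RingHom.mapMatrix_apply, hgm] at h0
    have h1 := congrArg Matrix.det (bA.toMatrix_mul_toMatrix_flip rb)
    rw [Matrix.det_mul, h0, zero_mul, Matrix.det_one] at h1
    exact zero_ne_one h1
  obtain ⟨G, hval⟩ := hu
  refine ⟨G, fun σ => ?_⟩
  rw [← hval] at hgm
  have hinv : (G⁻¹).val.map (residue O) = rb.toMatrix bA := by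
    have e : bA.toMatrix rb * (G⁻¹).val.map (residue O) = 1 := by
      rw [← hgm, ← Matrix.map_mul, Units.mul_inv, Matrix.map_one _ (map_zero _) (map_one _)]
    calc (G⁻¹).val.map (residue O)
        = rb.toMatrix bA * bA.toMatrix rb * (G⁻¹).val.map (residue O) := by
          rw [rb.toMatrix_mul_toMatrix_flip bA, one_mul]
      _ = rb.toMatrix bA := by rw [mul_assoc, e, mul_one]
  rw [repConj_apply, Matrix.map_mul, Matrix.map_mul, hinv, hgm, ← hA,
    basis_toMatrix_mul_linearMap_toMatrix_mul_basis_toMatrix]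
  rfl

theorem isUnramifiedAt_residual {q : ℕ} (h : (F.galoisRep O hpO hΔ).IsUnramifiedAt q) :
    (F.curveBar O hpO hΔ).IsUnramifiedAt q := fun A hA σ hσ => by
  show ((F.galoisRep O hpO hΔ).ρ σ).baseChange (ResidueField O) = 1
  rw [h A hA σ hσ, LinearMap.baseChange_one]

/-- `ℤ / p → k`. -/
theorem exists_residueHom : ∃ ψ : ZMod (p ^ 1) →+* ResidueField O, Function.Injective ψ ∧
    ∀ σ, (F.rep O hpO σ).map (residue O) = (F.matrixMod 1 σ).map ψ := by
  haveI : Fact (p ^ 1).Prime := ⟨by rw [pow_one]; exact Fact.out⟩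
  let π : O ⧸ maximalIdeal O ^ 1 →+* ResidueField O :=
    Ideal.Quotient.factor (pow_one (maximalIdeal O)).le
  refine ⟨π.comp (GaloisAdic.zmodPowHom O hpO 1), (π.comp _).injective, fun σ => ?_⟩
  rw [RingHom.coe_comp, ← Matrix.map_map, ← F.mk_rep O hpO 1 σ, Matrix.map_map]
  congr 1

/-- Traces and determinants of the residual representation. -/
theorem trace_det_residual (σ : Γℚ) :
    LinearMap.trace (ResidueField O) (F.curveBar O hpO hΔ).V ((F.curveBar O hpO hΔ).ρ σ) =
        residue O (F.rep O hpO σ).trace ∧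
      LinearMap.det ((F.curveBar O hpO hΔ).ρ σ) = residue O (F.rep O hpO σ).det := by
  constructor
  · refine (LinearMap.trace_baseChange ((F.galoisRep O hpO hΔ).ρ σ) (ResidueField O)).trans ?_
    exact congrArg (residue O) (F.trace_galoisRep O hpO hΔ σ)
  · refine (LinearMap.det_baseChange ((F.galoisRep O hpO hΔ).ρ σ)).trans ?_
    exact congrArg (residue O)
      (GaloisAdic.det_repOfMatrix (F.rep O hpO) (F.rep_continuous O hpO hΔ) σ)

theorem detIsCyclotomic_residual :
    (GaloisRepAdic.ofResidualGaloisRep (F.curveBar O hpO hΔ)).DetIsCyclotomic p := by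
  have hp0 : (p : ResidueField O) = 0 := by
    rw [← map_natCast (residue O), residue_eq_zero_iff]; exact hpO
  refine ⟨by rw [hp0]; exact zero_mem _, fun n σ a ha => ?_⟩
  have h := (F.detIsCyclotomic O hpO hΔ).2 n σ a ha
  show LinearMap.det ((F.curveBar O hpO hΔ).ρ σ) - _ ∈ _
  have h2 := Ideal.mem_map_of_mem (residue O) h
  rw [Ideal.map_span, Set.image_singleton, map_natCast, map_sub, map_natCast] at h2
  rw [show LinearMap.det ((F.curveBar O hpO hΔ).ρ σ) =
    residue O (LinearMap.det ((F.galoisRep O hpO hΔ).ρ σ)) from LinearMap.det_baseChange _]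
  exact h2

/-- Characteristic polynomials of the residual representation split over a field with `p²`
elements. -/
theorem split_residual (hk : Nat.card (ResidueField O) = p ^ 2) (σ : Γℚ) :
    ∃ α β : ResidueField O, LinearMap.charpoly ((F.curveBar O hpO hΔ).ρ σ) =
      (X - C α) * (X - C β) := by
  obtain ⟨ψ, -, hψ⟩ := F.exists_residueHom O hpO
  haveI : Fact (p ^ 1).Prime := ⟨by rw [pow_one]; exact Fact.out⟩
  haveI : Finite (ResidueField O) := Nat.finite_of_card_ne_zero
    (by rw [hk]; exact pow_ne_zero 2 (Fact.out : p.Prime).ne_zero)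
  letI : Algebra (ZMod (p ^ 1)) (ResidueField O) := ψ.toAlgebra
  have hch : LinearMap.charpoly ((F.curveBar O hpO hΔ).ρ σ) = (F.matrixMod 1 σ).charpoly.map ψ := by
    rw [← Matrix.charpoly_map, ← hψ σ, Matrix.charpoly_map,
      show LinearMap.charpoly ((F.curveBar O hpO hΔ).ρ σ) =
        (LinearMap.charpoly ((F.galoisRep O hpO hΔ).ρ σ)).map (residue O) from
        LinearMap.charpoly_baseChange _ _]
    congr 1
    exact Matrix.charpoly_toLin' _
  rw [hch]
  exact Ribet.exists_split_quadratic (p := p ^ 1) (by rw [hk, pow_one]) _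
    (Matrix.charpoly_monic _) (by rw [Matrix.charpoly_natDegree_eq_dim]; rfl)

/-- Ramification of the residual representation at a multiplicative prime. -/
theorem residual_ramified_iff (hW : W.IsSemistableModel) {q : ℕ} (hq : q.Prime) (hqp : q ≠ p)
    (hqΔ : (q : ℤ) ∣ W.Δ) :
    ¬ (F.curveBar O hpO hΔ).IsUnramifiedAt q ↔ ¬ p ∣ padicValInt q W.Δ := by
  have hp : p.Prime := Fact.out
  obtain ⟨ψ, hinj, hψ⟩ := F.exists_residueHom O hpO
  have hone : ∀ σ, (F.curveBar O hpO hΔ).ρ σ = 1 ↔ CondLevel.torsRep W (p ^ 1) σ = 1 := by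
    intro σ
    let bA : Basis (Fin 2) (ResidueField O) (F.curveBar O hpO hΔ).V :=
      Algebra.TensorProduct.basis (ResidueField O) (Pi.basisFun O (Fin 2))
    have hA : LinearMap.toMatrix bA bA ((F.curveBar O hpO hΔ).ρ σ) =
        (F.matrixMod 1 σ).map ψ := by
      refine (Deform.toMatrix_baseChange_endo (ResidueField O) (Pi.basisFun O (Fin 2))
        ((F.galoisRep O hpO hΔ).ρ σ)).trans ?_
      rw [← hψ σ]
      congr 1
      exact LinearMap.toMatrix'_toLin' (F.rep O hpO σ)
    constructor
    · intro h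
      rw [h, LinearMap.toMatrix_one, ← Matrix.map_one ψ (map_zero _) (map_one _)] at hA
      refine (LinearMap.toMatrix (F.basis 1) (F.basis 1)).injective ?_
      rw [LinearMap.toMatrix_one, ← F.matrixMod_apply]
      exact ((Matrix.map_injective hinj) hA).symm
    · intro h
      refine (LinearMap.toMatrix bA bA).injective ?_
      rw [hA, LinearMap.toMatrix_one, F.matrixMod_apply, h, LinearMap.toMatrix_one,
        Matrix.map_one _ (map_zero _) (map_one _)]
  have hqn : ¬ q ∣ p ^ 1 := fun h => hqp ((Nat.prime_dvd_prime_iff_eq hq hp).1 (pow_one p ▸ h))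
  constructor
  · intro hram hd
    apply hram
    intro A hA σ hσ
    rw [hone]
    exact LinearMap.ext fun x => Mult.inertia_smul_eq_self_of_dvd
      (Mult.IsMultPlace.of_semistable hΔ hW hq hqΔ hA) (pow_ne_zero 1 hp.ne_zero) hqn
      (by rwa [pow_one]) hσ x
  · intro hnd hun
    obtain ⟨A, hA⟩ := Galois.exists_liesOverPrime hq
    obtain ⟨σ, hσ, x, hx⟩ := Mult.exists_inertia_smul_ne
      (Mult.IsMultPlace.of_semistable hΔ hW hq hqΔ hA) (pow_ne_zero 1 hp.ne_zero)
      (by rwa [pow_one])
    exact hx (LinearMap.congr_fun ((hone σ).1 (hun A hA σ hσ)) x)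

end TateFrame

end Fermat.Agent.Lifting
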