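import Fermat.Agent.Lifting.FSetup
import Fermat.Agent.Lifting.FFromCurveIhara
import Fermat.Agent.Lifting.FFromCurveRep
import Fermat.Agent.Ribet.Avoid.FromCurve

/-!
# Modularity lifting: the fixed data of a semistable curve

`exists_fSetup`: a semistable curve with irreducible `E[p]` (`p` odd) and an auxiliary prime give an
`FSetup` with eigenvalues `a_ℓ(W)`, given the residual system at the level `curveN W p * aux`.
-/

set_option autoImplicit false
set_option linter.style.haveILetI false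

noncomputable section

namespace Fermat.Agent.Lifting

open IsLocalRing
open Fermat.Agent.Ribet.Twisted (HasSystem CohL)
open Fermat.Agent.Ribet.Avoid (residualLevel prime_dvd_residualLevel_iff squarefree_residualLevel)

local notation "ℚbar" => AlgebraicClosure ℚ
local notation "Γℚ" => AlgebraicClosure ℚ ≃ₐ[ℚ] AlgebraicClosure ℚ

variable {W : WeierstrassCurve ℤ} {p : ℕ} [Fact p.Prime]

/-- The minimal level: the ramified primes other than `p`, and `p` in the multiplicative case. -/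
def curveN (W : WeierstrassCurve ℤ) (p : ℕ) : ℕ :=
  residualLevel W p * if (p : ℤ) ∣ W.Δ then p else 1

/-- The primes left out: `p`, the bad primes and the auxiliary prime. -/
def curveS (W : WeierstrassCurve ℤ) (p aux : ℕ) : Finset ℕ :=
  insert p (W.Δ.natAbs.primeFactors ∪ aux.primeFactors)

/-- `aux` is `1`, or a good prime `≡ -1` modulo `p` with `a_aux ≢ 0`; if `p = 3` the level has a
prime `≡ 2` modulo `3`. -/
def IsCurveAux (W : WeierstrassCurve ℤ) (p aux : ℕ) : Prop :=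
  (aux = 1 ∨ (aux.Prime ∧ aux ≠ p ∧ W.IsGoodPrimeFor aux ∧ (aux : ZMod p) = -1 ∧
    ((W.apOfModel aux : ℤ) : ZMod p) ≠ 0)) ∧
  (p = 3 → ∃ x : ℕ, x.Prime ∧ x ∣ curveN W p * aux ∧ x % 3 = 2)

/-- An auxiliary prime exists, outside any given finite set. -/
theorem exists_isCurveAux (hΔ : W.Δ ≠ 0) (hss : W.IsSemistableModel)
    (hirr : W.ModRepIsIrreducible p) (T : Finset ℕ) :
    ∃ aux : ℕ, IsCurveAux W p aux ∧ (aux = 1 ↔ p ≠ 3) ∧ (aux.Prime → aux ∉ T) := by
  by_cases hp3 : p = 3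
  · obtain ⟨r, hr, hrT, hr2, hg, ha⟩ :=
      Ribet.exists_auxPrime_ap_ne_zero hΔ hss hp3 hirr T
    refine ⟨r, ⟨Or.inr ⟨hr, ?_, hg, ?_, ha⟩, fun _ => ⟨r, hr, dvd_mul_left _ _, hr2⟩⟩,
      iff_of_false hr.ne_one (not_not.mpr hp3), fun _ => hrT⟩
    · omega
    · subst hp3
      rw [← ZMod.natCast_mod r 3, hr2]
      rfl
  · exact ⟨1, ⟨Or.inl rfl, fun h => absurd h hp3⟩, iff_of_true rfl hp3,
      fun h => absurd h Nat.not_prime_one⟩

theorem squarefree_curveN (hΔ : W.Δ ≠ 0) : Squarefree (curveN W p) := by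
  have hp : p.Prime := Fact.out
  rw [curveN]
  split_ifs
  · exact Nat.squarefree_mul_iff.mpr ⟨Nat.Coprime.symm (hp.coprime_iff_not_dvd.mpr
      (Ribet.Avoid.not_dvd_residualLevel hΔ hp)), squarefree_residualLevel W p, hp.squarefree⟩
  · rw [mul_one]; exact squarefree_residualLevel W p

theorem prime_dvd_curveN_iff (hΔ : W.Δ ≠ 0) {x : ℕ} (hx : x.Prime) :
    x ∣ curveN W p ↔ (x : ℤ) ∣ W.Δ ∧ (x = p ∨ ¬ p ∣ padicValInt x W.Δ) := by
  have hp : p.Prime := Fact.out
  rw [curveN, hx.dvd_mul, prime_dvd_residualLevel_iff hΔ hx]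
  constructor
  · rintro (⟨-, h, h'⟩ | h)
    · exact ⟨h, Or.inr h'⟩
    · split_ifs at h with hpΔ
      · obtain rfl := (Nat.prime_dvd_prime_iff_eq hx hp).mp h
        exact ⟨hpΔ, Or.inl rfl⟩
      · exact absurd h hx.not_dvd_one
  · rintro ⟨hd, h⟩
    by_cases hxp : x = p
    · subst hxp
      exact Or.inr (by rw [if_pos hd])
    · exact Or.inl ⟨hxp, hd, h.resolve_left hxp⟩

/-- The places where the level is raised. -/
def curveQ (W : WeierstrassCurve ℤ) (p : ℕ) : Finset ℕ :=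
  W.Δ.natAbs.primeFactors.filter fun x => x ≠ p ∧ p ∣ padicValInt x W.Δ

omit [Fact p.Prime] in
theorem mem_curveQ_iff (hΔ : W.Δ ≠ 0) {x : ℕ} :
    x ∈ curveQ W p ↔ x.Prime ∧ (x : ℤ) ∣ W.Δ ∧ x ≠ p ∧ p ∣ padicValInt x W.Δ := by
  rw [curveQ, Finset.mem_filter, Nat.mem_primeFactors, Int.natCast_dvd]
  exact ⟨fun ⟨⟨a, b, _⟩, c, d⟩ => ⟨a, b, c, d⟩,
    fun ⟨a, b, c, d⟩ => ⟨⟨a, b, Int.natAbs_ne_zero.mpr hΔ⟩, c, d⟩⟩

theorem curveN_mul_prod_curveQ (hΔ : W.Δ ≠ 0) :
    curveN W p * ∏ x ∈ curveQ W p, x = ∏ x ∈ W.Δ.natAbs.primeFactors, x := by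
  classical
  have hp : p.Prime := Fact.out
  set P := W.Δ.natAbs.primeFactors
  have h1 : (if (p : ℤ) ∣ W.Δ then p else 1) = ∏ x ∈ P.filter (· = p), x := by
    rw [Finset.filter_eq']
    have hiff : p ∈ P ↔ (p : ℤ) ∣ W.Δ := by
      rw [Nat.mem_primeFactors, Int.natCast_dvd]
      exact ⟨fun h => h.2.1, fun h => ⟨hp, h, Int.natAbs_ne_zero.mpr hΔ⟩⟩
    split_ifs with h h' h'
    · rw [Finset.prod_singleton]
    · exact absurd (hiff.2 h) h'
    · exact absurd (hiff.1 h') h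
    · rw [Finset.prod_empty]
  rw [curveN, residualLevel, curveQ, h1, ← Finset.prod_filter_mul_prod_filter_not P (· = p) fun x => x,
    ← Finset.prod_filter_mul_prod_filter_not (P.filter fun x => ¬ x = p)
      (fun x => p ∣ padicValInt x W.Δ) fun x => x, Finset.filter_filter, Finset.filter_filter]
  simp only [ne_eq]
  ring

/-- The residual system which the construction takes as an input. -/
def HasResidualPart (W : WeierstrassCurve ℤ) (p aux : ℕ) : Prop :=
  ∀ (k : Type) [Field k] [Finite k] [CharP k p] (L : ℕ) [NeZero L], L = curveN W p * aux →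
    ∃ x : MPart (one_dvd L) (1 : DirichletCharacter k 1) (RingHom.id k)
      (fun ℓ : GoodIdx (curveS W p aux) => ((W.apOfModel ℓ : ℤ) : k)) k, x ≠ 0

/-- **The setup of a semistable curve.** -/
theorem exists_fSetup (hΔ : W.Δ ≠ 0) (hss : W.IsSemistableModel) (hp2 : p ≠ 2)
    (hirr : W.ModRepIsIrreducible p) {aux : ℕ} (haux : IsCurveAux W p aux)
    (hres : HasResidualPart W p aux) :
    ∃ s : FSetup, s.p = p ∧ s.N = curveN W p ∧ s.aux = aux ∧ s.S0 = curveS W p aux ∧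
      (∀ ℓ : ℕ, s.aW ℓ = ((W.apOfModel ℓ : ℤ) : s.O)) ∧
      s.lev (Fin.last s.K) = aux * ∏ x ∈ W.Δ.natAbs.primeFactors, x := by
  classical
  have hp : p.Prime := Fact.out
  obtain ⟨O, _, _, _, _, _, ξ, e, hpO, -, -⟩ := Ribet.exists_cyclotomicDVR p (GaloisField p 2)
  haveI : Finite (ResidueField O) := Finite.of_equiv _ e.symm.toEquiv
  have hk : Nat.card (ResidueField O) = p ^ 2 := by
    rw [Nat.card_congr e.toEquiv]; exact GaloisField.card p 2 two_ne_zero
  haveI : CharP (ResidueField O) p := (CharP.charP_iff_prime_eq_zero hp).mpr (by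
    rw [← map_natCast (residue O), residue_eq_zero_iff]; exact hpO)
  let ι : ZMod p →+* ResidueField O := ZMod.castHom dvd_rfl _
  have hι : Function.Injective ι := ι.injective
  obtain ⟨F⟩ := nonempty_tateFrame (p := p) hΔ
  obtain ⟨G, hG⟩ := F.exists_residual_frame O hpO hΔ
  set ρbar := F.curveBar O hpO hΔ
  have hr := F.mcont_repConj O hpO hΔ G
  obtain ⟨E⟩ := F.isEquiv_repConj O hpO hΔ G
  obtain ⟨habs, hodd, hTW⟩ := F.residual_bigImage O hpO hΔ hss hp2 hirr
  -- the primes of the places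
  let q : Fin (curveQ W p).card → ℕ := fun a => ((curveQ W p).equivFin.symm a).1
  have hqmem : ∀ a, q a ∈ curveQ W p := fun a => ((curveQ W p).equivFin.symm a).2
  have hqinj : Function.Injective q := Subtype.val_injective.comp (Equiv.injective _)
  have hqex : ∀ x ∈ curveQ W p, ∃ a, q a = x := fun x hx =>
    ⟨(curveQ W p).equivFin ⟨x, hx⟩, by simp [q]⟩
  have hqspec := fun a => (mem_curveQ_iff hΔ).mp (hqmem a)
  have hqN : ∀ a, ¬ q a ∣ curveN W p := fun a h => by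
    rcases ((prime_dvd_curveN_iff hΔ (hqspec a).1).mp h).2 with h' | h'
    · exact (hqspec a).2.2.1 h'
    · exact h' (hqspec a).2.2.2
  -- the frames
  have hsite := fun a : Fin (curveQ W p).card =>
    haveI : Fact (q a).Prime := ⟨(hqspec a).1⟩
    F.exists_siteFrame O hpO hΔ hss G (q a) (hqspec a).2.2.1 (hqspec a).2.1
  choose eps beta frame phi tau hgen heps hbeta hphi htrW hmonoW using hsite
  obtain ⟨epsP, frobP, tauP, hepsP, hfrobP, htauP, hunitP, hPW⟩ :=
    F.exists_pPlace O hpO hΔ hss hp2 G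
  have hpN : ∀ {x : ℕ}, x = p → (x ∣ curveN W p ↔ (p : ℤ) ∣ W.Δ) := by
    rintro x rfl
    rw [prime_dvd_curveN_iff hΔ hp]
    exact ⟨fun h => h.1, fun h => ⟨h, Or.inl rfl⟩⟩
  have hbad : ∀ x : ℕ, x.Prime → (x : ℤ) ∣ W.Δ →
      x = p ∨ (x ∣ curveN W p ∧ ¬ p ∣ padicValInt x W.Δ) ∨ ∃ a, q a = x := fun x hx hd => by
    by_cases hxp : x = p
    · exact Or.inl hxp
    by_cases hv : p ∣ padicValInt x W.Δ
    · exact Or.inr (Or.inr (hqex x ((mem_curveQ_iff hΔ).mpr ⟨hx, hd, hxp, hv⟩)))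
    · exact Or.inr (Or.inl ⟨(prime_dvd_curveN_iff hΔ hx).mpr ⟨hd, Or.inr hv⟩, hv⟩)
  have hauxdata : aux = 1 ∨ (aux.Prime ∧ aux ≠ p ∧ W.IsGoodPrimeFor aux) := by
    rcases haux.1 with h | ⟨h1, h2, h3, -⟩
    exacts [Or.inl h, Or.inr ⟨h1, h2, h3⟩]
  have hS : ∀ x : ℕ, x ∈ curveS W p aux ↔
      x = p ∨ (x.Prime ∧ x ∣ curveN W p * aux) ∨ ∃ a, q a = x := by
    intro x
    simp only [curveS, Finset.mem_insert, Finset.mem_union, Nat.mem_primeFactors]
    constructor
    · rintro (h | ⟨hx, hd, -⟩ | ⟨hx, hd, -⟩)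
      · exact Or.inl h
      · rcases hbad x hx (Int.natCast_dvd.mpr hd) with h | ⟨h, -⟩ | h
        exacts [Or.inl h, Or.inr (Or.inl ⟨hx, h.mul_right _⟩), Or.inr (Or.inr h)]
      · exact Or.inr (Or.inl ⟨hx, hd.mul_left _⟩)
    · rintro (h | ⟨hx, hd⟩ | ⟨a, rfl⟩)
      · exact Or.inl h
      · rcases hx.dvd_mul.mp hd with hd | hd
        · exact Or.inr (Or.inl ⟨hx, Int.natCast_dvd.mp ((prime_dvd_curveN_iff hΔ hx).mp hd).1,
            Int.natAbs_ne_zero.mpr hΔ⟩)
        · refine Or.inr (Or.inr ⟨hx, hd, ?_⟩)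
          rcases hauxdata with h | h
          exacts [by omega, h.1.ne_zero]
      · exact Or.inr (Or.inl ⟨(hqspec a).1, Int.natCast_dvd.mp (hqspec a).2.1,
          Int.natAbs_ne_zero.mpr hΔ⟩)
  have hgoodS : ∀ ℓ : ℕ, ℓ.Prime → ℓ ∉ curveS W p aux → ℓ ≠ p ∧ W.IsGoodPrimeFor ℓ := by
    intro ℓ hℓ h
    simp only [curveS, Finset.mem_insert, Finset.mem_union, Nat.mem_primeFactors, not_or] at h
    exact ⟨h.1, fun hd => h.2.1 ⟨hℓ, Int.natCast_dvd.mp hd, Int.natAbs_ne_zero.mpr hΔ⟩⟩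
  have hfrob : ∀ ℓ : ℕ, ℓ.Prime → ℓ ≠ p → W.IsGoodPrimeFor ℓ →
      ∀ A : ValuationSubring ℚbar, A.LiesOverPrime ℓ → ∀ σ : Γℚ, A.IsFrobeniusAt σ ℓ →
        (F.rep O hpO σ).trace = (W.apOfModel ℓ : O) ∧ (F.rep O hpO σ).det = (ℓ : O) := by
    intro ℓ hℓ hℓp hg A hA σ hσ
    obtain ⟨h1, h2⟩ := F.frobMatches O hpO hΔ ℓ hℓ (by
      simp only [Finset.mem_union, Finset.mem_singleton, Nat.mem_primeFactors, not_or]
      exact ⟨fun h => hg (Int.natCast_dvd.mpr h.2.1), hℓp⟩) A hA σ hσ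
    rw [F.trace_galoisRep O hpO hΔ] at h1
    exact ⟨h1, (GaloisAdic.det_repOfMatrix (F.rep O hpO)
      (F.rep_continuous O hpO hΔ) σ).symm.trans h2⟩
  have hresI : ∀ ℓ : ℕ, residue O ((W.apOfModel ℓ : ℤ) : O) =
      ι ((W.apOfModel ℓ : ℤ) : ZMod p) := fun ℓ => by rw [map_intCast, map_intCast]
  let s : FSetup :=
  { p := p
    hp2 := hp2
    O := O
    hpO := hpO
    ρbar := ρbar
    habs := habs
    hodd := hodd
    hdet := F.detIsCyclotomic_residual O hpO hΔ
    hsplit := F.split_residual O hpO hΔ hk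
    hTW := hTW
    rW := F.repConj O hpO G
    hrW := hr
    hred := hG
    hdetW := ETransfer.detIsCyclotomic_of_equiv E (F.detIsCyclotomic O hpO hΔ)
    N := curveN W p
    hN := squarefree_curveN hΔ
    K := (curveQ W p).card
    q := q
    q_inj := hqinj
    hq := fun a => ⟨(hqspec a).1, (hqspec a).2.2.1, hqN a⟩
    aux := aux
    haux := hauxdata.imp id fun h => ⟨h.1, h.2.1,
      fun hd => h.2.2 ((prime_dvd_curveN_iff hΔ h.1).mp hd).1,
      fun a ha => h.2.2 (ha ▸ (hqspec a).2.1)⟩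
    hauxres := fun h1 => by
      obtain ⟨hr, hrp, hg, hm, ha⟩ := haux.1.resolve_left h1
      refine ⟨?_, fun A hA σ hσ h0 => ha (hι ?_)⟩
      · rw [← map_natCast ι aux, hm, map_neg, map_one]
      · rw [(F.trace_det_residual O hpO hΔ σ).1, (hfrob aux hr hrp hg A hA σ hσ).1] at h0
        rw [← hresI, h0, map_zero]
    hthree := haux.2
    S0 := curveS W p aux
    hS0 := hS
    aW := fun ℓ => ((W.apOfModel ℓ : ℤ) : O)
    hfrobW := fun ℓ hℓ hS A hA σ hσ => by
      obtain ⟨ht, hd⟩ := hfrob ℓ hℓ (hgoodS ℓ hℓ hS).1 (hgoodS ℓ hℓ hS).2 A hA σ hσ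
      refine (ETransfer.charpoly_of_equiv E σ).trans ((GaloisAdic.charpoly_repOfMatrix
        (F.rep O hpO) (F.rep_continuous O hpO hΔ) σ).trans ?_)
      rw [ht, hd]
    hunrW := fun x hx hxp hxN hxq => ETransfer.isUnramifiedAt_of_equiv E
      (F.isUnramifiedAt O hpO hΔ hx (fun hd => by
        rcases hbad x hx hd with h | ⟨h, -⟩ | ⟨a, h⟩
        exacts [hxp h, hxN h, hxq a h]) hxp)
    hminres := fun x hx hxN hxp => (F.residual_ramified_iff O hpO hΔ hss hx hxp
      ((prime_dvd_curveN_iff hΔ hx).mp hxN).1).mpr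
        (((prime_dvd_curveN_iff hΔ hx).mp hxN).2.resolve_left hxp)
    hresq := fun a => by
      by_contra h
      exact (F.residual_ramified_iff O hpO hΔ hss (hqspec a).1 (hqspec a).2.2.1
        (hqspec a).2.1).mp h (hqspec a).2.2.2
    hunipW := fun x hx hxN hxp => ETransfer.isUnipotentOnInertiaAt_of_equiv E
      (F.isUnipotentOnInertiaAt O hpO hΔ hss hx ((prime_dvd_curveN_iff hΔ hx).mp hxN).1 hxp)
    hflatW := fun hN => F.isFlatAt_repConj O hpO hΔ hp2 (fun hd => hN ((hpN rfl).mpr hd)) G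
    hordW := fun hN => ETransfer.isStrictOrdinaryAt_of_equiv E
      (F.isStrictOrdinaryAt O hpO hΔ hss ((hpN rfl).mp hN))
    eps := eps
    heps := heps
    beta := beta
    hbeta := hbeta
    frame := frame
    phi := phi
    tau := tau
    hgen := fun a => hgen a
    hphi := fun a => (hG (phi a)).symm.trans (hphi a)
    htrW := htrW
    hmonoW := hmonoW
    epsP := epsP
    hepsP := hepsP
    frobP := frobP
    tauP := tauP
    hfrobP := hfrobP
    htauP := htauP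
    hunitP := hunitP
    hPW := fun h => hPW ((hpN rfl).mp h)
    hEis := fun m T hm => by
      haveI : NeZero (m * p) := ⟨Nat.mul_ne_zero hm.ne' hp.ne_zero⟩
      obtain ⟨ℓ, hℓ, hℓT, h1M, h1p, -, hne⟩ :=
        Ribet.exists_prime_ap_ne_two hΔ hp2 hirr (m * p) (dvd_mul_left _ _) T
      refine ⟨ℓ, hℓ, hℓT, ?_, fun h => hne (hι ?_)⟩
      · have := congrArg (ZMod.castHom (dvd_mul_right m p) (ZMod m)) h1M
        rwa [map_natCast, map_one] at this
      · rw [← hresI, h, ← map_natCast ι ℓ, h1p, map_one, map_ofNat, one_add_one_eq_two]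
    hIhara := fun T => by
      obtain ⟨ℓ, hℓ, hℓT, -, -, hne⟩ := FromCurve.exists_prime_ap_sq_ne hΔ hp2 hirr T
      refine ⟨ℓ, hℓ, hℓT, fun h => hne (hι ?_)⟩
      rw [map_pow, map_pow, map_add, map_one, map_natCast, ← hresI]
      exact h
    hres := fun L _ hL => by
      have e : (fun ℓ : GoodIdx (curveS W p aux) => ((W.apOfModel ℓ : ℤ) : ResidueField O)) =
          fun ℓ : GoodIdx (curveS W p aux) => residue O ((W.apOfModel ℓ : ℤ) : O) :=
        funext fun ℓ => (map_intCast _ _).symm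
      exact e ▸ hres (ResidueField O) L hL }
  refine ⟨s, rfl, rfl, rfl, rfl, fun _ => rfl, ?_⟩
  show curveN W p * aux * ∏ a : Fin (curveQ W p).card, q (a.castLE _) = _
  rw [← curveN_mul_prod_curveQ (p := p) hΔ, ← Finset.prod_coe_sort (curveQ W p),
    ← Equiv.prod_comp (curveQ W p).equivFin.symm]
  simp only [q, Fin.castLE_refl]
  ring

end Fermat.Agent.Lifting
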