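import Fermat.Agent.Ribet.Avoid.FromCurve
import Fermat.Agent.Mult.Main
import Fermat.Agent.ECRed.Good
import Fermat.Agent.EC.Torsion
import Fermat.Agent.Newform.Extension
import Fermat.Agent.Lifting.FEigenClass

/-!
# Lowering a squarefree residual level to the level of the lifting problem

By repeated level lowering (statements `S38` away from `p`, `S40` at `p`) residual modularity at a
squarefree level gives residual modularity at every multiple of the product of the residually
ramified primes (times `p` for multiplicative reduction at `p`).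
-/

set_option autoImplicit false
set_option linter.style.haveILetI false

noncomputable section

namespace Fermat.Agent.Lifting

open WeierstrassCurve
open scoped WeierstrassCurve.Affine
open Fermat.Agent.Ribet.Avoid (residualLevel)

/-- The shape of level lowering away from `p` at squarefree levels. -/
def LoweringStatement : Prop :=
  ∀ (p : ℕ) [Fact p.Prime] (_hp2 : p ≠ 2) (W : WeierstrassCurve ℤ) (_hΔ : W.Δ ≠ 0)
    (_hW : W.IsSemistableModel)
    (hcard₁ : Nat.card (Submodule.torsionBy ℤ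
      ((W.map (Int.castRingHom ℚ))⁄(AlgebraicClosure ℚ)).Point p) = p ^ 2)
    (hker : GaloisFactorsThroughFiniteLevel
      (WeierstrassCurve.Affine.Point.galoisRepModuleEnd (K := AlgebraicClosure ℚ) ℚ
        (W.map (Int.castRingHom ℚ)) p))
    (_hirr : W.ModRepIsIrreducible p) (M q : ℕ) (_hq : q.Prime) (_hqp : q ≠ p)
    (_hqM : q ∣ M) (_hq2 : ¬ q ^ 2 ∣ M) (_hM : Squarefree M)
    (_hunr : ((W.map (Int.castRingHom ℚ)).residualGaloisRepOf p hcard₁ hker).IsUnramifiedAt q)
    (_hres : W.IsResiduallyModularOfLevel p M),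
    W.IsResiduallyModularOfLevel p (M / q)

/-- The shape of level lowering away from `p` at squarefree levels which do not contain a good
`p`: all that modularity lifting consumes. -/
def LoweringAwayStatement : Prop :=
  ∀ (p : ℕ) [Fact p.Prime] (_hp2 : p ≠ 2) (W : WeierstrassCurve ℤ) (_hΔ : W.Δ ≠ 0)
    (_hW : W.IsSemistableModel)
    (hcard₁ : Nat.card (Submodule.torsionBy ℤ
      ((W.map (Int.castRingHom ℚ))⁄(AlgebraicClosure ℚ)).Point p) = p ^ 2)
    (hker : GaloisFactorsThroughFiniteLevel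
      (WeierstrassCurve.Affine.Point.galoisRepModuleEnd (K := AlgebraicClosure ℚ) ℚ
        (W.map (Int.castRingHom ℚ)) p))
    (_hirr : W.ModRepIsIrreducible p) (M q : ℕ) (_hq : q.Prime) (_hqp : q ≠ p)
    (_hqM : q ∣ M) (_hq2 : ¬ q ^ 2 ∣ M) (_hM : Squarefree M)
    (_hpM : ¬ (p : ℤ) ∣ W.Δ → ¬ p ∣ M)
    (_hunr : ((W.map (Int.castRingHom ℚ)).residualGaloisRepOf p hcard₁ hker).IsUnramifiedAt q)
    (_hres : W.IsResiduallyModularOfLevel p M),
    W.IsResiduallyModularOfLevel p (M / q)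

/-- General level lowering gives the form used by modularity lifting. -/
theorem LoweringStatement.away (h : LoweringStatement) : LoweringAwayStatement :=
  fun p _ hp2 W hΔ hW hcard hker hirr M q hq hqp hqM hq2 hM _ hunr hres =>
    h p hp2 W hΔ hW hcard hker hirr M q hq hqp hqM hq2 hM hunr hres

/-- The shape of level lowering at `p`. -/
def LoweringAtPStatement : Prop :=
  ∀ (W : WeierstrassCurve ℤ) (_hΔ : W.Δ ≠ 0) {p : ℕ} (_hp : p.Prime) (_hp2 : p ≠ 2)
    (_hgood : W.IsGoodPrimeFor p) (_hirr : W.ModRepIsIrreducible p) {M : ℕ} (_hM : 0 < M)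
    (_hpM : p ∣ M) (_hp2M : ¬ p ^ 2 ∣ M) (_hmod : W.IsResiduallyModularOfLevel p M),
    W.IsResiduallyModularOfLevel p (M / p)

/-- The fixed level of the lifting problem. -/
def targetLevel (W : WeierstrassCurve ℤ) (p : ℕ) : ℕ :=
  residualLevel W p * if (p : ℤ) ∣ W.Δ then p else 1

theorem prime_dvd_targetLevel_iff {W : WeierstrassCurve ℤ} {p q : ℕ} (hΔ : W.Δ ≠ 0)
    (hp : p.Prime) (hq : q.Prime) :
    q ∣ targetLevel W p ↔ (q : ℤ) ∣ W.Δ ∧ (q = p ∨ ¬ p ∣ padicValInt q W.Δ) := by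
  rw [targetLevel, hq.dvd_mul, Ribet.Avoid.prime_dvd_residualLevel_iff hΔ hq]
  constructor
  · rintro (⟨-, h2, h3⟩ | h)
    · exact ⟨h2, .inr h3⟩
    · split at h
      · rename_i hd
        obtain rfl := (Nat.prime_dvd_prime_iff_eq hq hp).mp h
        exact ⟨hd, .inl rfl⟩
      · exact absurd (Nat.dvd_one.mp h) hq.ne_one
  · rintro ⟨h1, h2⟩
    by_cases hqp : q = p
    · subst hqp
      exact .inr (by rw [if_pos h1])
    · exact .inl ⟨hqp, h1, h2.resolve_left hqp⟩

theorem squarefree_targetLevel {W : WeierstrassCurve ℤ} {p : ℕ} (hΔ : W.Δ ≠ 0) (hp : p.Prime) :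
    Squarefree (targetLevel W p) := by
  rw [targetLevel]
  split
  · exact (Nat.squarefree_mul ((Nat.coprime_comm.mp (hp.coprime_iff_not_dvd.mpr
      (Ribet.Avoid.not_dvd_residualLevel hΔ hp))))).mpr
      ⟨Ribet.Avoid.squarefree_residualLevel W p, hp.squarefree⟩
  · rw [mul_one]; exact Ribet.Avoid.squarefree_residualLevel W p

theorem isUnramifiedAt_of_not_dvd_targetLevel {W : WeierstrassCurve ℤ} {p q : ℕ} [Fact p.Prime]
    (hΔ : W.Δ ≠ 0) (hss : W.IsSemistableModel) (hq : q.Prime) (hqp : q ≠ p)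
    (h : ¬ q ∣ targetLevel W p)
    (hcard₁ : Nat.card (Submodule.torsionBy ℤ
      ((W.map (Int.castRingHom ℚ))⁄(AlgebraicClosure ℚ)).Point p) = p ^ 2)
    (hker : GaloisFactorsThroughFiniteLevel
      (WeierstrassCurve.Affine.Point.galoisRepModuleEnd (K := AlgebraicClosure ℚ) ℚ
        (W.map (Int.castRingHom ℚ)) p)) :
    ((W.map (Int.castRingHom ℚ)).residualGaloisRepOf p hcard₁ hker).IsUnramifiedAt q := by
  have hp : p.Prime := Fact.out
  have hqn : ¬ q ∣ p := fun h => hqp ((Nat.prime_dvd_prime_iff_eq hq hp).mp h)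
  intro A hA σ hσ
  refine LinearMap.ext fun x => ?_
  by_cases hbad : (q : ℤ) ∣ W.Δ
  · exact Mult.inertia_smul_eq_self_of_dvd
      (Mult.IsMultPlace.of_semistable hΔ hss hq hbad hA) hp.ne_zero hqn
      (by by_contra hv; exact h ((prime_dvd_targetLevel_iff hΔ hp hq).mpr ⟨hbad, .inr hv⟩)) hσ x
  · exact ECRed.galoisRepUnramifiedAt_of_isGoodPrimeFor W hq hbad hqn A hA σ hσ x

/-- Residual modularity at a squarefree level gives it at a level dividing the target. -/
theorem exists_dvd_targetLevel (h38 : LoweringStatement) (h40 : LoweringAtPStatement)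
    {W : WeierstrassCurve ℤ} {p : ℕ} (hp : p.Prime) (hp2 : p ≠ 2) (hΔ : W.Δ ≠ 0)
    (hss : W.IsSemistableModel) (hirr : W.ModRepIsIrreducible p) {M : ℕ} (hM : Squarefree M)
    (hres : W.IsResiduallyModularOfLevel p M) :
    ∃ M' : ℕ, M' ∣ targetLevel W p ∧ W.IsResiduallyModularOfLevel p M' := by
  haveI : Fact p.Prime := ⟨hp⟩
  induction M using Nat.strong_induction_on with
  | _ M ih =>
    by_cases hdvd : ∀ q ∈ M.primeFactors, q ∣ targetLevel W p
    · refine ⟨M, ?_, hres⟩
      rw [← Nat.prod_primeFactors_of_squarefree hM]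
      exact Finset.prod_primes_dvd _
        (fun q hq => Nat.prime_iff.mp (Nat.prime_of_mem_primeFactors hq)) hdvd
    push Not at hdvd
    obtain ⟨q, hqM, hqN⟩ := hdvd
    obtain ⟨hq, hqM, hM0⟩ := Nat.mem_primeFactors.mp hqM
    have hlt : M / q < M := Nat.div_lt_self (Nat.pos_of_ne_zero hM0) hq.one_lt
    have hsq : Squarefree (M / q) := hM.squarefree_of_dvd (Nat.div_dvd_of_dvd hqM)
    have hq2 : ¬ q ^ 2 ∣ M := fun h =>
      Nat.squarefree_iff_prime_squarefree.mp hM q hq (by rwa [← pow_two])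
    by_cases hqp : q = p
    · subst hqp
      have hgood : W.IsGoodPrimeFor q := fun hd =>
        hqN ((prime_dvd_targetLevel_iff hΔ hp hq).mpr ⟨hd, .inl rfl⟩)
      exact ih _ hlt hsq (h40 W hΔ hq hp2 hgood hirr (Nat.pos_of_ne_zero hM0) hqM hq2 hres)
    · haveI := Lifting.isElliptic_tors (W := W) hΔ
      have hcard : Nat.card (Submodule.torsionBy ℤ
          ((W.map (Int.castRingHom ℚ))⁄(AlgebraicClosure ℚ)).Point p) = p ^ 2 :=
        EC.card_torsionBy_Qbar hp.ne_zero
      have hker := EC.galoisFactorsThroughFiniteLevel (W.map (Int.castRingHom ℚ)).toAffine hp.ne_zero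
      exact ih _ hlt hsq (h38 p hp2 W hΔ hss hcard hker hirr M q hq hqp hqM hq2 hM
        (isUnramifiedAt_of_not_dvd_targetLevel hΔ hss hq hqp hqN hcard hker) hres)

/-- Residual modularity at a squarefree level gives it at every multiple of the target level. -/
theorem isResiduallyModularOfLevel_of_targetLevel_dvd (h38 : LoweringStatement)
    (h40 : LoweringAtPStatement) {W : WeierstrassCurve ℤ} {p : ℕ} (hp : p.Prime) (hp2 : p ≠ 2)
    (hΔ : W.Δ ≠ 0) (hss : W.IsSemistableModel) (hirr : W.ModRepIsIrreducible p) {M : ℕ}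
    (hM : Squarefree M) (hres : W.IsResiduallyModularOfLevel p M) {L : ℕ} [NeZero L]
    (hL : targetLevel W p ∣ L) : W.IsResiduallyModularOfLevel p L := by
  obtain ⟨M', hM', h⟩ := exists_dvd_targetLevel h38 h40 hp hp2 hΔ hss hirr hM hres
  exact Newform.isResiduallyModularOfLevel_of_dvd (hM'.trans hL) h

/-- The residual system of the curve occurs at every multiple of the target level: the shape of
`FSetup.hres`. -/
theorem exists_mPart_ne_zero_of_residual (h38 : LoweringStatement) (h40 : LoweringAtPStatement)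
    {W : WeierstrassCurve ℤ} {p : ℕ} [Fact p.Prime] (hp2 : p ≠ 2) (hΔ : W.Δ ≠ 0)
    (hss : W.IsSemistableModel) (hirr : W.ModRepIsIrreducible p) {M : ℕ} (hM : Squarefree M)
    (hres : W.IsResiduallyModularOfLevel p M) {k : Type*} [Field k] (hpk : (p : k) = 0)
    {L : ℕ} [NeZero L] (hL : targetLevel W p ∣ L) {S : Finset ℕ}
    (hS : ∀ ℓ : ℕ, ℓ.Prime → ℓ ∣ L → ℓ ∈ S)
    (hgood : ∀ ℓ : ℕ, ℓ.Prime → ℓ ∉ S → W.IsGoodPrimeFor ℓ ∧ ℓ ≠ p) :
    ∃ x : MPart (one_dvd L) (1 : DirichletCharacter k 1) (RingHom.id k)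
      (fun ℓ : GoodIdx S => ((W.apOfModel ℓ : ℤ) : k)) k, x ≠ 0 := by
  obtain ⟨f, 𝔪, hf, hmax, hpm, hcong⟩ :=
    isResiduallyModularOfLevel_of_targetLevel_dvd h38 h40 Fact.out hp2 hΔ hss hirr hM hres hL
  exact exists_mPart_ne_zero_of_eigenform hpk dvd_rfl hf 𝔪 hpm hS (fun ℓ => W.apOfModel ℓ)
    fun ℓ hℓ hℓS => hcong ℓ hℓ (hgood ℓ hℓ hℓS).1 (fun h => hℓS (hS ℓ hℓ h)) (hgood ℓ hℓ hℓS).2

end Fermat.Agent.Lifting
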