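import Fermat.Agent.Lifting.FMain
import Fermat.Agent.Lifting.FGlue
import Fermat.Agent.Lifting.FLowering
import Fermat.Agent.Lifting.FFromCurve

/-!
# Modularity lifting: composition for the final assembly
-/

set_option autoImplicit false
set_option linter.style.haveILetI false

noncomputable section

namespace Fermat.Agent.Lifting

open IsLocalRing WeierstrassCurve
open scoped WeierstrassCurve.Affine

namespace FSetup

variable (s : FSetup)

/-- The top level is squarefree. -/
theorem squarefree_lev (i : Fin (s.K + 1)) : Squarefree (s.lev i) := by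
  have hcop : Nat.Coprime s.N s.aux := by
    rcases s.haux with h | h
    · simp [h]
    · exact (h.1.coprime_iff_not_dvd.mpr h.2.2.1).symm
  have haux : Squarefree s.aux := by
    rcases s.haux with h | h
    · simp [h]
    · exact h.1.squarefree
  have hprod : Squarefree (∏ a : Fin i, s.q (a.castLE (Nat.lt_succ_iff.mp i.2))) := by
    refine Finset.squarefree_prod_of_pairwise_isCoprime ?_ fun a _ => (s.hq _).1.squarefree
    intro a _ b _ hab
    exact Nat.coprime_iff_isRelPrime.mp ((Nat.coprime_primes (s.hq _).1 (s.hq _).1).mpr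
      fun h => hab (Fin.castLE_injective _ (s.q_inj h)))
  refine (Nat.squarefree_mul ?_).mpr ⟨(Nat.squarefree_mul hcop).mpr ⟨s.hN, haux⟩, hprod⟩
  refine Nat.Coprime.prod_right fun a _ => Nat.Coprime.mul_left ?_ ?_
  · exact ((s.hq _).1.coprime_iff_not_dvd.mpr (s.hq _).2.2).symm
  · rcases s.haux with h | h
    · simp [h]
    · exact (Nat.coprime_primes h.1 (s.hq _).1).mpr fun e => h.2.2.2 _ e.symm

/-- **From a lifting problem to modularity**: if the target has the eigenvalues of `W`, then `W` is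
modular of exact conductor level. -/
theorem exactConductorLevel (h35 : CondLevel.S35Statement) {W : WeierstrassCurve ℤ}
    (hΔ : W.Δ ≠ 0)
    (haW : ∀ ℓ : ℕ, ℓ.Prime → ℓ ∉ s.S0 → s.aW ℓ = (W.apOfModel ℓ : s.O)) :
    Mlc1IsModularModelOfExactConductorLevel W := by
  obtain ⟨a, ha, hsys⟩ := hasSystem_of_setup s
  haveI : CharZero (FractionRing s.O) := charZero_of_injective_algebraMap
    (IsFractionRing.injective s.O (FractionRing s.O))
  haveI : CharZero s.Kbar := charZero_of_injective_algebraMap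
    (algebraMap (FractionRing s.O) s.Kbar).injective
  refine exactConductorLevel_of_hasSystem h35 hΔ (s.squarefree_lev (Fin.last s.K))
    1 s.S0 a hsys fun ℓ hℓ hℓS => ?_
  rw [ha ⟨ℓ, hℓ, hℓS⟩, haW ℓ hℓ hℓS, map_intCast]

end FSetup

/-- Residual modularity at a squarefree level not containing a good `p` gives it at a level
dividing the target, using lowering away from `p` only. -/
theorem exists_dvd_targetLevel_away (h38 : LoweringAwayStatement)
    {W : WeierstrassCurve ℤ} {p : ℕ} (hp : p.Prime) (hp2 : p ≠ 2) (hΔ : W.Δ ≠ 0)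
    (hss : W.IsSemistableModel) (hirr : W.ModRepIsIrreducible p) {M : ℕ} (hM : Squarefree M)
    (hpM : ¬ (p : ℤ) ∣ W.Δ → ¬ p ∣ M) (hres : W.IsResiduallyModularOfLevel p M) :
    ∃ M' : ℕ, M' ∣ targetLevel W p ∧ W.IsResiduallyModularOfLevel p M' := by
  haveI : Fact p.Prime := ⟨hp⟩
  induction M using Nat.strong_induction_on with
  | _ M ih =>
    by_cases hdvd : ∀ q ∈ M.primeFactors, q ∣ targetLevel W p
    · refine ⟨M, ?_, hres⟩
      rw [← Nat.prod_primeFactors_of_squarefree hM]
      exact Finset.prod_primes_dvd _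
        (fun q hq => Nat.prime_iff.mp (Nat.prime_of_mem_primeFactors hq)) hdvd
    push Not at hdvd
    obtain ⟨q, hqM, hqN⟩ := hdvd
    obtain ⟨hq, hqM, hM0⟩ := Nat.mem_primeFactors.mp hqM
    have hlt : M / q < M := Nat.div_lt_self (Nat.pos_of_ne_zero hM0) hq.one_lt
    have hsq : Squarefree (M / q) := hM.squarefree_of_dvd (Nat.div_dvd_of_dvd hqM)
    have hq2 : ¬ q ^ 2 ∣ M := fun h =>
      Nat.squarefree_iff_prime_squarefree.mp hM q hq (by rwa [← pow_two])
    have hqp : q ≠ p := by
      rintro rfl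
      exact hqN ((prime_dvd_targetLevel_iff hΔ hp hq).mpr
        ⟨not_not.mp fun h => hpM h hqM, .inl rfl⟩)
    haveI := Lifting.isElliptic_tors (W := W) hΔ
    have hcard : Nat.card (Submodule.torsionBy ℤ
        ((W.map (Int.castRingHom ℚ))⁄(AlgebraicClosure ℚ)).Point p) = p ^ 2 :=
      EC.card_torsionBy_Qbar hp.ne_zero
    have hker := EC.galoisFactorsThroughFiniteLevel (W.map (Int.castRingHom ℚ)).toAffine hp.ne_zero
    exact ih _ hlt hsq (fun h h' => hpM h (h'.trans (Nat.div_dvd_of_dvd hqM)))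
      (h38 p hp2 W hΔ hss hcard hker hirr M q hq hqp hqM hq2 hM hpM
        (isUnramifiedAt_of_not_dvd_targetLevel hΔ hss hq hqp hqN hcard hker) hres)

/-- **Modularity lifting at three and five** from a squarefree level which does not contain `p`
at a good `p`, given the local information on newforms and level lowering away from `p`. -/
theorem liftingTwo_of_lowering (h35 : CondLevel.S35Statement) (h38 : LoweringAwayStatement)
    (p : ℕ) (hp : p = 3 ∨ p = 5) (W : WeierstrassCurve ℤ) (hΔ : W.Δ ≠ 0)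
    (hss : W.IsSemistableModel) (hirr : W.ModRepIsIrreducible p) (M₀ : ℕ) [NeZero M₀]
    (hres : W.IsResiduallyModularOfLevel p M₀) (hM₀ : Squarefree M₀)
    (hpM₀ : ¬ (p : ℤ) ∣ W.Δ → ¬ p ∣ M₀) :
    Mlc1IsModularModelOfExactConductorLevel W := by
  classical
  have hpp : p.Prime := by rcases hp with rfl | rfl <;> norm_num
  have hp2 : p ≠ 2 := by rcases hp with rfl | rfl <;> norm_num
  haveI : Fact p.Prime := ⟨hpp⟩
  obtain ⟨M', hM', hmod⟩ := exists_dvd_targetLevel_away h38 hpp hp2 hΔ hss hirr hM₀ hpM₀ hres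
  obtain ⟨aux, haux, -, -⟩ := exists_isCurveAux (p := p) hΔ hss hirr ∅
  have hpart : HasResidualPart W p aux := by
    intro k _ _ _ L _ hL
    have hS : ∀ ℓ : ℕ, ℓ.Prime → ℓ ∣ L → ℓ ∈ curveS W p aux := by
      intro ℓ hℓ hd
      rw [hL, hℓ.dvd_mul] at hd
      simp only [curveS, Finset.mem_insert, Finset.mem_union, Nat.mem_primeFactors]
      rcases hd with hd | hd
      · exact Or.inr (Or.inl ⟨hℓ, Int.natCast_dvd.mp ((prime_dvd_curveN_iff hΔ hℓ).mp hd).1,
          Int.natAbs_ne_zero.mpr hΔ⟩)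
      · refine Or.inr (Or.inr ⟨hℓ, hd, ?_⟩)
        rcases haux.1 with h | h
        · rw [h]; exact one_ne_zero
        · exact h.1.ne_zero
    have hgood : ∀ ℓ : ℕ, ℓ.Prime → ℓ ∉ curveS W p aux → W.IsGoodPrimeFor ℓ ∧ ℓ ≠ p := by
      intro ℓ hℓ hℓS
      simp only [curveS, Finset.mem_insert, Finset.mem_union, Nat.mem_primeFactors] at hℓS
      push Not at hℓS
      exact ⟨fun h => Int.natAbs_ne_zero.mpr hΔ
        (hℓS.2.1 hℓ (Int.natCast_dvd.mp h)), hℓS.1⟩
    have hdvd : M' ∣ L := hL ▸ hM'.trans (dvd_mul_right _ _)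
    obtain ⟨f, 𝔪, hf, hmax, hpm, hcong⟩ := Newform.isResiduallyModularOfLevel_of_dvd hdvd hmod
    exact exists_mPart_ne_zero_of_eigenform (CharP.cast_eq_zero k p) dvd_rfl hf 𝔪 hpm hS
      (fun ℓ => W.apOfModel ℓ) fun ℓ hℓ hℓS => hcong ℓ hℓ (hgood ℓ hℓ hℓS).1
        (fun h => hℓS (hS ℓ hℓ h)) (hgood ℓ hℓ hℓS).2
  obtain ⟨s, -, -, -, -, haW, -⟩ := exists_fSetup hΔ hss hp2 hirr haux hpart
  exact s.exactConductorLevel h35 hΔ fun ℓ _ _ => haW ℓ

end Fermat.Agent.Lifting

end
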