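import Fermat.Agent.Lifting.FPatchOps
import Fermat.Agent.Ribet.ThirdComplete
import Mathlib.RingTheory.IntegralClosure.IsIntegralClosure.Basic
import Mathlib.RingTheory.Finiteness.Finsupp

/-!
# Modularity lifting: the action of the big ring

The image of the operators in the residue field, in the algebras of the modules and at all the
points is a complete local ring, finite over `O[[Y]]`; the big ring maps to it through the values
of the variables.  So every series acts as some operator with the same values at all points.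
-/

set_option autoImplicit false

noncomputable section

namespace Fermat.Agent.Lifting

open IsLocalRing MvPowerSeries
open Fermat.Agent.Ribet.Avoid (Univ)
open scoped IsMulCommutative

variable {s : FSetup} {r n : ℕ}

/-- Series with coefficients in a finite algebra form a finite algebra. -/
theorem finite_mvPowerSeries_of_finite {σ A B : Type} [CommRing A] [CommRing B] [Algebra A B]
    [Module.Finite A B] : Module.Finite (MvPowerSeries σ A) (MvPowerSeries σ B) := by
  obtain ⟨m, φ, hφ⟩ := Module.Finite.exists_fin' A B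
  refine Module.Finite.of_surjective
    (Fintype.linearCombination (MvPowerSeries σ A)
      fun k => (MvPowerSeries.C (φ (Pi.single k 1)) : MvPowerSeries σ B)) fun f => ?_
  choose c hc using fun β => hφ (coeff β f)
  refine ⟨fun k β => c β k, MvPowerSeries.ext fun β => ?_⟩
  rw [Fintype.linearCombination_apply, map_sum, ← hc β]
  conv_rhs => rw [pi_eq_sum_univ' (c β), map_sum]
  refine Finset.sum_congr rfl fun k _ => ?_
  rw [Algebra.smul_def, MvPowerSeries.algebraMap_apply'', coeff_mul_C, coeff_map, map_smul,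
    Algebra.smul_def]
  rfl

instance isNoetherianRing_ySeries : IsNoetherianRing (MvPowerSeries s.YVar s.O) :=
  MvPowerSeries.isNoetherianRing s.O

instance isAdicComplete_ySeries :
    IsAdicComplete (maximalIdeal (MvPowerSeries s.YVar s.O)) (MvPowerSeries s.YVar s.O) :=
  inferInstance

theorem finite_coeff (d : FAux s r n) : Finite (FAux.Coeff n d) := by
  let S := (s.shape r).Sring s.O
  haveI : Finite (S ⧸ maximalIdeal S) := by
    refine Finite.of_surjective (fun c : s.kk => (Ideal.Quotient.lift (maximalIdeal s.O)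
      ((Ideal.Quotient.mk (maximalIdeal S)).comp MvPowerSeries.C) fun a ha =>
        Ideal.Quotient.eq_zero_iff_mem.2 ((mem_maximalIdeal _).2 fun hu =>
          (mem_maximalIdeal a).1 ha
            (constantCoeff_C (σ := (s.shape r).SVar) a ▸ MvPowerSeries.isUnit_iff_constantCoeff.1 hu))) c)
              fun y => ?_
    obtain ⟨f, rfl⟩ := Ideal.Quotient.mk_surjective y
    refine ⟨residue s.O (constantCoeff f), Ideal.Quotient.eq.2 ?_⟩
    rw [mem_maximalIdeal, mem_nonunits_iff, MvPowerSeries.isUnit_iff_constantCoeff, map_sub]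
    rw [constantCoeff_C, sub_self]
    exact not_isUnit_zero
  exact Ideal.finite_quotient_pow (IsNoetherian.noetherian _) (n + 1)

namespace FAux

variable (d : FAux s r n)

/-- `O[[Y]]` in the operators. -/
def baseMap : MvPowerSeries s.YVar s.O →+* d.Ops :=
  MvPolynomial.C.comp (MvPowerSeries.map (algebraMap s.O d.UC))

theorem opEval_baseMap {i : Fin (s.K + 1)} {P : d.Pt i} (R : FRep P) :
    R.opEval.comp d.baseMap = MvPowerSeries.map (algebraMap s.O R.O') := by
  refine RingHom.ext fun f => ?_
  rw [RingHom.comp_apply, baseMap, RingHom.comp_apply, FRep.opEval, MvPolynomial.eval₂Hom_C,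
    ← RingHom.comp_apply (MvPowerSeries.map _) (MvPowerSeries.map _), ← MvPowerSeries.map_comp]
  exact congrArg (fun g => MvPowerSeries.map g f) (RingHom.ext fun c => (Univ.eval R.u R.hu : d.UC →ₐ[s.O] R.O').commutes c)

theorem opRes_baseMap : d.opRes.comp d.baseMap = (residue s.O).comp constantCoeff := by
  refine RingHom.ext fun f => ?_
  rw [RingHom.comp_apply, baseMap, RingHom.comp_apply, opRes, MvPolynomial.eval₂Hom_C,
    RingHom.comp_apply, constantCoeff_map]
  exact d.ucRes_algebraMap _

/-- The operators acting by zero everywhere. -/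
def opKer : Ideal d.Ops :=
  RingHom.ker d.opRes ⊓ (⨅ i, RingHom.ker (d.opAct i)) ⊓
    ⨅ i, ⨅ P : d.Pt i, ⨅ R : FRep P, RingHom.ker R.opEval

/-- The image of the operators. -/
def OpsImage : Type := d.Ops ⧸ d.opKer

instance instCommRingOpsImage : CommRing d.OpsImage :=
  inferInstanceAs (CommRing (d.Ops ⧸ d.opKer))

instance instAlgebraOpsImage : Algebra s.O d.OpsImage :=
  inferInstanceAs (Algebra s.O (d.Ops ⧸ d.opKer))

/-- The projection. -/
def toImage : d.Ops →+* d.OpsImage := Ideal.Quotient.mk d.opKer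

theorem toImage_surjective : Function.Surjective d.toImage := Ideal.Quotient.mk_surjective

/-- Maps vanishing on the kernel factor through the image. -/
def imageLift {B : Type*} [Semiring B] (f : d.Ops →+* B) (hf : d.opKer ≤ RingHom.ker f) :
    d.OpsImage →+* B :=
  Ideal.Quotient.lift d.opKer f fun _ ha => hf ha

theorem imageLift_toImage {B : Type*} [Semiring B] (f : d.Ops →+* B)
    (hf : d.opKer ≤ RingHom.ker f) (h : d.Ops) : d.imageLift f hf (d.toImage h) = f h :=
  Ideal.Quotient.lift_mk d.opKer f fun _ ha => hf ha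

theorem imageLift_injective {B : Type*} [CommRing B] (f : d.Ops →+* B)
    (hf : RingHom.ker f = d.opKer) : Function.Injective (d.imageLift f hf.ge) :=
  RingHom.lift_injective_of_ker_le_ideal _ _ hf.le

theorem opKer_le_res : d.opKer ≤ RingHom.ker d.opRes := inf_le_left.trans inf_le_left

theorem opKer_le_act (i : Fin (s.K + 1)) : d.opKer ≤ RingHom.ker (d.opAct i) :=
  (inf_le_left.trans inf_le_right).trans (iInf_le _ i)

theorem opKer_le_eval {i : Fin (s.K + 1)} {P : d.Pt i} (R : FRep P) :
    d.opKer ≤ RingHom.ker R.opEval :=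
  inf_le_right.trans (((iInf_le _ i).trans (iInf_le _ P)).trans (iInf_le _ R))

/-- Finitely many representations see all the points. -/
theorem exists_reps : ∃ (ι : Type) (_ : Fintype ι) (i : ι → Fin (s.K + 1)) (P : ∀ x, d.Pt (i x))
    (R : ∀ x, FRep (P x)), ∀ (i' : Fin (s.K + 1)) (P' : d.Pt i') (R' : FRep P') (h : d.Ops),
      (∀ x, (R x).opEval h = 0) → R'.opEval h = 0 := by
  classical
  let V := fun i : Fin (s.K + 1) => {x : (Fin r → s.Kbar) × (GoodIdx d.S → s.Kbar) |
      ∃ P : d.Pt i, x = (P.u, fun ℓ => P.a ℓ.1)}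
  haveI : ∀ i, Finite (V i) := fun i => (finite_pts d i).to_subtype
  haveI : Fintype (Σ i, V i) := Fintype.ofFinite _
  choose P hP using fun x : Σ i, V i => x.2.2
  refine ⟨Σ i, V i, inferInstance, fun x => x.1, P, fun x => Classical.choice (exists_fRep (P x)),
    fun i' P' R' h hh => ?_⟩
  let x : Σ i, V i := ⟨i', ⟨(P'.u, fun ℓ => P'.a ℓ.1), P', rfl⟩⟩
  have hx : ((P'.u, fun ℓ : GoodIdx d.S => P'.a ℓ.1) : (Fin r → s.Kbar) × (GoodIdx d.S → s.Kbar)) =
      ((P x).u, fun ℓ => (P x).a ℓ.1) := hP x
  have h1 := DFunLike.congr_fun (Classical.choice (exists_fRep (P x))).map_emb_opEval h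
  have h2 := DFunLike.congr_fun R'.map_emb_opEval h
  rw [RingHom.comp_apply, hh x, map_zero] at h1
  refine MvPowerSeries.ext fun β => R'.emb_inj ?_
  rw [map_zero, map_zero, ← coeff_map, ← RingHom.comp_apply, h2]
  have hu := congrArg Prod.fst hx
  have ha := congrArg Prod.snd hx
  simp only at hu ha
  have e : ∀ (u : Fin r → s.Kbar) (hu' : ∀ j, u j ^ s.p ^ (n + 1) = 1), u = P'.u →
      (Univ.eval u hu' : d.UC →ₐ[s.O] s.Kbar) = Univ.eval P'.u P'.hu := by
    rintro u hu' rfl
    rfl
  rw [← e _ (P x).hu hu.symm,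
    show (fun ℓ : GoodIdx d.S => (MvPowerSeries.C (P'.a ℓ) : MvPowerSeries s.YVar s.Kbar)) =
        fun ℓ : GoodIdx d.S => MvPowerSeries.C ((P x).a ℓ) from
      funext fun ℓ => congrArg _ (congrFun ha ℓ), ← h1, map_zero]

/-- The image embeds in a finite algebra where residually non-zero operators are units. -/
theorem exists_finite_embedding : ∃ (B : Type) (_ : CommRing B) (Φ : d.Ops →+* B),
    RingHom.ker Φ = d.opKer ∧ (Φ.comp d.baseMap).Finite ∧
      ∀ h, d.opRes h ≠ 0 → IsUnit (Φ h) := by
  obtain ⟨ι, _, i, P, R, hR⟩ := d.exists_reps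
  refine ⟨s.kk × (∀ j, allT (d.fam j)) × (∀ x, MvPowerSeries s.YVar (R x).O'), inferInstance,
    d.opRes.prod ((RingHom.pi d.opAct).prod (RingHom.pi fun x => (R x).opEval)), ?_, ?_, ?_⟩
  · refine le_antisymm (fun h hh => ?_) (fun h hh => ?_)
    · rw [RingHom.mem_ker] at hh
      have h1 : d.opRes h = 0 := congrArg Prod.fst hh
      have h2 : ∀ j, d.opAct j h = 0 := congrFun (congrArg (fun z => z.2.1) hh)
      have h3 : ∀ x, (R x).opEval h = 0 := congrFun (congrArg (fun z => z.2.2) hh)
      simp only [opKer, Ideal.mem_inf, Ideal.mem_iInf, RingHom.mem_ker]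
      exact ⟨⟨h1, h2⟩, fun i' P' R' => hR i' P' R' h h3⟩
    · rw [RingHom.mem_ker]
      exact Prod.ext (d.opKer_le_res hh)
        (Prod.ext (funext fun j => d.opKer_le_act j hh) (funext fun x => d.opKer_le_eval (R x) hh))
  · letI : Algebra (MvPowerSeries s.YVar s.O) s.kk := (d.opRes.comp d.baseMap).toAlgebra
    letI : ∀ j, Algebra (MvPowerSeries s.YVar s.O) (allT (d.fam j)) := fun j =>
      ((d.opAct j).comp d.baseMap).toAlgebra
    haveI := finite_coeff d
    haveI : ∀ j, Module.Finite (MvPowerSeries s.YVar s.O) (allT (d.fam j)) := fun j => by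
      haveI := finite_mPart (d.DQ_dvd j) (d.char (d.yval n)) (red n d)
        (fun ℓ : GoodIdx d.S => s.abar ℓ) (Coeff n d)
      haveI := finite_allT (d.fam j)
      haveI : Finite (allT (d.fam j)) := Module.finite_of_finite (Coeff n d)
      exact Module.Finite.of_finite
    haveI : Module.Finite (MvPowerSeries s.YVar s.O) s.kk := Module.Finite.of_finite
    haveI : ∀ x, Module.Finite (MvPowerSeries s.YVar s.O) (MvPowerSeries s.YVar (R x).O') :=
      fun x => finite_mvPowerSeries_of_finite
    have e : (d.opRes.prod ((RingHom.pi d.opAct).prod (RingHom.pi fun x => (R x).opEval))).comp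
        d.baseMap = algebraMap (MvPowerSeries s.YVar s.O)
          (s.kk × (∀ j, allT (d.fam j)) × (∀ x, MvPowerSeries s.YVar (R x).O')) :=
      RingHom.ext fun f => Prod.ext rfl (Prod.ext rfl
        (funext fun x => DFunLike.congr_fun (d.opEval_baseMap (R x)) f))
    rw [e, RingHom.finite_algebraMap]
    infer_instance
  · intro h hh
    obtain ⟨c, hc⟩ := residue_surjective (R := s.O) (d.opRes h)
    have hcu : IsUnit c := notMem_maximalIdeal.1 fun hm =>
      hh (hc ▸ (residue_eq_zero_iff c).2 hm)
    refine Prod.isUnit_iff.2 ⟨isUnit_iff_ne_zero.2 hh, Prod.isUnit_iff.2 ⟨?_, ?_⟩⟩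
    · refine Pi.isUnit_iff.2 fun j => isUnit_evT _ _ _ _ d.piCoef h ?_
      rwa [← d.opRes_eq]
    · refine Pi.isUnit_iff.2 fun x => ?_
      have h0 : d.opRes (h - d.baseMap (MvPowerSeries.C c)) = 0 := by
        rw [map_sub, ← RingHom.comp_apply, d.opRes_baseMap, RingHom.comp_apply, constantCoeff_C,
          hc, sub_self]
      have hu : IsUnit ((R x).opEval (d.baseMap (MvPowerSeries.C c))) :=
        ((hcu.map MvPowerSeries.C).map d.baseMap).map _
      have hm := (R x).opEval_mem h0
      rw [map_sub] at hm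
      by_contra hn
      exact (mem_maximalIdeal _).1
        ((Submodule.sub_mem_iff_right _ ((mem_maximalIdeal _).2 hn)).1 hm) hu

theorem isUnit_toImage {h : d.Ops} (hh : d.opRes h ≠ 0) : IsUnit (d.toImage h) := by
  obtain ⟨B, _, Φ, hker, hfin, hu⟩ := d.exists_finite_embedding
  haveI : IsLocalHom (d.imageLift Φ hker.ge) := by
    refine RingHom.IsIntegral.isLocalHom
      (RingHom.IsIntegral.tower_top (d.toImage.comp d.baseMap) _ ?_) (d.imageLift_injective Φ hker)
    rw [show (d.imageLift Φ hker.ge).comp (d.toImage.comp d.baseMap) = Φ.comp d.baseMap from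
      RingHom.ext fun f => d.imageLift_toImage Φ hker.ge _]
    exact hfin.to_isIntegral
  refine isUnit_of_map_unit (d.imageLift Φ hker.ge) _ ?_
  rw [d.imageLift_toImage]
  exact hu h hh

/-- The residual value on the image. -/
def imageRes : d.OpsImage →+* s.kk := d.imageLift d.opRes d.opKer_le_res

theorem mem_nonunits_opsImage {x : d.OpsImage} : x ∈ nonunits _ ↔ d.imageRes x = 0 := by
  obtain ⟨h, rfl⟩ := d.toImage_surjective x
  rw [mem_nonunits_iff, imageRes, d.imageLift_toImage]
  refine ⟨fun hx => by_contra fun hne => hx (d.isUnit_toImage hne), fun hx hu => ?_⟩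
  have h1 := hu.map (d.imageLift d.opRes d.opKer_le_res)
  rw [d.imageLift_toImage, hx] at h1
  exact not_isUnit_zero h1

instance isLocalRing_opsImage : IsLocalRing d.OpsImage := by
  haveI : Nontrivial d.OpsImage := d.imageRes.domain_nontrivial
  refine IsLocalRing.of_nonunits_add fun a b ha hb => ?_
  rw [mem_nonunits_opsImage] at ha hb ⊢
  rw [map_add, ha, hb, add_zero]

theorem toImage_mem_maximalIdeal {h : d.Ops} (hh : d.opRes h = 0) :
    d.toImage h ∈ maximalIdeal d.OpsImage :=
  d.mem_nonunits_opsImage.2 ((d.imageLift_toImage _ _ h).trans hh)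

instance isAdicComplete_opsImage : IsAdicComplete (maximalIdeal d.OpsImage) d.OpsImage := by
  obtain ⟨B, _, Φ, hker, hfin, -⟩ := d.exists_finite_embedding
  letI : Algebra (MvPowerSeries s.YVar s.O) d.OpsImage := (d.toImage.comp d.baseMap).toAlgebra
  letI : Algebra (MvPowerSeries s.YVar s.O) B := (Φ.comp d.baseMap).toAlgebra
  haveI : Module.Finite (MvPowerSeries s.YVar s.O) B := hfin
  haveI : IsNoetherian (MvPowerSeries s.YVar s.O) B :=
    isNoetherian_of_isNoetherianRing_of_finite _ _
  let L : d.OpsImage →ₐ[MvPowerSeries s.YVar s.O] B :=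
    { toRingHom := d.imageLift Φ hker.ge
      commutes' := fun f => d.imageLift_toImage Φ hker.ge _ }
  haveI : Module.Finite (MvPowerSeries s.YVar s.O) d.OpsImage :=
    Module.Finite.of_injective L.toLinearMap (d.imageLift_injective Φ hker)
  exact isAdicComplete_of_finite_local (O := MvPowerSeries s.YVar s.O)

/-- The action of the image. -/
def imageAct (i : Fin (s.K + 1)) : d.OpsImage →+* allT (d.fam i) :=
  d.imageLift (d.opAct i) (d.opKer_le_act i)

/-- The value of the image at a point. -/
def imageEval {i : Fin (s.K + 1)} {P : d.Pt i} (R : FRep P) :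
    d.OpsImage →ₐ[s.O] MvPowerSeries s.YVar R.O' :=
  { toRingHom := d.imageLift R.opEval (d.opKer_le_eval R)
    commutes' := fun c => by
      show d.imageLift R.opEval _ (d.toImage (algebraMap s.O d.Ops c)) = _
      rw [d.imageLift_toImage, MvPolynomial.algebraMap_apply, FRep.opEval, MvPolynomial.eval₂Hom_C,
        MvPowerSeries.algebraMap_apply, MvPowerSeries.map_C, MvPowerSeries.algebraMap_apply]
      exact congrArg _ ((Univ.eval R.u R.hu : d.UC →ₐ[s.O] R.O').commutes c) }

theorem imageEval_toImage {i : Fin (s.K + 1)} {P : d.Pt i} (R : FRep P) (h : d.Ops) :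
    d.imageEval R (d.toImage h) = R.opEval h :=
  d.imageLift_toImage _ _ h

theorem imageAct_toImage (i : Fin (s.K + 1)) (h : d.Ops) :
    d.imageAct i (d.toImage h) = d.opAct i h :=
  d.imageLift_toImage _ _ h

end FAux

namespace FCoords

variable {d : FAux s r n} (C : FCoords d)

/-- The values of series in the image of the operators. -/
def opsEval : (s.shape r).Big s.O →ₐ[s.O] d.OpsImage :=
  Deform.pev (maximalIdeal d.OpsImage) (fun v => d.toImage (C.op v))
    fun v => d.toImage_mem_maximalIdeal (C.op_mem v)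

theorem opsEval_X (v : (s.shape r).Var) : C.opsEval (X v) = d.toImage (C.op v) :=
  Deform.pev_X _ _ _ v

/-- The action of the big ring. -/
def actT (i : Fin (s.K + 1)) : (s.shape r).Big s.O →+* allT (d.fam i) :=
  (d.imageAct i).comp C.opsEval.toRingHom

theorem actT_C (i : Fin (s.K + 1)) (c : s.O) :
    C.actT i (MvPowerSeries.C c) =
      algebraMap (FAux.Coeff n d) _ (Ideal.Quotient.mk _ (MvPowerSeries.C c)) := by
  have h : C.opsEval (MvPowerSeries.C c) = d.toImage (algebraMap s.O d.Ops c) :=
    C.opsEval.commutes c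
  show d.imageAct i (C.opsEval (MvPowerSeries.C c)) = _
  rw [h, d.imageAct_toImage, FAux.opAct, MvPolynomial.algebraMap_apply, evT_C,
    MvPowerSeries.algebraMap_apply, d.piCoef_C, AlgHom.commutes]
  rfl

theorem actT_gauge (i : Fin (s.K + 1)) (v : s.YVar) :
    C.actT i (X (Sum.inr (Sum.inr (Sum.inr (Sum.inr v))))) =
      algebraMap (FAux.Coeff n d) _ (d.sVal v) := by
  show d.imageAct i (C.opsEval (X _)) = _
  rw [C.opsEval_X, d.imageAct_toImage, C.op_gauge, FAux.opAct, evT_C, d.piCoef_X]

/-- **Every series acts as an operator with the same values at all points.** -/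
theorem exists_op_eq (f : (s.shape r).Big s.O) :
    ∃ h : d.Ops, ∀ i, d.opAct i h = C.actT i f ∧
      ∀ (P : d.Pt i) (R : FRep P), R.opEval h = R.pe C.op C.op_mem f := by
  obtain ⟨h, hh⟩ := d.toImage_surjective (C.opsEval f)
  refine ⟨h, fun i => ⟨?_, fun P R => ?_⟩⟩
  · rw [← d.imageAct_toImage, hh]
    rfl
  · have e : (d.imageEval R).comp C.opsEval = R.pe C.op C.op_mem := by
      refine Deform.algHom_ext_of_X (maximalIdeal _) _ _ (fun v => ?_) fun v => ?_
      · rw [AlgHom.comp_apply, C.opsEval_X, d.imageEval_toImage]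
        exact R.opEval_mem (C.op_mem v)
      · rw [AlgHom.comp_apply, C.opsEval_X, d.imageEval_toImage, FRep.pe, Deform.pev_X]
    rw [← e, AlgHom.comp_apply, ← hh, d.imageEval_toImage]

end FCoords

end Fermat.Agent.Lifting
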