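import Fermat.Agent.Lifting.FPatchDeg
import Fermat.Agent.Lifting.FPatchImage
import Mathlib.LinearAlgebra.Matrix.ToLin

/-!
# Modularity lifting: coordinates give patching data

The assembly of the patching data of one level from the action of the operators, the action of the
big ring and the degeneracy maps.
-/

set_option autoImplicit false
set_option linter.style.haveILetI false

noncomputable section

namespace Fermat.Agent.Lifting

open IsLocalRing MvPowerSeries Module
open Fermat.Agent.Ribet.Avoid (Univ)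
open scoped IsMulCommutative

section Matrices

variable {R : Type*} [CommRing R] {M M' : Type*} [AddCommGroup M] [Module R M] [AddCommGroup M']
  [Module R M'] {ι κ : Type*} [Fintype ι] [DecidableEq ι] [Fintype κ] [DecidableEq κ]
  (b : Basis ι R M) (b' : Basis κ R M')

/-- A map of `M × M` given by four maps has a block matrix. -/
theorem toMatrix_four_blocks (A B C D : Module.End R M) (f : Module.End R (M × M))
    (hf : ∀ x y, f (x, y) = (A x + B y, C x + D y)) :
    LinearMap.toMatrix (b.prod b) (b.prod b) f =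
      Matrix.fromBlocks (LinearMap.toMatrix b b A) (LinearMap.toMatrix b b B)
        (LinearMap.toMatrix b b C) (LinearMap.toMatrix b b D) := by
  ext (i | i) (j | j) <;> simp [LinearMap.toMatrix_apply, hf]

theorem toMatrix_mul_blocks (g : M × M →ₗ[R] M') (A : Module.End R M) (A' : Module.End R M')
    (h : ∀ x y, g (A x, A y) = A' (g (x, y))) :
    LinearMap.toMatrix (b.prod b) b' g *
        Matrix.fromBlocks (LinearMap.toMatrix b b A) 0 0 (LinearMap.toMatrix b b A) =
      LinearMap.toMatrix b' b' A' * LinearMap.toMatrix (b.prod b) b' g := by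
  rw [← LinearMap.toMatrix_prodMap, ← LinearMap.toMatrix_comp, ← LinearMap.toMatrix_comp]
  exact congrArg _ (LinearMap.ext fun x => h x.1 x.2)

theorem blocks_mul_toMatrix (g : M' →ₗ[R] M × M) (A : Module.End R M) (A' : Module.End R M')
    (h : ∀ z, g (A' z) = (A (g z).1, A (g z).2)) :
    Matrix.fromBlocks (LinearMap.toMatrix b b A) 0 0 (LinearMap.toMatrix b b A) *
        LinearMap.toMatrix b' (b.prod b) g =
      LinearMap.toMatrix b' (b.prod b) g * LinearMap.toMatrix b' b' A' := by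
  rw [← LinearMap.toMatrix_prodMap, ← LinearMap.toMatrix_comp, ← LinearMap.toMatrix_comp]
  exact congrArg _ (LinearMap.ext fun z => (h z).symm)

theorem toMatrix_eq_wit_mul (g : M' →ₗ[R] M × M) (se : M × M →ₗ[R] M')
    (hse : g ∘ₗ se = LinearMap.id) (G : Module.End R M') (h : ∀ z, g z = 0 → G z = 0) :
    LinearMap.toMatrix b' b' G =
      LinearMap.toMatrix (b.prod b) b' (G ∘ₗ se) * LinearMap.toMatrix b' (b.prod b) g := by
  rw [← LinearMap.toMatrix_comp]
  refine congrArg _ (LinearMap.ext fun z => ?_)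
  have h' := h (z - se (g z)) (by
    rw [map_sub, ← LinearMap.comp_apply g se, hse, LinearMap.id_apply, sub_self])
  rw [map_sub, sub_eq_zero] at h'
  exact h'

theorem mulVec_repr_eq_zero (G : Module.End R M) (v : M) (h : G v = 0) :
    (LinearMap.toMatrix b b G).mulVec (fun c => b.repr v c) = 0 := by
  show (LinearMap.toMatrix b b G).mulVec ⇑(b.repr v) = 0
  rw [LinearMap.toMatrix_mulVec_repr, h, map_zero]
  rfl

theorem toMatrix_mul_blocks_of_eq (g : M × M →ₗ[R] M') {Am : Matrix ι ι R} {Am' : Matrix κ κ R}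
    {A : Module.End R M} {A' : Module.End R M'} (hA : Am = LinearMap.toMatrix b b A)
    (hA' : Am' = LinearMap.toMatrix b' b' A') (h : ∀ x y, g (A x, A y) = A' (g (x, y))) :
    LinearMap.toMatrix (b.prod b) b' g * Matrix.fromBlocks Am 0 0 Am =
      Am' * LinearMap.toMatrix (b.prod b) b' g := by
  subst hA hA'
  exact toMatrix_mul_blocks b b' g A A' h

theorem blocks_mul_toMatrix_of_eq (g : M' →ₗ[R] M × M) {Am : Matrix ι ι R} {Am' : Matrix κ κ R}
    {A : Module.End R M} {A' : Module.End R M'} (hA : Am = LinearMap.toMatrix b b A)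
    (hA' : Am' = LinearMap.toMatrix b' b' A') (h : ∀ z, g (A' z) = (A (g z).1, A (g z).2)) :
    Matrix.fromBlocks Am 0 0 Am * LinearMap.toMatrix b' (b.prod b) g =
      LinearMap.toMatrix b' (b.prod b) g * Am' := by
  subst hA hA'
  exact blocks_mul_toMatrix b b' g A A' h

theorem toMatrix_comp_four_blocks (g : M' →ₗ[R] M × M) (g' : M × M →ₗ[R] M')
    (A B C D : Module.End R M) (hf : ∀ x y, g (g' (x, y)) = (A x + B y, C x + D y)) :
    LinearMap.toMatrix b' (b.prod b) g * LinearMap.toMatrix (b.prod b) b' g' =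
      Matrix.fromBlocks (LinearMap.toMatrix b b A) (LinearMap.toMatrix b b B)
        (LinearMap.toMatrix b b C) (LinearMap.toMatrix b b D) := by
  rw [← LinearMap.toMatrix_comp]
  exact toMatrix_four_blocks b A B C D _ hf

end Matrices

section OpFam

variable {R : Type} [CommRing R] {M : Type} [AddCommGroup M] [Module R M] {o : OpFam R M}
  {ι : Type} [Fintype ι] [DecidableEq ι] (b : Basis ι R M)

/-- The matrices of the operators of a family in a basis. -/
def famMat : allT o →ₐ[R] Matrix ι ι R :=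
  (LinearMap.toMatrixAlgEquiv b).toAlgHom.comp (allT o).val

theorem famMat_apply (z : allT o) :
    famMat b z = LinearMap.toMatrix b b (z : Module.End R M) := rfl

theorem commute_famMat (x y : allT o) : Commute (famMat b x) (famMat b y) :=
  (Commute.all x y).map (famMat b)

variable {P : Type} [CommRing P] (f : P →+* allT o) {m : ℕ}

theorem famMat_pow_eq_zero (x : P) (h : f x ^ m = 0) : famMat b (f x) ^ m = 0 := by
  rw [← map_pow, h, map_zero]

theorem famMat_quad_pow_eq_zero (Y x : P) (c : R) (hY : f Y = algebraMap R (allT o) c)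
    (h : f (Y ^ 2 - x * Y + 1) ^ m = 0) :
    ((algebraMap R (Matrix ι ι R) c) ^ 2 - famMat b (f x) * algebraMap R (Matrix ι ι R) c + 1) ^ m
      = 0 := by
  have h' := congrArg (famMat b) h
  simp only [map_pow, map_add, map_sub, map_mul, map_one, map_zero, hY, AlgHom.commutes] at h'
  exact h'

theorem famMat_mul_pow_eq_zero (x y z : P) (h : f ((x - y) * z) ^ m = 0) :
    ((famMat b (f x) - famMat b (f y)) * famMat b (f z)) ^ m = 0 := by
  have h' := congrArg (famMat b) h
  simp only [map_pow, map_sub, map_mul, map_zero] at h'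
  exact h'

theorem famMat_det_pow_eq_zero (c : R) (B z : allT o)
    (h : (algebraMap R (allT o) (c ^ 2) - B ^ 2 - z) ^ m = 0) :
    (famMat b (algebraMap R (allT o) c) * famMat b (algebraMap R (allT o) c) -
      famMat b B * famMat b B - famMat b z) ^ m = 0 := by
  have h' := congrArg (famMat b) h
  simp only [map_pow, sq, map_sub, map_mul, map_zero] at h'
  exact h'

theorem famMat_mul_pow_eq_zero_of_eq {A B G : Matrix ι ι R} {x y z : P}
    (hA : A = famMat b (f x)) (hB : B = famMat b (f y)) (hG : G = famMat b (f z))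
    (h : f ((x - y) * z) ^ m = 0) : ((A - B) * G) ^ m = 0 := by
  subst hA hB hG
  exact famMat_mul_pow_eq_zero b f x y z h

theorem famMat_pow_mulVec {A : Matrix ι ι R} {z : allT o} (hA : A = famMat b z) (v : M)
    (h : (z ^ m).1 v = 0) : (A ^ m).mulVec (fun c => b.repr v c) = 0 := by
  subst hA
  rw [← map_pow, famMat_apply]
  exact mulVec_repr_eq_zero b _ v h

theorem famMat_pow_eq_wit_mul {κ : Type} [Fintype κ] [DecidableEq κ] {N : Type} [AddCommGroup N]
    [Module R N] (c : Basis κ R N) {A : Matrix ι ι R} {z : allT o} (hA : A = famMat b z)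
    (g : M →ₗ[R] N × N) (se : N × N →ₗ[R] M) (hse : g ∘ₗ se = LinearMap.id)
    (h : ∀ w, g w = 0 → (z ^ m).1 w = 0) :
    A ^ m = LinearMap.toMatrix (c.prod c) b ((z ^ m).1 ∘ₗ se) *
      LinearMap.toMatrix b (c.prod c) g := by
  subst hA
  rw [← map_pow, famMat_apply]
  exact toMatrix_eq_wit_mul c b g se hse _ h

theorem famMat_det_pow_eq_zero_of_eq {A : Matrix ι ι R} (c : R) {B z : allT o}
    (hA : A = famMat b z)
    (h : (algebraMap R (allT o) (c ^ 2) - B ^ 2 - z) ^ m = 0) :
    (famMat b (algebraMap R (allT o) c) * famMat b (algebraMap R (allT o) c) -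
      famMat b B * famMat b B - A) ^ m = 0 := by
  subst hA
  exact famMat_det_pow_eq_zero b c B z h

theorem famMat_comp_eq_blocks {N : Type} [AddCommGroup N] [Module R N] {κ : Type} [Fintype κ]
    [DecidableEq κ] (c' : Basis κ R N) (g : N →ₗ[R] M × M) (g' : M × M →ₗ[R] N) (c : R) (q : ℕ)
    (hf : ∀ x y, g (g' (x, y)) = (c • x + o.op q y, o.op q x + c • y)) :
    LinearMap.toMatrix c' (b.prod b) g * LinearMap.toMatrix (b.prod b) c' g' =
      Matrix.fromBlocks (famMat b (algebraMap R (allT o) c)) (famMat b (allTEl o q))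
        (famMat b (allTEl o q)) (famMat b (algebraMap R (allT o) c)) := by
  refine toMatrix_comp_four_blocks b c' g g' _ _ _ _ fun x y => ?_
  exact hf x y

end OpFam

variable {s : FSetup} {r n : ℕ}

namespace FAux

variable {d : FAux s r n}

theorem levQ_succ_eq (a : Fin s.K) : d.levQ a.succ = d.levQ a.castSucc * s.q a := by
  rw [levQ, levQ, s.lev_succ]
  ring

theorem q_not_dvd_levQ_castSucc (a : Fin s.K) : ¬ s.q a ∣ d.levQ a.castSucc := by
  intro h
  rcases (s.hq a).1.dvd_mul.mp h with h | h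
  · exact s.q_not_dvd_lev a h
  · obtain ⟨j, -, hj⟩ := (Prime.dvd_finsetProd_iff (s.hq a).1.prime _).mp h
    exact d.notMem j ((Nat.prime_dvd_prime_iff_eq (s.hq a).1 (d.prime j)).mp hj ▸ s.q_mem_S0 a)

variable (d) in
/-- The degeneracy maps at the `a`th place. -/
theorem nonempty_degen (a : Fin s.K) :
    Nonempty (d.Degen a.succ (d.DQ_dvd a.castSucc) (s.q a)) :=
  haveI : Fact (s.q a).Prime := ⟨(s.hq a).1⟩
  d.exists_degen a.succ (d.DQ_dvd a.castSucc) (d.levQ_succ_eq a) (d.q_not_dvd_levQ_castSucc a)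
    (Finset.mem_union_left _ (s.q_mem_S0 a)) (s.elliptic3 (d.dvd_levQ_level a.castSucc))

theorem opAct_gen (i : Fin (s.K + 1)) (j : Fin r) :
    d.opAct i (MvPolynomial.C (MvPowerSeries.C (Univ.gen j : d.UC))) =
      algebraMap (Coeff n d) (allT (d.fam i)) (d.yval n j) := by
  exact (evT_C _ _ _ _).trans (congrArg _ ((d.piCoef_C _).trans (d.piUC_gen j)))

theorem opEval_gen {i : Fin (s.K + 1)} {P : d.Pt i} (R : FRep P) (j : Fin r) :
    R.opEval (MvPolynomial.C (MvPowerSeries.C (Univ.gen j : d.UC))) =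
      MvPowerSeries.C (R.u j) := by
  haveI : Fact (1 < s.p ^ (n + 1)) := ⟨Nat.one_lt_pow n.succ_ne_zero s.hp.out.one_lt⟩
  rw [FRep.opEval, MvPolynomial.eval₂Hom_C, MvPowerSeries.map_C]
  exact congrArg _ (Univ.eval_gen R.u R.hu j)

end FAux

namespace FCoords

variable {d : FAux s r n} (C : FCoords d) {i : Fin (s.K + 1)} {k : ℕ}
  (b : Basis (Fin k) (FAux.Coeff n d) (d.Mod i))

/-- The action of the big ring in matrices. -/
def actMat : (s.shape r).Big s.O →ₐ[s.O] Matrix (Fin k) (Fin k) (FAux.Coeff n d) where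
  __ := (famMat b).toRingHom.comp (C.actT i)
  commutes' c := by
    change famMat b (C.actT i (MvPowerSeries.C c)) = _
    rw [C.actT_C, AlgHom.commutes]
    rfl

theorem actMat_apply (f : (s.shape r).Big s.O) : C.actMat b f = famMat b (C.actT i f) := rfl

variable {m : ℕ} (hm : finrank (FAux.Coeff n d) (d.Mod i) ≤ m)

include hm

/-- A series vanishing at all points acts nilpotently. -/
theorem actMat_pow_eq_zero (f : (s.shape r).Big s.O)
    (hf : ∀ (P : d.Pt i) (R : FRep P), R.pe C.op C.op_mem f = 0) : C.actMat b f ^ m = 0 := by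
  obtain ⟨h, hh⟩ := C.exists_op_eq f
  rw [C.actMat_apply, ← (hh i).1]
  exact famMat_pow_eq_zero b (d.opAct i) h
    (d.opAct_pow_eq_zero i h (fun P R => ((hh i).2 P R).trans (hf P R)) hm)

theorem diamond_pow_eq_zero (j : Fin r) :
    let y : Matrix (Fin k) (Fin k) (FAux.Coeff n d) :=
      algebraMap (FAux.Coeff n d) _ (d.yval n j)
    (y ^ 2 - C.actMat b (2 + X (Sum.inr (Sum.inr (Sum.inr (Sum.inl j))))) * y + 1) ^ m = 0 := by
  intro y
  obtain ⟨h, hh⟩ := C.exists_op_eq (2 + X (Sum.inr (Sum.inr (Sum.inr (Sum.inl j)))))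
  rw [C.actMat_apply, ← (hh i).1]
  refine famMat_quad_pow_eq_zero b (d.opAct i) _ h _ (FAux.opAct_gen i j)
    (d.opAct_pow_eq_zero i _ (fun P R => ?_) hm)
  rw [map_add, map_sub, map_mul, map_pow, map_one, (hh i).2 P R, FAux.opEval_gen]
  exact C.diamond_rel i P R j

omit hm in
theorem gauge_pow_eq_zero (w : s.YVar) (hm0 : m ≠ 0) :
    (C.actMat b (X (Sum.inr (Sum.inr (Sum.inr (Sum.inr w))))) -
      algebraMap (FAux.Coeff n d) _ (d.sVal w)) ^ m = 0 := by
  rw [C.actMat_apply, C.actT_gauge, AlgHom.commutes, sub_self, zero_pow hm0]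

theorem trace_pow_eq_zero (ℓ : GoodIdx d.S) {g : (s.shape r).Big s.O}
    (hg : g ∈ C.worlds.othGen) :
    ((C.actMat b (C.trace ℓ) - famMat b (allTEl (d.fam i) (ℓ : ℕ))) * C.actMat b g) ^ m
      = 0 := by
  obtain ⟨h₁, hh₁⟩ := C.exists_op_eq (C.trace ℓ)
  obtain ⟨h₂, hh₂⟩ := C.exists_op_eq g
  have hX : d.opAct i (MvPolynomial.X ℓ) = allTEl (d.fam i) (ℓ : ℕ) := evT_X _ _ _ _
  refine famMat_mul_pow_eq_zero_of_eq b (d.opAct i)
    (congrArg (famMat b) (hh₁ i).1.symm) (congrArg (famMat b) hX.symm)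
    (congrArg (famMat b) (hh₂ i).1.symm) (d.opAct_pow_eq_zero i _ (fun P R => ?_) hm)
  have hE' : R.opEval (MvPolynomial.X ℓ) = MvPowerSeries.C (R.a ℓ) :=
    MvPolynomial.eval₂Hom_X' _ _ _
  have h3 := C.trace_rel i P R ℓ g hg
  rw [map_mul] at h3
  rw [map_mul, map_sub, (hh₁ i).2 P R, (hh₂ i).2 P R, hE', sub_mul, h3, sub_self]

end FCoords

namespace FCoords

variable {d : FAux s r n} (C : FCoords d)

theorem base_pow_mulVec {k : ℕ} (b : Basis (Fin k) (FAux.Coeff n d) (d.Mod 0)) {v : d.Mod 0}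
    {m : ℕ} (hm : finrank (FAux.Coeff n d) (d.Mod 0) ≤ m)
    (hv : ∀ (h : d.Ops), (∀ (P : d.Pt 0) (R : FRep P), (¬ s.p ∣ s.N ∨ P.NewAt s.p) →
        R.opEval h = 0) → ∀ m : ℕ, finrank (FAux.Coeff n d) (d.Mod 0) ≤ m →
      (d.opAct 0 h ^ m).1 v = 0) (w : (s.shape r).DVar) :
    (C.actMat b (C.worlds.mainGen w) ^ m).mulVec (fun c => b.repr v c) = 0 := by
  obtain ⟨h, hh⟩ := C.exists_op_eq (C.worlds.mainGen w)
  exact famMat_pow_mulVec b (congrArg (famMat b) (hh 0).1.symm) v
    (hv h (fun P R hP => ((hh 0).2 P R).trans (C.main_rel 0 P R hP w)) m hm)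

variable (a : Fin s.K) (D : d.Degen a.succ (d.DQ_dvd a.castSucc) (s.q a)) {k k' : ℕ}
  (b : Basis (Fin k) (FAux.Coeff n d) (d.Mod a.castSucc))
  (b' : Basis (Fin k') (FAux.Coeff n d) (d.Mod a.succ))

theorem deg_mul_blocks (f : (s.shape r).Big s.O) :
    LinearMap.toMatrix (b.prod b) b' D.deg *
        Matrix.fromBlocks (C.actMat b f) 0 0 (C.actMat b f) =
      C.actMat b' f * LinearMap.toMatrix (b.prod b) b' D.deg := by
  obtain ⟨h, hh⟩ := C.exists_op_eq f
  exact toMatrix_mul_blocks_of_eq b b' D.deg (congrArg (famMat b) (hh a.castSucc).1.symm)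
    (congrArg (famMat b') (hh a.succ).1.symm) (D.deg_op h)

theorem blocks_mul_tra (f : (s.shape r).Big s.O) :
    Matrix.fromBlocks (C.actMat b f) 0 0 (C.actMat b f) *
        LinearMap.toMatrix b' (b.prod b) D.tra =
      LinearMap.toMatrix b' (b.prod b) D.tra * C.actMat b' f := by
  obtain ⟨h, hh⟩ := C.exists_op_eq f
  exact blocks_mul_toMatrix_of_eq b b' D.tra (congrArg (famMat b) (hh a.castSucc).1.symm)
    (congrArg (famMat b') (hh a.succ).1.symm) (D.tra_op h)

theorem disc_eq_wit_mul {m : ℕ} (hm : finrank (FAux.Coeff n d) (d.Mod a.succ) ≤ m) :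
    C.actMat b' ((s.places r).disc a) ^ m =
      LinearMap.toMatrix (b.prod b) b'
          ((C.actT a.succ ((s.places r).disc a) ^ m).1 ∘ₗ D.sect) *
        LinearMap.toMatrix b' (b.prod b) D.tra := by
  obtain ⟨h, hh⟩ := C.exists_op_eq ((s.places r).disc a)
  refine famMat_pow_eq_wit_mul b' b (C.actMat_apply b' _) D.tra D.sect D.tra_sect fun z hz => ?_
  rw [← (hh a.succ).1]
  exact D.kernel m hm h
    (fun P R hP => ((hh a.succ).2 P R).trans (C.disc_new a.succ P R a (by simp) hP)) z hz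

theorem exists_comp_det {m : ℕ} (hm : finrank (FAux.Coeff n d) (d.Mod a.castSucc) ≤ m) :
    ∃ a' b₁ c' d' : Matrix (Fin k) (Fin k) (FAux.Coeff n d),
      LinearMap.toMatrix b' (b.prod b) D.tra * LinearMap.toMatrix (b.prod b) b' D.deg =
        Matrix.fromBlocks a' b₁ c' d' ∧
      Commute a' b₁ ∧ Commute a' c' ∧ Commute a' d' ∧ Commute b₁ c' ∧ Commute b₁ d' ∧
      Commute c' d' ∧
      (∀ f, Commute (C.actMat b f) a' ∧ Commute (C.actMat b f) b₁ ∧
        Commute (C.actMat b f) c' ∧ Commute (C.actMat b f) d') ∧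
      (a' * d' - b₁ * c' - C.actMat b ((s.places r).disc a)) ^ m = 0 := by
  refine ⟨famMat b (algebraMap (FAux.Coeff n d) (allT (d.fam a.castSucc))
      ((s.q a : FAux.Coeff n d) + 1)),
    famMat b (allTEl (d.fam a.castSucc) (s.q a)), famMat b (allTEl (d.fam a.castSucc) (s.q a)),
    famMat b (algebraMap (FAux.Coeff n d) (allT (d.fam a.castSucc))
      ((s.q a : FAux.Coeff n d) + 1)),
    famMat_comp_eq_blocks b b' D.tra D.deg _ (s.q a) D.tra_deg,
    commute_famMat b _ _, commute_famMat b _ _, commute_famMat b _ _,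
    commute_famMat b _ _, commute_famMat b _ _, commute_famMat b _ _,
    fun f => ⟨commute_famMat b _ _, commute_famMat b _ _, commute_famMat b _ _,
      commute_famMat b _ _⟩, ?_⟩
  · obtain ⟨hd', hhd⟩ := C.exists_op_eq ((s.places r).disc a)
    exact famMat_det_pow_eq_zero_of_eq b ((s.q a : FAux.Coeff n d) + 1)
      (congrArg (famMat b) (hhd a.castSucc).1.symm)
      (d.disc_old_pow a hd' (fun P R c hc =>
        ((hhd a.castSucc).2 P R).trans (C.disc_old a P R c hc)) hm)

end FCoords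

/-- **Coordinates give patching data.** -/
theorem nonempty_patchLevel_of_coords {s : FSetup} {r n : ℕ} (RK : FRanks s r)
    (T : Finset (GoodIdx s.S0)) (d : FAux s r n) (hd : ∀ j, d.Q j ∉ RK.avoidT T)
    (C : FCoords d) : Nonempty (PatchLevel (RK.fixed T) (n + 1)) := by
  classical
  have hav : ∀ j, d.Q j ∉ RK.avoid := fun j h => hd j (Finset.mem_union_left _ h)
  have hT : ∀ ℓ : {ℓ : GoodIdx s.S0 // ℓ ∈ T}, (ℓ.1 : ℕ) ∉ d.S := fun ℓ h => by
    rcases Finset.mem_union.mp h with h | h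
    · exact ℓ.1.2.2 h
    · obtain ⟨j, -, hj⟩ := Finset.mem_image.mp h
      exact hd j (Finset.mem_union_right _ (Finset.mem_map.mpr ⟨ℓ.1, ℓ.2, hj.symm⟩))
  obtain ⟨bL, hbL⟩ := RK.bottom n d hav
  haveI : ∀ i, Module.Free (FAux.Coeff n d) (d.Mod i) := fun i => (RK.rank_eq n d hav i).1
  haveI : ∀ i, Module.Finite (FAux.Coeff n d) (d.Mod i) := fun i => (RK.rank_eq n d hav i).2.1
  obtain ⟨b, hblast⟩ : ∃ b : ∀ i, Basis (Fin (RK.rk i)) (FAux.Coeff n d) (d.Mod i),
      b (Fin.last s.K) = bL :=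
    ⟨Fin.lastCases bL fun i => Module.finBasisOfFinrankEq _ _ (RK.rank_eq n d hav i.castSucc).2.2,
      Fin.lastCases_last⟩
  have hE : ∀ i, finrank (FAux.Coeff n d) (d.Mod i) ≤ (∑ i, RK.rk i) + 1 := fun i => by
    rw [(RK.rank_eq n d hav i).2.2]
    exact (Finset.single_le_sum (fun j _ => Nat.zero_le (RK.rk j)) (Finset.mem_univ i)).trans
      (Nat.le_succ _)
  have hpos : 0 < finrank (FAux.Coeff n d) (d.Mod 0) :=
    (RK.rank_eq n d hav 0).2.2.symm ▸ RK.rk_pos 0
  obtain ⟨D⟩ : Nonempty (∀ a : Fin s.K, d.Degen a.succ (d.DQ_dvd a.castSucc) (s.q a)) :=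
    Classical.nonempty_pi.2 d.nonempty_degen
  obtain ⟨v, hv, hvrel⟩ := d.exists_base hpos
  refine ⟨{
    worlds := C.worlds
    wGlob := C.wGlob
    trace := fun ℓ => C.trace ⟨ℓ.1, ℓ.1.2.1, hT ℓ⟩
    act := fun i => C.actMat (b i)
    hecke := fun ℓ => famMat (b (Fin.last s.K)) (allTEl (d.fam (Fin.last s.K)) (ℓ.1 : ℕ))
    deg := fun a => LinearMap.toMatrix ((b a.castSucc).prod (b a.castSucc)) (b a.succ) (D a).deg
    tra := fun a => LinearMap.toMatrix (b a.succ) ((b a.castSucc).prod (b a.castSucc)) (D a).tra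
    retr := fun a => LinearMap.toMatrix (b a.succ) ((b a.castSucc).prod (b a.castSucc)) (D a).retr
    sect := fun a => LinearMap.toMatrix ((b a.castSucc).prod (b a.castSucc)) (b a.succ) (D a).sect
    wit := fun a => LinearMap.toMatrix ((b a.castSucc).prod (b a.castSucc)) (b a.succ)
      ((C.actT a.succ ((s.places r).disc a) ^ ((∑ i, RK.rk i) + 1)).1 ∘ₗ (D a).sect)
    base := fun c => (b 0).repr v c
    base_unit := exists_isUnit_repr (b 0) hv
    base_rel := fun w => C.base_pow_mulVec (b 0) (hE 0) hvrel w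
    retr_deg := fun a => ((LinearMap.toMatrix_comp _ _ _ _ _).symm.trans
      (congrArg _ (D a).retr_deg)).trans (LinearMap.toMatrix_id _)
    tra_sect := fun a => ((LinearMap.toMatrix_comp _ _ _ _ _).symm.trans
      (congrArg _ (D a).tra_sect)).trans (LinearMap.toMatrix_id _)
    deg_act := fun a f => C.deg_mul_blocks a (D a) (b _) (b _) f
    tra_act := fun a f => C.blocks_mul_tra a (D a) (b _) (b _) f
    comp_det := fun a => C.exists_comp_det a (D a) (b _) (b _) (hE _)
    disc_kernel := fun a => C.disc_eq_wit_mul a (D a) (b _) (b _) (hE _)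
    local_rel := fun i a f hf => C.actMat_pow_eq_zero (b i) (hE i) f fun P R =>
      C.local_rel i P R a f hf
    unr_rel := fun i a hia f hf => C.actMat_pow_eq_zero (b i) (hE i) f fun P R =>
      C.unr_rel i P R a hia f hf
    world_rel := fun i w g hg => C.actMat_pow_eq_zero (b i) (hE i) _ fun P R =>
      C.world_rel i P R w g hg
    diamond_rel := fun i j => C.diamond_pow_eq_zero (b i) (hE i) j
    gauge_rel := fun i w => C.gauge_pow_eq_zero (b i) w (Nat.succ_ne_zero _)
    hecke_comm := fun l l' => commute_famMat (b (Fin.last s.K)) _ _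
    hecke_act := fun l f => commute_famMat (b (Fin.last s.K)) _ _
    trace_rel := fun l g hg => C.trace_pow_eq_zero (b (Fin.last s.K)) (hE _)
      ⟨l.1, l.1.2.1, hT l⟩ hg
    hecke_aug := fun l x y => ?_
    wGlob_mem := C.wGlob_mem
    wPoint := fun hm _ => ?_ }⟩
  · obtain ⟨t, ht, ht'⟩ := hbL l.1 (hT l) x y
    refine ⟨t, ?_, ht'⟩
    rw [ht, ← hblast]
    rfl
  · obtain ⟨h1, h2⟩ := C.wPoint hm
    refine ⟨fun j => Eq.subst (motive := fun z => z ∈ _) (h1 j).symm (Submodule.zero_mem _),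
      fun l => ?_⟩
    obtain ⟨f, hf, hf'⟩ := h2 ⟨l.1, l.1.2.1, hT l⟩
    exact ⟨f, hf, Eq.subst (motive := fun z => z ∈ _) (sub_eq_zero.2 hf').symm
      (Submodule.zero_mem _)⟩

end Fermat.Agent.Lifting
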