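import Fermat.Agent.Lifting.FRanks
import Fermat.Agent.Lifting.FPatchLevel
import Fermat.Agent.Lifting.APatchMain

/-!
# Modularity lifting: the eigensystem of the target occurs at the raised level
-/

set_option autoImplicit false

noncomputable section

namespace Fermat.Agent.Lifting

open IsLocalRing
open Fermat.Agent.Ribet.Twisted (HasSystem)

/-- **The target occurs** in the cohomology of the level `N * aux * ∏ q`. -/
theorem hasSystem_of_setup (s : FSetup) :
    ∃ a : ℕ → s.Kbar, (∀ ℓ : GoodIdx s.S0, a ℓ = algebraMap s.O s.Kbar (s.aW ℓ)) ∧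
      HasSystem (one_dvd (s.lev (Fin.last s.K))) (1 : DirichletCharacter s.Kbar 1) s.S0 a := by
  obtain ⟨r, hr, hd⟩ := exists_fAux s
  obtain ⟨RK⟩ := exists_fRanks_aux s r
  refine RK.system (fun ℓ => s.aW ℓ) fun T => ?_
  obtain ⟨v, hv, heig⟩ := exists_eigenvector_of_patchData (O := s.O) s.hp.out s.hp2 s.hpO
    (RK.fixed T) (RK.valid hr T) fun n => by
      match n with
      | 0 => exact nonempty_patchLevel_zero (RK.fixed T) RK.rk_pos
      | m + 1 =>
        obtain ⟨d, hav, hb⟩ := hd m (RK.avoidT T)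
        obtain ⟨C⟩ := exists_fCoords d hb hr
        exact nonempty_patchLevel_of_coords RK T d hav C
  exact ⟨v, hv, fun ℓ hℓ => heig ⟨ℓ, hℓ⟩⟩

end Fermat.Agent.Lifting
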