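/-
Generators over complete coefficients of the part at a residual system, uniform killers and
nilpotency on the components in characteristic zero.
-/
import Fermat.Agent.Lifting.CRaise
import Fermat.Agent.Ribet.Avoid.ModuleNilpotent
import Fermat.Prelude.Thm_IsLocalRing_isAdicComplete_of_module_finite

set_option autoImplicit false

noncomputable section

namespace Fermat.Agent.Lifting

open IsLocalRing
open Fermat.Agent.Ribet.Twisted (CohL heckeT')
open Fermat.Agent.Ribet.Avoid (residualIdeal evalSystem IsCongruent)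

section Translate

variable {A : Type} [CommRing A] {L D : ℕ} [NeZero L] (hD : D ∣ L) (ψ : DirichletCharacter A D)
  (M : Type*) [AddCommGroup M] [Module A M] (S : Finset ℕ)

theorem avoidAct_eq_cohAct : Ribet.Avoid.act hD ψ M S = cohAct hD ψ S M :=
  MvPolynomial.algHom_ext fun ℓ => (Ribet.Avoid.act_X hD ψ M S ℓ).trans (cohAct_X hD ψ S M ℓ).symm

variable {k : Type} [Field k] (κ : A →+* k) (abar : ℕ → k)

theorem notMem_residualIdeal_iff (t : MvPolynomial (GoodIdx S) A) :
    t ∉ residualIdeal κ abar S ↔ sysEval κ (fun ℓ : GoodIdx S => abar ℓ) t ≠ 0 := Iff.rfl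

theorem avoidLocKer_eq_cohKer :
    Ribet.Avoid.locKer hD ψ M S (residualIdeal κ abar S)
      = cohKer hD ψ κ (fun ℓ : GoodIdx S => abar ℓ) M := by
  ext x
  rw [Ribet.Avoid.mem_locKer]
  simp only [avoidAct_eq_cohAct]
  rfl

end Translate

theorem Elliptic3.ellipticOK {A : Type} [CommRing A] {L : ℕ} (h : Elliptic3 A L) :
    Ribet.Avoid.EllipticOK A L :=
  h.imp id fun ⟨x, hx, hxL, h3⟩ => ⟨x, h3, hx, hxL⟩

/-- A finite local algebra over a complete noetherian local ring is complete. -/
theorem isAdicComplete_of_finite_local {O A : Type} [CommRing O] [IsNoetherianRing O]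
    [IsLocalRing O] [IsAdicComplete (maximalIdeal O) O] [CommRing A] [IsLocalRing A] [Algebra O A]
    [Module.Finite O A] : IsAdicComplete (maximalIdeal A) A := by
  haveI : Algebra.IsIntegral O A := Algebra.IsIntegral.of_finite O A
  haveI : IsLocalHom (algebraMap O A) := by
    have h := IsLocalRing.eq_maximalIdeal
      (Ideal.isMaximal_comap_of_isIntegral_of_isMaximal (R := O) (maximalIdeal A))
    refine ⟨fun c hc => ?_⟩
    by_contra hc'
    have : c ∈ (maximalIdeal A).comap (algebraMap O A) := h ▸ (mem_maximalIdeal c).mpr hc'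
    exact (mem_maximalIdeal _).mp this hc
  exact IsLocalRing.isAdicComplete_of_module_finite (𝒪 := O)

variable {A : Type} [CommRing A] {L D : ℕ} [NeZero L] (hD : D ∣ L) (ψ : DirichletCharacter A D)
  {S : Finset ℕ} {k : Type} [Field k] (abar : ℕ → k)

section Span

variable {R : Type} [CommRing R] (π : A →+* R) (res : R →+* k)

/-- Images of generators span after any change of coefficients. -/
theorem top_le_span_mapPart (h2 : IsUnit (2 : A)) (h3 : Elliptic3 A L) {ι : Type*}
    (e : ι → MPart hD ψ (res.comp π) (fun ℓ : GoodIdx S => abar ℓ) A)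
    (he : Submodule.span A (Set.range e) = ⊤) :
    ⊤ ≤ Submodule.span R (Set.range fun i =>
      mapPart hD ψ (res.comp π) (fun ℓ : GoodIdx S => abar ℓ) π res rfl (e i)) := by
  set g := mapPart hD ψ (res.comp π) (fun ℓ : GoodIdx S => abar ℓ) π res rfl with hg
  intro y _
  obtain ⟨y, rfl⟩ := toPart_surjective _ _ _ _ _ y
  obtain ⟨n, c, z, rfl⟩ :=
    Ribet.Avoid.exists_sum_smul_redMap hD ψ π h2 h3.ellipticOK y
  rw [map_sum]
  refine sum_mem fun i _ => ?_
  rw [map_smul]
  refine Submodule.smul_mem _ _ ?_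
  show g (toPart hD ψ _ _ A (z i)) ∈ _
  have hz : toPart hD ψ (res.comp π) (fun ℓ : GoodIdx S => abar ℓ) A (z i) ∈
      Submodule.span A (Set.range e) := he ▸ Submodule.mem_top
  generalize toPart hD ψ (res.comp π) (fun ℓ : GoodIdx S => abar ℓ) A (z i) = w₀ at hz ⊢
  induction hz using Submodule.span_induction with
  | mem w hw =>
    obtain ⟨j, rfl⟩ := hw
    exact Submodule.subset_span ⟨j, rfl⟩
  | zero => rw [map_zero]; exact zero_mem _
  | add u w _ _ hu hw => rw [map_add]; exact add_mem hu hw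
  | smul r w _ hw => rw [LinearMap.map_smulₛₗ]; exact Submodule.smul_mem _ _ hw

end Span

/-- The residual rank is at most the rank over an Artinian ring. -/
theorem finrank_mPart_residue_le {R : Type} [CommRing R] [IsLocalRing R] [IsArtinianRing R]
    (ψR : DirichletCharacter R D) (res : R →+* k) (h2 : IsUnit (2 : R))
    (h3 : Elliptic3 R L) (ha : NonEis L S fun ℓ : GoodIdx S => abar ℓ) :
    Module.finrank k (MPart hD (ψR.ringHomComp res) (RingHom.id k)
        (fun ℓ : GoodIdx S => abar ℓ) k)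
      ≤ Module.finrank R (MPart hD ψR res (fun ℓ : GoodIdx S => abar ℓ) R) := by
  haveI := free_mPart hD ψR res (fun ℓ : GoodIdx S => abar ℓ) h2 h3 ha
  haveI := finite_mPart hD ψR res (fun ℓ : GoodIdx S => abar ℓ) R
  let b := Module.Free.chooseBasis R (MPart hD ψR res (fun ℓ : GoodIdx S => abar ℓ) R)
  have hspan : ⊤ ≤ Submodule.span k (Set.range fun i =>
      mapPart hD ψR res (fun ℓ : GoodIdx S => abar ℓ) res (RingHom.id k) rfl (b i)) :=
    top_le_span_mapPart hD ψR abar (S := S) res (RingHom.id k) h2 h3 b b.span_eq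
  have h := finrank_range_le_card (R := k) fun i =>
    mapPart hD ψR res (fun ℓ : GoodIdx S => abar ℓ) res (RingHom.id k) rfl (b i)
  rw [Set.finrank] at h
  rw [Module.finrank_eq_card_basis b]
  rw [show Submodule.span k _ = ⊤ from top_le_iff.mp hspan, finrank_top] at h
  exact h

section Complete

variable [IsLocalRing A] [IsNoetherianRing A] [IsAdicComplete (maximalIdeal A) A]

/-- Generators of the part over complete coefficients, as many as the residual rank. -/
theorem exists_gens_mPart (κ : A →+* k) (hκ : Function.Surjective κ) (h2 : IsUnit (2 : A))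
    (h3 : Elliptic3 A L) :
    ∃ e : Fin (Module.finrank k (MPart hD (ψ.ringHomComp κ) (RingHom.id k)
        (fun ℓ : GoodIdx S => abar ℓ) k)) → MPart hD ψ κ (fun ℓ : GoodIdx S => abar ℓ) A,
      Submodule.span A (Set.range e) = ⊤ := by
  obtain ⟨e, he⟩ :=
    Ribet.Avoid.exists_span_locCoh_eq_top hD S h2 h3.ellipticOK ψ κ hκ abar
  let εk := Submodule.quotEquivOfEq _ _
    (avoidLocKer_eq_cohKer hD (ψ.ringHomComp κ) k S (RingHom.id k) abar)
  let εA := Submodule.quotEquivOfEq _ _ (avoidLocKer_eq_cohKer hD ψ A S κ abar)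
  refine ⟨fun i => εA (e (Fin.cast εk.finrank_eq.symm i)), ?_⟩
  have hr : Set.range (fun i => εA (e (Fin.cast εk.finrank_eq.symm i))) =
      εA.toLinearMap '' Set.range e := by
    rw [← Set.range_comp]
    exact (finCongr εk.finrank_eq.symm).surjective.range_comp (fun i => εA (e i))
  rw [hr, ← Submodule.map_span, he, Submodule.map_top, LinearEquiv.range]

/-- The kernel of reduction to the residue field. -/
theorem mem_smul_of_mapPart_residue (κ : A →+* k) (hκ : Function.Surjective κ)
    (h2 : IsUnit (2 : A)) (h3 : Elliptic3 A L)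
    {x : MPart hD ψ κ (fun ℓ : GoodIdx S => abar ℓ) A}
    (hx : mapPart hD ψ κ (fun ℓ : GoodIdx S => abar ℓ) κ (RingHom.id k) rfl x = 0) :
    x ∈ maximalIdeal A •
      (⊤ : Submodule A (MPart hD ψ κ (fun ℓ : GoodIdx S => abar ℓ) A)) := by
  have hmax : RingHom.ker κ = maximalIdeal A :=
    IsLocalRing.eq_maximalIdeal (RingHom.ker_isMaximal_of_surjective κ hκ)
  obtain ⟨x, rfl⟩ := toPart_surjective _ _ _ _ _ x
  rw [mapPart_toPart, toPart, Submodule.mkQ_apply, Submodule.Quotient.mk_eq_zero,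
    ← avoidLocKer_eq_cohKer hD (ψ.ringHomComp κ) k S (RingHom.id k) abar,
    ← Submodule.Quotient.mk_eq_zero] at hx
  have hops : Ribet.Avoid.OpsSurjective hD ψ S A (residualIdeal κ abar S) :=
    Ribet.Avoid.opsSurjective_of_isAdicComplete hD ψ S A _ fun c hc => by
      rw [residualIdeal, RingHom.mem_ker, evalSystem, MvPolynomial.eval₂Hom_C]
      rwa [← hmax, RingHom.mem_ker] at hc
  have h := Ribet.Avoid.mem_ker_smul_of_locCoeffMap_eq_zero hD ψ κ (RingHom.id k) abar S h2
    h3.ellipticOK hκ hops (x := Submodule.Quotient.mk x) hx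
  have h' := Ribet.Avoid.map_mem_smul_top
    (Submodule.quotEquivOfEq _ _ (avoidLocKer_eq_cohKer hD ψ A S κ abar)).toLinearMap _ h
  rw [hmax] at h'
  exact h'

/-- One operator outside the system kills every class whose image in some component is killed
outside it. -/
theorem exists_uniform_killer (κ : A →+* k) (hκ : Function.Surjective κ) :
    ∃ s, sysEval κ (fun ℓ : GoodIdx S => abar ℓ) s ≠ 0 ∧
      ∀ (K : Type) [Field K] (φ : A →+* K) (y : CohL hD ψ A),
        cohMap hD ψ φ y ∈ Ribet.Avoid.compKer hD S ψ φ (residualIdeal κ abar S) →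
          cohMap hD ψ φ (cohAct hD ψ S A s y) = 0 := by
  classical
  haveI : Module.Finite A (CohL hD ψ A) := Ribet.Twisted.finite_cohL hD ψ
  have hmax : RingHom.ker κ = maximalIdeal A :=
    IsLocalRing.eq_maximalIdeal (RingHom.ker_isMaximal_of_surjective κ hκ)
  set P := residualIdeal κ abar S with hP
  obtain ⟨n, g, hg⟩ := Submodule.fg_iff_exists_fin_generating_family.1
    (IsNoetherian.noetherian (Ribet.Avoid.locKer hD ψ A S P))
  have hgi : ∀ i, g i ∈ Ribet.Avoid.locKer hD ψ A S P := fun i =>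
    hg ▸ Submodule.subset_span ⟨i, rfl⟩
  choose t ht htg using hgi
  set s := ∏ i, t i with hs
  have hsP : s ∉ P := fun h => by
    obtain ⟨i, -, hi⟩ := (inferInstance : P.IsPrime).prod_mem_iff.mp h
    exact ht i hi
  have hkill : ∀ x ∈ Ribet.Avoid.locKer hD ψ A S P, cohAct hD ψ S A s x = 0 := by
    intro x hx
    rw [← hg] at hx
    induction hx using Submodule.span_induction with
    | mem w hw =>
      obtain ⟨i, rfl⟩ := hw
      rw [hs, ← Finset.prod_erase_mul _ _ (Finset.mem_univ i), map_mul, Module.End.mul_apply,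
        ← avoidAct_eq_cohAct, htg i, map_zero]
    | zero => exact map_zero _
    | add u w _ _ hu hw => rw [map_add, hu, hw, add_zero]
    | smul r w _ hw => rw [map_smul, hw, smul_zero]
  refine ⟨s, (notMem_residualIdeal_iff S κ abar s).mp hsP, fun K _ φ y hy => ?_⟩
  obtain ⟨t₀, ht₀, hy⟩ := hy
  have hops : Ribet.Avoid.OpsSurjective hD ψ S A P :=
    Ribet.Avoid.opsSurjective_of_isAdicComplete hD ψ S A _ fun c hc => by
      rw [hP, residualIdeal, RingHom.mem_ker, evalSystem, MvPolynomial.eval₂Hom_C]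
      rwa [← hmax, RingHom.mem_ker] at hc
  -- `t₀` has an inverse among the operators on the part
  let M := Ribet.Avoid.LocCoh hD ψ A S P
  haveI : Module.Finite A M := Ribet.Avoid.finite_locCoh hD ψ S A P
  letI : Module (MvPolynomial (GoodIdx S) A) M :=
    Module.compHom M (Ribet.Avoid.locAct hD ψ A S P).toRingHom
  haveI : IsScalarTower A (MvPolynomial (GoodIdx S) A) M := ⟨fun c r m => by
    show Ribet.Avoid.locAct hD ψ A S P (c • r) m = c • Ribet.Avoid.locAct hD ψ A S P r m
    rw [map_smul]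
    rfl⟩
  haveI : Module.Finite (MvPolynomial (GoodIdx S) A) M :=
    Module.Finite.of_restrictScalars_finite A _ M
  obtain ⟨r, hr, hr0⟩ := Submodule.exists_sub_one_mem_and_smul_eq_zero_of_fg_of_le_smul
    (Ideal.span {t₀}) (⊤ : Submodule (MvPolynomial (GoodIdx S) A) M) Module.Finite.fg_top
    (fun m _ => by
      obtain ⟨m', rfl⟩ := hops t₀ ht₀ m
      exact Submodule.smul_mem_smul (Ideal.mem_span_singleton_self t₀)
        (Submodule.mem_top (x := m')))
  obtain ⟨r', hr'⟩ := Ideal.mem_span_singleton'.mp hr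
  obtain rfl : r = r' * t₀ + 1 := by rw [hr', sub_add_cancel]
  have h0 : cohAct hD ψ S A s y + cohAct hD ψ S A (s * r' * t₀) y = 0 := by
    have h1 : Submodule.Quotient.mk (Ribet.Avoid.act hD ψ A S (r' * t₀ + 1) y) = (0 : M) :=
      hr0 (Submodule.Quotient.mk y) Submodule.mem_top
    rw [Submodule.Quotient.mk_eq_zero, avoidAct_eq_cohAct] at h1
    have h2 := hkill _ h1
    rw [← Module.End.mul_apply, ← map_mul, mul_add, mul_one, map_add, LinearMap.add_apply,
      ← mul_assoc, add_comm] at h2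
    exact h2
  rw [avoidAct_eq_cohAct] at hy
  have h3 := congrArg (cohMap hD ψ φ) h0
  rw [map_add, map_zero, cohMap_cohAct hD ψ φ (s * r' * t₀), map_mul, map_mul,
    Module.End.mul_apply, hy, map_zero, add_zero] at h3
  exact h3

end Complete

section Component

variable {κ : A →+* k} {K : Type} [Field K] (φ : A →+* K)

omit [NeZero L] in
/-- A product of commuting nilpotent maps vanishes on a space of at most as many dimensions. -/
theorem list_prod_apply_eq_zero {V : Type*} [AddCommGroup V] [Module K V]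
    [FiniteDimensional K V] (l : List (Module.End K V))
    (hc : ∀ F ∈ l, ∀ G ∈ l, Commute F G) (U : Submodule K V)
    (hU : ∀ F ∈ l, ∀ x ∈ U, F x ∈ U) (hn : ∀ F ∈ l, ∃ N : ℕ, ∀ x ∈ U, (F ^ N) x = 0)
    (hd : Module.finrank K U ≤ l.length) : ∀ x ∈ U, l.prod x = 0 := by
  induction l generalizing U with
  | nil =>
    intro x hx
    have : U = ⊥ := Submodule.finrank_eq_zero.mp (Nat.le_zero.mp hd)
    rw [this, Submodule.mem_bot] at hx
    simp [hx]
  | cons F l ih =>
    intro x hx
    by_cases hbot : U = ⊥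
    · rw [hbot, Submodule.mem_bot] at hx
      simp [hx]
    have hmem : F ∈ F :: l := List.mem_cons_self
    have hle : U.map F ≤ U := by
      rintro _ ⟨w, hw, rfl⟩
      exact hU F hmem w hw
    have hlt : U.map F < U := by
      refine lt_of_le_of_ne hle fun heq => hbot ?_
      obtain ⟨N, hN⟩ := hn F hmem
      have hiter : ∀ j, U.map (F ^ j) = U := by
        intro j
        induction j with
        | zero => rw [pow_zero]; exact Submodule.map_id U
        | succ j hj => rw [pow_succ', Module.End.mul_eq_comp, Submodule.map_comp, hj, heq]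
      rw [← hiter N, Submodule.eq_bot_iff]
      rintro _ ⟨w, hw, rfl⟩
      exact hN w hw
    have hcom : l.prod * F = F * l.prod :=
      (Commute.list_prod_left l F fun G hG => hc G (List.mem_cons_of_mem _ hG) F hmem).eq
    rw [List.prod_cons, ← hcom, Module.End.mul_apply]
    refine ih (fun G hG H hH => hc G (List.mem_cons_of_mem _ hG) H (List.mem_cons_of_mem _ hH))
      (U.map F) ?_ (fun G hG => ?_) ?_ _ ⟨x, hx, rfl⟩
    · rintro G hG _ ⟨w, hw, rfl⟩
      exact ⟨G w, hU G (List.mem_cons_of_mem _ hG) w hw,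
        LinearMap.congr_fun (hc F hmem G (List.mem_cons_of_mem _ hG)).eq w⟩
    · obtain ⟨N, hN⟩ := hn G (List.mem_cons_of_mem _ hG)
      exact ⟨N, fun w hw => hN w (hle hw)⟩
    · have := Submodule.finrank_lt_finrank_of_lt hlt
      rw [List.length_cons] at hd
      omega

variable {M : Type*} [AddCommGroup M] [Module A M]

theorem cohAct_mem_invariant (ψ₁ : DirichletCharacter K D) {S' : Finset ℕ}
    (Z : Submodule K (CohL hD ψ₁ K)) (hZ : ∀ ℓ, ∀ z ∈ Z, heckeT' hD ψ₁ K ℓ z ∈ Z)
    (t : MvPolynomial (GoodIdx S') K) : ∀ z ∈ Z, cohAct hD ψ₁ S' K t z ∈ Z := by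
  induction t using MvPolynomial.induction_on with
  | C c => intro z hz; rw [cohAct_C]; exact Z.smul_mem _ hz
  | add s t hs ht => intro z hz; rw [map_add]; exact add_mem (hs z hz) (ht z hz)
  | mul_X s ℓ hs =>
    intro z hz
    rw [map_mul, Module.End.mul_apply, cohAct_X]
    exact hs _ (hZ ℓ z hz)

theorem commute_cohAct_cohAct (ψ₁ : DirichletCharacter K D) {S₁ S₂ : Finset ℕ}
    (s : MvPolynomial (GoodIdx S₁) K) (t : MvPolynomial (GoodIdx S₂) K) :
    Commute (cohAct hD ψ₁ S₁ K s) (cohAct hD ψ₁ S₂ K t) := by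
  induction s using MvPolynomial.induction_on with
  | C c => rw [← MvPolynomial.algebraMap_eq, AlgHom.commutes]; exact Algebra.commute_algebraMap_left _ _
  | add s s' hs hs' => rw [map_add]; exact hs.add_left hs'
  | mul_X s ℓ hs => rw [map_mul, cohAct_X]; exact hs.mul_left (cohAct_comm hD ψ₁ S₂ K ℓ t)

/-- The operators act on a common eigenvector through evaluation. -/
theorem cohAct_map_eigen {S' : Finset ℕ} {v : CohL hD (ψ.ringHomComp φ) K} {a : ℕ → K}
    (hv : ∀ ℓ, heckeT' hD (ψ.ringHomComp φ) K ℓ v = a ℓ • v)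
    (t : MvPolynomial (GoodIdx S') A) :
    cohAct hD (ψ.ringHomComp φ) S' K (MvPolynomial.map φ t) v = evalSystem φ a S' t • v := by
  induction t using MvPolynomial.induction_on with
  | C c => rw [MvPolynomial.map_C, cohAct_C, evalSystem, MvPolynomial.eval₂Hom_C]
  | add s t hs ht => simp only [map_add, LinearMap.add_apply, hs, ht, add_smul]
  | mul_X s ℓ hs =>
    rw [map_mul, MvPolynomial.map_X, map_mul, Module.End.mul_apply, cohAct_X, hv, map_smul, hs,
      smul_smul, map_mul]
    congr 1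
    rw [mul_comm, evalSystem, MvPolynomial.eval₂Hom_X']

/-- A congruent common eigenvector is not killed outside the system. -/
theorem notMem_compKer_of_congruent {v : CohL hD (ψ.ringHomComp φ) K} (hv0 : v ≠ 0) {a : ℕ → K}
    (hv : ∀ ℓ, heckeT' hD (ψ.ringHomComp φ) K ℓ v = a ℓ • v)
    (hcong : IsCongruent φ κ abar S a) :
    v ∉ Ribet.Avoid.compKer hD S ψ φ (residualIdeal κ abar S) := by
  rintro ⟨t, ht, hvt⟩
  rw [avoidAct_eq_cohAct, cohAct_map_eigen hD ψ φ hv, smul_eq_zero] at hvt
  exact ht (hcong (RingHom.mem_ker.mpr (hvt.resolve_right hv0)))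

theorem compKer_stable (T : Module.End K (CohL hD (ψ.ringHomComp φ) K))
    (hT : ∀ t, Commute T (cohAct hD (ψ.ringHomComp φ) S K t)) :
    Ribet.Avoid.compKer hD S ψ φ (residualIdeal κ abar S) ≤
      (Ribet.Avoid.compKer hD S ψ φ (residualIdeal κ abar S)).comap T := by
  rintro x ⟨t, ht, hx⟩
  refine ⟨t, ht, ?_⟩
  rw [avoidAct_eq_cohAct] at hx ⊢
  rw [← Module.End.mul_apply, ← (hT _).eq, Module.End.mul_apply, hx, map_zero]

/-- Nilpotency modulo the killed classes of an operator vanishing at the congruent systems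
carried by an invariant subspace. -/
theorem exists_pow_mem_of_vanishing [IsAlgClosed K] {S' : Finset ℕ}
    (Z : Submodule K (CohL hD (ψ.ringHomComp φ) K))
    (hZ : ∀ ℓ, ∀ z ∈ Z, heckeT' hD (ψ.ringHomComp φ) K ℓ z ∈ Z)
    (f : MvPolynomial (GoodIdx S') A)
    (hf : ∀ (a : ℕ → K), ∀ v ∈ Z, v ≠ 0 →
      (∀ ℓ, heckeT' hD (ψ.ringHomComp φ) K ℓ v = a ℓ • v) → IsCongruent φ κ abar S a →
      evalSystem φ a S' f = 0) :
    ∃ N : ℕ, ∀ z ∈ Z,
      (cohAct hD (ψ.ringHomComp φ) S' K (MvPolynomial.map φ f) ^ N) z ∈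
        Ribet.Avoid.compKer hD S ψ φ (residualIdeal κ abar S) := by
  haveI : Module.Finite K (CohL hD (ψ.ringHomComp φ) K) :=
    Ribet.Twisted.finite_cohL hD (ψ.ringHomComp φ)
  obtain ⟨t₀, ht₀, hkill⟩ :=
    Ribet.Avoid.exists_uniform_killer hD S ψ φ (residualIdeal κ abar S)
  set T₀ := cohAct hD (ψ.ringHomComp φ) S K (MvPolynomial.map φ t₀) with hT₀
  set G := cohAct hD (ψ.ringHomComp φ) S' K (MvPolynomial.map φ f) with hG
  set F := T₀ * G with hF
  have hTG : Commute T₀ G := commute_cohAct_cohAct hD _ _ _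
  obtain ⟨n, hn⟩ := Filter.eventually_atTop.mp
    (F.eventually_isCompl_ker_pow_range_pow.and F.eventually_iInf_range_pow_eq)
  have hpow : ∀ j : ℕ, ∀ z ∈ Z, (F ^ j) z ∈ Z := by
    intro j
    induction j with
    | zero => intro z hz; exact hz
    | succ j ih =>
      intro z hz
      rw [pow_succ, Module.End.mul_apply]
      exact ih _ (cohAct_mem_invariant hD _ Z hZ _ _ (cohAct_mem_invariant hD _ Z hZ _ _ hz))
  have hU : Z.map (F ^ n) = ⊥ := by
    by_contra hne
    obtain ⟨v, hv, hv0, μ, hμ⟩ := Eigen.exists_joint_eigen_mem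
      (fun ℓ : ℕ => heckeT' hD (ψ.ringHomComp φ) K ℓ)
      (fun i j => Ribet.Twisted.heckeT'_comm hD (ψ.ringHomComp φ) i j) (Z.map (F ^ n)) hne (by
        rintro ℓ _ ⟨w, hw, rfl⟩
        refine ⟨heckeT' hD (ψ.ringHomComp φ) K ℓ w, hZ ℓ w hw, ?_⟩
        have hc : Commute (heckeT' hD (ψ.ringHomComp φ) K ℓ) (F ^ n) :=
          ((cohAct_comm hD _ S K ℓ _).mul_right (cohAct_comm hD _ S' K ℓ _)).pow_right n
        exact (LinearMap.congr_fun hc.eq w).symm)
    have hvZ : v ∈ Z := by
      obtain ⟨w, hw, rfl⟩ := hv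
      exact hpow n w hw
    have hev := fun (T : Finset ℕ) (t : MvPolynomial (GoodIdx T) A) =>
      cohAct_map_eigen (S' := T) hD ψ φ hμ t
    have hFv : F v ≠ 0 := by
      intro h0
      refine hv0 ((hn (n + 1) (Nat.le_succ n)).1.disjoint.le_bot ⟨?_, ?_⟩)
      · rw [SetLike.mem_coe, LinearMap.mem_ker, pow_succ, Module.End.mul_apply, h0, map_zero]
      · rw [SetLike.mem_coe, ← (hn (n + 1) (Nat.le_succ n)).2, (hn n le_rfl).2]
        obtain ⟨w, -, rfl⟩ := hv
        exact LinearMap.mem_range_self _ w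
    rw [hF, Module.End.mul_apply, hG, hev, map_smul, hT₀, hev] at hFv
    have hcong : IsCongruent φ κ abar S μ := fun t ht => by
      by_contra htP
      have h1 : v ∈ Ribet.Avoid.compKer hD S ψ φ (residualIdeal κ abar S) :=
        ⟨t, htP, by rw [avoidAct_eq_cohAct, hev, RingHom.mem_ker.mp ht, zero_smul]⟩
      have h2 := hkill v h1
      rw [avoidAct_eq_cohAct, hev] at h2
      exact hFv (by rw [h2, smul_zero])
    exact hFv (by rw [hf μ v hvZ hv0 hμ hcong, zero_smul])
  refine ⟨n, fun z hz => ⟨t₀ ^ n, fun h => ht₀ ((inferInstance :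
    (residualIdeal κ abar S).IsPrime).mem_of_pow_mem _ h), ?_⟩⟩
  have h : (F ^ n) z = 0 := (Submodule.mem_bot K).mp (hU ▸ Submodule.mem_map_of_mem hz)
  rw [hF, hTG.mul_pow, Module.End.mul_apply] at h
  rwa [avoidAct_eq_cohAct, map_pow, map_pow]

/-- A product of as many operators as generators of the part, each vanishing at the congruent
systems carried by an invariant subspace, sends that subspace into the killed classes. -/
theorem prod_mem_compKer [IsAlgClosed K] (h2 : IsUnit (2 : A)) (h3 : Elliptic3 A L)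
    {m n : ℕ} (hnm : n ≤ m)
    (e : Fin n → MPart hD ψ κ (fun ℓ : GoodIdx S => abar ℓ) A)
    (he : Submodule.span A (Set.range e) = ⊤) {S' : Finset ℕ}
    (Z : Submodule K (CohL hD (ψ.ringHomComp φ) K))
    (hZ : ∀ ℓ, ∀ z ∈ Z, heckeT' hD (ψ.ringHomComp φ) K ℓ z ∈ Z)
    (t : Fin m → MvPolynomial (GoodIdx S') A)
    (hf : ∀ c, ∀ (a : ℕ → K), ∀ v ∈ Z, v ≠ 0 →
      (∀ ℓ, heckeT' hD (ψ.ringHomComp φ) K ℓ v = a ℓ • v) → IsCongruent φ κ abar S a →
      evalSystem φ a S' (t c) = 0) :
    ∀ z ∈ Z, cohAct hD (ψ.ringHomComp φ) S' K (MvPolynomial.map φ (List.ofFn t).prod) z ∈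
      Ribet.Avoid.compKer hD S ψ φ (residualIdeal κ abar S) := by
  haveI : Module.Finite K (CohL hD (ψ.ringHomComp φ) K) :=
    Ribet.Twisted.finite_cohL hD (ψ.ringHomComp φ)
  set W := Ribet.Avoid.compKer hD S ψ φ (residualIdeal κ abar S) with hW
  let G : MvPolynomial (GoodIdx S') A →
      Module.End K (CohL hD (ψ.ringHomComp φ) K ⧸ W) := fun f =>
    W.mapQ W (cohAct hD (ψ.ringHomComp φ) S' K (MvPolynomial.map φ f))
      (compKer_stable hD ψ abar φ _ fun s => commute_cohAct_cohAct hD _ _ _)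
  have hGmk : ∀ f y, G f (Submodule.Quotient.mk y) = Submodule.Quotient.mk
      (cohAct hD (ψ.ringHomComp φ) S' K (MvPolynomial.map φ f) y) := fun _ _ => rfl
  have hG1 : G 1 = 1 := Submodule.linearMap_qext _ (LinearMap.ext fun y => by simp [G])
  have hGmul : ∀ f f', G (f * f') = G f * G f' := fun f f' =>
    Submodule.linearMap_qext _ (LinearMap.ext fun y => by simp [G])
  let g : MvPolynomial (GoodIdx S') A →* Module.End K (CohL hD (ψ.ringHomComp φ) K ⧸ W) :=
    { toFun := G, map_one' := hG1, map_mul' := hGmul }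
  let gM : MPart hD ψ κ (fun ℓ : GoodIdx S => abar ℓ) A →ₛₗ[φ]
      CohL hD (ψ.ringHomComp φ) K ⧸ W :=
    Submodule.mapQ _ _ (cohMap hD ψ φ) (by
      rintro y ⟨u, hu, hy⟩
      exact ⟨u, hu, by rw [avoidAct_eq_cohAct, ← cohMap_cohAct, hy, map_zero]⟩)
  have hdim : Module.finrank K (CohL hD (ψ.ringHomComp φ) K ⧸ W) ≤ n := by
    have hspan : ⊤ ≤ Submodule.span K (Set.range fun i => gM (e i)) := by
      intro y _
      obtain ⟨y, rfl⟩ := Submodule.Quotient.mk_surjective _ y
      obtain ⟨r, c, w, rfl⟩ :=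
        Ribet.Avoid.exists_sum_smul_redMap hD ψ φ h2 h3.ellipticOK y
      rw [← Submodule.mkQ_apply, map_sum]
      refine sum_mem fun i _ => ?_
      rw [map_smul]
      refine Submodule.smul_mem _ _ ?_
      show gM (toPart hD ψ κ (fun ℓ : GoodIdx S => abar ℓ) A (w i)) ∈ _
      obtain ⟨b, hb⟩ := (Submodule.mem_span_range_iff_exists_fun A).mp
        (he ▸ Submodule.mem_top :
          toPart hD ψ κ (fun ℓ : GoodIdx S => abar ℓ) A (w i) ∈ Submodule.span A (Set.range e))
      rw [← hb, map_sum]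
      refine sum_mem fun j _ => ?_
      rw [LinearMap.map_smulₛₗ]
      exact Submodule.smul_mem _ _ (Submodule.subset_span ⟨j, rfl⟩)
    have h := finrank_range_le_card (R := K) fun i => gM (e i)
    rw [Set.finrank, top_le_iff.mp hspan, finrank_top, Fintype.card_fin] at h
    exact h
  intro z hz
  have hprod := list_prod_apply_eq_zero (List.map g (List.ofFn t)) ?_ (Z.map W.mkQ) ?_ ?_ ?_
    (Submodule.Quotient.mk z) ⟨z, hz, rfl⟩
  · rw [← map_list_prod] at hprod
    exact (Submodule.Quotient.mk_eq_zero _).mp hprod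
  · intro F hF F' hF'
    obtain ⟨f, -, rfl⟩ := List.mem_map.mp hF
    obtain ⟨f', -, rfl⟩ := List.mem_map.mp hF'
    exact (Commute.all f f').map g
  · intro F hF x hx
    obtain ⟨f, -, rfl⟩ := List.mem_map.mp hF
    obtain ⟨w, hw, rfl⟩ := hx
    exact ⟨_, cohAct_mem_invariant hD _ Z hZ _ w hw, rfl⟩
  · intro F hF
    obtain ⟨f, hf', rfl⟩ := List.mem_map.mp hF
    obtain ⟨c, rfl⟩ := List.mem_ofFn.mp hf'
    obtain ⟨N, hN⟩ := exists_pow_mem_of_vanishing hD ψ abar φ Z hZ (t c) (hf c)
    refine ⟨N, ?_⟩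
    rintro _ ⟨w, hw, rfl⟩
    rw [← map_pow]
    show Submodule.Quotient.mk _ = (0 : CohL hD (ψ.ringHomComp φ) K ⧸ W)
    rw [Submodule.Quotient.mk_eq_zero, map_pow, map_pow]
    exact hN w hw
  · rw [List.length_map, List.length_ofFn]
    exact (Submodule.finrank_le _).trans (hdim.trans hnm)

end Component

end Fermat.Agent.Lifting
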