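import Fermat.Agent.Lifting.CRaise
import Fermat.Agent.Lifting.EDefs
import Fermat.Agent.Lifting.FNilpotentBase
import Fermat.Agent.Ribet.Avoid.Setup

/-!
# Products of operators vanishing at all congruent systems

Over a coefficient ring `R` receiving a ring `A` whose evaluations `φ j` separate it, any product
of `m` operators which vanish at all congruent systems of all components is zero on the part at
the residual system, `m` at least the rank.  The operators may involve primes in `S ∖ S'`.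
-/

set_option autoImplicit false

noncomputable section

namespace Fermat.Agent.Lifting

open IsLocalRing
open Fermat.Agent.Ribet.Twisted (HasSystem CohL heckeT')
open Fermat.Agent.Ribet.Avoid (IsCongruent evalSystem)

section

variable {A R : Type} [CommRing A] [IsLocalRing A] [IsNoetherianRing A]
  [IsAdicComplete (maximalIdeal A) A] [CommRing R] [IsLocalRing R] [IsArtinianRing R]
  {k : Type} [Field k] (π : A →+* R) (res : R →+* k) {L D : ℕ} [NeZero L] (hD : D ∣ L)
  (ψ : DirichletCharacter A D) {S : Finset ℕ} (abar : ℕ → k)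

/-- An operator in the primes outside `S'`, on the part at the system. -/
def partPoly {S' : Finset ℕ} (t : MvPolynomial (GoodIdx S') A) :
    Module.End R (MPart hD (ψ.ringHomComp π) res (fun ℓ : GoodIdx S => abar ℓ) R) :=
  Submodule.mapQ _ _ (cohAct hD (ψ.ringHomComp π) S' R (MvPolynomial.map π t))
    (cohKer_stable hD (ψ.ringHomComp π) res _ R _ fun t' => by
      induction t' using MvPolynomial.induction_on with
      | C c =>
        rw [← MvPolynomial.algebraMap_eq, AlgHom.commutes]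
        exact Algebra.commute_algebraMap_right _ _
      | add p q hp hq => rw [map_add]; exact hp.add_right hq
      | mul_X p m hp =>
        rw [map_mul, cohAct_X]
        exact hp.mul_right (cohAct_comm hD (ψ.ringHomComp π) S' R _ _).symm)

/-- The product of the operators is the operator of the product. -/
theorem list_prod_partPoly_toPart {S' : Finset ℕ} (l : List (MvPolynomial (GoodIdx S') A))
    (x : CohL hD (ψ.ringHomComp π) R) :
    (l.map fun t => partPoly π res hD ψ abar (S := S) t).prod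
        (toPart hD (ψ.ringHomComp π) res (fun ℓ : GoodIdx S => abar ℓ) R x)
      = toPart hD (ψ.ringHomComp π) res (fun ℓ : GoodIdx S => abar ℓ) R
          (cohAct hD (ψ.ringHomComp π) S' R (MvPolynomial.map π l.prod) x) := by
  induction l generalizing x with
  | nil => simp
  | cons f l ih =>
    rw [List.map_cons, List.prod_cons, Module.End.mul_apply, ih, List.prod_cons, map_mul, map_mul,
      Module.End.mul_apply]
    rfl

/-- An operator killing a class over `A` kills all combinations of its image over `R`. -/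
theorem prod_partPoly_mapPart {S' : Finset ℕ} (l : List (MvPolynomial (GoodIdx S') A))
    (y : CohL hD ψ A)
    (hy : toPart hD ψ (res.comp π) (fun ℓ : GoodIdx S => abar ℓ) A
      (cohAct hD ψ S' A l.prod y) = 0) :
    (l.map fun t => partPoly π res hD ψ abar (S := S) t).prod
      (mapPart hD ψ (res.comp π) (fun ℓ : GoodIdx S => abar ℓ) π res rfl
        (toPart hD ψ (res.comp π) (fun ℓ : GoodIdx S => abar ℓ) A y)) = 0 := by
  rw [mapPart_toPart, list_prod_partPoly_toPart, ← cohMap_cohAct,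
    ← mapPart_toPart hD ψ (res.comp π) (fun ℓ : GoodIdx S => abar ℓ) π res rfl, hy, map_zero]

omit [IsLocalRing R] [IsArtinianRing R] in
/-- A class killed outside the system in every component is killed outside it. -/
theorem toPart_eq_zero_of_components (κ : A →+* k) (hκ : Function.Surjective κ)
    (hLS : ∀ x : ℕ, x.Prime → x ∣ L → x ∈ S) (ha : NonEis L S fun ℓ : GoodIdx S => abar ℓ)
    {K : Type} [Field K] {J : Type} (φ : J → A →+* K) (hφ : ∀ x, (∀ j, φ j x = 0) → x = 0)
    (y : CohL hD ψ A)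
    (hy : ∀ j, cohMap hD ψ (φ j) y ∈
      Ribet.Avoid.compKer hD S ψ (φ j) (Ribet.Avoid.residualIdeal κ abar S)) :
    toPart hD ψ κ (fun ℓ : GoodIdx S => abar ℓ) A y = 0 := by
  obtain ⟨s, hs, hkill⟩ := exists_uniform_killer hD ψ abar (S := S) κ hκ
  obtain ⟨ℓ, hℓ, hne⟩ := ha.eis
  have hℓL : ¬ (ℓ : ℕ) ∣ L := fun h => ℓ.2.2 (hLS ℓ ℓ.2.1 h)
  set u : MvPolynomial (GoodIdx S) A := MvPolynomial.X ℓ - MvPolynomial.C (((ℓ : ℕ) : A) + 1)
  have hu : sysEval κ (fun ℓ : GoodIdx S => abar ℓ) u ≠ 0 := by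
    simpa [u, sub_eq_zero] using hne
  rw [toPart_eq_zero]
  refine ⟨u * s, by rw [map_mul]; exact mul_ne_zero hu hs, ?_⟩
  set w := cohAct hD ψ S A s y with hw
  have hw0 : ∀ j, cohMap hD ψ (φ j) w = 0 := fun j => hkill K (φ j) y (hy j)
  have hT : heckeT' hD ψ A ℓ w = (((ℓ : ℕ) : A) + 1) • w := by
    letI : Module A (J → K) := (RingHom.pi φ).toModule
    have hinj : Function.Injective (RingHom.pi φ) := (injective_iff_map_eq_zero _).mpr
      fun c hc => hφ c fun j => congrFun hc j
    obtain ⟨e1, e2⟩ := apply_eq_one_of_level hD ψ hℓ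
    rw [Ribet.Twisted.heckeT'_of_map_eq_zero hD ψ (RingHom.pi φ)
      (RingHom.pi φ).toSemilinearMap hinj w ?_ ℓ ℓ.2.1 hℓL, e1, e2, mul_one]
    obtain ⟨z, hz⟩ := Ribet.Twisted.Coh.mk_surjective w
    rw [← hz, Ribet.Twisted.Coh.map_mk, Ribet.Twisted.Coh.mk_eq_zero]
    have hb : ∀ j, ∃ b, Ribet.Twisted.coboundary
        (Ribet.Twisted.chr hD (ψ.ringHomComp (φ j))) K b =
          Ribet.Twisted.cocyclesMap (Ribet.Twisted.chr_ringHomComp (φ j) hD ψ)
            (φ j).toSemilinearMap z := fun j =>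
      Ribet.Twisted.Coh.mk_eq_zero.mp ((congrArg (cohMap hD ψ (φ j)) hz).trans (hw0 j))
    choose b hb using hb
    refine ⟨b, Subtype.ext (funext fun γ => funext fun j => ?_)⟩
    have := congrFun (congrArg Subtype.val (hb j)) γ
    simpa [Ribet.Twisted.chr_ringHomComp] using this
  rw [map_mul, Module.End.mul_apply, ← hw, map_sub, LinearMap.sub_apply, cohAct_X, cohAct_C, hT,
    sub_self]

/-- **Nilpotency with a uniform exponent.** -/
theorem prod_partPoly_eq_zero (h2 : IsUnit (2 : A)) (h3 : Elliptic3 A L)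
    (hres : Function.Surjective res) (hψ : (ψ.ringHomComp π).ringHomComp res = 1)
    (hκ : Function.Surjective (res.comp π))
    (hLS : ∀ x : ℕ, x.Prime → x ∣ L → x ∈ S) (ha : NonEis L S fun ℓ : GoodIdx S => abar ℓ)
    {K : Type} [Field K] [CharZero K] [IsAlgClosed K] {J : Type} (φ : J → A →+* K)
    (hφ : ∀ x, (∀ j, φ j x = 0) → x = 0) {S' : Finset ℕ} (hS' : S' ⊆ S) {m : ℕ}
    (hm : Module.finrank R (MPart hD (ψ.ringHomComp π) res (fun ℓ : GoodIdx S => abar ℓ) R) ≤ m)
    (t : Fin m → MvPolynomial (GoodIdx S') A)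
    (ht : ∀ c j a, HasSystem hD (ψ.ringHomComp (φ j)) S' a →
      IsCongruent (φ j) (res.comp π) abar S a → evalSystem (φ j) a S' (t c) = 0) :
    (List.ofFn fun c => partPoly π res hD ψ abar (S := S) (t c)).prod = 0 := by
  obtain ⟨e, he⟩ := exists_gens_mPart hD ψ abar (S := S) (res.comp π) hκ h2 h3
  have hn : Module.finrank k (MPart hD (ψ.ringHomComp (res.comp π)) (RingHom.id k)
      (fun ℓ : GoodIdx S => abar ℓ) k) ≤ m :=
    (finrank_mPart_residue_le hD abar (ψ.ringHomComp π) res (Ribet.Avoid.isUnit_two_map h2 π)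
      (h3.map π) ha).trans hm
  have key : ∀ y : CohL hD ψ A, toPart hD ψ (res.comp π) (fun ℓ : GoodIdx S => abar ℓ) A
      (cohAct hD ψ S' A (List.ofFn t).prod y) = 0 := by
    intro y
    refine toPart_eq_zero_of_components hD ψ abar (res.comp π) hκ hLS ha φ hφ _ fun j => ?_
    rw [cohMap_cohAct]
    exact prod_mem_compKer hD ψ abar (φ j) h2 h3 hn e he ⊤ (fun _ _ _ => trivial) t
      (fun c a v _ hv0 hv hcong => ht c j a ⟨v, hv0, fun ℓ _ _ => hv ℓ⟩ hcong) _ trivial
  rw [List.ofFn_eq_map (f := fun c => partPoly π res hD ψ abar (S := S) (t c))]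
  have hl : (List.map (fun c => partPoly π res hD ψ abar (S := S) (t c)) (List.finRange m))
      = (List.ofFn t).map fun f => partPoly π res hD ψ abar (S := S) f := by
    rw [List.ofFn_eq_map, List.map_map]
    rfl
  rw [hl]
  refine LinearMap.ext fun x => ?_
  rw [LinearMap.zero_apply]
  obtain ⟨x, rfl⟩ := toPart_surjective _ _ _ _ _ x
  obtain ⟨r, c, y, rfl⟩ := Ribet.Avoid.exists_sum_smul_redMap hD ψ π h2 h3.ellipticOK x
  rw [map_sum, map_sum]
  refine Finset.sum_eq_zero fun i _ => ?_
  rw [map_smul, map_smul]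
  refine smul_eq_zero_of_right _ ?_
  exact prod_partPoly_mapPart π res hD ψ abar (List.ofFn t) (y i) (key (y i))

end

section

variable {A R : Type} [CommRing A] [IsLocalRing A] [IsNoetherianRing A]
  [IsAdicComplete (maximalIdeal A) A] [CommRing R] [IsLocalRing R] [IsArtinianRing R]
  {k : Type} [Field k] (π : A →+* R) (res : R →+* k) {L D : ℕ} [NeZero L] {q : ℕ}
  [Fact q.Prime] [NeZero (L * q)] (hD : D ∣ L) (ψ : DirichletCharacter A D) {S : Finset ℕ}
  (abar : ℕ → k) (hqL : ¬ q ∣ L) (hqS : q ∈ S)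

/-- **Nilpotency on the new part.**  The hypothesis only involves the systems carried by a vector
fixed by `U'_q ^ 2`. -/
theorem prod_partPoly_of_partLower_eq_zero (h2 : IsUnit (2 : A)) (h3 : Elliptic3 A L)
    (hres : Function.Surjective res) (hψ : (ψ.ringHomComp π).ringHomComp res = 1)
    (hκ : Function.Surjective (res.comp π))
    (hLS : ∀ x : ℕ, x.Prime → x ∣ L * q → x ∈ S)
    (ha : NonEis (L * q) S fun ℓ : GoodIdx S => abar ℓ)
    {K : Type} [Field K] [CharZero K] [IsAlgClosed K] {J : Type} (φ : J → A →+* K)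
    (hφ : ∀ x, (∀ j, φ j x = 0) → x = 0) {m : ℕ}
    (hm : Module.finrank R
      (MPart (hDq hD q) (ψ.ringHomComp π) res (fun ℓ : GoodIdx S => abar ℓ) R) ≤ m)
    (t : Fin m → MvPolynomial (GoodIdx S) A)
    (ht : ∀ c j a, SystemNewAt (hDq hD q) (ψ.ringHomComp (φ j)) S a q →
      IsCongruent (φ j) (res.comp π) abar S a → evalSystem (φ j) a S (t c) = 0)
    (z : MPart (hDq hD q) (ψ.ringHomComp π) res (fun ℓ : GoodIdx S => abar ℓ) R)
    (hz : partLower hD (ψ.ringHomComp π) res (fun ℓ : GoodIdx S => abar ℓ) R hqL hqS z = 0) :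
    (List.ofFn fun c => partPoly π res (hDq hD q) ψ abar (S := S) (t c)).prod z = 0 := by
  have h3q : Elliptic3 A (L * q) := h3.of_dvd (Nat.dvd_mul_right L q)
  have ha' : NonEis L S (fun ℓ : GoodIdx S => abar ℓ) := NonEis.of_mul (fun ℓ : GoodIdx S => abar ℓ) ha
  have h2R := Ribet.Avoid.isUnit_two_map h2 π
  have h2k : (2 : k) ≠ 0 := (Ribet.Avoid.isUnit_two_map h2 (res.comp π)).ne_zero
  obtain ⟨e, he⟩ := exists_gens_mPart (hDq hD q) ψ abar (S := S) (res.comp π) hκ h2 h3q
  have hn : Module.finrank k (MPart (hDq hD q) (ψ.ringHomComp (res.comp π)) (RingHom.id k) (fun ℓ : GoodIdx S => abar ℓ) k) ≤ m :=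
    (finrank_mPart_residue_le (hDq hD q) abar (ψ.ringHomComp π) res h2R (h3q.map π) ha).trans hm
  -- classes killed by the adjoint are killed by the product
  have key : ∀ y : CohL (hDq hD q) ψ A,
      partLower hD ψ (res.comp π) (fun ℓ : GoodIdx S => abar ℓ) A hqL hqS (toPart (hDq hD q) ψ (res.comp π) (fun ℓ : GoodIdx S => abar ℓ) A y) = 0 →
      toPart (hDq hD q) ψ (res.comp π) (fun ℓ : GoodIdx S => abar ℓ) A (cohAct (hDq hD q) ψ S A (List.ofFn t).prod y) = 0 := by
    intro y hy
    have hU := partT_sq_of_partLower hD ψ (res.comp π) (fun ℓ : GoodIdx S => abar ℓ) A hqL hqS hy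
    rw [partT_toPart, partT_toPart, ← sub_eq_zero, ← map_sub, toPart_eq_zero] at hU
    obtain ⟨u, hu, huy⟩ := hU
    refine toPart_eq_zero_of_components (hDq hD q) ψ abar (res.comp π) hκ hLS ha φ hφ _ fun j => ?_
    rw [cohMap_cohAct]
    let U := heckeT' (hDq hD q) (ψ.ringHomComp (φ j)) K q
    let W := Ribet.Avoid.compKer (hDq hD q) S ψ (φ j) (Ribet.Avoid.residualIdeal (res.comp π) abar S)
    let Z : Submodule K (CohL (hDq hD q) (ψ.ringHomComp (φ j)) K) := W.comap (U * U - 1)
    have hZ : ∀ ℓ, ∀ z ∈ Z, heckeT' (hDq hD q) (ψ.ringHomComp (φ j)) K ℓ z ∈ Z := by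
      intro ℓ z hz
      show (U * U - 1) (heckeT' (hDq hD q) (ψ.ringHomComp (φ j)) K ℓ z) ∈ W
      have hc : Commute (heckeT' (hDq hD q) (ψ.ringHomComp (φ j)) K ℓ) (U * U - 1) :=
        ((Ribet.Twisted.heckeT'_comm _ _ ℓ q).mul_right
          (Ribet.Twisted.heckeT'_comm _ _ ℓ q)).sub_right (Commute.one_right _)
      rw [← Module.End.mul_apply, ← hc.eq, Module.End.mul_apply]
      exact compKer_stable (hDq hD q) ψ abar (φ j) _
        (fun s => cohAct_comm _ _ S K ℓ s) hz
    refine prod_mem_compKer (hDq hD q) ψ abar (φ j) h2 h3q hn e he Z hZ t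
      (fun c a v hv hv0 hev hcong => ?_) _ ?_
    · refine ht c j a ⟨v, hv0, fun ℓ _ _ => hev ℓ, ?_⟩ hcong
      by_contra hne
      refine notMem_compKer_of_congruent (hDq hD q) ψ abar (φ j) hv0 hev hcong ?_
      have h1 : (a q * a q - 1) • v ∈ W := by
        have h := hv
        rw [Submodule.mem_comap, LinearMap.sub_apply, Module.End.mul_apply] at h
        simp only [U, hev, map_smul, smul_smul, Module.End.one_apply] at h
        rwa [sub_smul, one_smul]
      refine (W.smul_mem_iff ?_).mp h1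
      intro h0
      refine hne ?_
      rw [hev, map_smul, hev, smul_smul, sub_eq_zero.mp h0, one_smul]
    · refine ⟨u, hu, ?_⟩
      rw [avoidAct_eq_cohAct]
      have h := congrArg (cohMap (hDq hD q) ψ (φ j)) huy
      rw [cohMap_cohAct, map_zero, map_sub, cohMap_heckeT', cohMap_heckeT'] at h
      rw [LinearMap.sub_apply, Module.End.mul_apply, Module.End.one_apply]
      exact h
  -- generators below, giving a basis after reduction
  haveI := free_mPart hD (ψ.ringHomComp π) res (fun ℓ : GoodIdx S => abar ℓ) h2R (h3.map π) ha'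
  haveI := finite_mPart hD (ψ.ringHomComp π) res (fun ℓ : GoodIdx S => abar ℓ) R
  haveI := finite_mPart hD ψ (res.comp π) (fun ℓ : GoodIdx S => abar ℓ) A
  obtain ⟨e', he'⟩ := exists_gens_mPart hD ψ abar (S := S) (res.comp π) hκ h2 h3
  set B := fun i => mapPart hD ψ (res.comp π) (fun ℓ : GoodIdx S => abar ℓ) π res rfl (e' i) with hB
  have hBli : LinearIndependent R B :=
    linearIndependent_of_top_le_span_of_card_le_finrank
      (top_le_span_mapPart hD ψ abar (S := S) π res h2 h3 e' he') (by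
        rw [Fintype.card_fin]
        exact finrank_mPart_residue_le hD abar (ψ.ringHomComp π) res h2R (h3.map π) ha')
  -- the adjoint is surjective over `A`
  have hsurj : Function.Surjective (partLower hD ψ (res.comp π) (fun ℓ : GoodIdx S => abar ℓ) A hqL hqS) := by
    refine surjective_of_surjective_mod (res.comp π) hκ _ fun y => ?_
    obtain ⟨x, hx⟩ := partLower_surjective_field hD (fun ℓ : GoodIdx S => abar ℓ) hqL hqS (ψ.ringHomComp (res.comp π)) hψ h2k
      (h3.map (res.comp π)) ha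
      (mapPart hD ψ (res.comp π) (fun ℓ : GoodIdx S => abar ℓ) (res.comp π) (RingHom.id k) rfl y.1, mapPart hD ψ (res.comp π) (fun ℓ : GoodIdx S => abar ℓ) (res.comp π) (RingHom.id k) rfl y.2)
    obtain ⟨x, rfl⟩ :=
      mapPart_surjective (hDq hD q) ψ (res.comp π) (fun ℓ : GoodIdx S => abar ℓ) (res.comp π) (RingHom.id k) rfl hκ h2 h3q x
    rw [mapPart_partLower, Prod.mk.injEq] at hx
    refine ⟨x, mem_smul_top_prod _ ?_ ?_⟩ <;> rw [ker_eq_maximalIdeal_of_surjective (res.comp π) hκ] <;>
      refine mem_smul_of_mapPart_residue hD ψ abar (res.comp π) hκ h2 h3 ?_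
    · rw [Prod.fst_sub, map_sub, hx.1, sub_self]
    · rw [Prod.snd_sub, map_sub, hx.2, sub_self]
  choose u hu using fun i => hsurj (e' i, 0)
  choose v hv using fun i => hsurj (0, e' i)
  -- write `z` as a combination of images and correct the lifts
  set g := mapPart (hDq hD q) ψ (res.comp π) (fun ℓ : GoodIdx S => abar ℓ) π res rfl with hg
  obtain ⟨z, rfl⟩ := toPart_surjective _ _ _ _ _ z
  obtain ⟨r, c, y, rfl⟩ := Ribet.Avoid.exists_sum_smul_redMap (hDq hD q) ψ π h2 h3q.ellipticOK z
  have hsum : toPart (hDq hD q) (ψ.ringHomComp π) res (fun ℓ : GoodIdx S => abar ℓ) R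
      (∑ i, c i • Ribet.Avoid.redMap (hDq hD q) ψ π (y i))
      = ∑ i, c i • g (toPart (hDq hD q) ψ (res.comp π) (fun ℓ : GoodIdx S => abar ℓ) A (y i)) := by
    rw [map_sum]
    exact Finset.sum_congr rfl fun i _ => map_smul _ _ _
  have hsplit : ∀ i, ∃ (p p' : Fin _ → A),
      partLower hD ψ (res.comp π) (fun ℓ : GoodIdx S => abar ℓ) A hqL hqS (toPart (hDq hD q) ψ (res.comp π) (fun ℓ : GoodIdx S => abar ℓ) A (y i))
        = (∑ l, p l • e' l, ∑ l, p' l • e' l) := by
    intro i
    obtain ⟨p, hp⟩ := (Submodule.mem_span_range_iff_exists_fun A).mp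
      (he' ▸ Submodule.mem_top : (partLower hD ψ (res.comp π) (fun ℓ : GoodIdx S => abar ℓ) A hqL hqS
        (toPart (hDq hD q) ψ (res.comp π) (fun ℓ : GoodIdx S => abar ℓ) A (y i))).1 ∈ Submodule.span A (Set.range e'))
    obtain ⟨p', hp'⟩ := (Submodule.mem_span_range_iff_exists_fun A).mp
      (he' ▸ Submodule.mem_top : (partLower hD ψ (res.comp π) (fun ℓ : GoodIdx S => abar ℓ) A hqL hqS
        (toPart (hDq hD q) ψ (res.comp π) (fun ℓ : GoodIdx S => abar ℓ) A (y i))).2 ∈ Submodule.span A (Set.range e'))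
    exact ⟨p, p', Prod.ext hp.symm hp'.symm⟩
  choose p p' hp using hsplit
  have hz' : ∑ i, ((∑ l, (c i * π (p i l)) • B l), (∑ l, (c i * π (p' i l)) • B l))
      = (0 : _ × _) := by
    rw [← hz, hsum, map_sum]
    refine Finset.sum_congr rfl fun i _ => ?_
    rw [map_smul, hg, mapPart_partLower, hp i]
    simp only [map_sum, LinearMap.map_smulₛₗ, Prod.smul_mk, Finset.smul_sum, smul_smul, hB]
  have hcoef : ∀ l, ∑ i, c i * π (p i l) = 0 ∧ ∑ i, c i * π (p' i l) = 0 := by
    rw [Prod.ext_iff, Prod.fst_sum, Prod.snd_sum, Prod.fst_zero, Prod.snd_zero, Finset.sum_comm, Finset.sum_comm (γ := Fin r)] at hz'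
    simp only [← Finset.sum_smul] at hz'
    exact fun l => ⟨Fintype.linearIndependent_iff.mp hBli _ hz'.1 l,
      Fintype.linearIndependent_iff.mp hBli _ hz'.2 l⟩
  have hcorr : ∑ i, c i • g (toPart (hDq hD q) ψ (res.comp π) (fun ℓ : GoodIdx S => abar ℓ) A (y i))
      = ∑ i, c i • g (toPart (hDq hD q) ψ (res.comp π) (fun ℓ : GoodIdx S => abar ℓ) A (y i)
          - ((∑ l, p i l • u l) + ∑ l, p' i l • v l)) := by
    simp only [map_sub, smul_sub, Finset.sum_sub_distrib, map_add, map_sum,
      LinearMap.map_smulₛₗ, smul_add, Finset.smul_sum, smul_smul, Finset.sum_add_distrib]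
    rw [Finset.sum_comm (f := fun i l => (c i * π (p i l)) • g (u l)),
      Finset.sum_comm (f := fun i l => (c i * π (p' i l)) • g (v l))]
    simp only [← Finset.sum_smul, (hcoef _).1, (hcoef _).2, zero_smul, Finset.sum_const_zero,
      add_zero, sub_zero]
  rw [hsum, hcorr, List.ofFn_eq_map, map_sum]
  refine Finset.sum_eq_zero fun i _ => ?_
  rw [map_smul]
  refine smul_eq_zero_of_right _ ?_
  obtain ⟨w, hw⟩ := toPart_surjective (hDq hD q) ψ (res.comp π) (fun ℓ : GoodIdx S => abar ℓ) A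
    (toPart (hDq hD q) ψ (res.comp π) (fun ℓ : GoodIdx S => abar ℓ) A (y i) - ((∑ l, p i l • u l) + ∑ l, p' i l • v l))
  have hl : partLower hD ψ (res.comp π) (fun ℓ : GoodIdx S => abar ℓ) A hqL hqS (toPart (hDq hD q) ψ (res.comp π) (fun ℓ : GoodIdx S => abar ℓ) A w) = 0 := by
    rw [hw, map_sub, map_add, map_sum, map_sum, hp i]
    refine Prod.ext ?_ ?_ <;> simp [hu, hv, Prod.fst_sum, Prod.snd_sum]
  rw [hg, ← hw]
  have hl' : (List.map (fun c => partPoly π res (hDq hD q) ψ abar (S := S) (t c))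
      (List.finRange m))
      = (List.ofFn t).map fun f => partPoly π res (hDq hD q) ψ abar (S := S) f := by
    rw [List.ofFn_eq_map, List.map_map]
    rfl
  rw [hl']
  exact prod_partPoly_mapPart π res (hDq hD q) ψ abar (List.ofFn t) w (key w hl)

end

end Fermat.Agent.Lifting
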