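import Fermat.Agent.Lifting.FSetup
import Fermat.Agent.Lifting.FCoordsPlace
import Fermat.Agent.TW.PrimesLocal

/-!
# Modularity lifting: the local coordinates of the target and the level zero

The target lies over the centres of Frobenius at the places, and the level zero of patching data
carries no condition.
-/

set_option autoImplicit false

noncomputable section

namespace Fermat.Agent.Lifting

open IsLocalRing MvPowerSeries

namespace FSetup

variable (s : FSetup) (a : Fin s.K)

theorem frobCentre_add_wLoc :
    frobCentre (s.q a) (s.eps a) (s.beta a) + Matrix.of (fun i j => s.wLoc (a, true, i, j)) =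
      ((s.frame a)⁻¹).val * s.rW (s.phi a) * (s.frame a).val := by
  ext i j
  simp [wLoc]

theorem of_wLoc_mono :
    Matrix.of (fun i j => s.wLoc (a, false, i, j)) =
      ((s.frame a)⁻¹).val * s.rW (s.tau a) * (s.frame a).val - 1 := by
  ext i j
  simp [wLoc]

theorem det_rW_phi : (s.rW (s.phi a)).det = (s.q a : s.O) :=
  have : Fact (s.q a).Prime := ⟨(s.hq a).1⟩
  det_frobenius_eq s.hdetW s.hp.out (s.hq a).1 (s.hq a).2.1
    (padicPlace_liesOverPrime (s.q a)) (s.hgen a).frob

theorem map_frame_conj (M : Matrix (Fin 2) (Fin 2) s.O) :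
    (((s.frame a)⁻¹).val * M * (s.frame a).val).map (residue s.O) =
      ((s.frame a)⁻¹).val.map (residue s.O) * M.map (residue s.O) *
        (s.frame a).val.map (residue s.O) := by
  rw [Matrix.map_mul, Matrix.map_mul]

theorem map_frame_inv_mul :
    ((s.frame a)⁻¹).val.map (residue s.O) * (s.frame a).val.map (residue s.O) = 1 := by
  rw [← Matrix.map_mul, Units.inv_mul, Matrix.map_one _ (map_zero _) (map_one _)]

theorem map_rW_tau : (s.rW (s.tau a)).map (residue s.O) = 1 := by
  have : Fact (s.q a).Prime := ⟨(s.hq a).1⟩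
  rw [s.hred]
  exact TW.Places.matRep_eq_one_of_inertia s.ρbar (s.hresq a) (padicPlace_liesOverPrime (s.q a))
    (s.hgen a).tau_mem

theorem wLoc_mem (v : Fin s.K × Bool × Fin 2 × Fin 2) : s.wLoc v ∈ maximalIdeal s.O := by
  obtain ⟨a, b, i, j⟩ := v
  rw [← residue_eq_zero_iff]
  cases b
  · have h : (((s.frame a)⁻¹).val * s.rW (s.tau a) * (s.frame a).val - 1).map (residue s.O) =
        0 := by
      rw [Matrix.map_sub _ (map_sub _), map_frame_conj, map_rW_tau, Matrix.mul_one,
        map_frame_inv_mul, Matrix.map_one _ (map_zero _) (map_one _), sub_self]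
    exact congrFun (congrFun h i) j
  · have h : (((s.frame a)⁻¹).val * s.rW (s.phi a) * (s.frame a).val -
        frobCentre (s.q a) (s.eps a) (s.beta a)).map (residue s.O) = 0 := by
      rw [Matrix.map_sub _ (map_sub _), map_frame_conj, s.hred, s.hphi, ← map_frame_conj,
        ← Matrix.mul_assoc, ← Matrix.mul_assoc, Units.inv_mul, Matrix.one_mul, Matrix.mul_assoc,
        Units.inv_mul, Matrix.mul_one, sub_self]
    exact congrFun (congrFun h i) j

theorem wLoc_det :
    (frobCentre (s.q a) (s.eps a) (s.beta a) +
      Matrix.of fun i j => s.wLoc (a, true, i, j)).det = (s.q a : s.O) := by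
  rw [frobCentre_add_wLoc, Matrix.det_units_conj', det_rW_phi]

theorem wLoc_trace :
    (frobCentre (s.q a) (s.eps a) (s.beta a) +
      Matrix.of fun i j => s.wLoc (a, true, i, j)).trace = s.eps a * ((s.q a : s.O) + 1) := by
  rw [frobCentre_add_wLoc, Matrix.trace_units_conj', s.htrW]

end FSetup

/-- Level zero carries no condition. -/
theorem nonempty_patchLevel_zero_of_rank_pos {O : Type} [CommRing O] [IsLocalRing O] {σ : Shape}
    (F : PatchFixed O σ) (hpos : ∀ i, 0 < F.rank i) : Nonempty (PatchLevel F 0) := by
  have hsub : Subsingleton (σ.SLvl O 0) :=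
    Ideal.Quotient.subsingleton_iff.mpr (by rw [pow_zero, Ideal.one_eq_top])
  have hval : ∀ {m m' : Type} (A B : Matrix m m' (σ.SLvl O 0)), A = B := fun A B =>
    Subsingleton.elim A B
  refine ⟨{
    worlds :=
      { psi := 0
        phi := 0
        psi_mem := fun v => by simp
        phi_mem := fun v => by simp
        psi_u := rfl }
    wGlob := 0
    trace := 0
    act := fun i =>
      { toFun := fun _ => 0
        map_one' := hval _ _
        map_mul' := fun _ _ => hval _ _
        map_zero' := rfl
        map_add' := fun _ _ => hval _ _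
        commutes' := fun _ => hval _ _ }
    hecke := 0
    deg := fun _ => 0
    tra := fun _ => 0
    retr := fun _ => 0
    sect := fun _ => 0
    wit := fun _ => 0
    base := 0
    base_unit := ⟨⟨0, hpos 0⟩, isUnit_of_subsingleton _⟩
    base_rel := fun _ => Subsingleton.elim _ _
    retr_deg := fun _ => hval _ _
    tra_sect := fun _ => hval _ _
    deg_act := fun _ _ => hval _ _
    tra_act := fun _ _ => hval _ _
    comp_det := fun _ => ⟨0, 0, 0, 0, hval _ _, .zero_left _, .zero_left _, .zero_left _,
      .zero_left _, .zero_left _, .zero_left _,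
      fun f => ⟨.zero_right _, .zero_right _, .zero_right _, .zero_right _⟩, hval _ _⟩
    disc_kernel := fun _ => hval _ _
    local_rel := fun _ _ _ _ => hval _ _
    unr_rel := fun _ _ _ _ _ => hval _ _
    world_rel := fun _ _ _ _ => hval _ _
    diamond_rel := fun _ _ => hval _ _
    gauge_rel := fun _ _ => hval _ _
    hecke_comm := fun _ _ => hval _ _
    hecke_act := fun _ _ => hval _ _
    trace_rel := fun _ _ _ => hval _ _
    hecke_aug := fun _ _ _ => ⟨0, Subsingleton.elim _ _, by simp⟩
    wGlob_mem := fun _ => zero_mem _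
    wPoint := fun hm _ => ⟨fun _ => by simp, fun _ => ⟨0, by simp, by simp⟩⟩ }⟩

end Fermat.Agent.Lifting
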