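import Fermat.Agent.Lifting.FCoords
import Fermat.Agent.Lifting.FNilpotent
import Fermat.Agent.Lifting.FPatchFixed

/-!
# Modularity lifting: the patching data of a setup

`FRanks` fixes ranks and the operators on the bottom of the last module, independently of the
level; `FPatchLevel.nonempty_patchLevel_of_coords` turns coordinates at one level into patching data
of that level.
-/

set_option autoImplicit false

noncomputable section

namespace Fermat.Agent.Lifting

open IsLocalRing MvPowerSeries Module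
open Fermat.Agent.Ribet.Twisted (HasSystem)

/-- What the bottom of the modules gives, independently of the level. -/
structure FRanks (s : FSetup) (r : ℕ) where
  /-- the ranks -/
  rk : Fin (s.K + 1) → ℕ
  rk_pos : ∀ i, 0 < rk i
  /-- the operators on the bottom of the last module -/
  H : GoodIdx s.S0 → Matrix (Fin (rk (Fin.last s.K))) (Fin (rk (Fin.last s.K))) s.O
  H_comm : ∀ ℓ ℓ', Commute (H ℓ) (H ℓ')
  /-- primes the Taylor-Wiles primes avoid -/
  avoid : Finset ℕ
  rank_eq : ∀ (n : ℕ) (d : FAux s r n), (∀ j, d.Q j ∉ avoid) → ∀ i,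
    Module.Free (d.Coeff n) (d.Mod i) ∧ Module.Finite (d.Coeff n) (d.Mod i) ∧
      finrank (d.Coeff n) (d.Mod i) = rk i
  bottom : ∀ (n : ℕ) (d : FAux s r n), (∀ j, d.Q j ∉ avoid) →
    ∃ b : Basis (Fin (rk (Fin.last s.K))) (d.Coeff n) (d.Mod (Fin.last s.K)),
      ∀ (ℓ : GoodIdx s.S0), (ℓ : ℕ) ∉ d.S → ∀ i j, ∃ t : (s.shape r).Sring s.O,
        Ideal.Quotient.mk _ t = LinearMap.toMatrix b b
          (partT (d.DQ_dvd _) (d.char (d.yval n)) (d.red n) (fun m : GoodIdx d.S => s.abar m)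
            (d.Coeff n) ℓ) i j ∧
        constantCoeff t - H ℓ i j ∈ maximalIdeal s.O ^ (n + 1)
  system : ∀ c : GoodIdx s.S0 → s.O,
    (∀ T : Finset (GoodIdx s.S0), ∃ v : Fin (rk (Fin.last s.K)) → FractionRing s.O, v ≠ 0 ∧
      ∀ ℓ ∈ T, ((H ℓ).map (algebraMap s.O (FractionRing s.O))).mulVec v =
        algebraMap s.O (FractionRing s.O) (c ℓ) • v) →
    ∃ a : ℕ → s.Kbar, (∀ ℓ : GoodIdx s.S0, a ℓ = algebraMap s.O s.Kbar (c ℓ)) ∧
      HasSystem (one_dvd (s.lev (Fin.last s.K))) (1 : DirichletCharacter s.Kbar 1) s.S0 a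

namespace FRanks

variable {s : FSetup} {r : ℕ} (RK : FRanks s r) (T : Finset (GoodIdx s.S0))

/-- The fixed data. -/
def fixed : PatchFixed s.O (s.shape r) where
  places := s.places r
  rank := RK.rk
  E := (∑ i, RK.rk i) + 1
  wLoc := s.wLoc
  L := {ℓ : GoodIdx s.S0 // ℓ ∈ T}
  eigen ℓ := s.aW ℓ.1
  hecke0 ℓ := RK.H ℓ.1

/-- Primes avoided for the finite set `T`. -/
def avoidT : Finset ℕ :=
  RK.avoid ∪ T.map ⟨fun ℓ : GoodIdx s.S0 => (ℓ : ℕ), Subtype.val_injective⟩

end FRanks

/-- The fixed data are valid. -/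
theorem FRanks.valid {s : FSetup} {r : ℕ} (RK : FRanks s r) (hr : s.p ∣ s.N → 1 ≤ r)
    (T : Finset (GoodIdx s.S0)) : (RK.fixed T).Valid where
  count h := by
    have h' : s.p ∣ s.N := of_decide_eq_true h
    show r - 1 + 1 ≤ r
    have := hr h'
    omega
  rank_pos := RK.rk_pos
  wLoc_mem := s.wLoc_mem
  wLoc_det := s.wLoc_det
  wLoc_trace := s.wLoc_trace
  wLoc_mono a := by
    have h := s.hmonoW a
    simp only [← FSetup.frobCentre_add_wLoc, ← FSetup.of_wLoc_mono] at h
    exact h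
  hecke0_comm l l' := RK.H_comm l.1 l'.1

/-- Level zero carries no condition. -/
theorem nonempty_patchLevel_zero {O : Type} [CommRing O] [IsLocalRing O] {σ : Shape}
    (F : PatchFixed O σ) (hpos : ∀ i, 0 < F.rank i) : Nonempty (PatchLevel F 0) :=
  nonempty_patchLevel_zero_of_rank_pos F hpos

end Fermat.Agent.Lifting
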