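import Fermat.Agent.Lifting.FPatchOps
import Fermat.Agent.Lifting.FBase
import Fermat.Agent.Lifting.CRaise

/-!
# Modularity lifting: degeneracy maps between the modules of one level

`α` and `α^*` into the module of one level from a level without one prime, operators vanishing
at the points new at that prime on the kernel of `α^*`, the discriminant on the lower module, and
a vector of the first module killed by the operators vanishing at the points new at `p`.
-/

set_option autoImplicit false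

noncomputable section

namespace Fermat.Agent.Lifting

open IsLocalRing MvPowerSeries
open Fermat.Agent.Ribet.Avoid (Univ IsCongruent evalSystem)
open Fermat.Agent.Ribet.Twisted (CohL heckeT' HasSystem)
open scoped IsMulCommutative

section Abstract

variable {R : Type} [CommRing R] {M M' : Type} [AddCommGroup M] [Module R M] [AddCommGroup M']
  [Module R M'] (o : OpFam R M) (o' : OpFam R M') {A : Type} [CommRing A] (f : A →+* R)

/-- A map intertwining the generators intertwines the evaluations. -/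
theorem map_evT {S' : Finset ℕ} (φ : M →ₗ[R] M')
    (hφ : ∀ (ℓ : GoodIdx S') x, φ (o.op ℓ x) = o'.op ℓ (φ x))
    (t : MvPolynomial (GoodIdx S') A) (x : M) :
    φ ((evT o f S' t : Module.End R M) x) = (evT o' f S' t : Module.End R M') (φ x) := by
  induction t using MvPolynomial.induction_on generalizing x with
  | C c => rw [evT_C, evT_C, algebraMap_allT_apply, algebraMap_allT_apply, map_smul]
  | add p q hp hq =>
    rw [map_add, map_add, Subalgebra.coe_add, LinearMap.add_apply, Subalgebra.coe_add,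
      LinearMap.add_apply, map_add, hp, hq]
  | mul_X p m hp =>
    rw [map_mul, map_mul, evT_X, evT_X, Subalgebra.coe_mul, Subalgebra.coe_mul,
      Module.End.mul_apply, Module.End.mul_apply, hp]
    exact congrArg _ (hφ m x)

/-- Renaming the primes. -/
theorem evT_rename {S₁ S₂ : Finset ℕ} (inc : GoodIdx S₁ → GoodIdx S₂)
    (hinc : ∀ ℓ, ((inc ℓ : GoodIdx S₂) : ℕ) = (ℓ : ℕ)) (t : MvPolynomial (GoodIdx S₁) A) :
    evT o f S₂ (MvPolynomial.rename inc t) = evT o f S₁ t :=
  (MvPolynomial.eval₂Hom_rename _ inc _ t).trans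
    (congrArg (fun g => MvPolynomial.eval₂Hom ((algebraMap R (allT o)).comp f) g t)
      (funext fun ℓ => congrArg (allTEl o) (hinc ℓ) : ((fun ℓ : GoodIdx S₂ => allTEl o (ℓ : ℕ)) ∘ inc) =
        fun ℓ : GoodIdx S₁ => allTEl o (ℓ : ℕ)))

/-- A map out of two copies intertwining the generators intertwines the evaluations. -/
theorem map_evT_prod {S' : Finset ℕ} (φ : M × M →ₗ[R] M')
    (hφ : ∀ (ℓ : GoodIdx S') x y, φ (o.op ℓ x, o.op ℓ y) = o'.op ℓ (φ (x, y)))
    (t : MvPolynomial (GoodIdx S') A) (x y : M) :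
    φ ((evT o f S' t).1 x, (evT o f S' t).1 y) = (evT o' f S' t).1 (φ (x, y)) := by
  have hx := map_evT o o' f (φ ∘ₗ LinearMap.inl R M M) (fun ℓ v => by
    have h' := hφ ℓ v 0
    rw [map_zero] at h'
    exact h') t x
  have hy := map_evT o o' f (φ ∘ₗ LinearMap.inr R M M) (fun ℓ v => by
    have h' := hφ ℓ 0 v
    rw [map_zero] at h'
    exact h') t y
  simp only [LinearMap.comp_apply, LinearMap.inl_apply, LinearMap.inr_apply] at hx hy
  have hsplit : ∀ u v : M, φ (u, v) = φ (u, 0) + φ (0, v) := fun u v => by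
    rw [← map_add, Prod.mk_add_mk, add_zero, zero_add]
  rw [hsplit, hx, hy, ← map_add, ← hsplit]

/-- The discriminant polynomial. -/
theorem evT_disc {S' : Finset ℕ} (c : ℕ) (i : GoodIdx S') (t : MvPolynomial (GoodIdx S') A) :
    evT o f S' (MvPolynomial.C (((c : A) + 1) ^ 2) - MvPolynomial.X i ^ 2 - t) =
      algebraMap R (allT o) (((c : R) + 1) ^ 2) - allTEl o (i : ℕ) ^ 2 - evT o f S' t := by
  rw [map_sub, map_sub, map_pow (evT o f S') (MvPolynomial.X i), evT_X, evT_C, map_pow f, map_add,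
    map_one, map_natCast]

variable {Y : Type}

/-- The nilpotency criterion on one vector. -/
theorem evT_pow_apply_eq_zero {S' : Finset ℕ} (π : A →+* R) (π' : MvPowerSeries Y A →+* R)
    (T : Finset (Y →₀ ℕ)) (w : (Y →₀ ℕ) → R)
    (hπ' : ∀ c, π' c = ∑ β ∈ T, π (MvPowerSeries.coeff β c) * w β)
    (h : MvPolynomial (GoodIdx S') (MvPowerSeries Y A)) {m : ℕ} (z : M)
    (hz : ∀ p : Fin m → (Y →₀ ℕ),
      (∏ c, evT o π S' (coeffPoly (p c) h)).1 z = 0) :
    (evT o π' S' h ^ m).1 z = 0 := by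
  have e : evT o π' S' h = ∑ β ∈ T, algebraMap R (allT o) (w β) * evT o π S' (coeffPoly β h) :=
    eval₂Hom_eq_sum_coeffPoly (algebraMap R (allT o)) (fun ℓ : GoodIdx S' => allTEl o (ℓ : ℕ))
      π π' T w hπ' h
  rw [e, Finset.sum_pow', AddSubmonoidClass.coe_finset_sum, LinearMap.sum_apply]
  refine Finset.sum_eq_zero fun p _ => ?_
  rw [Finset.prod_mul_distrib, Subalgebra.coe_mul, Module.End.mul_apply, hz p, map_zero]

end Abstract

/-- The discriminant polynomial at a system. -/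
theorem eval₂Hom_disc {A B I : Type} [CommRing A] [CommRing B] (F : A →+* B) (g : I → B) (c : ℕ)
    (i : I) (t : MvPolynomial I A) :
    MvPolynomial.eval₂Hom F g
        (MvPolynomial.C (((c : A) + 1) ^ 2) - MvPolynomial.X i ^ 2 - t) =
      ((c : B) + 1) ^ 2 - g i ^ 2 - MvPolynomial.eval₂Hom F g t := by
  simp

/-- A product of evaluations is the product of the operators on the part. -/
theorem coe_prod_evT {A R : Type} [CommRing A] [CommRing R] {k : Type} [Field k] (π : A →+* R)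
    (res : R →+* k) {L D : ℕ} [NeZero L] (hD : D ∣ L) (ψA : DirichletCharacter A D) {S : Finset ℕ}
    (abar : ℕ → k) {S' : Finset ℕ} {m : ℕ} (t : Fin m → MvPolynomial (GoodIdx S') A) :
    ((∏ c, evT (partFam hD (ψA.ringHomComp π) res fun ℓ : GoodIdx S => abar ℓ) π S' (t c) :
        allT (partFam hD (ψA.ringHomComp π) res fun ℓ : GoodIdx S => abar ℓ)) :
          Module.End R (MPart hD (ψA.ringHomComp π) res (fun ℓ : GoodIdx S => abar ℓ) R)) =
      (List.ofFn fun c => partPoly π res hD ψA abar (S := S) (t c)).prod := by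
  rw [← List.prod_ofFn]
  change (allT (partFam hD (ψA.ringHomComp π) res _)).val _ = _
  rw [map_list_prod, List.map_ofFn]
  refine congrArg List.prod (congrArg List.ofFn (funext fun c => ?_))
  refine LinearMap.ext fun x => ?_
  obtain ⟨x, rfl⟩ := toPart_surjective hD _ res _ R x
  exact evT_toPart hD _ res _ π (t c) x

/-- The degeneracy maps of a level, with the nilpotency on the kernel of `α^*`. -/
theorem exists_degen_maps {A R : Type} [CommRing A] [IsLocalRing A] [IsNoetherianRing A]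
    [IsAdicComplete (maximalIdeal A) A] [CommRing R] [IsLocalRing R] [IsArtinianRing R]
    {k : Type} [Field k] (π : A →+* R) (res : R →+* k) {L L' D : ℕ} [NeZero L] [NeZero L'] {q : ℕ}
    [Fact q.Prime] (hD : D ∣ L) (hD' : D ∣ L') (hL : L' = L * q) (hqL : ¬ q ∣ L) {S : Finset ℕ}
    (hqS : q ∈ S) (abar : ℕ → k) (ψA : DirichletCharacter A D) (χ : DirichletCharacter R D)
    (hχ : χ = ψA.ringHomComp π) (hψ : χ.ringHomComp res = 1) (h2 : IsUnit (2 : A))
    (h3 : Elliptic3 A L) (hres : Function.Surjective res)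
    (hκ : Function.Surjective (res.comp π)) (hLS : ∀ x : ℕ, x.Prime → x ∣ L' → x ∈ S)
    (ha : NonEis L' S fun ℓ : GoodIdx S => abar ℓ) {K : Type} [Field K] [CharZero K]
    [IsAlgClosed K] {J : Type} (φ : J → A →+* K) (hφ : ∀ x, (∀ j, φ j x = 0) → x = 0)
    {Y : Type} (π' : MvPowerSeries Y A →+* R) (T : Finset (Y →₀ ℕ)) (w : (Y →₀ ℕ) → R)
    (hπ' : ∀ c, π' c = ∑ β ∈ T, π (MvPowerSeries.coeff β c) * w β) :
    ∃ (deg : MPart hD χ res (fun ℓ : GoodIdx S => abar ℓ) R ×
          MPart hD χ res (fun ℓ : GoodIdx S => abar ℓ) R →ₗ[R]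
            MPart hD' χ res (fun ℓ : GoodIdx S => abar ℓ) R)
      (tra retr : MPart hD' χ res (fun ℓ : GoodIdx S => abar ℓ) R →ₗ[R]
        MPart hD χ res (fun ℓ : GoodIdx S => abar ℓ) R ×
          MPart hD χ res (fun ℓ : GoodIdx S => abar ℓ) R)
      (sect : MPart hD χ res (fun ℓ : GoodIdx S => abar ℓ) R ×
          MPart hD χ res (fun ℓ : GoodIdx S => abar ℓ) R →ₗ[R]
            MPart hD' χ res (fun ℓ : GoodIdx S => abar ℓ) R),
      retr ∘ₗ deg = LinearMap.id ∧ tra ∘ₗ sect = LinearMap.id ∧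
      (∀ ℓ : ℕ, ℓ ≠ q → ∀ x y, deg (partT hD χ res (fun ℓ : GoodIdx S => abar ℓ) R ℓ x,
          partT hD χ res (fun ℓ : GoodIdx S => abar ℓ) R ℓ y) =
        partT hD' χ res (fun ℓ : GoodIdx S => abar ℓ) R ℓ (deg (x, y))) ∧
      (∀ ℓ : ℕ, ℓ ≠ q → ∀ z, tra (partT hD' χ res (fun ℓ : GoodIdx S => abar ℓ) R ℓ z) =
        (partT hD χ res (fun ℓ : GoodIdx S => abar ℓ) R ℓ (tra z).1,
          partT hD χ res (fun ℓ : GoodIdx S => abar ℓ) R ℓ (tra z).2)) ∧
      (∀ x y, tra (deg (x, y)) =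
        (((q : R) + 1) • x + partT hD χ res (fun ℓ : GoodIdx S => abar ℓ) R q y,
          partT hD χ res (fun ℓ : GoodIdx S => abar ℓ) R q x + ((q : R) + 1) • y)) ∧
      ∀ m : ℕ, Module.finrank R (MPart hD' χ res (fun ℓ : GoodIdx S => abar ℓ) R) ≤ m →
        ∀ h : MvPolynomial (GoodIdx S) (MvPowerSeries Y A),
        (∀ j b, SystemNewAt hD' (ψA.ringHomComp (φ j)) S b q →
          IsCongruent (φ j) (res.comp π) abar S b →
            MvPolynomial.eval₂Hom (MvPowerSeries.map (φ j))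
              (fun ℓ : GoodIdx S => MvPowerSeries.C (b ℓ)) h = 0) →
        ∀ z, tra z = 0 →
          (evT (partFam hD' χ res fun ℓ : GoodIdx S => abar ℓ) π' S h ^ m).1 z = 0 := by
  subst hL hχ
  obtain ⟨retr, hretr⟩ := exists_retraction_partRaise hD _ res (fun ℓ : GoodIdx S => abar ℓ) hqL hqS
    hres hψ (Ribet.Avoid.isUnit_two_map h2 π) (h3.map π) ha
  obtain ⟨sect, hsect⟩ := exists_section_partLower hD _ res (fun ℓ : GoodIdx S => abar ℓ) hqL hqS
    hres hψ (Ribet.Avoid.isUnit_two_map h2 π) (h3.map π) ha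
  refine ⟨partRaise hD _ res _ R hqL hqS, partLower hD _ res _ R hqL hqS, retr, sect, hretr, hsect,
    fun ℓ hℓ => partRaise_partT hD _ _ _ _ hqL hqS hℓ,
    fun ℓ hℓ => partLower_partT hD _ _ _ _ hqL hqS hℓ,
    partLower_partRaise hD _ _ _ _ hqL hqS, fun m hm h hh z hz => ?_⟩
  refine evT_pow_apply_eq_zero _ π π' T w hπ' h z fun p => ?_
  rw [coe_prod_evT]
  refine prod_partPoly_of_partLower_eq_zero π res hD ψA abar hqL hqS h2 h3 hres hψ hκ hLS ha
    φ hφ hm (fun c => coeffPoly (p c) h) (fun c j b hb hc => ?_) z hz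
  rw [evalSystem_coeffPoly, hh j b hb hc, map_zero]

variable {s : FSetup} {r n : ℕ}

namespace FAux

variable (d : FAux s r n)

theorem isUnit_two_coeff_level : IsUnit (2 : Coeff n d) := by
  have h := s.isUnit_two.map (algebraMap s.O (Coeff n d))
  rwa [map_ofNat] at h

theorem red_yval_eq_one (j : Fin r) : red n d (d.yval n j) = 1 :=
  (congrArg (residue s.O) (constantCoeff_one_add_X' _)).trans (map_one _)

theorem char_red_eq_one : (d.char (d.yval n)).ringHomComp (red n d) = 1 := by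
  rw [d.char_ringHomComp _ _ d.yval_pow_eq_one]
  refine Finset.prod_eq_one fun j _ => ?_
  haveI : NeZero (d.Q j) := ⟨(d.prime j).ne_zero⟩
  dsimp only
  rw [d.red_yval_eq_one, Ribet.Avoid.charOfGen_one (d.prime j) (d.gen_order j),
    DirichletCharacter.changeLevel_one]

theorem mem_S_of_dvd_levQ_level (i : Fin (s.K + 1)) {x : ℕ} (hx : x.Prime)
    (h : x ∣ d.levQ i) : x ∈ d.S := by
  rcases (Nat.Prime.dvd_mul hx).1 h with h | h
  · exact Finset.mem_union_left _ (s.mem_S0_of_dvd_lev hx h)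
  · exact d.mem_S_of_dvd_DQ hx h

theorem dvd_levQ_level (i : Fin (s.K + 1)) : s.N * s.aux ∣ d.levQ i :=
  (s.dvd_lev i).trans (dvd_mul_right _ _)

/-- Congruence over `O[Δ]` gives congruence over `O`. -/
theorem isCongruent_of_uc {u : Fin r → s.Kbar} {hu : ∀ j, u j ^ s.p ^ (n + 1) = 1}
    {a : ℕ → s.Kbar}
    (hc : IsCongruent (Univ.eval u hu : d.UC →ₐ[s.O] s.Kbar).toRingHom
      ((red n d).comp d.piUC.toRingHom) s.abar d.S a) :
    IsCongruent (algebraMap s.O s.Kbar) (residue s.O) s.abar d.S a := by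
  intro t ht
  have e : ((Univ.eval u hu : d.UC →ₐ[s.O] s.Kbar).toRingHom).comp (algebraMap s.O d.UC) =
      algebraMap s.O s.Kbar :=
    RingHom.ext fun c => (Univ.eval u hu : d.UC →ₐ[s.O] s.Kbar).commutes c
  have e' : ((red n d).comp d.piUC.toRingHom).comp (algebraMap s.O d.UC) = residue s.O := by
    rw [red_comp_piUC]
    exact RingHom.ext d.ucRes_algebraMap
  have h1 : evalSystem (Univ.eval u hu : d.UC →ₐ[s.O] s.Kbar).toRingHom a d.S
      (MvPolynomial.map (algebraMap s.O d.UC) t) = 0 := by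
    rw [evalSystem, MvPolynomial.eval₂Hom_map_hom, e]
    exact ht
  have h2 := hc h1
  rw [Ribet.Avoid.residualIdeal, RingHom.mem_ker, evalSystem, MvPolynomial.eval₂Hom_map_hom,
    e'] at h2
  exact h2

/-- The universal character at a tuple of roots of unity. -/
theorem char_gen_eval (u : Fin r → s.Kbar) (hu : ∀ j, u j ^ s.p ^ (n + 1) = 1) :
    (d.char fun j => (Univ.gen j : d.UC)).ringHomComp
      (Univ.eval u hu : d.UC →ₐ[s.O] s.Kbar).toRingHom = d.char u := by
  haveI : Fact (1 < s.p ^ (n + 1)) := ⟨Nat.one_lt_pow n.succ_ne_zero s.hp.out.one_lt⟩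
  rw [d.char_ringHomComp _ _ fun j => Univ.gen_pow j]
  exact congrArg d.char (funext fun j => Univ.eval_gen u hu j)

/-- The value at a system, on series. -/
def sysSeries {S' : Finset ℕ} (u : Fin r → s.Kbar) (hu : ∀ j, u j ^ s.p ^ (n + 1) = 1)
    (a : ℕ → s.Kbar) :
    MvPolynomial (GoodIdx S') (MvPowerSeries s.YVar d.UC) →+* MvPowerSeries s.YVar s.Kbar :=
  MvPolynomial.eval₂Hom (MvPowerSeries.map (Univ.eval u hu : d.UC →ₐ[s.O] s.Kbar).toRingHom)
    fun ℓ : GoodIdx S' => MvPowerSeries.C (a ℓ)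

theorem sysSeries_eq_map_opEval {i : Fin (s.K + 1)} {P : d.Pt i} (R : FRep P) (h : d.Ops) :
    d.sysSeries P.u P.hu P.a h = MvPowerSeries.map R.emb (R.opEval h) :=
  (DFunLike.congr_fun R.map_emb_opEval h).symm

/-- Operators in more primes vanishing at all systems are nilpotent. -/
theorem evT_pow_eq_zero_of_systems (i : Fin (s.K + 1)) {S' : Finset ℕ} (hS' : S' ⊆ d.S)
    (h : MvPolynomial (GoodIdx S') (MvPowerSeries s.YVar d.UC))
    (hz : ∀ u hu a, HasSystem (d.DQ_dvd i) (d.char u) S' a →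
      IsCongruent (algebraMap s.O s.Kbar) (residue s.O) s.abar d.S a → d.sysSeries u hu a h = 0)
    {m : ℕ} (hm : Module.finrank (Coeff n d) (d.Mod i) ≤ m) :
    evT (d.fam i) d.piCoef S' h ^ m = 0 := by
  obtain ⟨T, w, hπ'⟩ := d.exists_piCoef_eq_sum
  have h2 : IsUnit (2 : d.UC) := by
    have h := s.isUnit_two.map (algebraMap s.O d.UC)
    rwa [map_ofNat] at h
  have hκ : Function.Surjective ((red n d).comp d.piUC.toRingHom) := by
    rw [red_comp_piUC]
    exact d.surjective_ucRes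
  refine evT_pow_eq_zero (d.DQ_dvd i) (d.char (d.yval n)) (red n d) d.piUC.toRingHom
    (d.char fun j => (Univ.gen j : d.UC)) s.abar
    (fun u : {u : Fin r → s.Kbar // ∀ j, u j ^ s.p ^ (n + 1) = 1} =>
      (Univ.eval u.1 u.2 : d.UC →ₐ[s.O] s.Kbar).toRingHom)
    d.piCoef T w hπ' d.char_yval_eq h2
    ((s.elliptic3 (d.dvd_levQ_level i)).map (algebraMap s.O d.UC))
    d.surjective_red d.char_red_eq_one hκ (fun x hx h => d.mem_S_of_dvd_levQ_level i hx h)
    (s.nonEis _ _) (fun x hx => ?_) hS' hm h fun u a hs hc => ?_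
  · exact Univ.eq_zero_of_eval s.algebraMap_Kbar_injective x fun v hv => hx ⟨v, hv⟩
  · rw [d.char_gen_eval] at hs
    exact hz u.1 u.2 a hs (d.isCongruent_of_uc hc)

/-- The part at the residual system of a level `L`. -/
abbrev Low {L : ℕ} [NeZero L] (hD : d.DQ ∣ L) : Type :=
  MPart hD (d.char (d.yval n)) (red n d) (fun ℓ : GoodIdx d.S => s.abar ℓ) (Coeff n d)

/-- All operators on it. -/
abbrev lowFam {L : ℕ} [NeZero L] (hD : d.DQ ∣ L) : OpFam (Coeff n d) (d.Low hD) :=
  partFam hD (d.char (d.yval n)) (red n d) fun ℓ : GoodIdx d.S => s.abar ℓ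

/-- The degeneracy maps to the module of `i` from the level `L` without `q`. -/
structure Degen (i : Fin (s.K + 1)) {L : ℕ} [NeZero L] (hD : d.DQ ∣ L) (q : ℕ) where
  /-- `α` -/
  deg : d.Low hD × d.Low hD →ₗ[Coeff n d] d.Mod i
  /-- `α^*` -/
  tra : d.Mod i →ₗ[Coeff n d] d.Low hD × d.Low hD
  /-- a retraction of `α` -/
  retr : d.Mod i →ₗ[Coeff n d] d.Low hD × d.Low hD
  /-- a section of `α^*` -/
  sect : d.Low hD × d.Low hD →ₗ[Coeff n d] d.Mod i
  retr_deg : retr ∘ₗ deg = LinearMap.id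
  tra_sect : tra ∘ₗ sect = LinearMap.id
  tra_deg : ∀ x y, tra (deg (x, y)) =
    (((q : Coeff n d) + 1) • x + (d.lowFam hD).op q y,
      (d.lowFam hD).op q x + ((q : Coeff n d) + 1) • y)
  deg_op : ∀ (h : d.Ops) (x y : d.Low hD),
    deg ((evT (d.lowFam hD) d.piCoef d.S h).1 x, (evT (d.lowFam hD) d.piCoef d.S h).1 y) =
      (d.opAct i h).1 (deg (x, y))
  tra_op : ∀ (h : d.Ops) (z : d.Mod i), tra ((d.opAct i h).1 z) =
    ((evT (d.lowFam hD) d.piCoef d.S h).1 (tra z).1, (evT (d.lowFam hD) d.piCoef d.S h).1 (tra z).2)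
  kernel : ∀ m : ℕ, Module.finrank (Coeff n d) (d.Mod i) ≤ m → ∀ h : d.Ops,
    (∀ (P : d.Pt i) (R : FRep P), P.NewAt q → R.opEval h = 0) → ∀ z : d.Mod i, tra z = 0 →
      (d.opAct i h ^ m).1 z = 0

/-- **The degeneracy maps exist.** -/
theorem exists_degen (i : Fin (s.K + 1)) {L q : ℕ} [NeZero L] [Fact q.Prime] (hD : d.DQ ∣ L)
    (hL : d.levQ i = L * q) (hqL : ¬ q ∣ L) (hqS : q ∈ d.S) (h3 : Elliptic3 s.O L) :
    Nonempty (d.Degen i hD q) := by
  obtain ⟨T, w, hπ'⟩ := d.exists_piCoef_eq_sum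
  have hU : IsUnit (2 : d.UC) := by
    have h := s.isUnit_two.map (algebraMap s.O d.UC)
    rwa [map_ofNat] at h
  have hκ : Function.Surjective ((red n d).comp d.piUC.toRingHom) := by
    rw [red_comp_piUC]
    exact d.surjective_ucRes
  obtain ⟨deg, tra, retr, sect, h1, h2, h4, h5, h6, h7⟩ :=
    exists_degen_maps d.piUC.toRingHom (red n d) hD (d.DQ_dvd i) hL hqL hqS s.abar
      (d.char fun j => (Univ.gen j : d.UC)) (d.char (d.yval n)) d.char_yval_eq d.char_red_eq_one
      hU (h3.map (algebraMap s.O d.UC)) d.surjective_red hκ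
      (fun x hx h => d.mem_S_of_dvd_levQ_level i hx h) (s.nonEis _ d.S)
      (fun u : {u : Fin r → s.Kbar // ∀ j, u j ^ s.p ^ (n + 1) = 1} =>
        (Univ.eval u.1 u.2 : d.UC →ₐ[s.O] s.Kbar).toRingHom)
      (fun x hx => Univ.eq_zero_of_eval s.algebraMap_Kbar_injective x fun v hv => hx ⟨v, hv⟩)
      d.piCoef T w hπ'
  have hne : ∀ ℓ : GoodIdx d.S, (ℓ : ℕ) ≠ q := fun ℓ h => ℓ.2.2 (h ▸ hqS)
  refine ⟨⟨deg, tra, retr, sect, h1, h2, h6, fun h x y => ?_, fun h z => ?_,
    fun m hm h hh z hz => h7 m hm h (fun u b hb hc => ?_) z hz⟩⟩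
  · exact map_evT_prod (d.lowFam hD) (d.fam i) d.piCoef deg (fun ℓ u v => h4 ℓ (hne ℓ) u v) h x y
  · exact Prod.ext
      (map_evT (d.fam i) (d.lowFam hD) d.piCoef (LinearMap.fst (Coeff n d) _ _ ∘ₗ tra)
        (fun ℓ v => congrArg Prod.fst (h5 ℓ (hne ℓ) v)) h z)
      (map_evT (d.fam i) (d.lowFam hD) d.piCoef (LinearMap.snd (Coeff n d) _ _ ∘ₗ tra)
        (fun ℓ v => congrArg Prod.snd (h5 ℓ (hne ℓ) v)) h z)
  · rw [d.char_gen_eval] at hb
    obtain ⟨v, hv, hv', hvq⟩ := hb
    let P : d.Pt i := ⟨u.1, u.2, b, ⟨v, hv, hv'⟩, d.isCongruent_of_uc hc⟩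
    obtain ⟨R⟩ := exists_fRep P
    show d.sysSeries P.u P.hu P.a h = 0
    rw [d.sysSeries_eq_map_opEval R, hh P R ⟨v, hv, hv', hvq⟩, map_zero]

/-- **The discriminant on the lower module.** -/
theorem disc_old_pow (a : Fin s.K) (hd : d.Ops)
    (hdisc : ∀ (P : d.Pt a.castSucc) (R : FRep P) (c : R.O'), P.HasEigen (s.q a) (R.emb c) →
      R.opEval hd = MvPowerSeries.C (((s.q a : R.O') + 1) ^ 2 - c ^ 2))
    {m : ℕ} (hm : Module.finrank (Coeff n d) (d.Mod a.castSucc) ≤ m) :
    (algebraMap (Coeff n d) (allT (d.fam a.castSucc)) (((s.q a : Coeff n d) + 1) ^ 2) -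
      allTEl (d.fam a.castSucc) (s.q a) ^ 2 - d.opAct a.castSucc hd) ^ m = 0 := by
  classical
  set S' := d.S.erase (s.q a) with hS'
  have hSS : S' ⊆ d.S := Finset.erase_subset _ _
  let qi : GoodIdx S' := ⟨s.q a, (s.hq a).1, Finset.notMem_erase _ _⟩
  let inc : GoodIdx d.S → GoodIdx S' := fun ℓ => ⟨ℓ, ℓ.2.1, fun h => ℓ.2.2 (hSS h)⟩
  let h : MvPolynomial (GoodIdx S') (MvPowerSeries s.YVar d.UC) :=
    MvPolynomial.C (((s.q a : MvPowerSeries s.YVar d.UC) + 1) ^ 2) - MvPolynomial.X qi ^ 2 -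
      MvPolynomial.rename inc hd
  have hact : evT (d.fam a.castSucc) d.piCoef S' h =
      algebraMap (Coeff n d) (allT (d.fam a.castSucc)) (((s.q a : Coeff n d) + 1) ^ 2) -
        allTEl (d.fam a.castSucc) (s.q a) ^ 2 - d.opAct a.castSucc hd := by
    have hren : evT (d.fam a.castSucc) d.piCoef S' (MvPolynomial.rename inc hd) =
        d.opAct a.castSucc hd := evT_rename _ d.piCoef inc (fun _ => rfl) hd
    exact (evT_disc _ _ _ qi _).trans (congrArg _ hren)
  rw [← hact]
  refine d.evT_pow_eq_zero_of_systems a.castSucc hSS h (fun u hu b hs hc => ?_) hm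
  obtain ⟨v, hv, hv'⟩ := hs
  have hold : ∀ ℓ : ℕ, ℓ.Prime → ℓ ∉ d.S →
      heckeT' (d.DQ_dvd a.castSucc) (d.char u) s.Kbar ℓ v = b ℓ • v :=
    fun ℓ hℓ hℓS => hv' ℓ hℓ fun h => hℓS (hSS h)
  let P : d.Pt a.castSucc := ⟨u, hu, b, ⟨v, hv, hold⟩, hc⟩
  obtain ⟨R⟩ := exists_fRep P
  have heig : P.HasEigen (s.q a) (b (s.q a)) := ⟨v, hv, hold, hv' _ (s.hq a).1 qi.2.2⟩
  have hc' : R.emb (R.rep (s.phi a)).trace = b (s.q a) := R.trace_old a rfl _ heig
  have hren : d.sysSeries u hu b (MvPolynomial.rename inc hd) =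
      MvPowerSeries.map R.emb (R.opEval hd) :=
    (MvPolynomial.eval₂Hom_rename _ inc _ hd).trans (d.sysSeries_eq_map_opEval R hd)
  refine (eval₂Hom_disc _ _ _ qi _).trans ?_
  rw [show (MvPolynomial.eval₂Hom _ _ (MvPolynomial.rename inc hd)) = _ from hren,
    hdisc P R _ (hc' ▸ heig), MvPowerSeries.map_C]
  simp only [map_pow, map_add, map_sub, map_one, map_natCast, hc']
  exact sub_self _

end FAux

/-- Outside the maximal ideal times the module there is a unit coordinate in every basis. -/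
theorem exists_isUnit_repr {R M ι : Type} [CommRing R] [IsLocalRing R] [AddCommGroup M]
    [Module R M] (b : Module.Basis ι R M) {v : M}
    (hv : v ∉ maximalIdeal R • (⊤ : Submodule R M)) : ∃ c, IsUnit (b.repr v c) := by
  by_contra h
  push Not at h
  refine hv ?_
  rw [← b.linearCombination_repr v, Finsupp.linearCombination_apply]
  exact Submodule.sum_mem _ fun c _ =>
    Submodule.smul_mem_smul ((mem_maximalIdeal _).2 (h c)) trivial

/-- A split surjection onto a module of smaller rank has a primitive vector in its kernel. -/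
theorem exists_kernel_primitive {R M X : Type} [CommRing R] [IsLocalRing R] [AddCommGroup M]
    [Module R M] [Module.Finite R M] [AddCommGroup X] [Module R X] (f : M →ₗ[R] X)
    (g : X →ₗ[R] M) (hfg : f ∘ₗ g = LinearMap.id)
    (hlt : Module.finrank R X < Module.finrank R M) :
    ∃ v, f v = 0 ∧ v ∉ maximalIdeal R • (⊤ : Submodule R M) := by
  by_contra h
  push Not at h
  have hgf : ∀ x, f (g x) = x := LinearMap.congr_fun hfg
  have hle : (⊤ : Submodule R M) ≤ LinearMap.range g ⊔ maximalIdeal R • ⊤ := fun x _ => by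
    rw [← add_sub_cancel (g (f x)) x]
    exact Submodule.add_mem _ (Submodule.mem_sup_left ⟨_, rfl⟩)
      (Submodule.mem_sup_right (h _ (by rw [map_sub, hgf, sub_self])))
  have htop : (⊤ : Submodule R M) ≤ LinearMap.range g :=
    Submodule.le_of_le_smul_of_le_jacobson_bot Module.Finite.fg_top
      (IsLocalRing.maximalIdeal_le_jacobson _) hle
  have e : X ≃ₗ[R] M := LinearEquiv.ofBijective g
    ⟨Function.LeftInverse.injective hgf, fun x => htop (Submodule.mem_top)⟩
  exact hlt.ne e.finrank_eq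

/-- The rank of a part is that of its residual part. -/
theorem FAux.finrank_low_eq_residue (d : FAux s r n) {L : ℕ} [NeZero L] (hD : d.DQ ∣ L)
    (h3 : Elliptic3 (Coeff n d) L) (ha : NonEis L d.S fun ℓ : GoodIdx d.S => s.abar ℓ) :
    Module.finrank (Coeff n d) (MPart hD (d.char (d.yval n)) (red n d)
        (fun ℓ : GoodIdx d.S => s.abar ℓ) (Coeff n d)) =
      Module.finrank s.kk (MPart hD (1 : DirichletCharacter s.kk d.DQ) (RingHom.id s.kk)
        (fun ℓ : GoodIdx d.S => s.abar ℓ) s.kk) := by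
  classical
  haveI := free_mPart hD (d.char (d.yval n)) (red n d) (fun ℓ : GoodIdx d.S => s.abar ℓ)
    d.isUnit_two_coeff_level h3 ha
  haveI := finite_mPart hD (d.char (d.yval n)) (red n d) (fun ℓ : GoodIdx d.S => s.abar ℓ)
    (Coeff n d)
  let a := fun ℓ : GoodIdx d.S => s.abar ℓ
  let b := Module.Free.chooseBasis (Coeff n d) (MPart hD (d.char (d.yval n)) (red n d) a (Coeff n d))
  let F := mapPart hD (d.char (d.yval n)) (red n d) a (red n d) (RingHom.id s.kk)
    (RingHom.id_comp _)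
  obtain ⟨c, -⟩ := exists_basis_map F b d.surjective_red
    (mapPart_surjective hD _ (red n d) a _ _ (RingHom.id_comp _) d.surjective_red
      d.isUnit_two_coeff_level h3)
    fun x hx => (mapPart_eq_zero_iff hD _ (red n d) a _ _ (RingHom.id_comp _) d.surjective_red
      d.isUnit_two_coeff_level h3 x).1 hx
  have h := (Module.finrank_eq_card_basis b).trans (Module.finrank_eq_card_basis c).symm
  rw [d.char_red_eq_one] at h
  exact h

namespace FAux

variable (d : FAux s r n)

/-- **A vector of the first module on which the main relations hold.** -/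
theorem exists_base (hpos : 0 < Module.finrank (Coeff n d) (d.Mod 0)) :
    ∃ z : d.Mod 0, z ∉ maximalIdeal (Coeff n d) • (⊤ : Submodule (Coeff n d) (d.Mod 0)) ∧
      ∀ (h : d.Ops), (∀ (P : d.Pt 0) (R : FRep P), (¬ s.p ∣ s.N ∨ P.NewAt s.p) →
          R.opEval h = 0) → ∀ m : ℕ, Module.finrank (Coeff n d) (d.Mod 0) ≤ m →
        (d.opAct 0 h ^ m).1 z = 0 := by
  classical
  haveI : Module.Finite (Coeff n d) (d.Mod 0) :=
    finite_mPart (d.DQ_dvd 0) (d.char (d.yval n)) (red n d) _ (Coeff n d)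
  haveI : Module.Free (Coeff n d) (d.Mod 0) :=
    free_mPart (d.DQ_dvd 0) (d.char (d.yval n)) (red n d) _ d.isUnit_two_coeff_level
      ((s.elliptic3 (d.dvd_levQ_level 0)).map (algebraMap s.O (Coeff n d))) (s.nonEis _ d.S)
  by_cases hpN : s.p ∣ s.N
  · obtain ⟨M, hM⟩ := hpN
    have hpN : s.p ∣ s.N := ⟨M, hM⟩
    set L := M * s.aux * d.DQ with hLdef
    have hL : L * s.p = d.levQ 0 := by
      rw [hLdef, FAux.levQ, s.lev_zero, hM]
      ring
    haveI : NeZero L := ⟨fun h => NeZero.ne (d.levQ 0) (by rw [← hL, h, zero_mul])⟩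
    haveI : NeZero (L * s.p) := ⟨hL ▸ NeZero.ne (d.levQ 0)⟩
    haveI : Fact s.p.Prime := s.hp
    have hD : d.DQ ∣ L := Dvd.intro_left _ rfl
    have hpL : ¬ s.p ∣ L := by
      intro h
      rcases (Nat.Prime.dvd_mul s.hp.out).1 h with h | h
      · rcases (Nat.Prime.dvd_mul s.hp.out).1 h with h | h
        · have h2 := s.hN
          rw [hM] at h2
          exact s.hp.out.ne_one (Nat.isUnit_iff.1 (h2 s.p (mul_dvd_mul dvd_rfl h)))
        · rcases s.haux with h1 | ⟨hx, hxp, -, -⟩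
          · rw [h1] at h
            exact s.hp.out.ne_one (Nat.dvd_one.1 h)
          · exact hxp ((Nat.prime_dvd_prime_iff_eq s.hp.out hx).1 h).symm
      · obtain ⟨j, -, hj⟩ := (Prime.dvd_finsetProd_iff s.hp.out.prime _).1 h
        exact d.Q_ne_p j ((Nat.prime_dvd_prime_iff_eq s.hp.out (d.prime j)).1 hj).symm
    have hpS : s.p ∈ d.S := Finset.mem_union_left _ ((s.hS0 s.p).2 (Or.inl rfl))
    have h3 : Elliptic3 s.O L := by
      refine Ribet.Avoid.EllipticOK.elliptic3 ?_
      by_cases hp3 : s.p = 3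
      · obtain ⟨x, hx, hxd, hxm⟩ := s.hthree hp3
        refine Or.inr ⟨x, hxm, hx, ?_⟩
        have hxL : x ∣ L * s.p := by
          rw [hL, FAux.levQ, s.lev_zero]
          exact dvd_mul_of_dvd_left hxd _
        refine (hx.dvd_mul.1 hxL).resolve_right fun h => ?_
        rw [(Nat.prime_dvd_prime_iff_eq hx s.hp.out).1 h, hp3] at hxm
        omega
      · exact Or.inl (by simpa using s.isUnit_natCast Nat.prime_three (Ne.symm hp3))
    obtain ⟨D⟩ := d.exists_degen 0 hD hL.symm hpL hpS h3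
    haveI := free_mPart hD (d.char (d.yval n)) (red n d) (fun ℓ : GoodIdx d.S => s.abar ℓ)
      d.isUnit_two_coeff_level (h3.map (algebraMap s.O (Coeff n d))) (s.nonEis L d.S)
    haveI := finite_mPart hD (d.char (d.yval n)) (red n d) (fun ℓ : GoodIdx d.S => s.abar ℓ)
      (Coeff n d)
    have hlt : Module.finrank (Coeff n d)
        (MPart hD (d.char (d.yval n)) (red n d) (fun ℓ : GoodIdx d.S => s.abar ℓ) (Coeff n d) ×
          MPart hD (d.char (d.yval n)) (red n d) (fun ℓ : GoodIdx d.S => s.abar ℓ) (Coeff n d)) <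
        Module.finrank (Coeff n d) (d.Mod 0) := by
      have key : ∀ {L' : ℕ} [NeZero L'] (hD' : d.DQ ∣ L'), L * s.p = L' →
          Elliptic3 (Coeff n d) L' →
          2 * Module.finrank (Coeff n d) (MPart hD (d.char (d.yval n)) (red n d)
              (fun ℓ : GoodIdx d.S => s.abar ℓ) (Coeff n d)) <
            Module.finrank (Coeff n d) (MPart hD' (d.char (d.yval n)) (red n d)
              (fun ℓ : GoodIdx d.S => s.abar ℓ) (Coeff n d)) := by
        intro L' _ hD' e h3'
        subst e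
        rw [d.finrank_low_eq_residue hD (h3.map (algebraMap s.O (Coeff n d)))
          (s.nonEis L d.S), d.finrank_low_eq_residue hD' h3' (s.nonEis (L * s.p) d.S)]
        exact two_mul_finrank_lt d hpN L hL hD
      rw [Module.finrank_prod, ← two_mul]
      exact key (d.DQ_dvd 0) hL ((s.elliptic3 (d.dvd_levQ_level 0)).map (algebraMap s.O (Coeff n d)))
    obtain ⟨v, hv0, hv⟩ := exists_kernel_primitive D.tra D.sect D.tra_sect hlt
    exact ⟨v, hv, fun h hh m hm => D.kernel m hm h (fun P R hP => hh P R (Or.inr hP)) v hv0⟩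
  · let b := Module.finBasis (Coeff n d) (d.Mod 0)
    refine ⟨b ⟨0, hpos⟩, fun h => ?_, fun h hh m hm => ?_⟩
    · have h1 : b.repr (b ⟨0, hpos⟩) ⟨0, hpos⟩ ∈ maximalIdeal (Coeff n d) :=
        Submodule.smul_induction_on (p := fun x => b.repr x ⟨0, hpos⟩ ∈ maximalIdeal (Coeff n d)) h
          (fun r hr x _ => by
            rw [map_smul, Finsupp.smul_apply, smul_eq_mul]
            exact Ideal.mul_mem_right _ _ hr)
          fun x y hx hy => by
            rw [map_add, Finsupp.add_apply]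
            exact Ideal.add_mem _ hx hy
      rw [b.repr_self, Finsupp.single_eq_same] at h1
      exact (mem_maximalIdeal _).1 h1 isUnit_one
    · rw [d.opAct_pow_eq_zero 0 h (fun P R => hh P R (Or.inl hpN)) hm]
      rfl

end FAux

end Fermat.Agent.Lifting
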