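import Fermat.Agent.Lifting.FNilpotent
import Mathlib.RingTheory.Artinian.Module
import Mathlib.RingTheory.MvPowerSeries.Basic
import Mathlib.Algebra.BigOperators.Ring.Finset

/-!
# Modularity lifting: the commutative algebra of all operators on the part at the system

`allT` is generated by every `T'_ℓ`; `evT f` evaluates polynomials in the primes outside a set,
with coefficients sent to `R` by `f`.  Polynomials which are residually `0` are nilpotent, the
others are units; a polynomial with series coefficients vanishing at all systems is nilpotent of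
exponent the rank.
-/

set_option autoImplicit false

noncomputable section

namespace Fermat.Agent.Lifting

open IsLocalRing
open Fermat.Agent.Ribet.Twisted (HasSystem CohL heckeT')
open Fermat.Agent.Ribet.Avoid (IsCongruent evalSystem)
open scoped IsMulCommutative

section Abstract

variable {R : Type} [CommRing R] {M : Type} [AddCommGroup M] [Module R M]

/-- A commuting family of operators. -/
structure OpFam (R M : Type) [CommRing R] [AddCommGroup M] [Module R M] where
  /-- the operators -/
  op : ℕ → Module.End R M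
  comm : ∀ ℓ m, Commute (op ℓ) (op m)

variable (o : OpFam R M)

/-- The algebra generated by all the operators. -/
def allT : Subalgebra R (Module.End R M) := Algebra.adjoin R (Set.range o.op)

instance isMulCommutative_allT : IsMulCommutative (allT o) :=
  Algebra.isMulCommutative_adjoin R fun _ ⟨ℓ, hℓ⟩ _ ⟨m, hm⟩ => hℓ ▸ hm ▸ o.comm ℓ m

/-- An operator in the algebra. -/
def allTEl (ℓ : ℕ) : allT o := ⟨o.op ℓ, Algebra.subset_adjoin ⟨ℓ, rfl⟩⟩

variable {A : Type} [CommRing A] (f : A →+* R) (S' : Finset ℕ)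

/-- Evaluation of polynomials in the primes outside `S'`. -/
def evT : MvPolynomial (GoodIdx S') A →+* allT o :=
  MvPolynomial.eval₂Hom ((algebraMap R (allT o)).comp f) fun ℓ => allTEl o (ℓ : ℕ)

theorem evT_C (c : A) : evT o f S' (MvPolynomial.C c) = algebraMap R (allT o) (f c) :=
  MvPolynomial.eval₂Hom_C _ _ c

theorem evT_X (ℓ : GoodIdx S') : evT o f S' (MvPolynomial.X ℓ) = allTEl o (ℓ : ℕ) :=
  MvPolynomial.eval₂Hom_X' _ _ ℓ

theorem evT_map {B : Type} [CommRing B] (g : B →+* A) (t : MvPolynomial (GoodIdx S') B) :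
    evT o f S' (MvPolynomial.map g t) = evT o (f.comp g) S' t := by
  rw [evT, evT, MvPolynomial.eval₂Hom_map_hom, RingHom.comp_assoc]

/-- The algebra map, on vectors. -/
theorem algebraMap_allT_apply (c : R) (x : M) :
    ((algebraMap R (allT o) c : allT o) : Module.End R M) x = c • x := rfl

/-- Evaluation commutes with a map intertwining the generators. -/
theorem evT_intertwine {X : Type} [AddCommGroup X] [Module R X]
    (E : MvPolynomial (GoodIdx S') R →ₐ[R] Module.End R X) (p : X →ₗ[R] M)
    (hp : ∀ (ℓ : GoodIdx S') x, p (E (MvPolynomial.X ℓ) x) = o.op ℓ (p x))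
    (t : MvPolynomial (GoodIdx S') A) (x : X) :
    (evT o f S' t : Module.End R M) (p x) = p (E (MvPolynomial.map f t) x) := by
  induction t using MvPolynomial.induction_on generalizing x with
  | C c =>
    rw [evT_C, MvPolynomial.map_C, ← MvPolynomial.algebraMap_eq, AlgHom.commutes,
      algebraMap_allT_apply, Module.algebraMap_end_apply, map_smul]
  | add q q' hq hq' =>
    rw [map_add, map_add, map_add, Subalgebra.coe_add, LinearMap.add_apply,
      LinearMap.add_apply, hq, hq', map_add]
  | mul_X q m hq =>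
    rw [map_mul, map_mul, evT_X, MvPolynomial.map_X, map_mul, Subalgebra.coe_mul,
      Module.End.mul_apply, Module.End.mul_apply, ← hq, hp]
    rfl

theorem finite_allT [IsNoetherianRing R] [Module.Finite R M] : Module.Finite R (allT o) := by
  haveI : Module.Finite R (Module.End R M) := by
    obtain ⟨n, φ, hφ⟩ := Module.Finite.exists_fin' R M
    let Φ : Module.End R M →ₗ[R] (Fin n → M) :=
      { toFun := fun g i => g (φ (Pi.single i 1))
        map_add' := fun _ _ => rfl
        map_smul' := fun _ _ => rfl }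
    refine Module.Finite.of_injective Φ fun g g' h => LinearMap.ext fun x => ?_
    obtain ⟨v, rfl⟩ := hφ x
    have h' : g.comp φ = g'.comp φ :=
      LinearMap.pi_ext' fun i => LinearMap.ext_ring (congrFun h i)
    exact LinearMap.congr_fun h' v
  exact Module.Finite.of_injective (allT o).val.toLinearMap Subtype.val_injective

variable [IsArtinianRing R] [Module.Finite R M]

/-- An element of the algebra which is injective on the module is a unit. -/
theorem isUnit_allT {z : allT o} (hz : Function.Injective (z : Module.End R M)) : IsUnit z := by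
  have hfin := finite_allT o
  haveI : IsArtinian R ↥(allT o) :=
    @isArtinian_of_fg_of_artinian' R ↥(allT o) _ (allT o).toRing.toAddCommGroup
      (allT o).instModuleSubtypeMem _ hfin
  have hμ : Function.Injective (LinearMap.mulLeft R z) := fun u u' h =>
    Subtype.ext (LinearMap.ext fun x => hz (LinearMap.congr_fun (congrArg Subtype.val h) x))
  obtain ⟨w, hw⟩ := (IsArtinian.bijective_of_injective_endomorphism _ hμ).2 1
  exact IsUnit.of_mul_eq_one w hw

/-- If the polynomials outside a proper ideal act injectively, those inside act nilpotently. -/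
theorem isNilpotent_allT {I : Type} (x : I → allT o) (P : Ideal (MvPolynomial I R)) (hP : P ≠ ⊤)
    (hunit : ∀ w, w ∉ P → IsUnit (MvPolynomial.aeval x w))
    {u : MvPolynomial I R} (hu : u ∈ P) : IsNilpotent (MvPolynomial.aeval x u) := by
  have hfin := finite_allT o
  let E : MvPolynomial I R →ₐ[R] allT o := MvPolynomial.aeval x
  have hF : Function.Injective (Ideal.kerLiftAlg E) := Ideal.kerLiftAlg_injective E
  haveI : IsNoetherian R ↥(allT o) :=
    @isNoetherian_of_isNoetherianRing_of_finite R ↥(allT o) _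
      (allT o).toRing.toAddCommGroup (allT o).instModuleSubtypeMem _ hfin
  haveI : Module.Finite R (MvPolynomial I R ⧸ RingHom.ker E) :=
    Module.Finite.of_injective (Ideal.kerLiftAlg E).toLinearMap hF
  haveI : IsArtinianRing (MvPolynomial I R ⧸ RingHom.ker E) := IsArtinianRing.of_finite R _
  have hnil : IsNilpotent (Ideal.Quotient.mk (RingHom.ker E) u) := by
    refine nilpotent_iff_mem_prime.mpr fun J hJ => ?_
    haveI : J.IsMaximal := (IsArtinianRing.isPrime_iff_isMaximal _).mp hJ
    haveI hQmax : (J.comap (Ideal.Quotient.mk (RingHom.ker E))).IsMaximal :=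
      Ideal.comap_isMaximal_of_surjective _ Ideal.Quotient.mk_surjective
    have hle : J.comap (Ideal.Quotient.mk (RingHom.ker E)) ≤ P := by
      intro w hw
      by_contra hne
      refine hJ.ne_top (Ideal.eq_top_of_isUnit_mem _ hw
        (IsArtinianRing.isUnit_of_mem_nonZeroDivisors ?_))
      rw [mem_nonZeroDivisors_iff_right]
      intro z hz
      apply hF
      have h2 := congrArg (Ideal.kerLiftAlg E) hz
      rw [map_mul, map_zero, Ideal.kerLiftAlg_mk] at h2
      rw [map_zero]
      exact (hunit w hne).mul_left_eq_zero.mp h2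
    have : u ∈ J.comap (Ideal.Quotient.mk (RingHom.ker E)) := by
      rw [hQmax.eq_of_le hP hle]
      exact hu
    exact this
  obtain ⟨N, hN⟩ := hnil
  refine ⟨N, ?_⟩
  show E u ^ N = 0
  rw [← map_pow, ← Ideal.kerLiftAlg_mk E (u ^ N), map_pow (Ideal.Quotient.mk _), hN, map_zero]

end Abstract

section Coefficients

variable {Y I : Type} {A : Type} [CommRing A] {R : Type} [CommRing R]

/-- The polynomial of the coefficients at `β`. -/
def coeffPoly (β : Y →₀ ℕ) (h : MvPolynomial I (MvPowerSeries Y A)) : MvPolynomial I A :=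
  ∑ d ∈ h.support, MvPolynomial.monomial d (MvPowerSeries.coeff β (MvPolynomial.coeff d h))

theorem coeff_coeffPoly (β : Y →₀ ℕ) (h : MvPolynomial I (MvPowerSeries Y A)) (d : I →₀ ℕ) :
    MvPolynomial.coeff d (coeffPoly β h) = MvPowerSeries.coeff β (MvPolynomial.coeff d h) := by
  classical
  rw [coeffPoly, MvPolynomial.coeff_sum]
  simp only [MvPolynomial.coeff_monomial]
  rw [Finset.sum_ite_eq']
  split_ifs with h'
  · rfl
  · rw [MvPolynomial.notMem_support_iff.mp h', map_zero]

theorem coeffPoly_add (β : Y →₀ ℕ) (p q : MvPolynomial I (MvPowerSeries Y A)) :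
    coeffPoly β (p + q) = coeffPoly β p + coeffPoly β q :=
  MvPolynomial.ext _ _ fun d => by
    simp only [MvPolynomial.coeff_add, coeff_coeffPoly, map_add]

theorem coeffPoly_C (β : Y →₀ ℕ) (c : MvPowerSeries Y A) :
    coeffPoly β (MvPolynomial.C c : MvPolynomial I (MvPowerSeries Y A)) =
      MvPolynomial.C (MvPowerSeries.coeff β c) := by
  classical
  refine MvPolynomial.ext _ _ fun d => ?_
  rw [coeff_coeffPoly, MvPolynomial.coeff_C, MvPolynomial.coeff_C]
  split_ifs <;> simp

theorem coeffPoly_mul_X (β : Y →₀ ℕ) (p : MvPolynomial I (MvPowerSeries Y A)) (i : I) :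
    coeffPoly β (p * MvPolynomial.X i) = coeffPoly β p * MvPolynomial.X i := by
  classical
  refine MvPolynomial.ext _ _ fun d => ?_
  rw [coeff_coeffPoly, MvPolynomial.coeff_mul_X', MvPolynomial.coeff_mul_X']
  split_ifs <;> simp [coeff_coeffPoly]

theorem evalSystem_coeffPoly {B : Type} [CommRing B] {S' : Finset ℕ} (φ : A →+* B) (a' : ℕ → B)
    (β : Y →₀ ℕ) (h : MvPolynomial (GoodIdx S') (MvPowerSeries Y A)) :
    evalSystem φ a' S' (coeffPoly β h) = MvPowerSeries.coeff β
      (MvPolynomial.eval₂Hom (MvPowerSeries.map φ) (fun ℓ : GoodIdx S' => MvPowerSeries.C (a' ℓ)) h) := by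
  induction h using MvPolynomial.induction_on with
  | C c => simp [coeffPoly_C, evalSystem]
  | add p q hp hq => rw [coeffPoly_add, map_add, map_add, map_add, hp, hq]
  | mul_X p i hp =>
    rw [coeffPoly_mul_X, map_mul, map_mul, hp, MvPolynomial.eval₂Hom_X', evalSystem,
      MvPolynomial.eval₂Hom_X', MvPowerSeries.coeff_mul_C]

/-- The coefficient expansion. -/
theorem eval₂Hom_eq_sum_coeffPoly {B : Type} [CommRing B] (g : R →+* B) (x : I → B) (π : A →+* R)
    (π' : MvPowerSeries Y A →+* R) (T : Finset (Y →₀ ℕ)) (w : (Y →₀ ℕ) → R)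
    (hπ' : ∀ c, π' c = ∑ β ∈ T, π (MvPowerSeries.coeff β c) * w β)
    (h : MvPolynomial I (MvPowerSeries Y A)) :
    MvPolynomial.eval₂Hom (g.comp π') x h =
      ∑ β ∈ T, g (w β) * MvPolynomial.eval₂Hom (g.comp π) x (coeffPoly β h) := by
  induction h using MvPolynomial.induction_on with
  | C c =>
    rw [MvPolynomial.eval₂Hom_C, RingHom.comp_apply, hπ', map_sum]
    exact Finset.sum_congr rfl fun β _ => by
      rw [coeffPoly_C, MvPolynomial.eval₂Hom_C, RingHom.comp_apply, map_mul, mul_comm]
  | add p q hp hq =>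
    rw [map_add, hp, hq, ← Finset.sum_add_distrib]
    exact Finset.sum_congr rfl fun β _ => by rw [coeffPoly_add, map_add, mul_add]
  | mul_X p i hp =>
    rw [map_mul, hp, Finset.sum_mul]
    exact Finset.sum_congr rfl fun β _ => by
      rw [coeffPoly_mul_X, map_mul, MvPolynomial.eval₂Hom_X', MvPolynomial.eval₂Hom_X', mul_assoc]

theorem eval₂Hom_pow_eq_zero {B : Type} [CommRing B] (g : R →+* B) (x : I → B) (π : A →+* R)
    (π' : MvPowerSeries Y A →+* R) (T : Finset (Y →₀ ℕ)) (w : (Y →₀ ℕ) → R)
    (hπ' : ∀ c, π' c = ∑ β ∈ T, π (MvPowerSeries.coeff β c) * w β)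
    (h : MvPolynomial I (MvPowerSeries Y A)) {m : ℕ}
    (hz : ∀ p : Fin m → (Y →₀ ℕ),
      ∏ c, MvPolynomial.eval₂Hom (g.comp π) x (coeffPoly (p c) h) = 0) :
    MvPolynomial.eval₂Hom (g.comp π') x h ^ m = 0 := by
  rw [eval₂Hom_eq_sum_coeffPoly g x π π' T w hπ' h, Finset.sum_pow']
  refine Finset.sum_eq_zero fun p _ => ?_
  rw [Finset.prod_mul_distrib, hz p, mul_zero]

/-- The nilpotency criterion, for the operators. -/
theorem evT_pow_eq_zero_of_coeffPoly {M : Type} [AddCommGroup M] [Module R M] (o : OpFam R M)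
    {S' : Finset ℕ} (π : A →+* R) (π' : MvPowerSeries Y A →+* R) (T : Finset (Y →₀ ℕ))
    (w : (Y →₀ ℕ) → R) (hπ' : ∀ c, π' c = ∑ β ∈ T, π (MvPowerSeries.coeff β c) * w β)
    (h : MvPolynomial (GoodIdx S') (MvPowerSeries Y A)) {m : ℕ}
    (hz : ∀ p : Fin m → (Y →₀ ℕ), ∏ c, evT o π S' (coeffPoly (p c) h) = 0) :
    evT o π' S' h ^ m = 0 :=
  eval₂Hom_pow_eq_zero (algebraMap R (allT o)) (fun ℓ : GoodIdx S' => allTEl o (ℓ : ℕ))
    π π' T w hπ' h hz

end Coefficients

section Part

variable {R : Type} [CommRing R] {k : Type} [Field k] {L D : ℕ} [NeZero L] (hD : D ∣ L)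
  (ψ : DirichletCharacter R D) (res : R →+* k) {S : Finset ℕ} (a : GoodIdx S → k)

/-- The operators on the part at the system. -/
def partFam : OpFam R (MPart hD ψ res a R) :=
  ⟨fun ℓ => partT hD ψ res a R ℓ, fun ℓ m => partT_comm hD ψ res a R ℓ m⟩

variable {A : Type} [CommRing A] (f : A →+* R)

/-- Evaluation on classes. -/
theorem evT_toPart {S' : Finset ℕ} (t : MvPolynomial (GoodIdx S') A) (x : CohL hD ψ R) :
    (evT (partFam hD ψ res a) f S' t : Module.End R (MPart hD ψ res a R))
        (toPart hD ψ res a R x) =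
      toPart hD ψ res a R (cohAct hD ψ S' R (MvPolynomial.map f t) x) := by
  refine evT_intertwine (partFam hD ψ res a) f S' (cohAct hD ψ S' R) (toPart hD ψ res a R)
    (fun ℓ y => ?_) t x
  rw [cohAct_X]
  exact (partT_toPart hD ψ res a R ℓ y).symm

/-- On the part, an evaluation is the action. -/
theorem evT_eq_partAct (t : MvPolynomial (GoodIdx S) A) :
    (evT (partFam hD ψ res a) f S t : Module.End R (MPart hD ψ res a R)) =
      partAct hD ψ res a R (MvPolynomial.map f t) := by
  refine LinearMap.ext fun x => ?_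
  obtain ⟨x, rfl⟩ := toPart_surjective hD ψ res a R x
  rw [evT_toPart, partAct_toPart]

/-- Residually non-zero polynomials are units. -/
theorem isUnit_evT [IsArtinianRing R] (t : MvPolynomial (GoodIdx S) A)
    (ht : sysEval (res.comp f) a t ≠ 0) : IsUnit (evT (partFam hD ψ res a) f S t) := by
  haveI := finite_mPart hD ψ res a R
  refine isUnit_allT _ ?_
  rw [evT_eq_partAct]
  exact partAct_injective hD ψ res a R (by rwa [sysEval, MvPolynomial.eval₂Hom_map_hom])

/-- Residually zero polynomials are nilpotent. -/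
theorem isNilpotent_evT [IsArtinianRing R] (t : MvPolynomial (GoodIdx S) A)
    (ht : sysEval (res.comp f) a t = 0) : IsNilpotent (evT (partFam hD ψ res a) f S t) := by
  haveI := finite_mPart hD ψ res a R
  rw [← RingHom.id_comp f, ← evT_map]
  refine isNilpotent_allT (partFam hD ψ res a)
    (fun ℓ : GoodIdx S => allTEl (partFam hD ψ res a) (ℓ : ℕ)) (RingHom.ker (sysEval res a))
    (RingHom.ker_ne_top _) (fun w hw => isUnit_evT hD ψ res a (RingHom.id R) w ?_) ?_
  · rw [RingHom.comp_id]
    exact hw
  · show sysEval res a (MvPolynomial.map f t) = 0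
    rwa [sysEval, MvPolynomial.eval₂Hom_map_hom]

variable [IsLocalRing R] [IsArtinianRing R] [IsLocalRing A] [IsNoetherianRing A]
  [IsAdicComplete (maximalIdeal A) A] (π : A →+* R) (ψA : DirichletCharacter A D)
  (abar : ℕ → k) {K : Type} [Field K] [CharZero K] [IsAlgClosed K] {J : Type} (φ : J → A →+* K)

/-- Products of `m` operators vanishing at all systems are zero. -/
theorem prod_evT_eq_zero (hψA : ψ = ψA.ringHomComp π) (h2 : IsUnit (2 : A)) (h3 : Elliptic3 A L)
    (hres : Function.Surjective res) (hψ : ψ.ringHomComp res = 1)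
    (hκ : Function.Surjective (res.comp π))
    (hLS : ∀ x : ℕ, x.Prime → x ∣ L → x ∈ S) (ha : NonEis L S fun ℓ : GoodIdx S => abar ℓ)
    (hφ : ∀ x, (∀ j, φ j x = 0) → x = 0) {S' : Finset ℕ} (hS' : S' ⊆ S) {m : ℕ}
    (hm : Module.finrank R (MPart hD ψ res (fun ℓ : GoodIdx S => abar ℓ) R) ≤ m)
    (t : Fin m → MvPolynomial (GoodIdx S') A)
    (ht : ∀ c j a, HasSystem hD (ψA.ringHomComp (φ j)) S' a →
      IsCongruent (φ j) (res.comp π) abar S a → evalSystem (φ j) a S' (t c) = 0) :
    ∏ c, evT (partFam hD ψ res fun ℓ : GoodIdx S => abar ℓ) π S' (t c) = 0 := by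
  subst hψA
  have h := prod_partPoly_eq_zero π res hD ψA abar h2 h3 hres hψ hκ hLS ha φ hφ hS' hm t ht
  rw [← List.prod_ofFn]
  apply Subtype.ext
  change (allT (partFam hD (ψA.ringHomComp π) res _)).val _ = _
  rw [map_list_prod, List.map_ofFn]
  refine Eq.trans (congrArg List.prod (congrArg List.ofFn (funext fun c => ?_))) h
  refine LinearMap.ext fun x => ?_
  obtain ⟨x, rfl⟩ := toPart_surjective hD _ res _ R x
  exact evT_toPart hD _ res _ π (t c) x

variable {Y : Type}

/-- **A polynomial with series coefficients vanishing at all systems is nilpotent of exponent the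
rank.** -/
theorem evT_pow_eq_zero (π' : MvPowerSeries Y A →+* R) (T : Finset (Y →₀ ℕ))
    (w : (Y →₀ ℕ) → R) (hπ' : ∀ c, π' c = ∑ β ∈ T, π (MvPowerSeries.coeff β c) * w β)
    (hψA : ψ = ψA.ringHomComp π) (h2 : IsUnit (2 : A)) (h3 : Elliptic3 A L)
    (hres : Function.Surjective res) (hψ : ψ.ringHomComp res = 1)
    (hκ : Function.Surjective (res.comp π))
    (hLS : ∀ x : ℕ, x.Prime → x ∣ L → x ∈ S) (ha : NonEis L S fun ℓ : GoodIdx S => abar ℓ)
    (hφ : ∀ x, (∀ j, φ j x = 0) → x = 0) {S' : Finset ℕ} (hS' : S' ⊆ S) {m : ℕ}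
    (hm : Module.finrank R (MPart hD ψ res (fun ℓ : GoodIdx S => abar ℓ) R) ≤ m)
    (h : MvPolynomial (GoodIdx S') (MvPowerSeries Y A))
    (ht : ∀ j a', HasSystem hD (ψA.ringHomComp (φ j)) S' a' →
      IsCongruent (φ j) (res.comp π) abar S a' →
        MvPolynomial.eval₂Hom (MvPowerSeries.map (φ j))
          (fun ℓ : GoodIdx S' => MvPowerSeries.C (a' ℓ)) h = 0) :
    evT (partFam hD ψ res fun ℓ : GoodIdx S => abar ℓ) π' S' h ^ m = 0 := by
  refine evT_pow_eq_zero_of_coeffPoly (partFam hD ψ res fun ℓ : GoodIdx S => abar ℓ)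
    π π' T w hπ' h fun p => ?_
  exact prod_evT_eq_zero hD ψ res π ψA abar φ hψA h2 h3 hres hψ hκ hLS ha hφ hS' hm
    (fun c => coeffPoly (p c) h) fun c j a' hs hc => by
      rw [evalSystem_coeffPoly, ht j a' hs hc, map_zero]

end Part

end Fermat.Agent.Lifting
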