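import Fermat.Agent.Lifting.FSetup
import Fermat.Agent.Ribet.Avoid.Universal

/-!
# Modularity lifting: arithmetic of the levels and of their characters
-/

set_option autoImplicit false

noncomputable section

namespace Fermat.Agent.Lifting

open IsLocalRing
open Fermat.Agent.Ribet.Avoid (charOfGen charOfGen_apply charOfGen_ringHomComp
  changeLevel_ringHomComp ringHomComp_prod)

namespace FSetup

variable (s : FSetup)

theorem p_mem_S0 : s.p ∈ s.S0 := (s.hS0 _).mpr (Or.inl rfl)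

theorem q_mem_leftOut (a : Fin s.K) : s.q a ∈ s.S0 := (s.hS0 _).mpr (Or.inr (Or.inr ⟨a, rfl⟩))

theorem not_dvd_aux_of_ne {x : ℕ} (hx : x.Prime) (h : s.aux ≠ x) : ¬ x ∣ s.aux := fun hd => by
  rcases s.haux with h1 | h1
  · exact hx.ne_one (Nat.dvd_one.mp (h1 ▸ hd))
  · exact h ((Nat.prime_dvd_prime_iff_eq hx h1.1).mp hd).symm

theorem aux_ne_p : s.aux ≠ s.p := by
  rcases s.haux with h | h
  · exact fun h1 => s.hp.out.ne_one (h1.symm.trans h)
  · exact h.2.1

theorem q_ne_aux (a : Fin s.K) : s.aux ≠ s.q a := by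
  rcases s.haux with h | h
  · exact fun h1 => (s.hq a).1.ne_one (h1.symm.trans h)
  · exact (h.2.2.2 a).symm

theorem squarefree_aux : Squarefree s.aux := by
  rcases s.haux with h | h
  · rw [h]; exact squarefree_one
  · exact h.1.squarefree

theorem coprime_N_aux : Nat.Coprime s.N s.aux := by
  rcases s.haux with h | h
  · rw [h]; exact Nat.coprime_one_right _
  · exact (h.1.coprime_iff_not_dvd.mpr h.2.2.1).symm

theorem prime_dvd_lev_iff {x : ℕ} (hx : x.Prime) (i : Fin (s.K + 1)) :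
    x ∣ s.lev i ↔ x ∣ s.N ∨ x = s.aux ∨ ∃ a : Fin s.K, (a : ℕ) < i ∧ s.q a = x := by
  rw [lev, hx.dvd_mul, hx.dvd_mul]
  constructor
  · rintro ((h | h) | h)
    · exact Or.inl h
    · refine Or.inr (Or.inl ?_)
      by_contra hne
      exact s.not_dvd_aux_of_ne hx (Ne.symm hne) h
    · obtain ⟨a, -, ha⟩ := (Prime.dvd_finsetProd_iff hx.prime _).mp h
      exact Or.inr (Or.inr ⟨_, a.2, ((Nat.prime_dvd_prime_iff_eq hx (s.hq _).1).mp ha).symm⟩)
  · rintro (h | h | ⟨a, ha, h⟩)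
    · exact Or.inl (Or.inl h)
    · exact Or.inl (Or.inr h.dvd)
    · refine Or.inr ?_
      have := Finset.dvd_prod_of_mem (fun b : Fin i => s.q (b.castLE (Nat.lt_succ_iff.mp i.2)))
        (Finset.mem_univ (⟨(a : ℕ), ha⟩ : Fin i))
      rw [show (⟨(a : ℕ), ha⟩ : Fin i).castLE (Nat.lt_succ_iff.mp i.2) = a from Fin.ext rfl, h]
        at this
      exact this

theorem squarefree_level (i : Fin (s.K + 1)) : Squarefree (s.lev i) := by
  have hprod : Squarefree (∏ a : Fin i, s.q (a.castLE (Nat.lt_succ_iff.mp i.2))) :=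
    Finset.squarefree_prod_of_pairwise_isCoprime
      (fun a _ b _ hab => by
        rw [Function.onFun, ← Nat.coprime_iff_isRelPrime]
        exact (Nat.coprime_primes (s.hq _).1 (s.hq _).1).mpr
          fun h => hab (Fin.castLE_injective _ (s.q_inj h)))
      fun a _ => (s.hq _).1.squarefree
  rw [lev]
  refine (Nat.squarefree_mul (Nat.Coprime.prod_right fun a _ => ?_)).mpr
    ⟨(Nat.squarefree_mul s.coprime_N_aux).mpr ⟨s.hN, s.squarefree_aux⟩, hprod⟩
  exact Nat.Coprime.mul_left ((s.hq _).1.coprime_iff_not_dvd.mpr (s.hq _).2.2).symm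
    ((s.hq _).1.coprime_iff_not_dvd.mpr (s.not_dvd_aux_of_ne (s.hq _).1 (s.q_ne_aux _))).symm

end FSetup

namespace FAux

variable {s : FSetup} {r n : ℕ} (d : FAux s r n)

theorem mem_S_of_mem {x : ℕ} (h : x ∈ s.S0) : x ∈ d.S := Finset.mem_union_left _ h

theorem Q_mem_S (j : Fin r) : d.Q j ∈ d.S :=
  Finset.mem_union_right _ (Finset.mem_image_of_mem _ (Finset.mem_univ j))

theorem Q_ne_residueChar (j : Fin r) : d.Q j ≠ s.p := fun h => d.notMem j (h ▸ s.p_mem_S0)

theorem prime_dvd_DQ_iff {x : ℕ} (hx : x.Prime) : x ∣ d.DQ ↔ ∃ j, d.Q j = x := by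
  constructor
  · intro h
    obtain ⟨j, -, hj⟩ := (Prime.dvd_finsetProd_iff hx.prime _).mp h
    exact ⟨j, ((Nat.prime_dvd_prime_iff_eq hx (d.prime j)).mp hj).symm⟩
  · rintro ⟨j, rfl⟩
    exact d.Q_dvd_DQ j

theorem prime_dvd_lev_mem {x : ℕ} (hx : x.Prime) {i : Fin (s.K + 1)} (h : x ∣ s.lev i) :
    x ∈ s.S0 := by
  rcases (s.prime_dvd_lev_iff hx i).mp h with h | h | ⟨a, -, h⟩
  · exact (s.hS0 x).mpr (Or.inr (Or.inl ⟨hx, h.mul_right _⟩))
  · exact (s.hS0 x).mpr (Or.inr (Or.inl ⟨hx, h.dvd.trans (dvd_mul_left _ _)⟩))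
  · exact h ▸ s.q_mem_leftOut a

theorem prime_dvd_levQ_iff {x : ℕ} (hx : x.Prime) (i : Fin (s.K + 1)) :
    x ∣ d.levQ i ↔ x ∣ s.lev i ∨ ∃ j, d.Q j = x := by
  rw [levQ, hx.dvd_mul, d.prime_dvd_DQ_iff hx]

theorem prime_dvd_levQ_mem {x : ℕ} (hx : x.Prime) {i : Fin (s.K + 1)} (h : x ∣ d.levQ i) :
    x ∈ d.S := by
  rcases (d.prime_dvd_levQ_iff hx i).mp h with h | ⟨j, rfl⟩
  · exact d.mem_S_of_mem (prime_dvd_lev_mem hx h)
  · exact d.Q_mem_S j

theorem squarefree_levQ (i : Fin (s.K + 1)) : Squarefree (d.levQ i) := by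
  have hprod : Squarefree d.DQ :=
    Finset.squarefree_prod_of_pairwise_isCoprime
      (fun a _ b _ hab => by
        rw [Function.onFun, ← Nat.coprime_iff_isRelPrime]
        exact (Nat.coprime_primes (d.prime a) (d.prime b)).mpr fun h => hab (d.inj h))
      fun a _ => (d.prime a).squarefree
  refine (Nat.squarefree_mul ?_).mpr ⟨s.squarefree_level i, hprod⟩
  exact Nat.Coprime.prod_right fun j _ => ((d.prime j).coprime_iff_not_dvd.mpr
    fun h => d.notMem j (prime_dvd_lev_mem (d.prime j) h)).symm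

theorem p_not_dvd_levQ (i : Fin (s.K + 1)) (h : ¬ s.p ∣ s.N) : ¬ s.p ∣ d.levQ i := fun hd => by
  rcases (d.prime_dvd_levQ_iff s.hp.out i).mp hd with h1 | ⟨j, hj⟩
  · rcases (s.prime_dvd_lev_iff s.hp.out i).mp h1 with h2 | h2 | ⟨a, -, h2⟩
    · exact h h2
    · exact s.aux_ne_p h2.symm
    · exact (s.hq a).2.1 h2
  · exact d.Q_ne_residueChar j hj

theorem p_not_dvd_DQ : ¬ s.p ∣ d.DQ := fun h => by
  obtain ⟨j, hj⟩ := (d.prime_dvd_DQ_iff s.hp.out).mp h
  exact d.Q_ne_residueChar j hj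

theorem dvd_levQ_of_dvd_N {x : ℕ} (h : x ∣ s.N) (i : Fin (s.K + 1)) : x ∣ d.levQ i :=
  ((h.mul_right _).mul_right _).mul_right _

theorem not_dvd_DQ_of_mem {x : ℕ} (hx : x.Prime) (h : x ∈ s.S0) : ¬ x ∣ d.DQ := fun hd => by
  obtain ⟨j, hj⟩ := (d.prime_dvd_DQ_iff hx).mp hd
  exact d.notMem j (hj ▸ h)

theorem q_dvd_levQ_iff (a : Fin s.K) (i : Fin (s.K + 1)) :
    s.q a ∣ d.levQ i ↔ (a : ℕ) < i := by
  rw [d.prime_dvd_levQ_iff (s.hq a).1 i, s.prime_dvd_lev_iff (s.hq a).1 i]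
  constructor
  · rintro ((h | h | ⟨b, hb, h⟩) | ⟨j, hj⟩)
    · exact absurd h (s.hq a).2.2
    · exact absurd h.symm (s.q_ne_aux a)
    · exact (s.q_inj h) ▸ hb
    · exact absurd (hj ▸ s.q_mem_leftOut a) (d.notMem j)
  · exact fun h => Or.inl (Or.inr (Or.inr ⟨a, h, rfl⟩))

variable {A B : Type*} [CommRing A] [CommRing B]

theorem char_ringHomComp (φ : A →+* B) (u : Fin r → A) (hu : ∀ j, u j ^ s.p ^ (n + 1) = 1) :
    (d.char u).ringHomComp φ = d.char fun j => φ (u j) := by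
  simp only [char, ringHomComp_prod, changeLevel_ringHomComp]
  refine Finset.prod_congr rfl fun j _ => ?_
  rw [charOfGen_ringHomComp φ (d.prime j) (d.gen_order j) (d.dvd j) (hu j)]

theorem char_pow_eq_one (u : Fin r → A) (hu : ∀ j, u j ^ s.p ^ (n + 1) = 1)
    (x : (ZMod d.DQ)ˣ) : d.char u (x : ZMod d.DQ) ^ s.p ^ (n + 1) = 1 := by
  have : d.char u ^ s.p ^ (n + 1) = 1 := by
    rw [char, ← Finset.prod_pow]
    refine Finset.prod_eq_one fun j _ => ?_
    rw [← map_pow]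
    convert map_one (DirichletCharacter.changeLevel (R := A) (d.Q_dvd_DQ j))
    refine Ribet.Avoid.char_eq_of_gen (d.prime j) (d.gen_order j) ?_
    rw [MulChar.pow_apply' _ (pow_ne_zero _ s.hp.out.ne_zero),
      charOfGen_apply (d.prime j) (d.gen_order j) (d.dvd j) (hu j), hu j]
    exact (MulChar.one_apply (IsUnit.of_pow_eq_one (d.gen_order j ▸ pow_orderOf_eq_one
      ((d.gen j : ℕ) : ZMod (d.Q j))) (by have := (d.prime j).two_le; omega))).symm
  rw [← MulChar.pow_apply_coe, this, MulChar.one_apply_coe]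

/-- At an integer which is the `j`th generator modulo `Q j` and `1` modulo the other places the
character is `u j`. -/
theorem char_apply_gen (u : Fin r → A) (hu : ∀ j, u j ^ s.p ^ (n + 1) = 1) (j : Fin r) (c : ℤ)
    (hc : (c : ZMod (d.Q j)) = ((d.gen j : ℕ) : ZMod (d.Q j)))
    (hc1 : (c : ZMod (d.DQ / d.Q j)) = 1) :
    d.char u (c : ZMod d.DQ) = u j := by
  have hcu : IsUnit (c : ZMod d.DQ) := by
    rw [ZMod.coe_int_isUnit_iff_isCoprime, Int.isCoprime_iff_nat_coprime, Int.natAbs_natCast,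
      FAux.DQ]
    refine Nat.Coprime.prod_left fun k _ => ?_
    rw [← Int.natAbs_natCast (d.Q k), ← Int.isCoprime_iff_nat_coprime,
      ← ZMod.coe_int_isUnit_iff_isCoprime]
    by_cases hk : k = j
    · subst hk
      rw [hc]
      exact IsUnit.of_pow_eq_one (d.gen_order k ▸ pow_orderOf_eq_one _)
        (by have := (d.prime k).two_le; omega)
    · have hdvd : d.Q k ∣ d.DQ / d.Q j := by
        rw [FAux.DQ, ← Finset.mul_prod_erase Finset.univ d.Q (Finset.mem_univ j),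
          Nat.mul_div_cancel_left _ (d.prime j).pos]
        exact Finset.dvd_prod_of_mem _ (Finset.mem_erase.mpr ⟨hk, Finset.mem_univ k⟩)
      rw [show (c : ZMod (d.Q k)) = ZMod.castHom hdvd (ZMod (d.Q k)) (c : ZMod (d.DQ / d.Q j)) from
        (map_intCast _ c).symm, hc1, map_one]
      exact isUnit_one
  obtain ⟨v, hv⟩ := hcu
  have happly : ∀ (χs : Fin r → DirichletCharacter A d.DQ),
      (∏ k, χs k) (v : ZMod d.DQ) = ∏ k, χs k (v : ZMod d.DQ) := fun χs => by
    induction (Finset.univ : Finset (Fin r)) using Finset.induction with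
    | empty => simp [MulChar.one_apply_coe]
    | insert a t ha ih => rw [Finset.prod_insert ha, Finset.prod_insert ha, MulChar.mul_apply, ih]
  rw [← hv, char, happly, Finset.prod_eq_single j]
  · rw [DirichletCharacter.changeLevel_eq_cast_of_dvd, hv, ← ZMod.castHom_apply (h := d.Q_dvd_DQ j),
      map_intCast, hc, charOfGen_apply (d.prime j) (d.gen_order j) (d.dvd j) (hu j)]
  · intro k _ hk
    have hdvd : d.Q k ∣ d.DQ / d.Q j := by
      rw [FAux.DQ, ← Finset.mul_prod_erase Finset.univ d.Q (Finset.mem_univ j),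
        Nat.mul_div_cancel_left _ (d.prime j).pos]
      exact Finset.dvd_prod_of_mem _ (Finset.mem_erase.mpr ⟨hk, Finset.mem_univ k⟩)
    rw [DirichletCharacter.changeLevel_eq_cast_of_dvd, hv, ← ZMod.castHom_apply (h := d.Q_dvd_DQ k),
      map_intCast, show (c : ZMod (d.Q k)) = ZMod.castHom hdvd (ZMod (d.Q k))
        (c : ZMod (d.DQ / d.Q j)) from (map_intCast _ c).symm, hc1, map_one, map_one]
  · simp

end FAux

end Fermat.Agent.Lifting

end
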