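import Fermat.Agent.Lifting.CRaise
import Fermat.Agent.Ribet.Avoid.ModuleCoeff
import Fermat.Agent.Ribet.Avoid.ModuleRank
import Mathlib.LinearAlgebra.Dimension.OrzechProperty

/-!
# Modularity lifting: general facts on the parts at the residual system

Over a complete coefficient ring the operators outside the system act bijectively, so reduction has
the expected kernel; the part does not feel the primes left out away from a finite set; bases go
down and up along reductions.
-/

set_option autoImplicit false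

noncomputable section

namespace Fermat.Agent.Lifting

open IsLocalRing
open Fermat.Agent.Ribet.Twisted (Coh CohL chr heckeT')
open Fermat.Agent.Ribet.Avoid (act residualIdeal evalSystem locKer)

universe u

section Complete

variable {A : Type u} [CommRing A] {L D : ℕ} [NeZero L] (hD : D ∣ L) (ψ : DirichletCharacter A D)
  {S : Finset ℕ} (M : Type*) [AddCommGroup M] [Module A M] {k : Type*} [Field k] (res : A →+* k)
  (abar : ℕ → k)

theorem act_eq_cohAct : act hD ψ M S = cohAct hD ψ S M :=
  MvPolynomial.algHom_ext fun ℓ => by rw [Ribet.Avoid.act_X, cohAct_X]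

omit [NeZero L] in
theorem sysEval_eq_evalSystem (t : MvPolynomial (GoodIdx S) A) :
    sysEval res (fun ℓ : GoodIdx S => abar ℓ) t = evalSystem res abar S t := rfl

/-- Over a complete ring the operators which are non-zero at the system are surjective. -/
theorem partAct_surjective_of_complete [IsLocalRing A] [IsNoetherianRing A]
    [IsAdicComplete (maximalIdeal A) A] [Module.Finite A M]
    (hker : ∀ c ∈ maximalIdeal A, res c = 0) {t : MvPolynomial (GoodIdx S) A}
    (ht : sysEval res (fun ℓ : GoodIdx S => abar ℓ) t ≠ 0) :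
    Function.Surjective (partAct hD ψ res (fun ℓ : GoodIdx S => abar ℓ) M t) := by
  intro x
  obtain ⟨x, rfl⟩ := toPart_surjective hD ψ res _ M x
  have hP : ∀ c ∈ maximalIdeal A,
      (MvPolynomial.C c : MvPolynomial (GoodIdx S) A) ∈ residualIdeal res abar S := fun c hc => by
    rw [residualIdeal, RingHom.mem_ker, evalSystem, MvPolynomial.eval₂Hom_C, hker c hc]
  obtain ⟨y, hy⟩ := Ribet.Avoid.opsSurjective_of_isAdicComplete hD ψ S M (residualIdeal res abar S)
    hP t (fun h => ht h) (Submodule.Quotient.mk x)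
  obtain ⟨y, rfl⟩ := Submodule.Quotient.mk_surjective _ y
  rw [Ribet.Avoid.locAct_mk, Submodule.Quotient.eq] at hy
  obtain ⟨t', ht', hy⟩ := hy
  refine ⟨toPart hD ψ res _ M y, ?_⟩
  rw [partAct_toPart, ← sub_eq_zero, ← map_sub, toPart_eq_zero]
  rw [act_eq_cohAct] at hy
  exact ⟨t', fun h => ht' h, hy⟩

/-- The kernel of reduction, over a complete ring. -/
theorem mapPart_eq_zero_iff_of_complete [IsLocalRing A] [IsNoetherianRing A]
    [IsAdicComplete (maximalIdeal A) A] (hker : ∀ c ∈ maximalIdeal A, res c = 0)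
    {B : Type*} [CommRing B] (φ : A →+* B) (resB : B →+* k) (hres : resB.comp φ = res)
    (hφ : Function.Surjective φ) (h2 : IsUnit (2 : A)) (h3 : Elliptic3 A L)
    (x : MPart hD ψ res (fun ℓ : GoodIdx S => abar ℓ) A) :
    mapPart hD ψ res _ φ resB hres x = 0 ↔
      x ∈ RingHom.ker φ •
        (⊤ : Submodule A (MPart hD ψ res (fun ℓ : GoodIdx S => abar ℓ) A)) := by
  constructor
  · intro hx
    obtain ⟨y, rfl⟩ := toPart_surjective hD ψ res _ A x
    rw [mapPart_toPart, toPart_eq_zero] at hx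
    obtain ⟨t', ht', hx⟩ := hx
    obtain ⟨t, rfl⟩ := MvPolynomial.map_surjective φ hφ t'
    rw [sysEval_map res _ φ resB hres] at ht'
    rw [← cohMap_cohAct] at hx
    have h := Ribet.Avoid.map_mem_smul_top (toPart hD ψ res (fun ℓ : GoodIdx S => abar ℓ) A)
      (RingHom.ker φ) (mem_smul_of_cohMap hD ψ φ hφ h2 h3 _ hx)
    have hbij : Function.Bijective (partAct hD ψ res (fun ℓ : GoodIdx S => abar ℓ) A t) :=
      ⟨partAct_injective hD ψ res _ A ht',
        partAct_surjective_of_complete hD ψ A res abar hker ht'⟩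
    rw [← partAct_toPart] at h
    have h' := Ribet.Avoid.map_mem_smul_top (LinearEquiv.ofBijective _ hbij).symm.toLinearMap
      (RingHom.ker φ) h
    rwa [LinearEquiv.coe_toLinearMap,
      show partAct hD ψ res _ A t (toPart hD ψ res _ A y) =
        LinearEquiv.ofBijective _ hbij (toPart hD ψ res _ A y) from rfl,
      LinearEquiv.symm_apply_apply] at h'
  · exact fun hx => Ribet.Avoid.map_eq_zero_of_mem_ker_smul _ hx

end Complete

section Domain

variable {O : Type u} [CommRing O] [IsDomain O] [IsPrincipalIdealRing O] {L : ℕ} [NeZero L]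
  {S : Finset ℕ} {k : Type*} [Field k] (res : O →+* k) (a : GoodIdx S → k)

/-- With trivial character the part over a principal ideal domain is free. -/
theorem free_mPart_one :
    Module.Free O (MPart (one_dvd L) (1 : DirichletCharacter O 1) res a O) := by
  haveI : Module.Finite O (MPart (one_dvd L) (1 : DirichletCharacter O 1) res a O) :=
    finite_mPart _ _ res a O
  haveI : Module.IsTorsionFree O (MPart (one_dvd L) (1 : DirichletCharacter O 1) res a O) := by
    refine Module.isTorsionFree_iff_smul_eq_zero.2 fun c m h => ?_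
    refine or_iff_not_imp_left.2 fun hc => ?_
    obtain ⟨y, rfl⟩ := toPart_surjective _ _ res a O m
    rw [← map_smul, toPart_eq_zero] at h
    obtain ⟨t, ht, h⟩ := h
    rw [toPart_eq_zero]
    refine ⟨t, ht, ?_⟩
    rw [map_smul] at h
    obtain ⟨z, hz⟩ := Coh.mk_surjective (cohAct (one_dvd L) (1 : DirichletCharacter O 1) S O t y)
    rw [← hz] at h ⊢
    rw [← map_smul, Ribet.Avoid.Rank.mk_one_eq_zero] at h
    rw [Ribet.Avoid.Rank.mk_one_eq_zero]
    refine Subtype.ext (funext fun g => ?_)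
    have h' : c * (z : CongruenceSubgroup.Gamma0 L → O) g = 0 :=
      congrFun (congrArg Subtype.val h) g
    exact (mul_eq_zero.1 h').resolve_left hc
  exact Module.free_of_finite_type_torsion_free'

end Domain

section Semilinear

variable {A : Type u} [CommRing A] {B : Type*} [CommRing B] {φ : A →+* B} {L L' D D' : ℕ}
  [NeZero L] [NeZero L'] {hD : D ∣ L} {hD' : D' ∣ L'} {ψ : DirichletCharacter A D}
  {ψ' : DirichletCharacter B D'} {S : Finset ℕ} {k : Type*} [Field k] (res : A →+* k)
  (resB : B →+* k) (a : GoodIdx S → k)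

theorem cohAct_intertwineₛₗ (f : CohL hD ψ A →ₛₗ[φ] CohL hD' ψ' B)
    (hf : ∀ ℓ : GoodIdx S, ∀ x, f (heckeT' hD ψ A ℓ x) = heckeT' hD' ψ' B ℓ (f x))
    (t : MvPolynomial (GoodIdx S) A) (x : CohL hD ψ A) :
    f (cohAct hD ψ S A t x) = cohAct hD' ψ' S B (MvPolynomial.map φ t) (f x) := by
  induction t using MvPolynomial.induction_on generalizing x with
  | C r => rw [MvPolynomial.map_C, cohAct_C, cohAct_C, LinearMap.map_smulₛₗ]
  | add p q hp hq => simp only [map_add, LinearMap.add_apply, hp, hq]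
  | mul_X p m hp =>
    simp only [map_mul, MvPolynomial.map_X, Module.End.mul_apply, cohAct_X, hp, hf]

variable (hres : resB.comp φ = res) (f : CohL hD ψ A →ₛₗ[φ] CohL hD' ψ' B)
  (hf : ∀ ℓ : GoodIdx S, ∀ x, f (heckeT' hD ψ A ℓ x) = heckeT' hD' ψ' B ℓ (f x))

/-- A map commuting with the good operators, on the parts at the system. -/
def partHom : MPart hD ψ res a A →ₛₗ[φ] MPart hD' ψ' resB a B :=
  Submodule.mapQ _ _ f (by
    rintro x ⟨t, ht, hx⟩
    exact ⟨MvPolynomial.map φ t, by rwa [sysEval_map res a φ resB hres],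
      by rw [← cohAct_intertwineₛₗ f hf, hx, map_zero]⟩)

theorem partHom_toPart (x : CohL hD ψ A) :
    partHom res resB a hres f hf (toPart hD ψ res a A x) = toPart hD' ψ' resB a B (f x) := rfl

theorem partHom_partT {ℓ : ℕ} (hℓ : ∀ x, f (heckeT' hD ψ A ℓ x) = heckeT' hD' ψ' B ℓ (f x))
    (x : MPart hD ψ res a A) :
    partHom res resB a hres f hf (partT hD ψ res a A ℓ x) =
      partT hD' ψ' resB a B ℓ (partHom res resB a hres f hf x) := by
  obtain ⟨x, rfl⟩ := toPart_surjective hD ψ res a A x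
  rw [partT_toPart, partHom_toPart, partHom_toPart, partT_toPart, hℓ]

end Semilinear

section Modulus

variable {B : Type u} [CommRing B] {L D : ℕ} [NeZero L] {hD : D ∣ L} {S : Finset ℕ} {k : Type*}
  [Field k] (res : B →+* k) (a : GoodIdx S → k)

theorem trivMap_heckeT'_goodIdx (hDS : ∀ x : ℕ, x.Prime → x ∣ D → x ∈ S) (ℓ : GoodIdx S)
    (x : CohL hD (1 : DirichletCharacter B D) B) :
    Ribet.Avoid.Rank.trivMap (RingHom.id B) hD (one_dvd L)
        (heckeT' hD (1 : DirichletCharacter B D) B ℓ x) =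
      heckeT' (one_dvd L) (1 : DirichletCharacter B 1) B ℓ
        (Ribet.Avoid.Rank.trivMap (RingHom.id B) hD (one_dvd L) x) :=
  Ribet.Avoid.Rank.trivMap_heckeT' _ _ _ ℓ.2.1 (fun h => ℓ.2.2 (hDS _ ℓ.2.1 h))
    (fun h => ℓ.2.1.ne_one (Nat.dvd_one.1 h)) x

/-- The trivial character does not depend on its modulus, on the parts at the system. -/
theorem exists_trivPart {χ : DirichletCharacter B D} (hχ : χ = 1)
    (hDS : ∀ x : ℕ, x.Prime → x ∣ D → x ∈ S) :
    ∃ e : MPart hD χ res a B ≃ₗ[B] MPart (one_dvd L) (1 : DirichletCharacter B 1) res a B,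
      ∀ ℓ : GoodIdx S, ∀ x, e (partT hD χ res a B ℓ x) =
        partT (one_dvd L) (1 : DirichletCharacter B 1) res a B ℓ (e x) := by
  subst hχ
  have h1 : ∀ x : ℕ, x.Prime → x ∣ 1 → x ∈ S := fun x hx h => absurd (Nat.dvd_one.1 h) hx.ne_one
  have hf := trivMap_heckeT'_goodIdx (L := L) (hD := hD) (B := B) hDS
  have hg : ∀ (ℓ : GoodIdx S) (x : CohL (one_dvd L) (1 : DirichletCharacter B 1) B),
      Ribet.Avoid.Rank.trivMap (RingHom.id B) (one_dvd L) hD
          (heckeT' (one_dvd L) (1 : DirichletCharacter B 1) B ℓ x) =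
        heckeT' hD (1 : DirichletCharacter B D) B ℓ
          (Ribet.Avoid.Rank.trivMap (RingHom.id B) (one_dvd L) hD x) := fun ℓ x =>
    Ribet.Avoid.Rank.trivMap_heckeT' _ _ _ ℓ.2.1 (fun h => ℓ.2.1.ne_one (Nat.dvd_one.1 h))
      (fun h => ℓ.2.2 (hDS _ ℓ.2.1 h)) x
  refine ⟨LinearEquiv.ofLinearMap
    (partHom res res a (RingHom.comp_id res) _ hf) (partHom res res a (RingHom.comp_id res) _ hg)
    ?_ ?_, fun ℓ x => partHom_partT res res a (RingHom.comp_id res) _ hf (hf ℓ) x⟩
  · refine LinearMap.ext fun x => ?_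
    obtain ⟨x, rfl⟩ := toPart_surjective _ _ res a B x
    obtain ⟨z, rfl⟩ := Coh.mk_surjective x
    rfl
  · refine LinearMap.ext fun x => ?_
    obtain ⟨x, rfl⟩ := toPart_surjective _ _ res a B x
    obtain ⟨z, rfl⟩ := Coh.mk_surjective x
    rfl

end Modulus

section Shrink

variable {A : Type u} [CommRing A] {L D : ℕ} [NeZero L] (hD : D ∣ L) (ψ : DirichletCharacter A D)
  {k : Type*} [Field k] (res : A →+* k) (abar : ℕ → k) {S S' : Finset ℕ}

/-- A good prime for more excluded primes is good for fewer. -/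
def goodIncl (h : S ⊆ S') (ℓ : GoodIdx S') : GoodIdx S := ⟨ℓ, ℓ.2.1, fun hS => ℓ.2.2 (h hS)⟩

theorem cohAct_rename (h : S ⊆ S') (t : MvPolynomial (GoodIdx S') A) :
    cohAct hD ψ S A (MvPolynomial.rename (goodIncl h) t) = cohAct hD ψ S' A t := by
  rw [← AlgHom.comp_apply]
  refine DFunLike.congr_fun (MvPolynomial.algHom_ext fun ℓ => ?_) t
  rw [AlgHom.comp_apply, MvPolynomial.rename_X, cohAct_X, cohAct_X]
  rfl

theorem sysEval_rename (h : S ⊆ S') (t : MvPolynomial (GoodIdx S') A) :
    sysEval res (fun ℓ : GoodIdx S => abar ℓ) (MvPolynomial.rename (goodIncl h) t) =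
      sysEval res (fun ℓ : GoodIdx S' => abar ℓ) t := by
  simp only [sysEval, MvPolynomial.coe_eval₂Hom, MvPolynomial.eval₂_rename]
  rfl

/-- Leaving out more primes gives a bigger part. -/
def shrinkPart (h : S ⊆ S') :
    MPart hD ψ res (fun ℓ : GoodIdx S' => abar ℓ) A →ₗ[A]
      MPart hD ψ res (fun ℓ : GoodIdx S => abar ℓ) A :=
  Submodule.mapQ _ _ LinearMap.id (by
    rintro x ⟨t, ht, hx⟩
    exact ⟨MvPolynomial.rename (goodIncl h) t, by rwa [sysEval_rename],
      by rw [LinearMap.id_apply, cohAct_rename, hx]⟩)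

theorem shrinkPart_partT (h : S ⊆ S') (ℓ : ℕ)
    (x : MPart hD ψ res (fun ℓ : GoodIdx S' => abar ℓ) A) :
    shrinkPart hD ψ res abar h (partT hD ψ res _ A ℓ x) =
      partT hD ψ res _ A ℓ (shrinkPart hD ψ res abar h x) := by
  obtain ⟨x, rfl⟩ := toPart_surjective hD ψ res _ A x
  rfl

theorem shrinkPart_surjective (h : S ⊆ S') :
    Function.Surjective (shrinkPart hD ψ res abar h) := fun x => by
  obtain ⟨x, rfl⟩ := toPart_surjective hD ψ res _ A x
  exact ⟨toPart hD ψ res _ A x, rfl⟩

/-- A single operator kills the classes killed by some operator non-zero at the system. -/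
theorem exists_kills_cohKer [IsNoetherianRing A] (a : GoodIdx S → k) :
    ∃ t₀, sysEval res a t₀ ≠ 0 ∧ ∀ z ∈ cohKer hD ψ res a A, cohAct hD ψ S A t₀ z = 0 := by
  classical
  haveI : Module.Finite A (CohL hD ψ A) := Ribet.Twisted.finite_cohL hD ψ
  obtain ⟨s, hs⟩ : (cohKer hD ψ res a A).FG := IsNoetherian.noetherian _
  have hmem : ∀ z : s, ∃ t, sysEval res a t ≠ 0 ∧ cohAct hD ψ S A t z = 0 := fun z =>
    (hs ▸ Submodule.subset_span z.2 : (z : CohL hD ψ A) ∈ cohKer hD ψ res a A)
  choose t ht0 htz using hmem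
  refine ⟨∏ z, t z, by rw [map_prod]; exact Finset.prod_ne_zero_iff.2 fun z _ => ht0 z, ?_⟩
  intro z hz
  rw [← hs] at hz
  refine (Submodule.span_le.2 ?_ hz : z ∈ LinearMap.ker (cohAct hD ψ S A (∏ z, t z)))
  intro w hw
  rw [SetLike.mem_coe, LinearMap.mem_ker,
    ← Finset.prod_erase_mul Finset.univ t (Finset.mem_univ (⟨w, hw⟩ : s)), map_mul,
    Module.End.mul_apply, htz ⟨w, hw⟩, map_zero]

/-- Away from a finite set, leaving out more primes does not change the part. -/
theorem exists_shrinkPart_injective [IsNoetherianRing A] (S : Finset ℕ) :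
    ∃ W : Finset ℕ, ∀ (S' : Finset ℕ) (h : S ⊆ S'), (∀ x ∈ S', x ∈ S ∨ x ∉ W) →
      Function.Injective (shrinkPart hD ψ res abar h) := by
  classical
  obtain ⟨t₀, ht₀, hk⟩ := exists_kills_cohKer hD ψ res (fun ℓ : GoodIdx S => abar ℓ)
  refine ⟨t₀.vars.image fun ℓ : GoodIdx S => (ℓ : ℕ), fun S' h hS' => ?_⟩
  rw [injective_iff_map_eq_zero]
  intro x hx
  obtain ⟨x, rfl⟩ := toPart_surjective hD ψ res _ A x
  have hx' : x ∈ cohKer hD ψ res (fun ℓ : GoodIdx S => abar ℓ) A := by
    rw [← Submodule.Quotient.mk_eq_zero]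
    exact hx
  have hinj : Function.Injective (goodIncl (S := S) h) := fun ℓ m e =>
    Subtype.ext (congrArg (fun y : GoodIdx S => (y : ℕ)) e)
  obtain ⟨t', rfl⟩ : ∃ t', MvPolynomial.rename (goodIncl h) t' = t₀ := by
    refine (MvPolynomial.exists_rename_eq_of_vars_subset_range t₀ (goodIncl h) hinj ?_).imp
      fun _ h => h
    intro ℓ hℓ
    have hℓS' : (ℓ : ℕ) ∉ S' := fun hm => (hS' _ hm).elim ℓ.2.2
      fun hW => hW (Finset.mem_image_of_mem (fun ℓ : GoodIdx S => (ℓ : ℕ)) hℓ)
    exact ⟨⟨ℓ, ℓ.2.1, hℓS'⟩, rfl⟩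
  rw [toPart_eq_zero]
  rw [sysEval_rename] at ht₀
  exact ⟨t', ht₀, by rw [← cohAct_rename hD ψ h, hk x hx']⟩

end Shrink

section Bases

variable {R : Type u} [CommRing R] {B : Type*} [CommRing B] {φ : R →+* B} {M N : Type*}
  [AddCommGroup M] [Module R M] [AddCommGroup N] [Module B N] (F : M →ₛₗ[φ] N)
  {ι : Type*}

/-- A basis goes down along a reduction. -/
theorem exists_basis_map [Finite ι] (b : Module.Basis ι R M) (hφ : Function.Surjective φ)
    (hF : Function.Surjective F) (hker : ∀ x, F x = 0 → x ∈ RingHom.ker φ • (⊤ : Submodule R M)) :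
    ∃ b' : Module.Basis ι B N, ∀ i, b' i = F (b i) := by
  cases nonempty_fintype ι
  classical
  have hli : LinearIndependent B fun i => F (b i) := by
    rw [Fintype.linearIndependent_iff]
    intro g hg i
    choose G hG using fun j => hφ (g j)
    have h0 : F (∑ j, G j • b j) = 0 := by
      simp only [map_sum, LinearMap.map_smulₛₗ, hG]; exact hg
    have hmem := Ribet.Avoid.map_mem_smul_top (Finsupp.lapply i ∘ₗ b.repr.toLinearMap)
      (RingHom.ker φ) (hker _ h0)
    rw [Ideal.smul_eq_mul, Ideal.mul_top, LinearMap.comp_apply] at hmem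
    simp only [LinearEquiv.coe_toLinearMap, Finsupp.lapply_apply, Module.Basis.repr_sum_self]
      at hmem
    rw [← hG i]
    exact RingHom.mem_ker.1 hmem
  have hspan : ⊤ ≤ Submodule.span B (Set.range fun i => F (b i)) := by
    intro w _
    obtain ⟨v, rfl⟩ := hF w
    rw [← b.sum_repr v, map_sum]
    exact sum_mem fun i _ => by
      rw [LinearMap.map_smulₛₗ]
      exact Submodule.smul_mem _ _ (Submodule.subset_span ⟨i, rfl⟩)
  exact ⟨Module.Basis.mk hli hspan, Module.Basis.mk_apply hli hspan⟩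

/-- A basis goes up along a reduction to a free module over a local ring. -/
theorem exists_basis_lift_semilinear [IsLocalRing R] [Nontrivial B] [Module.Free R M] [Module.Finite R M]
    [Fintype ι] (b' : Module.Basis ι B N) (hφ : Function.Surjective φ)
    (hF : Function.Surjective F) (hker : ∀ x, F x = 0 → x ∈ RingHom.ker φ • (⊤ : Submodule R M)) :
    ∃ b : Module.Basis ι R M, ∀ i, F (b i) = b' i := by
  classical
  choose v hv using fun i => hF (b' i)
  have hle : RingHom.ker φ ≤ maximalIdeal R := by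
    refine IsLocalRing.le_maximalIdeal fun h => ?_
    have h1 : (1 : R) ∈ RingHom.ker φ := by rw [h]; trivial
    exact one_ne_zero ((map_one φ).symm.trans (RingHom.mem_ker.1 h1))
  have hspan : ⊤ ≤ Submodule.span R (Set.range v) := by
    refine Submodule.le_of_le_smul_of_le_jacobson_bot Module.Finite.fg_top
      (IsLocalRing.jacobson_eq_maximalIdeal (⊥ : Ideal R) bot_ne_top).ge fun x _ => ?_
    choose G hG using fun i => hφ (b'.repr (F x) i)
    have hx : F (x - ∑ i, G i • v i) = 0 := by
      simp only [map_sub, map_sum, LinearMap.map_smulₛₗ, hv, hG, b'.sum_repr, sub_self]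
    refine Submodule.mem_sup.2 ⟨∑ i, G i • v i, sum_mem fun i _ =>
      Submodule.smul_mem _ _ (Submodule.subset_span ⟨i, rfl⟩), x - ∑ i, G i • v i,
      Submodule.smul_mono hle le_rfl (hker _ hx), add_sub_cancel _ _⟩
  have hcard : Fintype.card ι = Module.finrank R M := by
    obtain ⟨c, -⟩ := exists_basis_map F (Module.Free.chooseBasis R M) hφ hF hker
    rw [Module.finrank_eq_card_chooseBasisIndex, ← Module.finrank_eq_card_basis b',
      Module.finrank_eq_card_basis c]
  exact ⟨basisOfTopLeSpanOfCardEqFinrank v hspan hcard, fun i => by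
    rw [coe_basisOfTopLeSpanOfCardEqFinrank, hv]⟩

/-- The matrix of an operator reduces to that of its reduction. -/
theorem toMatrix_map [Fintype ι] [DecidableEq ι] (b : Module.Basis ι R M)
    (b' : Module.Basis ι B N) (hb : ∀ i, F (b i) = b' i) (T : Module.End R M)
    (T' : Module.End B N) (hT : ∀ x, F (T x) = T' (F x)) :
    (LinearMap.toMatrix b b T).map φ = LinearMap.toMatrix b' b' T' := by
  ext i j
  rw [Matrix.map_apply, LinearMap.toMatrix_apply, LinearMap.toMatrix_apply, ← hb j, ← hT]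
  conv_rhs => rw [← b.sum_repr (T (b j))]
  rw [map_sum, Finset.sum_congr rfl (fun x _ => by rw [LinearMap.map_smulₛₗ, hb] :
    ∀ x ∈ Finset.univ, F (b.repr (T (b j)) x • b x) = φ (b.repr (T (b j)) x) • b' x),
    b'.repr_sum_self]

end Bases

end Fermat.Agent.Lifting
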