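import Fermat.Agent.Lifting.FSetup
import Fermat.Agent.Lifting.FGlue
import Fermat.Agent.Lifting.FRanksBase

/-!
# Modularity lifting: the parts over the coefficients at the levels of a setup

The parts at the residual system over `O` with trivial character are free; a prime where no
congruent system is new doubles them.
-/

set_option autoImplicit false

noncomputable section

namespace Fermat.Agent.Lifting

open IsLocalRing
open Fermat.Agent.Ribet.Twisted (CohL heckeT')
open Fermat.Agent.Ribet.Avoid (IsCongruent)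

namespace FSetup

variable (s : FSetup)

/-- The part at the residual system over `O`, trivial character. -/
abbrev OPart (L : ℕ) [NeZero L] (S : Finset ℕ) : Type :=
  MPart (one_dvd L) (1 : DirichletCharacter s.O 1) (residue s.O)
    (fun ℓ : GoodIdx S => s.abar ℓ) s.O

/-- No congruent system with trivial character at the level `L * x` is new at `x`. -/
def NoNewAt (L x : ℕ) [NeZero (L * x)] (S : Finset ℕ) : Prop :=
  ∀ (a : ℕ → s.Kbar) (v : CohL (one_dvd (L * x)) (1 : DirichletCharacter s.Kbar 1) s.Kbar),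
    v ≠ 0 →
    heckeT' (one_dvd (L * x)) (1 : DirichletCharacter s.Kbar 1) s.Kbar x
      (heckeT' (one_dvd (L * x)) (1 : DirichletCharacter s.Kbar 1) s.Kbar x v) = v →
    (∀ ℓ : ℕ, ℓ.Prime → ℓ ∉ S →
      heckeT' (one_dvd (L * x)) (1 : DirichletCharacter s.Kbar 1) s.Kbar ℓ v = a ℓ • v) →
    ¬ IsCongruent (algebraMap s.O s.Kbar) (residue s.O) s.abar S a

/-- `T'_ℓ` on the part over `O`. -/
abbrev opT (L : ℕ) [NeZero L] (S : Finset ℕ) (ℓ : ℕ) : Module.End s.O (s.OPart L S) :=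
  partT (one_dvd L) (1 : DirichletCharacter s.O 1) (residue s.O)
    (fun m : GoodIdx S => s.abar m) s.O ℓ

theorem algebraMap_Kbar_injective : Function.Injective (algebraMap s.O s.Kbar) := by
  rw [IsScalarTower.algebraMap_eq s.O (FractionRing s.O) s.Kbar]
  exact (algebraMap (FractionRing s.O) s.Kbar).injective.comp
    (IsFractionRing.injective s.O (FractionRing s.O))

theorem isUnit_two : IsUnit (2 : s.O) := by
  have h := s.isUnit_natCast Nat.prime_two (Ne.symm s.hp2)
  rwa [Nat.cast_ofNat] at h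

theorem elliptic3 {L : ℕ} (hL : s.N * s.aux ∣ L) : Elliptic3 s.O L := by
  by_cases h3 : s.p = 3
  · obtain ⟨x, hx, hxd, hx3⟩ := s.hthree h3
    exact Or.inr ⟨x, hx, hxd.trans hL, hx3⟩
  · refine Or.inl ?_
    have h := s.isUnit_natCast Nat.prime_three (Ne.symm h3)
    rwa [Nat.cast_ofNat] at h

theorem nonEis (L : ℕ) [NeZero L] (S : Finset ℕ) :
    NonEis L S fun ℓ : GoodIdx S => s.abar ℓ where
  eis := by
    obtain ⟨ℓ, hℓ, hℓS, hℓ1, hne⟩ := s.hEis L S (NeZero.pos L)
    exact ⟨⟨ℓ, hℓ, hℓS⟩, hℓ1, hne⟩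
  ihara := by
    obtain ⟨ℓ, hℓ, hℓS, hne⟩ := s.hIhara (S ∪ L.primeFactors)
    rw [Finset.mem_union, not_or] at hℓS
    exact ⟨⟨ℓ, hℓ, hℓS.1⟩, fun h => hℓS.2 (Nat.mem_primeFactors.2 ⟨hℓ, h, NeZero.ne L⟩), hne⟩

theorem dvd_lev (i : Fin (s.K + 1)) : s.N * s.aux ∣ s.lev i := dvd_mul_right _ _

theorem mem_S0_of_dvd_lev {x : ℕ} (hx : x.Prime) {i : Fin (s.K + 1)} (h : x ∣ s.lev i) :
    x ∈ s.S0 := by
  rcases (Nat.Prime.dvd_mul hx).1 h with h | h
  · exact (s.hS0 x).2 (Or.inr (Or.inl ⟨hx, h⟩))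
  · obtain ⟨a, -, ha⟩ := (Prime.dvd_finsetProd_iff hx.prime _).1 h
    exact (s.hS0 x).2 (Or.inr (Or.inr ⟨_, ((Nat.prime_dvd_prime_iff_eq hx (s.hq _).1).1 ha).symm⟩))

theorem q_mem_S0 (a : Fin s.K) : s.q a ∈ s.S0 := (s.hS0 _).2 (Or.inr (Or.inr ⟨a, rfl⟩))

theorem q_not_dvd_lev (a : Fin s.K) : ¬ s.q a ∣ s.lev a.castSucc := by
  intro h
  rcases (Nat.Prime.dvd_mul (s.hq a).1).1 h with h | h
  · rcases (Nat.Prime.dvd_mul (s.hq a).1).1 h with h | h
    · exact (s.hq a).2.2 h
    · rcases s.haux with h1 | ⟨hp, -, -, hne⟩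
      · rw [h1] at h
        exact (s.hq a).1.ne_one (Nat.dvd_one.1 h)
      · exact hne a ((Nat.prime_dvd_prime_iff_eq (s.hq a).1 hp).1 h)
  · obtain ⟨b, -, hb⟩ := (Prime.dvd_finsetProd_iff (s.hq a).1.prime _).1 h
    have e := congrArg Fin.val (s.q_inj ((Nat.prime_dvd_prime_iff_eq (s.hq a).1 (s.hq _).1).1 hb))
    rw [Fin.val_castLE] at e
    exact (ne_of_lt b.2) (e.symm.trans rfl)

theorem residue_ker (c : s.O) (hc : c ∈ maximalIdeal s.O) : residue s.O c = 0 :=
  (residue_eq_zero_iff c).2 hc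

instance free_oPart (L : ℕ) [NeZero L] (S : Finset ℕ) : Module.Free s.O (s.OPart L S) :=
  free_mPart_one (residue s.O) _

instance finite_oPart (L : ℕ) [NeZero L] (S : Finset ℕ) : Module.Finite s.O (s.OPart L S) :=
  finite_mPart _ _ _ _ _

variable {s}

/-- The degeneracy map has a retraction. -/
theorem exists_retraction {L x : ℕ} [NeZero L] [NeZero (L * x)] [Fact x.Prime] {S : Finset ℕ}
    (hL : s.N * s.aux ∣ L) (hxL : ¬ x ∣ L) (hxS : x ∈ S) :
    ∃ r : s.OPart (L * x) S →ₗ[s.O] s.OPart L S × s.OPart L S,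
      r ∘ₗ partRaise (one_dvd L) (1 : DirichletCharacter s.O 1) (residue s.O)
        (fun ℓ : GoodIdx S => s.abar ℓ) s.O hxL hxS = LinearMap.id := by
  haveI : Module.Free s.O (MPart (hDq (one_dvd L) x) (1 : DirichletCharacter s.O 1) (residue s.O)
      (fun ℓ : GoodIdx S => s.abar ℓ) s.O) := s.free_oPart (L * x) S
  haveI : Module.Finite s.O (MPart (hDq (one_dvd L) x) (1 : DirichletCharacter s.O 1)
      (residue s.O) (fun ℓ : GoodIdx S => s.abar ℓ) s.O) := s.finite_oPart (L * x) S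
  have h2k : (2 : s.kk) ≠ 0 := by
    have h := s.isUnit_two.map (residue s.O)
    rw [map_ofNat] at h
    exact h.ne_zero
  have hc : (RingHom.id s.kk).comp (residue s.O) = residue s.O := RingHom.id_comp _
  refine exists_retraction_of_injective_mod (residue s.O) residue_surjective _ fun z hz => ?_
  obtain ⟨u, v⟩ := z
  have h := (mapPart_eq_zero_iff_of_complete (hDq (one_dvd L) x) 1 (residue s.O) s.abar
    s.residue_ker (residue s.O) (RingHom.id s.kk) hc residue_surjective s.isUnit_two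
    ((s.elliptic3 hL).of_dvd (Nat.dvd_mul_right L x)) _).2 hz
  rw [mapPart_partRaise] at h
  have h0 : (mapPart (one_dvd L) 1 (residue s.O) (fun ℓ : GoodIdx S => s.abar ℓ) (residue s.O)
        (RingHom.id s.kk) hc u,
      mapPart (one_dvd L) 1 (residue s.O) (fun ℓ : GoodIdx S => s.abar ℓ) (residue s.O)
        (RingHom.id s.kk) hc v) = 0 :=
    partRaise_injective_field (one_dvd L) _ hxL hxS _ (MulChar.ringHomComp_one _) h2k
      ((s.elliptic3 hL).map (residue s.O)) (s.nonEis _ S) (by rw [h, map_zero])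
  exact mem_smul_top_prod _
    ((mapPart_eq_zero_iff_of_complete (one_dvd L) 1 (residue s.O) s.abar s.residue_ker _ _ hc
      residue_surjective s.isUnit_two (s.elliptic3 hL) u).1 (congrArg Prod.fst h0))
    ((mapPart_eq_zero_iff_of_complete (one_dvd L) 1 (residue s.O) s.abar s.residue_ker _ _ hc
      residue_surjective s.isUnit_two (s.elliptic3 hL) v).1 (congrArg Prod.snd h0))

/-- Where no congruent system is new the adjoint of the degeneracy map is injective. -/
theorem partLower_injective {L x : ℕ} [NeZero L] [NeZero (L * x)] [Fact x.Prime] {S : Finset ℕ}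
    (hxL : ¬ x ∣ L) (hxS : x ∈ S) (hno : s.NoNewAt L x S) :
    Function.Injective (partLower (one_dvd L) (1 : DirichletCharacter s.O 1) (residue s.O)
      (fun ℓ : GoodIdx S => s.abar ℓ) s.O hxL hxS) := by
  classical
  set ι := algebraMap s.O s.Kbar
  set a := fun ℓ : GoodIdx S => s.abar ℓ
  set hd : (1 : ℕ) ∣ L * x := hDq (one_dvd L) x
  obtain ⟨t₀, ht₀, hk⟩ := exists_kills_cohKer hd (1 : DirichletCharacter s.O 1) (residue s.O) a
  set χ := (1 : DirichletCharacter s.O 1).ringHomComp ι with hχ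
  let Z : Set (CohL hd χ s.Kbar) :=
    {w | ∃ y, partLower (one_dvd L) (1 : DirichletCharacter s.O 1) (residue s.O) a s.O hxL hxS
        (toPart hd 1 (residue s.O) a s.O y) = 0 ∧ w = cohMap hd 1 ι (cohAct hd 1 S s.O t₀ y)}
  set W := Submodule.span s.Kbar Z with hW
  have hstable : ∀ ℓ : Ribet.Avoid.GoodPrime S, ∀ w ∈ W, heckeT' hd χ s.Kbar ℓ.1 w ∈ W := by
    intro ℓ w hw
    refine (Submodule.span_le.2 ?_ hw : w ∈ W.comap (heckeT' hd χ s.Kbar ℓ.1))
    rintro _ ⟨y, hy, rfl⟩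
    refine Submodule.subset_span ⟨heckeT' hd 1 s.O ℓ.1 y, ?_, ?_⟩
    · rw [← partT_toPart, partLower_partT (one_dvd L) 1 (residue s.O) a s.O hxL hxS
        (fun h => ℓ.2.2 (by rw [h]; exact hxS)), hy]
      simp
    · rw [← cohMap_heckeT', ← Module.End.mul_apply, (cohAct_comm hd 1 S s.O ℓ.1 t₀).eq,
        Module.End.mul_apply]
  have hsq : ∀ w ∈ W, heckeT' hd χ s.Kbar x (heckeT' hd χ s.Kbar x w) = w := by
    intro w hw
    have hle : W ≤ LinearMap.ker
        (heckeT' hd χ s.Kbar x * heckeT' hd χ s.Kbar x - 1) := by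
      refine Submodule.span_le.2 ?_
      rintro _ ⟨y, hy, rfl⟩
      rw [SetLike.mem_coe, LinearMap.mem_ker, LinearMap.sub_apply, Module.End.mul_apply,
        Module.End.one_apply, ← cohMap_heckeT', ← cohMap_heckeT', sub_eq_zero]
      refine congrArg _ ?_
      have h := partT_sq_of_partLower (one_dvd L) 1 (residue s.O) a s.O hxL hxS hy
      rw [partT_toPart, partT_toPart, ← sub_eq_zero, ← map_sub, toPart, Submodule.mkQ_apply,
        Submodule.Quotient.mk_eq_zero] at h
      have h' := hk _ h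
      rw [map_sub, sub_eq_zero] at h'
      have hc := fun z => LinearMap.congr_fun (cohAct_comm hd 1 S s.O x t₀).eq z
      simp only [Module.End.mul_apply] at hc
      rw [hc, hc, h']
    have := hle hw
    rwa [LinearMap.mem_ker, LinearMap.sub_apply, Module.End.mul_apply, Module.End.one_apply,
      sub_eq_zero] at this
  have hχ1 : χ = 1 := MulChar.ringHomComp_one _
  obtain ⟨u, hu, hu0⟩ := Ribet.Avoid.Rank.exists_kill_of_not_congruent (hD := hd) (S := S)
    (residue s.O) s.abar ι χ W hstable fun b w hw hw0 heig => by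
      have key : ∀ (χ' : DirichletCharacter s.Kbar 1), χ' = 1 →
          ∀ (w : CohL hd χ' s.Kbar), w ≠ 0 →
          heckeT' hd χ' s.Kbar x (heckeT' hd χ' s.Kbar x w) = w →
          (∀ ℓ : Ribet.Avoid.GoodPrime S, heckeT' hd χ' s.Kbar ℓ.1 w = b ℓ.1 • w) →
          ¬ IsCongruent ι (residue s.O) s.abar S b := by
        rintro χ' rfl w hw0 hsq heig
        exact hno b w hw0 hsq fun ℓ hℓ hℓS => heig ⟨ℓ, hℓ, hℓS⟩
      exact key χ hχ1 w hw0 (hsq w hw) heig
  rw [injective_iff_map_eq_zero]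
  intro z hz
  obtain ⟨y, rfl⟩ := toPart_surjective hd 1 (residue s.O) a s.O z
  have hmem := hu0 _ (Submodule.subset_span ⟨y, hz, rfl⟩)
  rw [act_eq_cohAct, ← cohMap_cohAct] at hmem
  have h0 := cohMap_injective ι s.algebraMap_Kbar_injective _ hmem
  rw [toPart_eq_zero]
  refine ⟨u * t₀, ?_, by rw [map_mul, Module.End.mul_apply, h0]⟩
  rw [map_mul]
  exact mul_ne_zero (fun h => hu h) ht₀

/-- **Doubling**: a prime where no congruent system is new. -/
theorem exists_raiseEquiv {L x : ℕ} [NeZero L] [NeZero (L * x)] [Fact x.Prime] {S : Finset ℕ}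
    (hL : s.N * s.aux ∣ L) (hxL : ¬ x ∣ L) (hxS : x ∈ S) (hno : s.NoNewAt L x S) :
    ∃ e : (s.OPart L S × s.OPart L S) ≃ₗ[s.O] s.OPart (L * x) S,
      ∀ ℓ : GoodIdx S, ∀ z,
        e (s.opT L S ℓ z.1, s.opT L S ℓ z.2) = s.opT (L * x) S ℓ (e z) := by
  obtain ⟨r, hr⟩ := exists_retraction hL hxL hxS
  set α := partRaise (one_dvd L) (1 : DirichletCharacter s.O 1) (residue s.O)
        (fun ℓ : GoodIdx S => s.abar ℓ) s.O hxL hxS
  have hαi : Function.Injective α := fun z w h => by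
    have := congrArg r h
    rwa [← LinearMap.comp_apply, ← LinearMap.comp_apply, hr] at this
  have hle : Module.finrank s.O (s.OPart (L * x) S) ≤
      Module.finrank s.O (s.OPart L S × s.OPart L S) :=
    LinearMap.finrank_le_finrank_of_injective (partLower_injective hxL hxS hno)
  have hge : Module.finrank s.O (s.OPart L S × s.OPart L S) ≤
      Module.finrank s.O (s.OPart (L * x) S) := LinearMap.finrank_le_finrank_of_injective hαi
  let e₀ := LinearEquiv.ofFinrankEq (s.OPart (L * x) S) (s.OPart L S × s.OPart L S)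
    (le_antisymm hle hge)
  have hrs : Function.Surjective r := fun z => ⟨α z, by
    rw [← LinearMap.comp_apply, hr]; rfl⟩
  have hb := OrzechProperty.bijective_of_surjective_endomorphism (r ∘ₗ e₀.symm.toLinearMap)
    (hrs.comp e₀.symm.surjective)
  have hri : Function.Injective r := by
    have := hb.1.comp e₀.injective
    simpa [Function.comp_def] using this
  have hαs : Function.Surjective α := fun w => ⟨r w, hri (by
    rw [← LinearMap.comp_apply, hr]; rfl)⟩
  exact ⟨LinearEquiv.ofBijective α ⟨hαi, hαs⟩, fun ℓ z => partRaise_partT (one_dvd L) 1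
    (residue s.O) _ s.O hxL hxS (fun h => ℓ.2.2 (by rw [h]; exact hxS)) z.1 z.2⟩

/-- **Doubling at several primes.** -/
theorem exists_prodEquiv {L₀ : ℕ} [NeZero L₀] (hL₀ : s.N * s.aux ∣ L₀) {S : Finset ℕ} {r : ℕ}
    (Q : Fin r → ℕ) (hQ : ∀ j, (Q j).Prime) (hinj : Function.Injective Q)
    (hQL : ∀ j, ¬ Q j ∣ L₀) (hQS : ∀ j, Q j ∈ S)
    (hno : ∀ (T : Finset (Fin r)) (j : Fin r), j ∉ T →
      ∀ [NeZero (L₀ * (∏ i ∈ T, Q i) * Q j)], s.NoNewAt (L₀ * ∏ i ∈ T, Q i) (Q j) S)
    (T : Finset (Fin r)) (L : ℕ) [NeZero L] (hL : L = L₀ * ∏ i ∈ T, Q i) :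
    ∃ e : (Fin (2 ^ T.card) → s.OPart L₀ S) ≃ₗ[s.O] s.OPart L S,
      ∀ ℓ : GoodIdx S, ∀ z,
        e (fun i => s.opT L₀ S ℓ (z i)) = s.opT L S ℓ (e z) := by
  classical
  induction T using Finset.induction generalizing L with
  | empty =>
    obtain rfl : L = L₀ := by simpa using hL
    rw [Finset.card_empty, pow_zero]
    exact ⟨LinearEquiv.funUnique (Fin 1) s.O _, fun ℓ z => rfl⟩
  | insert j T hj ih =>
    haveI : Fact (Q j).Prime := ⟨hQ j⟩
    haveI : NeZero (∏ i ∈ T, Q i) := ⟨Finset.prod_ne_zero_iff.mpr fun i _ => (hQ i).ne_zero⟩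
    haveI : NeZero (L₀ * ∏ i ∈ T, Q i) := ⟨mul_ne_zero (NeZero.ne _) (NeZero.ne _)⟩
    rw [Finset.prod_insert hj, mul_left_comm] at hL
    obtain rfl : L = (L₀ * ∏ i ∈ T, Q i) * Q j := by rw [hL, mul_comm]
    have hjL : ¬ Q j ∣ L₀ * ∏ i ∈ T, Q i := fun h => by
      rcases (Nat.Prime.dvd_mul (hQ j)).1 h with h | h
      · exact hQL j h
      · obtain ⟨i, hi, hji⟩ := (Prime.dvd_finsetProd_iff (hQ j).prime _).1 h
        exact hj (hinj ((Nat.prime_dvd_prime_iff_eq (hQ j) (hQ i)).1 hji) ▸ hi)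
    obtain ⟨e, he⟩ := ih (L₀ * ∏ i ∈ T, Q i) rfl
    obtain ⟨f, hf⟩ := exists_raiseEquiv (hL₀.trans (Dvd.intro _ rfl)) hjL (hQS j) (hno T j hj)
    let σ : Fin (2 ^ (insert j T).card) ≃ Fin (2 ^ T.card) ⊕ Fin (2 ^ T.card) :=
      (finCongr (by rw [Finset.card_insert_of_notMem hj, pow_succ, mul_two])).trans
        finSumFinEquiv.symm
    refine ⟨(LinearEquiv.funCongrLeft s.O (s.OPart L₀ S) σ.symm) ≪≫ₗ
      LinearEquiv.sumArrowLequivProdArrow _ _ s.O _ ≪≫ₗ (e.prodCongr e) ≪≫ₗ f, fun ℓ z => ?_⟩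
    simp only [LinearEquiv.trans_apply, LinearEquiv.prodCongr_apply]
    rw [← hf ℓ, ← he ℓ, ← he ℓ]
    rfl

/-- The part is not zero at any of the levels of the setup. -/
theorem nontrivial_oPart (i : Fin (s.K + 1)) : Nontrivial (s.OPart (s.lev i) s.S0) := by
  induction i using Fin.induction with
  | zero =>
    obtain ⟨v, hv⟩ := s.hres (s.lev 0) s.lev_zero
    have hc : (RingHom.id s.kk).comp (residue s.O) = residue s.O := RingHom.id_comp _
    have key : ∀ (χ : DirichletCharacter s.kk 1), χ = 1 →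
        ∃ v : MPart (one_dvd (s.lev 0)) χ (RingHom.id s.kk)
          (fun ℓ : GoodIdx s.S0 => s.abar ℓ) s.kk, v ≠ 0 := by
      rintro χ rfl
      exact ⟨v, hv⟩
    obtain ⟨v, hv⟩ := key _ (MulChar.ringHomComp_one (residue s.O))
    obtain ⟨w, rfl⟩ := mapPart_surjective (one_dvd (s.lev 0)) (1 : DirichletCharacter s.O 1)
      (residue s.O) (fun ℓ : GoodIdx s.S0 => s.abar ℓ) (residue s.O) (RingHom.id s.kk) hc
      residue_surjective s.isUnit_two (s.elliptic3 (s.dvd_lev 0)) v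
    exact ⟨⟨w, 0, fun h => hv (by rw [h, map_zero])⟩⟩
  | succ a ih =>
    haveI : Fact (s.q a).Prime := ⟨(s.hq a).1⟩
    have key : ∀ (L : ℕ) [NeZero L] (L' : ℕ) [NeZero L'], L' = L * s.q a → s.N * s.aux ∣ L →
        ¬ s.q a ∣ L → Nontrivial (s.OPart L s.S0) → Nontrivial (s.OPart L' s.S0) := by
      intro L _ L' _ hL' hdvd hndvd hnt
      subst hL'
      obtain ⟨r, hr⟩ := exists_retraction hdvd hndvd (s.q_mem_S0 a)
      haveI := hnt
      have hinj : Function.Injective (partRaise (one_dvd L) (1 : DirichletCharacter s.O 1)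
          (residue s.O) (fun ℓ : GoodIdx s.S0 => s.abar ℓ) s.O hndvd (s.q_mem_S0 a)) :=
        fun z w h => by
          have := congrArg r h
          rwa [← LinearMap.comp_apply, ← LinearMap.comp_apply, hr] at this
      exact hinj.nontrivial
    exact key (s.lev a.castSucc) (s.lev a.succ) (s.lev_succ a) (s.dvd_lev _) (s.q_not_dvd_lev a) ih

end FSetup

end Fermat.Agent.Lifting
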