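/-
No congruent system is new at a Taylor-Wiles prime of a setup.
-/
import Fermat.Agent.Lifting.FRanksLevel
import Fermat.Agent.Ribet.Avoid.OldHom
import Fermat.Agent.Galois.Frobenius

/-!
# Modularity lifting: no congruent system is new at a Taylor-Wiles prime

The argument of `Ribet/Avoid/Kernel.lean` and the coefficient ring of `Ribet/Avoid/OldHom.lean`,
for the data of a lifting problem.
-/

set_option autoImplicit false
set_option linter.style.haveILetI false

noncomputable section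

namespace Fermat.Agent.Lifting

open Polynomial IsLocalRing Fermat.Agent.Ribet.Twisted
open Fermat.Agent.Ribet.Avoid (IsCongruent residualIdeal evalSystem exists_hom_of_sq_eq)

local notation "ℚbar" => AlgebraicClosure ℚ
local notation "Γℚ" => AlgebraicClosure ℚ ≃ₐ[ℚ] AlgebraicClosure ℚ

namespace FSetup

variable (s : FSetup)

/-- The residual trace and determinant of Frobenius. -/
theorem trace_det_frob {ℓ : ℕ} (hℓ : ℓ.Prime) (hℓS : ℓ ∉ s.S0) {A : ValuationSubring ℚbar}
    (hA : A.LiesOverPrime ℓ) {σ : Γℚ} (hσ : A.IsFrobeniusAt σ ℓ) :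
    (TW.matRep s.ρbar σ).trace = s.abar ℓ ∧ (TW.matRep s.ρbar σ).det = (ℓ : s.kk) := by
  have h := s.hfrobW ℓ hℓ hℓS A hA σ hσ
  change LinearMap.charpoly (Matrix.toLin' (s.rW σ)) = _ at h
  rw [Matrix.charpoly_toLin', Matrix.charpoly_fin_two] at h
  have ht : (s.rW σ).trace = s.aW ℓ := by
    simpa using congrArg (fun P : s.O[X] => P.coeff 1) h
  have hd : (s.rW σ).det = (ℓ : s.O) := by
    simpa using congrArg (fun P : s.O[X] => P.coeff 0) h
  rw [← s.hred σ]
  constructor
  · rw [← AddMonoidHom.map_trace, ht]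
    rfl
  · rw [← RingHom.mapMatrix_apply, ← RingHom.map_det, hd, map_natCast]

/-- A congruent system is not Eisenstein. -/
theorem exists_ne_eisenstein (S : Finset ℕ) (m : ℕ) (hm : 0 < m) (a : ℕ → s.Kbar)
    (hcong : IsCongruent (algebraMap s.O s.Kbar) (residue s.O) s.abar S a) :
    ∃ ℓ : ℕ, ℓ.Prime ∧ ℓ ∉ S ∧ (ℓ : ZMod m) = 1 ∧ a ℓ ≠ (ℓ : s.Kbar) + 1 := by
  obtain ⟨ℓ, hℓ, hℓS, hℓm, hne⟩ := s.hEis m S hm
  refine ⟨ℓ, hℓ, hℓS, hℓm, fun h => hne ?_⟩
  have hmem : MvPolynomial.X ⟨ℓ, hℓ, hℓS⟩ - MvPolynomial.C ((ℓ : s.O) + 1) ∈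
      RingHom.ker (evalSystem (algebraMap s.O s.Kbar) a S) := by
    simp [RingHom.mem_ker, evalSystem, h]
  have h' := hcong hmem
  rw [residualIdeal, RingHom.mem_ker] at h'
  simp [evalSystem, sub_eq_zero, FSetup.abar] at h'
  exact h'

end FSetup

/-- A finite extension of the coefficients carrying the values of a character of the Hecke
algebra, with the residual values of a congruent system. -/
theorem exists_coeff_of_congr (s : FSetup) {T : Type} [CommRing T] [Module.Finite ℤ T] (χ : T →+* s.Kbar)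
    (S : Finset ℕ) (a : ℕ → s.Kbar) (ha : ∀ ℓ : ℕ, ℓ.Prime → ℓ ∉ S → ∃ t, χ t = a ℓ)
    (hcong : IsCongruent (algebraMap s.O s.Kbar) (residue s.O) s.abar S a) :
    ∃ (O' : Type) (_ : CommRing O') (_ : IsDomain O') (_ : IsDiscreteValuationRing O')
      (_ : IsAdicComplete (maximalIdeal O') O') (_ : Finite (ResidueField O'))
      (_ : CharZero O') (φ : s.O →+* O') (_ : IsLocalHom φ) (emb : O' →+* s.Kbar) (b : ℕ → O'),
      Function.Injective emb ∧ ∀ ℓ : ℕ, ℓ.Prime → ℓ ∉ S →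
        emb (b ℓ) = a ℓ ∧ ∀ c : s.O, residue s.O c = s.abar ℓ → b ℓ - φ c ∈ maximalIdeal O' := by
  classical
  obtain ⟨t, ht⟩ := (Module.finite_def.mp (inferInstance : Module.Finite ℤ T))
  let E : IntermediateField (FractionRing s.O) s.Kbar :=
    IntermediateField.adjoin (FractionRing s.O) ((t.image χ : Finset s.Kbar) : Set s.Kbar)
  haveI : FiniteDimensional (FractionRing s.O) E :=
    IntermediateField.finiteDimensional_adjoin fun x _ => Algebra.IsIntegral.isIntegral x
  haveI : CharZero (FractionRing s.O) :=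
    charZero_of_injective_algebraMap (IsFractionRing.injective s.O (FractionRing s.O))
  have hmem : ∀ x : T, χ x ∈ E := fun x => by
    have hx : x ∈ Submodule.span ℤ (t : Set T) := by rw [ht]; exact Submodule.mem_top
    induction hx using Submodule.span_induction with
    | mem y hy =>
      exact IntermediateField.subset_adjoin _ _ (Finset.mem_coe.mpr (Finset.mem_image_of_mem _ hy))
    | zero => rw [map_zero]; exact zero_mem _
    | add y z _ _ hy hz => rw [map_add]; exact add_mem hy hz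
    | smul c y _ hy => rw [map_zsmul]; exact zsmul_mem hy c
  obtain ⟨hdvr, -, hloc, hinj, -, hcomp, hres⟩ :=
    RepLemmas.integralClosure_isDVR s.O (FractionRing s.O) E
  haveI := hdvr
  let emb : integralClosure s.O E →+* s.Kbar :=
    E.val.toRingHom.comp (integralClosure s.O E).val.toRingHom
  have hemb : Function.Injective emb := Subtype.val_injective.comp Subtype.val_injective
  have hint : ∀ x : T, (⟨χ x, hmem x⟩ : E) ∈ integralClosure s.O E := fun x => by
    have h1 : IsIntegral ℤ (⟨χ x, hmem x⟩ : E) :=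
      map_isIntegral_int (χ.codRestrict E.toSubfield.toSubring hmem)
        (Algebra.IsIntegral.isIntegral x)
    exact h1.tower_top
  have hb' : ∀ ℓ, ∃ b : integralClosure s.O E, ℓ.Prime → ℓ ∉ S → emb b = a ℓ := fun ℓ => by
    by_cases h : ℓ.Prime ∧ ℓ ∉ S
    · obtain ⟨x, hx⟩ := ha ℓ h.1 h.2
      exact ⟨⟨⟨χ x, hmem x⟩, hint x⟩, fun _ _ => hx⟩
    · exact ⟨0, fun h1 h2 => absurd ⟨h1, h2⟩ h⟩
  choose b hb using hb'
  haveI : CharZero (integralClosure s.O E) :=
    charZero_of_injective_ringHom (f := algebraMap s.O (integralClosure s.O E)) hinj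
  refine ⟨integralClosure s.O E, inferInstance, inferInstance, hdvr, hcomp, hres inferInstance,
    inferInstance, algebraMap s.O (integralClosure s.O E), hloc, emb, b, hemb,
    fun ℓ hℓ hℓS => ⟨hb ℓ hℓ hℓS, fun c hc => ?_⟩⟩
  -- the residual ideal is the trace of the maximal ideal
  let Φ : MvPolynomial (GoodIdx S) s.O →ₐ[s.O] integralClosure s.O E := MvPolynomial.aeval fun x => b x.1
  letI : Algebra (MvPolynomial (GoodIdx S) s.O) (integralClosure s.O E) := Φ.toRingHom.toAlgebra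
  haveI : IsScalarTower s.O (MvPolynomial (GoodIdx S) s.O) (integralClosure s.O E) :=
    IsScalarTower.of_algebraMap_eq fun x => (Φ.commutes x).symm
  haveI : Algebra.IsIntegral s.O (integralClosure s.O E) := inferInstance
  haveI : Algebra.IsIntegral (MvPolynomial (GoodIdx S) s.O) (integralClosure s.O E) :=
    Algebra.IsIntegral.tower_top (R := s.O)
  have hker : RingHom.ker (algebraMap (MvPolynomial (GoodIdx S) s.O) (integralClosure s.O E)) ≤
      residualIdeal (residue s.O) s.abar S := fun f hf => by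
    refine hcong ?_
    rw [RingHom.mem_ker] at hf ⊢
    have hev : evalSystem (algebraMap s.O s.Kbar) a S = emb.comp Φ.toRingHom := by
      refine MvPolynomial.ringHom_ext (fun x => ?_) fun x => ?_
      · rw [evalSystem, MvPolynomial.eval₂Hom_C, RingHom.comp_apply, AlgHom.toRingHom_eq_coe,
          RingHom.coe_coe, MvPolynomial.aeval_C]
        rfl
      · rw [evalSystem, MvPolynomial.eval₂Hom_X', RingHom.comp_apply, AlgHom.toRingHom_eq_coe,
          RingHom.coe_coe, MvPolynomial.aeval_X, hb x.1 x.2.1 x.2.2]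
    rw [hev, RingHom.comp_apply]
    exact (congrArg emb hf).trans (map_zero emb)
  haveI : (residualIdeal (residue s.O) s.abar S).IsMaximal :=
    RingHom.ker_isMaximal_of_surjective _ fun z => by
      obtain ⟨w, rfl⟩ := residue_surjective z
      exact ⟨MvPolynomial.C w, MvPolynomial.eval₂Hom_C _ _ w⟩
  obtain ⟨Q, hQ, hQc⟩ := Ideal.exists_ideal_over_maximal_of_isIntegral
    (S := integralClosure s.O E) (residualIdeal (residue s.O) s.abar S) hker
  have hf : MvPolynomial.X (⟨ℓ, hℓ, hℓS⟩ : GoodIdx S) - MvPolynomial.C c ∈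
      residualIdeal (residue s.O) s.abar S := by
    simp [residualIdeal, RingHom.mem_ker, evalSystem, hc]
  rw [← hQc, Ideal.mem_comap, eq_maximalIdeal hQ] at hf
  simpa [RingHom.algebraMap_toAlgebra, Φ] using hf

/-- A congruent system with `U'_q² = 1` forces the residual Frobenius at `q` to have
`tr² = (q + 1)²` and determinant `q`. -/
theorem trace_sq_of_newAt (s : FSetup) {L q : ℕ} [NeZero L] [NeZero q] (S : Finset ℕ)
    (hS₀ : s.S0 ⊆ S) (hLS : ∀ x : ℕ, x.Prime → x ∣ L * q → x ∈ S) (hL : Squarefree (L * q))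
    (hqp : q ≠ s.p) (hq : q.Prime)
    (a : ℕ → s.Kbar) (x : CohL (one_dvd (L * q)) (1 : DirichletCharacter s.Kbar 1) s.Kbar) (hx : x ≠ 0)
    (hU : heckeT' (one_dvd (L * q)) (1 : DirichletCharacter s.Kbar 1) s.Kbar q
      (heckeT' (one_dvd (L * q)) (1 : DirichletCharacter s.Kbar 1) s.Kbar q x) = x)
    (heig : ∀ ℓ : ℕ, ℓ.Prime → ℓ ∉ S →
      heckeT' (one_dvd (L * q)) (1 : DirichletCharacter s.Kbar 1) s.Kbar ℓ x = a ℓ • x)
    (hcong : IsCongruent (algebraMap s.O s.Kbar) (residue s.O) s.abar S a)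
    (A : ValuationSubring ℚbar) (hA : A.LiesOverPrime q) (φq : Γℚ) (hφq : A.IsFrobeniusAt φq q) :
    (TW.matRep s.ρbar φq).trace ^ 2 = ((q : s.kk) + 1) ^ 2 ∧
      (TW.matRep s.ρbar φq).det = (q : s.kk) := by
  classical
  haveI : NeZero (L * q * 1) := by rw [mul_one]; infer_instance
  have hp : s.p.Prime := s.hp.out
  obtain ⟨ε, χ, hε, hχU, hχT⟩ := exists_hom_of_sq_eq (L := L * q) (one_dvd _) squarefree_one
    (Nat.coprime_one_left _) 1
    (fun t ht htd => absurd htd ht.not_dvd_one) hq hq.not_dvd_one (dvd_mul_left q L) S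
    (fun t ht htd => absurd htd ht.not_dvd_one) a x hx hU heig
    (s.exists_ne_eisenstein S _ (Nat.pos_of_ne_zero (NeZero.ne _)) a hcong)
  haveI := Eigen.heckeAlgebra_moduleFinite (Integral.hasIntegralStructure (L * q * 1) 2)
    (↑(S.erase q) : Set ℕ)
  have hNS : ∀ t : ℕ, t.Prime → t ∣ L * q * 1 → t ∈ S := fun t ht h =>
    hLS t ht (by rwa [mul_one] at h)
  have haT : ∀ ℓ : ℕ, ℓ.Prime → ℓ ∉ S → ∃ t, χ t = a ℓ := fun ℓ hℓ hℓS =>
    ⟨_, hχT ℓ hℓ (fun h => hℓS (hNS ℓ hℓ h)) fun h => hℓS (Finset.mem_of_mem_erase h)⟩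
  obtain ⟨O', i1, i2, i3, i4, i5, i6, φ, hφ, emb, b, hemb, hb⟩ := exists_coeff_of_congr s χ S a haT hcong
  have hp' : (s.p : O') ∈ maximalIdeal O' := by
    rw [← map_natCast φ]
    exact haveI := hφ; map_nonunit φ (s.p : s.O) s.hpO
  have hpS : s.p ∈ S := hS₀ ((s.hS0 _).2 (Or.inl rfl))
  obtain ⟨O'', j1, j2, j3, j4, j5, j6, j7, j8, -, ρ, hgood, hbad⟩ :=
    Ribet.Avoid.exists_rep_of_hom hq hqp ((dvd_mul_left q L).mul_right 1)
      (fun h => by
        rw [mul_one] at h
        exact hq.ne_one (Nat.isUnit_iff.mp (hL q (by rwa [← pow_two]))))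
      S hpS hNS χ ε hε hχU hp' emb hemb b (fun ℓ hℓ hℓN hℓS => by
        have hℓS' : ℓ ∉ S := fun h => hℓS (Finset.mem_erase.mpr
          ⟨fun e => hℓN (e ▸ (dvd_mul_left q L).mul_right 1), h⟩)
        rw [(hb ℓ hℓ hℓS').1, hχT ℓ hℓ hℓN hℓS])
  -- compare with the residual representation
  set ψ : s.O →+* O'' ⧸ maximalIdeal O'' ^ 1 :=
    (Ideal.Quotient.mk _).comp ((algebraMap O' O'').comp φ) with hψ
  have hψm : ∀ y ∈ maximalIdeal s.O, ψ y = 0 := fun y hy => by
    rw [hψ, RingHom.comp_apply, RingHom.comp_apply, Ideal.Quotient.eq_zero_iff_mem, pow_one]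
    exact map_nonunit (algebraMap O' O'') _ (haveI := hφ; map_nonunit φ y hy)
  let ψk : s.kk →+* O'' ⧸ maximalIdeal O'' ^ 1 := Ideal.Quotient.lift (maximalIdeal s.O) ψ hψm
  have hψk : ∀ y, ψk (residue s.O y) = ψ y := fun y => rfl
  haveI : Nontrivial (O'' ⧸ maximalIdeal O'' ^ 1) :=
    Ideal.Quotient.nontrivial_iff.mpr (by
      rw [pow_one]; exact (maximalIdeal.isMaximal O'').ne_top)
  let r₂ : Γℚ →* Matrix (Fin 2) (Fin 2) (O'' ⧸ maximalIdeal O'' ^ 1) :=
    ψk.mapMatrix.toMonoidHom.comp (TW.matRep s.ρbar)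
  obtain ⟨L₁, hL₁, hc₁⟩ := ρ.isAdicContinuous 1
  obtain ⟨L₂, hL₂, hc₂⟩ := s.ρbar.factorsThroughFiniteLevel
  haveI := hL₁
  haveI := hL₂
  have key := CondLevel.trace_det_eq_of_frobenius
    (CondLevel.adicMatrixRep ρ (maximalIdeal O'' ^ 1)) r₂ (L₁ ⊔ L₂)
    (fun τ hτ => CondLevel.adicMatrixRep_eq_one ρ (hc₁ τ fun y hy =>
      hτ y ((le_sup_left : L₁ ≤ L₁ ⊔ L₂) hy)))
    (fun τ hτ => by
      show ψk.mapMatrix (TW.matRep s.ρbar τ) = 1
      rw [(TW.matRep_eq_one_iff s.ρbar τ).mpr (hc₂ τ fun y hy =>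
        hτ y ((le_sup_right : L₂ ≤ L₁ ⊔ L₂) hy)), map_one]) S
    (fun ℓ hℓ hℓS A hA τ hτ => by
      obtain ⟨h1, h2⟩ := hgood ℓ hℓ hℓS A hA τ hτ
      obtain ⟨htr, hdt⟩ := s.trace_det_frob hℓ (fun h => hℓS (hS₀ h)) hA hτ
      obtain ⟨c, hc⟩ := residue_surjective (s.abar ℓ)
      show _ = (ψk.mapMatrix (TW.matRep s.ρbar τ)).trace ∧ _ = (ψk.mapMatrix _).det
      rw [CondLevel.trace_adicMatrixRep, CondLevel.det_adicMatrixRep, h1, h2, RingHom.mapMatrix_apply,
        ← AddMonoidHom.map_trace, ← RingHom.mapMatrix_apply, ← RingHom.map_det, htr, hdt,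
        map_natCast, map_natCast]
      refine ⟨?_, rfl⟩
      rw [← hc, hψk, hψ, RingHom.comp_apply, RingHom.comp_apply, Ideal.Quotient.eq, ← map_sub,
        pow_one]
      exact map_nonunit (algebraMap O' O'') _ ((hb ℓ hℓ hℓS).2 c hc))
  obtain ⟨hb1, hb2⟩ := hbad A hA φq hφq
  obtain ⟨k1, k2⟩ := key φq
  have k1' : Ideal.Quotient.mk (maximalIdeal O'' ^ 1) (ρ.trace φq) =
      ψk (TW.matRep s.ρbar φq).trace := by
    rw [← CondLevel.trace_adicMatrixRep, k1]
    show (ψk.mapMatrix _).trace = _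
    rw [RingHom.mapMatrix_apply, ← AddMonoidHom.map_trace]
  have k2' : Ideal.Quotient.mk (maximalIdeal O'' ^ 1) (LinearMap.det (ρ.ρ φq)) =
      ψk (TW.matRep s.ρbar φq).det := by
    rw [← CondLevel.det_adicMatrixRep, k2]
    show (ψk.mapMatrix _).det = _
    rw [← RingHom.map_det]
  exact ⟨ψk.injective (by
    rw [map_pow, ← k1', ← map_pow, hb1, map_pow, map_add, map_natCast, map_one, map_pow, map_add,
      map_natCast, map_one]), ψk.injective (by rw [← k2', hb2, map_natCast, map_natCast])⟩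

/-- A congruent system with trivial character is not new at a Taylor-Wiles prime. -/
theorem FAux.noNewAt {s : FSetup} {r n : ℕ} (d : FAux s r n) (j : Fin r) {L : ℕ}
    [NeZero (L * d.Q j)] (hL : Squarefree (L * d.Q j))
    (hLS : ∀ x : ℕ, x.Prime → x ∣ L * d.Q j → x ∈ d.S) :
    s.NoNewAt L (d.Q j) d.S := by
  haveI : NeZero L := ⟨left_ne_zero_of_mul (NeZero.ne (L * d.Q j))⟩
  haveI : NeZero (d.Q j) := ⟨(d.prime j).ne_zero⟩
  intro a x hx hU heig hcong
  obtain ⟨A, hA⟩ := Galois.exists_liesOverPrime (d.prime j)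
  obtain ⟨φq, hφq⟩ := Galois.exists_isFrobeniusAt (d.prime j) hA
  obtain ⟨α, β, hαβ, hchar⟩ := d.distinct j A hA φq hφq
  have hqp : d.Q j ≠ s.p := fun h => d.notMem j ((s.hS0 _).2 (Or.inl h))
  obtain ⟨e1, e2⟩ := trace_sq_of_newAt s d.S Finset.subset_union_left hLS hL hqp (d.prime j) a x
    hx hU heig hcong A hA φq hφq
  rw [← TW.charpoly_matRep, Matrix.charpoly_fin_two] at hchar
  have hexp : (Polynomial.X - Polynomial.C α) * (Polynomial.X - Polynomial.C β) =
      Polynomial.X ^ 2 - Polynomial.C (α + β) * Polynomial.X + Polynomial.C (α * β) := by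
    rw [map_add, map_mul]; ring
  rw [hexp] at hchar
  have htr : (TW.matRep s.ρbar φq).trace = α + β := by
    have := congrArg (fun P : s.kk[X] => P.coeff 1) hchar
    simp at this
    linear_combination -this
  have hdt : (TW.matRep s.ρbar φq).det = α * β := by
    simpa using congrArg (fun P : s.kk[X] => P.coeff 0) hchar
  have hq1 : (d.Q j : s.kk) = 1 := by
    have h0 : (s.p : s.kk) = 0 := by
      rw [← map_natCast (residue s.O), residue_eq_zero_iff]; exact s.hpO
    obtain ⟨m, hm⟩ := (dvd_pow_self s.p n.succ_ne_zero).trans (d.dvd j)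
    have e : d.Q j = s.p * m + 1 := by have := (d.prime j).two_le; omega
    rw [e, Nat.cast_add, Nat.cast_mul, h0, zero_mul, zero_add, Nat.cast_one]
  rw [htr, hq1] at e1
  rw [hdt, hq1] at e2
  exact hαβ (sub_eq_zero.mp (pow_eq_zero_iff (n := 2) two_ne_zero |>.mp
    (by linear_combination e1 - 4 * e2)))

end Fermat.Agent.Lifting
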