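import Fermat.Agent.Lifting.FPatch
import Fermat.Agent.Lifting.FRanksLevel
import Fermat.Agent.Lifting.FRanksNew
import Fermat.Agent.Ribet.Avoid.Universal

/-!
# Modularity lifting: ranks and the operators on the bottom
-/

set_option autoImplicit false

noncomputable section

namespace Fermat.Agent.Lifting

open IsLocalRing MvPowerSeries
open Fermat.Agent.Ribet.Twisted (CohL heckeT' HasSystem)

theorem isLocalRing_quotient_pow {R : Type*} [CommRing R] [IsLocalRing R] (n : ℕ) :
    IsLocalRing (R ⧸ maximalIdeal R ^ (n + 1)) := by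
  haveI : Nontrivial (R ⧸ maximalIdeal R ^ (n + 1)) := Ideal.Quotient.nontrivial_iff.2 fun h =>
    (maximalIdeal.isMaximal R).ne_top
      (top_le_iff.1 (h.ge.trans (Ideal.pow_le_self n.succ_ne_zero)))
  exact IsLocalRing.of_surjective' (Ideal.Quotient.mk _) Ideal.Quotient.mk_surjective

theorem isArtinianRing_quotient_pow {R : Type*} [CommRing R] [IsLocalRing R] [IsNoetherianRing R]
    (n : ℕ) : IsArtinianRing (R ⧸ maximalIdeal R ^ (n + 1)) := by
  haveI := isLocalRing_quotient_pow (R := R) n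
  rw [isArtinianRing_iff_isNilpotent_maximalIdeal]
  refine ⟨n + 1, ?_⟩
  have h : maximalIdeal (R ⧸ maximalIdeal R ^ (n + 1)) =
      (maximalIdeal R).map (Ideal.Quotient.mk (maximalIdeal R ^ (n + 1))) :=
    ((IsLocalRing.eq_maximalIdeal (Ideal.IsMaximal.map_of_surjective_of_ker_le
      Ideal.Quotient.mk_surjective (by rw [Ideal.mk_ker]; exact Ideal.pow_le_self n.succ_ne_zero)))).symm
  rw [h, ← Ideal.map_pow, Ideal.map_quotient_self, Ideal.zero_eq_bot]

namespace FAux

variable {s : FSetup} {r n : ℕ} (d : FAux s r n)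

theorem Q_ne_p (j : Fin r) : d.Q j ≠ s.p := fun h =>
  d.notMem j ((s.hS0 _).2 (Or.inl h))

theorem Q_not_dvd_lev (j : Fin r) (i : Fin (s.K + 1)) : ¬ d.Q j ∣ s.lev i := fun h =>
  d.notMem j (s.mem_S0_of_dvd_lev (d.prime j) h)

theorem mem_S_of_dvd_DQ {x : ℕ} (hx : x.Prime) (h : x ∣ d.DQ) : x ∈ d.S := by
  obtain ⟨j, -, hj⟩ := (Prime.dvd_finsetProd_iff hx.prime _).1 h
  exact Finset.mem_union_right _ (Finset.mem_image.2
    ⟨j, Finset.mem_univ j, ((Nat.prime_dvd_prime_iff_eq hx (d.prime j)).1 hj).symm⟩)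

theorem squarefree_lev (i : Fin (s.K + 1)) : Squarefree (s.lev i) := by
  have hq : Squarefree (∏ a : Fin i, s.q (a.castLE (Nat.lt_succ_iff.mp i.2))) :=
    Finset.squarefree_prod_of_pairwise_isCoprime
      (fun a _ b _ hab => by
        rw [Function.onFun, ← Nat.coprime_iff_isRelPrime]
        exact (Nat.coprime_primes (s.hq _).1 (s.hq _).1).2 fun e =>
          hab (Fin.castLE_injective _ (s.q_inj e)))
      fun a _ => (s.hq _).1.squarefree
  have haux : Squarefree s.aux ∧ Nat.Coprime s.N s.aux := by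
    rcases s.haux with h | ⟨hp, -, hN, -⟩
    · simp [h]
    · exact ⟨hp.squarefree, (hp.coprime_iff_not_dvd.2 hN).symm⟩
  refine (Nat.squarefree_mul (Nat.Coprime.prod_right fun a _ =>
    ((s.hq _).1.coprime_iff_not_dvd.2 fun h => ?_).symm)).2
      ⟨(Nat.squarefree_mul haux.2).2 ⟨s.hN, haux.1⟩, hq⟩
  rcases (Nat.Prime.dvd_mul (s.hq _).1).1 h with h | h
  · exact (s.hq _).2.2 h
  · rcases s.haux with h1 | ⟨hp, -, -, hne⟩
    · rw [h1] at h
      exact (s.hq _).1.ne_one (Nat.dvd_one.1 h)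
    · exact hne _ ((Nat.prime_dvd_prime_iff_eq (s.hq _).1 hp).1 h)

/-- The level with some of the auxiliary primes: squarefree, its primes left out. -/
theorem level_ok (i : Fin (s.K + 1)) (T : Finset (Fin r)) (j : Fin r) (hj : j ∉ T) :
    Squarefree (s.lev i * (∏ k ∈ T, d.Q k) * d.Q j) ∧
      ∀ x : ℕ, x.Prime → x ∣ s.lev i * (∏ k ∈ T, d.Q k) * d.Q j → x ∈ d.S := by
  classical
  have e : s.lev i * (∏ k ∈ T, d.Q k) * d.Q j = s.lev i * ∏ k ∈ insert j T, d.Q k := by
    rw [Finset.prod_insert hj]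
    ring
  rw [e]
  refine ⟨(Nat.squarefree_mul (Nat.Coprime.prod_right fun k _ =>
    ((d.prime k).coprime_iff_not_dvd.2 (d.Q_not_dvd_lev k i)).symm)).2
      ⟨squarefree_lev (s := s) i, Finset.squarefree_prod_of_pairwise_isCoprime
        (fun a _ b _ hab => by
          rw [Function.onFun, ← Nat.coprime_iff_isRelPrime]
          exact (Nat.coprime_primes (d.prime a) (d.prime b)).2 fun e => hab (d.inj e))
        fun a _ => (d.prime a).squarefree⟩, fun x hx h => ?_⟩
  rcases (Nat.Prime.dvd_mul hx).1 h with h | h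
  · exact Finset.mem_union_left _ (s.mem_S0_of_dvd_lev hx h)
  · exact d.mem_S_of_dvd_DQ hx (h.trans
      (Finset.prod_dvd_prod_of_subset _ _ _ (Finset.subset_univ _)))

theorem surjective_red : Function.Surjective (d.red n) := fun x => by
  obtain ⟨c, rfl⟩ := residue_surjective x
  exact ⟨Ideal.Quotient.mk _ (MvPowerSeries.C c), congrArg _ (MvPowerSeries.constantCoeff_C c)⟩

theorem orderOf_gen (j : Fin r) : orderOf ((d.gen j : ℕ) : ZMod (d.Q j)) = d.Q j - 1 :=
  d.gen_order j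

theorem le_ker_constantCoeff :
    ∀ x ∈ maximalIdeal ((s.shape r).Sring s.O) ^ (n + 1),
      Ideal.Quotient.mk (maximalIdeal s.O ^ (n + 1)) (constantCoeff x) = 0 := by
  have h : maximalIdeal ((s.shape r).Sring s.O) ≤
      (maximalIdeal s.O).comap (constantCoeff (σ := (s.shape r).SVar) (R := s.O)) := fun x hx => by
    rw [Ideal.mem_comap]
    intro hu
    exact hx ((MvPowerSeries.isUnit_iff_constantCoeff).2 hu)
  intro x hx
  rw [Ideal.Quotient.eq_zero_iff_mem]
  exact Ideal.le_comap_pow _ (n + 1) (Ideal.pow_right_mono h (n + 1) hx)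

variable (n)

/-- The bottom of the coefficients. -/
abbrev Bot (_d : FAux s r n) : Type := s.O ⧸ maximalIdeal s.O ^ (n + 1)

/-- The map to the bottom. -/
def bot : Coeff n d →+* Bot n d :=
  Ideal.Quotient.lift _ ((Ideal.Quotient.mk _).comp constantCoeff) le_ker_constantCoeff

/-- The reduction of the bottom. -/
def botRed : Bot n d →+* s.kk :=
  Ideal.Quotient.lift _ (residue s.O) fun x hx =>
    (residue_eq_zero_iff x).2 (Ideal.pow_le_self n.succ_ne_zero hx)

variable {n}

theorem bot_surjective : Function.Surjective (bot n d) := fun x => by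
  obtain ⟨c, rfl⟩ := Ideal.Quotient.mk_surjective x
  exact ⟨Ideal.Quotient.mk _ (MvPowerSeries.C c),
    congrArg (Ideal.Quotient.mk _) (MvPowerSeries.constantCoeff_C c)⟩

theorem botRed_comp_bot : (botRed n d).comp (bot n d) = red n d :=
  Ideal.Quotient.ringHom_ext (RingHom.ext fun _ => rfl)

theorem botRed_comp_mk :
    (botRed n d).comp (Ideal.Quotient.mk _) = residue s.O := RingHom.ext fun _ => rfl

theorem yval_pow (j : Fin r) : IsUnit (d.gen j : ZMod (d.Q j)) :=
  IsUnit.of_pow_eq_one (d.gen_order j ▸ pow_orderOf_eq_one _)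
    (by have := (d.prime j).two_le; omega)

theorem charOfGen_ringHomComp_eq_one {A B : Type*} [CommRing A] [CommRing B] (φ : A →+* B)
    (j : Fin r) {ζ : A} (hζ : φ ζ = 1) :
    (Ribet.Avoid.charOfGen (d.Q j) (d.gen j) ζ).ringHomComp φ = 1 := by
  refine Ribet.Avoid.char_eq_of_gen (d.prime j) (d.gen_order j) ?_
  rw [MulChar.ringHomComp_apply, MulChar.one_apply (d.yval_pow j), Ribet.Avoid.charOfGen]
  split
  · next h => rw [h.choose_spec, hζ]
  · rw [MulChar.one_apply (d.yval_pow j), map_one]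

theorem char_bot : (d.char (yval n d)).ringHomComp (bot n d) = 1 := by
  haveI : NeZero d.DQ := inferInstance
  rw [FAux.char, Ribet.Avoid.ringHomComp_prod]
  refine Finset.prod_eq_one fun j _ => ?_
  haveI : NeZero (d.Q j) := ⟨(d.prime j).ne_zero⟩
  rw [Ribet.Avoid.changeLevel_ringHomComp, d.charOfGen_ringHomComp_eq_one,
    DirichletCharacter.changeLevel_one]
  have h : constantCoeff ((1 : MvPowerSeries (Fin r ⊕ Fin (s.shape r).k × Fin 3) s.O) + X (Sum.inl j)) = 1 := by simp
  exact (congrArg (Ideal.Quotient.mk (maximalIdeal s.O ^ (n + 1))) h).trans (map_one _)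

/-- **Reduction of a module to the bottom**, in bases. -/
theorem exists_basis_mod (i : Fin (s.K + 1)) {ι : Type} [Fintype ι] [DecidableEq ι]
    (b : Module.Basis ι s.O (s.OPart (d.levQ i) d.S)) :
    Module.Free (Coeff n d) (d.Mod i) ∧ Module.Finite (Coeff n d) (d.Mod i) ∧
      ∃ b' : Module.Basis ι (Coeff n d) (d.Mod i), ∀ ℓ : GoodIdx d.S, ∀ u v,
        bot n d (LinearMap.toMatrix b' b'
            (partT (d.DQ_dvd i) (d.char (yval n d)) (red n d) (fun m : GoodIdx d.S => s.abar m)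
              (Coeff n d) ℓ) u v) =
          Ideal.Quotient.mk _ (LinearMap.toMatrix b b (s.opT (d.levQ i) d.S ℓ) u v) := by
  classical
  haveI : IsArtinianRing (Coeff n d) := isArtinianRing_quotient_pow n
  haveI : IsLocalRing (Coeff n d) := isLocalRing_quotient_pow n
  haveI : Nontrivial (Bot n d) := Ideal.Quotient.nontrivial_iff.2 fun h =>
    (maximalIdeal.isMaximal s.O).ne_top (top_le_iff.1 (h.ge.trans (Ideal.pow_le_self n.succ_ne_zero)))
  have hdvd : s.N * s.aux ∣ d.levQ i := (s.dvd_lev i).trans (dvd_mul_right _ _)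
  set σ : s.O →+* Coeff n d := (Ideal.Quotient.mk _).comp MvPowerSeries.C
  have h2 : IsUnit (2 : Coeff n d) := by
    have h := s.isUnit_two.map σ
    rwa [map_ofNat] at h
  have h3 : Elliptic3 (Coeff n d) (d.levQ i) := (s.elliptic3 hdvd).map σ
  set a := fun m : GoodIdx d.S => s.abar m
  haveI := free_mPart (d.DQ_dvd i) (d.char (yval n d)) (red n d) a h2 h3
    (s.nonEis (d.levQ i) d.S)
  haveI := finite_mPart (d.DQ_dvd i) (d.char (yval n d)) (red n d) a (Coeff n d)
  refine ⟨inferInstance, inferInstance, ?_⟩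
  have hDS : ∀ x : ℕ, x.Prime → x ∣ d.DQ → x ∈ d.S := fun x hx h => d.mem_S_of_dvd_DQ hx h
  obtain ⟨e, he⟩ := exists_trivPart (L := d.levQ i) (hD := d.DQ_dvd i) (botRed n d) a d.char_bot hDS
  have key : ∀ (χ : DirichletCharacter (Bot n d) 1), χ = 1 →
      ∃ e' : MPart (one_dvd (d.levQ i)) χ (botRed n d) a (Bot n d) ≃ₗ[Bot n d]
        MPart (one_dvd (d.levQ i)) (1 : DirichletCharacter (Bot n d) 1) (botRed n d) a (Bot n d),
        ∀ ℓ : GoodIdx d.S, ∀ x, e' (partT (one_dvd (d.levQ i)) χ (botRed n d) a (Bot n d) ℓ x) =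
          partT (one_dvd (d.levQ i)) (1 : DirichletCharacter (Bot n d) 1) (botRed n d) a
            (Bot n d) ℓ (e' x) := fun χ hχ =>
    exists_trivPart (L := d.levQ i) (hD := one_dvd (d.levQ i)) (botRed n d) a hχ
      fun x hx h => absurd (Nat.dvd_one.1 h) hx.ne_one
  obtain ⟨e', he'⟩ := key _
    (MulChar.ringHomComp_one (Ideal.Quotient.mk (maximalIdeal s.O ^ (n + 1))))
  let G := e'.toLinearMap ∘ₛₗ mapPart (one_dvd (d.levQ i)) (1 : DirichletCharacter s.O 1)
    (residue s.O) a (Ideal.Quotient.mk _) (botRed n d) d.botRed_comp_mk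
  let F := e.toLinearMap ∘ₛₗ mapPart (d.DQ_dvd i) (d.char (yval n d)) (red n d) a (bot n d)
    (botRed n d) d.botRed_comp_bot
  have hGs : Function.Surjective G := e'.surjective.comp
    (mapPart_surjective (one_dvd (d.levQ i)) 1 (residue s.O) a _ _ d.botRed_comp_mk
      Ideal.Quotient.mk_surjective s.isUnit_two (s.elliptic3 hdvd))
  have hGk : ∀ x, G x = 0 → x ∈ RingHom.ker (Ideal.Quotient.mk (maximalIdeal s.O ^ (n + 1))) •
      (⊤ : Submodule s.O (s.OPart (d.levQ i) d.S)) := fun x hx =>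
    (mapPart_eq_zero_iff_of_complete (one_dvd (d.levQ i)) 1 (residue s.O) s.abar s.residue_ker _ _
      d.botRed_comp_mk Ideal.Quotient.mk_surjective s.isUnit_two (s.elliptic3 hdvd) x).1
      (e'.map_eq_zero_iff.1 hx)
  have hFs : Function.Surjective F := e.surjective.comp
    (mapPart_surjective (d.DQ_dvd i) _ (red n d) a _ _ d.botRed_comp_bot d.bot_surjective h2 h3)
  have hFk : ∀ x, F x = 0 → x ∈ RingHom.ker (bot n d) •
      (⊤ : Submodule (Coeff n d) (d.Mod i)) := fun x hx =>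
    (mapPart_eq_zero_iff (d.DQ_dvd i) _ (red n d) a _ _ d.botRed_comp_bot d.bot_surjective h2 h3
      x).1 (e.map_eq_zero_iff.1 hx)
  obtain ⟨c, hc⟩ := exists_basis_map G b Ideal.Quotient.mk_surjective hGs hGk
  obtain ⟨b', hb'⟩ := exists_basis_lift_semilinear F c d.bot_surjective hFs hFk
  refine ⟨b', fun ℓ u v => ?_⟩
  have h1 := toMatrix_map F b' c hb'
    (partT (d.DQ_dvd i) (d.char (yval n d)) (red n d) a (Coeff n d) ℓ)
    (partT (one_dvd (d.levQ i)) (1 : DirichletCharacter (Bot n d) 1) (botRed n d) a (Bot n d) ℓ)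
    (fun x => (congrArg e (mapPart_partT _ _ _ _ _ _ d.botRed_comp_bot ℓ x)).trans (he ℓ _))
  have h2' := toMatrix_map G b c (fun j => (hc j).symm) (s.opT (d.levQ i) d.S ℓ)
    (partT (one_dvd (d.levQ i)) (1 : DirichletCharacter (Bot n d) 1) (botRed n d) a (Bot n d) ℓ)
    (fun x => (congrArg e' (mapPart_partT _ _ _ _ _ _ d.botRed_comp_mk ℓ x)).trans (he' ℓ _))
  exact congrFun (congrFun (h1.trans h2'.symm) u) v

/-- **The parts with the auxiliary primes**, from those without. -/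
theorem exists_levelEquiv (i : Fin (s.K + 1))
    (hW : Function.Injective (shrinkPart (one_dvd (s.lev i)) (1 : DirichletCharacter s.O 1)
      (residue s.O) s.abar (Finset.subset_union_left : s.S0 ⊆ d.S))) :
    ∃ e : (Fin (2 ^ r) → s.OPart (s.lev i) s.S0) ≃ₗ[s.O] s.OPart (d.levQ i) d.S,
      ∀ (ℓ : GoodIdx d.S) (z : Fin (2 ^ r) → s.OPart (s.lev i) s.S0),
        e (fun k => s.opT (s.lev i) s.S0 ℓ (z k)) = s.opT (d.levQ i) d.S ℓ (e z) := by
  classical
  let g := LinearEquiv.ofBijective _ (And.intro hW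
    (shrinkPart_surjective (one_dvd (s.lev i)) (1 : DirichletCharacter s.O 1) (residue s.O) s.abar
      (Finset.subset_union_left : s.S0 ⊆ d.S)))
  obtain ⟨f, hf⟩ := FSetup.exists_prodEquiv (s := s) (L₀ := s.lev i) (s.dvd_lev i) (S := d.S) d.Q
    d.prime d.inj (fun j => d.Q_not_dvd_lev j i)
    (fun j => Finset.mem_union_right _ (Finset.mem_image_of_mem _ (Finset.mem_univ j)))
    (fun T j hj => by
      intro _
      exact d.noNewAt j (d.level_ok i T j hj).1 (d.level_ok i T j hj).2)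
    Finset.univ (d.levQ i) rfl
  let G : (Fin (2 ^ r) → s.OPart (s.lev i) s.S0) ≃ₗ[s.O] (Fin (2 ^ r) → s.OPart (s.lev i) d.S) :=
    LinearEquiv.ofLinearMap (g.symm.toLinearMap.compLeft _) (g.toLinearMap.compLeft _)
      (LinearMap.ext fun z => funext fun k => g.symm_apply_apply (z k))
      (LinearMap.ext fun z => funext fun k => g.apply_symm_apply (z k))
  refine ⟨G ≪≫ₗ LinearEquiv.funCongrLeft s.O _ (finCongr (by rw [Finset.card_univ, Fintype.card_fin])) ≪≫ₗ f,
    fun ℓ z => ?_⟩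
  simp only [LinearEquiv.trans_apply]
  rw [← hf ℓ]
  refine congrArg f (funext fun k => g.injective ?_)
  simp only [LinearEquiv.funCongrLeft_apply, LinearMap.funLeft_apply]
  show g (g.symm _) = g (s.opT (s.lev i) d.S ℓ (g.symm _))
  rw [LinearEquiv.apply_symm_apply]
  exact ((shrinkPart_partT _ _ _ _ (Finset.subset_union_left : s.S0 ⊆ d.S) _ _).trans
    (congrArg (s.opT (s.lev i) s.S0 ℓ) (LinearEquiv.apply_symm_apply g _))).symm

end FAux

/-- Ranks and bottom operators exist. -/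
theorem exists_fRanks_aux (s : FSetup) (r : ℕ) : Nonempty (FRanks s r) := by
  classical
  choose W hW using fun i : Fin (s.K + 1) =>
    exists_shrinkPart_injective (one_dvd (s.lev i)) (1 : DirichletCharacter s.O 1) (residue s.O)
      s.abar s.S0
  have hinj : ∀ (n : ℕ) (d : FAux s r n), (∀ j, d.Q j ∉ Finset.univ.biUnion W) → ∀ i,
      Function.Injective (shrinkPart (one_dvd (s.lev i)) (1 : DirichletCharacter s.O 1)
        (residue s.O) s.abar (Finset.subset_union_left : s.S0 ⊆ d.S)) := by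
    intro n d hd i
    refine hW i d.S _ fun x hx => ?_
    rcases Finset.mem_union.1 hx with h | h
    · exact Or.inl h
    · obtain ⟨j, -, rfl⟩ := Finset.mem_image.1 h
      exact Or.inr fun h => hd j (Finset.mem_biUnion.2 ⟨i, Finset.mem_univ i, h⟩)
  let M : Fin (s.K + 1) → Type := fun i => Fin (2 ^ r) → s.OPart (s.lev i) s.S0
  let rk : Fin (s.K + 1) → ℕ := fun i => Module.finrank s.O (M i)
  let B : Module.Basis (Fin (rk (Fin.last s.K))) s.O (M (Fin.last s.K)) :=
    Module.finBasis s.O (M (Fin.last s.K))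
  let T : GoodIdx s.S0 → Module.End s.O (M (Fin.last s.K)) := fun ℓ =>
    (s.opT (s.lev (Fin.last s.K)) s.S0 ℓ).compLeft (Fin (2 ^ r))
  refine ⟨{ rk := rk
            rk_pos := fun i => ?_
            H := fun ℓ => LinearMap.toMatrix B B (T ℓ)
            H_comm := fun ℓ ℓ' => ?_
            avoid := Finset.univ.biUnion W
            rank_eq := fun n d hd i => ?_
            bottom := fun n d hd => ?_
            system := fun c hc => ?_ }⟩
  · haveI := s.nontrivial_oPart i
    haveI : Nonempty (Fin (2 ^ r)) := ⟨⟨0, Nat.two_pow_pos r⟩⟩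
    exact Module.finrank_pos
  · show _ * _ = _ * _
    rw [← LinearMap.toMatrix_mul, ← LinearMap.toMatrix_mul]
    refine congrArg _ (LinearMap.ext fun z => funext fun k => ?_)
    exact LinearMap.congr_fun (partT_comm _ _ _ _ _ (ℓ : ℕ) ℓ').eq (z k)
  · obtain ⟨e, -⟩ := d.exists_levelEquiv i (hinj n d hd i)
    obtain ⟨hfree, hfin, b', -⟩ := d.exists_basis_mod i ((Module.finBasis s.O (M i)).map e)
    refine ⟨hfree, hfin, ?_⟩
    haveI : Nontrivial (FAux.Coeff n d) := (isLocalRing_quotient_pow (R := (s.shape r).Sring s.O) n).toNontrivial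
    rw [Module.finrank_eq_card_basis b', Fintype.card_fin]
  · obtain ⟨e, he⟩ := d.exists_levelEquiv (Fin.last s.K) (hinj n d hd _)
    obtain ⟨-, -, b', hb'⟩ := d.exists_basis_mod (Fin.last s.K) (B.map e)
    refine ⟨b', fun ℓ hℓ u v => ?_⟩
    obtain ⟨t, ht⟩ := Ideal.Quotient.mk_surjective (LinearMap.toMatrix b' b'
      (partT (d.DQ_dvd _) (d.char (FAux.yval n d)) (FAux.red n d) (fun m : GoodIdx d.S => s.abar m)
        (FAux.Coeff n d) ℓ) u v)
    refine ⟨t, ht, ?_⟩
    have h := hb' ⟨ℓ, ℓ.2.1, hℓ⟩ u v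
    rw [← ht] at h
    refine Ideal.Quotient.eq.1 (h.trans (congrArg _ ?_))
    rw [LinearMap.toMatrix_apply, LinearMap.toMatrix_apply, Module.Basis.map_apply,
      ← he ⟨ℓ, ℓ.2.1, hℓ⟩, Module.Basis.map_repr, LinearEquiv.trans_apply,
      LinearEquiv.symm_apply_apply]
    rfl
  · set φ := algebraMap s.O s.Kbar
    set L := s.lev (Fin.last s.K)
    set a := fun m : GoodIdx s.S0 => s.abar m
    set χ := (1 : DirichletCharacter s.O 1).ringHomComp φ
    haveI : FiniteDimensional s.Kbar (CohL (one_dvd L) χ s.Kbar) :=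
      Ribet.Twisted.finite_cohL (one_dvd L) _
    obtain ⟨y, hy, hy'⟩ := exists_common_eigenvector
      (fun ℓ : GoodIdx s.S0 => heckeT' (one_dvd L) χ s.Kbar ℓ) (fun ℓ => φ (c ℓ)) fun F => by
        obtain ⟨v, hv, hv'⟩ := hc F
        obtain ⟨w, hw, hw'⟩ := exists_integral_eigenvector
          (fun ℓ : F => LinearMap.toMatrix B B (T ℓ)) (fun ℓ : F => c ℓ) hv fun ℓ => hv' ℓ ℓ.2
        obtain ⟨z, hz, hz'⟩ := exists_eigen_of_matrix B _ _ hw hw'
        obtain ⟨k, hk⟩ := Function.ne_iff.1 hz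
        obtain ⟨y, hy, hy'⟩ := exists_eigenclass_of_mPart (one_dvd L) (1 : DirichletCharacter s.O 1)
          (residue s.O) a (x := z k) hk (fun ℓ => ∃ i ∈ F, (i : ℕ) = ℓ)
          (fun ℓ => if h : ℓ.Prime ∧ ℓ ∉ s.S0 then c ⟨ℓ, h⟩ else 0) (by
            rintro _ ⟨i, hi, rfl⟩
            rw [dif_pos i.2]
            exact congrFun (hz' ⟨i, hi⟩) k)
        refine ⟨cohMap (one_dvd L) 1 φ y,
          fun h0 => hy (cohMap_injective φ s.algebraMap_Kbar_injective _ h0), fun i hi => ?_⟩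
        rw [← cohMap_heckeT', hy' _ ⟨i, hi, rfl⟩, LinearMap.map_smulₛₗ, dif_pos i.2]
    refine ⟨fun ℓ => if h : ℓ.Prime ∧ ℓ ∉ s.S0 then φ (c ⟨ℓ, h⟩) else 0, fun ℓ => dif_pos ℓ.2, ?_⟩
    have key : ∀ (χ' : DirichletCharacter s.Kbar 1), χ' = 1 → ∀ a' : ℕ → s.Kbar,
        HasSystem (one_dvd L) χ' s.S0 a' →
          HasSystem (one_dvd L) (1 : DirichletCharacter s.Kbar 1) s.S0 a' := by
      rintro χ' rfl a' h
      exact h
    exact key χ (MulChar.ringHomComp_one φ) _ ⟨y, hy, fun ℓ hℓ hℓS => by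
      beta_reduce
      rw [dif_pos ⟨hℓ, hℓS⟩]
      exact hy' ⟨ℓ, hℓ, hℓS⟩⟩

end Fermat.Agent.Lifting
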