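import Fermat.Agent.Lifting.FPatchGeneric
import Fermat.Agent.Lifting.FCoordsDefs
import Fermat.Agent.Lifting.FRanks
import Fermat.Agent.Lifting.FPointsLevel

/-!
# Modularity lifting: the operators of one level acting on its modules

The coefficients of one level as an algebra over `O[Δ][[Y]]`, and the action of the operators
`O[Δ][[Y]][T'_ℓ]` on the modules.
-/

set_option autoImplicit false

noncomputable section

namespace Fermat.Agent.Lifting

open IsLocalRing MvPowerSeries
open Fermat.Agent.Ribet.Avoid (Univ)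

variable {s : FSetup} {r n : ℕ}

instance isLocalRing_sLvl_succ : IsLocalRing ((s.shape r).SLvl s.O (n + 1)) :=
  isLocalRing_quotient_pow n

instance isArtinianRing_sLvl_succ : IsArtinianRing ((s.shape r).SLvl s.O (n + 1)) :=
  isArtinianRing_quotient_pow n

theorem constantCoeff_one_add_X' {σ R : Type*} [CommRing R] (v : σ) :
    constantCoeff (1 + X v : MvPowerSeries σ R) = 1 := by simp

theorem one_add_sub_mem {R : Type*} [CommRing R] {I : Ideal R} {x : R} (hx : x ∈ I) :
    1 + x - 1 ∈ I := by simpa using hx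

/-- The residue of `O[Δ]`. -/
def augRes (s : FSetup) (r n : ℕ) : Univ s.O (s.p ^ (n + 1)) r →+* s.kk :=
  (residue s.O).comp
    (Univ.eval (fun _ : Fin r => (1 : s.O)) fun _ => one_pow _ :
      Univ s.O (s.p ^ (n + 1)) r →ₐ[s.O] s.O).toRingHom

theorem augRes_algebraMap (c : s.O) :
    augRes s r n (algebraMap s.O _ c) = residue s.O c := by
  rw [augRes, RingHom.comp_apply]
  exact congrArg _ (AlgHom.commutes _ c)

theorem surjective_augRes : Function.Surjective (augRes s r n) := fun x => by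
  obtain ⟨c, rfl⟩ := residue_surjective x
  exact ⟨algebraMap s.O _ c, augRes_algebraMap c⟩

/-- `O[Δ]` is local. -/
instance isLocalRing_uc : IsLocalRing (Univ s.O (s.p ^ (n + 1)) r) := by
  have hmax := RingHom.ker_isMaximal_of_surjective (augRes s r n) surjective_augRes
  refine IsLocalRing.of_unique_max_ideal ⟨RingHom.ker (augRes s r n), hmax,
    fun Q hQ => hQ.eq_of_le hmax.ne_top fun x hx => ?_⟩
  have hQO : Q.comap (algebraMap s.O (Univ s.O (s.p ^ (n + 1)) r)) = maximalIdeal s.O :=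
    IsLocalRing.eq_maximalIdeal (Ideal.isMaximal_comap_of_isIntegral_of_isMaximal Q)
  have hp : (s.p : (Univ s.O (s.p ^ (n + 1)) r)) ∈ Q := by
    have h : (s.p : s.O) ∈ Q.comap (algebraMap s.O (Univ s.O (s.p ^ (n + 1)) r)) := hQO ▸ s.hpO
    rwa [Ideal.mem_comap, map_natCast] at h
  haveI : CharP ((Univ s.O (s.p ^ (n + 1)) r) ⧸ Q) s.p := by
    haveI := Ideal.Quotient.field Q
    exact (CharP.charP_iff_prime_eq_zero s.hp.out).2
      ((map_natCast (Ideal.Quotient.mk Q) s.p).symm.trans (Ideal.Quotient.eq_zero_iff_mem.2 hp))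
  let F := (iterateFrobenius ((Univ s.O (s.p ^ (n + 1)) r) ⧸ Q) s.p (n + 1)).comp (Ideal.Quotient.mk Q)
  let ε : (Univ s.O (s.p ^ (n + 1)) r) →ₐ[s.O] s.O := Univ.eval (fun _ : Fin r => (1 : s.O)) fun _ => one_pow _
  have hF : F = F.comp ((algebraMap s.O (Univ s.O (s.p ^ (n + 1)) r)).comp ε.toRingHom) := by
    refine MonoidAlgebra.ringHom_ext (fun t => ?_) fun g => ?_
    · have ht : (MonoidAlgebra.single 1 t : (Univ s.O (s.p ^ (n + 1)) r)) = algebraMap s.O (Univ s.O (s.p ^ (n + 1)) r) t := by simp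
      simp only [RingHom.comp_apply, ht, AlgHom.toRingHom_eq_coe, RingHom.coe_coe, AlgHom.commutes,
        Algebra.algebraMap_self, RingHom.id_apply]
    · have hg : g ^ s.p ^ (n + 1) = 1 := Multiplicative.toAdd.injective (funext fun j => by simp)
      simp only [F, RingHom.comp_apply, iterateFrobenius_def, ← map_pow, MonoidAlgebra.single_pow,
        one_pow, hg, ← MonoidAlgebra.one_def, map_one]
  have h0 : algebraMap s.O (Univ s.O (s.p ^ (n + 1)) r) (ε x) ^ s.p ^ (n + 1) ∈ Q := by
    have h := DFunLike.congr_fun hF x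
    simp only [F, RingHom.comp_apply, iterateFrobenius_def, ← map_pow] at h
    rw [Ideal.Quotient.eq_zero_iff_mem.2 (Q.pow_mem_of_mem hx _ (pow_pos s.hp.out.pos _)),
      eq_comm, Ideal.Quotient.eq_zero_iff_mem] at h
    rwa [AlgHom.toRingHom_eq_coe, RingHom.coe_coe, map_pow, map_pow] at h
  have h1 : ε x ∈ maximalIdeal s.O := by
    rw [← hQO, Ideal.mem_comap]
    exact hQ.isPrime.mem_of_pow_mem _ h0
  exact (residue_eq_zero_iff _).2 h1

instance isAdicComplete_uc : IsAdicComplete (maximalIdeal (Univ s.O (s.p ^ (n + 1)) r)) (Univ s.O (s.p ^ (n + 1)) r) :=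
  isAdicComplete_of_finite_local (O := s.O)

namespace FRep

/-- In the algebraic closure the value of an operator only depends on the system. -/
theorem map_emb_opEval {d : FAux s r n} {i : Fin (s.K + 1)} {P : d.Pt i} (R : FRep P) :
    (MvPowerSeries.map R.emb).comp R.opEval =
      MvPolynomial.eval₂Hom (MvPowerSeries.map (Univ.eval P.u P.hu : d.UC →ₐ[s.O] s.Kbar).toRingHom)
        fun ℓ : GoodIdx d.S => MvPowerSeries.C (P.a ℓ) := by
  have hU : R.emb.comp (Univ.eval R.u R.hu : d.UC →ₐ[s.O] R.O').toRingHom =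
      (Univ.eval P.u P.hu : d.UC →ₐ[s.O] s.Kbar).toRingHom := by
    refine MonoidAlgebra.ringHom_ext (fun t => ?_) fun g => ?_
    · simp [Univ.eval, MonoidAlgebra.lift_single, Algebra.smul_def, ← R.emb_comp]
    · simp [Univ.eval, MonoidAlgebra.lift_single, Univ.groupHom, R.emb_u]
  refine MvPolynomial.ringHom_ext (fun c => ?_) fun ℓ => ?_
  · rw [RingHom.comp_apply, FRep.opEval, MvPolynomial.eval₂Hom_C, MvPolynomial.eval₂Hom_C, ← hU,
      MvPowerSeries.map_comp, RingHom.comp_apply]
  · rw [RingHom.comp_apply, FRep.opEval, MvPolynomial.eval₂Hom_X', MvPolynomial.eval₂Hom_X',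
      MvPowerSeries.map_C, R.emb_a ℓ.1 ℓ.2.1 ℓ.2.2]

end FRep

namespace FAux

variable (d : FAux s r n)

/-- The value of a gauge variable. -/
def sVal (v : s.YVar) : Coeff n d := Ideal.Quotient.mk _ (X (Sum.inr v))

/-- `1 + x` has `p`-power order modulo powers of an ideal containing `p` and `x`. -/
theorem sub_one_pow_mem {R : Type*} [CommRing R] {I : Ideal R} {p : ℕ} (hp : (p : R) ∈ I)
    {a : R} (ha : a - 1 ∈ I) : ∀ m : ℕ, a ^ p ^ m - 1 ∈ I ^ (m + 1)
  | 0 => by simpa using ha
  | m + 1 => by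
    have h := sub_one_pow_mem hp ha m
    set b := a ^ p ^ m with hb
    have hbI : b - 1 ∈ I := Ideal.pow_le_self (by omega) h
    have hsum : ∑ i ∈ Finset.range p, b ^ i ∈ I := by
      have h1 : ∑ i ∈ Finset.range p, (b ^ i - 1) ∈ I := sum_mem fun i _ => by
        rw [← geom_sum_mul b i]
        exact Ideal.mul_mem_left _ _ hbI
      rw [Finset.sum_sub_distrib] at h1
      simpa using add_mem h1 hp
    rw [pow_succ p m, pow_mul, ← hb, ← geom_sum_mul b p, pow_succ' I (m + 1)]
    exact Ideal.mul_mem_mul hsum h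

theorem natCast_p_mem : ((s.p : ℕ) : (s.shape r).Sring s.O) ∈ maximalIdeal _ := by
  rw [mem_maximalIdeal, mem_nonunits_iff, MvPowerSeries.isUnit_iff_constantCoeff, map_natCast]
  exact (mem_maximalIdeal _).1 s.hpO

theorem mem_maximalIdeal_sring_X (v : (s.shape r).SVar) :
    (X v : (s.shape r).Sring s.O) ∈ maximalIdeal _ := by
  rw [mem_maximalIdeal, mem_nonunits_iff, MvPowerSeries.isUnit_iff_constantCoeff, constantCoeff_X]
  exact not_isUnit_zero

/-- The diamond values are roots of unity. -/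
theorem yval_pow_eq_one (j : Fin r) : d.yval n j ^ s.p ^ (n + 1) = 1 := by
  rw [FAux.yval, ← map_pow, ← map_one (Ideal.Quotient.mk
    (maximalIdeal ((s.shape r).Sring s.O) ^ (n + 1))), Ideal.Quotient.eq]
  exact Ideal.pow_le_pow_right (Nat.le_succ _)
    (sub_one_pow_mem natCast_p_mem (one_add_sub_mem (mem_maximalIdeal_sring_X _)) (n + 1))

/-- `O[Δ]` in the coefficients. -/
def piUC : d.UC →ₐ[s.O] Coeff n d := Univ.eval (d.yval n) d.yval_pow_eq_one

/-- The residue of `O[Δ]`. -/
def ucRes : d.UC →+* s.kk := augRes s r n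

theorem red_algebraMap (c : s.O) : red n d (algebraMap s.O (Coeff n d) c) = residue s.O c :=
  congrArg (residue s.O) (MvPowerSeries.constantCoeff_C c)

theorem red_comp_piUC : (red n d).comp d.piUC.toRingHom = d.ucRes := by
  refine MonoidAlgebra.ringHom_ext (fun t => ?_) fun g => ?_
  · simp [piUC, ucRes, augRes, Univ.eval, MonoidAlgebra.lift_single, Algebra.smul_def, red_algebraMap]
  · have h : ∀ j, red n d (d.yval n j) = 1 := fun j => by
      show residue s.O (constantCoeff (1 + X (Sum.inl j) : (s.shape r).Sring s.O)) = 1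
      exact (congrArg _ (constantCoeff_one_add_X' _)).trans (map_one _)
    simp [piUC, ucRes, augRes, Univ.eval, MonoidAlgebra.lift_single, Univ.groupHom, h]

theorem ucRes_algebraMap (c : s.O) : d.ucRes (algebraMap s.O d.UC c) = residue s.O c :=
  augRes_algebraMap c

theorem surjective_ucRes : Function.Surjective d.ucRes := surjective_augRes

theorem maximalIdeal_pow_eq_bot : maximalIdeal (Coeff n d) ^ (n + 1) = ⊥ := by
  rw [← IsLocalRing.map_maximalIdeal_of_surjective _ Ideal.Quotient.mk_surjective, ← Ideal.map_pow,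
    Ideal.map_quotient_self]

theorem _root_.Fermat.Agent.Lifting.isAdicComplete_of_pow_eq_bot {R : Type*} [CommRing R]
    {I : Ideal R} {N : ℕ} (hI : I ^ N = ⊥) : IsAdicComplete I R where
  haus' x hx := by
    have h := hx N
    rwa [SModEq.zero, smul_eq_mul, Ideal.mul_top, hI, Ideal.mem_bot] at h
  prec' f hf := ⟨f N, fun m => by
    rcases le_total m N with h | h
    · exact hf h
    · have h' := hf h
      rw [SModEq.sub_mem, smul_eq_mul, Ideal.mul_top, hI, Ideal.mem_bot, sub_eq_zero] at h'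
      rw [h']⟩

instance isAdicComplete_coeff :
    IsAdicComplete (maximalIdeal ((s.shape r).SLvl s.O (n + 1))) ((s.shape r).SLvl s.O (n + 1)) :=
  isAdicComplete_of_pow_eq_bot (N := n + 1) (by
    rw [← IsLocalRing.map_maximalIdeal_of_surjective _ Ideal.Quotient.mk_surjective, ← Ideal.map_pow,
      Ideal.map_quotient_self])

theorem sVal_mem (v : s.YVar) : d.sVal v ∈ maximalIdeal (Coeff n d) := by
  rw [← IsLocalRing.map_maximalIdeal_of_surjective _ Ideal.Quotient.mk_surjective]
  exact Ideal.mem_map_of_mem _ (mem_maximalIdeal_sring_X _)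

/-- `O[Δ][[Y]]` in the coefficients. -/
def piCoef : MvPowerSeries s.YVar d.UC →+* Coeff n d :=
  letI := d.piUC.toRingHom.toAlgebra
  (Deform.pev (𝒪 := d.UC) (maximalIdeal (Coeff n d)) d.sVal d.sVal_mem).toRingHom

theorem piCoef_eq_eval₂ (c : MvPowerSeries s.YVar d.UC) :
    d.piCoef c = MvPolynomial.eval₂ d.piUC.toRingHom d.sVal (truncTotal (n + 1) c) := by
  letI := d.piUC.toRingHom.toAlgebra
  have h := Ideal.Quotient.eq.1
    (Deform.mk_pev (𝒪 := d.UC) (maximalIdeal (Coeff n d)) d.sVal d.sVal_mem (n + 1) c)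
  rw [d.maximalIdeal_pow_eq_bot, Ideal.mem_bot, sub_eq_zero] at h
  exact h

/-- The formula for `piCoef`. -/
theorem exists_piCoef_eq_sum : ∃ (T : Finset (s.YVar →₀ ℕ)) (w : (s.YVar →₀ ℕ) → Coeff n d),
    ∀ c, d.piCoef c = ∑ β ∈ T, d.piUC.toRingHom (MvPowerSeries.coeff β c) * w β := by
  classical
  refine ⟨(Finsupp.finite_of_degree_le n).toFinset, fun β => ∏ i ∈ β.support, d.sVal i ^ β i,
    fun c => ?_⟩
  rw [piCoef_eq_eval₂, MvPolynomial.eval₂_eq]
  refine (Finset.sum_subset (fun β hβ => ?_) fun β _ hβ => ?_).trans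
    (Finset.sum_congr rfl fun β hβ => ?_)
  · rw [Set.Finite.mem_toFinset, Set.mem_setOf_eq]
    by_contra hlt
    exact (MvPolynomial.mem_support_iff.1 hβ) (coeff_truncTotal_eq_zero _ (by omega))
  · rw [MvPolynomial.notMem_support_iff.1 hβ, map_zero, zero_mul]
  · rw [Set.Finite.mem_toFinset, Set.mem_setOf_eq] at hβ
    rw [coeff_truncTotal _ (Nat.lt_succ_of_le hβ)]

theorem piCoef_C (c : d.UC) : d.piCoef (MvPowerSeries.C c) = d.piUC c := by
  letI := d.piUC.toRingHom.toAlgebra
  exact (Deform.pev (𝒪 := d.UC) (maximalIdeal (Coeff n d)) d.sVal d.sVal_mem).commutes c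

theorem piCoef_X (v : s.YVar) : d.piCoef (X v) = d.sVal v := by
  letI := d.piUC.toRingHom.toAlgebra
  exact Deform.pev_X _ _ _ v

theorem red_comp_piCoef : (red n d).comp d.piCoef = d.ucRes.comp MvPowerSeries.constantCoeff := by
  refine RingHom.ext fun c => ?_
  have h : red n d ∘ d.sVal = fun _ => 0 := funext fun v => by
    show residue s.O (constantCoeff (X (Sum.inr v) : (s.shape r).Sring s.O)) = 0
    rw [constantCoeff_X, map_zero]
  rw [RingHom.comp_apply, RingHom.comp_apply, piCoef_eq_eval₂, MvPolynomial.eval₂_comp_left,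
    red_comp_piUC, h, MvPolynomial.eval₂_zero'_apply, constantCoeff_truncTotal_eq_ite]
  simp

theorem opRes_eq : d.opRes = sysEval ((red n d).comp d.piCoef) fun ℓ : GoodIdx d.S => s.abar ℓ := by
  rw [red_comp_piCoef]
  rfl

theorem piUC_gen (j : Fin r) : d.piUC (Univ.gen j) = d.yval n j := by
  haveI : Fact (1 < s.p ^ (n + 1)) := ⟨Nat.one_lt_pow n.succ_ne_zero s.hp.out.one_lt⟩
  exact Univ.eval_gen _ _ j

theorem char_yval_eq :
    d.char (d.yval n) = (d.char fun j => (Univ.gen j : d.UC)).ringHomComp d.piUC.toRingHom := by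
  rw [d.char_ringHomComp d.piUC.toRingHom _ fun j => Univ.gen_pow j]
  exact congrArg d.char (funext fun j => (d.piUC_gen j).symm)

/-- All operators on a module. -/
abbrev fam (i : Fin (s.K + 1)) : OpFam (Coeff n d) (d.Mod i) :=
  partFam (d.DQ_dvd i) (d.char (d.yval n)) (red n d) fun ℓ : GoodIdx d.S => s.abar ℓ

/-- The action of the operators. -/
def opAct (i : Fin (s.K + 1)) : d.Ops →+* allT (d.fam i) := evT (d.fam i) d.piCoef d.S

/-- **An operator vanishing at all points is nilpotent of exponent the rank.** -/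
theorem opAct_pow_eq_zero (i : Fin (s.K + 1)) (h : d.Ops)
    (hz : ∀ (P : d.Pt i) (R : FRep P), R.opEval h = 0) {m : ℕ}
    (hm : Module.finrank (Coeff n d) (d.Mod i) ≤ m) : d.opAct i h ^ m = 0 := by
  obtain ⟨T, w, hπ'⟩ := d.exists_piCoef_eq_sum
  haveI : Fact (1 < s.p ^ (n + 1)) := ⟨Nat.one_lt_pow n.succ_ne_zero s.hp.out.one_lt⟩
  have hdvd : s.N * s.aux ∣ d.levQ i := (s.dvd_lev i).trans (dvd_mul_right _ _)
  have h2 : IsUnit (2 : d.UC) := by
    have h := s.isUnit_two.map (algebraMap s.O d.UC)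
    rwa [map_ofNat] at h
  have hκ : Function.Surjective ((red n d).comp d.piUC.toRingHom) := by
    rw [red_comp_piUC]
    exact d.surjective_ucRes
  have hψ : (d.char (d.yval n)).ringHomComp (red n d) = 1 := by
    rw [d.char_ringHomComp _ _ d.yval_pow_eq_one]
    refine Finset.prod_eq_one fun j _ => ?_
    haveI : NeZero (d.Q j) := ⟨(d.prime j).ne_zero⟩
    have hy : red n d (d.yval n j) = 1 := by
      show residue s.O (constantCoeff (1 + X (Sum.inl j) : (s.shape r).Sring s.O)) = 1
      exact (congrArg _ (constantCoeff_one_add_X' _)).trans (map_one _)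
    dsimp only
    rw [hy, Ribet.Avoid.charOfGen_one (d.prime j) (d.gen_order j), DirichletCharacter.changeLevel_one]
  have hLS : ∀ x : ℕ, x.Prime → x ∣ d.levQ i → x ∈ d.S := fun x hx h => by
    rcases (Nat.Prime.dvd_mul hx).1 h with h | h
    · exact Finset.mem_union_left _ (s.mem_S0_of_dvd_lev hx h)
    · exact d.mem_S_of_dvd_DQ hx h
  refine evT_pow_eq_zero (d.DQ_dvd i) (d.char (d.yval n)) (red n d) d.piUC.toRingHom
    (d.char fun j => (Univ.gen j : d.UC)) s.abar
    (fun u : {u : Fin r → s.Kbar // ∀ j, u j ^ s.p ^ (n + 1) = 1} =>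
      (Univ.eval u.1 u.2 : d.UC →ₐ[s.O] s.Kbar).toRingHom)
    d.piCoef T w hπ' d.char_yval_eq h2 ((s.elliptic3 hdvd).map (algebraMap s.O d.UC))
    d.surjective_red hψ hκ hLS (s.nonEis _ _) (fun x hx => ?_) subset_rfl hm h fun u a hs hc => ?_
  · exact Univ.eq_zero_of_eval s.algebraMap_Kbar_injective x fun v hv => hx ⟨v, hv⟩
  · have hu : (fun j => (Univ.eval u.1 u.2 : d.UC →ₐ[s.O] s.Kbar).toRingHom (Univ.gen j)) = u.1 :=
      funext fun j => Univ.eval_gen _ _ j
    rw [d.char_ringHomComp _ _ fun j => Univ.gen_pow j, hu] at hs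
    let P : d.Pt i := ⟨u.1, u.2, a, hs, fun t ht => ?_⟩
    · obtain ⟨R⟩ := exists_fRep P
      have h' := DFunLike.congr_fun R.map_emb_opEval h
      rw [RingHom.comp_apply, hz P R, map_zero] at h'
      exact h'.symm
    · have e : ((Univ.eval u.1 u.2 : d.UC →ₐ[s.O] s.Kbar).toRingHom).comp (algebraMap s.O d.UC) =
          algebraMap s.O s.Kbar :=
        RingHom.ext fun c => (Univ.eval u.1 u.2 : d.UC →ₐ[s.O] s.Kbar).commutes c
      have e' : ((red n d).comp d.piUC.toRingHom).comp (algebraMap s.O d.UC) = residue s.O := by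
        rw [red_comp_piUC]
        exact RingHom.ext d.ucRes_algebraMap
      have h1 : Ribet.Avoid.evalSystem (Univ.eval u.1 u.2 : d.UC →ₐ[s.O] s.Kbar).toRingHom a d.S
          (MvPolynomial.map (algebraMap s.O d.UC) t) = 0 := by
        rw [Ribet.Avoid.evalSystem, MvPolynomial.eval₂Hom_map_hom, e]
        exact ht
      have h2' := hc h1
      rw [Ribet.Avoid.residualIdeal, RingHom.mem_ker, Ribet.Avoid.evalSystem,
        MvPolynomial.eval₂Hom_map_hom, e'] at h2'
      exact h2' 

end FAux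

end Fermat.Agent.Lifting
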