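import Fermat.Agent.RepLemmas.DVRExtension
import Fermat.Agent.RepLemmas.Galois
import Fermat.Agent.Deform.MatrixRep
import Mathlib.FieldTheory.IsAlgClosed.AlgebraicClosure
import Mathlib.RingTheory.Localization.FractionRing

/-!
# Modularity lifting: coefficient rings of points

The integral closure of `O` in the subfield of the algebraic closure generated by a finite set,
and the behaviour of residual representations under extension of the residue field.
-/

set_option autoImplicit false

noncomputable section

namespace Fermat.Agent.Lifting

open IsLocalRing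

local notation "Γℚ" => AlgebraicClosure ℚ ≃ₐ[ℚ] AlgebraicClosure ℚ

/-- A complete DVR finite over `O` inside an algebraic closure of the fractions of `O`, together
with its field of fractions there. -/
structure CoeffRing (O : Type) [CommRing O] [IsDomain O] [IsLocalRing O] : Type 1 where
  /-- the ring -/
  R : Type
  [instCommRing : CommRing R]
  [instDomain : IsDomain R]
  [instDVR : IsDiscreteValuationRing R]
  [instComplete : IsAdicComplete (maximalIdeal R) R]
  [instFinite : Finite (ResidueField R)]
  [instCharZero : CharZero R]
  [instAlgebra : Algebra O R]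
  [instModuleFinite : Module.Finite O R]
  [instLocal : IsLocalHom (algebraMap O R)]
  /-- the embedding -/
  emb : R →+* AlgebraicClosure (FractionRing O)
  emb_inj : Function.Injective emb
  emb_comp : emb.comp (algebraMap O R) = algebraMap O (AlgebraicClosure (FractionRing O))
  /-- the embedding of the fractions -/
  fracEmb : FractionRing R →+* AlgebraicClosure (FractionRing O)
  fracEmb_comp : ∀ x, fracEmb (algebraMap R (FractionRing R) x) = emb x

attribute [instance] CoeffRing.instCommRing CoeffRing.instDomain CoeffRing.instDVR
  CoeffRing.instComplete CoeffRing.instFinite CoeffRing.instCharZero CoeffRing.instAlgebra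
  CoeffRing.instModuleFinite CoeffRing.instLocal

set_option maxHeartbeats 800000 in
/-- Coefficient rings exist for every finite set of algebraic elements. -/
theorem exists_coeffRing {O : Type} [CommRing O] [IsDomain O] [IsDiscreteValuationRing O]
    [IsAdicComplete (maximalIdeal O) O] [Finite (ResidueField O)] [CharZero O]
    {T : Set (AlgebraicClosure (FractionRing O))} (hT : T.Finite) :
    ∃ C : CoeffRing O, T ⊆ C.fracEmb.fieldRange := by
  let F := FractionRing O
  let E : IntermediateField F (AlgebraicClosure F) := IntermediateField.adjoin F T
  have : Finite T := hT.to_subtype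
  have : FiniteDimensional F E :=
    IntermediateField.finiteDimensional_adjoin fun x _ => Algebra.IsIntegral.isIntegral x
  have : CharZero F := charZero_of_injective_algebraMap (IsFractionRing.injective O F)
  obtain ⟨hdvr, hfin, hloc, hinj, hfrac, hcomp, hk⟩ := RepLemmas.integralClosure_isDVR O F E
  let R := integralClosure O E
  have : CharZero R := charZero_of_injective_algebraMap hinj
  let emb : R →+* AlgebraicClosure F := E.val.toRingHom.comp R.val.toRingHom
  have hemb : Function.Injective emb := E.val.toRingHom.injective.comp Subtype.val_injective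
  have := hk inferInstance
  refine ⟨{ R := R
            emb := emb
            emb_inj := hemb
            emb_comp := RingHom.ext fun x => rfl
            fracEmb := IsFractionRing.lift hemb
            fracEmb_comp := fun x => IsFractionRing.lift_algebraMap hemb x }, fun t ht => ?_⟩
  obtain ⟨a, b, -, hab⟩ := IsFractionRing.div_surjective R (⟨t, IntermediateField.subset_adjoin F T ht⟩ : E)
  refine ⟨algebraMap R (FractionRing R) a / algebraMap R (FractionRing R) b, ?_⟩
  rw [map_div₀, IsFractionRing.lift_algebraMap, IsFractionRing.lift_algebraMap]
  have h := congrArg (fun e : E => (e : AlgebraicClosure F)) hab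
  simpa [emb] using h

/-- Extension of the coefficient field preserves absolute irreducibility. -/
theorem isAbsolutelyIrreducible_extend {k k' : Type} [Field k] [Field k'] (κ : k →+* k')
    (ρ : ResidualGaloisRep k) (h : ρ.IsAbsolutelyIrreducible) :
    (ρ.baseChangeAlong κ).IsAbsolutelyIrreducible := by
  let : Algebra k k' := κ.toAlgebra
  refine RepLemmas.isAbsolutelyIrreducible_of_span_eq_top _ ?_
  let b : Module.Basis (Fin 2) k ρ.V := Module.finBasisOfFinrankEq _ _ ρ.finrank_eq
  let b' : Module.Basis (Fin 2) k' (ρ.baseChangeAlong κ).V := Algebra.TensorProduct.basis k' b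
  refine (RepLemmas.span_range_toMatrixHom_eq_top_iff b' _).1 ?_
  have h0 := (RepLemmas.span_range_toMatrixHom_eq_top_iff b ρ.ρ).2
    (RepLemmas.residual_span_eq_top_of_isAbsolutelyIrreducible ρ h)
  rw [← RepLemmas.map_span_eq_top κ (fun σ => RepLemmas.toMatrixHom b ρ.ρ σ) h0]
  exact congrArg _ (congrArg _ (funext fun σ => Deform.toMatrix_baseChange_endo k' b (ρ.ρ σ)))

/-- Determinant and trace after extension of the coefficient field. -/
theorem det_trace_baseChangeAlong {k k' : Type} [Field k] [Field k'] (κ : k →+* k')
    (ρ : ResidualGaloisRep k) (σ : Γℚ) :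
    LinearMap.det ((ρ.baseChangeAlong κ).ρ σ) = κ (LinearMap.det (ρ.ρ σ)) ∧
      LinearMap.trace k' _ ((ρ.baseChangeAlong κ).ρ σ) = κ (LinearMap.trace k _ (ρ.ρ σ)) := by
  let : Algebra k k' := κ.toAlgebra
  exact ⟨LinearMap.det_baseChange (ρ.ρ σ), LinearMap.trace_baseChange (ρ.ρ σ) k'⟩

/-- Oddness after extension of the coefficient field. -/
theorem isOdd_extend {k k' : Type} [Field k] [Field k'] (κ : k →+* k') (ρ : ResidualGaloisRep k)
    (h : ρ.IsOdd) : (ρ.baseChangeAlong κ).IsOdd := fun c hc hc1 => by
  rw [(det_trace_baseChangeAlong κ ρ c).1, h c hc hc1, map_neg, map_one]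

end Fermat.Agent.Lifting

end
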