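import Fermat.Agent.Lifting.FSetup
import Fermat.Agent.CondLevel.Compare
import Fermat.Agent.Lifting.ETransfer
import Fermat.Agent.Lifting.FPointsRing
import Fermat.Agent.OrdinaryDatum.Criterion

/-!
# Modularity lifting: representations in adapted coordinates
-/

set_option autoImplicit false

noncomputable section

namespace Fermat.Agent.Lifting

open IsLocalRing
open scoped TensorProduct

local notation "Γℚ" => AlgebraicClosure ℚ ≃ₐ[ℚ] AlgebraicClosure ℚ

variable {R : Type} [CommRing R] [IsLocalRing R]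

theorem trace_toRep_pts (r : Γℚ →* Matrix (Fin 2) (Fin 2) R) (hr : Deform.MCont r) (σ : Γℚ) :
    LinearMap.trace R _ ((Deform.toRep r hr).ρ σ) = (r σ).trace := by
  rw [LinearMap.trace_eq_matrix_trace R (Deform.stdBasis r hr), ← Deform.repMat_apply,
    Deform.repMat_toRep]

theorem det_toRep_pts (r : Γℚ →* Matrix (Fin 2) (Fin 2) R) (hr : Deform.MCont r) (σ : Γℚ) :
    LinearMap.det ((Deform.toRep r hr).ρ σ) = (r σ).det := by
  rw [← LinearMap.det_toMatrix (Deform.stdBasis r hr), ← Deform.repMat_apply, Deform.repMat_toRep]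

/-- A residual equivalence with a model gives coordinates reducing to the model. -/
theorem exists_basis_red {k : Type} [Field k] (ρbar : ResidualGaloisRep k)
    (κ : k →+* ResidueField R) (ρ : GaloisRepAdic R)
    (h : ρ.residual.IsEquiv (ρbar.baseChangeAlong κ)) :
    ∃ b : Module.Basis (Fin 2) R ρ.V, ∀ g,
      (Deform.repMat b ρ.ρ g).map (residue R) = (TW.matRep ρbar g).map κ := by
  let : Algebra k (ResidueField R) := κ.toAlgebra
  obtain ⟨e⟩ := h
  let bk : Module.Basis (Fin 2) (ResidueField R) (ρbar.baseChangeAlong κ).V :=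
    Algebra.TensorProduct.basis (ResidueField R) (TW.residualBasis ρbar)
  let bb : Module.Basis (Fin 2) (ResidueField R) (ResidueField R ⊗[R] ρ.V) :=
    bk.map e.toLinearEquiv.symm
  obtain ⟨b, hb⟩ := OrdinaryDatum.exists_basis_lift ρ.finrank_eq bb
  refine ⟨b, fun g => ?_⟩
  have hbb : Algebra.TensorProduct.basis (ResidueField R) b = bb :=
    Module.Basis.eq_of_apply_eq fun j => by rw [Algebra.TensorProduct.basis_apply, hb]
  have h1 := Deform.toMatrix_baseChange_endo (ResidueField R) b (ρ.ρ g)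
  rw [hbb] at h1
  have h2 := Deform.toMatrix_baseChange_endo (ResidueField R) (TW.residualBasis ρbar) (ρbar.ρ g)
  refine h1.symm.trans (Eq.trans ?_ h2)
  ext i j
  rw [LinearMap.toMatrix_apply, LinearMap.toMatrix_apply]
  change bk.repr (e.toLinearEquiv ((ρ.residual.ρ g) (e.toLinearEquiv.symm (bk j)))) i = _
  rw [e.map_apply, LinearEquiv.apply_symm_apply]
  rfl

/-- A representation in coordinates is equivalent to the original, so shares its characteristic
polynomials. -/
theorem hasFrobPoly_toRep (ρ : GaloisRepAdic R) (b : Module.Basis (Fin 2) R ρ.V) {S : Finset ℕ}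
    {a : ℕ → R} (h : HasFrobPoly ρ S a) :
    HasFrobPoly (Deform.toRep (Deform.repMat b ρ.ρ) (Deform.mcont_repMat ρ b)) S a := by
  obtain ⟨e⟩ := Deform.isEquiv_toRep ρ b
  intro ℓ hℓ hℓS A hA σ hσ
  rw [ETransfer.charpoly_of_equiv e, h ℓ hℓ hℓS A hA σ hσ]

/-- The residual representation of a strictly ordinary target is ordinary. -/
theorem FSetup.isOrdinaryAt_residual_target (s : FSetup) (h : s.p ∣ s.N) :
    (GaloisRepAdic.ofResidualGaloisRep s.ρbar).IsOrdinaryAt s.p := by
  have hloc : IsLocalHom (residue s.O) := inferInstance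
  obtain ⟨e1⟩ := Deform.isEquiv_baseChangeAlong_toRep (residue s.O) hloc s.rW s.hrW
  have h1 := ETransfer.isOrdinaryAt_of_equiv e1
    (ETransfer.isOrdinaryAt_baseChangeAlong _ hloc _ (s.hordW h).isOrdinaryAt)
  obtain ⟨e2⟩ := Deform.isEquiv_toRep (GaloisRepAdic.ofResidualGaloisRep s.ρbar)
    (TW.residualBasis s.ρbar)
  have heq : Deform.mapRep (residue s.O) s.rW = Deform.repMat (TW.residualBasis s.ρbar)
      (GaloisRepAdic.ofResidualGaloisRep s.ρbar).ρ :=
    MonoidHom.ext fun g => (s.hred g).trans rfl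
  obtain ⟨e3⟩ : (Deform.toRep (Deform.mapRep (residue s.O) s.rW)
      (Deform.mcont_mapRep (residue s.O) hloc s.rW s.hrW)).IsEquiv
      (Deform.toRep _ (Deform.mcont_repMat (GaloisRepAdic.ofResidualGaloisRep s.ρbar)
        (TW.residualBasis s.ρbar))) :=
    (Deform.isEquiv_toRep_iff _ _ _ _).mpr ⟨1, isUnit_one, fun g => by rw [one_mul, mul_one, heq]; rfl⟩
  exact ETransfer.isOrdinaryAt_of_equiv e2.symm (ETransfer.isOrdinaryAt_of_equiv e3 h1)

/-- The residual traces and determinants at the good Frobenius elements. -/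
theorem FSetup.residual_frobenius (s : FSetup) {ℓ : ℕ} (hℓ : ℓ.Prime) (hℓS : ℓ ∉ s.S0)
    {A : ValuationSubring (AlgebraicClosure ℚ)} (hA : A.LiesOverPrime ℓ) {σ : Γℚ}
    (hσ : A.IsFrobeniusAt σ ℓ) :
    LinearMap.trace s.kk _ (s.ρbar.ρ σ) = s.abar ℓ ∧
      LinearMap.det (s.ρbar.ρ σ) = (ℓ : s.kk) := by
  obtain ⟨ht, hd⟩ := CondLevel.trace_det_of_charpoly_eq (Deform.stdBasis s.rW s.hrW) _
    (s.hfrobW ℓ hℓ hℓS A hA σ hσ)
  rw [trace_toRep_pts] at ht
  rw [det_toRep_pts] at hd
  have e1 : LinearMap.trace s.kk _ (s.ρbar.ρ σ) = (TW.matRep s.ρbar σ).trace :=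
    LinearMap.trace_eq_matrix_trace _ _ _
  have e2 : LinearMap.det (s.ρbar.ρ σ) = (TW.matRep s.ρbar σ).det :=
    (LinearMap.det_toMatrix _ _).symm
  rw [e1, e2, ← s.hred]
  refine ⟨?_, ?_⟩
  · rw [← AddMonoidHom.map_trace, ht]; rfl
  · rw [← RingHom.mapMatrix_apply, ← RingHom.map_det, hd, map_natCast]

/-- The residual representation is unramified at the primes outside `S0`, also after an extension
of the residue field. -/
theorem FSetup.isUnramifiedAt_extend (s : FSetup) {k' : Type} [Field k'] (κ : s.kk →+* k')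
    {x : ℕ} (hx : x.Prime) (hxS : x ∉ s.S0) :
    (s.ρbar.baseChangeAlong κ).IsUnramifiedAt x := by
  have hxp : x ≠ s.p := fun h => hxS ((s.hS0 x).mpr (Or.inl h))
  have hW : s.target.IsUnramifiedAt x := s.hunrW x hx hxp
    (fun h => hxS ((s.hS0 x).mpr (Or.inr (Or.inl ⟨hx, h.mul_right _⟩))))
    fun a h => hxS ((s.hS0 x).mpr (Or.inr (Or.inr ⟨a, h⟩)))
  intro P hP σ hσ
  have h1 : s.rW σ = 1 := by
    have h := congrFun (congrArg DFunLike.coe (Deform.repMat_toRep s.rW s.hrW)) σ
    rw [← h, Deform.repMat_apply, hW P hP σ hσ, LinearMap.toMatrix_one]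
  have h2 : s.ρbar.ρ σ = 1 := by
    refine (TW.matRep_eq_one_iff _ σ).mp ?_
    rw [← s.hred, h1, Matrix.map_one _ (map_zero _) (map_one _)]
  let : Algebra s.kk k' := κ.toAlgebra
  change (s.ρbar.ρ σ).baseChange k' = 1
  rw [h2]
  exact LinearMap.baseChange_one s.kk s.ρbar.V

/-- An unramified representation is unipotent on inertia. -/
theorem isUnipotentOnInertiaAt_of_unramified {ρ : GaloisRepAdic R} {q : ℕ}
    (h : ρ.IsUnramifiedAt q) : ρ.IsUnipotentOnInertiaAt q := fun P hP σ hσ => by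
  rw [h P hP σ hσ, ← LinearMap.charpoly_toMatrix _ (Deform.repBasis ρ), LinearMap.toMatrix_one,
    Matrix.charpoly_one, Fintype.card_fin]

end Fermat.Agent.Lifting

end
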