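import Fermat.Agent.Lifting.FPointsField
import Fermat.Agent.Lifting.EDefs
import Fermat.Agent.Lifting.FPointsRing
import Fermat.Agent.Lifting.FPointsLevel
import Fermat.Agent.Ribet.Avoid.PointDescend

/-!
# Modularity lifting: descent of a system to a coefficient ring and congruences
-/

set_option autoImplicit false

noncomputable section

namespace Fermat.Agent.Lifting

open IsLocalRing Fermat.Agent.Ribet.Twisted CongruenceSubgroup
open Fermat.Agent.Ribet.Avoid (IsCongruent evalSystem residualIdeal HeckePoly)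

/-- A normalised representative with values in the fractions of `R` gives a class over them, with
integral eigenvalues. -/
theorem exists_descend_witness {R K : Type} [CommRing R] [IsDomain R] [IsIntegrallyClosed R]
    [IsNoetherianRing R] [Field K] {L D : ℕ} [NeZero L] (hD : D ∣ L)
    (ι : FractionRing R →+* K) (ψ : DirichletCharacter R D) (ψK : DirichletCharacter K D)
    (hψ : ψK = (toFrac ψ).ringHomComp ι) (T : Set K) (z : cocycles (chr hD ψK) K)
    (hn : IsNormalisedCocycle hD ψK z)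
    (hT : T ⊆ ι.fieldRange)
    (hval : ∀ F : Subfield K, T ⊆ F → (∀ γ, chr hD ψK γ ∈ F) → ∀ γ, (z : Gamma0 L → K) γ ∈ F)
    (hz : Coh.mk (chr hD ψK) K z ≠ 0) :
    ∃ x : CohL hD (toFrac ψ) (FractionRing R), x ≠ 0 ∧
      (∀ (ℓ : ℕ) (c : K), heckeT' hD ψK K ℓ (Coh.mk (chr hD ψK) K z) =
          c • Coh.mk (chr hD ψK) K z →
        ∃ y : R, ι (algebraMap R (FractionRing R) y) = c ∧
          heckeT' hD (toFrac ψ) (FractionRing R) ℓ x = algebraMap R (FractionRing R) y • x) ∧
      ∀ q : ℕ, heckeT' hD ψK K q (heckeT' hD ψK K q (Coh.mk (chr hD ψK) K z)) =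
          Coh.mk (chr hD ψK) K z →
        heckeT' hD (toFrac ψ) (FractionRing R) q (heckeT' hD (toFrac ψ) (FractionRing R) q x) =
          x := by
  subst hψ
  obtain ⟨x, hx, -, hT', hU⟩ := Ribet.Avoid.exists_descend hD ι (toFrac ψ) z
    (fun γ => hval ι.fieldRange hT (fun g => ⟨chr hD (toFrac ψ) g, (chr_ringHomComp ι hD _ g).symm⟩) γ)
    (hn.imp (fun h γ => ι.injective (by rw [← chr_ringHomComp, h γ, map_one]))
      fun ⟨γ₁, h1, h2⟩ => ⟨γ₁, fun he => h1 (by rw [chr_ringHomComp, he, map_one]), h2⟩) hz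
  refine ⟨x, hx, fun ℓ c hc => ?_, hU⟩
  obtain ⟨c', hc', hTx⟩ := hT' ℓ c hc
  obtain ⟨y, rfl⟩ := IsIntegrallyClosed.isIntegral_iff.mp
    (Ribet.Avoid.isIntegral_of_eigen (A := R) (E := FractionRing R) hD ψ hx hTx)
  exact ⟨y, hc', hTx⟩

/-- Congruent systems have the residual eigenvalues. -/
theorem residue_eq_of_isCongruent {O R K : Type} [CommRing O] [IsLocalRing O] [CommRing R]
    [IsLocalRing R] [Algebra O R] [IsLocalHom (algebraMap O R)] [Algebra.IsIntegral O R]
    [Field K] (emb : R →+* K) (φ : O →+* K) (hemb : emb.comp (algebraMap O R) = φ)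
    (abar : ℕ → ResidueField O) (S : Finset ℕ) (a : ℕ → K)
    (hc : IsCongruent φ (residue O) abar S a) {ℓ : ℕ} (hℓ : ℓ.Prime) (hℓS : ℓ ∉ S)
    {y : R} (hy : emb y = a ℓ) :
    residue R y = ResidueField.map (algebraMap O R) (abar ℓ) := by
  obtain ⟨c, hc0⟩ := residue_surjective (abar ℓ)
  rw [← hc0, ResidueField.map_residue, ← sub_eq_zero, ← map_sub]
  by_contra hne
  rw [← ne_eq, residue_ne_zero_iff_isUnit] at hne
  obtain ⟨u, hu⟩ := hne
  obtain ⟨P, hP, hPu⟩ := Algebra.IsIntegral.isIntegral (R := O) ((u⁻¹ : Rˣ) : R)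
  have hrev : Polynomial.eval₂ (algebraMap O R) ((u : Rˣ) : R) P.reverse = 0 := by
    let : Invertible ((u⁻¹ : Rˣ) : R) := u⁻¹.invertible
    have h := (Polynomial.eval₂_reverse_eq_zero_iff (algebraMap O R) ((u⁻¹ : Rˣ) : R) P).mpr hPu
    simpa using h
  let X₀ : HeckePoly O S := MvPolynomial.X ⟨ℓ, hℓ, hℓS⟩ - MvPolynomial.C c
  let g : HeckePoly O S := Polynomial.eval₂ MvPolynomial.C X₀ P.reverse
  have h1 : evalSystem φ a S g = emb (Polynomial.eval₂ (algebraMap O R) (u : R) P.reverse) := by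
    rw [Polynomial.hom_eval₂, Polynomial.hom_eval₂, hu, hemb]
    congr 1
    · ext o; simp [evalSystem]
    · simp [X₀, evalSystem, map_sub, hy, ← hemb]
  rw [hrev, map_zero] at h1
  have h2 : evalSystem (residue O) abar S g = 0 := hc h1
  rw [Polynomial.hom_eval₂] at h2
  have h3 : evalSystem (residue O) abar S X₀ = 0 := by simp [X₀, evalSystem, hc0]
  have h4 : (evalSystem (residue O) abar S).comp MvPolynomial.C = residue O := by
    ext o; simp [evalSystem]
  rw [h3, h4, Polynomial.eval₂_at_zero, Polynomial.coeff_zero_reverse, hP.leadingCoeff,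
    map_one] at h2
  exact one_ne_zero h2

end Fermat.Agent.Lifting

end
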