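import Fermat.Agent.Lifting.FSetup
import Fermat.Agent.Ribet.Avoid.Universal
import Fermat.Agent.Ribet.Avoid.PointFinite
import Fermat.Agent.Lifting.FPointsSystem
import Fermat.Agent.Lifting.FPointsRep
import Fermat.Agent.Lifting.EConditions
import Fermat.Agent.Lifting.EFrob

/-!
# Modularity lifting: the points of one level and their representations

A point of the level `n + 1` with the first `i` places is a congruent system of eigenvalues on
one component; `FRep` is a representation of it, in coordinates reducing to `ρbar`, with the local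
properties used by the coordinates.
-/

set_option autoImplicit false

noncomputable section

namespace Fermat.Agent.Lifting

open IsLocalRing
open Fermat.Agent.Ribet.Twisted (HasSystem CohL heckeT')
open Fermat.Agent.Ribet.Avoid (IsCongruent finite_hasSystem)

local notation "ℚbar" => AlgebraicClosure ℚ
local notation "Γℚ" => AlgebraicClosure ℚ ≃ₐ[ℚ] AlgebraicClosure ℚ

variable {s : FSetup} {r n : ℕ}

/-- A congruent system at the level with the first `i` places. -/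
structure FAux.Pt (d : FAux s r n) (i : Fin (s.K + 1)) where
  /-- the values at the generators -/
  u : Fin r → s.Kbar
  hu : ∀ j, u j ^ s.p ^ (n + 1) = 1
  /-- the eigenvalues -/
  a : ℕ → s.Kbar
  system : HasSystem (d.DQ_dvd i) (d.char u) d.S a
  congr : IsCongruent (algebraMap s.O s.Kbar) (residue s.O) s.abar d.S a

namespace FAux.Pt

variable {d : FAux s r n} {i : Fin (s.K + 1)} (P : d.Pt i)

/-- The point is new at `x`. -/
def NewAt (x : ℕ) : Prop := SystemNewAt (d.DQ_dvd i) (d.char P.u) d.S P.a x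

/-- `c` is an eigenvalue of `T'_x` on the point. -/
def HasEigen (x : ℕ) (c : s.Kbar) : Prop :=
  ∃ v : CohL (d.DQ_dvd i) (d.char P.u) s.Kbar, v ≠ 0 ∧
    (∀ ℓ : ℕ, ℓ.Prime → ℓ ∉ d.S → heckeT' (d.DQ_dvd i) (d.char P.u) s.Kbar ℓ v = P.a ℓ • v) ∧
      heckeT' (d.DQ_dvd i) (d.char P.u) s.Kbar x v = c • v

end FAux.Pt

/-- The representation of a point. -/
structure FRep {d : FAux s r n} {i : Fin (s.K + 1)} (P : d.Pt i) : Type 1 where
  /-- the coefficients -/
  O' : Type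
  [instCommRing : CommRing O']
  [instDomain : IsDomain O']
  [instDVR : IsDiscreteValuationRing O']
  [instComplete : IsAdicComplete (maximalIdeal O') O']
  [instFinite : Finite (ResidueField O')]
  [instCharZero : CharZero O']
  [instAlgebra : Algebra s.O O']
  [instModuleFinite : Module.Finite s.O O']
  [instLocal : IsLocalHom (algebraMap s.O O')]
  /-- the embedding -/
  emb : O' →+* s.Kbar
  emb_inj : Function.Injective emb
  emb_comp : emb.comp (algebraMap s.O O') = algebraMap s.O s.Kbar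
  /-- the values of the point at the generators -/
  u : Fin r → O'
  emb_u : ∀ j, emb (u j) = P.u j
  hu : ∀ j, u j ^ s.p ^ (n + 1) = 1
  /-- the eigenvalues of the point -/
  a : ℕ → O'
  emb_a : ∀ ℓ : ℕ, ℓ.Prime → ℓ ∉ d.S → emb (a ℓ) = P.a ℓ
  residue_a : ∀ ℓ : ℕ, ℓ.Prime → ℓ ∉ d.S →
    residue O' (a ℓ) = ResidueField.map (algebraMap s.O O') (s.abar ℓ)
  /-- the representation -/
  rep : Γℚ →* Matrix (Fin 2) (Fin 2) O'
  hrep : Deform.MCont rep
  red : ∀ g, (rep g).map (residue O') =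
    (TW.matRep s.ρbar g).map (ResidueField.map (algebraMap s.O O'))
  frob : HasFrobPoly (Deform.toRep rep hrep) d.S a
  det : (Deform.toRep rep hrep).DetIsCyclotomic s.p
  unramified : ∀ x : ℕ, x.Prime → x ≠ s.p → ¬ x ∣ d.levQ i →
    (Deform.toRep rep hrep).IsUnramifiedAt x
  unipotent : ∀ x : ℕ, x.Prime → x ≠ s.p → (x ∣ s.N ∨ ∃ a, s.q a = x) →
    (Deform.toRep rep hrep).IsUnipotentOnInertiaAt x
  flat : ¬ s.p ∣ s.N → (Deform.toRep rep hrep).IsFlatAt s.p
  flat_or_strict : s.p ∣ s.N →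
    (Deform.toRep rep hrep).IsFlatAt s.p ∨ (Deform.toRep rep hrep).IsStrictOrdinaryAt s.p
  ordinary : s.p ∣ s.N → (Deform.toRep rep hrep).IsOrdinaryAt s.p
  strict_new : s.p ∣ s.N → P.NewAt s.p → (Deform.toRep rep hrep).IsStrictOrdinaryAt s.p
  trace_new : ∀ a' : Fin s.K, (a' : ℕ) < i → P.NewAt (s.q a') →
    (rep (s.phi a')).trace ^ 2 = ((s.q a' : O') + 1) ^ 2
  trace_old : ∀ (a' : Fin s.K), i = a'.castSucc → ∀ c : s.Kbar, P.HasEigen (s.q a') c →
    emb (rep (s.phi a')).trace = c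
  tauQ : ∀ j, (rep (d.tauQ j)).trace * u j = u j ^ 2 + 1

attribute [instance] FRep.instCommRing FRep.instDomain FRep.instDVR
  FRep.instComplete FRep.instFinite FRep.instCharZero FRep.instAlgebra
  FRep.instModuleFinite FRep.instLocal

namespace FAux.Pt

variable {d : FAux s r n} {i : Fin (s.K + 1)} (P : d.Pt i)

/-- The eigenvalues of `T'_x` on the point form a finite set. -/
theorem finite_hasEigen (x : ℕ) : {c | P.HasEigen x c}.Finite := by
  have : Module.Finite s.Kbar (CohL (d.DQ_dvd i) (d.char P.u) s.Kbar) :=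
    Ribet.Twisted.finite_cohL _ _
  refine (Module.End.finite_hasEigenvalue
    (heckeT' (d.DQ_dvd i) (d.char P.u) s.Kbar x)).subset fun c hc => ?_
  obtain ⟨v, hv, -, hvx⟩ := hc
  exact Module.End.hasEigenvalue_of_hasEigenvector ⟨Module.End.mem_eigenspace_iff.mpr hvx, hv⟩

/-- The point over a coefficient ring, with the witnesses of newness and of the further
eigenvalues. -/
structure Data (P : d.Pt i) : Type 1 where
  /-- the coefficients -/
  C : CoeffRing s.O
  /-- the values at the generators -/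
  u : Fin r → C.R
  emb_u : ∀ j, C.emb (u j) = P.u j
  hu : ∀ j, u j ^ s.p ^ (n + 1) = 1
  /-- the eigenvalues -/
  a : ℕ → C.R
  emb_a : ∀ ℓ : ℕ, ℓ.Prime → ℓ ∉ d.S → C.emb (a ℓ) = P.a ℓ
  system : HasSystem (d.DQ_dvd i) (toFrac (d.char u)) d.S
    fun ℓ => algebraMap C.R (FractionRing C.R) (a ℓ)
  new : ∀ x ∈ s.S0, P.NewAt x → SystemNewAt (d.DQ_dvd i) (toFrac (d.char u)) d.S
    (fun ℓ => algebraMap C.R (FractionRing C.R) (a ℓ)) x
  eigen : ∀ x ∈ s.S0, x.Prime → ∀ c, P.HasEigen x c → ∃ y : C.R, C.emb y = c ∧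
    HasSystem (d.DQ_dvd i) (toFrac (d.char u)) (d.S.erase x)
      fun ℓ => algebraMap C.R (FractionRing C.R) (Function.update a x y ℓ)

/-- The point lives over a coefficient ring. -/
theorem exists_data : Nonempty P.Data := by
  classical
  have hval := fun v => exists_valueSet (d.DQ_dvd i) (d.char P.u) v
  choose T z hTfin hz hzn hzv using hval
  obtain ⟨x₀, hx₀, hsys₀⟩ := P.system
  have hnew : ∀ x : s.S0, ∃ v : CohL (d.DQ_dvd i) (d.char P.u) s.Kbar, P.NewAt x.1 →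
      v ≠ 0 ∧ (∀ ℓ : ℕ, ℓ.Prime → ℓ ∉ d.S →
        heckeT' (d.DQ_dvd i) (d.char P.u) s.Kbar ℓ v = P.a ℓ • v) ∧
      heckeT' (d.DQ_dvd i) (d.char P.u) s.Kbar x.1
        (heckeT' (d.DQ_dvd i) (d.char P.u) s.Kbar x.1 v) = v := fun x => by
    by_cases h : P.NewAt x.1
    · obtain ⟨v, hv⟩ := h
      exact ⟨v, fun _ => hv⟩
    · exact ⟨0, fun h' => absurd h' h⟩
  choose vnew hvnew using hnew
  let Ieig := Σ x : s.S0, {c : s.Kbar // P.HasEigen x.1 c}
  have : ∀ x : s.S0, Finite {c : s.Kbar // P.HasEigen x.1 c} := fun x =>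
    (P.finite_hasEigen x.1).to_subtype
  let veig : Ieig → CohL (d.DQ_dvd i) (d.char P.u) s.Kbar := fun e => e.2.2.choose
  obtain ⟨C, hC⟩ := exists_coeffRing (O := s.O)
    (T := Set.range P.u ∪ (T x₀ ∪ ((⋃ x : s.S0, T (vnew x)) ∪ ⋃ e : Ieig, T (veig e))))
    ((Set.finite_range _).union ((hTfin _).union
      ((Set.finite_iUnion fun _ => hTfin _).union (Set.finite_iUnion fun _ => hTfin _))))
  simp only [Set.union_subset_iff, Set.iUnion_subset_iff] at hC
  obtain ⟨hCu, hC0, hCnew, hCeig⟩ := hC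
  have hu : ∀ j, ∃ y : C.R, C.emb y = P.u j := by
    intro j
    obtain ⟨w, hw⟩ := hCu ⟨j, rfl⟩
    have hwint : IsIntegral C.R w := by
      refine IsIntegral.of_pow (pow_pos s.hp.out.pos (n + 1)) ?_
      rw [show w ^ s.p ^ (n + 1) = 1 from C.fracEmb.injective (by
        rw [map_pow, hw, P.hu, map_one])]
      exact isIntegral_one
    obtain ⟨y, rfl⟩ := IsIntegrallyClosed.isIntegral_iff.mp hwint
    exact ⟨y, (C.fracEmb_comp y).symm.trans hw⟩
  choose u hu using hu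
  have hu1 : ∀ j, u j ^ s.p ^ (n + 1) = 1 := fun j => C.emb_inj (by
    rw [map_pow, hu, P.hu, map_one])
  have hψ : d.char P.u = (toFrac (d.char u)).ringHomComp C.fracEmb := by
    rw [toFrac, d.char_ringHomComp _ u hu1, d.char_ringHomComp _ _ (fun j => by
      rw [← map_pow, hu1, map_one])]
    congr 1
    funext j
    rw [C.fracEmb_comp, hu]
  have desc : ∀ v : CohL (d.DQ_dvd i) (d.char P.u) s.Kbar, v ≠ 0 → T v ⊆ C.fracEmb.fieldRange →
      ∃ w : CohL (d.DQ_dvd i) (toFrac (d.char u)) (FractionRing C.R), w ≠ 0 ∧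
      (∀ (ℓ : ℕ) (c : s.Kbar), heckeT' (d.DQ_dvd i) (d.char P.u) s.Kbar ℓ v = c • v →
        ∃ y : C.R, C.emb y = c ∧ heckeT' (d.DQ_dvd i) (toFrac (d.char u)) (FractionRing C.R) ℓ w =
          algebraMap C.R (FractionRing C.R) y • w) ∧
      ∀ q : ℕ, heckeT' (d.DQ_dvd i) (d.char P.u) s.Kbar q
          (heckeT' (d.DQ_dvd i) (d.char P.u) s.Kbar q v) = v →
        heckeT' (d.DQ_dvd i) (toFrac (d.char u)) (FractionRing C.R) q
          (heckeT' (d.DQ_dvd i) (toFrac (d.char u)) (FractionRing C.R) q w) = w := by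
    intro v hv hTv
    obtain ⟨w, hw, hT', hU⟩ := exists_descend_witness (d.DQ_dvd i) C.fracEmb (d.char u) _ hψ (T v)
      (z v) (hzn v) hTv (hzv v) (by rw [hz]; exact hv)
    rw [hz] at hT' hU
    refine ⟨w, hw, fun ℓ c hc => ?_, hU⟩
    obtain ⟨y, hy, hwy⟩ := hT' ℓ c hc
    exact ⟨y, (C.fracEmb_comp y).symm.trans hy, hwy⟩
  obtain ⟨w₀, hw₀, hw₀T, -⟩ := desc x₀ hx₀ hC0
  choose a₀ ha₀ ha₀T using fun ℓ : {ℓ : ℕ // ℓ.Prime ∧ ℓ ∉ d.S} =>
    hw₀T ℓ.1 _ (hsys₀ ℓ.1 ℓ.2.1 ℓ.2.2)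
  let a : ℕ → C.R := fun ℓ => if h : ℓ.Prime ∧ ℓ ∉ d.S then a₀ ⟨ℓ, h⟩ else 0
  have haa : ∀ (ℓ : ℕ) (h : ℓ.Prime ∧ ℓ ∉ d.S), a ℓ = a₀ ⟨ℓ, h⟩ := fun ℓ h => dif_pos h
  refine ⟨{ C := C, u := u, emb_u := hu, hu := hu1, a := a
            emb_a := fun ℓ hℓ hℓS => by rw [haa ℓ ⟨hℓ, hℓS⟩]; exact ha₀ _
            system := ⟨w₀, hw₀, fun ℓ hℓ hℓS => by
              beta_reduce; rw [haa ℓ ⟨hℓ, hℓS⟩]; exact ha₀T ⟨ℓ, hℓ, hℓS⟩⟩
            new := fun x hx h => ?_
            eigen := fun x hx hxp c h => ?_ }⟩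
  · obtain ⟨hv, hvT, hvU⟩ := hvnew ⟨x, hx⟩ h
    obtain ⟨w, hw, hwT, hwU⟩ := desc _ hv (hCnew ⟨x, hx⟩)
    refine ⟨w, hw, fun ℓ hℓ hℓS => ?_, hwU x hvU⟩
    obtain ⟨y, hy, hwy⟩ := hwT ℓ _ (hvT ℓ hℓ hℓS)
    beta_reduce
    rw [show a ℓ = y from C.emb_inj (by rw [hy, haa ℓ ⟨hℓ, hℓS⟩]; exact ha₀ _)]
    exact hwy
  · let e : Ieig := ⟨⟨x, hx⟩, c, h⟩
    obtain ⟨hv, hvT, hvx⟩ := e.2.2.choose_spec
    obtain ⟨w, hw, hwT, -⟩ := desc (veig e) hv (hCeig e)
    obtain ⟨y, hy, hwy⟩ := hwT x c hvx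
    refine ⟨y, hy, w, hw, fun ℓ hℓ hℓS => ?_⟩
    beta_reduce
    by_cases hlx : ℓ = x
    · subst hlx
      rw [Function.update_self]
      exact hwy
    · have hℓS' : ℓ ∉ d.S := fun hm => hℓS (Finset.mem_erase.mpr ⟨hlx, hm⟩)
      obtain ⟨y', hy', hwy'⟩ := hwT ℓ _ (hvT ℓ hℓ hℓS')
      rw [Function.update_of_ne hlx,
        show a ℓ = y' from C.emb_inj (by rw [hy', haa ℓ ⟨hℓ, hℓS'⟩]; exact ha₀ _)]
      exact hwy'

variable {P}

/-- The residual representation over the residue field of the coefficients. -/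
abbrev Data.rbar (D : P.Data) : ResidualGaloisRep (ResidueField D.C.R) :=
  s.ρbar.baseChangeAlong (ResidueField.map (algebraMap s.O D.C.R))

theorem Data.residue_a (D : P.Data) {ℓ : ℕ} (hℓ : ℓ.Prime) (hℓS : ℓ ∉ d.S) :
    residue D.C.R (D.a ℓ) = ResidueField.map (algebraMap s.O D.C.R) (s.abar ℓ) :=
  residue_eq_of_isCongruent D.C.emb _ D.C.emb_comp s.abar d.S P.a P.congr hℓ hℓS (D.emb_a ℓ hℓ hℓS)

/-- A point over its coefficients is a twisted point, for any values at the primes left out. -/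
theorem Data.twistedPoint (D : P.Data) (a' : ℕ → D.C.R)
    (ha' : ∀ ℓ : ℕ, ℓ.Prime → ℓ ∉ d.S → a' ℓ = D.a ℓ) :
    TwistedPoint s.p D.rbar (d.levQ i) d.DQ (d.char D.u) d.S a' where
  dvd := d.DQ_dvd i
  squarefree := d.squarefree_levQ i
  p_ne_two := s.hp2
  p_mem := ETransfer.natCast_mem_maximalIdeal (algebraMap s.O D.C.R) D.C.instLocal s.hpO
  pPower x := ⟨n + 1, d.char_pow_eq_one D.u D.hu x⟩
  p_mem_set := d.mem_S_of_mem s.p_mem_S0
  level_mem_set ℓ hℓ h := d.prime_dvd_levQ_mem hℓ h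
  hasSystem := by
    obtain ⟨w, hw, hT⟩ := D.system
    exact ⟨w, hw, fun ℓ hℓ hℓS => by
      change _ = algebraMap D.C.R _ (a' ℓ) • w
      rw [ha' ℓ hℓ hℓS]; exact hT ℓ hℓ hℓS⟩
  absIrr := isAbsolutelyIrreducible_extend _ _ s.habs
  odd := isOdd_extend _ _ s.hodd
  residue_trace ℓ hℓ hℓS A hA σ hσ := by
    rw [ha' ℓ hℓ hℓS, D.residue_a hℓ hℓS, (det_trace_baseChangeAlong _ _ σ).2,
      (s.residual_frobenius hℓ (fun h => hℓS (d.mem_S_of_mem h)) hA hσ).1]
  residue_det ℓ hℓ hℓS A hA σ hσ := by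
    rw [(det_trace_baseChangeAlong _ _ σ).1,
      (s.residual_frobenius hℓ (fun h => hℓS (d.mem_S_of_mem h)) hA hσ).2, map_natCast]

end FAux.Pt

/-- Every point has its representation. -/
theorem exists_fRep {d : FAux s r n} {i : Fin (s.K + 1)} (P : d.Pt i) : Nonempty (FRep P) := by
  classical
  obtain ⟨D⟩ := P.exists_data
  have h := D.twistedPoint D.a fun _ _ _ => rfl
  obtain ⟨ρ, hρ, hdet, hres, -⟩ := h.exists_rep
  obtain ⟨b, hb⟩ := exists_basis_red s.ρbar (ResidueField.map (algebraMap s.O D.C.R)) ρ hres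
  let rep := Deform.repMat b ρ.ρ
  let hrep := Deform.mcont_repMat ρ b
  have hF : HasFrobPoly (Deform.toRep rep hrep) d.S D.a := hasFrobPoly_toRep ρ b hρ
  obtain ⟨e⟩ := Deform.isEquiv_toRep ρ b
  have hord : s.p ∣ s.N → (GaloisRepAdic.ofResidualGaloisRep D.rbar).IsOrdinaryAt s.p := fun hp =>
    isOrdinaryAt_residual _ s.ρbar _ ⟨ResidualGaloisRep.Equiv.refl _⟩ (s.isOrdinaryAt_residual_target hp)
  have htr : ∀ g, (rep g).trace = LinearMap.trace D.C.R _ ((Deform.toRep rep hrep).ρ g) :=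
    fun g => (trace_toRep_pts rep hrep g).symm
  refine ⟨{ O' := D.C.R, emb := D.C.emb, emb_inj := D.C.emb_inj, emb_comp := D.C.emb_comp
            u := D.u, emb_u := D.emb_u, hu := D.hu, a := D.a, emb_a := D.emb_a
            residue_a := fun ℓ hℓ hℓS => D.residue_a hℓ hℓS
            rep := rep, hrep := hrep, red := hb, frob := hF
            det := ETransfer.detIsCyclotomic_of_equiv e hdet
            unramified := fun x hx hxp hxL => h.isUnramifiedAt hF hx hxL hxp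
            unipotent := ?_
            flat := fun hp => h.isFlatAt hF (d.p_not_dvd_levQ i hp)
            flat_or_strict := fun hp =>
              h.isFlatAt_or_isStrictOrdinaryAt hF (d.dvd_levQ_of_dvd_N hp i) (hord hp)
            ordinary := fun hp => h.isOrdinaryAt hF (hord hp)
            strict_new := fun hp hnew => h.isStrictOrdinaryAt hF (d.dvd_levQ_of_dvd_N hp i)
              (hord hp) (D.new s.p s.p_mem_S0 hnew)
            trace_new := ?_
            trace_old := ?_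
            tauQ := ?_ }⟩
  · intro x hx hxp hxN
    have hmem : x ∈ s.S0 := by
      rcases hxN with h1 | ⟨a, rfl⟩
      · exact (s.hS0 x).mpr (Or.inr (Or.inl ⟨hx, h1.mul_right _⟩))
      · exact s.q_mem_leftOut a
    by_cases hxL : x ∣ d.levQ i
    · exact h.isUnipotentOnInertiaAt hF hx hxL (d.not_dvd_DQ_of_mem hx hmem) hxp
    · exact isUnipotentOnInertiaAt_of_unramified (h.isUnramifiedAt hF hx hxL hxp)
  · intro a' ha' hnew
    have : Fact (s.q a').Prime := ⟨(s.hq a').1⟩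
    rw [htr]
    exact h.trace_frobenius_sq hF (s.hq a').1 ((d.q_dvd_levQ_iff a' i).mpr ha')
      (d.not_dvd_DQ_of_mem (s.hq a').1 (s.q_mem_leftOut a')) (s.hq a').2.1
      (D.new _ (s.q_mem_leftOut a') hnew) (padicPlace (s.q a')) (padicPlace_liesOverPrime _) _
      (s.hgen a').frob
  · intro a' hi c hc
    have : Fact (s.q a').Prime := ⟨(s.hq a').1⟩
    obtain ⟨y, hy, hsys⟩ := D.eigen _ (s.q_mem_leftOut a') (s.hq a').1 c hc
    have hupd : ∀ ℓ : ℕ, ℓ.Prime → ℓ ∉ d.S → Function.update D.a (s.q a') y ℓ = D.a ℓ :=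
      fun ℓ _ hℓS => Function.update_of_ne
        (fun hh : ℓ = s.q a' => hℓS (hh ▸ d.mem_S_of_mem (s.q_mem_leftOut a'))) _ _
    have h2 := D.twistedPoint _ hupd
    have hF2 : HasFrobPoly (Deform.toRep rep hrep) d.S (Function.update D.a (s.q a') y) :=
      fun ℓ hℓ hℓS A hA σ hσ => by rw [hupd ℓ hℓ hℓS]; exact hF ℓ hℓ hℓS A hA σ hσ
    have hqL : ¬ s.q a' ∣ d.levQ i := fun hd => by
      have := (d.q_dvd_levQ_iff a' i).mp hd
      simp [hi] at this
    obtain ⟨ht, -⟩ := CondLevel.trace_det_of_charpoly_eq (Deform.stdBasis rep hrep) _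
      (h2.charpoly_frobenius_of_system hF2 (s.hq a').1 hqL (s.hq a').2.1 hsys
        (padicPlace (s.q a')) (padicPlace_liesOverPrime _) _ (s.hgen a').frob)
    rw [htr, ht, Function.update_self, hy]
  · intro j
    have : Fact (d.Q j).Prime := ⟨d.prime j⟩
    have hcop : Nat.Coprime (d.Q j) (d.DQ / d.Q j) :=
      Nat.coprime_of_squarefree_mul (by
        rw [Nat.mul_div_cancel' (d.Q_dvd_DQ j)]
        exact (d.squarefree_levQ i).squarefree_of_dvd (d.DQ_dvd i))
    obtain ⟨m, hm1, hm2⟩ := Nat.chineseRemainder hcop (d.gen j) 1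
    have e1 : ((m : ℤ) : ZMod (d.Q j)) = ((d.gen j : ℕ) : ZMod (d.Q j)) := by
      rw [Int.cast_natCast, ZMod.natCast_eq_natCast_iff]; exact hm1
    have e2 : ((m : ℤ) : ZMod (d.DQ / d.Q j)) = 1 := by
      rw [Int.cast_natCast, ← Nat.cast_one, ZMod.natCast_eq_natCast_iff]; exact hm2
    have hval := d.char_apply_gen D.u D.hu j m e1 e2
    have hcp := h.charpoly_inertia hF (d.prime j) (d.Q_dvd_DQ j) (d.Q_ne_residueChar j)
      (s.isUnramifiedAt_extend _ (d.prime j) (d.notMem j)) (padicPlace (d.Q j))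
      (padicPlace_liesOverPrime _) (d.tauQ j) (d.tauQ_mem j) (d.gen j) (d.gen_spec j) m e1 e2
    set v := (d.char D.u)⁻¹ ((m : ℤ) : ZMod d.DQ) with hv
    rw [hval] at hcp
    obtain ⟨ht, -⟩ := CondLevel.trace_det_of_charpoly_eq (Deform.stdBasis rep hrep) _
      (t := D.u j + v) (d := D.u j * v) (hcp.trans (by rw [map_add, map_mul]; ring))
    have huv : v * D.u j = 1 := by
      have hunit : IsUnit ((m : ℤ) : ZMod d.DQ) := by
        by_contra hno
        have h0 := MulChar.map_nonunit (d.char D.u) hno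
        rw [hval] at h0
        have := D.hu j
        rw [h0, zero_pow (pow_ne_zero _ s.hp.out.ne_zero)] at this
        exact zero_ne_one this
      rw [hv, ← hval, ← MulChar.mul_apply, inv_mul_cancel, MulChar.one_apply hunit]
    rw [htr, ht]
    linear_combination huv

/-- There are finitely many points. -/
theorem finite_pts (d : FAux s r n) (i : Fin (s.K + 1)) :
    {x : (Fin r → s.Kbar) × (GoodIdx d.S → s.Kbar) |
      ∃ P : d.Pt i, x = (P.u, fun ℓ => P.a ℓ.1)}.Finite := by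
  have hroots : {u : Fin r → s.Kbar | ∀ j, u j ^ s.p ^ (n + 1) = 1}.Finite := by
    refine (Set.Finite.pi fun _ => (Polynomial.finite_setOfPred_isRoot
      (Polynomial.X_pow_sub_C_ne_zero (pow_pos s.hp.out.pos (n + 1)) (1 : s.Kbar)))).subset ?_
    intro u hu j _
    simp [hu j]
  refine (Set.Finite.subset (Set.Finite.biUnion' hroots (t := fun u _ => (fun f => (u, f)) ''
      {f : GoodIdx d.S → s.Kbar | ∃ a : ℕ → s.Kbar,
        HasSystem (d.DQ_dvd i) (d.char u) d.S a ∧ f = fun ℓ => a ℓ.1})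
      fun u _ => (finite_hasSystem (d.DQ_dvd i) _ d.S).image _) ?_)
  rintro x ⟨P, rfl⟩
  simp only [Set.mem_iUnion, Set.mem_image]
  exact ⟨P.u, P.hu, _, ⟨P.a, P.system, rfl⟩, rfl⟩

end Fermat.Agent.Lifting
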