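import Fermat.Agent.Ribet.Twisted.Lift
import Mathlib.LinearAlgebra.Eigenspace.Basic

/-!
# Modularity lifting: values of cocycles, finiteness of systems

A class over a field has a normalised representative with values in any subfield containing a
suitable finite set and the values of the character; a finite dimensional space carries finitely
many systems of eigenvalues.
-/

set_option autoImplicit false

noncomputable section

namespace Fermat.Agent.Lifting

open Fermat.Agent.Ribet.Twisted CongruenceSubgroup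

/-- The representative is normalised, as the descent of a class to a subfield requires. -/
def IsNormalisedCocycle {L D : ℕ} {K : Type} [Field K] (hD : D ∣ L) (ψ : DirichletCharacter K D)
    (z : cocycles (chr hD ψ) K) : Prop :=
  (∀ γ, chr hD ψ γ = 1) ∨ ∃ γ₁, chr hD ψ γ₁ ≠ 1 ∧ (z : Gamma0 L → K) γ₁ = 0

/-- A class has a normalised representative with values in every subfield which contains a
suitable finite set and the values of the character. -/
theorem exists_valueSet {L D : ℕ} [NeZero L] {K : Type} [Field K] (hD : D ∣ L)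
    (ψ : DirichletCharacter K D) (x : CohL hD ψ K) :
    ∃ (T : Set K) (z : cocycles (chr hD ψ) K), T.Finite ∧ Coh.mk (chr hD ψ) K z = x ∧
      IsNormalisedCocycle hD ψ z ∧
      ∀ F : Subfield K, T ⊆ F → (∀ γ, chr hD ψ γ ∈ F) → ∀ γ, (z : Gamma0 L → K) γ ∈ F := by
  classical
  obtain ⟨z₀, rfl⟩ := Coh.mk_surjective x
  obtain ⟨z, hz, hn⟩ : ∃ z : cocycles (chr hD ψ) K,
      Coh.mk (chr hD ψ) K z = Coh.mk (chr hD ψ) K z₀ ∧ IsNormalisedCocycle hD ψ z := by
    by_cases h : ∀ γ, chr hD ψ γ = 1
    · exact ⟨z₀, rfl, Or.inl h⟩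
    · push Not at h
      obtain ⟨γ₁, h1⟩ := h
      refine ⟨z₀ - coboundary (chr hD ψ) K ((z₀ : Gamma0 L → K) γ₁ / (chr hD ψ γ₁ - 1)), ?_,
        Or.inr ⟨γ₁, h1, ?_⟩⟩
      · rw [map_sub, sub_eq_self, Coh.mk_eq_zero]
        exact ⟨_, rfl⟩
      · have h1' : chr hD ψ γ₁ - 1 ≠ 0 := sub_ne_zero.mpr h1
        rw [Submodule.coe_sub, Pi.sub_apply, coboundary_apply, smul_eq_mul]
        field_simp
        ring
  have := ParHom.group_fg_SL2Z
  have : Group.FG (Gamma0 L) := Subgroup.fg_of_index_ne_zero _
  obtain ⟨s, hs, hfin⟩ := Group.fg_iff.1 this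
  refine ⟨(z : Gamma0 L → K) '' s, z, hfin.image _, hz, hn, fun F hT hF γ => ?_⟩
  have hγ : γ ∈ Subgroup.closure s := by rw [hs]; trivial
  induction hγ using Subgroup.closure_induction with
  | mem g hg => exact hT ⟨g, hg, rfl⟩
  | one => rw [cocycle_one]; exact zero_mem F
  | mul g h _ _ hg hh => rw [z.2, smul_eq_mul]; exact add_mem hg (mul_mem (hF g) hh)
  | inv g _ hg => rw [cocycle_inv, smul_eq_mul]; exact neg_mem (mul_mem (hF g⁻¹) hg)

/-- A finite dimensional space carries finitely many systems of eigenvalues. -/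
theorem finite_eigenSystems {K V ι : Type*} [Field K] [AddCommGroup V] [Module K V]
    [FiniteDimensional K V] (T : ι → Module.End K V) :
    {a : ι → K | ∃ v : V, v ≠ 0 ∧ ∀ i, T i v = a i • v}.Finite := by
  classical
  obtain ⟨t, ht, hspan, hli⟩ := exists_linearIndependent K (Set.range T)
  have : Finite t := hli.finite
  choose pre hpre using fun f : t => ht f.2
  have hE : (Set.pi Set.univ fun f : t => {c : K | Module.End.HasEigenvalue (f : Module.End K V) c}).Finite :=
    Set.Finite.pi fun f => Module.End.finite_hasEigenvalue _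
  refine Set.Finite.of_finite_image (f := fun a (f : t) => a (pre f)) (hE.subset ?_) ?_
  · rintro _ ⟨a, ⟨v, hv, hav⟩, rfl⟩ f -
    exact Module.End.hasEigenvalue_of_hasEigenvector
      ⟨Module.End.mem_eigenspace_iff.mpr (by rw [← hpre f, hav]), hv⟩
  · rintro a ⟨v, hv, hav⟩ b ⟨w, hw, hbw⟩ hab
    funext i
    have hi : T i ∈ Submodule.span K t := hspan ▸ Submodule.subset_span ⟨i, rfl⟩
    have key : ∀ f ∈ Submodule.span K t, ∃ c : K, f v = c • v ∧ f w = c • w := by
      intro f hf
      induction hf using Submodule.span_induction with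
      | mem g hg =>
        have h1 : a (pre ⟨g, hg⟩) = b (pre ⟨g, hg⟩) := congrFun hab ⟨g, hg⟩
        refine ⟨a (pre ⟨g, hg⟩), ?_, ?_⟩
        · rw [← hav, hpre]
        · rw [h1, ← hbw, hpre]
      | zero => exact ⟨0, by simp, by simp⟩
      | add f g _ _ hf hg =>
        obtain ⟨c, hc, hc'⟩ := hf
        obtain ⟨d, hd, hd'⟩ := hg
        exact ⟨c + d, by simp [hc, hd, add_smul], by simp [hc', hd', add_smul]⟩
      | smul e f _ hf =>
        obtain ⟨c, hc, hc'⟩ := hf
        exact ⟨e * c, by simp [hc, mul_smul], by simp [hc', mul_smul]⟩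
    obtain ⟨c, hc, hc'⟩ := key _ hi
    rw [hav] at hc
    rw [hbw] at hc'
    rw [smul_left_injective K hv hc, smul_left_injective K hw hc']

end Fermat.Agent.Lifting

end
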