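import Fermat.Agent.Lifting.APatchDefs
import Fermat.Agent.Lifting.BPlaces
import Fermat.Agent.Lifting.CMod
import Fermat.Agent.Lifting.EDefs
import Fermat.Agent.Deform.MatrixRep
import Fermat.Agent.Ribet.Avoid.Setup
import Fermat.Prelude.Def_GaloisRep_StrictOrdinary

/-!
# Modularity lifting: the fixed data of one target representation

`FSetup` packages what the patching argument uses about the target representation `rW` (in the
application: the `p`-adic representation of a semistable curve), `FAux` the Taylor-Wiles primes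
of one level.  The modules of the level `n` are the parts at the residual system of the twisted
cohomology of the levels `lev i * ∏ Q`, with coefficients in `S / 𝔪 ^ (n + 1)`.
-/

set_option autoImplicit false

noncomputable section

namespace Fermat.Agent.Lifting

open IsLocalRing MvPowerSeries
open Fermat.Agent.Ribet.Twisted (HasSystem CohL heckeT')
open Fermat.Agent.Ribet.Avoid (charOfGen)

local notation "ℚbar" => AlgebraicClosure ℚ
local notation "Γℚ" => AlgebraicClosure ℚ ≃ₐ[ℚ] AlgebraicClosure ℚ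

/-- The centre of Frobenius at a place. -/
def frobCentre {O : Type} [CommRing O] (q : ℕ) (eps beta : O) : Matrix (Fin 2) (Fin 2) O :=
  !![eps * (q : O), beta; 0, eps]

/-- The data of one lifting problem.  The level is `N`, the places where it has to be raised are
the `q a`, and `aux` is `1` or an auxiliary prime. -/
structure FSetup : Type 1 where
  /-- the residue characteristic -/
  p : ℕ
  [hp : Fact p.Prime]
  hp2 : p ≠ 2
  /-- the coefficients -/
  O : Type
  [instCommRing : CommRing O]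
  [instDomain : IsDomain O]
  [instDVR : IsDiscreteValuationRing O]
  [instComplete : IsAdicComplete (maximalIdeal O) O]
  [instFinite : Finite (ResidueField O)]
  [instCharZero : CharZero O]
  hpO : (p : O) ∈ maximalIdeal O
  /-- the residual representation -/
  ρbar : ResidualGaloisRep (ResidueField O)
  habs : ρbar.IsAbsolutelyIrreducible
  hodd : ρbar.IsOdd
  hdet : (GaloisRepAdic.ofResidualGaloisRep ρbar).DetIsCyclotomic p
  hsplit : ∀ σ : Γℚ, ∃ α β : ResidueField O, LinearMap.charpoly (ρbar.ρ σ) =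
    (Polynomial.X - Polynomial.C α) * (Polynomial.X - Polynomial.C β)
  hTW : ∀ (K : Type) [Field K] [Algebra (ResidueField O) K] (G : Subgroup Γℚ), G.index = 2 →
    ∀ V : Submodule K (ρbar.baseChange K).V,
      (∀ σ ∈ G, ∀ x ∈ V, (ρbar.baseChange K).ρ σ x ∈ V) → V = ⊥ ∨ V = ⊤
  /-- the target -/
  rW : Γℚ →* Matrix (Fin 2) (Fin 2) O
  hrW : Deform.MCont rW
  hred : ∀ g, (rW g).map (residue O) = TW.matRep ρbar g
  hdetW : (Deform.toRep rW hrW).DetIsCyclotomic p
  /-- the fixed part of the level -/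
  N : ℕ
  hN : Squarefree N
  /-- the number of places where the level is raised -/
  K : ℕ
  /-- the places where the level is raised -/
  q : Fin K → ℕ
  q_inj : Function.Injective q
  hq : ∀ a, (q a).Prime ∧ q a ≠ p ∧ ¬ q a ∣ N
  /-- `1` or the auxiliary prime -/
  aux : ℕ
  haux : aux = 1 ∨ (aux.Prime ∧ aux ≠ p ∧ ¬ aux ∣ N ∧ ∀ a, q a ≠ aux)
  hauxres : aux ≠ 1 → (aux : ResidueField O) = -1 ∧
    ∀ A : ValuationSubring ℚbar, A.LiesOverPrime aux → ∀ σ : Γℚ, A.IsFrobeniusAt σ aux →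
      LinearMap.trace (ResidueField O) ρbar.V (ρbar.ρ σ) ≠ 0
  hthree : p = 3 → ∃ x : ℕ, x.Prime ∧ x ∣ N * aux ∧ x % 3 = 2
  /-- the primes left out -/
  S0 : Finset ℕ
  hS0 : ∀ x : ℕ, x ∈ S0 ↔ x = p ∨ (x.Prime ∧ x ∣ N * aux) ∨ ∃ a, q a = x
  /-- the eigenvalues of the target -/
  aW : ℕ → O
  hfrobW : HasFrobPoly (Deform.toRep rW hrW) S0 aW
  hunrW : ∀ x : ℕ, x.Prime → x ≠ p → ¬ x ∣ N → (∀ a, q a ≠ x) →
    (Deform.toRep rW hrW).IsUnramifiedAt x
  hminres : ∀ x : ℕ, x.Prime → x ∣ N → x ≠ p → ¬ ρbar.IsUnramifiedAt x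
  hresq : ∀ a, ρbar.IsUnramifiedAt (q a)
  hunipW : ∀ x : ℕ, x.Prime → x ∣ N → x ≠ p → (Deform.toRep rW hrW).IsUnipotentOnInertiaAt x
  hflatW : ¬ p ∣ N → (Deform.toRep rW hrW).IsFlatAt p
  hordW : p ∣ N → (Deform.toRep rW hrW).IsStrictOrdinaryAt p
  /-- the signs at the places -/
  eps : Fin K → O
  heps : ∀ a, eps a ^ 2 = 1
  /-- upper right entries of the centres of Frobenius -/
  beta : Fin K → O
  hbeta : ∀ a, (beta a = 1 ∧ ¬ IsUnit ((q a : O) - 1)) ∨ beta a = 0
  /-- the frames at the places -/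
  frame : Fin K → GL (Fin 2) O
  /-- Frobenius elements at the places -/
  phi : Fin K → Γℚ
  /-- inertia generators at the places -/
  tau : Fin K → Γℚ
  hgen : ∀ a, ∀ [Fact (q a).Prime], IsPlaceGenerators p (q a) (phi a) (tau a)
  hphi : ∀ a, TW.matRep ρbar (phi a) = ((frame a).val * frobCentre (q a) (eps a) (beta a) *
    ((frame a)⁻¹).val).map (residue O)
  htrW : ∀ a, (rW (phi a)).trace = eps a * ((q a : O) + 1)
  hmonoW : ∀ a,
    let Φ : Matrix (Fin 2) (Fin 2) O := ((frame a)⁻¹).val * rW (phi a) * (frame a).val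
    let Nm : Matrix (Fin 2) (Fin 2) O := ((frame a)⁻¹).val * rW (tau a) * (frame a).val - 1
    Nm.trace = 0 ∧ Φ * Nm = (eps a * (q a : O)) • Nm ∧ Nm * Φ = eps a • Nm
  /-- the sign at `p` -/
  epsP : O
  hepsP : epsP ^ 2 = 1
  /-- a Frobenius element at `p` -/
  frobP : Γℚ
  /-- an inertia element at `p` with determinant not `1` modulo `p` -/
  tauP : Γℚ
  hfrobP : (padicPlace p).IsFrobeniusAt frobP p
  htauP : tauP ∈ (padicPlace p).inertiaSubgroupIn ℚ
  hunitP : IsUnit (1 - (rW tauP).det)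
  hPW : p ∣ N → (rW (frobP * tauP)).trace - (rW tauP).det * (rW frobP).trace =
    (1 - (rW tauP).det) * epsP
  hEis : ∀ (m : ℕ) (T : Finset ℕ), 0 < m → ∃ ℓ : ℕ, ℓ.Prime ∧ ℓ ∉ T ∧ (ℓ : ZMod m) = 1 ∧
    residue O (aW ℓ) ≠ (ℓ : ResidueField O) + 1
  hIhara : ∀ T : Finset ℕ, ∃ ℓ : ℕ, ℓ.Prime ∧ ℓ ∉ T ∧
    residue O (aW ℓ) ^ 2 ≠ ((ℓ : ResidueField O) + 1) ^ 2
  hres : ∀ (L : ℕ) [NeZero L], L = N * aux →
    ∃ x : MPart (one_dvd L) (1 : DirichletCharacter (ResidueField O) 1) (RingHom.id _)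
      (fun ℓ : GoodIdx S0 => residue O (aW ℓ)) (ResidueField O), x ≠ 0

attribute [instance] FSetup.hp FSetup.instCommRing FSetup.instDomain FSetup.instDVR
  FSetup.instComplete FSetup.instFinite FSetup.instCharZero

namespace FSetup

variable (s : FSetup)

/-- The residue field. -/
abbrev kk : Type := ResidueField s.O

/-- An algebraic closure of the fractions. -/
abbrev Kbar : Type := AlgebraicClosure (FractionRing s.O)

/-- The residual system. -/
def abar (ℓ : ℕ) : s.kk := residue s.O (s.aW ℓ)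

/-- The target as a representation. -/
abbrev target : GaloisRepAdic s.O := Deform.toRep s.rW s.hrW

/-- The shape: `p ∣ N` adds the flat world. -/
def shape (r : ℕ) : Shape := ⟨s.K, r, r - 1, decide (s.p ∣ s.N)⟩

theorem isUnit_natCast {x : ℕ} (hx : x.Prime) (hxp : x ≠ s.p) : IsUnit (x : s.O) := by
  by_contra h
  obtain ⟨u, v, huv⟩ := Nat.isCoprime_iff_coprime.mpr ((Nat.coprime_primes hx s.hp.out).mpr hxp)
  apply (maximalIdeal.isMaximal s.O).ne_top
  rw [Ideal.eq_top_iff_one]
  have h1 := congrArg (Int.cast : ℤ → s.O) huv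
  push_cast at h1
  rw [← h1]
  exact add_mem (Ideal.mul_mem_left _ _ h) (Ideal.mul_mem_left _ _ s.hpO)

/-- The places. -/
def places (r : ℕ) : Places s.O (s.shape r) where
  q := s.q
  eps := s.eps
  beta := s.beta
  eps_sq := s.heps
  two_le a := (s.hq a).1.two_le
  isUnit_q a := s.isUnit_natCast (s.hq a).1 (s.hq a).2.1
  beta_spec := s.hbeta

/-- Local coordinates of the target. -/
def wLoc (v : Fin s.K × Bool × Fin 2 × Fin 2) : s.O :=
  match v.2.1 with
  | true => (((s.frame v.1)⁻¹).val * s.rW (s.phi v.1) * (s.frame v.1).val -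
      frobCentre (s.q v.1) (s.eps v.1) (s.beta v.1)) v.2.2.1 v.2.2.2
  | false => (((s.frame v.1)⁻¹).val * s.rW (s.tau v.1) * (s.frame v.1).val - 1) v.2.2.1 v.2.2.2

/-- The level with the first `i` places, without the Taylor-Wiles primes. -/
def lev (i : Fin (s.K + 1)) : ℕ :=
  s.N * s.aux * ∏ a : Fin i, s.q (a.castLE (Nat.lt_succ_iff.mp i.2))

theorem lev_zero : s.lev 0 = s.N * s.aux := by simp [lev]

theorem lev_succ (i : Fin s.K) : s.lev i.succ = s.lev i.castSucc * s.q i := by
  simp only [lev, Fin.val_succ, Fin.val_castSucc]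
  rw [Fin.prod_univ_castSucc, ← mul_assoc]
  rfl

theorem aux_pos : 0 < s.aux := by
  rcases s.haux with h | h
  · simp [h]
  · exact h.1.pos

instance (i : Fin (s.K + 1)) : NeZero (s.lev i) :=
  ⟨mul_ne_zero (mul_ne_zero s.hN.ne_zero s.aux_pos.ne')
    (Finset.prod_ne_zero_iff.mpr fun _ _ => (s.hq _).1.ne_zero)⟩

end FSetup

/-- The Taylor-Wiles primes of the level `n + 1`. -/
structure FAux (s : FSetup) (r n : ℕ) where
  /-- the primes -/
  Q : Fin r → ℕ
  inj : Function.Injective Q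
  prime : ∀ j, (Q j).Prime
  notMem : ∀ j, Q j ∉ s.S0
  dvd : ∀ j, s.p ^ (n + 1) ∣ Q j - 1
  distinct : ∀ j, ∀ A : ValuationSubring ℚbar, A.LiesOverPrime (Q j) →
    ∀ φ : Γℚ, A.IsFrobeniusAt φ (Q j) → ∃ α β : s.kk, α ≠ β ∧
      LinearMap.charpoly (s.ρbar.ρ φ) =
        (Polynomial.X - Polynomial.C α) * (Polynomial.X - Polynomial.C β)
  /-- inertia elements at them -/
  tauQ : Fin r → Γℚ
  /-- their cyclotomic values -/
  gen : Fin r → ℕ
  tauQ_mem : ∀ j, ∀ [Fact (Q j).Prime], tauQ j ∈ (padicPlace (Q j)).inertiaSubgroupIn ℚ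
  gen_spec : ∀ j, ∀ μ : ℚbar, μ ^ Q j = 1 → tauQ j μ = μ ^ gen j
  gen_order : ∀ j, orderOf ((gen j : ℕ) : ZMod (Q j)) = Q j - 1

namespace FAux

variable {s : FSetup} {r n : ℕ} (d : FAux s r n)

/-- The modulus. -/
def DQ : ℕ := ∏ j, d.Q j

theorem Q_dvd_DQ (j : Fin r) : d.Q j ∣ d.DQ := Finset.dvd_prod_of_mem _ (Finset.mem_univ j)

instance : NeZero d.DQ := ⟨Finset.prod_ne_zero_iff.mpr fun j _ => (d.prime j).ne_zero⟩

/-- The level with the first `i` places. -/
def levQ (i : Fin (s.K + 1)) : ℕ := s.lev i * d.DQ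

theorem DQ_dvd (i : Fin (s.K + 1)) : d.DQ ∣ d.levQ i := Dvd.intro_left _ rfl

instance (i : Fin (s.K + 1)) : NeZero (d.levQ i) := ⟨mul_ne_zero (NeZero.ne _) (NeZero.ne _)⟩

/-- The primes left out at this level. -/
def S : Finset ℕ := s.S0 ∪ Finset.univ.image d.Q

/-- The character with value `u j` at the generator for the `j`th prime. -/
def char {A : Type*} [CommRing A] (u : Fin r → A) : DirichletCharacter A d.DQ :=
  ∏ j, DirichletCharacter.changeLevel (d.Q_dvd_DQ j) (charOfGen (d.Q j) (d.gen j) (u j))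

variable (n)

/-- The coefficients. -/
abbrev Coeff (_d : FAux s r n) : Type := (s.shape r).SLvl s.O (n + 1)

/-- The values of the diamond character. -/
def yval (j : Fin r) : Coeff n d :=
  Ideal.Quotient.mk _ (1 + X (Sum.inl j))

theorem le_maximalIdeal (m : ℕ) :
    maximalIdeal ((s.shape r).Sring s.O) ^ (m + 1) ≤ maximalIdeal ((s.shape r).Sring s.O) :=
  Ideal.pow_le_self m.succ_ne_zero

/-- The reduction of the coefficients. -/
def red : Coeff n d →+* s.kk :=
  Ideal.Quotient.lift _ ((residue s.O).comp constantCoeff) fun x hx => by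
    have h : ¬ IsUnit x := le_maximalIdeal (s := s) (r := r) n hx
    rw [MvPowerSeries.isUnit_iff_constantCoeff] at h
    exact Ideal.Quotient.eq_zero_iff_mem.mpr h

variable {n}

/-- The module of the level: the part at the residual system. -/
abbrev Mod (i : Fin (s.K + 1)) : Type :=
  MPart (d.DQ_dvd i) (d.char (yval n d)) (red n d) (fun ℓ : GoodIdx d.S => s.abar ℓ) (Coeff n d)

end FAux

end Fermat.Agent.Lifting
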