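import Fermat.Agent.Lifting.BGaugeLemmas
import Fermat.Agent.Lifting.FSelmer
import Fermat.Agent.TW.Main

/-!
# Tangent cocycles lie in the Selmer condition

A tangent vector of a coefficient ring of a deformation gives a cocycle of finite level, unramified
where the deformation is, and of minimal unipotent type where inertia has trace two.
-/

set_option autoImplicit false
set_option linter.style.haveILetI false

noncomputable section

namespace Fermat.Agent.Lifting

open IsLocalRing Fermat.Agent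

local notation "Γℚ" => AlgebraicClosure ℚ ≃ₐ[ℚ] AlgebraicClosure ℚ

variable {O : Type} [CommRing O] [IsLocalRing O]
variable {T : Type} [CommRing T] [IsLocalRing T] [Algebra O T]
variable {ρ : Γℚ →* Matrix (Fin 2) (Fin 2) T} {ψ : T →ₐ[O] ResidueField O}
  {ρbar : ResidualGaloisRep (ResidueField O)}

omit [IsLocalRing T] in
theorem tangentCocycle_eq_zero_of_rep_eq_one {r0 : Γℚ →* Matrix (Fin 2) (Fin 2) (ResidueField O)}
    {f : T →ₗ[O] ResidueField O} (hf : IsTangent ψ f) {γ : Γℚ} (hγ : ρ γ = 1) :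
    tangentCocycle ρ r0 f γ = 0 := by
  have h1 : (1 : Matrix (Fin 2) (Fin 2) T).map f = 0 := by
    ext i j
    by_cases hij : i = j
    · subst hij; simp [hf.map_one]
    · simp [Matrix.one_apply_ne hij]
  rw [tangentCocycle, hγ, h1, zero_mul]

/-- Finite level, from continuity modulo the square of the maximal ideal. -/
theorem tangentCocycle_mem_globalFiniteLevel (hr0 : ∀ γ, (ρ γ).map ψ = TW.matRep ρbar γ)
    (hlev : ∃ E : IntermediateField ℚ (AlgebraicClosure ℚ), FiniteDimensional ℚ E ∧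
      ∀ σ : Γℚ, (∀ x ∈ E, σ x = x) → ∀ i j, (ρ σ - 1) i j ∈ maximalIdeal T ^ 2)
    {f : T →ₗ[O] ResidueField O} (hf : IsTangent ψ f) :
    tangentCocycle ρ (TW.matRep ρbar) f ∈ TW.globalFiniteLevel (ResidueField O) := by
  obtain ⟨E, hE, hE'⟩ := hlev
  refine ⟨E, hE, fun g s hs => ?_⟩
  have hsq : maximalIdeal T ^ 2 ≤ maximalIdeal T := Ideal.pow_le_self two_ne_zero
  have hs1 : TW.matRep ρbar s = 1 := by
    rw [← hr0]
    ext i j
    have h := (mem_maximalIdeal_iff_algHom ψ _).1 (hsq (hE' s hs i j))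
    rw [Matrix.sub_apply, map_sub, sub_eq_zero] at h
    rw [Matrix.map_apply, h]
    by_cases hij : i = j
    · subst hij; simp
    · simp [Matrix.one_apply_ne hij]
  have hfs : (ρ s).map f = 0 := by
    ext i j
    have h := hf.map_sq (hE' s hs i j)
    rw [Matrix.sub_apply, map_sub, sub_eq_zero] at h
    rw [Matrix.map_apply, h]
    by_cases hij : i = j
    · subst hij; simp [hf.map_one]
    · simp [Matrix.one_apply_ne hij]
  have hs2 : TW.matRep ρbar s⁻¹ = 1 := by
    have h : TW.matRep ρbar s⁻¹ * TW.matRep ρbar s = 1 := by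
      rw [← map_mul, inv_mul_cancel, map_one]
    rwa [hs1, mul_one] at h
  simp only [tangentCocycle, map_mul, mul_inv_rev, hs2, one_mul]
  rw [hf.map_matrix_mul, hfs, hr0, hr0, hs1]
  simp

/-- Where inertia has trace `2`, the class is of minimal unipotent type. -/
theorem resLoc_tangentCocycle_mem_unipotentLocal (q : ℕ) [Fact q.Prime]
    (hr0 : ∀ γ, (ρ γ).map ψ = TW.matRep ρbar γ)
    (hdet : ∀ γ, ∃ t : O, (ρ γ).det = algebraMap O T t)
    (hlev : ∃ E : IntermediateField ℚ (AlgebraicClosure ℚ), FiniteDimensional ℚ E ∧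
      ∀ σ : Γℚ, (∀ x ∈ E, σ x = x) → ∀ i j, (ρ σ - 1) i j ∈ maximalIdeal T ^ 2)
    (htr : ∀ σ ∈ (padicPlace q).inertiaSubgroupIn ℚ, (ρ σ).trace = 2)
    {f : T →ₗ[O] ResidueField O} (hf : IsTangent ψ f) :
    TW.resLoc q (tangentCocycle ρ (TW.matRep ρbar) f) ∈
      TW.unipotentLocal q (TW.locRep ρbar q) := by
  refine Submodule.mem_sup_left ⟨⟨?_, ?_⟩, fun g hg => ?_⟩
  · have h := (TW.mem_adCocycles_iff _ _).1 (tangentCocycle_mem hr0 hdet hf)
    refine (TW.mem_adCocycles_iff _ _).2 ⟨fun g => h.1 _, fun g g' => ?_⟩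
    simp [TW.resLoc, TW.locRep, LinearMap.funLeft, h.2, map_inv]
  · obtain ⟨E, hE, hc⟩ := tangentCocycle_mem_globalFiniteLevel hr0 hlev hf
    obtain ⟨E', hE', hfix⟩ := TW.exists_localLevel q E
    refine ⟨E', hE', fun g s hs => ?_⟩
    simp only [TW.resLoc, LinearMap.funLeft_apply, map_mul]
    exact hc _ _ (hfix s hs)
  · show (tangentCocycle ρ (TW.matRep ρbar) f (localGaloisToGlobal q g) *
      TW.matRep ρbar (localGaloisToGlobal q g)).trace = 0
    rw [tangentCocycle_mul_self, trace_map_linear,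
      htr _ (TW.localGaloisToGlobal_mem_inertia q hg),
      show (2 : T) = 1 + 1 by norm_num, map_add, hf.map_one, add_zero]

/-- **The Selmer condition on tangent cocycles.** -/
theorem tangentCocycle_mem_selmerCond (hr0 : ∀ γ, (ρ γ).map ψ = TW.matRep ρbar γ)
    (hlev : ∃ E : IntermediateField ℚ (AlgebraicClosure ℚ), FiniteDimensional ℚ E ∧
      ∀ σ : Γℚ, (∀ x ∈ E, σ x = x) → ∀ i j, (ρ σ - 1) i j ∈ maximalIdeal T ^ 2)
    (T₀ S : Finset ℕ)
    (hunr : ∀ q : ℕ, q.Prime → q ∉ T₀ → ∀ P : ValuationSubring (AlgebraicClosure ℚ),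
      P.LiesOverPrime q → ∀ σ ∈ P.inertiaSubgroupIn ℚ, ρ σ = 1)
    (L : ∀ (q : ℕ) [Fact q.Prime],
      Submodule (ResidueField O) (TW.GalQp q → Matrix (Fin 2) (Fin 2) (ResidueField O)))
    {f : T →ₗ[O] ResidueField O} (hf : IsTangent ψ f)
    (hloc : ∀ (q : ℕ) [Fact q.Prime], q ∈ S →
      TW.resLoc q (tangentCocycle ρ (TW.matRep ρbar) f) ∈ L q) :
    tangentCocycle ρ (TW.matRep ρbar) f ∈ selmerCond T₀ S L :=
  ⟨tangentCocycle_mem_globalFiniteLevel hr0 hlev hf,
    fun q hq hqT P hP σ hσ => tangentCocycle_eq_zero_of_rep_eq_one hf (hunr q hq hqT P hP σ hσ),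
    hloc⟩

end Fermat.Agent.Lifting
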